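import Mathlib
import Fermat.Agent.S34.Plan
import Fermat.Agent.S34.Sigma
import Fermat.Agent.S28.Defs
import Fermat.Agent.S36.LiftGen

/-!
# S36 / P8 — Plan: the level-`q²` frame and its contracts (owner: helper74, P8 lead)

Standing data: `q` prime, `M` the GOOD level prime to `q` (`M = aux q * N₀`, `aux q ∈ {4, 9}`),
top level `M * q * q` (Prelude order, as in `heckeAlphaBar Kbar (M * q) q`), divisor level `N`
with `q * q ∣ N ∣ M * q * q` (`N = N₀ * q * q` in the application).  `A` a valuation subring of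
`Q̄` over `q`, `k = kk A`.  Vocabulary of `S18/Plan`, `S34/Plan`, `S36/LiftGen`.

* `Coord q`          : the `q + 1` coordinates `∞`, `0`, `mid ξ` (`ξ` a primitive `q`-th root of
                       unity of `Q̄`; the middle cusps);
* `Frame M q h`      : the data of the Atkin–Lehner involution `w` of `F_{Mq²}` and of the middle
                       embeddings `r ξ : F_{Mq²} → Q̄((T))`, with their values on the generators;
* `Frame.emb`        : the `q + 1` expansions `ε_i : F_{Mq²} →ₐ Q̄((T))`;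
* `IsSetup A F O ρ`  : `O = {g ∈ F_{Mq²} : ε_i g ∈ Ocal ∀ i}` and `ρ g = (red (ε_i g))_i`, with values
                       in `Rq A q = Coord q → k((T))`;
* `IsE3`, `phiQ2`    : `E = (j)_∞ + (j_q)_∞ + (j_{q²})_∞` and `φ = j · j_q · j_{q²}` on `F_N`;
* `eCoord`, `Lq`     : the exponents `ρ(φ)_i = j̄ ^ eCoord i` and the coordinate fields (all `⊤`).

Contracts are `def … : Prop`; providers prove `theorem … : Plan.X …` in their own files.
The shapes are those consumed by `S36/LiftGen.exists_mem_pullRR_gen` (and `S36/LiftTw`).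
-/

set_option autoImplicit false

noncomputable section

namespace Fermat.Agent.S36.Plan

open ModularCurve AlgebraicCurve Fermat.Agent.S24 Fermat.Agent.S18 Fermat.Agent.S18.Content
  Fermat.Agent.S18.Plan Fermat.Agent.S34

/-! ## Coordinates and the residue ring -/

/-- Index set of the middle cusps: the primitive `q`-th roots of unity of `Q̄`. -/
abbrev MidIdx (q : ℕ) : Type := {ξ : Kbarˣ // IsPrimitiveRoot ξ q}

/-- The `q + 1` coordinates of the level-`q²` frame: `∞`, `0` and the middle cusps. -/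
inductive Coord (q : ℕ) : Type
  | inf : Coord q
  | zero : Coord q
  | mid (ξ : MidIdx q) : Coord q

/-- The residue ring `k((T))^(Coord q)`. -/
abbrev Rq (A : ValuationSubring Kbar) (q : ℕ) : Type := Coord q → Omk A

/-- The coefficientwise `k`-algebra structure on `Rq A q` (pass it EXPLICITLY, as `S34/Lift.algR2`). -/
abbrev algR (A : ValuationSubring Kbar) (q : ℕ) : Algebra (kk A) (Rq A q) :=
  @Pi.algebra (Coord q) (kk A) (fun _ => Omk A) _ _ (fun _ => HahnSeries.instAlgebra)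

/-- The coordinate projections. -/
abbrev pr (A : ValuationSubring Kbar) (q : ℕ) (i : Coord q) : Rq A q →+* Omk A :=
  Pi.evalRingHom (fun _ : Coord q => Omk A) i

/-- The exponents: `ρ(j · j_q · j_{q²})_i = j̄ ^ eCoord q i`. -/
def eCoord (q : ℕ) : Coord q → ℕ
  | .inf => q * q + q + 1
  | .zero => q * q + q + 1
  | .mid _ => q + 2

/-- The coordinate fields of `LiftGen` (`WJ` is generic in the field; we take `⊤` everywhere). -/
abbrev Lq (A : ValuationSubring Kbar) (q : ℕ) : Coord q → IntermediateField (kk A) (Omk A) :=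
  fun _ => ⊤

/-! ## The frame -/

section Frame

variable (M q : ℕ) [NeZero M] [NeZero q]

/-- **The level-`q²` frame** (data): the Atkin–Lehner involution `w = w_{q²}` of `F_{Mq²}` and the
middle embeddings `r ξ`.  Values on generators: `w ∘ α = β ∘ σ`, `w ∘ β = α ∘ σ` (`σ` the
Atkin–Lehner involution of `F_{Mq}`, `S34/Sigma`); `r ξ ∘ α = id` (the `∞`-expansion of `F_{Mq}`)
and `r ξ (f(T^{q²})) = f(ξ T)` for `f ∈ F_M`. -/
structure Frame (h : Nat.Coprime M q) where
  w : FN (M * q * q) ≃ₐ[Kbar] FN (M * q * q)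
  w_alpha : ∀ x : FN (M * q),
    w (heckeAlphaBar Kbar (M * q) q x) = heckeBetaBar Kbar (M * q) q (Sigma.sigma M q h x)
  w_beta : ∀ x : FN (M * q),
    w (heckeBetaBar Kbar (M * q) q x) = heckeAlphaBar Kbar (M * q) q (Sigma.sigma M q h x)
  r : MidIdx q → (FN (M * q * q) →ₐ[Kbar] Om)
  r_alpha : ∀ (ξ : MidIdx q) (x : FN (M * q)),
    r ξ (heckeAlphaBar Kbar (M * q) q x) = (x : Om)
  r_beta : ∀ (ξ : MidIdx q) (x : FN M),
    r ξ (heckeBetaBar Kbar (M * q) q (heckeBetaBar Kbar M q x))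
      = Fermat.Agent.S28.scale ξ.1 (x : Om)

/-- **[EMB]** the frame exists. -/
def FrameStmt (h : Nat.Coprime M q) : Prop := Nonempty (Frame M q h)

variable {M q}

/-- The `q + 1` expansions `ε_i : F_{Mq²} →ₐ[Q̄] Q̄((T))`. -/
def Frame.emb {h : Nat.Coprime M q} (F : Frame M q h) :
    Coord q → (FN (M * q * q) →ₐ[Kbar] Om)
  | .inf => (modularFunctionFieldBar (M * q * q)).val
  | .zero => (modularFunctionFieldBar (M * q * q)).val.comp
      (F.w : FN (M * q * q) →ₐ[Kbar] FN (M * q * q))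
  | .mid ξ => F.r ξ

@[simp] theorem Frame.emb_inf {h : Nat.Coprime M q} (F : Frame M q h) (x : FN (M * q * q)) :
    F.emb .inf x = (x : Om) := rfl

@[simp] theorem Frame.emb_zero {h : Nat.Coprime M q} (F : Frame M q h) (x : FN (M * q * q)) :
    F.emb .zero x = ((F.w x : FN (M * q * q)) : Om) := rfl

@[simp] theorem Frame.emb_mid {h : Nat.Coprime M q} (F : Frame M q h) (ξ : MidIdx q)
    (x : FN (M * q * q)) : F.emb (.mid ξ) x = F.r ξ x := rfl

/-- **The interface `(O, ρ)`**: `O` is the ring of the elements of `F_{Mq²}` all of whose `q + 1`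
expansions are integral, and `ρ` is the family of their coefficientwise reductions. -/
structure IsSetup (A : ValuationSubring Kbar) {h : Nat.Coprime M q} (F : Frame M q h)
    (O : Subring Om) (ρ : O →+* Rq A q) : Prop where
  mem_field : ∀ g : O, (g : Om) ∈ modularFunctionFieldBar (M * q * q)
  mem_iff : ∀ x : FN (M * q * q), (x : Om) ∈ O ↔ ∀ i : Coord q, F.emb i x ∈ Ocal A
  ρ_apply : ∀ (x : FN (M * q * q)) (hx : (x : Om) ∈ O) (i : Coord q) (hi : F.emb i x ∈ Ocal A),
    ρ ⟨(x : Om), hx⟩ i = red A ⟨F.emb i x, hi⟩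

/-- **[SETUP]** the pair `(O, ρ)` exists. -/
def SetupStmt (A : ValuationSubring Kbar) {h : Nat.Coprime M q} (F : Frame M q h) : Prop :=
  ∃ (O : Subring Om) (ρ : O →+* Rq A q), IsSetup A F O ρ

end Frame

/-! ## The cusp divisor and the unit `φ` on `F_N` -/

section Divisors

variable (N q : ℕ) [NeZero N] [NeZero q] (hq : q ∣ N) (hqq : q * q ∣ N)

/-- `E = (j)_∞ + (j_q)_∞ + (j_{q²})_∞` on `F_N`. -/
def IsE3 (E : Divisor Kbar (FN N)) : Prop :=
  ∀ P : Place Kbar (FN N),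
    E P = max 0 (-(P.ord (jBar N))) + max 0 (-(P.ord (jBarLevel N q hq)))
      + max 0 (-(P.ord (jBarLevel N (q * q) hqq)))

/-- `φ = j · j_q · j_{q²} ∈ F_N`. -/
def phiQ2 : FN N := jBar N * jBarLevel N q hq * jBarLevel N (q * q) hqq

/-- **[PHI-DIV]** (char. 0, level `N`): `E ≥ 0`, `φ ≠ 0`, `(φ) ≥ -E`, and `ord_P φ = -E P` on
`supp E` (every cusp is a pole of `j`, `j_q`, `j_{q²}`). -/
def PhiDivStmt : Prop :=
  ∀ E : Divisor Kbar (FN N), IsE3 N q hq hqq E →
    (∀ P : Place Kbar (FN N), 0 ≤ E P) ∧ phiQ2 N q hq hqq ≠ 0 ∧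
    (∀ P : Place Kbar (FN N), -E P ≤ P.ord (phiQ2 N q hq hqq)) ∧
    (∀ P : Place Kbar (FN N), E P = 0 ∨ P.ord (phiQ2 N q hq hqq) = -E P)

end Divisors

/-! ## The frame-level contracts (inputs of `LiftGen` / `LiftTw`) -/

section Contracts

variable (A : ValuationSubring Kbar) (N M q : ℕ) [NeZero N] [NeZero M] [NeZero q]
variable (hq : q ∣ N) (hqq : q * q ∣ N)
variable (O : Subring Om) (ρ : O →+* Rq A q)

/-- **[RED]** `LiftCore2.RedData` for `(O, ρ)`: constants of `O` are `A`, and `ρ` extends the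
residue map (coordinatewise). -/
def RedStmt : Prop := LiftGen.RDG (algR A q) O ρ

/-- **[DIM]** `(Dim)` on `F_{Mq²}`: every finite-dimensional subspace has a basis in `O` with
`k`-linearly independent reductions. -/
def DimStmt : Prop :=
  @LiftCore2.HasDim Kbar Om (Rq A q) _ _ HahnSeries.instAlgebra _ (kk A) _ (algR A q) O ρ
    (Main.fieldSub (M * q * q))

/-- **[INV]** an element of `O` all of whose reductions are nonzero is a unit of `O`. -/
def InvStmt : Prop := ∀ g : O, (∀ i : Coord q, ρ g i ≠ 0) → ((g : Om))⁻¹ ∈ O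

/-- **[SCALE]** every nonzero element of `F_{Mq²}` has a constant multiple in `O` with nonzero
reduction. -/
def ScaleStmt : Prop :=
  ∀ g : Om, g ∈ modularFunctionFieldBar (M * q * q) → g ≠ 0 →
    ∃ c : Kbar, c ≠ 0 ∧ ∃ h : HahnSeries.C c * g ∈ O, ρ ⟨_, h⟩ ≠ 0

/-- **[PHI]** `φ = j j_q j_{q²}` is a unit of `O` with `ρ(φ)_i = j̄ ^ eCoord q i`. -/
def PhiStmt : Prop :=
  ∃ hφO : ((phiQ2 N q hq hqq : FN N) : Om) ∈ O,
    (((phiQ2 N q hq hqq : FN N) : Om))⁻¹ ∈ O ∧
      ∀ i : Coord q, ρ ⟨_, hφO⟩ i = jk A ^ eCoord q i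

/-- **[INCL]** `ρ(L(cE) ∩ O) ⊆ W(c)`: coordinatewise integrality and pole bounds. -/
def InclStmt : Prop :=
  ∀ E : Divisor Kbar (FN N), IsE3 N q hq hqq E → ∀ (c : ℕ) (g : O),
    (g : Om) ∈ pullRR N (M * q * q) (c • E) →
      ∀ i : Coord q, ρ g i ∈ WJ (kk A) (Lq A q i) (c * eCoord q i)

/-- **[CR]** cusp regularity: an element of `B̄(c')` whose coordinates have poles of order
`≤ c · e_i` lies in `B̄(c)`, for `c' ≥ c ≥ c₀`. -/
def CuspRegStmt : Prop :=
  ∀ E : Divisor Kbar (FN N), IsE3 N q hq hqq E → ∃ c₀ : ℕ, ∀ c : ℕ, c₀ ≤ c → ∀ c' : ℕ, c ≤ c' →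
    ∀ g : O, (g : Om) ∈ pullRR N (M * q * q) (c' • E) →
      (∀ i : Coord q, ρ g i ∈ WJ (kk A) (Lq A q i) (c * eCoord q i)) →
        ∃ g' : O, (g' : Om) ∈ pullRR N (M * q * q) (c • E) ∧ ρ g' = ρ g

/-- **[CONN]** connectedness: an element of `B̄` all of whose coordinates are constants is a
(diagonal) constant. -/
def ConnStmt : Prop :=
  ∀ E : Divisor Kbar (FN N), IsE3 N q hq hqq E → ∀ (c : ℕ) (g : O),
    (g : Om) ∈ pullRR N (M * q * q) (c • E) →
      (∀ i : Coord q, ∃ κ : kk A, ρ g i = HahnSeries.C κ) →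
        ∃ κ : kk A, ∀ i : Coord q, ρ g i = HahnSeries.C κ

/-- **[LIFT-IN]** the conclusion of the twisted lifting step for one divisor:
`n D = div w`, `ρ(w) ξⁿ = 1`, lifts of `ξ` are units, `M(D)(c) = ξ · B̄(c)` for `c` large
⟹ `L(π^* D) ≠ 0`.  (`S36/LiftTw` proves this from the contracts above.) -/
def LiftTwStmt : Prop :=
  ∀ E : Divisor Kbar (FN N), IsE3 N q hq hqq E →
  ∀ (D : Divisor Kbar (FN N)) (n : ℕ), ¬ q ∣ n →
  ∀ w : FN N, w ≠ 0 → (∀ P : Place Kbar (FN N), P.ord w = n * D P) →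
  ∀ (hw : (w : Om) ∈ O) (ξ : Rq A q), ρ ⟨_, hw⟩ * ξ ^ n = 1 →
    (∀ g : O, ρ g = ξ → ((g : Om))⁻¹ ∈ O) →
    (∃ c₀ : ℕ, ∀ c : ℕ, c₀ ≤ c →
      (∀ g : O, (g : Om) ∈ pullRR N (M * q * q) (D + c • E) →
        ∃ g' : O, (g' : Om) ∈ pullRR N (M * q * q) (c • E) ∧ ρ g = ξ * ρ g') ∧
      (∀ g' : O, (g' : Om) ∈ pullRR N (M * q * q) (c • E) →
        ∃ g : O, (g : Om) ∈ pullRR N (M * q * q) (D + c • E) ∧ ρ g = ξ * ρ g')) →
    ∃ g : Om, g ∈ pullRR N (M * q * q) D ∧ g ≠ 0

end Contracts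

end Fermat.Agent.S36.Plan

end
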