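import Mathlib
import Fermat.Agent.S36.Plan
import Fermat.Agent.S37.HeckeInputs

/-!
# S36 / P8 — Plan2: the spine contracts between geometry, lift and descent (owner: helper74)

Levels: `N' = N₀ * q` (so `q ∣ N'`), divisor level `N' * q`, good level `M` prime to `q`
(`N₀ ∣ M`), top level `M * q * q`.  `(O, ρ)` the setup of `S36/Plan` for a frame `F`.

* `StableData`  : the hypotheses on a divisor `D` of `F_{N' q}` in the geometric target
                  (`B2Stable` of `S36/B2Plan`): degree `0`, `n D` principal, `q ∤ n`, both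
                  push-forwards to level `N'` principal, `D` stable under the inertia group of `A`;
* `OneStmt c₁`  : **[ONE]** the output of the `K'`-chain (REG / LOC / NORM / TWIST): a divisor
                  `D' ~ c₁ • D` of degree `0`, a Kummer function `w ∈ O` of `D'` and ONE section
                  `g₀ ∈ L(D' + c E) ∩ O` all of whose reductions are nonzero, with
                  `ρ(w) · ρ(g₀)ⁿ = 1`  (`OneStmtRigid`: the special case `D' = c₁ • D`);
* `LiftOneStmt` : **[LIFT-ONE]** such a pair gives `L(π^* D) ≠ 0` at the top level;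
* `DescNormStmt d` : **[DESC-NORM]** `deg D = 0` and `L(π^* D) ≠ 0` give `d • D` principal
                  (norm from the top level; `d = [F_{M q q} : F_{N' q}]`).
-/

set_option autoImplicit false

noncomputable section

namespace Fermat.Agent.S36.Plan

open ModularCurve AlgebraicCurve Fermat.Agent.S24 Fermat.Agent.S18 Fermat.Agent.S18.Content
  Fermat.Agent.S18.Plan Fermat.Agent.S34

section Spine

variable (A : ValuationSubring Kbar) (N' M q : ℕ) [NeZero N'] [NeZero M] [NeZero q]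

/-- The hypotheses of the geometric target on a divisor `D` of `F_{N' q}`. -/
structure StableData (D : Divisor Kbar (FN (N' * q))) (n : ℕ) : Prop where
  deg : Divisor.degree D = 0
  pos : 0 < n
  not_dvd : ¬ q ∣ n
  tors : n • D ∈ Divisor.principal (K := Kbar) (F := FN (N' * q))
  pushA : Divisor.pushforwardAlong (heckeAlphaBar Kbar N' q)
      (Fermat.Agent.S37.HeckeInputs.heckeAlphaBarIntegral N' q) D ∈
    Divisor.principal (K := Kbar) (F := FN N')
  pushB : Divisor.pushforwardAlong (heckeBetaBar Kbar N' q)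
      (Fermat.Agent.S37.HeckeInputs.heckeBetaBarIntegral N' q) D ∈
    Divisor.principal (K := Kbar) (F := FN N')
  stable : ∀ τ : Kbar ≃ₐ[ℚ] Kbar, τ ∈ A.inertiaSubgroupIn ℚ →
    S34.Plan.gal (N' * q) τ • D = D

variable (hq' : q ∣ N')
variable (O : Subring Om) (ρ : O →+* Rq A q)

/-- **[ONE]** the contract between the geometry (the `K'`-chain) and the lift: for a stable
datum `(D, n)` there are a divisor `D' ~ c₁ • D` of degree `0` (the class may be moved by a
principal divisor of `F_{N' q}`, e.g. by the vertical units of [VNORM]), a Kummer function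
`w ∈ O` of `D'` and ONE section `g₀ ∈ L(D' + c E) ∩ O` all of whose `q + 1` reductions are
nonzero, with `ρ(w) · ρ(g₀)ⁿ = 1`. -/
def OneStmt (c₁ : ℕ) : Prop :=
  ∀ (D : Divisor Kbar (FN (N' * q))) (n : ℕ), StableData A N' q D n →
  ∀ E : Divisor Kbar (FN (N' * q)),
    IsE3 (N' * q) q (Dvd.intro_left N' rfl) (Nat.mul_dvd_mul_right hq' q) E →
    ∃ (D' : Divisor Kbar (FN (N' * q))) (w : FN (N' * q)) (hw : (w : Om) ∈ O) (g₀ : O) (c : ℕ),
      D' - c₁ • D ∈ Divisor.principal (K := Kbar) (F := FN (N' * q)) ∧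
      Divisor.degree D' = 0 ∧
      w ≠ 0 ∧ (∀ P : Place Kbar (FN (N' * q)), P.ord w = n * D' P) ∧
      (g₀ : Om) ∈ pullRR (N' * q) (M * q * q) (D' + c • E) ∧
      (∀ i : Coord q, ρ g₀ i ≠ 0) ∧ ρ ⟨_, hw⟩ * ρ g₀ ^ n = 1

/-- The rigid form of [ONE] (`D' = c₁ • D`); it implies `OneStmt` (`oneStmt_of_rigid`). -/
def OneStmtRigid (c₁ : ℕ) : Prop :=
  ∀ (D : Divisor Kbar (FN (N' * q))) (n : ℕ), StableData A N' q D n →
  ∀ E : Divisor Kbar (FN (N' * q)),
    IsE3 (N' * q) q (Dvd.intro_left N' rfl) (Nat.mul_dvd_mul_right hq' q) E →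
    ∃ (w : FN (N' * q)) (hw : (w : Om) ∈ O) (g₀ : O) (c : ℕ),
      w ≠ 0 ∧ (∀ P : Place Kbar (FN (N' * q)), P.ord w = n * (c₁ • D) P) ∧
      (g₀ : Om) ∈ pullRR (N' * q) (M * q * q) (c₁ • D + c • E) ∧
      (∀ i : Coord q, ρ g₀ i ≠ 0) ∧ ρ ⟨_, hw⟩ * ρ g₀ ^ n = 1

/-- **[LIFT-ONE]** ONE section with unit reduction and `ρ(w) ρ(g₀)ⁿ = 1` gives `L(π^* D) ≠ 0`. -/
def LiftOneStmt : Prop :=
  ∀ E : Divisor Kbar (FN (N' * q)),
    IsE3 (N' * q) q (Dvd.intro_left N' rfl) (Nat.mul_dvd_mul_right hq' q) E →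
  ∀ (D : Divisor Kbar (FN (N' * q))) (n : ℕ), Divisor.degree D = 0 → 0 < n → ¬ q ∣ n →
  ∀ w : FN (N' * q), w ≠ 0 → (∀ P : Place Kbar (FN (N' * q)), P.ord w = n * D P) →
  ∀ (hw : (w : Om) ∈ O) (g₀ : O) (c : ℕ),
    (g₀ : Om) ∈ pullRR (N' * q) (M * q * q) (D + c • E) →
    (∀ i : Coord q, ρ g₀ i ≠ 0) → ρ ⟨_, hw⟩ * ρ g₀ ^ n = 1 →
    ∃ g : Om, g ∈ pullRR (N' * q) (M * q * q) D ∧ g ≠ 0

/-- **[DESC-NORM]** descent by the norm from the top level: `deg D = 0` and `L(π^* D) ≠ 0` give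
`d • D` principal. -/
def DescNormStmt (d : ℕ) : Prop :=
  ∀ D : Divisor Kbar (FN (N' * q)), Divisor.degree D = 0 →
    (∃ g : Om, g ∈ pullRR (N' * q) (M * q * q) D ∧ g ≠ 0) →
    d • D ∈ Divisor.principal (K := Kbar) (F := FN (N' * q))

/-- **[E3]** the divisor `E` exists. -/
def ExistsE3Stmt : Prop :=
  ∃ E : Divisor Kbar (FN (N' * q)),
    IsE3 (N' * q) q (Dvd.intro_left N' rfl) (Nat.mul_dvd_mul_right hq' q) E

variable {A N' M q hq' O ρ}

omit [NeZero M] in
theorem oneStmt_of_rigid {c₁ : ℕ} (h : OneStmtRigid A N' M q hq' O ρ c₁) :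
    OneStmt A N' M q hq' O ρ c₁ := by
  intro D n hD E hE
  obtain ⟨w, hw, g₀, c, hw0, hord, hg₀, hunit, hρ⟩ := h D n hD E hE
  refine ⟨c₁ • D, w, hw, g₀, c, ?_, ?_, hw0, hord, hg₀, hunit, hρ⟩
  · rw [sub_self]
    exact zero_mem _
  · rw [map_nsmul, hD.deg, smul_zero]

omit [NeZero M] in
/-- **The spine**: `[ONE] + [LIFT-ONE] + [DESC-NORM] ⟹` for every stable datum `(D, n)`:
`(d * c₁) • D` is principal. -/
theorem principal_of_spine {c₁ d : ℕ} (hE : ExistsE3Stmt N' q hq')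
    (hOne : OneStmt A N' M q hq' O ρ c₁) (hLift : LiftOneStmt A N' M q hq' O ρ)
    (hDesc : DescNormStmt N' M q d)
    (D : Divisor Kbar (FN (N' * q))) (n : ℕ) (hD : StableData A N' q D n) :
    (d * c₁) • D ∈ Divisor.principal (K := Kbar) (F := FN (N' * q)) := by
  obtain ⟨E, hE⟩ := hE
  obtain ⟨D', w, hw, g₀, c, hcls, hdeg, hw0, hord, hg₀, hunit, hρ⟩ := hOne D n hD E hE
  have hg := hLift E hE D' n hdeg hD.pos hD.not_dvd w hw0 hord hw g₀ c hg₀ hunit hρ
  have h1 := hDesc D' hdeg hg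
  have h2 : d • (D' - c₁ • D) ∈ Divisor.principal (K := Kbar) (F := FN (N' * q)) :=
    AddSubgroup.nsmul_mem _ hcls d
  have h3 : (d * c₁) • D = d • D' - d • (D' - c₁ • D) := by
    rw [smul_sub, mul_smul]
    abel
  rw [h3]
  exact AddSubgroup.sub_mem _ h1 h2

end Spine

end Fermat.Agent.S36.Plan

end
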