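import Mathlib
import Fermat.Agent.S36.Plan2

/-!
# S36 / P8 — K0Plan: the `K'`-interface of the block [ONE] (architect: helper27)

`K₀` = the inertia field of `A`; "`K₀`-rational" = fixed by the coefficientwise action of the
inertia group `I_A` (`Fixed`).  Standing data as in `S36/Plan2`: `q ∣ N'`, divisor level `N' * q`,
good level `M`, top level `M * q * q`, `(O, ρ)` the `Q̄`-setup, `E` the cusp divisor (`IsE3`),
`ξ₀` ONE chosen middle index.

* `Lam E D`  : `Λ'(D) = {g ∈ O : g K₀-rational, g ∈ L(D + cE) for some c}` (a set of `O`);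
               `Bp E = Λ'(0)` is the `K'`-ring `B'`;
* `rho3`     : the three-coordinate reduction `g ↦ (ρ g ∞, ρ g (mid ξ₀), ρ g 0)` with values in
               `R3 = k((T))³`  (coordinate order `(∞, mid, 0)`, as in `S36/DiagCond`:
               `α^*(x, y) = (x, x, Fr y)`, `β^*(x, y) = (Fr x, y, y)`);
* `BK3`, `iota3` : `B_κ³` (`B_κ = S34.Plan.BK A M`) and its inclusion into `R3`;
* `A3 E ξ₀`  : the reduction ring `ρ₃(B') ⊆ B_κ³` (as a set of `BK3`);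
* `IsPt P`   : `P : B_κ³ → k` is a point `z ∘ pr_i` (`z : B_κ →ₐ k`, `i ∈ {∞, mid, 0}`);
* `Glued P Q`: the points `P`, `Q` are not separated by `A3` (INTRINSIC gluing: no
               identification of the supersingular points is needed anywhere).

Contracts (`def … : Prop`), all INTRINSIC:
`RangeStmt` [K0-RANGE], `MidEqStmt` [MID-EQ], `ConstStmt` [K0-CONST], `SurjStmt` [K0-SURJ],
`InvKStmt` [REG] (Lemma R in [INV] form), `CondStmt` [COND-K'], `NormStmt c` [VNORM]+[NORM-RED],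
`TwistStmt c` [TWIST].  The junction `S36/OneGen.lean` proves
`Plan.OneStmt … (c_b * c_a)` from them (+ `Plan.InclStmt`).
-/

set_option autoImplicit false

noncomputable section

namespace Fermat.Agent.S36.K0Plan

open ModularCurve AlgebraicCurve Fermat.Agent.S24 Fermat.Agent.S18 Fermat.Agent.S18.Content
  Fermat.Agent.S18.Plan Fermat.Agent.S36.Plan

section Defs

variable (A : ValuationSubring Kbar)

/-- `K₀`-rational: fixed by the coefficientwise action of the inertia group of `A`. -/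
def Fixed (x : Om) : Prop :=
  ∀ τ : Kbar ≃ₐ[ℚ] Kbar, τ ∈ A.inertiaSubgroupIn ℚ → coeffMap (τ : Kbar →+* Kbar) x = x

variable (N' M q : ℕ) [NeZero N'] [NeZero M] [NeZero q]
variable (O : Subring Om) (ρ : O →+* Rq A q)

/-- `Λ'(D)`: the `K₀`-rational elements of `O` lying in `L(D + cE)` for some `c`. -/
def Lam (E D : Divisor Kbar (FN (N' * q))) : Set O :=
  {g | Fixed A (g : Om) ∧ ∃ c : ℕ, (g : Om) ∈ pullRR (N' * q) (M * q * q) (D + c • E)}

/-- The `K'`-ring `B' = Λ'(0)`. -/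
abbrev Bp (E : Divisor Kbar (FN (N' * q))) : Set O := Lam A N' M q O E 0

/-- The three-coordinate residue ring `k((T))³`, coordinates `(∞, mid, 0)`. -/
abbrev R3 : Type := Omk A × Omk A × Omk A

/-- The three-coordinate reduction `g ↦ (ρ g ∞, ρ g (mid ξ₀), ρ g 0)`. -/
def rho3 (ξ₀ : MidIdx q) : O →+* R3 A :=
  ((pr A q Coord.inf).comp ρ).prod
    (((pr A q (Coord.mid ξ₀)).comp ρ).prod ((pr A q Coord.zero).comp ρ))

/-- `B_κ` at the good level `M` (regular functions on `X₀(M)_k` minus the cusps). -/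
abbrev BKM : Subalgebra (kk A) (Omk A) := Fermat.Agent.S34.Plan.BK A M

/-- `B_κ³`. -/
abbrev BK3 : Type := ↥(BKM A M) × ↥(BKM A M) × ↥(BKM A M)

/-- The inclusion `B_κ³ → k((T))³`. -/
def iota3 : BK3 A M →+* R3 A :=
  RingHom.prodMap (BKM A M).val.toRingHom
    (RingHom.prodMap (BKM A M).val.toRingHom (BKM A M).val.toRingHom)

/-- The reduction ring `A₃ = ρ₃(B') ⊆ B_κ³`, as a set. -/
def A3 (E : Divisor Kbar (FN (N' * q))) (ξ₀ : MidIdx q) : Set (BK3 A M) :=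
  {t | ∃ b ∈ Bp A N' M q O E, rho3 A q O ρ ξ₀ b = iota3 A M t}

/-- The points of `B_κ³`: `z ∘ pr_i` for a `k`-point `z` of `B_κ` and a coordinate `i`. -/
def IsPt (P : BK3 A M →+* kk A) : Prop :=
  ∃ z : ↥(BKM A M) →ₐ[kk A] kk A,
    P = (z : ↥(BKM A M) →+* kk A).comp (RingHom.fst _ _) ∨
    P = (z : ↥(BKM A M) →+* kk A).comp ((RingHom.fst _ _).comp (RingHom.snd _ _)) ∨
    P = (z : ↥(BKM A M) →+* kk A).comp ((RingHom.snd _ _).comp (RingHom.snd _ _))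

/-- Intrinsic gluing: `A₃` does not separate `P` and `Q`. -/
def Glued (E : Divisor Kbar (FN (N' * q))) (ξ₀ : MidIdx q) (P Q : BK3 A M →+* kk A) : Prop :=
  ∀ t ∈ A3 A N' M q O ρ E ξ₀, Q t = P t

end Defs

section Contracts

variable (A : ValuationSubring Kbar) (N' M q : ℕ) [NeZero N'] [NeZero M] [NeZero q]
variable (hq' : q ∣ N')
variable (O : Subring Om) (ρ : O →+* Rq A q) (ξ₀ : MidIdx q)

/-- **[K0-RANGE]** the three reductions of a `K₀`-rational element of `O` lie in `F_{M,k}`. -/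
def RangeStmt : Prop :=
  ∀ g : O, Fixed A (g : Om) →
    ρ g Coord.inf ∈ Fk A M ∧ ρ g (Coord.mid ξ₀) ∈ Fk A M ∧ ρ g Coord.zero ∈ Fk A M

/-- **[MID-EQ]** all middle reductions of a `K₀`-rational element of `O` coincide. -/
def MidEqStmt : Prop :=
  ∀ g : O, Fixed A (g : Om) → ∀ ξ ξ' : MidIdx q, ρ g (Coord.mid ξ) = ρ g (Coord.mid ξ')

/-- **[K0-CONST]** every residue constant is the reduction of a `K₀`-rational constant of `O`. -/
def ConstStmt : Prop :=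
  ∀ κ : kk A, ∃ (a : Kbar) (h : (HahnSeries.C a : Om) ∈ O), Fixed A (HahnSeries.C a : Om) ∧
    ∀ i : Coord q, ρ ⟨_, h⟩ i = HahnSeries.C κ

/-- **[K0-SURJ]** each of the three coordinates of `ρ₃` maps `B'` ONTO `B_κ`. -/
def SurjStmt (E : Divisor Kbar (FN (N' * q))) : Prop :=
  ∀ d : ↥(BKM A M),
    (∃ b ∈ Bp A N' M q O E, ρ b Coord.inf = (d : Omk A)) ∧
    (∃ b ∈ Bp A N' M q O E, ρ b (Coord.mid ξ₀) = (d : Omk A)) ∧
    (∃ b ∈ Bp A N' M q O E, ρ b Coord.zero = (d : Omk A))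

/-- **[REG]** (Lemma R in [INV] form): for an `I_A`-stable divisor `D` of `F_{N'q}` and every
point `P`, there are `f ∈ Λ'(D)`, `g ∈ Λ'(-D)` with `(f g)(P) ≠ 0`
(`Λ'(D)` is invertible at every closed point of the special fibre). -/
def InvKStmt (E : Divisor Kbar (FN (N' * q))) : Prop :=
  ∀ D : Divisor Kbar (FN (N' * q)),
    (∀ τ : Kbar ≃ₐ[ℚ] Kbar, τ ∈ A.inertiaSubgroupIn ℚ →
      Fermat.Agent.S34.Plan.gal (N' * q) τ • D = D) →
    ∀ P : BK3 A M →+* kk A, IsPt A M P →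
      ∃ f ∈ Lam A N' M q O E D, ∃ g ∈ Lam A N' M q O E (-D), ∃ t : BK3 A M,
        rho3 A q O ρ ξ₀ (f * g) = iota3 A M t ∧ P t ≠ 0

/-- **[COND-K']** at every point `P` there are `t_d ∈ A₃` with `t_d(P) ≠ 0` and `N` such that
`t_d · (y - 1)^N · B_κ³ ⊆ A₃` for every `y ∈ B_κ³` equal to `1` at all points glued to `P`. -/
def CondStmt (E : Divisor Kbar (FN (N' * q))) : Prop :=
  ∀ P : BK3 A M →+* kk A, IsPt A M P →
    ∃ td ∈ A3 A N' M q O ρ E ξ₀, P td ≠ 0 ∧ ∃ N : ℕ, ∀ y : BK3 A M,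
      (∀ Q : BK3 A M →+* kk A, IsPt A M Q → Glued A N' M q O ρ E ξ₀ P Q → Q y = 1) →
        ∀ t : BK3 A M, td * (y - 1) ^ N * t ∈ A3 A N' M q O ρ E ξ₀

/-- **[VNORM]+[NORM-RED]** normalisation of the Kummer function: a stable datum `D' ~ c_a • D`
with a `K₀`-rational Kummer function `w`, a unit of `O`, whose three reductions are `n`-th powers
in `F_{M,k}` up to constants: `ρ₃(w) · ξⁿ = 1` with `ξ ∈ F_{M,k}³`. -/
def NormStmt (ca : ℕ) : Prop :=
  ∀ (D : Divisor Kbar (FN (N' * q))) (n : ℕ), StableData A N' q D n →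
    ∃ (D' : Divisor Kbar (FN (N' * q))) (w : FN (N' * q)) (hw : (w : Om) ∈ O) (ξ : R3 A),
      D' - ca • D ∈ Divisor.principal (K := Kbar) (F := FN (N' * q)) ∧
      StableData A N' q D' n ∧
      w ≠ 0 ∧ (∀ P : Place Kbar (FN (N' * q)), P.ord w = n * D' P) ∧
      Fixed A (w : Om) ∧ ((w : Om))⁻¹ ∈ O ∧
      (ξ.1 ∈ Fk A M ∧ ξ.2.1 ∈ Fk A M ∧ ξ.2.2 ∈ Fk A M) ∧
      rho3 A q O ρ ξ₀ ⟨_, hw⟩ * ξ ^ n = 1

/-- Twist compatibility of `(D, ξ)`: for every local generator `f` of `Λ'(D)` at a point `P`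
(`f ∈ Λ'(D)`, `g ∈ Λ'(-D)`, `(f g)(P) ≠ 0`), the element `y = ρ₃(f)/ξ ∈ B_κ³` takes the same
value at all points glued to `P`. -/
def TwistCompat (E D : Divisor Kbar (FN (N' * q))) (ξ : R3 A) : Prop :=
  ∀ P : BK3 A M →+* kk A, IsPt A M P →
    ∀ f ∈ Lam A N' M q O E D, ∀ g ∈ Lam A N' M q O E (-D), ∀ t y : BK3 A M,
      rho3 A q O ρ ξ₀ (f * g) = iota3 A M t → P t ≠ 0 →
      rho3 A q O ρ ξ₀ f = iota3 A M y * ξ →
      ∀ Q : BK3 A M →+* kk A, IsPt A M Q → Glued A N' M q O ρ E ξ₀ P Q → Q y = P y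

/-- **[TWIST]** for a stable datum `(D, n)` with a normalised Kummer function `w` and
`ρ₃(w) ξⁿ = 1`: after multiplying by `c_b` (`= q² - 1`) and changing `ξ^{c_b}` by `n`-th roots of
unity `ζ` (one per coordinate), `(c_b • D, ζ ξ^{c_b})` is twist-compatible.
(Proof: the two norms to level `qM` and the gluing at level `q`; everything intrinsic.) -/
def TwistStmt (cb : ℕ) : Prop :=
  ∀ (D : Divisor Kbar (FN (N' * q))) (n : ℕ), StableData A N' q D n →
  ∀ E : Divisor Kbar (FN (N' * q)),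
    IsE3 (N' * q) q (Dvd.intro_left N' rfl) (Nat.mul_dvd_mul_right hq' q) E →
  ∀ (w : FN (N' * q)) (hw : (w : Om) ∈ O) (ξ : R3 A),
    w ≠ 0 → (∀ P : Place Kbar (FN (N' * q)), P.ord w = n * D P) →
    Fixed A (w : Om) → ((w : Om))⁻¹ ∈ O →
    (ξ.1 ∈ Fk A M ∧ ξ.2.1 ∈ Fk A M ∧ ξ.2.2 ∈ Fk A M) →
    rho3 A q O ρ ξ₀ ⟨_, hw⟩ * ξ ^ n = 1 →
    ∃ ζ : kk A × kk A × kk A, ζ.1 ^ n = 1 ∧ ζ.2.1 ^ n = 1 ∧ ζ.2.2 ^ n = 1 ∧
      TwistCompat A N' M q O ρ ξ₀ E (cb • D)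
        ((HahnSeries.C ζ.1, HahnSeries.C ζ.2.1, HahnSeries.C ζ.2.2) * ξ ^ cb)

end Contracts

end Fermat.Agent.S36.K0Plan

end
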