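import Mathlib

/-!
# P8 / S36 — [COND] in the diagonal three-component ring (helper70)

Abstract, frame-independent core of the conductor statement at level `q²`.

`Bκ` is the coordinate ring of one component (`B_κ` of P6), `Bt = Bκ × Bκ × Bκ` the ring of the
three components `(∞, mid, 0)` of the `K₀`-picture (the middle one embedded diagonally in the
`q - 1` middle coordinates of the `Q̄`-frame), `Bb ⊆ Bt` the part of `B̄` lying in it, `BY ⊆ Bκ × Bκ`
the ring `B̄_Y` of level `q`, and `Fr : Bκ → Bκ` the substitution `T ↦ T^q`.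

* `conductor_mul_mem`: from the two pull-back formulas
  `α^*(x, y) = (x; x; Fr y)`, `β^*(x, y) = (Fr x; y; y)`, two node functions `(a, 0), (0, b) ∈ B̄_Y`
  and node interpolation at level `q`, the element `d = (a · Fr a, a · b, Fr b · b)` satisfies
  `d · Bt ⊆ Bb`: the conductor of `Bb` in `Bt` contains `d · Bt` (exponent `1`).
* `diag_eq_of_forall`: a finite Vandermonde statement: if `∑_{i<m} t_j^i • y_i = v` for `m`
  distinct scalars `t_j`, then `y_0 = v` and `y_i = 0` for `i ≥ 1` (a function whose `q - 1`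
  middle reductions coincide has middle reduction in the base field).
-/

set_option autoImplicit false

namespace Fermat.Agent.S36.DiagCond

section Conductor

variable {k Bκ : Type*} [Field k] [CommRing Bκ] [Algebra k Bκ]

/-- **The conductor of the diagonal three-component ring has exponent one.** -/
theorem conductor_mul_mem (Bb : Subalgebra k (Bκ × Bκ × Bκ)) (BY : Set (Bκ × Bκ))
    (Fr : Bκ →+* Bκ)
    (hα : ∀ x y, (x, y) ∈ BY → ((x, x, Fr y) : Bκ × Bκ × Bκ) ∈ Bb)
    (hβ : ∀ x y, (x, y) ∈ BY → ((Fr x, y, y) : Bκ × Bκ × Bκ) ∈ Bb)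
    (a b : Bκ) (ha : (a, (0 : Bκ)) ∈ BY) (hb : ((0 : Bκ), b) ∈ BY)
    (h1 : ∀ t, ∃ y, (t, y) ∈ BY) (h2 : ∀ t, ∃ y, (y, t) ∈ BY) :
    ∀ t : Bκ × Bκ × Bκ, ((a * Fr a, a * b, Fr b * b) : Bκ × Bκ × Bκ) * t ∈ Bb := by
  rintro ⟨t₁, t₂, t₃⟩
  -- the four pull-backs of the node functions
  have A1 : ((a, a, 0) : Bκ × Bκ × Bκ) ∈ Bb := by
    have := hα a 0 ha
    rwa [map_zero] at this
  have A2 : ((Fr a, 0, 0) : Bκ × Bκ × Bκ) ∈ Bb := hβ a 0 ha
  have A3 : ((0, 0, Fr b) : Bκ × Bκ × Bκ) ∈ Bb := hα 0 b hb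
  have A4 : ((0, b, b) : Bκ × Bκ × Bκ) ∈ Bb := by
    have := hβ 0 b hb
    rwa [map_zero] at this
  obtain ⟨y₁, hy₁⟩ := h1 t₁
  obtain ⟨y₂, hy₂⟩ := h1 t₂
  obtain ⟨y₃, hy₃⟩ := h2 t₃
  have T1 := hα t₁ y₁ hy₁
  have T2 := hα t₂ y₂ hy₂
  have T3 := hβ y₃ t₃ hy₃
  have P1 : ((a * Fr a * t₁, 0, 0) : Bκ × Bκ × Bκ) ∈ Bb := by
    have := Bb.mul_mem (Bb.mul_mem A1 A2) T1
    simpa [Prod.mk_mul_mk] using this
  have P2 : ((0, a * b * t₂, 0) : Bκ × Bκ × Bκ) ∈ Bb := by
    have := Bb.mul_mem (Bb.mul_mem A1 A4) T2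
    simpa [Prod.mk_mul_mk] using this
  have P3 : ((0, 0, Fr b * b * t₃) : Bκ × Bκ × Bκ) ∈ Bb := by
    have := Bb.mul_mem (Bb.mul_mem A3 A4) T3
    simpa [Prod.mk_mul_mk] using this
  have := Bb.add_mem (Bb.add_mem P1 P2) P3
  simpa [Prod.mk_mul_mk, Prod.mk_add_mk] using this

end Conductor

section Vandermonde

variable {K V : Type*} [Field K] [AddCommGroup V] [Module K V]

/-- **Finite Vandermonde, vector-valued.** If `∑_{i<m} t_j^i • y_i = 0` for `m` distinct scalars
`t_j`, then all `y_i` vanish. -/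
theorem eq_zero_of_forall_sum_pow_smul {m : ℕ} (t : Fin m → K) (ht : Function.Injective t)
    (y : Fin m → V) (h : ∀ j, ∑ i : Fin m, t j ^ (i : ℕ) • y i = 0) : ∀ i, y i = 0 := by
  intro i
  rw [← Module.forall_dual_apply_eq_zero_iff K]
  intro φ
  have h0 : (fun i => φ (y i)) = 0 := by
    apply Matrix.eq_zero_of_forall_index_sum_pow_mul_eq_zero ht
    intro j
    have := congrArg φ (h j)
    rw [map_sum, map_zero] at this
    rw [← this]
    refine Finset.sum_congr rfl fun i _ => ?_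
    rw [map_smul, smul_eq_mul]
  exact congrFun h0 i

/-- **Equal middle reductions lie in the base field.** If `∑_{i<m+1} t_j^i • y_i = v` for `m + 1`
distinct scalars `t_j`, then `y_0 = v` and `y_i = 0` for `i ≠ 0`. -/
theorem diag_eq_of_forall {m : ℕ} (t : Fin (m + 1) → K) (ht : Function.Injective t)
    (y : Fin (m + 1) → V) (v : V) (h : ∀ j, ∑ i : Fin (m + 1), t j ^ (i : ℕ) • y i = v) :
    y 0 = v ∧ ∀ i, i ≠ 0 → y i = 0 := by
  have key := eq_zero_of_forall_sum_pow_smul t ht (Function.update y 0 (y 0 - v)) (by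
    intro j
    have hj := h j
    rw [Fin.sum_univ_succ] at hj ⊢
    have e : ∀ i : Fin m, Function.update y 0 (y 0 - v) i.succ = y i.succ := fun i =>
      Function.update_of_ne (Fin.succ_ne_zero i) _ _
    simp only [e, Function.update_self, Fin.val_zero, pow_zero, one_smul] at hj ⊢
    rw [← hj]
    abel)
  refine ⟨?_, fun i hi => ?_⟩
  · have := key 0
    rw [Function.update_self] at this
    exact sub_eq_zero.1 this
  · have := key i
    rwa [Function.update_of_ne hi] at this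

end Vandermonde

end Fermat.Agent.S36.DiagCond
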