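import Mathlib
import Fermat.Agent.CFT.Fin.Ram
import Fermat.Agent.Lib.InertiaLift

/-!
# The inertia field of a place of `Q̄` is unramified with full residue field

`Qb = AlgebraicClosure ℚ`, `A` a valuation subring of `Qb` over a prime `q`,
`I = A.inertiaSubgroupIn ℚ`.

* `exists_val_mul_zpow_eq_one`, `val_eq_zpow_of_inertia_fixed`,
  `exists_zpow_mul_mem_and_inv_mem`, `div_natCast_mem_of_inertia_fixed` (**[K0-VAL]**):
  a nonzero element fixed by `I` is a power of `q` times a unit of `A`; an `I`-fixed non-unit of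
  `A` is divisible by `q` in `A`.
* `exists_inertia_fixed_lift` (**[K0-RES]**): every element of `A` is congruent modulo the
  maximal ideal to an `I`-fixed element of `A` (zero or a root of unity of order prime to `q`).

Finite level: for a finite Galois extension `L/ℚ` and a prime `P` of its ring of integers, the
ramification index of `P` over the inertia field equals the one over `ℚ`
(`ramificationIdx_under_inertiaField`).
-/

set_option autoImplicit false

open NumberField IsDedekindDomain HeightOneSpectrum WithZero Pointwise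

namespace Fermat.Agent.S36.InertiaField

section Finite

variable (L : Type) [Field L] [NumberField L] [IsGalois ℚ L]
  (P : Ideal (𝓞 L)) [hPp : P.IsPrime]

/-- the inertia field -/
noncomputable abbrev inertiaField : IntermediateField ℚ L :=
  FixedPoints.intermediateField (Ideal.inertia Gal(L/ℚ) P)

theorem ramificationIdx_under_inertiaField :
    P.ramificationIdx (𝓞 (inertiaField L P)) = P.ramificationIdx ℤ := by
  let E := inertiaField L P
  let I := Ideal.inertia Gal(L/ℚ) P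
  have hG : IsGaloisGroup I (𝓞 E) (𝓞 L) := IsGaloisGroup.of_isFractionRing I (𝓞 E) (𝓞 L) E L
  have h1 : Nat.card I = (P.under ℤ).ramificationIdxIn (𝓞 L) :=
    Ideal.card_inertia_eq_ramificationIdxIn (G := Gal(L/ℚ)) (P.under ℤ) P
  have h2 : (P.under ℤ).ramificationIdxIn (𝓞 L) = P.ramificationIdx ℤ :=
    Ideal.ramificationIdxIn_eq_ramificationIdx (P.under ℤ) P Gal(L/ℚ)
  have h3 : Nat.card (P.inertia I) = (P.under (𝓞 E)).ramificationIdxIn (𝓞 L) :=
    Ideal.card_inertia_eq_ramificationIdxIn (G := I) (P.under (𝓞 E)) P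
  have h4 : (P.under (𝓞 E)).ramificationIdxIn (𝓞 L) = P.ramificationIdx (𝓞 E) :=
    Ideal.ramificationIdxIn_eq_ramificationIdx (P.under (𝓞 E)) P I
  have h5 : P.inertia I = ⊤ := by
    ext ⟨σ, hσ⟩
    simp only [Subgroup.mem_top, iff_true]
    intro y
    exact hσ y
  rw [← h4, ← h3, h5, ← h2, ← h1]
  exact Subgroup.card_top

/-- Finite level: an element of the inertia field is a power of `q` times a `P`-unit. -/
theorem exists_valuation_mul_zpow_eq_one (w : HeightOneSpectrum (𝓞 L)) (hw : w.asIdeal = P)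
    (q : ℕ) (hq : q.Prime) (hqP : (q : 𝓞 L) ∈ P) (a : L) (ha : a ∈ inertiaField L P)
    (ha0 : a ≠ 0) : ∃ n : ℤ, w.valuation L (a * (q : L) ^ n) = 1 := by
  subst hw
  set E := inertiaField L w.asIdeal with hE
  have hP0 : w.asIdeal ≠ ⊥ := w.ne_bot
  -- the primes below
  have hq0 : (q : ℤ) ≠ 0 := Int.natCast_ne_zero.mpr hq.ne_zero
  have hvne : w.asIdeal.under (𝓞 E) ≠ ⊥ := by
    intro h0
    have h1 : ((q : ℕ) : 𝓞 E) ∈ w.asIdeal.under (𝓞 E) := by
      rw [Ideal.under_def, Ideal.mem_comap]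
      simpa using hqP
    rw [h0, Ideal.mem_bot] at h1
    exact hq.ne_zero (Nat.cast_eq_zero.mp h1)
  have hune : w.asIdeal.under ℤ ≠ ⊥ := by
    intro h0
    have h1 : (q : ℤ) ∈ w.asIdeal.under ℤ := by
      rw [Ideal.under_def, Ideal.mem_comap]
      simpa using hqP
    rw [h0, Ideal.mem_bot] at h1
    exact hq0 h1
  let v : HeightOneSpectrum (𝓞 E) := ⟨w.asIdeal.under (𝓞 E), inferInstance, hvne⟩
  let u : HeightOneSpectrum ℤ := ⟨w.asIdeal.under ℤ, inferInstance, hune⟩
  have hvw : w.asIdeal.LiesOver v.asIdeal := ⟨rfl⟩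
  have huw : w.asIdeal.LiesOver u.asIdeal := ⟨rfl⟩
  have e1 : v.asIdeal.ramificationIdx' w.asIdeal = w.asIdeal.ramificationIdx (𝓞 E) :=
    Ideal.ramificationIdx'_eq_ramificationIdx v.asIdeal w.asIdeal hvne
  have e2 : u.asIdeal.ramificationIdx' w.asIdeal = w.asIdeal.ramificationIdx ℤ :=
    Ideal.ramificationIdx'_eq_ramificationIdx u.asIdeal w.asIdeal hune
  have e3 := ramificationIdx_under_inertiaField L w.asIdeal
  set e := w.asIdeal.ramificationIdx ℤ with he
  have k1 := valuation_liesOver L v w (⟨a, ha⟩ : E)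
  have k2 := valuation_liesOver L u w ((q : ℕ) : ℚ)
  rw [e1, e3] at k1
  rw [e2] at k2
  -- `q` is a uniformizer at `u`
  have hmax : (Ideal.span {(q : ℤ)}).IsMaximal :=
    PrincipalIdealRing.isMaximal_of_irreducible (Nat.prime_iff_prime_int.mp hq).irreducible
  have hunder : u.asIdeal = Ideal.span {(q : ℤ)} := by
    refine (hmax.eq_of_le u.isPrime.ne_top ?_).symm
    rw [Ideal.span_singleton_le_iff_mem]
    show (q : ℤ) ∈ w.asIdeal.under ℤ
    rw [Ideal.under_def, Ideal.mem_comap]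
    simpa using hqP
  have k3 : u.valuation ℚ ((q : ℕ) : ℚ) = exp (-1 : ℤ) := by
    have h1 : ((q : ℕ) : ℚ) = algebraMap ℤ ℚ (q : ℤ) := by simp
    rw [h1, valuation_of_algebraMap]
    exact u.intValuation_singleton hq0 hunder
  rw [k3] at k2
  -- the valuation of `a`
  have ha0' : (⟨a, ha⟩ : E) ≠ 0 := fun h => ha0 (congrArg Subtype.val h)
  have hva : v.valuation E (⟨a, ha⟩ : E) ≠ 0 := (Valuation.ne_zero_iff _).mpr ha0'
  set m : ℤ := log (v.valuation E (⟨a, ha⟩ : E)) with hm
  have k4 : v.valuation E (⟨a, ha⟩ : E) = exp m := (exp_log hva).symm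
  rw [k4] at k1
  refine ⟨m, ?_⟩
  have k5 : algebraMap E L (⟨a, ha⟩ : E) = a := rfl
  have k6 : algebraMap ℚ L ((q : ℕ) : ℚ) = (q : L) := by simp
  rw [k5] at k1
  rw [k6] at k2
  rw [map_mul, map_zpow₀, ← k1, ← k2, ← exp_nsmul, ← exp_nsmul, ← exp_zsmul, ← exp_add]
  simp only [nsmul_eq_mul, smul_eq_mul, mul_neg, mul_one]
  rw [show (e : ℤ) * m + -(m * (e : ℤ)) = 0 by ring]
  rfl

end Finite

section Global

open Fermat.Agent.Lib.InertiaGlue

/-- **[K0-VAL]** An element of `Q̄ˣ` fixed by the inertia group of `A` (over `q`) is a power of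
`q` times a unit of `A`. -/
theorem exists_val_mul_zpow_eq_one (A : ValuationSubring Qb) (q : ℕ) (hq : q.Prime)
    (hAq : A.LiesOverPrime q) (a : Qb) (ha : a ≠ 0)
    (hfix : ∀ σ ∈ A.inertiaSubgroupIn ℚ, σ a = a) :
    ∃ n : ℤ, A.valuation (a * (q : Qb) ^ n) = 1 := by
  -- the Galois closure of `ℚ(a)`
  have haint : IsIntegral ℚ a := Algebra.IsIntegral.isIntegral a
  let F : IntermediateField ℚ Qb := IntermediateField.adjoin ℚ {a}
  have hFfin : FiniteDimensional ℚ F := IntermediateField.adjoin.finiteDimensional haint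
  let N : IntermediateField ℚ Qb := IntermediateField.normalClosure ℚ F Qb
  have hNfin : FiniteDimensional ℚ N := inferInstance
  have hNnf : NumberField N := ⟨⟩
  have hNnormal : Normal ℚ N := normalClosure.normal ℚ F Qb
  have hNgal : IsGalois ℚ N := ⟨⟩
  have haN : a ∈ N :=
    IntermediateField.le_normalClosure F (IntermediateField.mem_adjoin_simple_self ℚ a)
  -- the prime below `A`
  have hqP : ((q : ℕ) : 𝓞 N) ∈ primeBelow N A := by
    rw [mem_primeBelow]
    have hA' : ((q : ℕ) : Qb) ∈ A.nonunits := hAq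
    simpa using hA'
  have hP0 : primeBelow N A ≠ ⊥ := by
    intro h0
    rw [h0, Ideal.mem_bot] at hqP
    exact hq.ne_zero (Nat.cast_eq_zero.mp hqP)
  let w : HeightOneSpectrum (𝓞 N) := ⟨primeBelow N A, inferInstance, hP0⟩
  have hw : ∀ y ∈ w.asIdeal, (((y : N) : Qb)) ∈ A.nonunits :=
    fun y hy => (mem_primeBelow N A y).mp hy
  -- `a` lies in the inertia field
  have haE : (⟨a, haN⟩ : N) ∈ inertiaField N (primeBelow N A) := by
    rintro ⟨τ, hτ⟩
    have hτ' : ∀ x : N, IsIntegral ℤ x → ((τ x : N) : Qb) - (x : Qb) ∈ A.nonunits := by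
      intro x hx
      obtain ⟨y, rfl⟩ := (IsIntegralClosure.isIntegral_iff (A := 𝓞 N)).mp hx
      have h5 : τ • y - y ∈ primeBelow N A := hτ y
      rw [mem_primeBelow] at h5
      have h6 : algebraMap (𝓞 N) N (τ • y) = τ (algebraMap (𝓞 N) N y) := rfl
      rw [map_sub, h6] at h5
      exact h5
    obtain ⟨σ, hσ, hστ⟩ := Fermat.Agent.Lib.InertiaLift.exists_inertia_lift N A τ hτ'
    have h1 := hfix σ hσ
    have h2 := hστ ⟨a, haN⟩
    apply Subtype.ext
    show ((τ (⟨a, haN⟩ : N) : N) : Qb) = a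
    rw [← h2]
    exact h1
  have ha0 : (⟨a, haN⟩ : N) ≠ 0 := fun h => ha (congrArg Subtype.val h)
  obtain ⟨n, hn⟩ := exists_valuation_mul_zpow_eq_one N (primeBelow N A) w rfl q hq hqP
    ⟨a, haN⟩ haE ha0
  refine ⟨n, ?_⟩
  have h3 := Fermat.Agent.CFT.Fin.val_eq_one_of_valuation_eq_one (K := N) (A := A) (v := w) hw hn
  have h4 : (((⟨a, haN⟩ : N) * ((q : ℕ) : N) ^ n : N) : Qb) = a * (q : Qb) ^ n := by
    push_cast
    rfl
  rw [h4] at h3
  exact h3

/-- **[K0-VAL]**, multiplicative form. -/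
theorem val_eq_zpow_of_inertia_fixed (A : ValuationSubring Qb) (q : ℕ) (hq : q.Prime)
    (hAq : A.LiesOverPrime q) (a : Qb) (ha : a ≠ 0)
    (hfix : ∀ σ ∈ A.inertiaSubgroupIn ℚ, σ a = a) :
    ∃ m : ℤ, A.valuation a = A.valuation (q : Qb) ^ m := by
  obtain ⟨n, hn⟩ := exists_val_mul_zpow_eq_one A q hq hAq a ha hfix
  refine ⟨-n, ?_⟩
  rw [map_mul, map_zpow₀] at hn
  rw [zpow_neg]
  exact eq_inv_of_mul_eq_one_left hn

end Global

section Residue

open Fermat.Agent.Lib.InertiaGlue

/-- A unit of `A` has finite order prime to `q` in the residue field. -/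
theorem exists_pow_sub_one_mem_nonunits (A : ValuationSubring Qb) (q : ℕ) (hq : q.Prime)
    (hAq : A.LiesOverPrime q) (u : Qb) (hu : A.valuation u = 1) :
    ∃ m : ℕ, 0 < m ∧ A.valuation (m : Qb) = 1 ∧ A.valuation (u ^ m - 1) < 1 := by
  have huint : IsIntegral ℚ u := Algebra.IsIntegral.isIntegral u
  let N : IntermediateField ℚ Qb := IntermediateField.adjoin ℚ {u}
  have hNfin : FiniteDimensional ℚ N := IntermediateField.adjoin.finiteDimensional huint
  have hNnf : NumberField N := ⟨⟩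
  have huN : u ∈ N := IntermediateField.mem_adjoin_simple_self ℚ u
  have hqP : ((q : ℕ) : 𝓞 N) ∈ primeBelow N A := by
    rw [mem_primeBelow]
    have hA' : ((q : ℕ) : Qb) ∈ A.nonunits := hAq
    simpa using hA'
  have hP0 : primeBelow N A ≠ ⊥ := by
    intro h0
    rw [h0, Ideal.mem_bot] at hqP
    exact hq.ne_zero (Nat.cast_eq_zero.mp hqP)
  let v : HeightOneSpectrum (𝓞 N) := ⟨primeBelow N A, inferInstance, hP0⟩
  have hv : ∀ y ∈ v.asIdeal, (((y : N) : Qb)) ∈ A.nonunits :=
    fun y hy => (mem_primeBelow N A y).mp hy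
  -- `u` is `v`-integral
  have hvu : v.valuation N (⟨u, huN⟩ : N) ≤ 1 := by
    by_contra hcon
    rw [not_le] at hcon
    have h1 : v.valuation N ((⟨u, huN⟩ : N)⁻¹) < 1 := by
      rw [map_inv₀]
      exact inv_lt_one_of_one_lt₀ hcon
    have h2 := Fermat.Agent.CFT.Fin.val_lt_one_of_valuation_lt_one hv h1
    have h3 : (((⟨u, huN⟩ : N)⁻¹ : N) : Qb) = u⁻¹ := by push_cast; rfl
    rw [h3, map_inv₀, hu, inv_one] at h2
    exact lt_irrefl _ h2
  obtain ⟨n, d, hnd⟩ := v.exists_primeCompl_mul_eq_of_integer _ hvu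
  have hnd' : u * (((d : 𝓞 N) : N) : Qb) = (((n : 𝓞 N) : N) : Qb) := by
    have := congrArg (fun z : N => (z : Qb)) hnd
    simpa using this
  have hdA : A.valuation ((((d : 𝓞 N) : N) : Qb)) = 1 :=
    Fermat.Agent.CFT.Fin.val_eq_one_of_notMem hv d.2
  have hnA : A.valuation ((((n : 𝓞 N) : N) : Qb)) = 1 := by
    rw [← hnd', map_mul, hu, hdA, one_mul]
  have hnP : n ∉ v.asIdeal := by
    intro h
    have := hv n h
    rw [ValuationSubring.mem_nonunits_iff, hnA] at this
    exact lt_irrefl _ this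
  -- the finite residue field
  have hmax : v.asIdeal.IsMaximal := v.isMaximal
  let _ : Field (𝓞 N ⧸ v.asIdeal) := Ideal.Quotient.field v.asIdeal
  have : Finite (𝓞 N ⧸ v.asIdeal) := Ideal.finiteQuotientOfFreeOfNeBot v.asIdeal v.ne_bot
  let _ : Fintype (𝓞 N ⧸ v.asIdeal) := Fintype.ofFinite _
  set c := Fintype.card (𝓞 N ⧸ v.asIdeal) with hc
  have hc1 : 1 < c := Fintype.one_lt_card
  have hn1 : (Ideal.Quotient.mk v.asIdeal n) ^ (c - 1) = 1 :=
    FiniteField.pow_card_sub_one_eq_one _ (by rwa [Ne, Ideal.Quotient.eq_zero_iff_mem])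
  have hd1 : (Ideal.Quotient.mk v.asIdeal (d : 𝓞 N)) ^ (c - 1) = 1 :=
    FiniteField.pow_card_sub_one_eq_one _ (by
      rw [Ne, Ideal.Quotient.eq_zero_iff_mem]; exact d.2)
  have hmem : n ^ (c - 1) - (d : 𝓞 N) ^ (c - 1) ∈ v.asIdeal := by
    rw [← Ideal.Quotient.eq, map_pow, map_pow, hn1, hd1]
  have hcmem : ((c : ℕ) : 𝓞 N) ∈ v.asIdeal := by
    rw [← Ideal.Quotient.eq_zero_iff_mem, map_natCast]
    exact Nat.cast_card_eq_zero _
  refine ⟨c - 1, by omega, ?_, ?_⟩
  · have h1 : A.valuation ((c : ℕ) : Qb) < 1 := by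
      have := hv _ hcmem
      rw [ValuationSubring.mem_nonunits_iff] at this
      simpa using this
    have h2 : ((c - 1 : ℕ) : Qb) = (c : Qb) - 1 := by
      rw [Nat.cast_sub hc1.le, Nat.cast_one]
    rw [h2, Valuation.map_sub_swap]
    exact A.valuation.map_one_sub_of_lt h1
  · have h1 := hv _ hmem
    rw [ValuationSubring.mem_nonunits_iff] at h1
    have h2 : ((((n ^ (c - 1) - (d : 𝓞 N) ^ (c - 1) : 𝓞 N) : N)) : Qb) =
        (u ^ (c - 1) - 1) * ((((d : 𝓞 N) : N) : Qb)) ^ (c - 1) := by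
      push_cast
      rw [← hnd']
      ring
    rw [h2, map_mul, map_pow, hdA, one_pow, mul_one] at h1
    exact h1

/-- A root of unity of `Q̄` is a unit of every valuation subring. -/
theorem val_eq_one_of_pow_eq_one (A : ValuationSubring Qb) {z : Qb} {m : ℕ} (hm : m ≠ 0)
    (hz : z ^ m = 1) : A.valuation z = 1 := by
  have h1 : A.valuation z ^ m = 1 := by rw [← map_pow, hz, map_one]
  rcases lt_trichotomy (A.valuation z) 1 with h | h | h
  · exact absurd h1 (pow_lt_one₀ zero_le h hm).ne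
  · exact h
  · exact absurd h1 (one_lt_pow₀ h hm).ne'

/-- Powers of an element congruent to one are congruent to one. -/
theorem val_pow_sub_one_lt (A : ValuationSubring Qb) {ζ : Qb} (hζ : A.valuation ζ = 1)
    (h : A.valuation (ζ - 1) < 1) (i : ℕ) : A.valuation (ζ ^ i - 1) < 1 := by
  induction i with
  | zero => simp
  | succ i ih =>
    have e : ζ ^ (i + 1) - 1 = ζ ^ i * (ζ - 1) + (ζ ^ i - 1) := by ring
    rw [e]
    refine lt_of_le_of_lt (A.valuation.map_add _ _) (max_lt ?_ ih)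
    rw [map_mul, map_pow, hζ, one_pow, one_mul]
    exact h

/-- **[K0-RES]** Every element of `A` is congruent, modulo the maximal ideal, to an element of
`A` fixed by the inertia group (zero or a root of unity of order prime to `q`). -/
theorem exists_inertia_fixed_lift (A : ValuationSubring Qb) (q : ℕ) (hq : q.Prime)
    (hAq : A.LiesOverPrime q) (u : Qb) (hu : u ∈ A) :
    ∃ z ∈ A, (∀ σ ∈ A.inertiaSubgroupIn ℚ, σ z = z) ∧ u - z ∈ A.nonunits := by
  by_cases hu1 : u ∈ A.nonunits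
  · exact ⟨0, A.zero_mem, fun σ _ => map_zero σ, by simpa using hu1⟩
  have hval : A.valuation u = 1 := by
    have h1 := (A.valuation_le_one_iff u).mpr hu
    rw [ValuationSubring.mem_nonunits_iff, not_lt] at hu1
    exact le_antisymm h1 hu1
  obtain ⟨m, hm0, hmval, hum⟩ := exists_pow_sub_one_mem_nonunits A q hq hAq u hval
  -- factor `X ^ m - 1`
  have hsplit : (Polynomial.X ^ m - Polynomial.C 1 : Polynomial Qb).Splits := IsAlgClosed.splits _
  have hmonic : (Polynomial.X ^ m - Polynomial.C 1 : Polynomial Qb).Monic :=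
    Polynomial.monic_X_pow_sub_C 1 hm0.ne'
  have hprod := hsplit.eq_prod_roots_of_monic hmonic
  have heval : u ^ m - 1 =
      ((Polynomial.X ^ m - Polynomial.C 1 : Polynomial Qb).roots.map (fun z => u - z)).prod := by
    have := congrArg (Polynomial.eval u) hprod
    rw [Polynomial.eval_multiset_prod, Multiset.map_map] at this
    simpa using this
  obtain ⟨z, hz, hzu⟩ : ∃ z ∈ (Polynomial.X ^ m - Polynomial.C 1 : Polynomial Qb).roots,
      A.valuation (u - z) < 1 := by
    by_contra hcon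
    push Not at hcon
    have : 1 ≤ A.valuation (u ^ m - 1) := by
      rw [heval, map_multiset_prod, Multiset.map_map]
      apply Multiset.one_le_prod_of_one_le
      intro x hx
      rw [Multiset.mem_map] at hx
      obtain ⟨y, hy, rfl⟩ := hx
      exact hcon y hy
    exact absurd hum (not_lt.mpr this)
  have hzm : z ^ m = 1 := by
    have := (Polynomial.mem_roots hmonic.ne_zero).mp hz
    simpa [sub_eq_zero] using this
  have hzval : A.valuation z = 1 := val_eq_one_of_pow_eq_one A hm0.ne' hzm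
  have hzA : z ∈ A := (A.valuation_le_one_iff z).mp hzval.le
  have hz0 : z ≠ 0 := by
    rintro rfl
    rw [map_zero] at hzval
    exact zero_ne_one hzval
  refine ⟨z, hzA, fun σ hσ => ?_, by rwa [ValuationSubring.mem_nonunits_iff]⟩
  by_contra hne
  set ζ : Qb := σ z * z⁻¹ with hζdef
  have hζm : ζ ^ m = 1 := by
    rw [hζdef, mul_pow, inv_pow, ← map_pow, hzm, map_one, inv_one, mul_one]
  have hζ1 : ζ ≠ 1 := by
    intro h
    apply hne
    rw [hζdef] at h
    field_simp at h
    exact h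
  have hζval : A.valuation ζ = 1 := val_eq_one_of_pow_eq_one A hm0.ne' hζm
  have hζsub : A.valuation (ζ - 1) < 1 := by
    have h1 := Fermat.Agent.S05.Inertia.sub_mem_nonunits A hσ hzA
    rw [ValuationSubring.mem_nonunits_iff] at h1
    have e : ζ - 1 = (σ z - z) * z⁻¹ := by
      rw [hζdef]
      field_simp
    rw [e, map_mul, map_inv₀, hzval, inv_one, mul_one]
    exact h1
  have hgeom : ∑ i ∈ Finset.range m, ζ ^ i = 0 := by
    have h1 := mul_geom_sum ζ m
    rw [hζm, sub_self] at h1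
    exact (mul_eq_zero.mp h1).resolve_left (sub_ne_zero.mpr hζ1)
  have hm : (m : Qb) = ∑ i ∈ Finset.range m, (1 - ζ ^ i) := by
    rw [Finset.sum_sub_distrib, hgeom, sub_zero, Finset.sum_const, Finset.card_range,
      nsmul_eq_mul, mul_one]
  have hlt : A.valuation (m : Qb) < 1 := by
    rw [hm]
    refine A.valuation.map_sum_lt one_ne_zero fun i _ => ?_
    rw [Valuation.map_sub_swap]
    exact val_pow_sub_one_lt A hζval hζsub i
  rw [hmval] at hlt
  exact lt_irrefl _ hlt

end Residue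

section Corollaries

open Fermat.Agent.Lib.InertiaGlue

/-- **[K0-VAL]**, membership form: `a * q ^ n` is a unit of `A` for a suitable `n`. -/
theorem exists_zpow_mul_mem_and_inv_mem (A : ValuationSubring Qb) (q : ℕ) (hq : q.Prime)
    (hAq : A.LiesOverPrime q) (a : Qb) (ha : a ≠ 0)
    (hfix : ∀ σ ∈ A.inertiaSubgroupIn ℚ, σ a = a) :
    ∃ n : ℤ, a * (q : Qb) ^ n ∈ A ∧ (a * (q : Qb) ^ n)⁻¹ ∈ A := by
  obtain ⟨n, hn⟩ := exists_val_mul_zpow_eq_one A q hq hAq a ha hfix
  refine ⟨n, (A.valuation_le_one_iff _).mp hn.le, (A.valuation_le_one_iff _).mp ?_⟩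
  rw [map_inv₀, hn, inv_one]

/-- **[K0-VAL]**, divisibility form: an `I`-fixed non-unit of `A` is divisible by `q` in `A`
(the maximal ideal of `A ∩ K0` is generated by `q`). -/
theorem div_natCast_mem_of_inertia_fixed (A : ValuationSubring Qb) (q : ℕ) (hq : q.Prime)
    (hAq : A.LiesOverPrime q) (a : Qb) (ha : a ∈ A.nonunits)
    (hfix : ∀ σ ∈ A.inertiaSubgroupIn ℚ, σ a = a) : a / (q : Qb) ∈ A := by
  by_cases ha0 : a = 0
  · rw [ha0, zero_div]
    exact A.zero_mem
  obtain ⟨m, hm⟩ := val_eq_zpow_of_inertia_fixed A q hq hAq a ha0 hfix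
  have hq0 : (q : Qb) ≠ 0 := Nat.cast_ne_zero.mpr hq.ne_zero
  have hvq0 : A.valuation (q : Qb) ≠ 0 := (Valuation.ne_zero_iff _).mpr hq0
  have hvq : A.valuation (q : Qb) < 1 := by
    have hA' : ((q : ℕ) : Qb) ∈ A.nonunits := hAq
    rwa [ValuationSubring.mem_nonunits_iff] at hA'
  have hva : A.valuation a < 1 := by rwa [ValuationSubring.mem_nonunits_iff] at ha
  have hm1 : 1 ≤ m := by
    by_contra hcon
    rw [not_le] at hcon
    obtain ⟨k, hk⟩ : ∃ k : ℕ, m = -(k : ℤ) := ⟨(-m).toNat, by omega⟩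
    rw [hm, hk, zpow_neg, zpow_natCast] at hva
    have h1 : A.valuation (q : Qb) ^ k ≤ 1 := pow_le_one₀ zero_le hvq.le
    have h2 : A.valuation (q : Qb) ^ k ≠ 0 := pow_ne_zero k hvq0
    have h3 : (1 : A.ValueGroup) ≤ (A.valuation (q : Qb) ^ k)⁻¹ :=
      (one_le_inv₀ (lt_of_le_of_ne zero_le h2.symm)).mpr h1
    exact absurd hva (not_lt.mpr h3)
  obtain ⟨k, hk⟩ : ∃ k : ℕ, m = (k : ℤ) + 1 := ⟨(m - 1).toNat, by omega⟩
  rw [← A.valuation_le_one_iff, map_div₀, hm, hk, zpow_add_one₀ hvq0, zpow_natCast,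
    mul_div_assoc, div_self hvq0, mul_one]
  exact pow_le_one₀ zero_le hvq.le

end Corollaries

end Fermat.Agent.S36.InertiaField
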