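import Mathlib
import Fermat.Prelude.Def_ModularCurve_LaurentCoeff

/-!
# P8 / S36 — [K0-SPAN]: invariant (reduced echelon) bases of subspaces of `K((T))` (helper54)

Frame-independent, Mathlib + `ModularCurve.coeffMap` only.

* `exists_pivot_basis`: a finite-dimensional subspace `W ≤ K((T))` has a pivot basis
  (`coeff (p i) (b j) = δ i j`, coordinates of `v ∈ W` = its pivot coefficients).
* `coeffMap_pivot_eq`: if `W` is stable under the coefficientwise action of a ring endomorphism
  `φ` of `K`, then `φ` fixes every vector of a pivot basis (no Hilbert 90, no finiteness or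
  continuity of the acting group).
* `exists_fixed_basis`, `span_fixed_eq`, `exists_fixed_basis_aut`: `W` has a basis of fixed
  vectors; in particular, for `W = L(D + cE)` with `D` stable under the inertia group `I` of a
  place, `W` has a `Kbar`-basis with coefficients in the inertia field `K₀ = Kbar^I`, of
  cardinality `finrank Kbar W`.
* `exists_coeffMap_eq_of_coeff_mem`: a Laurent series with coefficients in a subfield `K₀`
  is the coefficientwise image of a Laurent series over `K₀`.
-/

set_option autoImplicit false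

namespace Fermat.Agent.S36.InvSpan

open ModularCurve

variable {K : Type*} [Field K]

/-- The `i`-th coefficient as a linear functional. -/
noncomputable def coeffL (i : ℤ) : LaurentSeries K →ₗ[K] K where
  toFun x := x.coeff i
  map_add' x y := by simp
  map_smul' c x := by simp

@[simp] theorem coeffL_apply (i : ℤ) (x : LaurentSeries K) : coeffL i x = x.coeff i := rfl

/-- **Pivot basis** (reduced echelon form): a finite-dimensional subspace `W` of `K((T))` has
a basis `b` and pivots `p` with `coeff (p i) (b j) = δ i j`; the coordinates of `v ∈ W` in this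
basis are its pivot coefficients. -/
theorem exists_pivot_basis (W : Submodule K (LaurentSeries K)) [Module.Finite K W] :
    ∃ (r : ℕ) (p : Fin r → ℤ) (b : Fin r → LaurentSeries K), (∀ j, b j ∈ W) ∧
      (∀ i j, (b j).coeff (p i) = if i = j then 1 else 0) ∧
      ∀ v ∈ W, v = ∑ j, v.coeff (p j) • b j := by
  induction' hn : Module.finrank K W using Nat.strong_induction_on with n ih generalizing W
  by_cases hW : W = ⊥
  · subst hW
    refine ⟨0, Fin.elim0, Fin.elim0, fun j => j.elim0, fun i => i.elim0, fun v hv => ?_⟩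
    simpa using hv
  · obtain ⟨w, hwW, hw0⟩ := Submodule.exists_mem_ne_zero_of_ne_bot hW
    obtain ⟨i, hi⟩ : ∃ i : ℤ, w.coeff i ≠ 0 := by
      by_contra hall
      push Not at hall
      exact hw0 (HahnSeries.ext (funext fun i => by simpa using hall i))
    set W' : Submodule K (LaurentSeries K) := W ⊓ LinearMap.ker (coeffL i) with hW'
    have hle : W' ≤ W := inf_le_left
    have hlt : W' < W := by
      refine lt_of_le_of_ne hle fun h => ?_
      have : w ∈ W' := h ▸ hwW
      exact hi (by simpa [hW'] using this.2)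
    have : Module.Finite K W' := Submodule.finiteDimensional_of_le hle
    have hfr : Module.finrank K W' < n := hn ▸ Submodule.finrank_lt_finrank_of_lt hlt
    obtain ⟨r, p, b, hbW, hδ, hexp⟩ := ih _ hfr W' rfl
    have hbi : ∀ j, (b j).coeff i = 0 := fun j => by
      have := (hbW j).2
      simpa using this
    -- the new basis vector
    set w1 : LaurentSeries K := (w.coeff i)⁻¹ • w with hw1
    have hw1W : w1 ∈ W := W.smul_mem _ hwW
    have hw1i : w1.coeff i = 1 := by simp [hw1, inv_mul_cancel₀ hi]
    set b0 : LaurentSeries K := w1 - ∑ j, w1.coeff (p j) • b j with hb0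
    have hb0W : b0 ∈ W :=
      W.sub_mem hw1W (W.sum_mem fun j _ => W.smul_mem _ (hle (hbW j)))
    have hb0i : b0.coeff i = 1 := by
      simp [hb0, hw1i, hbi]
    have hb0p : ∀ l, b0.coeff (p l) = 0 := by
      intro l
      simp only [hb0, HahnSeries.coeff_sub, HahnSeries.coeff_sum, HahnSeries.coeff_smul,
        smul_eq_mul, hδ]
      simp
    refine ⟨r + 1, Fin.cons i p, Fin.cons b0 b, ?_, ?_, ?_⟩
    · intro j
      refine Fin.cases ?_ (fun j => ?_) j
      · simpa using hb0W
      · simpa using hle (hbW j)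
    · intro a c
      refine Fin.cases ?_ (fun a => ?_) a <;> refine Fin.cases ?_ (fun c => ?_) c
      · simpa using hb0i
      · simpa [Fin.cons_succ, Fin.cons_zero, (Fin.succ_ne_zero c).symm] using hbi c
      · simpa [Fin.cons_succ, Fin.cons_zero, Fin.succ_ne_zero a] using hb0p a
      · simpa [Fin.cons_succ, Fin.succ_inj] using hδ a c
    · intro v hv
      have hv' : v - v.coeff i • b0 ∈ W' := by
        refine ⟨W.sub_mem hv (W.smul_mem _ hb0W), ?_⟩
        simp [hb0i]
      have h1 := hexp _ hv'
      have h2 : ∀ j, (v - v.coeff i • b0).coeff (p j) = v.coeff (p j) := by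
        intro j; simp [hb0p]
      simp only [h2] at h1
      rw [Fin.sum_univ_succ]
      simp only [Fin.cons_zero, Fin.cons_succ]
      rw [← h1]; abel

/-- A pivot family is linearly independent. -/
theorem linearIndependent_of_pivot {r : ℕ} (p : Fin r → ℤ) (b : Fin r → LaurentSeries K)
    (hδ : ∀ i j, (b j).coeff (p i) = if i = j then 1 else 0) : LinearIndependent K b := by
  rw [Fintype.linearIndependent_iff]
  intro g hg i
  have := congrArg (fun x : LaurentSeries K => x.coeff (p i)) hg
  simpa [HahnSeries.coeff_sum, hδ] using this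

/-- **Invariant basis**: if `W` is stable under the coefficientwise action of a set `S` of ring
endomorphisms of `K`, every vector of a pivot basis of `W` is fixed by `S`. -/
theorem coeffMap_pivot_eq (W : Submodule K (LaurentSeries K)) {r : ℕ} (p : Fin r → ℤ)
    (b : Fin r → LaurentSeries K) (hbW : ∀ j, b j ∈ W)
    (hδ : ∀ i j, (b j).coeff (p i) = if i = j then 1 else 0)
    (hexp : ∀ v ∈ W, v = ∑ j, v.coeff (p j) • b j)
    (φ : K →+* K) (hφ : ∀ w ∈ W, coeffMap φ w ∈ W) (j : Fin r) : coeffMap φ (b j) = b j := by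
  have h := hexp _ (hφ _ (hbW j))
  rw [h]
  simp only [coeffMap_coeff, hδ]
  simp [apply_ite φ]

/-- **[K0-SPAN]** a finite-dimensional subspace of `K((T))` stable under the coefficientwise
action of a set `S` of ring endomorphisms of `K` has a basis of `S`-fixed vectors. -/
theorem exists_fixed_basis (S : Set (K →+* K)) (W : Submodule K (LaurentSeries K))
    [Module.Finite K W] (hW : ∀ φ ∈ S, ∀ w ∈ W, coeffMap φ w ∈ W) :
    ∃ (r : ℕ) (b : Fin r → LaurentSeries K), (∀ j, b j ∈ W) ∧
      (∀ j, ∀ φ ∈ S, coeffMap φ (b j) = b j) ∧ LinearIndependent K b ∧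
      Submodule.span K (Set.range b) = W := by
  obtain ⟨r, p, b, hbW, hδ, hexp⟩ := exists_pivot_basis W
  refine ⟨r, b, hbW, fun j φ hφ => coeffMap_pivot_eq W p b hbW hδ hexp φ (hW φ hφ) j,
    linearIndependent_of_pivot p b hδ, le_antisymm ?_ ?_⟩
  · exact Submodule.span_le.2 (by rintro _ ⟨j, rfl⟩; exact hbW j)
  · intro v hv
    rw [hexp v hv]
    exact Submodule.sum_mem _ fun j _ => Submodule.smul_mem _ _ (Submodule.subset_span ⟨j, rfl⟩)

/-- Span form. -/
theorem span_fixed_eq (S : Set (K →+* K)) (W : Submodule K (LaurentSeries K))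
    [Module.Finite K W] (hW : ∀ φ ∈ S, ∀ w ∈ W, coeffMap φ w ∈ W) :
    Submodule.span K {w | w ∈ W ∧ ∀ φ ∈ S, coeffMap φ w = w} = W := by
  obtain ⟨r, b, hbW, hfix, -, hspan⟩ := exists_fixed_basis S W hW
  refine le_antisymm (Submodule.span_le.2 fun w hw => hw.1) ?_
  have h1 : Submodule.span K (Set.range b) ≤
      Submodule.span K {w | w ∈ W ∧ ∀ φ ∈ S, coeffMap φ w = w} :=
    Submodule.span_mono (by rintro _ ⟨j, rfl⟩; exact ⟨hbW j, hfix j⟩)
  exact hspan.symm.trans_le h1

/-- The number of vectors of a pivot family spanning `W` is `finrank K W`. -/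
theorem card_eq_finrank (W : Submodule K (LaurentSeries K)) {r : ℕ} (b : Fin r → LaurentSeries K)
    (hli : LinearIndependent K b) (hspan : Submodule.span K (Set.range b) = W) :
    r = Module.finrank K W := by
  rw [← hspan, finrank_span_eq_card hli, Fintype.card_fin]

/-- A Laurent series all of whose coefficients lie in a subfield `K₀` comes from `K₀((T))`. -/
theorem exists_coeffMap_eq_of_coeff_mem (K₀ : Subfield K) (x : LaurentSeries K)
    (hx : ∀ n, x.coeff n ∈ K₀) : ∃ y : LaurentSeries K₀, coeffMap K₀.subtype y = x := by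
  have hsupp : (Function.support fun n : ℤ => (⟨x.coeff n, hx n⟩ : K₀)) = x.support := by
    ext n
    simp only [Function.mem_support, ne_eq, HahnSeries.mem_support]
    exact not_congr (by rw [Subtype.ext_iff]; rfl)
  refine ⟨⟨fun n => ⟨x.coeff n, hx n⟩, hsupp ▸ x.isPWO_support⟩, ?_⟩
  ext n
  rfl

/-- **[K0-SPAN], group form**: `H` a set of automorphisms of `K` over `k`, `W` a
finite-dimensional subspace of `K((T))` stable under the coefficientwise action of `H`.
Then `W` has a basis of vectors fixed by `H`. -/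
theorem exists_fixed_basis_aut {k : Type*} [Field k] [Algebra k K] (H : Set (K ≃ₐ[k] K))
    (W : Submodule K (LaurentSeries K)) [Module.Finite K W]
    (hW : ∀ τ ∈ H, ∀ w ∈ W, coeffMap (τ : K →+* K) w ∈ W) :
    ∃ (r : ℕ) (b : Fin r → LaurentSeries K), r = Module.finrank K W ∧ (∀ j, b j ∈ W) ∧
      (∀ j, ∀ τ ∈ H, coeffMap (τ : K →+* K) (b j) = b j) ∧
      (∀ j n, ∀ τ ∈ H, τ ((b j).coeff n) = (b j).coeff n) ∧
      LinearIndependent K b ∧ Submodule.span K (Set.range b) = W := by
  obtain ⟨r, b, hbW, hfix, hli, hspan⟩ :=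
    exists_fixed_basis {φ : K →+* K | ∃ τ ∈ H, φ = (τ : K →+* K)} W
      (by rintro _ ⟨τ, hτ, rfl⟩ w hw; exact hW τ hτ w hw)
  refine ⟨r, b, card_eq_finrank W b hli hspan, hbW, fun j τ hτ => hfix j _ ⟨τ, hτ, rfl⟩,
    fun j n τ hτ => ?_, hli, hspan⟩
  have := congrArg (fun x : LaurentSeries K => x.coeff n) (hfix j _ ⟨τ, hτ, rfl⟩)
  simpa using this

end Fermat.Agent.S36.InvSpan
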