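import Mathlib
import Fermat.Agent.S36.InvSpan
import Fermat.Agent.S36.InertiaField
import Fermat.Agent.S18.Plan
import Fermat.Agent.P5.Desc.BaseChange
import Fermat.Agent.Lib.RankOneQbar

/-!
# P8 / S36 — [K0-RED]: `K₀`-rational lifts of reductions (helper54)

`A` a valuation subring of `Q̄` over `q`, `I = A.inertiaSubgroupIn ℚ`, `K₀ = Q̄^I`.
`Fixed A x` : the Laurent series `x ∈ Q̄((T))` is fixed by the coefficientwise action of `I`.

* `QScale A q x` : some `q ^ m • x` (`m : ℤ`) is a unit for the content valuation (`∈ Ocal A`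
  with nonzero reduction).
* **(A)** `qScale_of_fixed` : every nonzero `I`-fixed element of `F_N · Q̄` (any level `N`) has
  `QScale`: the Gauss valuation of the `∞`-expansion is `ℤ·v(q)`-valued on `K₀`-rational
  functions.
* **(B)** `exists_fixed_basis_red_indep`, `exists_fixed_red_eq` : an `I`-stable subspace `W` with
  `(Dim)` (clause (d) of `S18.Plan.RedStmt`) and `QScale` on its fixed vectors has a basis of
  fixed vectors of `Ocal` with independent reductions; every reduction of `W ∩ Ocal` is the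
  reduction of a fixed element of `W ∩ Ocal`.
* **(C)** `exists_fixed_red_eq_modular` : the same for `W ≤ F_N · Q̄`.
-/

set_option autoImplicit false

noncomputable section

namespace Fermat.Agent.S36.K0Red

open ModularCurve Fermat.Agent.S24 Fermat.Agent.S18.Content Fermat.Agent.S18.Plan

variable (A : ValuationSubring Kbar) (q : ℕ)

/-- Fixed by the coefficientwise action of the inertia group of `A`. -/
def Fixed (x : Om) : Prop :=
  ∀ τ ∈ A.inertiaSubgroupIn ℚ, coeffMap (τ : Kbar →+* Kbar) x = x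

/-- Some `q ^ m • x` is a unit for the content valuation. -/
def QScale (x : Om) : Prop :=
  ∃ (m : ℤ) (h : HahnSeries.C ((q : Kbar) ^ m) * x ∈ Ocal A), red A ⟨_, h⟩ ≠ 0

variable {A} in
theorem Fixed.coeff {x : Om} (hx : Fixed A x) (n : ℤ) :
    ∀ τ ∈ A.inertiaSubgroupIn ℚ, τ (x.coeff n) = x.coeff n := by
  intro τ hτ
  have := congrArg (fun y : Om => y.coeff n) (hx τ hτ)
  simpa using this

variable {A} in
theorem fixed_of_coeff {x : Om}
    (hx : ∀ n, ∀ τ ∈ A.inertiaSubgroupIn ℚ, τ (x.coeff n) = x.coeff n) : Fixed A x := by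
  intro τ hτ
  ext n
  simpa using hx n τ hτ

variable {A} in
theorem Fixed.add {x y : Om} (hx : Fixed A x) (hy : Fixed A y) : Fixed A (x + y) :=
  fun τ hτ => by rw [map_add, hx τ hτ, hy τ hτ]

variable {A} in
theorem Fixed.mul {x y : Om} (hx : Fixed A x) (hy : Fixed A y) : Fixed A (x * y) :=
  fun τ hτ => by rw [map_mul, hx τ hτ, hy τ hτ]

variable {A} in
theorem Fixed.neg {x : Om} (hx : Fixed A x) : Fixed A (-x) :=
  fun τ hτ => by rw [map_neg, hx τ hτ]

variable {A} in
theorem Fixed.sub {x y : Om} (hx : Fixed A x) (hy : Fixed A y) : Fixed A (x - y) :=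
  fun τ hτ => by rw [map_sub, hx τ hτ, hy τ hτ]

theorem fixed_zero : Fixed A 0 := fun _ _ => map_zero _

theorem fixed_one : Fixed A 1 := fun _ _ => map_one _

variable {A} in
theorem fixed_C {a : Kbar} (ha : ∀ τ ∈ A.inertiaSubgroupIn ℚ, τ a = a) :
    Fixed A (HahnSeries.C a) := by
  intro τ hτ
  rw [HahnSeries.C_apply, coeffMap_single]
  show HahnSeries.single 0 (τ a) = _
  rw [ha τ hτ]

theorem fixed_C_natCast_zpow (m : ℤ) : Fixed A (HahnSeries.C ((q : Kbar) ^ m)) :=
  fixed_C fun τ _ => by rw [map_zpow₀, map_natCast]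

variable {A} in
theorem Fixed.sum {ι : Type*} (s : Finset ι) {f : ι → Om} (hf : ∀ i ∈ s, Fixed A (f i)) :
    Fixed A (∑ i ∈ s, f i) :=
  fun τ hτ => by rw [map_sum]; exact Finset.sum_congr rfl fun i hi => hf i hi τ hτ

/-! ## (A) the content valuation of fixed functions -/

/-- Fixed series with bounded denominators. -/
def R0 : Subring Om where
  carrier := {x | Fixed A x ∧ ∃ (m : ℕ) (u : LaurentSeries A),
    HahnSeries.C ((q : Kbar) ^ m) * x = iota A u}
  mul_mem' := by
    rintro x y ⟨hx, m, u, hu⟩ ⟨hy, m', u', hu'⟩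
    refine ⟨hx.mul hy, m + m', u * u', ?_⟩
    rw [map_mul, ← hu, ← hu', pow_add, map_mul]; ring
  one_mem' := ⟨fixed_one A, 0, 1, by simp⟩
  add_mem' := by
    rintro x y ⟨hx, m, u, hu⟩ ⟨hy, m', u', hu'⟩
    refine ⟨hx.add hy, m + m', HahnSeries.C ((q : A) ^ m') * u + HahnSeries.C ((q : A) ^ m) * u', ?_⟩
    rw [map_add, map_mul, map_mul, ← hu, ← hu', iota_C, iota_C, pow_add, map_mul]
    push_cast
    ring
  zero_mem' := ⟨fixed_zero A, 0, 0, by simp⟩
  neg_mem' := by
    rintro x ⟨hx, m, u, hu⟩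
    exact ⟨hx.neg, m, -u, by rw [map_neg, ← hu]; ring⟩

theorem mem_R0_iff (x : Om) : x ∈ R0 A q ↔ Fixed A x ∧ ∃ (m : ℕ) (u : LaurentSeries A),
    HahnSeries.C ((q : Kbar) ^ m) * x = iota A u := Iff.rfl

variable {A q} in
/-- A nonzero fixed series with bounded denominators has a primitive `q`-power multiple. -/
theorem qScale_of_mem_R0 (hq : q.Prime) (hAq : A.LiesOverPrime q) {x : Om} (hx : x ∈ R0 A q)
    (hx0 : x ≠ 0) : QScale A q x := by
  obtain ⟨hfix, m, u, hu⟩ := hx
  have hq0 : (q : Kbar) ≠ 0 := Nat.cast_ne_zero.mpr hq.ne_zero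
  have hvq0 : A.valuation (q : Kbar) ≠ 0 := (Valuation.ne_zero_iff _).mpr hq0
  have hvqpos : 0 < A.valuation (q : Kbar) := zero_lt_iff.mpr hvq0
  have hvq : A.valuation (q : Kbar) < 1 := by
    have hA' : ((q : ℕ) : Kbar) ∈ A.nonunits := hAq
    rwa [ValuationSubring.mem_nonunits_iff] at hA'
  have hcoeff : ∀ n, (q : Kbar) ^ m * x.coeff n = (u.coeff n : Kbar) := by
    intro n
    have := congrArg (fun y : Om => y.coeff n) hu
    simpa [coeff_C_mul] using this
  -- the exponents of the nonzero coefficients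
  have hexp : ∀ n, x.coeff n ≠ 0 →
      ∃ e : ℤ, A.valuation (x.coeff n) = A.valuation (q : Kbar) ^ e := fun n hn =>
    InertiaField.val_eq_zpow_of_inertia_fixed A q hq hAq _ hn (hfix.coeff n)
  obtain ⟨n₀, hn₀⟩ : ∃ n, x.coeff n ≠ 0 := by
    by_contra hall
    push Not at hall
    exact hx0 (HahnSeries.ext (funext fun i => by simpa using hall i))
  obtain ⟨e, ⟨n₁, hn₁, he⟩, hmin⟩ := Int.exists_least_of_bdd
    (P := fun e : ℤ => ∃ n, x.coeff n ≠ 0 ∧ A.valuation (x.coeff n) = A.valuation (q : Kbar) ^ e)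
    ⟨-(m : ℤ), by
      rintro z ⟨n, hn, hz⟩
      have h1 : A.valuation ((q : Kbar) ^ m * x.coeff n) ≤ 1 := by
        rw [hcoeff n]; exact (A.valuation_le_one_iff _).mpr (u.coeff n).2
      rw [map_mul, map_pow, hz, ← zpow_natCast, ← zpow_add₀ hvq0] at h1
      have h2 : A.valuation (q : Kbar) ^ ((m : ℤ) + z) ≤ A.valuation (q : Kbar) ^ (0 : ℤ) := by
        simpa using h1
      have := (zpow_le_zpow_iff_right_of_lt_one₀ hvqpos hvq).mp h2
      omega⟩
    (by obtain ⟨e, he⟩ := hexp n₀ hn₀; exact ⟨e, n₀, hn₀, he⟩)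
  -- the primitive multiple
  have hval : ∀ n, A.valuation ((q : Kbar) ^ (-e) * x.coeff n) ≤ 1 := by
    intro n
    by_cases hn : x.coeff n = 0
    · rw [hn, mul_zero, map_zero]; exact zero_le_one
    · obtain ⟨z, hz⟩ := hexp n hn
      have hez : e ≤ z := hmin z ⟨n, hn, hz⟩
      rw [map_mul, map_zpow₀, hz, ← zpow_add₀ hvq0]
      have : A.valuation (q : Kbar) ^ (-e + z) ≤ A.valuation (q : Kbar) ^ (0 : ℤ) :=
        (zpow_le_zpow_iff_right_of_lt_one₀ hvqpos hvq).mpr (by omega)
      simpa using this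
  have hval1 : A.valuation ((q : Kbar) ^ (-e) * x.coeff n₁) = 1 := by
    rw [map_mul, map_zpow₀, he, ← zpow_add₀ hvq0]; simp
  obtain ⟨u₁, hu₁⟩ := exists_iota_eq A (HahnSeries.C ((q : Kbar) ^ (-e)) * x) (fun n => by
    rw [coeff_C_mul]; exact (A.valuation_le_one_iff _).mp (hval n))
  have hρ : rho A u₁ ≠ 0 := by
    intro h0
    have h1 := congrArg (fun y => y.coeff n₁) h0
    simp only [rho_coeff, HahnSeries.coeff_zero] at h1
    rw [IsLocalRing.residue_eq_zero_iff] at h1
    have hunit : IsUnit (u₁.coeff n₁) := by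
      rw [ValuationSubring.valuation_eq_one_iff]
      have h2 := congrArg (fun y : Om => y.coeff n₁) hu₁
      simp only [iota_coeff, coeff_C_mul] at h2
      rw [h2]; exact hval1
    exact (IsLocalRing.notMem_maximalIdeal.mpr hunit) h1
  refine ⟨-e, hu₁ ▸ iota_mem_Ocal A u₁, ?_⟩
  rw [red_congr A hu₁.symm _ (iota_mem_Ocal A u₁), red_iota]
  exact hρ

variable {A q} in
/-- Ratios of fixed series with bounded denominators have a primitive `q`-power multiple. -/
theorem qScale_of_mem_closure (hq : q.Prime) (hAq : A.LiesOverPrime q) {g : Om}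
    (hg : g ∈ Subfield.closure (R0 A q : Set Om)) (hg0 : g ≠ 0) : QScale A q g := by
  rw [Subfield.mem_closure_iff] at hg
  obtain ⟨y, hy, z, hz, rfl⟩ := hg
  rw [Subring.closure_eq] at hy hz
  have hq0 : (q : Kbar) ≠ 0 := Nat.cast_ne_zero.mpr hq.ne_zero
  have hy0 : y ≠ 0 := by rintro rfl; simp at hg0
  have hz0 : z ≠ 0 := by rintro rfl; simp at hg0
  obtain ⟨a, ha, hra⟩ := qScale_of_mem_R0 hq hAq hy hy0
  obtain ⟨b, hb, hrb⟩ := qScale_of_mem_R0 hq hAq hz hz0
  have hinv := inv_mem_Ocal A ⟨_, hb⟩ hrb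
  have key : HahnSeries.C ((q : Kbar) ^ (a - b)) * (y / z) =
      (HahnSeries.C ((q : Kbar) ^ a) * y) * (HahnSeries.C ((q : Kbar) ^ b) * z)⁻¹ := by
    have h1 : (HahnSeries.C ((q : Kbar) ^ (a - b)) : Om) =
        HahnSeries.C ((q : Kbar) ^ a) * (HahnSeries.C ((q : Kbar) ^ b) : Om)⁻¹ := by
      rw [zpow_sub₀ hq0, div_eq_mul_inv, map_mul, map_inv₀]
    rw [h1, div_eq_mul_inv, mul_inv]
    ring
  have hmem : HahnSeries.C ((q : Kbar) ^ (a - b)) * (y / z) ∈ Ocal A := by
    rw [key]; exact (Ocal A).mul_mem ha hinv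
  refine ⟨a - b, hmem, ?_⟩
  have h2 : red A ⟨_, hmem⟩ = red A (⟨_, ha⟩ * ⟨_, hinv⟩) := red_congr A key _ _
  rw [h2, map_mul, red_inv A ⟨_, hb⟩ hrb]
  exact mul_ne_zero hra (inv_ne_zero hrb)

variable {A q} in
/-- Fixed constants are in `R0`. -/
theorem C_mem_R0 (hq : q.Prime) (hAq : A.LiesOverPrime q) {a : Kbar}
    (ha : ∀ τ ∈ A.inertiaSubgroupIn ℚ, τ a = a) : HahnSeries.C a ∈ R0 A q := by
  refine ⟨fixed_C ha, ?_⟩
  by_cases ha0 : a = 0
  · exact ⟨0, 0, by simp [ha0]⟩
  have hqA : ∀ k : ℕ, (q : Kbar) ^ k ∈ A := fun k => pow_mem (natCast_mem A q) k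
  obtain ⟨n, hn, -⟩ := InertiaField.exists_zpow_mul_mem_and_inv_mem A q hq hAq a ha0 ha
  have hq0 : (q : Kbar) ≠ 0 := Nat.cast_ne_zero.mpr hq.ne_zero
  have hmem : (q : Kbar) ^ n.toNat * a ∈ A := by
    rcases le_or_gt 0 n with h | h
    · have : (q : Kbar) ^ n.toNat * a = a * (q : Kbar) ^ n := by
        rw [← zpow_natCast, Int.toNat_of_nonneg h, mul_comm]
      rw [this]; exact hn
    · have h0 : n.toNat = 0 := Int.toNat_eq_zero.mpr h.le
      have : (q : Kbar) ^ n.toNat * a = a * (q : Kbar) ^ n * (q : Kbar) ^ (-n).toNat := by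
        rw [h0, pow_zero, one_mul, ← zpow_natCast, Int.toNat_of_nonneg (by omega), mul_assoc,
          ← zpow_add₀ hq0]
        simp
      rw [this]; exact A.mul_mem _ _ hn (hqA _)
  refine ⟨n.toNat, HahnSeries.C ⟨_, hmem⟩, ?_⟩
  rw [iota_C, ← map_mul]

variable {A q} in
/-- The image of `ℚ(X₀(N))` in `Q̄((T))` consists of ratios of fixed bounded series. -/
theorem coeffEmb_mem_closure (hq : q.Prime) (hAq : A.LiesOverPrime q) (N : ℕ) [NeZero N]
    {z : LaurentSeries ℚ} (hz : z ∈ modularFunctionFieldFull N) :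
    coeffEmb Kbar z ∈ Subfield.closure (R0 A q : Set Om) := by
  have hz' : z ∈ Subfield.closure
      (Set.range (algebraMap ℚ (LaurentSeries ℚ)) ∪ divisorExpansions N) := hz
  clear hz
  induction hz' using Subfield.closure_induction with
  | mem y hy =>
      rcases hy with ⟨c, rfl⟩ | ⟨d, hd, -, rfl⟩
      · have h1 : coeffEmb Kbar (algebraMap ℚ (LaurentSeries ℚ) c) =
            HahnSeries.C (algebraMap ℚ Kbar c) := by
          rw [coeffEmb, Fermat.Agent.P5.Desc.coeffMap_algebraMap',
            algebraMap_laurentSeries_eq_single]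
          rfl
        rw [h1]
        exact Subfield.subset_closure (C_mem_R0 hq hAq fun τ _ => τ.commutes c)
      · refine Subfield.subset_closure ⟨fun τ _ => coeffMap_coeffEmb τ _, 0, jqNModC A d, ?_⟩
        rw [pow_zero, map_one, one_mul]
        show coeffMap (algebraMap ℚ Kbar) (jqNModC ℚ d) = coeffMap A.subtype (jqNModC A d)
        rw [coeffMap_jqNModC, coeffMap_jqNModC]
  | one => rw [map_one]; exact one_mem _
  | add _ _ _ _ hx hy => rw [map_add]; exact add_mem hx hy
  | neg _ _ hx => rw [map_neg]; exact neg_mem hx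
  | inv _ _ hx => rw [map_inv₀]; exact inv_mem hx
  | mul _ _ _ _ hx hy => rw [map_mul]; exact mul_mem hx hy

variable {A q} in
/-- A fixed element of `F_N · Q̄` is a ratio of fixed series with bounded denominators. -/
theorem mem_closure_of_fixed (hq : q.Prime) (hAq : A.LiesOverPrime q) (N : ℕ) [NeZero N]
    {g : Om} (hg : g ∈ modularFunctionFieldBar N) (hfix : Fixed A g) :
    g ∈ Subfield.closure (R0 A q : Set Om) := by
  set K₀ : IntermediateField ℚ Kbar :=
    IntermediateField.fixedField (A.inertiaSubgroupIn ℚ) with hK₀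
  have hmem : ∀ n, g.coeff n ∈ K₀ := fun n =>
    (IntermediateField.mem_fixedField_iff _ _).mpr fun τ hτ => hfix.coeff n τ hτ
  obtain ⟨g₀, hg₀⟩ : ∃ g₀ : LaurentSeries K₀, coeffMap (algebraMap K₀ Kbar) g₀ = g := by
    refine ⟨⟨fun n => ⟨g.coeff n, hmem n⟩, g.isPWO_support.mono ?_⟩, ?_⟩
    · intro n hn
      simp only [Function.mem_support, ne_eq] at hn ⊢
      intro h0
      exact hn (Subtype.ext h0)
    · ext n; rfl
  have h0 : g₀ ∈ laurentBaseChange K₀ (modularFunctionFieldFull N) :=
    Fermat.Agent.P5.Desc.mem_laurentBaseChange_of_coeffMap_mem (algebraMap K₀ Kbar) _ g₀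
      (by rw [hg₀]; exact hg)
  rw [← hg₀]
  clear hg₀
  rw [mem_laurentBaseChange_iff] at h0
  induction h0 using Subfield.closure_induction with
  | mem y hy =>
      rcases hy with ⟨c, rfl⟩ | ⟨z, hz, rfl⟩
      · rw [Fermat.Agent.P5.Desc.coeffMap_algebraMap', algebraMap_laurentSeries_eq_single]
        refine Subfield.subset_closure (C_mem_R0 hq hAq fun τ hτ => ?_)
        exact (IntermediateField.mem_fixedField_iff _ _).mp c.2 τ hτ
      · rw [Fermat.Agent.P5.Desc.coeffMap_coeffEmb']
        exact coeffEmb_mem_closure hq hAq N hz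
  | one => rw [map_one]; exact one_mem _
  | add _ _ _ _ hx hy => rw [map_add]; exact add_mem hx hy
  | neg _ _ hx => rw [map_neg]; exact neg_mem hx
  | inv _ _ hx => rw [map_inv₀]; exact inv_mem hx
  | mul _ _ _ _ hx hy => rw [map_mul]; exact mul_mem hx hy

variable {A q} in
/-- **(A) [K0-UNR1]** The Gauss valuation of the `∞`-expansion is `ℤ·v(q)`-valued on the
`K₀`-rational functions of every level: a nonzero inertia-fixed element of `F_N · Q̄` has a
`q`-power multiple which is a unit of `Ocal A`. -/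
theorem qScale_of_fixed (hq : q.Prime) (hAq : A.LiesOverPrime q) (N : ℕ) [NeZero N]
    (g : Om) (hg : g ∈ modularFunctionFieldBar N) (hg0 : g ≠ 0) (hfix : Fixed A g) :
    QScale A q g :=
  qScale_of_mem_closure hq hAq (mem_closure_of_fixed hq hAq N hg hfix) hg0

/-! ## (B) fixed bases with independent reductions -/

section Ortho

variable {A}

/-- `A`-linear combinations in `Ocal`. -/
def lin {r : ℕ} (b : Fin r → Ocal A) (β : Fin r → A) : Ocal A := ∑ i, constO A (β i) * b i

theorem coe_lin {r : ℕ} (b : Fin r → Ocal A) (β : Fin r → A) :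
    ((lin b β : Ocal A) : Om) = ∑ i, HahnSeries.C (β i : Kbar) * (b i : Om) := by
  rw [lin]
  have : ((∑ i, constO A (β i) * b i : Ocal A) : Om) =
      ∑ i, (((constO A (β i) * b i : Ocal A)) : Om) := map_sum (Ocal A).subtype _ _
  rw [this]
  exact Finset.sum_congr rfl fun i _ => by rw [Subring.coe_mul, coe_constO]

theorem red_lin {r : ℕ} (b : Fin r → Ocal A) (β : Fin r → A) :
    red A (lin b β) = ∑ i, IsLocalRing.residue A (β i) • red A (b i) := by
  rw [lin, map_sum]
  exact Finset.sum_congr rfl fun i _ => by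
    rw [map_mul, red_constO, HahnSeries.C_mul_eq_smul]

/-- **(ON)** the coordinates of an element of `Ocal` in a family with independent reductions
lie in `A`. -/
theorem coeff_mem_of_red_indep {r : ℕ} (b : Fin r → Ocal A)
    (hb : LinearIndependent (kk A) (fun i => red A (b i))) (α : Fin r → Kbar)
    (h : ∑ i, HahnSeries.C (α i) * (b i : Om) ∈ Ocal A) : ∀ i, α i ∈ A := by
  classical
  by_contra hcon
  push Not at hcon
  obtain ⟨i₁, hi₁⟩ := hcon
  obtain ⟨i₀, -, hmax⟩ := Finset.exists_max_image Finset.univ (fun i => A.valuation (α i))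
    ⟨i₁, Finset.mem_univ _⟩
  have h1 : 1 < A.valuation (α i₀) :=
    lt_of_lt_of_le (not_le.mp fun hle => hi₁ ((A.valuation_le_one_iff _).mp hle))
      (hmax i₁ (Finset.mem_univ _))
  have hα0 : α i₀ ≠ 0 := by
    intro h0
    rw [h0, map_zero] at h1
    exact not_lt_of_ge zero_le_one h1
  have hv0 : A.valuation (α i₀) ≠ 0 := (Valuation.ne_zero_iff _).mpr hα0
  set c : Kbar := (α i₀)⁻¹ with hc
  have hcv : A.valuation c < 1 := by
    rw [hc, map_inv₀]; exact inv_lt_one_of_one_lt₀ h1
  have hcA : c ∈ A := (A.valuation_le_one_iff _).mp hcv.le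
  have hβ : ∀ i, c * α i ∈ A := by
    intro i
    rw [← A.valuation_le_one_iff, map_mul, hc, map_inv₀]
    exact (inv_mul_le_one₀ (zero_lt_iff.mpr hv0)).mpr (hmax i (Finset.mem_univ _))
  let β : Fin r → A := fun i => ⟨c * α i, hβ i⟩
  have hy : ((lin b β : Ocal A) : Om) =
      HahnSeries.C c * ∑ i, HahnSeries.C (α i) * (b i : Om) := by
    rw [coe_lin, Finset.mul_sum]
    refine Finset.sum_congr rfl fun i _ => ?_
    show HahnSeries.C (c * α i) * _ = _
    rw [map_mul, mul_assoc]
  have hred : red A (lin b β) = 0 := by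
    have e : lin b β = constO A ⟨c, hcA⟩ * ⟨_, h⟩ :=
      Subtype.ext (by rw [hy, Subring.coe_mul, coe_constO])
    have hres : IsLocalRing.residue A ⟨c, hcA⟩ = 0 := by
      rw [IsLocalRing.residue_eq_zero_iff, ValuationSubring.valuation_lt_one_iff]; exact hcv
    rw [e, map_mul, red_constO, hres, map_zero, zero_mul]
  rw [red_lin] at hred
  have h0 := Fintype.linearIndependent_iff.mp hb _ hred i₀
  have h1' : β i₀ = 1 := Subtype.ext (by show c * α i₀ = 1; rw [hc, inv_mul_cancel₀ hα0])
  rw [h1', map_one] at h0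
  exact one_ne_zero h0

theorem natCast_inv_notMem {q : ℕ} (hq0 : q ≠ 0) (hAq : A.LiesOverPrime q) :
    (q : Kbar)⁻¹ ∉ A := by
  intro h
  have h1 : A.valuation (q : Kbar) < 1 := by
    have hA' : ((q : ℕ) : Kbar) ∈ A.nonunits := hAq
    rwa [ValuationSubring.mem_nonunits_iff] at hA'
  have h2 := (A.valuation_le_one_iff _).mpr h
  rw [map_inv₀] at h2
  have hv0 : A.valuation (q : Kbar) ≠ 0 :=
    (Valuation.ne_zero_iff _).mpr (Nat.cast_ne_zero.mpr hq0)
  have : (1 : A.ValueGroup) < 1 :=
    calc (1 : A.ValueGroup) = A.valuation (q : Kbar) * (A.valuation (q : Kbar))⁻¹ :=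
          (mul_inv_cancel₀ hv0).symm
      _ ≤ A.valuation (q : Kbar) * 1 := mul_le_mul' le_rfl h2
      _ = A.valuation (q : Kbar) := mul_one _
      _ < 1 := h1
  exact lt_irrefl _ this

/-- **(LI)** a family of `Ocal` with independent reductions is linearly independent over `Q̄`. -/
theorem linearIndependent_coe_of_red_indep {q : ℕ} (hq : q.Prime) (hAq : A.LiesOverPrime q)
    {r : ℕ} (b : Fin r → Ocal A) (hb : LinearIndependent (kk A) (fun i => red A (b i))) :
    LinearIndependent Kbar (fun i => (b i : Om)) := by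
  rw [Fintype.linearIndependent_iff]
  intro g hg i
  by_contra hgi
  have hq0 : (q : Kbar) ≠ 0 := Nat.cast_ne_zero.mpr hq.ne_zero
  set t : Kbar := (g i * (q : Kbar))⁻¹ with ht
  have hsum : ∑ j, HahnSeries.C (t * g j) * (b j : Om) = 0 := by
    have : ∑ j, HahnSeries.C (t * g j) * (b j : Om) = HahnSeries.C t * ∑ j, g j • (b j : Om) := by
      rw [Finset.mul_sum]
      exact Finset.sum_congr rfl fun j _ => by
        rw [map_mul, mul_assoc, HahnSeries.C_mul_eq_smul (r := g j)]
    rw [this, hg, mul_zero]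
  have hmem := coeff_mem_of_red_indep b hb (fun j => t * g j) (by rw [hsum]; exact zero_mem _) i
  apply natCast_inv_notMem hq.ne_zero hAq
  have : t * g i = (q : Kbar)⁻¹ := by
    rw [ht, mul_inv, mul_comm (g i)⁻¹, mul_assoc, inv_mul_cancel₀ hgi, mul_one]
  rwa [this] at hmem

/-- Fixed lift of a residue class (from `InertiaField.exists_inertia_fixed_lift`). -/
theorem exists_fixed_lift {q : ℕ} (hq : q.Prime) (hAq : A.LiesOverPrime q) (γ : kk A) :
    ∃ a : A, (∀ τ ∈ A.inertiaSubgroupIn ℚ, τ (a : Kbar) = a) ∧ IsLocalRing.residue A a = γ := by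
  obtain ⟨a', ha'⟩ := IsLocalRing.residue_surjective (R := A) γ
  obtain ⟨z, hzA, hzfix, hz⟩ := InertiaField.exists_inertia_fixed_lift A q hq hAq a' a'.2
  refine ⟨⟨z, hzA⟩, hzfix, ?_⟩
  rw [← ha']
  symm
  rw [← sub_eq_zero, ← map_sub, IsLocalRing.residue_eq_zero_iff,
    ValuationSubring.valuation_lt_one_iff]
  rwa [ValuationSubring.mem_nonunits_iff] at hz

/-- The inductive construction: fixed families of `W ∩ Ocal` with independent reductions of
every size `s ≤ r`. -/
theorem exists_fixed_family {q : ℕ} (hq : q.Prime) (hAq : A.LiesOverPrime q)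
    (W : Submodule Kbar Om)
    (hW : ∀ τ ∈ A.inertiaSubgroupIn ℚ, ∀ w ∈ W, coeffMap (τ : Kbar →+* Kbar) w ∈ W)
    {r : ℕ} (b : Fin r → Ocal A)
    (hspan : Submodule.span Kbar (Set.range fun i => (b i : Om)) = W)
    (hb : LinearIndependent (kk A) (fun i => red A (b i)))
    (hunr : ∀ w ∈ W, w ≠ 0 → Fixed A w → QScale A q w) :
    ∀ s ≤ r, ∃ c : Fin s → Ocal A, (∀ i, (c i : Om) ∈ W) ∧ (∀ i, Fixed A (c i : Om)) ∧
      LinearIndependent (kk A) (fun i => red A (c i)) := by
  intro s
  induction s with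
  | zero =>
    exact fun _ => ⟨Fin.elim0, fun i => i.elim0, fun i => i.elim0, linearIndependent_empty_type⟩
  | succ s ih =>
    intro hs
    obtain ⟨c, hcW, hcfix, hcli⟩ := ih (by omega)
    by_cases hex : ∃ y : Ocal A, (y : Om) ∈ W ∧ Fixed A (y : Om) ∧
        red A y ∉ Submodule.span (kk A) (Set.range fun i => red A (c i))
    · obtain ⟨y, hyW, hyfix, hyn⟩ := hex
      refine ⟨Fin.cons y c, ?_, ?_, ?_⟩
      · intro i
        refine Fin.cases ?_ (fun i => ?_) i
        · simpa using hyW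
        · simpa using hcW i
      · intro i
        refine Fin.cases ?_ (fun i => ?_) i
        · simpa using hyfix
        · simpa using hcfix i
      · have e : (fun i => red A ((Fin.cons y c : Fin (s + 1) → Ocal A) i)) =
            Fin.cons (red A y) (fun i => red A (c i)) := by
          funext i
          refine Fin.cases ?_ (fun i => ?_) i <;> simp
        rw [e, linearIndependent_finCons]
        exact ⟨hcli, hyn⟩
    · exfalso
      push Not at hex
      have hq0 : (q : Kbar) ≠ 0 := Nat.cast_ne_zero.mpr hq.ne_zero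
      have hqA : (q : Kbar) ∈ A := natCast_mem A q
      have hqinv : (q : Kbar)⁻¹ ∉ A := natCast_inv_notMem hq.ne_zero hAq
      have : Fact q.Prime := ⟨hq⟩
      have hcic := Fermat.Agent.Lib.RankOneQbar.completelyIntegrallyClosed_algClosure A q hAq
      set U : Submodule Kbar Om := Submodule.span Kbar (Set.range fun i => (c i : Om)) with hU
      have hUW : U ≤ W := Submodule.span_le.2 (by rintro _ ⟨i, rfl⟩; exact hcW i)
      have hbli : LinearIndependent Kbar (fun i => (b i : Om)) :=
        linearIndependent_coe_of_red_indep hq hAq b hb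
      -- a fixed `w ∈ W ∖ U`
      obtain ⟨w, hwW, hwfix, hwU⟩ : ∃ w, w ∈ W ∧ Fixed A w ∧ w ∉ U := by
        by_contra hno
        push Not at hno
        have : Module.Finite Kbar W := by
          rw [← hspan]; exact FiniteDimensional.span_of_finite Kbar (Set.finite_range _)
        have hWU : W ≤ U := by
          have hsp := InvSpan.span_fixed_eq
            {φ : Kbar →+* Kbar | ∃ τ ∈ A.inertiaSubgroupIn ℚ, φ = (τ : Kbar →+* Kbar)} W
            (by rintro _ ⟨τ, hτ, rfl⟩ w hw; exact hW τ hτ w hw)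
          rw [← hsp]
          exact Submodule.span_le.2 fun w hw =>
            hno w hw.1 (fun τ hτ => hw.2 _ ⟨τ, hτ, rfl⟩)
        have h1 : Module.finrank Kbar W = r := by
          rw [← hspan, finrank_span_eq_card hbli, Fintype.card_fin]
        have h2 : Module.finrank Kbar U ≤ s := by
          have := finrank_range_le_card (R := Kbar) (fun i => (c i : Om))
          rw [Fintype.card_fin] at this
          exact this
        have : Module.Finite Kbar U :=
          FiniteDimensional.span_of_finite Kbar (Set.finite_range _)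
        have h3 : Module.finrank Kbar W ≤ Module.finrank Kbar U := Submodule.finrank_mono hWU
        omega
      have hw0 : w ≠ 0 := fun h => hwU (h ▸ U.zero_mem)
      obtain ⟨m₀, hm₀, -⟩ := hunr w hwW hw0 hwfix
      have hsmulU : ∀ (a : Kbar) (u : Om), u ∈ U → HahnSeries.C a * u ∈ U := fun a u hu => by
        rw [HahnSeries.C_mul_eq_smul]; exact U.smul_mem _ hu
      have hsmulW : ∀ (a : Kbar) (u : Om), u ∈ W → HahnSeries.C a * u ∈ W := fun a u hu => by
        rw [HahnSeries.C_mul_eq_smul]; exact W.smul_mem _ hu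
      -- the approximation of `w` by `U`
      have happ : ∀ n : ℕ, ∃ x : Ocal A, (x : Om) ∈ W ∧ Fixed A (x : Om) ∧
          w - HahnSeries.C ((q : Kbar) ^ ((n : ℤ) - m₀)) * (x : Om) ∈ U := by
        intro n
        induction n with
        | zero =>
          refine ⟨⟨_, hm₀⟩, hsmulW _ _ hwW, (fixed_C_natCast_zpow A q m₀).mul hwfix, ?_⟩
          have : w - HahnSeries.C ((q : Kbar) ^ (((0 : ℕ) : ℤ) - m₀)) *
              (HahnSeries.C ((q : Kbar) ^ m₀) * w) = 0 := by
            rw [← mul_assoc, ← map_mul, ← zpow_add₀ hq0]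
            simp
          rw [this]; exact U.zero_mem
        | succ n ihn =>
          obtain ⟨x, hxW, hxfix, hxU⟩ := ihn
          obtain ⟨γ, hγ⟩ := (Submodule.mem_span_range_iff_exists_fun (kk A)).mp
            (hex x hxW hxfix)
          choose a hafix hares using fun i => exists_fixed_lift hq hAq (γ i)
          set x' : Ocal A := x - lin c a with hx'
          have hredx' : red A x' = 0 := by
            rw [hx', map_sub, red_lin, ← hγ]
            simp [hares]
          have hx'coe : (x' : Om) = (x : Om) - ∑ i, HahnSeries.C (a i : Kbar) * (c i : Om) := by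
            rw [← coe_lin]; rfl
          have hlinU : ∑ i, HahnSeries.C (a i : Kbar) * (c i : Om) ∈ U :=
            Submodule.sum_mem _ fun i _ => hsmulU _ _ (Submodule.subset_span ⟨i, rfl⟩)
          have hx'W : (x' : Om) ∈ W := by rw [hx'coe]; exact W.sub_mem hxW (hUW hlinU)
          have hx'fix : Fixed A (x' : Om) := by
            rw [hx'coe]
            exact hxfix.sub (Fixed.sum _ fun i _ => (fixed_C (hafix i)).mul (hcfix i))
          have hx'0 : (x' : Om) ≠ 0 := by
            intro h0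
            apply hwU
            have hxU' : (x : Om) ∈ U := by
              have : (x : Om) = ∑ i, HahnSeries.C (a i : Kbar) * (c i : Om) := by
                rw [hx'coe, sub_eq_zero] at h0; exact h0
              rw [this]; exact hlinU
            have : w = (w - HahnSeries.C ((q : Kbar) ^ ((n : ℤ) - m₀)) * (x : Om)) +
                HahnSeries.C ((q : Kbar) ^ ((n : ℤ) - m₀)) * (x : Om) := by ring
            rw [this]; exact U.add_mem hxU (hsmulU _ _ hxU')
          obtain ⟨m, hm, hrm⟩ := hunr _ hx'W hx'0 hx'fix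
          have hmneg : m < 0 := by
            by_contra hge
            push Not at hge
            apply hrm
            have hqm : (q : Kbar) ^ m ∈ A := by
              obtain ⟨k, rfl⟩ := Int.eq_ofNat_of_zero_le hge
              rw [zpow_natCast]; exact pow_mem hqA k
            have e : (⟨_, hm⟩ : Ocal A) = constO A ⟨_, hqm⟩ * x' :=
              Subtype.ext (by rw [Subring.coe_mul, coe_constO])
            rw [e, map_mul, hredx', mul_zero]
          have hx''mem : HahnSeries.C ((q : Kbar)⁻¹) * (x' : Om) ∈ Ocal A := by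
            have hk : (q : Kbar) ^ (-1 - m) ∈ A := by
              obtain ⟨k, hk⟩ := Int.eq_ofNat_of_zero_le (show 0 ≤ -1 - m by omega)
              rw [hk, zpow_natCast]; exact pow_mem hqA k
            have e : HahnSeries.C ((q : Kbar)⁻¹) * (x' : Om) =
                HahnSeries.C ((q : Kbar) ^ (-1 - m)) *
                  (HahnSeries.C ((q : Kbar) ^ m) * (x' : Om)) := by
              rw [← mul_assoc, ← map_mul, ← zpow_add₀ hq0]
              simp
            rw [e]; exact (Ocal A).mul_mem (C_mem_Ocal A hk) hm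
          refine ⟨⟨_, hx''mem⟩, hsmulW _ _ hx'W, ?_, ?_⟩
          · exact (fixed_C fun τ _ => by rw [map_inv₀, map_natCast]).mul hx'fix
          · have e : w - HahnSeries.C ((q : Kbar) ^ (((n + 1 : ℕ) : ℤ) - m₀)) *
                (HahnSeries.C ((q : Kbar)⁻¹) * (x' : Om)) =
                (w - HahnSeries.C ((q : Kbar) ^ ((n : ℤ) - m₀)) * (x : Om)) +
                  HahnSeries.C ((q : Kbar) ^ ((n : ℤ) - m₀)) *
                    ∑ i, HahnSeries.C (a i : Kbar) * (c i : Om) := by
              have e1 : (q : Kbar) ^ (((n + 1 : ℕ) : ℤ) - m₀) * (q : Kbar)⁻¹ =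
                  (q : Kbar) ^ ((n : ℤ) - m₀) := by
                rw [← zpow_neg_one, ← zpow_add₀ hq0]
                congr 1
                push_cast
                ring
              rw [← mul_assoc, ← map_mul, e1, hx'coe]
              ring
            rw [e]; exact U.add_mem hxU (hsmulU _ _ hlinU)
      -- a separating functional with bounded denominators
      obtain ⟨ψ, hψw, hψU⟩ := Submodule.exists_le_ker_of_notMem hwU
      have hbd : ∀ β : Kbar, ∃ t : ℕ, (q : Kbar) ^ t * β ∈ A := by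
        intro β
        by_cases hβ : β = 0
        · exact ⟨0, by rw [hβ, mul_zero]; exact A.zero_mem⟩
        by_contra hno
        push Not at hno
        apply hqinv
        refine hcic (q : Kbar)⁻¹ β⁻¹ (inv_ne_zero hβ) fun n => ?_
        have h1 := (A.mem_or_inv_mem ((q : Kbar) ^ n * β)).resolve_left (hno n)
        have e : β⁻¹ * ((q : Kbar)⁻¹) ^ n = ((q : Kbar) ^ n * β)⁻¹ := by
          rw [mul_inv, inv_pow, mul_comm]
        show β⁻¹ * ((q : Kbar)⁻¹) ^ n ∈ A
        rw [e]; exact h1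
      choose t ht using fun j : Fin r => hbd (ψ (b j : Om))
      set T : ℕ := Finset.univ.sup t with hTdef
      have hT : ∀ j, (q : Kbar) ^ T * ψ (b j : Om) ∈ A := fun j => by
        have e : (q : Kbar) ^ T * ψ (b j : Om) =
            (q : Kbar) ^ (T - t j) * ((q : Kbar) ^ (t j) * ψ (b j : Om)) := by
          rw [← mul_assoc, ← pow_add, Nat.sub_add_cancel (Finset.le_sup (Finset.mem_univ j))]
        rw [e]; exact A.mul_mem _ _ (pow_mem hqA _) (ht j)
      have hψx : ∀ x : Ocal A, (x : Om) ∈ W → (q : Kbar) ^ T * ψ (x : Om) ∈ A := by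
        intro x hxW
        rw [← hspan] at hxW
        obtain ⟨ξ, hξ⟩ := (Submodule.mem_span_range_iff_exists_fun Kbar).mp hxW
        have hξA : ∀ j, ξ j ∈ A := coeff_mem_of_red_indep b hb ξ (by
          have : ∑ i, HahnSeries.C (ξ i) * (b i : Om) = (x : Om) := by
            rw [← hξ]; exact Finset.sum_congr rfl fun i _ => HahnSeries.C_mul_eq_smul
          rw [this]; exact x.2)
        rw [← hξ, map_sum, Finset.mul_sum]
        refine sum_mem fun j _ => ?_
        rw [map_smul, smul_eq_mul, mul_left_comm]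
        exact A.mul_mem _ _ (hξA j) (hT j)
      -- contradiction
      apply hqinv
      refine hcic (q : Kbar)⁻¹ (ψ w * (q : Kbar) ^ (m₀ + (T : ℤ)))
        (mul_ne_zero hψw (zpow_ne_zero _ hq0)) fun n => ?_
      obtain ⟨x, hxW, -, hxU⟩ := happ n
      have h1 : ψ w = (q : Kbar) ^ ((n : ℤ) - m₀) * ψ (x : Om) := by
        have := hψU hxU
        rw [LinearMap.mem_ker, map_sub, HahnSeries.C_mul_eq_smul, map_smul, sub_eq_zero] at this
        exact this
      have e : ψ w * (q : Kbar) ^ (m₀ + (T : ℤ)) * ((q : Kbar)⁻¹) ^ n =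
          (q : Kbar) ^ T * ψ (x : Om) := by
        rw [h1, inv_pow, ← zpow_natCast (q : Kbar) n, ← zpow_natCast (q : Kbar) T,
          zpow_add₀ hq0, zpow_sub₀ hq0]
        field_simp
      show ψ w * (q : Kbar) ^ (m₀ + (T : ℤ)) * ((q : Kbar)⁻¹) ^ n ∈ A
      rw [e]; exact hψx x hxW

/-- **(B) [K0-RED]** An inertia-stable subspace `W` with `(Dim)` (`hdim` is clause (d) of
`S18.Plan.RedStmt`) whose fixed vectors have `QScale` has a basis of inertia-fixed elements of
`Ocal` with linearly independent reductions. -/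
theorem exists_fixed_basis_red_indep {q : ℕ} (hq : q.Prime) (hAq : A.LiesOverPrime q)
    (W : Submodule Kbar Om)
    (hW : ∀ τ ∈ A.inertiaSubgroupIn ℚ, ∀ w ∈ W, coeffMap (τ : Kbar →+* Kbar) w ∈ W)
    (hdim : ∃ (r : ℕ) (b : Fin r → Ocal A),
      Submodule.span Kbar (Set.range fun i => (b i : Om)) = W ∧
        LinearIndependent (kk A) (fun i => red A (b i)))
    (hunr : ∀ w ∈ W, w ≠ 0 → Fixed A w → QScale A q w) :
    ∃ (r : ℕ) (c : Fin r → Ocal A), (∀ i, Fixed A (c i : Om)) ∧
      Submodule.span Kbar (Set.range fun i => (c i : Om)) = W ∧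
        LinearIndependent (kk A) (fun i => red A (c i)) := by
  obtain ⟨r, b, hspan, hb⟩ := hdim
  obtain ⟨c, hcW, hcfix, hcli⟩ := exists_fixed_family hq hAq W hW b hspan hb hunr r le_rfl
  refine ⟨r, c, hcfix, ?_, hcli⟩
  have hbli := linearIndependent_coe_of_red_indep hq hAq b hb
  have hcli' := linearIndependent_coe_of_red_indep hq hAq c hcli
  have : Module.Finite Kbar W := by
    rw [← hspan]; exact FiniteDimensional.span_of_finite Kbar (Set.finite_range _)
  refine Submodule.eq_of_le_of_finrank_eq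
    (Submodule.span_le.2 (by rintro _ ⟨i, rfl⟩; exact hcW i)) ?_
  rw [finrank_span_eq_card hcli']
  conv_rhs => rw [← hspan]
  rw [finrank_span_eq_card hbli]

/-- **(B) [K0-RED]**, lifting form: every reduction of `W ∩ Ocal` is the reduction of an
inertia-fixed element of `W ∩ Ocal`. -/
theorem exists_fixed_red_eq {q : ℕ} (hq : q.Prime) (hAq : A.LiesOverPrime q)
    (W : Submodule Kbar Om)
    (hW : ∀ τ ∈ A.inertiaSubgroupIn ℚ, ∀ w ∈ W, coeffMap (τ : Kbar →+* Kbar) w ∈ W)
    (hdim : ∃ (r : ℕ) (b : Fin r → Ocal A),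
      Submodule.span Kbar (Set.range fun i => (b i : Om)) = W ∧
        LinearIndependent (kk A) (fun i => red A (b i)))
    (hunr : ∀ w ∈ W, w ≠ 0 → Fixed A w → QScale A q w)
    (y : Ocal A) (hy : (y : Om) ∈ W) :
    ∃ y₀ : Ocal A, (y₀ : Om) ∈ W ∧ Fixed A (y₀ : Om) ∧ red A y₀ = red A y := by
  obtain ⟨r, c, hcfix, hcspan, hcli⟩ := exists_fixed_basis_red_indep hq hAq W hW hdim hunr
  have hy' := hy
  rw [← hcspan] at hy'
  obtain ⟨ξ, hξ⟩ := (Submodule.mem_span_range_iff_exists_fun Kbar).mp hy'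
  have hsum : ∑ i, HahnSeries.C (ξ i) * (c i : Om) = (y : Om) := by
    rw [← hξ]; exact Finset.sum_congr rfl fun i _ => HahnSeries.C_mul_eq_smul
  have hξA : ∀ j, ξ j ∈ A := coeff_mem_of_red_indep c hcli ξ (by rw [hsum]; exact y.2)
  choose a hafix hares using fun i =>
    exists_fixed_lift hq hAq (IsLocalRing.residue A ⟨ξ i, hξA i⟩)
  have hyeq : y = lin c (fun i => ⟨ξ i, hξA i⟩) := Subtype.ext (by rw [coe_lin, hsum])
  refine ⟨lin c a, ?_, ?_, ?_⟩
  · rw [coe_lin, ← hcspan]
    exact Submodule.sum_mem _ fun i _ => by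
      rw [HahnSeries.C_mul_eq_smul]
      exact Submodule.smul_mem _ _ (Submodule.subset_span ⟨i, rfl⟩)
  · rw [coe_lin]
    exact Fixed.sum _ fun i _ => (fixed_C (hafix i)).mul (hcfix i)
  · rw [hyeq, red_lin, red_lin]
    exact Finset.sum_congr rfl fun i _ => by rw [hares i]

end Ortho

/-! ## (C) the modular case -/

variable {A q} in
/-- **(C)** `K₀`-rational lifts of reductions at every level: for an inertia-stable subspace
`W` of `F_N · Q̄` with `(Dim)`, every reduction of `W ∩ Ocal` is the reduction of an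
inertia-fixed element of `W ∩ Ocal`. -/
theorem exists_fixed_red_eq_modular (hq : q.Prime) (hAq : A.LiesOverPrime q) (N : ℕ) [NeZero N]
    (W : Submodule Kbar Om) (hWF : ∀ w ∈ W, w ∈ modularFunctionFieldBar N)
    (hW : ∀ τ ∈ A.inertiaSubgroupIn ℚ, ∀ w ∈ W, coeffMap (τ : Kbar →+* Kbar) w ∈ W)
    (hdim : ∃ (r : ℕ) (b : Fin r → Ocal A),
      Submodule.span Kbar (Set.range fun i => (b i : Om)) = W ∧
        LinearIndependent (kk A) (fun i => red A (b i)))
    (y : Ocal A) (hy : (y : Om) ∈ W) :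
    ∃ y₀ : Ocal A, (y₀ : Om) ∈ W ∧ Fixed A (y₀ : Om) ∧ red A y₀ = red A y :=
  exists_fixed_red_eq hq hAq W hW hdim
    (fun w hw hw0 hfix => qScale_of_fixed hq hAq N w (hWF w hw) hw0 hfix) y hy

variable {A q} in
/-- **(C)**, basis form. -/
theorem exists_fixed_basis_red_indep_modular (hq : q.Prime) (hAq : A.LiesOverPrime q) (N : ℕ)
    [NeZero N] (W : Submodule Kbar Om) (hWF : ∀ w ∈ W, w ∈ modularFunctionFieldBar N)
    (hW : ∀ τ ∈ A.inertiaSubgroupIn ℚ, ∀ w ∈ W, coeffMap (τ : Kbar →+* Kbar) w ∈ W)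
    (hdim : ∃ (r : ℕ) (b : Fin r → Ocal A),
      Submodule.span Kbar (Set.range fun i => (b i : Om)) = W ∧
        LinearIndependent (kk A) (fun i => red A (b i))) :
    ∃ (r : ℕ) (c : Fin r → Ocal A), (∀ i, Fixed A (c i : Om)) ∧
      Submodule.span Kbar (Set.range fun i => (c i : Om)) = W ∧
        LinearIndependent (kk A) (fun i => red A (c i)) :=
  exists_fixed_basis_red_indep hq hAq W hW hdim
    (fun w hw hw0 hfix => qScale_of_fixed hq hAq N w (hWF w hw) hw0 hfix)

variable {A q} in
/-- **(C)** with `S18.Plan.RedStmt` as the source of `(Dim)`. -/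
theorem exists_fixed_red_eq_of_redStmt (hq : q.Prime) (hAq : A.LiesOverPrime q) (N : ℕ)
    [NeZero N] (hred : RedStmt A N)
    (W : Submodule Kbar Om) [Module.Finite Kbar W]
    (hWF : ∀ w ∈ W, w ∈ modularFunctionFieldBar N)
    (hW : ∀ τ ∈ A.inertiaSubgroupIn ℚ, ∀ w ∈ W, coeffMap (τ : Kbar →+* Kbar) w ∈ W)
    (y : Ocal A) (hy : (y : Om) ∈ W) :
    ∃ y₀ : Ocal A, (y₀ : Om) ∈ W ∧ Fixed A (y₀ : Om) ∧ red A y₀ = red A y :=
  exists_fixed_red_eq_modular hq hAq N W hWF hW (hred.2.2.2.1 W hWF inferInstance) y hy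

end Fermat.Agent.S36.K0Red

end
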