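/-
P8 / S36 frame (helper58): **the middle-cusp embeddings of `F_{M q²}`** (`q` prime, `q ∤ M`).

For every primitive `q`-th root of unity `ξ ∈ ℚ̄` there is a `ℚ̄`-algebra embedding
`r : F_{M q²} → ℚ̄((T))` with

* `r (α x) = x` for `x ∈ F_{Mq}` (`α` the inclusion): `j ↦ j(T)`, `j_q ↦ j(T^q)`;
* `r (β (β x)) = x(ξ T)` for `x ∈ F_M` (`β : T ↦ T^q`): `f(T^{q²}) ↦ f(ξ T)`.

Construction: expansion at `i∞` of `f ∘ γ`, `γ = [[1, 0], [a q M, 1]]`, where
`a u M + v q = 1` and `ι ξ = exp(2πi u / q)`: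
`d·γτ = γ'(dτ)`, `dq·γτ = γ''(dqτ)` and `dq²·γτ = g·(d(τ + u/q))` for `d ∣ M`.
-/
import Mathlib
import Fermat.Agent.S37.Kron.AtkinLehner
import Fermat.Agent.S28.Subst
import Fermat.Agent.S24.ModRing
import Fermat.Agent.S34.Sigma

set_option autoImplicit false

noncomputable section

namespace Fermat.Agent.S36.MidEmb

open UpperHalfPlane ModularCurve CongruenceSubgroup
open Fermat.Agent.Lib Fermat.Agent.Lib.JStab Fermat.Agent.Lib.CuspLaurent
open Fermat.Agent.Lib.DeltaSlash (coe_sl_smul sl_denom_ne_zero)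
open Fermat.Agent.Lib.DeltaLevelN (mem_Gamma0_iff_dvd)
open Fermat.Agent.S24 Fermat.Agent.S24.ModRing
open Fermat.Agent.S37.Kron.AtkinLehner
open scoped MatrixGroups Real

/-! ### The substitution -/

/-- The matrix `[[1, 0], [c, 1]]`. -/
def low (c : ℤ) : SL(2, ℤ) := ⟨!![1, 0; c, 1], by rw [Matrix.det_fin_two_of]; ring⟩

/-- The substitution `τ ↦ γ τ`, `γ = [[1, 0], [c, 1]]`. -/
def wMid (c : ℤ) (τ : ℍ) : ℍ := low c • τ

theorem wMid_surjective (c : ℤ) : Function.Surjective (wMid c) := MulAction.surjective (low c)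

theorem low_mem_Gamma0 {N : ℕ} {c : ℤ} (h : (N : ℤ) ∣ c) : low c ∈ Gamma0 N :=
  (mem_Gamma0_iff_dvd N (low c)).mpr h

/-- `j(e ·)` is invariant under `γ` when `e ∣ N ∣ c`. -/
theorem jN_wMid_of_dvd {N e : ℕ} [NeZero N] (he : e ∣ N) {c : ℤ} (hc : (N : ℤ) ∣ c) (τ : ℍ) :
    jN e (wMid c τ) = jN e τ :=
  jN_smul_of_mem he (low_mem_Gamma0 hc) τ

/-- **Key identity.** `j(d q² · γτ) = j(d (τ + u/q))` for `d d' = M`, `a u M + v q = 1`,
`γ = [[1, 0], [a q M, 1]]`. -/
theorem jN_wMid_top {q d d' u : ℕ} {a v : ℤ} (hq : q ≠ 0) (hd : d ≠ 0)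
    (huv : a * u * (d * d') + v * q = 1) (τ : ℍ) :
    jN (d * q * q) (wMid (a * q * (d * d')) τ) = jN d (aff q u q τ) := by
  have hdet : (q : ℤ) * v - (-((u : ℤ) * d)) * (a * d') = 1 := by linear_combination huv
  let g : SL(2, ℤ) := ⟨!![(q : ℤ), -((u : ℤ) * d); a * d', v], by
    rw [Matrix.det_fin_two_of]; exact hdet⟩
  set γ := low (a * q * (d * d')) with hγ
  set w : ℍ := dil d (aff q u q τ) with hw
  have hqC : (q : ℂ) ≠ 0 := by exact_mod_cast hq
  have hwc : (w : ℂ) = (d : ℂ) * (((q : ℂ) * (τ : ℂ) + (u : ℂ)) / (q : ℂ)) := by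
    rw [hw, coe_dil hd, coe_aff hq hq]
  have hne : d * q * q ≠ 0 := Nat.mul_ne_zero (Nat.mul_ne_zero hd hq) hq
  have key : dil (d * q * q) (γ • τ) = g • w := by
    apply UpperHalfPlane.ext
    rw [coe_dil hne, coe_sl_smul, coe_sl_smul]
    have hden1 := sl_denom_ne_zero γ τ
    have hden2 := sl_denom_ne_zero g w
    have e00 : (γ 0 0 : ℂ) = 1 := by
      show (((1 : ℤ) : ℤ) : ℂ) = 1
      simp
    have e01 : (γ 0 1 : ℂ) = 0 := by
      show (((0 : ℤ) : ℤ) : ℂ) = 0
      simp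
    have e10 : (γ 1 0 : ℂ) = (a : ℂ) * (q : ℂ) * ((d : ℂ) * (d' : ℂ)) := by
      show (((a * q * (d * d') : ℤ) : ℤ) : ℂ) = _
      push_cast; ring
    have e11 : (γ 1 1 : ℂ) = 1 := by
      show (((1 : ℤ) : ℤ) : ℂ) = 1
      simp
    have f00 : (g 0 0 : ℂ) = (q : ℂ) := by
      show ((((q : ℤ)) : ℤ) : ℂ) = _
      simp
    have f01 : (g 0 1 : ℂ) = -((u : ℂ) * (d : ℂ)) := by
      show (((-((u : ℤ) * d) : ℤ)) : ℂ) = _
      push_cast; ring
    have f10 : (g 1 0 : ℂ) = (a : ℂ) * (d' : ℂ) := by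
      show (((a * d' : ℤ)) : ℂ) = _
      push_cast; ring
    have f11 : (g 1 1 : ℂ) = (v : ℂ) := rfl
    have huvC : (a : ℂ) * (u : ℂ) * ((d : ℂ) * (d' : ℂ)) + (v : ℂ) * (q : ℂ) = 1 := by
      exact_mod_cast huv
    rw [e10, e11] at hden1
    rw [f10, f11, hwc] at hden2
    rw [e00, e01, e10, e11, f00, f01, f10, f11, hwc]
    have hnum : (q : ℂ) * ((d : ℂ) * (((q : ℂ) * (τ : ℂ) + (u : ℂ)) / (q : ℂ))) +
        -((u : ℂ) * (d : ℂ)) = (d : ℂ) * (q : ℂ) * (τ : ℂ) := by
      field_simp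
      ring
    have hden : (a : ℂ) * (d' : ℂ) * ((d : ℂ) * (((q : ℂ) * (τ : ℂ) + (u : ℂ)) / (q : ℂ))) +
        (v : ℂ) = ((a : ℂ) * (q : ℂ) * ((d : ℂ) * (d' : ℂ)) * (τ : ℂ) + 1) / (q : ℂ) := by
      field_simp
      linear_combination huvC
    rw [hnum, hden, one_mul, add_zero]
    push_cast
    field_simp
  rw [jN_eq_jInv_dil, wMid, ← hγ, key, jInv_smul, jN_eq_jInv_dil]

/-! ### The translate `τ ↦ j(d (τ + u/q))` at the cusp -/

theorem jN_comp_aff_mem (d q u : ℕ) [NeZero d] (hq : q ≠ 0) : jN d ∘ aff q u q ∈ merCusp 1 :=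
  comp_affine_mem_merCusp (h₁ := 1) (h₂ := 1) (bridge_jN_mem_merCusp d) (m := aff q u q)
    (a := q) (d := q) (e := 1) (b := (u : ℤ)) (Nat.pos_of_ne_zero hq) (Nat.pos_of_ne_zero hq)
    (coe_aff' hq hq u) (by ring)

theorem laurent_jN_comp_aff_coeff (d q u : ℕ) [NeZero d] (hq : q ≠ 0) (n : ℤ) :
    (laurent 1 ⟨jN d ∘ aff q u q, jN_comp_aff_mem d q u hq⟩).coeff n =
      Complex.exp (2 * π * Complex.I * ((u : ℂ) / (q : ℂ))) ^ n * (jqNModC ℂ d).coeff n := by
  have h := laurent_comp_affine (h₁ := 1) (h₂ := 1) (bridge_jN_mem_merCusp d) (m := aff q u q)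
    (a := q) (d := q) (e := 1) (b := (u : ℤ)) (Nat.pos_of_ne_zero hq) (Nat.pos_of_ne_zero hq)
    (coe_aff' hq hq u) (by ring) n
  have h1 : (((1 : ℕ) : ℤ)) = 1 := Nat.cast_one
  rw [bridge_laurent_jN, h1, if_pos (one_dvd n), Int.ediv_one] at h
  have e1 : (2 * (π : ℂ) * Complex.I * (((u : ℕ) : ℤ) : ℂ) / ((q : ℂ) * (((1 : ℕ) : ℝ) : ℂ))) =
      2 * π * Complex.I * ((u : ℂ) / (q : ℂ)) := by
    push_cast
    ring
  rw [h, e1]

/-! ### Divisors of `M q²` -/

theorem dvd_cases {M q : ℕ} (hq : q.Prime) {e : ℕ} (he : e ∣ M * q * q) :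
    e ∣ M * q ∨ ∃ d : ℕ, d ∣ M ∧ e = d * q * q := by
  obtain ⟨e₁, m, he₁, hm, rfl⟩ := Nat.dvd_mul.mp he
  rcases (Nat.dvd_prime hq).mp hm with rfl | rfl
  · left
    rwa [mul_one]
  · obtain ⟨d, m', hd, hm', rfl⟩ := Nat.dvd_mul.mp he₁
    rcases (Nat.dvd_prime hq).mp hm' with rfl | rfl
    · left
      rw [mul_one]
      exact Nat.mul_dvd_mul hd dvd_rfl
    · right
      exact ⟨d, hd, rfl⟩

/-! ### The bridge to the Prelude function field -/

section Bridge

variable {M q : ℕ} [NeZero M] [NeZero q]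

theorem jN_mem_subRing_of_dvd {e : ℕ} [NeZero e] (he : e ∣ M * q) {c : ℤ}
    (hc : ((M * q : ℕ) : ℤ) ∣ c) : jN e ∈ subRing (wMid c) := by
  refine ⟨bridge_jN_mem_merCusp e, ?_⟩
  have h : jN e ∘ wMid c = jN e := funext fun τ => jN_wMid_of_dvd he hc τ
  rw [h]
  exact bridge_jN_mem_merCusp e

theorem jN_comp_wMid_top {d d' u : ℕ} {a v : ℤ} (hd : d * d' = M)
    (huv : a * u * M + v * q = 1) :
    jN (d * q * q) ∘ wMid (a * q * M) = jN d ∘ aff q u q := by
  have hd0 : d ≠ 0 := by rintro rfl; exact NeZero.ne M (by simpa using hd.symm)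
  have hM : (M : ℤ) = (d : ℤ) * (d' : ℤ) := by rw [← hd]; push_cast; ring
  funext τ
  have huv' : a * u * ((d : ℤ) * (d' : ℤ)) + v * q = 1 := by rw [← hM]; exact huv
  have h := jN_wMid_top (NeZero.ne q) hd0 huv' τ
  rw [← hM] at h
  exact h

theorem jN_mem_subRing_top {d d' u : ℕ} {a v : ℤ} [NeZero d] [NeZero (d * q * q)]
    (hd : d * d' = M) (huv : a * u * M + v * q = 1) :
    jN (d * q * q) ∈ subRing (wMid (a * q * M)) := by
  refine ⟨bridge_jN_mem_merCusp (d * q * q), ?_⟩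
  rw [jN_comp_wMid_top hd huv]
  exact jN_comp_aff_mem d q u (NeZero.ne q)

omit [NeZero M] [NeZero q] in
theorem dvd_top (a : ℤ) : ((M * q : ℕ) : ℤ) ∣ a * q * M := by
  refine ⟨a, ?_⟩
  push_cast
  ring

/-- The ring hom `F_{M q²} → ℂ((T))`, "expansion of `f ∘ γ`". -/
theorem exists_theta (hq : q.Prime) (u : ℕ) (a v : ℤ) (huv : a * u * M + v * q = 1) :
    ∃ Θ : ↥(modularFunctionFieldBar (M * q * q)) →+* LaurentSeries ℂ,
      (∀ c : AlgebraicClosure ℚ,
        Θ (algebraMap (AlgebraicClosure ℚ) ↥(modularFunctionFieldBar (M * q * q)) c) =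
          HahnSeries.C (Basic.iota c)) ∧
      (∀ (e : ℕ) [NeZero e] (_ : e ∣ M * q) (he' : e ∣ M * q * q),
        Θ ⟨FFBridge.gen e, FFBridge.gen_mem he'⟩ = jqNModC ℂ e) ∧
      (∀ (d : ℕ) [NeZero d] [NeZero (d * q * q)] (_ : d ∣ M) (he' : d * q * q ∣ M * q * q),
        Θ ⟨FFBridge.gen (d * q * q), FFBridge.gen_mem he'⟩ =
          laurent 1 ⟨jN d ∘ aff q u q, jN_comp_aff_mem d q u (NeZero.ne q)⟩) := by
  set W := wMid (a * q * M) with hW
  have hdd : ∀ {d : ℕ}, d ∣ M → d * (M / d) = M := fun hd => Nat.mul_div_cancel' hd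
  obtain ⟨Θ, -, hc, hg⟩ := FFBridge.exists_ringHom_coeffMap (M * q * q) Basic.iota
    (expE W) (expE_injective W) (expT W) (expT_injective (wMid_surjective _))
    (fun c => ⟨⟨_, const_mem_subRing W (Basic.iota c)⟩, by
      rw [expE_mk]; exact laurent_const 1 _⟩)
    (fun e _ he => by
      rcases dvd_cases hq he with h1 | ⟨d, hd, rfl⟩
      · exact ⟨⟨_, jN_mem_subRing_of_dvd h1 (dvd_top a)⟩, by
          rw [expE_mk]; exact bridge_laurent_jN e⟩
      · have : NeZero d := ⟨fun h0 => NeZero.ne M (Nat.eq_zero_of_zero_dvd (h0 ▸ hd))⟩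
        exact ⟨⟨_, jN_mem_subRing_top (hdd hd) huv⟩, by
          rw [expE_mk]; exact bridge_laurent_jN (d * q * q)⟩)
  refine ⟨Θ, fun c => ?_, fun e _ he he' => ?_, fun d _ _ hd he' => ?_⟩
  · rw [hc c ⟨_, const_mem_subRing W (Basic.iota c)⟩
      (by rw [expE_mk]; exact laurent_const 1 _), expT_mk]
    exact laurent_const 1 _
  · rw [hg e he' ⟨_, jN_mem_subRing_of_dvd he (dvd_top a)⟩
      (by rw [expE_mk]; exact bridge_laurent_jN e), expT_mk]
    have h1 : (⟨jN e ∘ W, (jN_mem_subRing_of_dvd he (dvd_top a)).2⟩ : merCusp 1) =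
        ⟨jN e, bridge_jN_mem_merCusp e⟩ :=
      Subtype.ext (funext fun τ => jN_wMid_of_dvd he (dvd_top a) τ)
    rw [h1]
    exact bridge_laurent_jN e
  · rw [hg (d * q * q) he' ⟨_, jN_mem_subRing_top (hdd hd) huv⟩
      (by rw [expE_mk]; exact bridge_laurent_jN (d * q * q)), expT_mk]
    have h1 : (⟨jN (d * q * q) ∘ W, (jN_mem_subRing_top (hdd hd) huv).2⟩ : merCusp 1) =
        ⟨jN d ∘ aff q u q, jN_comp_aff_mem d q u (NeZero.ne q)⟩ :=
      Subtype.ext (jN_comp_wMid_top (hdd hd) huv)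
    rw [h1]

end Bridge

/-! ### Descent of the values to `ℚ̄((T))` -/

section Descent

theorem cinj : Function.Injective (coeffMap Basic.iota) :=
  FFBridge.coeffMap_injective Basic.iota Basic.iota_injective

variable (N : ℕ)

/-- A ring hom `Θ : F_N → ℂ((T))` whose values on constants and generators have algebraic
coefficients takes all its values in `ι (ℚ̄((T)))`. -/
theorem exists_preimageOm (Θ : ↥(modularFunctionFieldBar N) →+* LaurentSeries ℂ)
    (hc : ∀ c : AlgebraicClosure ℚ, ∃ y : LaurentSeries (AlgebraicClosure ℚ),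
      coeffMap Basic.iota y =
        Θ (algebraMap (AlgebraicClosure ℚ) ↥(modularFunctionFieldBar N) c))
    (hg : ∀ (e : ℕ) [NeZero e] (he : e ∣ N), ∃ y : LaurentSeries (AlgebraicClosure ℚ),
      coeffMap Basic.iota y = Θ ⟨FFBridge.gen e, FFBridge.gen_mem he⟩)
    (x : ↥(modularFunctionFieldBar N)) :
    ∃ y : LaurentSeries (AlgebraicClosure ℚ), coeffMap Basic.iota y = Θ x := by
  have hF := FFBridge.modularFunctionFieldBar_eq_adjoin N
  have key : ∀ (z : LaurentSeries (AlgebraicClosure ℚ)) (hz : z ∈ modularFunctionFieldBar N),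
      ∃ y : LaurentSeries (AlgebraicClosure ℚ), coeffMap Basic.iota y = Θ ⟨z, hz⟩ := by
    intro z hz
    have hz' : z ∈ IntermediateField.adjoin (AlgebraicClosure ℚ) (FFBridge.genSet N) := hF ▸ hz
    induction hz' using IntermediateField.adjoin_induction with
    | mem u hu =>
        obtain ⟨e, hne, he, rfl⟩ := hu
        exact hg e he
    | algebraMap c => exact hc c
    | add u v hu hv hu' hv' =>
        have hu0 : u ∈ modularFunctionFieldBar N := hF ▸ hu
        have hv0 : v ∈ modularFunctionFieldBar N := hF ▸ hv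
        obtain ⟨y₁, h₁⟩ := hu' hu0
        obtain ⟨y₂, h₂⟩ := hv' hv0
        have e1 : (⟨u + v, hz⟩ : ↥(modularFunctionFieldBar N)) = ⟨u, hu0⟩ + ⟨v, hv0⟩ := rfl
        exact ⟨y₁ + y₂, by rw [map_add, h₁, h₂, e1, map_add]⟩
    | inv u hu hu' =>
        have hu0 : u ∈ modularFunctionFieldBar N := hF ▸ hu
        obtain ⟨y₁, h₁⟩ := hu' hu0
        have e1 : (⟨u⁻¹, hz⟩ : ↥(modularFunctionFieldBar N)) = (⟨u, hu0⟩)⁻¹ := rfl
        exact ⟨y₁⁻¹, by rw [map_inv₀, h₁, e1, map_inv₀]⟩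
    | mul u v hu hv hu' hv' =>
        have hu0 : u ∈ modularFunctionFieldBar N := hF ▸ hu
        have hv0 : v ∈ modularFunctionFieldBar N := hF ▸ hv
        obtain ⟨y₁, h₁⟩ := hu' hu0
        obtain ⟨y₂, h₂⟩ := hv' hv0
        have e1 : (⟨u * v, hz⟩ : ↥(modularFunctionFieldBar N)) = ⟨u, hu0⟩ * ⟨v, hv0⟩ := rfl
        exact ⟨y₁ * y₂, by rw [map_mul, h₁, h₂, e1, map_mul]⟩
  exact key x.1 x.2

/-- The descended ring hom. -/
def descendOm (Θ : ↥(modularFunctionFieldBar N) →+* LaurentSeries ℂ)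
    (h : ∀ x, ∃ y : LaurentSeries (AlgebraicClosure ℚ), coeffMap Basic.iota y = Θ x) :
    ↥(modularFunctionFieldBar N) →+* LaurentSeries (AlgebraicClosure ℚ) where
  toFun x := (h x).choose
  map_one' := cinj (by rw [(h 1).choose_spec, map_one, map_one])
  map_mul' x y := cinj (by
    rw [(h (x * y)).choose_spec, map_mul, map_mul, (h x).choose_spec, (h y).choose_spec])
  map_zero' := cinj (by rw [(h 0).choose_spec, map_zero, map_zero])
  map_add' x y := cinj (by
    rw [(h (x + y)).choose_spec, map_add, map_add, (h x).choose_spec, (h y).choose_spec])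

theorem coeffMap_descendOm (Θ : ↥(modularFunctionFieldBar N) →+* LaurentSeries ℂ)
    (h : ∀ x, ∃ y : LaurentSeries (AlgebraicClosure ℚ), coeffMap Basic.iota y = Θ x)
    (x : ↥(modularFunctionFieldBar N)) : coeffMap Basic.iota (descendOm N Θ h x) = Θ x :=
  (h x).choose_spec

end Descent

/-- The expansion of `τ ↦ j(d (τ + u/q))` is `ι` of `j(ξ^d T^d)`, `ι ξ = exp(2πi u/q)`. -/
theorem coeffMap_scale_gen (d q u : ℕ) [NeZero d] (hq : q ≠ 0) (ξ : (AlgebraicClosure ℚ)ˣ)
    (hξ : Complex.exp (2 * π * Complex.I * ((u : ℂ) / (q : ℂ))) =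
      Basic.iota (ξ : AlgebraicClosure ℚ)) :
    coeffMap Basic.iota (Fermat.Agent.S28.scale ξ (FFBridge.gen d)) =
      laurent 1 ⟨jN d ∘ aff q u q, jN_comp_aff_mem d q u hq⟩ := by
  ext n
  rw [coeffMap_coeff, Fermat.Agent.S28.scale_coeff, map_mul, laurent_jN_comp_aff_coeff d q u hq n, hξ,
    Units.val_zpow_eq_zpow_val, map_zpow₀, ← FFBridge.coeffMap_gen Basic.iota d, coeffMap_coeff]

/-! ### The middle embedding -/

section Main

variable (M q : ℕ) [NeZero M] [NeZero q]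

/-- **The middle-cusp embedding.** For `q` prime, `q ∤ M` and `ξ` a primitive `q`-th root of
unity there is a `ℚ̄`-algebra hom `r : F_{M q²} → ℚ̄((T))` which is the `q`-expansion on
`α F_{Mq}` and sends `f(T^{q²})` to `f(ξ T)` for `f ∈ F_M`. -/
theorem exists_midEmb (hq : q.Prime) (hqM : ¬ q ∣ M) (ξ : (AlgebraicClosure ℚ)ˣ)
    (hξ : IsPrimitiveRoot ξ q) :
    ∃ r : ↥(modularFunctionFieldBar (M * q * q)) →ₐ[AlgebraicClosure ℚ]
        LaurentSeries (AlgebraicClosure ℚ),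
      (∀ x : ↥(modularFunctionFieldBar (M * q)),
        r (heckeAlphaBar (AlgebraicClosure ℚ) (M * q) q x) =
          (x : LaurentSeries (AlgebraicClosure ℚ))) ∧
      (∀ x : ↥(modularFunctionFieldBar M),
        r (heckeBetaBar (AlgebraicClosure ℚ) (M * q) q
            (heckeBetaBar (AlgebraicClosure ℚ) M q x)) =
          Fermat.Agent.S28.scale ξ (x : LaurentSeries (AlgebraicClosure ℚ))) := by
  have hq0 : q ≠ 0 := hq.ne_zero
  -- the complex root of unity
  have hξ' : IsPrimitiveRoot (ξ : AlgebraicClosure ℚ) q := IsPrimitiveRoot.coe_units_iff.mpr hξ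
  have hξC : IsPrimitiveRoot (Basic.iota (ξ : AlgebraicClosure ℚ)) q :=
    hξ'.map_of_injective Basic.iota_injective
  obtain ⟨u, -, hcop, hexp⟩ := (Complex.isPrimitiveRoot_iff _ q hq0).mp hξC
  -- Bezout
  have hMq : Nat.Coprime M q := ((Nat.Prime.coprime_iff_not_dvd hq).mpr hqM).symm
  have hcop' : Nat.Coprime (u * M) q := Nat.Coprime.mul_left hcop hMq
  obtain ⟨a, v, hav⟩ := Nat.isCoprime_iff_coprime.mpr hcop'
  have huv : a * u * M + v * q = 1 := by
    push_cast at hav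
    linear_combination hav
  obtain ⟨Θ, hΘc, hΘlow, hΘtop⟩ := exists_theta hq u a v huv
  have hne : ∀ {d : ℕ}, d ∣ M → NeZero d := fun {d} hd =>
    ⟨fun h0 => NeZero.ne M (Nat.eq_zero_of_zero_dvd (h0 ▸ hd))⟩
  have hpre : ∀ x, ∃ y : LaurentSeries (AlgebraicClosure ℚ), coeffMap Basic.iota y = Θ x := by
    apply exists_preimageOm (M * q * q) Θ
    · intro c
      exact ⟨algebraMap _ _ c, by rw [FFBridge.coeffMap_algebraMap', hΘc]⟩
    · intro e _ he
      rcases dvd_cases hq he with h1 | ⟨d, hd, rfl⟩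
      · exact ⟨FFBridge.gen e, by rw [FFBridge.coeffMap_gen, hΘlow e h1 he]⟩
      · have := hne hd
        exact ⟨Fermat.Agent.S28.scale ξ (FFBridge.gen d), by
          rw [hΘtop d hd he]; exact coeffMap_scale_gen d q u hq0 ξ hexp⟩
  set r₀ := descendOm (M * q * q) Θ hpre with hr₀
  have hr_c : ∀ c : AlgebraicClosure ℚ,
      r₀ (algebraMap (AlgebraicClosure ℚ) ↥(modularFunctionFieldBar (M * q * q)) c) =
        algebraMap (AlgebraicClosure ℚ) (LaurentSeries (AlgebraicClosure ℚ)) c := by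
    intro c
    apply cinj
    rw [hr₀, coeffMap_descendOm, hΘc, FFBridge.coeffMap_algebraMap']
  have hr_low : ∀ (e : ℕ) [NeZero e] (_ : e ∣ M * q) (he' : e ∣ M * q * q),
      r₀ ⟨FFBridge.gen e, FFBridge.gen_mem he'⟩ = FFBridge.gen e := by
    intro e _ he he'
    apply cinj
    rw [hr₀, coeffMap_descendOm, hΘlow e he he', FFBridge.coeffMap_gen]
  have hr_top : ∀ (d e : ℕ) [NeZero d] [NeZero e] (_ : d ∣ M) (he' : e ∣ M * q * q),
      e = d * q * q →
      r₀ ⟨FFBridge.gen e, FFBridge.gen_mem he'⟩ =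
        Fermat.Agent.S28.scale ξ (FFBridge.gen d) := by
    intro d e _ _ hd he' hed
    subst hed
    apply cinj
    rw [hr₀, coeffMap_descendOm, hΘtop d hd he']
    exact (coeffMap_scale_gen d q u hq0 ξ hexp).symm
  refine ⟨{ r₀ with commutes' := hr_c }, fun x => ?_, fun x => ?_⟩
  · have h1 : r₀.comp (heckeAlphaBar (AlgebraicClosure ℚ) (M * q) q).toRingHom =
        (modularFunctionFieldBar (M * q)).val.toRingHom := by
      refine FFBridge.ringHom_ext (M * q) _ _ (fun c => ?_) (fun d _ hd => ?_)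
      · show r₀ (heckeAlphaBar (AlgebraicClosure ℚ) (M * q) q (algebraMap _ _ c)) =
          ((algebraMap (AlgebraicClosure ℚ) ↥(modularFunctionFieldBar (M * q)) c :
            ↥(modularFunctionFieldBar (M * q))) : LaurentSeries (AlgebraicClosure ℚ))
        rw [AlgHom.commutes, hr_c]
        rfl
      · show r₀ (heckeAlphaBar (AlgebraicClosure ℚ) (M * q) q
            ⟨FFBridge.gen d, FFBridge.gen_mem hd⟩) = FFBridge.gen d
        rw [alpha_gen (M * q) q hd]
        exact hr_low d hd (Dvd.dvd.mul_right hd q)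
    exact congrArg (fun φ : _ →+* _ => φ x) h1
  · have h2 : r₀.comp ((heckeBetaBar (AlgebraicClosure ℚ) (M * q) q).toRingHom.comp
          (heckeBetaBar (AlgebraicClosure ℚ) M q).toRingHom) =
        (Fermat.Agent.S28.scale ξ).comp (modularFunctionFieldBar M).val.toRingHom := by
      refine FFBridge.ringHom_ext M _ _ (fun c => ?_) (fun d _ hd => ?_)
      · show r₀ (heckeBetaBar (AlgebraicClosure ℚ) (M * q) q
            (heckeBetaBar (AlgebraicClosure ℚ) M q (algebraMap _ _ c))) =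
          Fermat.Agent.S28.scale ξ
            ((algebraMap (AlgebraicClosure ℚ) ↥(modularFunctionFieldBar M) c :
              ↥(modularFunctionFieldBar M)) : LaurentSeries (AlgebraicClosure ℚ))
        rw [AlgHom.commutes, AlgHom.commutes, hr_c]
        have e1 : ((algebraMap (AlgebraicClosure ℚ) ↥(modularFunctionFieldBar M) c :
            ↥(modularFunctionFieldBar M)) : LaurentSeries (AlgebraicClosure ℚ)) =
            algebraMap (AlgebraicClosure ℚ) (LaurentSeries (AlgebraicClosure ℚ)) c := rfl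
        rw [e1]
        ext n
        rw [Fermat.Agent.S28.scale_coeff, algebraMap_laurentSeries_eq_single]
        by_cases hn : n = 0
        · subst hn
          simp
        · simp [HahnSeries.coeff_single_of_ne hn]
      · show r₀ (heckeBetaBar (AlgebraicClosure ℚ) (M * q) q
            (heckeBetaBar (AlgebraicClosure ℚ) M q ⟨FFBridge.gen d, FFBridge.gen_mem hd⟩)) =
          Fermat.Agent.S28.scale ξ (FFBridge.gen d)
        have hd' : q * d ∣ M * q := by rw [mul_comm M q]; exact Nat.mul_dvd_mul_left q hd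
        have : NeZero (q * d) := ⟨Nat.mul_ne_zero hq0 (NeZero.ne d)⟩
        have : NeZero (q * (q * d)) := ⟨Nat.mul_ne_zero hq0 (Nat.mul_ne_zero hq0 (NeZero.ne d))⟩
        rw [beta_gen M q hd, beta_gen (M * q) q hd']
        have hd'' : q * (q * d) ∣ M * q * q := by
          rw [mul_comm (M * q) q]; exact Nat.mul_dvd_mul_left q hd'
        exact hr_top d (q * (q * d)) hd hd'' (by ring)
    exact congrArg (fun φ : _ →+* _ => φ x) h2

end Main

/-! ### Characterisation, uniqueness, Galois equivariance -/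

section Unique

variable (M q : ℕ) [NeZero M] [NeZero q]

/-- `r` is a middle embedding of `F_{M q²}` for the root of unity `ξ`. -/
def IsMid (ξ : (AlgebraicClosure ℚ)ˣ)
    (r : ↥(modularFunctionFieldBar (M * q * q)) →+* LaurentSeries (AlgebraicClosure ℚ)) : Prop :=
  (∀ c : AlgebraicClosure ℚ,
    r (algebraMap (AlgebraicClosure ℚ) ↥(modularFunctionFieldBar (M * q * q)) c) =
      algebraMap (AlgebraicClosure ℚ) (LaurentSeries (AlgebraicClosure ℚ)) c) ∧
  (∀ x : ↥(modularFunctionFieldBar (M * q)),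
    r (heckeAlphaBar (AlgebraicClosure ℚ) (M * q) q x) =
      (x : LaurentSeries (AlgebraicClosure ℚ))) ∧
  (∀ x : ↥(modularFunctionFieldBar M),
    r (heckeBetaBar (AlgebraicClosure ℚ) (M * q) q (heckeBetaBar (AlgebraicClosure ℚ) M q x)) =
      Fermat.Agent.S28.scale ξ (x : LaurentSeries (AlgebraicClosure ℚ)))

theorem exists_isMid (hq : q.Prime) (hqM : ¬ q ∣ M) (ξ : (AlgebraicClosure ℚ)ˣ)
    (hξ : IsPrimitiveRoot ξ q) :
    ∃ r : ↥(modularFunctionFieldBar (M * q * q)) →ₐ[AlgebraicClosure ℚ]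
        LaurentSeries (AlgebraicClosure ℚ), IsMid M q ξ r.toRingHom := by
  obtain ⟨r, h1, h2⟩ := exists_midEmb M q hq hqM ξ hξ
  exact ⟨r, fun c => r.commutes c, h1, h2⟩

theorem gen_congr {e e' : ℕ} [NeZero e] [NeZero e'] (h : e = e') :
    FFBridge.gen e = FFBridge.gen e' := by
  subst h
  rfl

variable {M q}

/-- Every generator of `F_{M q²}` is `α` of a generator of `F_{Mq}` or `β β` of one of `F_M`. -/
theorem gen_cases (hq : q.Prime) {e : ℕ} [NeZero e] (he : e ∣ M * q * q) :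
    (∃ h1 : e ∣ M * q, (⟨FFBridge.gen e, FFBridge.gen_mem he⟩ :
        ↥(modularFunctionFieldBar (M * q * q))) =
        heckeAlphaBar (AlgebraicClosure ℚ) (M * q) q ⟨FFBridge.gen e, FFBridge.gen_mem h1⟩) ∨
    (∃ (d : ℕ) (_ : NeZero d) (hd : d ∣ M), (⟨FFBridge.gen e, FFBridge.gen_mem he⟩ :
        ↥(modularFunctionFieldBar (M * q * q))) =
        heckeBetaBar (AlgebraicClosure ℚ) (M * q) q
          (heckeBetaBar (AlgebraicClosure ℚ) M q ⟨FFBridge.gen d, FFBridge.gen_mem hd⟩)) := by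
  rcases dvd_cases hq he with h1 | ⟨d, hd, hed⟩
  · left
    exact ⟨h1, (alpha_gen (M * q) q h1).symm⟩
  · right
    have hd0 : NeZero d := ⟨fun h0 => NeZero.ne M (Nat.eq_zero_of_zero_dvd (h0 ▸ hd))⟩
    refine ⟨d, hd0, hd, ?_⟩
    have hq0 : q ≠ 0 := hq.ne_zero
    have hd' : q * d ∣ M * q := by rw [mul_comm M q]; exact Nat.mul_dvd_mul_left q hd
    have : NeZero (q * d) := ⟨Nat.mul_ne_zero hq0 (NeZero.ne d)⟩
    have : NeZero (q * (q * d)) := ⟨Nat.mul_ne_zero hq0 (Nat.mul_ne_zero hq0 (NeZero.ne d))⟩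
    rw [beta_gen M q hd, beta_gen (M * q) q hd']
    apply Subtype.ext
    exact gen_congr (by rw [hed]; ring)

/-- **Uniqueness** of the middle embedding. -/
theorem IsMid.ext (hq : q.Prime) {ξ : (AlgebraicClosure ℚ)ˣ}
    {r r' : ↥(modularFunctionFieldBar (M * q * q)) →+* LaurentSeries (AlgebraicClosure ℚ)}
    (h : IsMid M q ξ r) (h' : IsMid M q ξ r') : r = r' := by
  refine FFBridge.ringHom_ext (M * q * q) r r' (fun c => ?_) (fun e _ he => ?_)
  · rw [h.1, h'.1]
  · rcases gen_cases hq he with ⟨h1, e1⟩ | ⟨d, _, hd, e1⟩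
    · rw [e1, h.2.1, h'.2.1]
    · rw [e1, h.2.2, h'.2.2]

/-- `coeffMap σ` and `scale`. -/
theorem coeffMap_scale_galois (σ : AlgebraicClosure ℚ ≃ₐ[ℚ] AlgebraicClosure ℚ)
    (ξ : (AlgebraicClosure ℚ)ˣ) (y : LaurentSeries (AlgebraicClosure ℚ)) :
    coeffMap (σ : AlgebraicClosure ℚ →+* AlgebraicClosure ℚ) (Fermat.Agent.S28.scale ξ y) =
      Fermat.Agent.S28.scale (Units.map (σ : AlgebraicClosure ℚ →* AlgebraicClosure ℚ) ξ)
        (coeffMap (σ : AlgebraicClosure ℚ →+* AlgebraicClosure ℚ) y) := by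
  ext n
  rw [coeffMap_coeff, Fermat.Agent.S28.scale_coeff, Fermat.Agent.S28.scale_coeff, coeffMap_coeff,
    map_mul, ← map_zpow, Units.coe_map]
  rfl

theorem coeffMap_symm_cancel (σ : AlgebraicClosure ℚ ≃ₐ[ℚ] AlgebraicClosure ℚ)
    (y : LaurentSeries (AlgebraicClosure ℚ)) :
    coeffMap (σ : AlgebraicClosure ℚ →+* AlgebraicClosure ℚ)
      (coeffMap (σ.symm : AlgebraicClosure ℚ →+* AlgebraicClosure ℚ) y) = y := by
  rw [coeffMap_coeffMap,
    coeffMap_congr (g := RingHom.id (AlgebraicClosure ℚ))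
      (RingHom.ext fun a => σ.apply_symm_apply a) y, coeffMap_id]

/-- **Galois conjugation** of a middle embedding: `σ ∘ r_ξ ∘ σ⁻¹` is the middle embedding
for `σ ξ`. -/
theorem IsMid.galois {ξ : (AlgebraicClosure ℚ)ˣ}
    {r : ↥(modularFunctionFieldBar (M * q * q)) →+* LaurentSeries (AlgebraicClosure ℚ)}
    (h : IsMid M q ξ r) (σ : AlgebraicClosure ℚ ≃ₐ[ℚ] AlgebraicClosure ℚ) :
    IsMid M q (Units.map (σ : AlgebraicClosure ℚ →* AlgebraicClosure ℚ) ξ)
      ((coeffMap (σ : AlgebraicClosure ℚ →+* AlgebraicClosure ℚ)).comp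
        (r.comp ((arithmeticRingAut (modularFunctionFieldFull (M * q * q)) σ.symm :
          ↥(modularFunctionFieldBar (M * q * q)) ≃+* ↥(modularFunctionFieldBar (M * q * q))) :
          ↥(modularFunctionFieldBar (M * q * q)) →+* ↥(modularFunctionFieldBar (M * q * q))))) := by
  refine ⟨fun c => ?_, fun x => ?_, fun x => ?_⟩
  · show coeffMap (σ : AlgebraicClosure ℚ →+* AlgebraicClosure ℚ)
        (r (arithmeticRingAut (modularFunctionFieldFull (M * q * q)) σ.symm
          (algebraMap (AlgebraicClosure ℚ) ↥(modularFunctionFieldBar (M * q * q)) c))) = _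
    rw [arithmeticRingAut_algebraMap, h.1, coeffMap_algebraMap]
    congr 1
    exact σ.apply_symm_apply c
  · show coeffMap (σ : AlgebraicClosure ℚ →+* AlgebraicClosure ℚ)
        (r (arithmeticRingAut (modularFunctionFieldFull (M * q * q)) σ.symm
          (heckeAlphaBar (AlgebraicClosure ℚ) (M * q) q x))) = _
    have e1 : arithmeticRingAut (modularFunctionFieldFull (M * q * q)) σ.symm
        (heckeAlphaBar (AlgebraicClosure ℚ) (M * q) q x) =
        heckeAlphaBar (AlgebraicClosure ℚ) (M * q) q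
          (arithmeticRingAut (modularFunctionFieldFull (M * q)) σ.symm x) :=
      Subtype.ext (by
        rw [coe_arithmeticRingAut_apply, coe_heckeAlphaBar, coe_heckeAlphaBar,
          coe_arithmeticRingAut_apply])
    rw [e1, h.2.1, coe_arithmeticRingAut_apply, coeffMap_symm_cancel]
  · show coeffMap (σ : AlgebraicClosure ℚ →+* AlgebraicClosure ℚ)
        (r (arithmeticRingAut (modularFunctionFieldFull (M * q * q)) σ.symm
          (heckeBetaBar (AlgebraicClosure ℚ) (M * q) q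
            (heckeBetaBar (AlgebraicClosure ℚ) M q x)))) = _
    have e1 : arithmeticRingAut (modularFunctionFieldFull (M * q * q)) σ.symm
        (heckeBetaBar (AlgebraicClosure ℚ) (M * q) q
          (heckeBetaBar (AlgebraicClosure ℚ) M q x)) =
        heckeBetaBar (AlgebraicClosure ℚ) (M * q) q
          (heckeBetaBar (AlgebraicClosure ℚ) M q
            (arithmeticRingAut (modularFunctionFieldFull M) σ.symm x)) :=
      Subtype.ext (by
        rw [coe_arithmeticRingAut_apply, coe_heckeBetaBar, coe_heckeBetaBar, coe_heckeBetaBar,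
          coe_heckeBetaBar, coe_arithmeticRingAut_apply, coeffMap_qExpand, coeffMap_qExpand])
    rw [e1, h.2.2, coe_arithmeticRingAut_apply, coeffMap_scale_galois, coeffMap_symm_cancel]

/-- **Galois equivariance**: `σ (r_ξ x) = r_{σ ξ} (σ x)`. -/
theorem IsMid.galois_apply (hq : q.Prime) {ξ : (AlgebraicClosure ℚ)ˣ}
    {r r' : ↥(modularFunctionFieldBar (M * q * q)) →+* LaurentSeries (AlgebraicClosure ℚ)}
    (h : IsMid M q ξ r) (σ : AlgebraicClosure ℚ ≃ₐ[ℚ] AlgebraicClosure ℚ)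
    (h' : IsMid M q (Units.map (σ : AlgebraicClosure ℚ →* AlgebraicClosure ℚ) ξ) r')
    (x : ↥(modularFunctionFieldBar (M * q * q))) :
    coeffMap (σ : AlgebraicClosure ℚ →+* AlgebraicClosure ℚ) (r x) =
      r' (arithmeticRingAut (modularFunctionFieldFull (M * q * q)) σ x) := by
  have key := IsMid.ext hq (h.galois σ) h'
  have h2 := congrArg (fun φ : _ →+* _ =>
    φ (arithmeticRingAut (modularFunctionFieldFull (M * q * q)) σ x)) key
  have h3 : arithmeticRingAut (modularFunctionFieldFull (M * q * q)) σ.symm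
      (arithmeticRingAut (modularFunctionFieldFull (M * q * q)) σ x) = x :=
    (arithmeticRingAut (modularFunctionFieldFull (M * q * q)) σ).symm_apply_apply x
  rw [← h2]
  show _ = coeffMap (σ : AlgebraicClosure ℚ →+* AlgebraicClosure ℚ)
    (r (arithmeticRingAut (modularFunctionFieldFull (M * q * q)) σ.symm
      (arithmeticRingAut (modularFunctionFieldFull (M * q * q)) σ x)))
  rw [h3]

/-! ### Values on generators and the `β`-form -/

/-- Values on the generators of level `M q`. -/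
theorem IsMid.gen_low {ξ : (AlgebraicClosure ℚ)ˣ}
    {r : ↥(modularFunctionFieldBar (M * q * q)) →+* LaurentSeries (AlgebraicClosure ℚ)}
    (hr : IsMid M q ξ r) {e : ℕ} [NeZero e] (he : e ∣ M * q) :
    r ⟨FFBridge.gen e, FFBridge.gen_mem (Dvd.dvd.mul_right he q)⟩ = FFBridge.gen e := by
  rw [← alpha_gen (M * q) q he, hr.2.1]

/-- Values on the generators `j(T^{q² d})`, `d ∣ M`: `j((ξ T)^d)`. -/
theorem IsMid.gen_top (hq0 : q ≠ 0) {ξ : (AlgebraicClosure ℚ)ˣ}
    {r : ↥(modularFunctionFieldBar (M * q * q)) →+* LaurentSeries (AlgebraicClosure ℚ)}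
    (hr : IsMid M q ξ r) {d : ℕ} [NeZero d] (hd : d ∣ M) {e : ℕ} [NeZero e]
    (he : e ∣ M * q * q) (hed : e = q * (q * d)) :
    r ⟨FFBridge.gen e, FFBridge.gen_mem he⟩ = Fermat.Agent.S28.scale ξ (FFBridge.gen d) := by
  subst hed
  have hd' : q * d ∣ M * q := by rw [mul_comm M q]; exact Nat.mul_dvd_mul_left q hd
  have : NeZero (q * d) := ⟨Nat.mul_ne_zero hq0 (NeZero.ne d)⟩
  have e1 : heckeBetaBar (AlgebraicClosure ℚ) (M * q) q
      (heckeBetaBar (AlgebraicClosure ℚ) M q ⟨FFBridge.gen d, FFBridge.gen_mem hd⟩) =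
      ⟨FFBridge.gen (q * (q * d)), FFBridge.gen_mem he⟩ := by
    rw [beta_gen M q hd, beta_gen (M * q) q hd']
  rw [← e1, hr.2.2]

/-- **The `β`-form**: on `β F_{Mq}` the middle embedding is `x ↦ (σ x)(ξ T)`, `σ` the
Atkin–Lehner involution of `F_{Mq}`. -/
theorem IsMid.beta (hq : q.Prime) (h : Nat.Coprime M q) {ξ : (AlgebraicClosure ℚ)ˣ}
    {r : ↥(modularFunctionFieldBar (M * q * q)) →+* LaurentSeries (AlgebraicClosure ℚ)}
    (hξ : ξ ^ q = 1) (hr : IsMid M q ξ r) (x : ↥(modularFunctionFieldBar (M * q))) :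
    r (heckeBetaBar (AlgebraicClosure ℚ) (M * q) q x) =
      Fermat.Agent.S28.scale ξ
        ((Fermat.Agent.S34.Sigma.sigma M q h x : ↥(modularFunctionFieldBar (M * q))) :
          LaurentSeries (AlgebraicClosure ℚ)) := by
  have key : r.comp (heckeBetaBar (AlgebraicClosure ℚ) (M * q) q).toRingHom =
      (Fermat.Agent.S28.scale ξ).comp ((modularFunctionFieldBar (M * q)).val.toRingHom.comp
        ((Fermat.Agent.S34.Sigma.sigma M q h :
          ↥(modularFunctionFieldBar (M * q)) ≃+* ↥(modularFunctionFieldBar (M * q))) :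
          ↥(modularFunctionFieldBar (M * q)) →+* ↥(modularFunctionFieldBar (M * q)))) := by
    refine FFBridge.ringHom_ext (M * q) _ _ (fun c => ?_) (fun e _ he => ?_)
    · show r (heckeBetaBar (AlgebraicClosure ℚ) (M * q) q (algebraMap _ _ c)) =
        Fermat.Agent.S28.scale ξ
          ((Fermat.Agent.S34.Sigma.sigma M q h (algebraMap _ _ c) :
            ↥(modularFunctionFieldBar (M * q))) : LaurentSeries (AlgebraicClosure ℚ))
      rw [AlgHom.commutes, hr.1, AlgEquiv.commutes]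
      exact (Fermat.Agent.S28.scale_algebraMap ξ c).symm
    · show r (heckeBetaBar (AlgebraicClosure ℚ) (M * q) q
          ⟨FFBridge.gen e, FFBridge.gen_mem he⟩) =
        Fermat.Agent.S28.scale ξ
          ((Fermat.Agent.S34.Sigma.sigma M q h ⟨FFBridge.gen e, FFBridge.gen_mem he⟩ :
            ↥(modularFunctionFieldBar (M * q))) : LaurentSeries (AlgebraicClosure ℚ))
      obtain ⟨d₁, _, hd₁, hc | hc⟩ := Fermat.Agent.S34.Sigma.gen_cases hq he
      · rw [hc, Fermat.Agent.S34.Sigma.sigma_alpha]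
        have e1 : heckeBetaBar (AlgebraicClosure ℚ) (M * q) q
            (heckeAlphaBar (AlgebraicClosure ℚ) M q ⟨FFBridge.gen d₁, FFBridge.gen_mem hd₁⟩) =
            heckeAlphaBar (AlgebraicClosure ℚ) (M * q) q
              (heckeBetaBar (AlgebraicClosure ℚ) M q
                ⟨FFBridge.gen d₁, FFBridge.gen_mem hd₁⟩) :=
          Subtype.ext (by
            rw [coe_heckeBetaBar, coe_heckeAlphaBar, coe_heckeAlphaBar, coe_heckeBetaBar])
        rw [e1, hr.2.1, coe_heckeBetaBar]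
        refine (Fermat.Agent.S28.scale_eq_self_of_mem_range_expand ξ hq.ne_zero hξ ?_).symm
        rw [Fermat.Agent.S28.expand_eq_qExpand]
        exact ⟨_, rfl⟩
      · rw [hc, Fermat.Agent.S34.Sigma.sigma_beta, hr.2.2, coe_heckeAlphaBar]
  exact congrArg (fun φ : _ →+* _ => φ x) key

end Unique

end Fermat.Agent.S36.MidEmb
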