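import Mathlib
import Fermat.Agent.S36.InertiaField
import Fermat.Agent.S36.MidEmb
import Fermat.Agent.S34.ValInertia

/-!
# P8 / S36 — [MID-EQ]: `K₀`-rational functions have equal middle reductions (helper70)

`A` a valuation subring of `Q̄` over the prime `q`, `I = A.inertiaSubgroupIn ℚ`.

* `exists_inertia_map_primitiveRoot`: `I` is transitive on the primitive `q`-th roots of unity.
  Proof without cyclotomic fields: the product `P` of `1 - μ` over the `I`-orbit of `ξ` is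
  `I`-fixed, all `1 - μ` have the same valuation, the product over all primitive roots is `q`,
  and the value group of the inertia field is `v(q)^ℤ` (`S36/InertiaField`); hence the orbit has
  `q - 1` elements.
* `red_mid_eq`: if `x ∈ F_{M q²}` is fixed by `I` and `r`, `r'` are middle embeddings
  (`S36/MidEmb.IsMid`) for `ξ`, `ξ'`, then `r x ∈ Ocal` implies `r' x ∈ Ocal` and
  `red (r' x) = red (r x)`.
-/

set_option autoImplicit false

namespace Fermat.Agent.S36.MidEq

open Polynomial Fermat.Agent.S24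

section Arith

variable (A : ValuationSubring Kbar)

/-- `v(μ - 1) ≤ v(ξ - 1)` when `μ` is a power of the root of unity `ξ`. -/
theorem val_pow_sub_one_le {ξ : Kbar} {q : ℕ} (hq : q ≠ 0) (hξ : ξ ^ q = 1) (i : ℕ) :
    A.valuation (ξ ^ i - 1) ≤ A.valuation (ξ - 1) := by
  have h1 : A.valuation ξ = 1 := InertiaField.val_eq_one_of_pow_eq_one A hq hξ
  have h2 : (∑ j ∈ Finset.range i, ξ ^ j) * (ξ - 1) = ξ ^ i - 1 := geom_sum_mul ξ i
  have h3 : A.valuation (∑ j ∈ Finset.range i, ξ ^ j) ≤ 1 := by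
    rw [A.valuation_le_one_iff]
    have hξA : ξ ∈ A := by rw [← A.valuation_le_one_iff, h1]
    exact A.sum_mem fun j _ => A.pow_mem hξA j
  rw [← h2, map_mul]
  calc A.valuation (∑ j ∈ Finset.range i, ξ ^ j) * A.valuation (ξ - 1)
      ≤ 1 * A.valuation (ξ - 1) := mul_le_mul_left h3 _
    _ = A.valuation (ξ - 1) := one_mul _

/-- all `1 - μ`, `μ` a primitive `q`-th root of unity, have the same valuation. -/
theorem val_one_sub_eq {ξ μ : Kbar} {q : ℕ} (hq : q ≠ 0) (hξ : IsPrimitiveRoot ξ q)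
    (hμ : IsPrimitiveRoot μ q) : A.valuation (1 - μ) = A.valuation (1 - ξ) := by
  have key : ∀ {a b : Kbar}, IsPrimitiveRoot a q → IsPrimitiveRoot b q →
      A.valuation (1 - b) ≤ A.valuation (1 - a) := by
    intro a b ha hb
    have : NeZero q := ⟨hq⟩
    obtain ⟨i, -, rfl⟩ := ha.eq_pow_of_pow_eq_one hb.pow_eq_one
    have := val_pow_sub_one_le A hq ha.pow_eq_one i
    rwa [← neg_sub (a ^ i) 1, ← neg_sub a 1, Valuation.map_neg, Valuation.map_neg]
  exact le_antisymm (key hξ hμ) (key hμ hξ)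

/-- `∏ (1 - μ) = q` over the primitive `q`-th roots of unity. -/
theorem prod_one_sub_primitiveRoots {q : ℕ} (hq : q.Prime) {ξ : Kbar} (hξ : IsPrimitiveRoot ξ q) :
    ∏ μ ∈ primitiveRoots q Kbar, (1 - μ) = (q : Kbar) := by
  have : Fact q.Prime := ⟨hq⟩
  have h1 := Polynomial.cyclotomic_eq_prod_X_sub_primitiveRoots hξ
  have h2 : eval 1 (cyclotomic q Kbar) = (q : Kbar) := Polynomial.eval_one_cyclotomic_prime
  rw [h1, eval_prod] at h2
  rw [← h2]
  refine Finset.prod_congr rfl fun μ _ => ?_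
  rw [eval_sub, eval_X, eval_C]

/-- **The inertia group at `q` is transitive on the primitive `q`-th roots of unity.** -/
theorem exists_inertia_map_primitiveRoot (q : ℕ) (hq : q.Prime) (hAq : A.LiesOverPrime q)
    (ξ ξ' : Kbar) (hξ : IsPrimitiveRoot ξ q) (hξ' : IsPrimitiveRoot ξ' q) :
    ∃ τ ∈ A.inertiaSubgroupIn ℚ, τ ξ = ξ' := by
  classical
  have hq0 : q ≠ 0 := hq.ne_zero
  set I := A.inertiaSubgroupIn ℚ with hI
  set orb : Finset Kbar := (primitiveRoots q Kbar).filter (fun μ => ∃ τ ∈ I, τ ξ = μ) with horb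
  have hmem : ∀ μ, μ ∈ orb ↔ IsPrimitiveRoot μ q ∧ ∃ τ ∈ I, τ ξ = μ := by
    intro μ
    rw [horb, Finset.mem_filter, mem_primitiveRoots hq.pos]
  have hξorb : ξ ∈ orb := (hmem ξ).2 ⟨hξ, 1, I.one_mem, rfl⟩
  -- the orbit is stable under the inertia group
  have hstab : ∀ τ ∈ I, ∀ μ ∈ orb, τ μ ∈ orb := by
    intro τ hτ μ hμ
    obtain ⟨hμ1, τ', hτ', rfl⟩ := (hmem μ).1 hμ
    exact (hmem _).2 ⟨hμ1.map_of_injective τ.injective, τ * τ', I.mul_mem hτ hτ', rfl⟩
  set P : Kbar := ∏ μ ∈ orb, (1 - μ) with hP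
  have hPfix : ∀ τ ∈ I, τ P = P := by
    intro τ hτ
    have hτs : τ.symm ∈ I := by
      have := I.inv_mem hτ
      rwa [AlgEquiv.aut_inv] at this
    rw [hP, map_prod]
    refine Finset.prod_nbij' (fun μ => τ μ) (fun μ => τ.symm μ) ?_ ?_ ?_ ?_ ?_
    · intro μ hμ; exact hstab τ hτ μ hμ
    · intro μ hμ; exact hstab τ.symm hτs μ hμ
    · intro μ _; exact τ.symm_apply_apply μ
    · intro μ _; exact τ.apply_symm_apply μ
    · intro μ _; rw [map_sub, map_one]
  have hP0 : P ≠ 0 := by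
    rw [hP, Finset.prod_ne_zero_iff]
    intro μ hμ
    exact sub_ne_zero.2 (((hmem μ).1 hμ).1.ne_one hq.one_lt).symm
  obtain ⟨m, hm⟩ := InertiaField.val_eq_zpow_of_inertia_fixed A q hq hAq P hP0 hPfix
  set x := A.valuation (1 - ξ) with hx
  have hvP : A.valuation P = x ^ orb.card := by
    rw [hP, map_prod, Finset.prod_congr rfl (fun μ hμ =>
      val_one_sub_eq A hq0 hξ ((hmem μ).1 hμ).1), Finset.prod_const]
  have hvq : A.valuation (q : Kbar) = x ^ (q - 1) := by
    rw [← prod_one_sub_primitiveRoots hq hξ, map_prod, Finset.prod_congr rfl (fun μ hμ =>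
      val_one_sub_eq A hq0 hξ ((mem_primitiveRoots hq.pos).1 hμ)), Finset.prod_const,
      hξ.card_primitiveRoots, Nat.totient_prime hq]
  have hx0 : x ≠ 0 := (Valuation.ne_zero_iff _).2 (sub_ne_zero.2 (hξ.ne_one hq.one_lt).symm)
  have hx1 : x < 1 := by
    have h1 : A.valuation (q : Kbar) < 1 := (ValuationSubring.mem_nonunits_iff A).1 hAq
    by_contra hge
    have h2 : 1 ≤ x ^ (q - 1) := one_le_pow₀ (not_lt.1 hge)
    rw [← hvq] at h2
    exact absurd h1 (not_lt.2 h2)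
  have hpow : x ^ (orb.card : ℤ) = x ^ (((q - 1 : ℕ) : ℤ) * m) := by
    rw [zpow_natCast, ← hvP, hm, hvq, zpow_mul, zpow_natCast]
  have hinj : (orb.card : ℤ) = ((q - 1 : ℕ) : ℤ) * m :=
    zpow_right_injective₀ (zero_lt_iff.2 hx0) hx1.ne hpow
  have hd1 : 1 ≤ orb.card := Finset.card_pos.2 ⟨ξ, hξorb⟩
  have hcard : (primitiveRoots q Kbar).card = q - 1 := by
    rw [hξ.card_primitiveRoots, Nat.totient_prime hq]
  have hd2 : orb.card ≤ q - 1 := by
    rw [← hcard]; exact Finset.card_le_card (Finset.filter_subset _ _)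
  have hq1 : 1 ≤ q - 1 := by have := hq.two_le; omega
  have hm1 : m = 1 := by
    have e1 : (1 : ℤ) ≤ (orb.card : ℤ) := by exact_mod_cast hd1
    have e2 : (orb.card : ℤ) ≤ ((q - 1 : ℕ) : ℤ) := by exact_mod_cast hd2
    have e3 : (1 : ℤ) ≤ ((q - 1 : ℕ) : ℤ) := by exact_mod_cast hq1
    rcases lt_trichotomy m 1 with h | h | h
    · nlinarith
    · exact h
    · nlinarith
  have horb_eq : orb = primitiveRoots q Kbar := by
    apply Finset.eq_of_subset_of_card_le (Finset.filter_subset _ _)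
    rw [hcard]
    rw [hm1, mul_one] at hinj
    exact_mod_cast hinj.ge
  have hξ'orb : ξ' ∈ orb := by
    rw [horb_eq, mem_primitiveRoots hq.pos]; exact hξ'
  obtain ⟨-, τ, hτ, hτξ⟩ := (hmem ξ').1 hξ'orb
  exact ⟨τ, hτ, hτξ⟩

end Arith

section Mid

open ModularCurve Fermat.Agent.S24 Fermat.Agent.S18.Content Fermat.Agent.S36.MidEmb

variable {M q : ℕ} [NeZero M] [NeZero q]

/-- **[MID-EQ]** A function of level `M q²` fixed by the inertia group of `A` (a `K₀`-rational
function) has the same reduction at all middle cusps: if `r`, `r'` are the middle embeddings for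
the primitive `q`-th roots of unity `ξ`, `ξ'` and `r x` is integral, then `r' x` is integral and
`red (r' x) = red (r x)`. -/
theorem red_mid_eq (A : ValuationSubring Kbar) (hq : q.Prime) (hAq : A.LiesOverPrime q)
    {ξ ξ' : Kbarˣ} (hξ : IsPrimitiveRoot ξ q) (hξ' : IsPrimitiveRoot ξ' q)
    {r r' : ↥(modularFunctionFieldBar (M * q * q)) →+* LaurentSeries Kbar}
    (hr : IsMid M q ξ r) (hr' : IsMid M q ξ' r')
    (x : ↥(modularFunctionFieldBar (M * q * q)))
    (hx : ∀ τ ∈ A.inertiaSubgroupIn ℚ,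
      arithmeticRingAut (modularFunctionFieldFull (M * q * q)) τ x = x)
    (h : r x ∈ Ocal A) :
    ∃ h' : r' x ∈ Ocal A, red A ⟨_, h'⟩ = red A ⟨_, h⟩ := by
  obtain ⟨τ, hτ, hτξ⟩ := exists_inertia_map_primitiveRoot A q hq hAq (ξ : Kbar) (ξ' : Kbar)
    (IsPrimitiveRoot.coe_units_iff.2 hξ) (IsPrimitiveRoot.coe_units_iff.2 hξ')
  have hu : Units.map ((τ : Kbar ≃ₐ[ℚ] Kbar) : Kbar →* Kbar) ξ = ξ' := Units.ext hτξ
  have hr'' : IsMid M q (Units.map ((τ : Kbar ≃ₐ[ℚ] Kbar) : Kbar →* Kbar) ξ) r' := by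
    rw [hu]; exact hr'
  have key := IsMid.galois_apply hq hr τ hr'' x
  rw [hx τ hτ] at key
  obtain ⟨s, rfl, hs⟩ := Fermat.Agent.S34.ValInertia.exists_decomp A hτ
  have h1 := Fermat.Agent.S37.Gal.coeffMap_mem_Ocal A s h
  have h2 := Fermat.Agent.S37.Gal.red_coeffMap A s (r x) h
  rw [hs, coeffMap_id] at h2
  have h' : r' x ∈ Ocal A := by rw [← key]; exact h1
  refine ⟨h', ?_⟩
  rw [← h2]
  congr 1
  exact Subtype.ext key.symm

end Mid

end Fermat.Agent.S36.MidEq
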