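/-
P8 / S36 frame (helper58): **the `q` expansions of `F_{M q²}` over the `∞`-expansion of `F_{Mq}`**,
indexed by `Option (Fin (q - 1))`:

* `none`   ↦ the `∞`-expansion (the inclusion into `ℚ̄((T))`);
* `some u` ↦ the middle embedding `r_{ζ^(u+1)}` of `S36/MidEmb.lean`.

They all restrict to the `q`-expansion on `α F_{Mq}`, are pairwise distinct (`fam_injective`), and
there are `q = [F_{M q²} : α F_{Mq}]` of them (`card_index`).
-/
import Mathlib
import Fermat.Agent.S36.MidEmb
import Fermat.Agent.S28.PrimeCore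
import Fermat.Agent.S37.Conj

set_option autoImplicit false
set_option linter.unusedSectionVars false

noncomputable section

namespace Fermat.Agent.S36.MidFam

open ModularCurve Fermat.Agent.Lib Fermat.Agent.S24 Fermat.Agent.S36.MidEmb

variable (M q : ℕ) [NeZero M] [NeZero q]

/-- **The middle embedding** of `F_{M q²}` attached to the primitive `q`-th root of unity `ξ`. -/
def midEmb (hq : q.Prime) (hqM : ¬ q ∣ M) (ξ : (AlgebraicClosure ℚ)ˣ) (hξ : IsPrimitiveRoot ξ q) :
    ↥(modularFunctionFieldBar (M * q * q)) →ₐ[AlgebraicClosure ℚ]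
      LaurentSeries (AlgebraicClosure ℚ) :=
  (exists_isMid M q hq hqM ξ hξ).choose

theorem midEmb_isMid (hq : q.Prime) (hqM : ¬ q ∣ M) (ξ : (AlgebraicClosure ℚ)ˣ)
    (hξ : IsPrimitiveRoot ξ q) : IsMid M q ξ (midEmb M q hq hqM ξ hξ).toRingHom :=
  (exists_isMid M q hq hqM ξ hξ).choose_spec

variable {q}

/-- `0 < m + 1 < q`, `q` prime: coprime. -/
theorem coprime_succ_of_lt {q m : ℕ} (hq : q.Prime) (hm : m + 1 < q) : Nat.Coprime (m + 1) q :=
  Nat.coprime_comm.mp ((Nat.Prime.coprime_iff_not_dvd hq).mpr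
    (fun h => absurd (Nat.le_of_dvd (Nat.succ_pos m) h) (not_le.mpr hm)))

/-- `ζ^(u+1)`, `u < q - 1`, is a primitive `q`-th root of unity. -/
theorem isPrimitiveRoot_pow_succ (hq : q.Prime) {ζ : (AlgebraicClosure ℚ)ˣ}
    (hζ : IsPrimitiveRoot ζ q) (u : Fin (q - 1)) : IsPrimitiveRoot (ζ ^ ((u : ℕ) + 1)) q := by
  refine hζ.pow_of_coprime _ ?_
  have hu : (u : ℕ) + 1 < q := by have := u.2; omega
  exact coprime_succ_of_lt hq hu

variable (q)

/-- **The family** of the `q` expansions of `F_{M q²}` extending the `∞`-expansion of `F_{Mq}`. -/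
def fam (hq : q.Prime) (hqM : ¬ q ∣ M) (ζ : (AlgebraicClosure ℚ)ˣ) (hζ : IsPrimitiveRoot ζ q) :
    Option (Fin (q - 1)) → (↥(modularFunctionFieldBar (M * q * q)) →ₐ[AlgebraicClosure ℚ]
      LaurentSeries (AlgebraicClosure ℚ))
  | none => (modularFunctionFieldBar (M * q * q)).val
  | some u => midEmb M q hq hqM (ζ ^ ((u : ℕ) + 1)) (isPrimitiveRoot_pow_succ hq hζ u)

variable {M q}
variable (hq : q.Prime) (hqM : ¬ q ∣ M) (ζ : (AlgebraicClosure ℚ)ˣ) (hζ : IsPrimitiveRoot ζ q)

theorem fam_none (y : ↥(modularFunctionFieldBar (M * q * q))) :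
    fam M q hq hqM ζ hζ none y = (y : LaurentSeries (AlgebraicClosure ℚ)) := rfl

theorem fam_some (u : Fin (q - 1)) :
    fam M q hq hqM ζ hζ (some u) =
      midEmb M q hq hqM (ζ ^ ((u : ℕ) + 1)) (isPrimitiveRoot_pow_succ hq hζ u) := rfl

theorem fam_some_isMid (u : Fin (q - 1)) :
    IsMid M q (ζ ^ ((u : ℕ) + 1)) (fam M q hq hqM ζ hζ (some u)).toRingHom :=
  midEmb_isMid M q hq hqM (ζ ^ ((u : ℕ) + 1)) (isPrimitiveRoot_pow_succ hq hζ u)

/-- All the expansions restrict to the `q`-expansion on `α F_{Mq}`. -/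
theorem fam_alpha (i : Option (Fin (q - 1))) (x : ↥(modularFunctionFieldBar (M * q))) :
    fam M q hq hqM ζ hζ i (heckeAlphaBar (AlgebraicClosure ℚ) (M * q) q x) =
      (x : LaurentSeries (AlgebraicClosure ℚ)) := by
  cases i with
  | none => rw [fam_none, coe_heckeAlphaBar]
  | some u => exact (fam_some_isMid hq hqM ζ hζ u).2.1 x

/-- The `∞`-expansion of `f(T^{q²})`. -/
theorem fam_none_beta_beta (x : ↥(modularFunctionFieldBar M)) :
    fam M q hq hqM ζ hζ none (heckeBetaBar (AlgebraicClosure ℚ) (M * q) q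
        (heckeBetaBar (AlgebraicClosure ℚ) M q x)) =
      qExpand (AlgebraicClosure ℚ) q (qExpand (AlgebraicClosure ℚ) q
        (x : LaurentSeries (AlgebraicClosure ℚ))) := by
  rw [fam_none, coe_heckeBetaBar, coe_heckeBetaBar]

/-- The middle expansions of `f(T^{q²})`: `f(ζ^(u+1) T)`. -/
theorem fam_some_beta_beta (u : Fin (q - 1)) (x : ↥(modularFunctionFieldBar M)) :
    fam M q hq hqM ζ hζ (some u) (heckeBetaBar (AlgebraicClosure ℚ) (M * q) q
        (heckeBetaBar (AlgebraicClosure ℚ) M q x)) =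
      Fermat.Agent.S28.scale (ζ ^ ((u : ℕ) + 1)) (x : LaurentSeries (AlgebraicClosure ℚ)) :=
  (fam_some_isMid hq hqM ζ hζ u).2.2 x

/-- The expansions are pairwise distinct: they differ on `j(T^{q²})`. -/
theorem fam_injective :
    Function.Injective (fun i : Option (Fin (q - 1)) =>
      ((fam M q hq hqM ζ hζ i : ↥(modularFunctionFieldBar (M * q * q)) →ₐ[AlgebraicClosure ℚ]
        LaurentSeries (AlgebraicClosure ℚ)) :
        ↥(modularFunctionFieldBar (M * q * q)) →+* LaurentSeries (AlgebraicClosure ℚ))) := by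
  set y : ↥(modularFunctionFieldBar (M * q * q)) :=
    heckeBetaBar (AlgebraicClosure ℚ) (M * q) q (heckeBetaBar (AlgebraicClosure ℚ) M q (jBar M))
    with hy
  have hnone : (fam M q hq hqM ζ hζ none y).coeff (-1) = 0 := by
    rw [hy, fam_none_beta_beta, Fermat.Agent.S37.Conj.coe_jBar, qExpand_qExpand q q]
    apply qExpand_coeff_of_not_dvd
    intro h
    have h' : (q * q : ℕ) ∣ 1 := by
      have := (dvd_neg (α := ℤ)).mp h
      exact_mod_cast this
    have h2 := Nat.le_of_dvd one_pos h'
    have h3 := hq.two_le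
    nlinarith
  have hsome : ∀ u : Fin (q - 1), fam M q hq hqM ζ hζ (some u) y =
      Fermat.Agent.S28.scale (ζ ^ ((u : ℕ) + 1)) (jqModC (AlgebraicClosure ℚ)) := by
    intro u
    rw [hy, fam_some_beta_beta, Fermat.Agent.S37.Conj.coe_jBar]
  have hsome0 : ∀ u : Fin (q - 1), (fam M q hq hqM ζ hζ (some u) y).coeff (-1) ≠ 0 := by
    intro u
    rw [hsome, Fermat.Agent.S28.scale_coeff, coeff_jqModC_neg_one, mul_one]
    exact Units.ne_zero _
  intro i i' hii
  have hval : fam M q hq hqM ζ hζ i y = fam M q hq hqM ζ hζ i' y :=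
    RingHom.congr_fun hii y
  cases i with
  | none =>
      cases i' with
      | none => rfl
      | some u =>
          exfalso
          apply hsome0 u
          rw [← hval]
          exact hnone
  | some u =>
      cases i' with
      | none =>
          exfalso
          apply hsome0 u
          rw [hval]
          exact hnone
      | some u' =>
          rw [hsome, hsome] at hval
          have hu : (u : ℕ) + 1 < q := by have := u.2; omega
          have hu' : (u' : ℕ) + 1 < q := by have := u'.2; omega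
          have hb := Fermat.Agent.S28.Prime.scale_pow_jq_injOn hζ
            (Finset.mem_coe.mpr (Finset.mem_range.mpr hu))
            (Finset.mem_coe.mpr (Finset.mem_range.mpr hu')) hval
          exact congrArg some (Fin.ext (by omega))

include hq in
/-- There are `q` expansions. -/
theorem card_index : Fintype.card (Option (Fin (q - 1))) = q := by
  rw [Fintype.card_option, Fintype.card_fin]
  have := hq.two_le
  omega

/-- A Galois automorphism fixing `ζ` commutes with every coordinate of the family. -/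
theorem fam_galois (σ : AlgebraicClosure ℚ ≃ₐ[ℚ] AlgebraicClosure ℚ)
    (hσ : σ (ζ : AlgebraicClosure ℚ) = ζ) (i : Option (Fin (q - 1)))
    (x : ↥(modularFunctionFieldBar (M * q * q))) :
    coeffMap (σ : AlgebraicClosure ℚ →+* AlgebraicClosure ℚ) (fam M q hq hqM ζ hζ i x) =
      fam M q hq hqM ζ hζ i
        (arithmeticRingAut (modularFunctionFieldFull (M * q * q)) σ x) := by
  cases i with
  | none => rfl
  | some u =>
      have h1 := fam_some_isMid hq hqM ζ hζ u
      have hfix : Units.map (σ : AlgebraicClosure ℚ →* AlgebraicClosure ℚ) (ζ ^ ((u : ℕ) + 1)) =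
          ζ ^ ((u : ℕ) + 1) := by
        rw [map_pow]
        congr 1
        exact Units.ext hσ
      have h2 : IsMid M q (Units.map (σ : AlgebraicClosure ℚ →* AlgebraicClosure ℚ)
          (ζ ^ ((u : ℕ) + 1))) (fam M q hq hqM ζ hζ (some u)).toRingHom := by
        rw [hfix]; exact h1
      exact IsMid.galois_apply hq h1 σ h2 x

end Fermat.Agent.S36.MidFam
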