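/-
P8 / S36 [FRAME-MID] (helper58): the `r`-half of `Plan.Frame` and the laws of the middle
embeddings (`S36/MidEmb.lean`) restated for an arbitrary frame `F : Plan.Frame M q h`.

* `frameOfW`, `frameStmt_of_w` : a frame from any Atkin–Lehner involution `w` of `F_{M q²}` with
  `w ∘ α = β ∘ σ`, `w ∘ β = α ∘ σ` (the middle embeddings are `MidFam.midEmb`);
* `isMid`        : `F.r ξ` is the middle embedding for `ξ`;
* `r_unique`     : the middle coordinates do not depend on the frame;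
* `galMid`, `r_galois` : `σ (r_ξ x) = r_{σ ξ} (σ x)` for `σ ∈ Gal(ℚ̄/ℚ)`;
* `r_galois_of_fix` : `σ ξ = ξ ⟹ σ (r_ξ x) = r_ξ (σ x)`;
* `r_beta_sigma` : `r_ξ (β x) = (σ_q x)(ξ T)` for `x ∈ F_{Mq}`.
-/
import Mathlib
import Fermat.Agent.S36.Plan
import Fermat.Agent.S36.MidEmb
import Fermat.Agent.S36.MidFam

set_option autoImplicit false
set_option linter.unusedSectionVars false

noncomputable section

namespace Fermat.Agent.S36.FrameInst

open ModularCurve AlgebraicCurve Fermat.Agent.S24 Fermat.Agent.S18.Plan Fermat.Agent.S34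
open Fermat.Agent.S36.MidEmb

variable {M q : ℕ} [NeZero M] [NeZero q]

theorem not_dvd_of_coprime (hq : q.Prime) (h : Nat.Coprime M q) : ¬ q ∣ M :=
  (Nat.Prime.coprime_iff_not_dvd hq).mp h.symm

/-- **The frame** attached to an Atkin–Lehner involution `w` of `F_{M q²}`; its middle
embeddings are `MidFam.midEmb`. -/
def frameOfW (hq : q.Prime) (h : Nat.Coprime M q)
    (w : FN (M * q * q) ≃ₐ[Kbar] FN (M * q * q))
    (hwα : ∀ x : FN (M * q),
      w (heckeAlphaBar Kbar (M * q) q x) = heckeBetaBar Kbar (M * q) q (Sigma.sigma M q h x))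
    (hwβ : ∀ x : FN (M * q),
      w (heckeBetaBar Kbar (M * q) q x) = heckeAlphaBar Kbar (M * q) q (Sigma.sigma M q h x)) :
    Plan.Frame M q h where
  w := w
  w_alpha := hwα
  w_beta := hwβ
  r := fun ξ => MidFam.midEmb M q hq (not_dvd_of_coprime hq h) ξ.1 ξ.2
  r_alpha := fun ξ x => (MidFam.midEmb_isMid M q hq (not_dvd_of_coprime hq h) ξ.1 ξ.2).2.1 x
  r_beta := fun ξ x => (MidFam.midEmb_isMid M q hq (not_dvd_of_coprime hq h) ξ.1 ξ.2).2.2 x

/-- **[EMB]** `Plan.FrameStmt` from the existence of `w`. -/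
theorem frameStmt_of_w (hq : q.Prime) (h : Nat.Coprime M q)
    (hw : ∃ w : FN (M * q * q) ≃ₐ[Kbar] FN (M * q * q),
      (∀ x : FN (M * q),
        w (heckeAlphaBar Kbar (M * q) q x) = heckeBetaBar Kbar (M * q) q (Sigma.sigma M q h x)) ∧
      (∀ x : FN (M * q),
        w (heckeBetaBar Kbar (M * q) q x) =
          heckeAlphaBar Kbar (M * q) q (Sigma.sigma M q h x))) :
    Plan.FrameStmt M q h := by
  obtain ⟨w, hwα, hwβ⟩ := hw
  exact ⟨frameOfW hq h w hwα hwβ⟩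

variable {h : Nat.Coprime M q}

/-- `F.r ξ` is the middle embedding for `ξ`. -/
theorem isMid (F : Plan.Frame M q h) (ξ : Plan.MidIdx q) :
    IsMid M q ξ.1 (F.r ξ).toRingHom :=
  ⟨fun c => (F.r ξ).commutes c, F.r_alpha ξ, F.r_beta ξ⟩

/-- The middle coordinates do not depend on the frame. -/
theorem r_unique (hq : q.Prime) (F F' : Plan.Frame M q h) (ξ : Plan.MidIdx q) :
    F.r ξ = F'.r ξ := by
  have key := IsMid.ext hq (isMid F ξ) (isMid F' ξ)
  exact AlgHom.ext fun x => RingHom.congr_fun key x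

/-- The Galois action on the index set of the middle cusps. -/
def galMid (σ : Kbar ≃ₐ[ℚ] Kbar) (ξ : Plan.MidIdx q) : Plan.MidIdx q :=
  ⟨Units.map (σ : Kbar →* Kbar) ξ.1, by
    have h1 : IsPrimitiveRoot (ξ.1 : Kbar) q := IsPrimitiveRoot.coe_units_iff.mpr ξ.2
    have h2 : IsPrimitiveRoot (σ (ξ.1 : Kbar)) q := h1.map_of_injective σ.injective
    exact IsPrimitiveRoot.coe_units_iff.mp h2⟩

theorem coe_galMid (σ : Kbar ≃ₐ[ℚ] Kbar) (ξ : Plan.MidIdx q) :
    ((galMid σ ξ).1 : Kbar) = σ (ξ.1 : Kbar) := rfl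

/-- **Galois equivariance** of the middle coordinates: `σ (r_ξ x) = r_{σ ξ} (σ x)`. -/
theorem r_galois (hq : q.Prime) (F : Plan.Frame M q h) (σ : Kbar ≃ₐ[ℚ] Kbar)
    (ξ : Plan.MidIdx q) (x : FN (M * q * q)) :
    coeffMap (σ : Kbar →+* Kbar) (F.r ξ x) =
      F.r (galMid σ ξ) (arithmeticRingAut (modularFunctionFieldFull (M * q * q)) σ x) :=
  IsMid.galois_apply hq (isMid F ξ) σ (isMid F (galMid σ ξ)) x

/-- `σ ξ = ξ ⟹ σ (r_ξ x) = r_ξ (σ x)`. -/
theorem r_galois_of_fix (hq : q.Prime) (F : Plan.Frame M q h) (σ : Kbar ≃ₐ[ℚ] Kbar)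
    (ξ : Plan.MidIdx q) (hσ : σ (ξ.1 : Kbar) = ξ.1) (x : FN (M * q * q)) :
    coeffMap (σ : Kbar →+* Kbar) (F.r ξ x) =
      F.r ξ (arithmeticRingAut (modularFunctionFieldFull (M * q * q)) σ x) := by
  have h1 : galMid σ ξ = ξ := Subtype.ext (Units.ext hσ)
  have h2 := r_galois hq F σ ξ x
  rwa [h1] at h2

/-- **The `β`-form**: `r_ξ (β x) = (σ_q x)(ξ T)` for `x ∈ F_{Mq}`. -/
theorem r_beta_sigma (hq : q.Prime) (F : Plan.Frame M q h) (ξ : Plan.MidIdx q)
    (x : FN (M * q)) :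
    F.r ξ (heckeBetaBar Kbar (M * q) q x) =
      Fermat.Agent.S28.scale ξ.1 ((Sigma.sigma M q h x : FN (M * q)) : Om) :=
  IsMid.beta hq h ξ.2.pow_eq_one (isMid F ξ) x

/-- The middle coordinate of `f(T^q)`, `f ∈ F_M` (as `α β f`): `f(T^q)`. -/
theorem r_alpha_beta (F : Plan.Frame M q h) (ξ : Plan.MidIdx q) (x : FN M) :
    F.r ξ (heckeAlphaBar Kbar (M * q) q (heckeBetaBar Kbar M q x)) = qExpand Kbar q (x : Om) := by
  rw [F.r_alpha, coe_heckeBetaBar]

/-- The middle coordinate of `f ∈ F_M` (as `α α f`): `f`. -/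
theorem r_alpha_alpha (F : Plan.Frame M q h) (ξ : Plan.MidIdx q) (x : FN M) :
    F.r ξ (heckeAlphaBar Kbar (M * q) q (heckeAlphaBar Kbar M q x)) = (x : Om) := by
  rw [F.r_alpha, coe_heckeAlphaBar]

end Fermat.Agent.S36.FrameInst
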