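import Mathlib
import Fermat.Agent.CFT.Fin.Ram
import Fermat.Agent.Lib.InertiaLift

/-!
# The inertia field with a `q`-th root of unity adjoined: value group generated by `ζ - 1`

`Qb = AlgebraicClosure ℚ`, `A` a valuation subring of `Qb` over a prime `q`,
`I = A.inertiaSubgroupIn ℚ`, `ζ` a primitive `q`-th root of unity, `K0(ζ)` = the elements fixed by
`{σ ∈ I | σ ζ = ζ}`.

* `exists_val_mul_zpow_eq_one_of_fixed_zeta`, `val_eq_zpow_of_fixed_zeta`,
  `div_zeta_sub_one_mem_of_fixed_zeta` (**[K0ζ-VAL]**): a nonzero element of `K0(ζ)` is a power of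
  `ζ - 1` times a unit of `A`; a non-unit of `A` in `K0(ζ)` is divisible by `ζ - 1` in `A`.
* `val_zeta_sub_one_pow`, `val_zeta_sub_one_lt_one`: `v(ζ - 1) ^ (q - 1) = v(q)`.
* `val_zeta_pow_sub_one_div_sub_natCast_lt_one`: `(ζ ^ i - 1) / (ζ - 1) ≡ i` modulo the maximal
  ideal.
* finite level, relative form: `ramificationIdx_under_inertiaFieldOver`,
  `exists_valuation_mul_zpow_eq_one_over` (`L/ℚ` finite Galois, `K` an intermediate field).
-/

set_option autoImplicit false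

open NumberField IsDedekindDomain HeightOneSpectrum WithZero Pointwise

namespace Fermat.Agent.S36.InertiaFieldZeta

section Finite

variable (L : Type) [Field L] [NumberField L] [IsGalois ℚ L] (K : IntermediateField ℚ L)
  (P : Ideal (𝓞 L)) [hPp : P.IsPrime]

/-- The inertia field of `P` in `L/K`. -/
noncomputable abbrev inertiaFieldOver : IntermediateField K L :=
  FixedPoints.intermediateField (Ideal.inertia Gal(L/K) P)

theorem ramificationIdx_under_inertiaFieldOver :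
    P.ramificationIdx (𝓞 (inertiaFieldOver L K P)) = P.ramificationIdx (𝓞 K) := by
  let E := inertiaFieldOver L K P
  let I := Ideal.inertia Gal(L/K) P
  have hG : IsGaloisGroup I (𝓞 E) (𝓞 L) := IsGaloisGroup.of_isFractionRing I (𝓞 E) (𝓞 L) E L
  have h1 : Nat.card I = (P.under (𝓞 K)).ramificationIdxIn (𝓞 L) :=
    Ideal.card_inertia_eq_ramificationIdxIn (G := Gal(L/K)) (P.under (𝓞 K)) P
  have h2 : (P.under (𝓞 K)).ramificationIdxIn (𝓞 L) = P.ramificationIdx (𝓞 K) :=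
    Ideal.ramificationIdxIn_eq_ramificationIdx (P.under (𝓞 K)) P Gal(L/K)
  have h3 : Nat.card (P.inertia I) = (P.under (𝓞 E)).ramificationIdxIn (𝓞 L) :=
    Ideal.card_inertia_eq_ramificationIdxIn (G := I) (P.under (𝓞 E)) P
  have h4 : (P.under (𝓞 E)).ramificationIdxIn (𝓞 L) = P.ramificationIdx (𝓞 E) :=
    Ideal.ramificationIdxIn_eq_ramificationIdx (P.under (𝓞 E)) P I
  have h5 : P.inertia I = ⊤ := by
    ext ⟨σ, hσ⟩
    simp only [Subgroup.mem_top, iff_true]
    intro y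
    exact hσ y
  rw [← h4, ← h3, h5, ← h2, ← h1]
  exact Subgroup.card_top

/-- Finite level, relative form: an element of the inertia field of `P` in `L/K` is a power of
a uniformizer `π` of `K` (at the prime below `P`) times a `P`-unit. -/
theorem exists_valuation_mul_zpow_eq_one_over (w : HeightOneSpectrum (𝓞 L)) (hw : w.asIdeal = P)
    (u : HeightOneSpectrum (𝓞 K)) (hu : u.asIdeal = P.under (𝓞 K)) (π : K)
    (hπ : u.valuation K π = exp (-1 : ℤ)) (a : L) (ha : a ∈ inertiaFieldOver L K P)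
    (ha0 : a ≠ 0) : ∃ n : ℤ, w.valuation L (a * (π : L) ^ n) = 1 := by
  subst hw
  set E := inertiaFieldOver L K w.asIdeal with hE
  have hP0 : w.asIdeal ≠ ⊥ := w.ne_bot
  have hvne : w.asIdeal.under (𝓞 E) ≠ ⊥ := Ideal.under_ne_bot (𝓞 E) hP0
  let v : HeightOneSpectrum (𝓞 E) := ⟨w.asIdeal.under (𝓞 E), inferInstance, hvne⟩
  have hvw : w.asIdeal.LiesOver v.asIdeal := ⟨rfl⟩
  have huw : w.asIdeal.LiesOver u.asIdeal := ⟨hu⟩
  have e1 : v.asIdeal.ramificationIdx' w.asIdeal = w.asIdeal.ramificationIdx (𝓞 E) :=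
    Ideal.ramificationIdx'_eq_ramificationIdx v.asIdeal w.asIdeal hvne
  have e2 : u.asIdeal.ramificationIdx' w.asIdeal = w.asIdeal.ramificationIdx (𝓞 K) :=
    Ideal.ramificationIdx'_eq_ramificationIdx u.asIdeal w.asIdeal u.ne_bot
  have e3 := ramificationIdx_under_inertiaFieldOver L K w.asIdeal
  set e := w.asIdeal.ramificationIdx (𝓞 K) with he
  have k1 := valuation_liesOver L v w (⟨a, ha⟩ : E)
  have k2 := valuation_liesOver L u w π
  rw [e1, e3] at k1
  rw [e2, hπ] at k2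
  have ha0' : (⟨a, ha⟩ : E) ≠ 0 := fun h => ha0 (congrArg Subtype.val h)
  have hva : v.valuation E (⟨a, ha⟩ : E) ≠ 0 := (Valuation.ne_zero_iff _).mpr ha0'
  set m : ℤ := log (v.valuation E (⟨a, ha⟩ : E)) with hm
  have k4 : v.valuation E (⟨a, ha⟩ : E) = exp m := (exp_log hva).symm
  rw [k4] at k1
  refine ⟨m, ?_⟩
  have k5 : algebraMap E L (⟨a, ha⟩ : E) = a := rfl
  have k6 : algebraMap K L π = (π : L) := rfl
  rw [k5] at k1
  rw [k6] at k2
  rw [map_mul, map_zpow₀, ← k1, ← k2, ← exp_nsmul, ← exp_nsmul, ← exp_zsmul, ← exp_add]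
  simp only [nsmul_eq_mul, smul_eq_mul, mul_neg, mul_one]
  rw [show (e : ℤ) * m + -(m * (e : ℤ)) = 0 by ring]
  rfl

end Finite

section GlobalZeta

open Fermat.Agent.Lib.InertiaGlue

/-- **[K0ζ-VAL]** Let `ζ` be a primitive `q`-th root of unity. A nonzero element of `Q̄` fixed by
all elements of the inertia group of `A` (over `q`) fixing `ζ` is a power of `ζ - 1` times a unit
of `A`: the value group of `K0(ζ_q)` is generated by the valuation of `ζ - 1`. -/
theorem exists_val_mul_zpow_eq_one_of_fixed_zeta (A : ValuationSubring Qb) (q : ℕ) (hq : q.Prime)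
    (hAq : A.LiesOverPrime q) (ζ : Qb) (hζ : IsPrimitiveRoot ζ q) (a : Qb) (ha : a ≠ 0)
    (hfix : ∀ σ ∈ A.inertiaSubgroupIn ℚ, σ ζ = ζ → σ a = a) :
    ∃ n : ℤ, A.valuation (a * (ζ - 1) ^ n) = 1 := by
  have hqf : Fact q.Prime := ⟨hq⟩
  have hq0 : NeZero q := ⟨hq.ne_zero⟩
  -- the Galois closure of `ℚ(a, ζ)`
  let F : IntermediateField ℚ Qb := IntermediateField.adjoin ℚ {a, ζ}
  have hFfin : FiniteDimensional ℚ F :=
    IntermediateField.finiteDimensional_adjoin (fun x _ => Algebra.IsIntegral.isIntegral x)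
  let N : IntermediateField ℚ Qb := IntermediateField.normalClosure ℚ F Qb
  have hNfin : FiniteDimensional ℚ N := inferInstance
  have hNnf : NumberField N := ⟨⟩
  have hNnormal : Normal ℚ N := normalClosure.normal ℚ F Qb
  have hNgal : IsGalois ℚ N := ⟨⟩
  have haN : a ∈ N :=
    IntermediateField.le_normalClosure F (IntermediateField.subset_adjoin ℚ _ (by simp))
  have hζN : ζ ∈ N :=
    IntermediateField.le_normalClosure F (IntermediateField.subset_adjoin ℚ _ (by simp))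
  let ζN : N := ⟨ζ, hζN⟩
  have hζN' : IsPrimitiveRoot ζN q :=
    IsPrimitiveRoot.of_map_of_injective (f := algebraMap N Qb) hζ (algebraMap N Qb).injective
  let K : IntermediateField ℚ N := IntermediateField.adjoin ℚ {ζN}
  have hcyc : IsCyclotomicExtension {q} ℚ K :=
    hζN'.intermediateField_adjoin_isCyclotomicExtension ℚ
  have hζKmem : ζN ∈ K := IntermediateField.mem_adjoin_simple_self ℚ ζN
  let ζK : K := ⟨ζN, hζKmem⟩
  have hζK : IsPrimitiveRoot ζK q :=
    IsPrimitiveRoot.of_map_of_injective (f := algebraMap K N) hζN' (algebraMap K N).injective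
  -- the prime below `A`
  have hqP : ((q : ℕ) : 𝓞 N) ∈ primeBelow N A := by
    rw [mem_primeBelow]
    have hA' : ((q : ℕ) : Qb) ∈ A.nonunits := hAq
    simpa using hA'
  have hP0 : primeBelow N A ≠ ⊥ := by
    intro h0
    rw [h0, Ideal.mem_bot] at hqP
    exact hq.ne_zero (Nat.cast_eq_zero.mp hqP)
  let w : HeightOneSpectrum (𝓞 N) := ⟨primeBelow N A, inferInstance, hP0⟩
  have hw : ∀ y ∈ w.asIdeal, (((y : N) : Qb)) ∈ A.nonunits :=
    fun y hy => (mem_primeBelow N A y).mp hy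
  -- the prime of `K = ℚ(ζ)` below `A` is `(ζ - 1)`
  have hPK0 : (primeBelow N A).under (𝓞 K) ≠ ⊥ := Ideal.under_ne_bot (𝓞 K) hP0
  let u : HeightOneSpectrum (𝓞 K) := ⟨(primeBelow N A).under (𝓞 K), inferInstance, hPK0⟩
  have hlies : u.asIdeal.LiesOver (Ideal.span {(q : ℤ)}) := by
    constructor
    have hmax : (Ideal.span {(q : ℤ)}).IsMaximal :=
      PrincipalIdealRing.isMaximal_of_irreducible (Nat.prime_iff_prime_int.mp hq).irreducible
    refine hmax.eq_of_le (Ideal.IsPrime.under ℤ u.asIdeal).ne_top ?_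
    rw [Ideal.span_singleton_le_iff_mem, Ideal.under_def, Ideal.mem_comap]
    show algebraMap ℤ (𝓞 K) (q : ℤ) ∈ (primeBelow N A).under (𝓞 K)
    rw [Ideal.under_def, Ideal.mem_comap]
    simpa using hqP
  have hspan : u.asIdeal = Ideal.span {hζK.toInteger - 1} :=
    IsCyclotomicExtension.Rat.eq_span_zeta_sub_one_of_liesOver' q K hζK u.asIdeal
  have hne : hζK.toInteger - 1 ≠ 0 := by
    intro h0
    apply u.ne_bot
    rw [hspan, h0]
    simp
  have hπ : u.valuation K (ζK - 1) = exp (-1 : ℤ) := by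
    have h1 : (ζK - 1 : K) = algebraMap (𝓞 K) K (hζK.toInteger - 1) := by
      rw [map_sub, map_one]
      rfl
    rw [h1, valuation_of_algebraMap]
    exact u.intValuation_singleton hne hspan
  -- `a` lies in the inertia field of `N/K`
  have haE : (⟨a, haN⟩ : N) ∈ inertiaFieldOver N K (primeBelow N A) := by
    rintro ⟨τ, hτ⟩
    have hτ' : ∀ x : N, IsIntegral ℤ x →
        (((τ.restrictScalars ℚ) x : N) : Qb) - (x : Qb) ∈ A.nonunits := by
      intro x hx
      obtain ⟨y, rfl⟩ := (IsIntegralClosure.isIntegral_iff (A := 𝓞 N)).mp hx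
      have h5 : τ • y - y ∈ primeBelow N A := hτ y
      rw [mem_primeBelow] at h5
      have h6 : algebraMap (𝓞 N) N (τ • y) = τ (algebraMap (𝓞 N) N y) := rfl
      rw [map_sub, h6] at h5
      exact h5
    obtain ⟨σ, hσ, hστ⟩ :=
      Fermat.Agent.Lib.InertiaLift.exists_inertia_lift N A (τ.restrictScalars ℚ) hτ'
    have hσζ : σ ζ = ζ := by
      have h2 := hστ ζN
      have h3 : τ ζN = ζN := τ.commutes ζK
      rw [show ((τ.restrictScalars ℚ) ζN) = τ ζN from rfl, h3] at h2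
      exact h2
    have h1 := hfix σ hσ hσζ
    have h2 := hστ ⟨a, haN⟩
    apply Subtype.ext
    show ((τ (⟨a, haN⟩ : N) : N) : Qb) = a
    rw [show τ (⟨a, haN⟩ : N) = (τ.restrictScalars ℚ) ⟨a, haN⟩ from rfl, ← h2]
    exact h1
  have ha0 : (⟨a, haN⟩ : N) ≠ 0 := fun h => ha (congrArg Subtype.val h)
  obtain ⟨n, hn⟩ := exists_valuation_mul_zpow_eq_one_over N K (primeBelow N A) w rfl u rfl
    (ζK - 1) hπ ⟨a, haN⟩ haE ha0
  refine ⟨n, ?_⟩
  have h3 := Fermat.Agent.CFT.Fin.val_eq_one_of_valuation_eq_one (K := N) (A := A) (v := w) hw hn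
  have h4 : (((⟨a, haN⟩ : N) * (((ζK - 1 : K) : N)) ^ n : N) : Qb) = a * (ζ - 1) ^ n := by
    push_cast
    rfl
  rw [h4] at h3
  exact h3

/-- Units of the ring of all algebraic integers are units of every valuation subring. -/
theorem val_unit_eq_one (A : ValuationSubring Qb) (u : (𝓞 Qb)ˣ) :
    A.valuation (algebraMap (𝓞 Qb) Qb (u : 𝓞 Qb)) = 1 := by
  have h1 : A.valuation (algebraMap (𝓞 Qb) Qb (u : 𝓞 Qb)) ≤ 1 :=
    (A.valuation_le_one_iff _).mpr (mem_of_isIntegral A (RingOfIntegers.isIntegral_coe _))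
  have h2 : A.valuation (algebraMap (𝓞 Qb) Qb ((u⁻¹ : (𝓞 Qb)ˣ) : 𝓞 Qb)) ≤ 1 :=
    (A.valuation_le_one_iff _).mpr (mem_of_isIntegral A (RingOfIntegers.isIntegral_coe _))
  have h4 : A.valuation (algebraMap (𝓞 Qb) Qb (u : 𝓞 Qb)) *
      A.valuation (algebraMap (𝓞 Qb) Qb ((u⁻¹ : (𝓞 Qb)ˣ) : 𝓞 Qb)) = 1 := by
    rw [← map_mul, ← map_mul, Units.mul_inv, map_one, map_one]
  refine le_antisymm h1 ?_
  calc (1 : A.ValueGroup)
      = A.valuation (algebraMap (𝓞 Qb) Qb (u : 𝓞 Qb)) *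
          A.valuation (algebraMap (𝓞 Qb) Qb ((u⁻¹ : (𝓞 Qb)ˣ) : 𝓞 Qb)) := h4.symm
    _ ≤ A.valuation (algebraMap (𝓞 Qb) Qb (u : 𝓞 Qb)) * 1 := by gcongr
    _ = A.valuation (algebraMap (𝓞 Qb) Qb (u : 𝓞 Qb)) := mul_one _

/-- `(ζ - 1) ^ (q - 1)` and `q` have the same valuation. -/
theorem val_zeta_sub_one_pow (A : ValuationSubring Qb) (q : ℕ) (hq : q.Prime) (ζ : Qb)
    (hζ : IsPrimitiveRoot ζ q) : A.valuation (ζ - 1) ^ (q - 1) = A.valuation (q : Qb) := by
  have hqf : Fact q.Prime := ⟨hq⟩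
  obtain ⟨u, hu⟩ := IsCyclotomicExtension.Rat.associated_zeta_sub_one_pow_prime q hζ
  have h1 : (ζ - 1) ^ (q - 1) * algebraMap (𝓞 Qb) Qb (u : 𝓞 Qb) = (q : Qb) := by
    have h2 := congrArg (algebraMap (𝓞 Qb) Qb) hu
    rw [map_mul, map_pow, map_sub, map_one, map_natCast] at h2
    exact h2
  rw [← h1, map_mul, val_unit_eq_one A u, mul_one, map_pow]

/-- `ζ - 1` is a non-unit of `A` (over `q`). -/
theorem val_zeta_sub_one_lt_one (A : ValuationSubring Qb) (q : ℕ) (hq : q.Prime)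
    (hAq : A.LiesOverPrime q) (ζ : Qb) (hζ : IsPrimitiveRoot ζ q) : A.valuation (ζ - 1) < 1 := by
  have h1 := val_zeta_sub_one_pow A q hq ζ hζ
  have h2 : A.valuation (q : Qb) < 1 := by
    have hA' : ((q : ℕ) : Qb) ∈ A.nonunits := hAq
    rwa [ValuationSubring.mem_nonunits_iff] at hA'
  by_contra hcon
  rw [not_lt] at hcon
  have h3 : 1 ≤ A.valuation (ζ - 1) ^ (q - 1) := one_le_pow₀ hcon
  rw [h1] at h3
  exact absurd h2 (not_lt.mpr h3)

/-- `ζ - 1 ≠ 0`. -/
theorem zeta_sub_one_ne_zero (q : ℕ) (hq : q.Prime) (ζ : Qb) (hζ : IsPrimitiveRoot ζ q) :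
    ζ - 1 ≠ 0 := sub_ne_zero.mpr (hζ.ne_one hq.one_lt)

/-- **[K0ζ-VAL]**, multiplicative form. -/
theorem val_eq_zpow_of_fixed_zeta (A : ValuationSubring Qb) (q : ℕ) (hq : q.Prime)
    (hAq : A.LiesOverPrime q) (ζ : Qb) (hζ : IsPrimitiveRoot ζ q) (a : Qb) (ha : a ≠ 0)
    (hfix : ∀ σ ∈ A.inertiaSubgroupIn ℚ, σ ζ = ζ → σ a = a) :
    ∃ m : ℤ, A.valuation a = A.valuation (ζ - 1) ^ m := by
  obtain ⟨n, hn⟩ := exists_val_mul_zpow_eq_one_of_fixed_zeta A q hq hAq ζ hζ a ha hfix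
  refine ⟨-n, ?_⟩
  rw [map_mul, map_zpow₀] at hn
  rw [zpow_neg]
  exact eq_inv_of_mul_eq_one_left hn

/-- A non-unit whose valuation is an integral power of the valuation of a non-unit `π ≠ 0` is
divisible by `π`. -/
theorem div_mem_of_val_eq_zpow (A : ValuationSubring Qb) {a π : Qb} (hπ0 : π ≠ 0)
    (hπ : A.valuation π < 1) (ha : A.valuation a < 1) {m : ℤ}
    (hm : A.valuation a = A.valuation π ^ m) : a / π ∈ A := by
  have hv0 : A.valuation π ≠ 0 := (Valuation.ne_zero_iff _).mpr hπ0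
  have hm1 : 1 ≤ m := by
    by_contra hcon
    rw [not_le] at hcon
    obtain ⟨k, hk⟩ : ∃ k : ℕ, m = -(k : ℤ) := ⟨(-m).toNat, by omega⟩
    rw [hm, hk, zpow_neg, zpow_natCast] at ha
    have h1 : A.valuation π ^ k ≤ 1 := pow_le_one₀ zero_le hπ.le
    have h2 : A.valuation π ^ k ≠ 0 := pow_ne_zero k hv0
    have h3 : (1 : A.ValueGroup) ≤ (A.valuation π ^ k)⁻¹ :=
      (one_le_inv₀ (lt_of_le_of_ne zero_le h2.symm)).mpr h1
    exact absurd ha (not_lt.mpr h3)
  obtain ⟨k, hk⟩ : ∃ k : ℕ, m = (k : ℤ) + 1 := ⟨(m - 1).toNat, by omega⟩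
  rw [← A.valuation_le_one_iff, map_div₀, hm, hk, zpow_add_one₀ hv0, zpow_natCast,
    mul_div_assoc, div_self hv0, mul_one]
  exact pow_le_one₀ zero_le hπ.le

/-- **[K0ζ-VAL]**, divisibility form: a non-unit of `A` fixed by the inertia elements fixing `ζ`
is divisible by `ζ - 1` in `A` (the maximal ideal of `A ∩ K0(ζ)` is generated by `ζ - 1`). -/
theorem div_zeta_sub_one_mem_of_fixed_zeta (A : ValuationSubring Qb) (q : ℕ) (hq : q.Prime)
    (hAq : A.LiesOverPrime q) (ζ : Qb) (hζ : IsPrimitiveRoot ζ q) (a : Qb)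
    (ha : a ∈ A.nonunits) (hfix : ∀ σ ∈ A.inertiaSubgroupIn ℚ, σ ζ = ζ → σ a = a) :
    a / (ζ - 1) ∈ A := by
  by_cases ha0 : a = 0
  · rw [ha0, zero_div]
    exact A.zero_mem
  obtain ⟨m, hm⟩ := val_eq_zpow_of_fixed_zeta A q hq hAq ζ hζ a ha0 hfix
  exact div_mem_of_val_eq_zpow A (zeta_sub_one_ne_zero q hq ζ hζ)
    (val_zeta_sub_one_lt_one A q hq hAq ζ hζ) (A.mem_nonunits_iff.mp ha) hm

/-- `(ζ ^ i - 1) / (ζ - 1) ≡ i` modulo the maximal ideal of `A` (the tame character of the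
uniformizer `ζ - 1`). -/
theorem val_zeta_pow_sub_one_div_sub_natCast_lt_one (A : ValuationSubring Qb) (q : ℕ)
    (hq : q.Prime) (hAq : A.LiesOverPrime q) (ζ : Qb) (hζ : IsPrimitiveRoot ζ q) (i : ℕ) :
    A.valuation ((ζ ^ i - 1) / (ζ - 1) - (i : Qb)) < 1 := by
  have hne := zeta_sub_one_ne_zero q hq ζ hζ
  have hlt := val_zeta_sub_one_lt_one A q hq hAq ζ hζ
  have hζval : A.valuation ζ = 1 := by
    have h1 : A.valuation ζ ^ q = 1 := by rw [← map_pow, hζ.pow_eq_one, map_one]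
    rcases lt_trichotomy (A.valuation ζ) 1 with h | h | h
    · exact absurd h1 (pow_lt_one₀ zero_le h hq.ne_zero).ne
    · exact h
    · exact absurd h1 (one_lt_pow₀ h hq.ne_zero).ne'
  have hpow : ∀ j : ℕ, A.valuation (ζ ^ j - 1) < 1 := by
    intro j
    induction j with
    | zero => simp
    | succ j ih =>
      have e : ζ ^ (j + 1) - 1 = ζ ^ j * (ζ - 1) + (ζ ^ j - 1) := by ring
      rw [e]
      refine lt_of_le_of_lt (A.valuation.map_add _ _) (max_lt ?_ ih)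
      rw [map_mul, map_pow, hζval, one_pow, one_mul]
      exact hlt
  have hgeom : (ζ ^ i - 1) / (ζ - 1) = ∑ j ∈ Finset.range i, ζ ^ j := by
    rw [eq_comm, eq_div_iff hne, geom_sum_mul]
  have hsum : (ζ ^ i - 1) / (ζ - 1) - (i : Qb) = ∑ j ∈ Finset.range i, (ζ ^ j - 1) := by
    rw [hgeom, Finset.sum_sub_distrib, Finset.sum_const, Finset.card_range, nsmul_eq_mul, mul_one]
  rw [hsum]
  exact A.valuation.map_sum_lt one_ne_zero fun j _ => hpow j

end GlobalZeta

end Fermat.Agent.S36.InertiaFieldZeta
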