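import Mathlib
import Fermat.Agent.S36.Plan
import Fermat.Agent.S36.FrameInst
import Fermat.Agent.S36.InertiaFieldZeta
import Fermat.Agent.S34.Val
import Fermat.Agent.Lib.KroneckerCongOcal

/-!
# P8 / S36 — [PULL-RED]: the two degeneracy pull-backs in coordinates (helper70)

`M` prime to `q`, `σ = S34.Sigma.sigma M q h` the Atkin–Lehner involution of `F_{Mq}`,
`(O₂, Red) = (S34.Val.O2 A M q σ, S34.Val.Red A M q σ)` the two-component reduction of level `q`
(`Red g = (red g, red (σ g))`), `F` a level-`q²` frame and `(O, ρ)` its setup (`Plan.IsSetup`).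

* `scale_mem_Ocal`, `red_scale` : for a unit `ζ ≡ 1` modulo the maximal ideal of `A`, the
  substitution `T ↦ ζ T` preserves `Ocal` and commutes with `red` (it is the identity on residues);
* `emb_*_alpha`, `emb_*_beta`   : the `q + 1` expansions of `α x` and `β x`, `x ∈ F_{Mq}`;
* `pullA`, `pullB`              : the maps `(a, b) ↦ (a; a, …, a; b(T^q))` and
  `(a, b) ↦ (a(T^q); b, …, b; b)` from `k((T))²` to `k((T))^(Coord q)`;
* `alpha_mem`, `beta_mem`       : for `g ∈ O₂`: `α g ∈ O` with `ρ (α g) = pullA (Red g)` and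
  `β g ∈ O` with `ρ (β g) = pullB (Red g)`.
-/

set_option autoImplicit false

noncomputable section

namespace Fermat.Agent.S36.PullRed

open ModularCurve AlgebraicCurve Fermat.Agent.S24 Fermat.Agent.S18 Fermat.Agent.S18.Content
  Fermat.Agent.S18.Plan Fermat.Agent.S34 Fermat.Agent.S28

/-! ## Scaling by a unit congruent to one -/

section ScaleRed

variable {K : Type*} [Field K] (A : ValuationSubring K)

/-- A unit of `K` congruent to `1` modulo the maximal ideal of `A` is a unit of `A` with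
residue `1`. -/
theorem exists_unit_of_sub_one_mem (ζ : Kˣ) (hζ : (ζ : K) - 1 ∈ A.nonunits) :
    ∃ ζA : (↥A)ˣ, Units.map (A.subtype : ↥A →* K) ζA = ζ ∧
      Units.map ((IsLocalRing.residue ↥A : ↥A →+* IsLocalRing.ResidueField ↥A) :
        ↥A →* IsLocalRing.ResidueField ↥A) ζA = 1 := by
  have hlt : A.valuation ((ζ : K) - 1) < 1 := (ValuationSubring.mem_nonunits_iff A).1 hζ
  have hv : A.valuation (ζ : K) = 1 := by
    have := Valuation.map_one_add_of_lt (v := A.valuation) hlt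
    rwa [add_sub_cancel] at this
  have hmem : (ζ : K) ∈ A := by rw [← A.valuation_le_one_iff, hv]
  have hinv : ((ζ⁻¹ : Kˣ) : K) ∈ A := by
    rw [← A.valuation_le_one_iff, Units.val_inv_eq_inv_val, map_inv₀, hv, inv_one]
  refine ⟨⟨⟨(ζ : K), hmem⟩, ⟨((ζ⁻¹ : Kˣ) : K), hinv⟩, Subtype.ext ζ.mul_inv,
    Subtype.ext ζ.inv_mul⟩, Units.ext rfl, Units.ext ?_⟩
  show IsLocalRing.residue ↥A ⟨(ζ : K), hmem⟩ = 1
  have h0 : IsLocalRing.residue ↥A (⟨(ζ : K), hmem⟩ - 1) = 0 := by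
    rw [IsLocalRing.residue_eq_zero_iff, ValuationSubring.valuation_lt_one_iff]
    exact hlt
  rw [map_sub, map_one, sub_eq_zero] at h0
  exact h0

/-- `T ↦ ζ T` preserves `Ocal` when `ζ ≡ 1`. -/
theorem scale_mem_Ocal (ζ : Kˣ) (hζ : (ζ : K) - 1 ∈ A.nonunits) {y : LaurentSeries K}
    (hy : y ∈ Ocal A) : scale ζ y ∈ Ocal A := by
  obtain ⟨ζA, h1, h2⟩ := exists_unit_of_sub_one_mem A ζ hζ
  obtain ⟨u, v, hv, h⟩ := hy
  refine ⟨scale ζA u, scale ζA v, ?_, ?_⟩
  · rw [coeffMap_scale, h2, scale_one]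
    exact hv
  · rw [coeffMap_scale, coeffMap_scale, h1, ← map_mul, h]

/-- `T ↦ ζ T` is the identity on reductions when `ζ ≡ 1`. -/
theorem red_scale (ζ : Kˣ) (hζ : (ζ : K) - 1 ∈ A.nonunits) {y : LaurentSeries K}
    (hy : y ∈ Ocal A) :
    red A ⟨scale ζ y, scale_mem_Ocal A ζ hζ hy⟩ = red A ⟨y, hy⟩ := by
  obtain ⟨ζA, h1, h2⟩ := exists_unit_of_sub_one_mem A ζ hζ
  obtain ⟨u, v, hv, h⟩ := (mem_Ocal_iff A y).1 hy
  have hv' : rho A (scale ζA v) ≠ 0 := by
    rw [coeffMap_scale, h2, scale_one]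
    exact hv
  have h' : scale ζ y * iota A (scale ζA v) = iota A (scale ζA u) := by
    rw [coeffMap_scale, coeffMap_scale, h1, ← map_mul, h]
  rw [red_mk_eq A y hy u v hv h, red_mk_eq A _ _ (scale ζA u) (scale ζA v) hv' h',
    coeffMap_scale, coeffMap_scale, h2, scale_one, scale_one]

end ScaleRed

/-! ## The expansions of `α x` and `β x` -/

section Emb

variable {M q : ℕ} [NeZero M] [NeZero q] {h : Nat.Coprime M q}

theorem emb_inf_alpha (F : Plan.Frame M q h) (x : FN (M * q)) :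
    F.emb .inf (heckeAlphaBar Kbar (M * q) q x) = (x : Om) := by
  rw [Plan.Frame.emb_inf, coe_heckeAlphaBar]

theorem emb_zero_alpha (F : Plan.Frame M q h) (x : FN (M * q)) :
    F.emb .zero (heckeAlphaBar Kbar (M * q) q x) =
      qExpand Kbar q ((Sigma.sigma M q h x : FN (M * q)) : Om) := by
  rw [Plan.Frame.emb_zero, F.w_alpha, coe_heckeBetaBar]

theorem emb_mid_alpha (F : Plan.Frame M q h) (ξ : Plan.MidIdx q) (x : FN (M * q)) :
    F.emb (.mid ξ) (heckeAlphaBar Kbar (M * q) q x) = (x : Om) := by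
  rw [Plan.Frame.emb_mid, F.r_alpha]

theorem emb_inf_beta (F : Plan.Frame M q h) (x : FN (M * q)) :
    F.emb .inf (heckeBetaBar Kbar (M * q) q x) = qExpand Kbar q (x : Om) := by
  rw [Plan.Frame.emb_inf, coe_heckeBetaBar]

theorem emb_zero_beta (F : Plan.Frame M q h) (x : FN (M * q)) :
    F.emb .zero (heckeBetaBar Kbar (M * q) q x) =
      ((Sigma.sigma M q h x : FN (M * q)) : Om) := by
  rw [Plan.Frame.emb_zero, F.w_beta, coe_heckeAlphaBar]

theorem emb_mid_beta (hq : q.Prime) (F : Plan.Frame M q h) (ξ : Plan.MidIdx q)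
    (x : FN (M * q)) :
    F.emb (.mid ξ) (heckeBetaBar Kbar (M * q) q x) =
      scale ξ.1 ((Sigma.sigma M q h x : FN (M * q)) : Om) := by
  rw [Plan.Frame.emb_mid, FrameInst.r_beta_sigma hq F ξ x]

end Emb

/-! ## The two pull-backs on reductions -/

section Pull

variable (A : ValuationSubring Kbar) (q : ℕ) [NeZero q]

/-- `(a, b) ↦ (a; a, …, a; b(T^q))`: the reduction of `α^*`. -/
def pullA (x : Plan.R2 A) : Plan.Rq A q
  | .inf => x.1
  | .zero => qExpand (kk A) q x.2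
  | .mid _ => x.1

/-- `(a, b) ↦ (a(T^q); b, …, b; b)`: the reduction of `β^*`. -/
def pullB (x : Plan.R2 A) : Plan.Rq A q
  | .inf => qExpand (kk A) q x.1
  | .zero => x.2
  | .mid _ => x.2

@[simp] theorem pullA_inf (x : Plan.R2 A) : pullA A q x .inf = x.1 := rfl
@[simp] theorem pullA_zero (x : Plan.R2 A) : pullA A q x .zero = qExpand (kk A) q x.2 := rfl
@[simp] theorem pullA_mid (x : Plan.R2 A) (ξ : Plan.MidIdx q) : pullA A q x (.mid ξ) = x.1 := rfl
@[simp] theorem pullB_inf (x : Plan.R2 A) : pullB A q x .inf = qExpand (kk A) q x.1 := rfl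
@[simp] theorem pullB_zero (x : Plan.R2 A) : pullB A q x .zero = x.2 := rfl
@[simp] theorem pullB_mid (x : Plan.R2 A) (ξ : Plan.MidIdx q) : pullB A q x (.mid ξ) = x.2 := rfl

variable {A q}
variable {M : ℕ} [NeZero M] {h : Nat.Coprime M q} {F : Plan.Frame M q h}
  {O : Subring Om} {ρ : O →+* Plan.Rq A q}

/-- **`α^*` on reductions.** For `g ∈ O₂` (level `q`): the same series lies in `O` (level `q²`)
and `ρ g = pullA (Red g) = (g_∞; g_∞, …, g_∞; g_0(T^q))`. -/
theorem alpha_mem (hS : Plan.IsSetup A F O ρ) (g : Val.O2 A M q (Sigma.sigma M q h)) :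
    ∃ hO : (g : Om) ∈ O,
      ρ ⟨(g : Om), hO⟩ = pullA A q (Val.Red A M q (Sigma.sigma M q h) g) := by
  obtain ⟨hf, h1, h2⟩ := Val.mem_O2.mp g.2
  set x : FN (M * q) := ⟨(g : Om), hf⟩ with hx
  set y : FN (M * q * q) := heckeAlphaBar Kbar (M * q) q x with hy
  have hcoe : (y : Om) = (g : Om) := by rw [hy, coe_heckeAlphaBar]
  have hz : qExpand Kbar q ((Sigma.sigma M q h x : FN (M * q)) : Om) ∈ Ocal A :=
    Fermat.Agent.Lib.KroneckerCong.qExpand_mem_Ocal A q h2
  have hall : ∀ i : Plan.Coord q, F.emb i y ∈ Ocal A := by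
    intro i
    cases i with
    | inf => rw [hy, emb_inf_alpha]; exact h1
    | zero => rw [hy, emb_zero_alpha]; exact hz
    | mid ξ => rw [hy, emb_mid_alpha]; exact h1
  have hyO : (y : Om) ∈ O := (hS.mem_iff y).2 hall
  have hO : (g : Om) ∈ O := hcoe ▸ hyO
  refine ⟨hO, ?_⟩
  have hρ : ρ ⟨(g : Om), hO⟩ = ρ ⟨(y : Om), hyO⟩ := rfl
  rw [hρ]
  funext i
  rw [hS.ρ_apply y hyO i (hall i)]
  cases i with
  | inf =>
    rw [pullA_inf, Val.fst_eq A M q _ g h1]
    exact red_congr A (by rw [hy, emb_inf_alpha]) _ _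
  | zero =>
    rw [pullA_zero, Val.snd_eq A M q _ g hf h2,
      ← Fermat.Agent.Lib.KroneckerCong.red_qExpand A q ⟨_, h2⟩]
    exact red_congr A (by rw [hy, emb_zero_alpha]) _ _
  | mid ξ =>
    rw [pullA_mid, Val.fst_eq A M q _ g h1]
    exact red_congr A (by rw [hy, emb_mid_alpha]) _ _

/-- **`β^*` on reductions.** For `g ∈ O₂` (level `q`): `g(T^q)` lies in `O` (level `q²`) and
`ρ (g(T^q)) = pullB (Red g) = (g_∞(T^q); g_0, …, g_0; g_0)`. -/
theorem beta_mem (hq : q.Prime) (hAq : A.LiesOverPrime q) (hS : Plan.IsSetup A F O ρ)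
    (g : Val.O2 A M q (Sigma.sigma M q h)) :
    ∃ hO : qExpand Kbar q (g : Om) ∈ O,
      ρ ⟨_, hO⟩ = pullB A q (Val.Red A M q (Sigma.sigma M q h) g) := by
  obtain ⟨hf, h1, h2⟩ := Val.mem_O2.mp g.2
  set x : FN (M * q) := ⟨(g : Om), hf⟩ with hx
  set y : FN (M * q * q) := heckeBetaBar Kbar (M * q) q x with hy
  have hcoe : (y : Om) = qExpand Kbar q (g : Om) := by rw [hy, coe_heckeBetaBar]
  have hinf : qExpand Kbar q (g : Om) ∈ Ocal A :=
    Fermat.Agent.Lib.KroneckerCong.qExpand_mem_Ocal A q h1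
  have hξ : ∀ ξ : Plan.MidIdx q, ((ξ.1 : Kbarˣ) : Kbar) - 1 ∈ A.nonunits := by
    intro ξ
    rw [ValuationSubring.mem_nonunits_iff]
    exact InertiaFieldZeta.val_zeta_sub_one_lt_one A q hq hAq _
      (IsPrimitiveRoot.coe_units_iff.2 ξ.2)
  have hmid : ∀ ξ : Plan.MidIdx q,
      scale ξ.1 ((Sigma.sigma M q h x : FN (M * q)) : Om) ∈ Ocal A :=
    fun ξ => scale_mem_Ocal A ξ.1 (hξ ξ) h2
  have hall : ∀ i : Plan.Coord q, F.emb i y ∈ Ocal A := by
    intro i
    cases i with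
    | inf => rw [hy, emb_inf_beta]; exact hinf
    | zero => rw [hy, emb_zero_beta]; exact h2
    | mid ξ => rw [hy, emb_mid_beta hq]; exact hmid ξ
  have hyO : (y : Om) ∈ O := (hS.mem_iff y).2 hall
  have hO : qExpand Kbar q (g : Om) ∈ O := hcoe ▸ hyO
  refine ⟨hO, ?_⟩
  have hρ : ρ ⟨_, hO⟩ = ρ ⟨(y : Om), hyO⟩ := rfl
  rw [hρ]
  funext i
  rw [hS.ρ_apply y hyO i (hall i)]
  cases i with
  | inf =>
    rw [pullB_inf, Val.fst_eq A M q _ g h1,
      ← Fermat.Agent.Lib.KroneckerCong.red_qExpand A q ⟨_, h1⟩]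
    exact red_congr A (by rw [hy, emb_inf_beta]) _ _
  | zero =>
    rw [pullB_zero, Val.snd_eq A M q _ g hf h2]
    exact red_congr A (by rw [hy, emb_zero_beta]) _ _
  | mid ξ =>
    rw [pullB_mid, Val.snd_eq A M q _ g hf h2, ← red_scale A ξ.1 (hξ ξ) h2]
    exact red_congr A (by rw [hy, emb_mid_beta hq]) _ _

end Pull

end Fermat.Agent.S36.PullRed
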