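import Mathlib
import Fermat.Agent.S36.PullRed
import Fermat.Agent.S36.K0Red
import Fermat.Agent.S36.MidEq
import Fermat.Agent.S36.DiagCond
import Fermat.Agent.S34.NodeAlg

/-!
# P8 / S36 — [LEVEL-RED]: the level-`M` table at level `q²`, and the conductor (helper70)

Coordinates are written `(∞; mid ξ; 0)`.  `f ∈ F_M ∩ Ocal`, `t = red f`, `Fr = (T ↦ T^q)`.

* `rho_alpha2`     : `f ∈ O` and `ρ f = (t; t; Fr (Fr t))`;
* `rho_alpha_beta` : `f(T^q) ∈ O` and `ρ = (Fr t; Fr t; Fr t)`;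
* `rho_beta2`      : `f(T^{q²}) ∈ O` and `ρ = (Fr (Fr t); t; t)`;
* `fixed_qExpand`, `rho_mid_eq_of_fixed` : bookkeeping for the functions fixed by the inertia
  group (`K0Red.Fixed`): `T ↦ T^q` preserves them, and their middle reductions coincide;
* `conductor_of_oneComp` : from three one-component elements `z₁, z₂, z₃` of `O`, every triple
  `(ρ(z₁)_∞ t₁; ρ(z₂)_mid t₂; ρ(z₃)_0 t₃)` with `tᵢ` reductions of level-`M` functions is the
  reduction of the explicit element `z₁ f₁ + z₂ f₂ + z₃ f₃(T^{q²})`;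
* `conductor_of_isNode`  : the conductor supported on the nodes of level `q`, in the abstract
  vocabulary `(k, B, R, Z, θ)` of `S34/NodeAlg`.
-/

set_option autoImplicit false
set_option maxHeartbeats 400000
set_option synthInstance.maxHeartbeats 400000

noncomputable section

namespace Fermat.Agent.S36.LevelRed

open ModularCurve AlgebraicCurve Fermat.Agent.S24 Fermat.Agent.S18 Fermat.Agent.S18.Content
  Fermat.Agent.S18.Plan Fermat.Agent.S34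

section Table

variable {A : ValuationSubring Kbar} {M q : ℕ} [NeZero M] [NeZero q] {h : Nat.Coprime M q}
  {F : Plan.Frame M q h} {O : Subring Om} {ρ : O →+* Plan.Rq A q}

/-- The Atkin–Lehner involution of `F_{Mq}` satisfies the hypotheses `Val.IsAL`. -/
theorem isAL (hq : q.Prime) (h : Nat.Coprime M q) : Val.IsAL M q (Sigma.sigma M q h) :=
  ⟨Sigma.sigma_alpha h, Sigma.sigma_beta h, Sigma.sigma_sigma h hq⟩

/-- **`α^* α^*`**: a function of level `M` with integral expansion lies in `O`, with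
`ρ f = (t; t, …, t; t(T^{q²}))`. -/
theorem rho_alpha2 (hq : q.Prime) (hS : Plan.IsSetup A F O ρ) {f : Om}
    (hM : f ∈ modularFunctionFieldBar M) (hO : f ∈ Ocal A) :
    ∃ hf : f ∈ O, ρ ⟨f, hf⟩ =
      PullRed.pullA A q (red A ⟨f, hO⟩, qExpand (kk A) q (red A ⟨f, hO⟩)) := by
  obtain ⟨hh, e⟩ := (isAL hq h).Red_level A hM hO
  obtain ⟨hf, e2⟩ := PullRed.alpha_mem hS ⟨f, hh⟩
  exact ⟨hf, by rw [e2, e]⟩

/-- **`β^* α^*`**: `f(T^q) ∈ O`, with `ρ = (t(T^q); t(T^q), …; t(T^q))`. -/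
theorem rho_alpha_beta (hq : q.Prime) (hAq : A.LiesOverPrime q) (hS : Plan.IsSetup A F O ρ)
    {f : Om} (hM : f ∈ modularFunctionFieldBar M) (hO : f ∈ Ocal A) :
    ∃ hf : qExpand Kbar q f ∈ O, ρ ⟨_, hf⟩ =
      PullRed.pullB A q (red A ⟨f, hO⟩, qExpand (kk A) q (red A ⟨f, hO⟩)) := by
  obtain ⟨hh, e⟩ := (isAL hq h).Red_level A hM hO
  obtain ⟨hf, e2⟩ := PullRed.beta_mem hq hAq hS ⟨f, hh⟩
  exact ⟨hf, by rw [e2, e]⟩

/-- **`β^* β^*`**: `f(T^{q²}) ∈ O`, with `ρ = (t(T^{q²}); t, …, t; t)`. -/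
theorem rho_beta2 (hq : q.Prime) (hAq : A.LiesOverPrime q) (hS : Plan.IsSetup A F O ρ)
    {f : Om} (hM : f ∈ modularFunctionFieldBar M) (hO : f ∈ Ocal A) :
    ∃ hf : qExpand Kbar q (qExpand Kbar q f) ∈ O, ρ ⟨_, hf⟩ =
      PullRed.pullB A q (qExpand (kk A) q (red A ⟨f, hO⟩), red A ⟨f, hO⟩) := by
  obtain ⟨hh, e⟩ := (isAL hq h).Red_level_beta A hM hO
  obtain ⟨hf, e2⟩ := PullRed.beta_mem hq hAq hS ⟨_, hh⟩
  exact ⟨hf, by rw [e2, e]⟩

/-- `T ↦ T^q` preserves the series fixed by the inertia group. -/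
theorem fixed_qExpand {x : Om} (hx : K0Red.Fixed A x) : K0Red.Fixed A (qExpand Kbar q x) := by
  intro τ hτ
  rw [coeffMap_qExpand, hx τ hτ]

/-- **The middle reductions of a function fixed by inertia coincide** (`MidEq.red_mid_eq` in the
vocabulary of `Plan`). -/
theorem rho_mid_eq_of_fixed (hq : q.Prime) (hAq : A.LiesOverPrime q)
    (hS : Plan.IsSetup A F O ρ) (g : O) (hg : K0Red.Fixed A (g : Om)) (ξ ξ' : Plan.MidIdx q) :
    ρ g (.mid ξ) = ρ g (.mid ξ') := by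
  set x : FN (M * q * q) := ⟨(g : Om), hS.mem_field g⟩ with hx
  have hxO : (x : Om) ∈ O := g.2
  have hmem := (hS.mem_iff x).1 hxO
  have e1 := hS.ρ_apply x hxO (.mid ξ) (hmem _)
  have e2 := hS.ρ_apply x hxO (.mid ξ') (hmem _)
  have hfix : ∀ τ ∈ A.inertiaSubgroupIn ℚ,
      arithmeticRingAut (modularFunctionFieldFull (M * q * q)) τ x = x := by
    intro τ hτ
    apply Subtype.ext
    rw [coe_arithmeticRingAut_apply]
    exact hg τ hτ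
  obtain ⟨h', e⟩ := MidEq.red_mid_eq A hq hAq ξ.2 ξ'.2 (FrameInst.isMid F ξ)
    (FrameInst.isMid F ξ') x hfix (hmem (.mid ξ))
  have hgx : (⟨(x : Om), hxO⟩ : O) = g := Subtype.ext rfl
  rw [hgx] at e1 e2
  rw [e1, e2]
  exact e.symm

/-- **The explicit coarse conductor.** `z₁, z₂, z₃ ∈ O` one-component elements (supported on the
coordinate `∞`, on the middle coordinates, on the coordinate `0`), `f₁, f₂, f₃` integral functions
of level `M`: the element `z₁ f₁ + z₂ f₂ + z₃ f₃(T^{q²})` of `O` has reduction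
`(ρ(z₁)_∞ · red f₁; ρ(z₂)_ξ · red f₂; ρ(z₃)_0 · red f₃)`. -/
theorem conductor_of_oneComp (hq : q.Prime) (hAq : A.LiesOverPrime q)
    (hS : Plan.IsSetup A F O ρ) (z₁ z₂ z₃ : O)
    (h₁ : ρ z₁ .zero = 0 ∧ ∀ ξ, ρ z₁ (.mid ξ) = 0)
    (h₂ : ρ z₂ .inf = 0 ∧ ρ z₂ .zero = 0)
    (h₃ : ρ z₃ .inf = 0 ∧ ∀ ξ, ρ z₃ (.mid ξ) = 0)
    {f₁ f₂ f₃ : Om} (hM₁ : f₁ ∈ modularFunctionFieldBar M)
    (hM₂ : f₂ ∈ modularFunctionFieldBar M) (hM₃ : f₃ ∈ modularFunctionFieldBar M)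
    (hO₁ : f₁ ∈ Ocal A) (hO₂ : f₂ ∈ Ocal A) (hO₃ : f₃ ∈ Ocal A) :
    ∃ hg : (z₁ : Om) * f₁ + (z₂ : Om) * f₂ + (z₃ : Om) * qExpand Kbar q (qExpand Kbar q f₃) ∈ O,
      ρ ⟨_, hg⟩ .inf = ρ z₁ .inf * red A ⟨f₁, hO₁⟩ ∧
      (∀ ξ, ρ ⟨_, hg⟩ (.mid ξ) = ρ z₂ (.mid ξ) * red A ⟨f₂, hO₂⟩) ∧
      ρ ⟨_, hg⟩ .zero = ρ z₃ .zero * red A ⟨f₃, hO₃⟩ := by
  obtain ⟨hf₁, e₁⟩ := rho_alpha2 hq hS hM₁ hO₁
  obtain ⟨hf₂, e₂⟩ := rho_alpha2 hq hS hM₂ hO₂
  obtain ⟨hf₃, e₃⟩ := rho_beta2 hq hAq hS hM₃ hO₃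
  have hg : (z₁ : Om) * f₁ + (z₂ : Om) * f₂ + (z₃ : Om) * qExpand Kbar q (qExpand Kbar q f₃) ∈ O :=
    O.add_mem (O.add_mem (O.mul_mem z₁.2 hf₁) (O.mul_mem z₂.2 hf₂)) (O.mul_mem z₃.2 hf₃)
  have key : (⟨_, hg⟩ : O) = z₁ * ⟨f₁, hf₁⟩ + z₂ * ⟨f₂, hf₂⟩ + z₃ * ⟨_, hf₃⟩ := Subtype.ext rfl
  refine ⟨hg, ?_, ?_, ?_⟩
  · rw [key, map_add, map_add, map_mul, map_mul, map_mul, e₁, e₂, e₃]
    simp only [Pi.add_apply, Pi.mul_apply, PullRed.pullA_inf, PullRed.pullB_inf, h₂.1, h₃.1,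
      zero_mul, add_zero]
  · intro ξ
    rw [key, map_add, map_add, map_mul, map_mul, map_mul, e₁, e₂, e₃]
    simp only [Pi.add_apply, Pi.mul_apply, PullRed.pullA_mid, PullRed.pullB_mid, h₁.2 ξ, h₃.2 ξ,
      zero_mul, add_zero, zero_add]
  · rw [key, map_add, map_add, map_mul, map_mul, map_mul, e₁, e₂, e₃]
    simp only [Pi.add_apply, Pi.mul_apply, PullRed.pullA_zero, PullRed.pullB_zero, h₁.1, h₂.2,
      zero_mul, zero_add]

/-- The witness of `conductor_of_oneComp` is fixed by inertia as soon as its six ingredients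
are. -/
theorem fixed_witness {z₁ z₂ z₃ f₁ f₂ f₃ : Om} (hz₁ : K0Red.Fixed A z₁) (hz₂ : K0Red.Fixed A z₂)
    (hz₃ : K0Red.Fixed A z₃) (hf₁ : K0Red.Fixed A f₁) (hf₂ : K0Red.Fixed A f₂)
    (hf₃ : K0Red.Fixed A f₃) :
    K0Red.Fixed A (z₁ * f₁ + z₂ * f₂ + z₃ * qExpand Kbar q (qExpand Kbar q f₃)) :=
  ((hz₁.mul hf₁).add (hz₂.mul hf₂)).add (hz₃.mul (fixed_qExpand (fixed_qExpand hf₃)))

end Table

section Node

variable {k B : Type*} [Field k] [CommRing B] [Algebra k B]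

/-- **The conductor supported on the nodes.** `R ⊆ B × B` a node ring along `(Z, θ)` (level `q`),
`Bb ⊆ B × B × B` (level `q²`, coordinates `(∞; mid; 0)`) containing the two pull-backs
`(x, y) ↦ (x; x; Fr y)` and `(x, y) ↦ (Fr x; y; y)` of `R`.  If `a` vanishes on `Z` and `b` on
`θ Z`, then `(a · Fr a; a · b; Fr b · b) · (B × B × B) ⊆ Bb`. -/
theorem conductor_of_isNode {R : Subalgebra k (B × B)} {Z : Finset (B →ₐ[k] k)}
    {θ : (B →ₐ[k] k) → (B →ₐ[k] k)} (hR : NodeAlg.IsNode R Z θ)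
    (Bb : Subalgebra k (B × B × B)) (Fr : B →+* B)
    (hα : ∀ x y, (x, y) ∈ R → ((x, x, Fr y) : B × B × B) ∈ Bb)
    (hβ : ∀ x y, (x, y) ∈ R → ((Fr x, y, y) : B × B × B) ∈ Bb)
    (a b : B) (ha : ∀ z ∈ Z, z a = 0) (hb : ∀ z ∈ Z, θ z b = 0) :
    ∀ t : B × B × B, ((a * Fr a, a * b, Fr b * b) : B × B × B) * t ∈ Bb := by
  refine DiagCond.conductor_mul_mem Bb (R : Set (B × B)) Fr hα hβ a b ?_ ?_ ?_ ?_
  · exact (hR.fst_zero_mem_iff a).2 ha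
  · exact (hR.zero_snd_mem_iff b).2 hb
  · intro t
    obtain ⟨y, hy⟩ := NodeAlg.exists_interp_comp Z θ hR.injOn (fun z => z t)
    exact ⟨y, (hR.mem_iff t y).2 fun z hz => (hy z hz).symm⟩
  · intro t
    obtain ⟨y, hy⟩ := NodeAlg.exists_interp Z (fun z => θ z t)
    exact ⟨y, (hR.mem_iff y t).2 fun z hz => hy z hz⟩

/-- One-component elements at a point off the nodes: if `z₀ a ≠ 0` and `z₀ (Fr a) ≠ 0` for some
`a` vanishing on `Z`, then for every `t` the element `(a · Fr a · t; 0; 0)` lies in `Bb`. -/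
theorem fst_mem_of_isNode {R : Subalgebra k (B × B)} {Z : Finset (B →ₐ[k] k)}
    {θ : (B →ₐ[k] k) → (B →ₐ[k] k)} (hR : NodeAlg.IsNode R Z θ)
    (Bb : Subalgebra k (B × B × B)) (Fr : B →+* B)
    (hα : ∀ x y, (x, y) ∈ R → ((x, x, Fr y) : B × B × B) ∈ Bb)
    (hβ : ∀ x y, (x, y) ∈ R → ((Fr x, y, y) : B × B × B) ∈ Bb)
    (a : B) (ha : ∀ z ∈ Z, z a = 0) (t : B) :
    ((a * Fr a * t, 0, 0) : B × B × B) ∈ Bb := by
  have h := conductor_of_isNode hR Bb Fr hα hβ a 0 ha (fun z _ => map_zero _) (t, 0, 0)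
  simpa using h

/-- The same on the middle component: `(0; a · b · t; 0) ∈ Bb`. -/
theorem mid_mem_of_isNode {R : Subalgebra k (B × B)} {Z : Finset (B →ₐ[k] k)}
    {θ : (B →ₐ[k] k) → (B →ₐ[k] k)} (hR : NodeAlg.IsNode R Z θ)
    (Bb : Subalgebra k (B × B × B)) (Fr : B →+* B)
    (hα : ∀ x y, (x, y) ∈ R → ((x, x, Fr y) : B × B × B) ∈ Bb)
    (hβ : ∀ x y, (x, y) ∈ R → ((Fr x, y, y) : B × B × B) ∈ Bb)
    (a b : B) (ha : ∀ z ∈ Z, z a = 0) (hb : ∀ z ∈ Z, θ z b = 0) (t : B) :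
    ((0, a * b * t, 0) : B × B × B) ∈ Bb := by
  have h := conductor_of_isNode hR Bb Fr hα hβ a b ha hb (0, t, 0)
  simpa using h

/-- The same on the component `0`: `(0; 0; Fr b · b · t) ∈ Bb`. -/
theorem snd_mem_of_isNode {R : Subalgebra k (B × B)} {Z : Finset (B →ₐ[k] k)}
    {θ : (B →ₐ[k] k) → (B →ₐ[k] k)} (hR : NodeAlg.IsNode R Z θ)
    (Bb : Subalgebra k (B × B × B)) (Fr : B →+* B)
    (hα : ∀ x y, (x, y) ∈ R → ((x, x, Fr y) : B × B × B) ∈ Bb)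
    (hβ : ∀ x y, (x, y) ∈ R → ((Fr x, y, y) : B × B × B) ∈ Bb)
    (b : B) (hb : ∀ z ∈ Z, θ z b = 0) (t : B) :
    ((0, 0, Fr b * b * t) : B × B × B) ∈ Bb := by
  have h := conductor_of_isNode hR Bb Fr hα hβ 0 b (fun z _ => map_zero _) hb (0, 0, t)
  simpa using h

end Node

end Fermat.Agent.S36.LevelRed

end
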