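import Mathlib
import Fermat.Agent.S36.K0Plan
import Fermat.Agent.S36.LevelRed
import Fermat.Agent.S34.BKPlan
import Fermat.Agent.S34.NodeAlg
import Fermat.Agent.S34.NodeInst

/-!
# P8 / S36 — [MID-EQ] and [COND-K'] in the vocabulary of `S36/K0Plan` (helper70)

* `midEqStmt`   : `K0Plan.MidEqStmt` (all middle reductions of a function fixed by inertia
                  coincide), from `Plan.IsSetup`;
* `OneCompK0`   : three one-component elements `ε₁, ε₂, ε₃` of `B'` with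
                  `ρ₃(ε₁) = (a₁, 0, 0)`, `ρ₃(ε₂) = (0, a₂, 0)`, `ρ₃(ε₃) = (0, 0, a₃)`, `aᵢ ≠ 0`;
* `condStmt_of` : `K0Plan.CondStmt` from `OneCompK0`, `K0Plan.SurjStmt`, `K0Plan.ConstStmt`
                  and `E ≥ 0`.

Proof of `condStmt_of`: `J = (a₁, a₂, a₃) · B_κ³ ⊆ A₃` (`εᵢ · b`, `b` from [K0-SURJ]); `B_κ` is a
Dedekind domain with residue fields `k`, so each `aᵢ` has finitely many zeros and a power `n` of
every function vanishing at all of them is divisible by `aᵢ`.  For a point `P` let `s ∈ A₃` be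
the product of elements `t_Q - t_Q(Q)` (`t_Q ∈ A₃` separating `Q` from `P`) over the zeros `Q`
NOT glued to `P`; then `t_d = sⁿ` and `N = n` work: `s (y - 1)` vanishes at all zeros.

The abstract core `cond_abs` and the Dedekind lemma `exists_points_pow_mem` are Mathlib-only.
-/

set_option autoImplicit false
set_option maxHeartbeats 400000
set_option synthInstance.maxHeartbeats 400000
set_option linter.unusedSectionVars false

noncomputable section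

namespace Fermat.Agent.S36.CondK0

open Fermat.Agent.S34

/-! ## The abstract core -/

section Abs

variable {k B : Type*} [Field k] [CommRing B]

/-- **The localized conductor statement, abstractly.**  `A ⊆ B` a subring containing "constants"
`cst c` (with `Q (cst c) = c` at every point `Q`), `J ⊆ A` an ideal of `B`, `S` a finite set of
points and `n` with `xⁿ ∈ J` for every `x` vanishing on `S`.  Then at every point `P` there is
`t_d ∈ A`, `t_d(P) ≠ 0`, with `t_d (y - 1)ⁿ B ⊆ A` for all `y` equal to `1` at the points not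
separated from `P` by `A`. -/
theorem cond_abs (Pt : (B →+* k) → Prop) (A : Subring B) (cst : k → B)
    (hcstA : ∀ c, cst c ∈ A) (hcst : ∀ Q, Pt Q → ∀ c, Q (cst c) = c)
    (J : Ideal B) (hJA : ∀ x ∈ J, x ∈ A)
    (S : Finset (B →+* k)) (hS : ∀ Q ∈ S, Pt Q) (n : ℕ)
    (hn : ∀ x : B, (∀ Q ∈ S, Q x = 0) → x ^ n ∈ J)
    (P : B →+* k) (hP : Pt P) :
    ∃ td ∈ A, P td ≠ 0 ∧ ∃ N : ℕ, ∀ y : B,
      (∀ Q : B →+* k, Pt Q → (∀ t ∈ A, Q t = P t) → Q y = 1) →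
        ∀ t : B, td * (y - 1) ^ N * t ∈ A := by
  classical
  -- separating elements
  have hsel : ∀ Q : B →+* k, ∃ s ∈ A, P s ≠ 0 ∧
      (Q ∈ S → ¬ (∀ t ∈ A, Q t = P t) → Q s = 0) := by
    intro Q
    by_cases hQ : Q ∈ S ∧ ¬ (∀ t ∈ A, Q t = P t)
    · obtain ⟨hQS, hng⟩ := hQ
      push Not at hng
      obtain ⟨t, htA, hne⟩ := hng
      refine ⟨t - cst (Q t), A.sub_mem htA (hcstA _), ?_, fun _ _ => ?_⟩
      · rw [map_sub, hcst P hP, sub_ne_zero]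
        exact fun h => hne h.symm
      · rw [map_sub, hcst Q (hS Q hQS), sub_self]
    · refine ⟨1, A.one_mem, ?_, fun h1 h2 => absurd ⟨h1, h2⟩ hQ⟩
      rw [map_one]
      exact one_ne_zero
  choose sel hselA hselP hselQ using hsel
  set s : B := ∏ Q ∈ S, sel Q with hs
  have hsA : s ∈ A := A.prod_mem fun Q _ => hselA Q
  have hsP : P s ≠ 0 := by
    rw [hs, map_prod]
    exact Finset.prod_ne_zero_iff.2 fun Q _ => hselP Q
  refine ⟨s ^ n, A.pow_mem hsA n, ?_, n, fun y hy t => ?_⟩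
  · rw [map_pow]
    exact pow_ne_zero _ hsP
  · have hx : (s * (y - 1)) ^ n ∈ J := by
      apply hn
      intro Q hQ
      rw [map_mul]
      by_cases hg : ∀ t ∈ A, Q t = P t
      · rw [map_sub, map_one, hy Q (hS Q hQ) hg, sub_self, mul_zero]
      · have : Q s = 0 := by
          rw [hs, map_prod]
          exact Finset.prod_eq_zero hQ (hselQ Q hQ hg)
        rw [this, zero_mul]
    rw [← mul_pow]
    exact hJA _ (J.mul_mem_right t hx)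

end Abs

section Dedekind

variable {k R : Type*} [Field k] [CommRing R] [IsDedekindDomain R] [Algebra k R]

/-- In a Dedekind domain whose residue fields are `k`: a nonzero element `F` has finitely many
zeros, and a power of every function vanishing at all of them is divisible by `F`. -/
theorem exists_points_pow_mem
    (hres : ∀ 𝔪 : Ideal R, 𝔪.IsMaximal → Function.Surjective (algebraMap k (R ⧸ 𝔪)))
    (F : R) (hF : F ≠ 0) :
    ∃ (S : Finset (R →ₐ[k] k)) (n : ℕ), ∀ x : R, (∀ z ∈ S, z x = 0) → ∃ u : R, x ^ n = F * u := by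
  set I : Ideal R := Ideal.span {F} with hI
  have hFI : F ∈ I := Ideal.subset_span rfl
  have hrad0 : I.radical ≠ ⊥ := by
    intro h0
    have : F ∈ I.radical := Ideal.le_radical hFI
    rw [h0, Ideal.mem_bot] at this
    exact hF this
  obtain ⟨Z, hZ⟩ := NodeAlg.exists_points_of_dedekind hres I.radical hrad0
    (Ideal.radical_isRadical I)
  obtain ⟨n, hn⟩ := Ideal.exists_radical_pow_le_of_fg I (IsNoetherian.noetherian _)
  refine ⟨Z, n, fun x hx => ?_⟩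
  have h1 : x ∈ I.radical := (hZ x).2 hx
  have h2 : x ^ n ∈ I := hn (Ideal.pow_mem_pow h1 n)
  rw [hI, Ideal.mem_span_singleton'] at h2
  obtain ⟨u, hu⟩ := h2
  exact ⟨u, by rw [← hu, mul_comm]⟩

end Dedekind

/-! ## The `K'`-frame -/

section Concrete

open ModularCurve AlgebraicCurve Fermat.Agent.S24 Fermat.Agent.S18 Fermat.Agent.S18.Content
  Fermat.Agent.S18.Plan Fermat.Agent.S36.Plan Fermat.Agent.S36.K0Plan

variable {A : ValuationSubring Kbar} {N' M q : ℕ} [NeZero N'] [NeZero M] [NeZero q]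
  {O : Subring Om} {ρ : O →+* Rq A q}

/-- **[MID-EQ]** `K0Plan.MidEqStmt`: the middle reductions of a function fixed by inertia
coincide. -/
theorem midEqStmt {h : Nat.Coprime M q} {F : Plan.Frame M q h} (hq : q.Prime)
    (hAq : A.LiesOverPrime q) (hS : Plan.IsSetup A F O ρ) : K0Plan.MidEqStmt A q O ρ :=
  fun g hg ξ ξ' => LevelRed.rho_mid_eq_of_fixed hq hAq hS g hg ξ ξ'

/-! ### Components of `ρ₃` and `ι₃` -/

@[simp] theorem rho3_fst (ξ₀ : MidIdx q) (g : O) : (rho3 A q O ρ ξ₀ g).1 = ρ g Coord.inf := rfl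

@[simp] theorem rho3_snd_fst (ξ₀ : MidIdx q) (g : O) :
    (rho3 A q O ρ ξ₀ g).2.1 = ρ g (Coord.mid ξ₀) := rfl

@[simp] theorem rho3_snd_snd (ξ₀ : MidIdx q) (g : O) :
    (rho3 A q O ρ ξ₀ g).2.2 = ρ g Coord.zero := rfl

@[simp] theorem iota3_fst (t : BK3 A M) : (iota3 A M t).1 = (t.1 : Omk A) := rfl

@[simp] theorem iota3_snd_fst (t : BK3 A M) : (iota3 A M t).2.1 = (t.2.1 : Omk A) := rfl

@[simp] theorem iota3_snd_snd (t : BK3 A M) : (iota3 A M t).2.2 = (t.2.2 : Omk A) := rfl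

/-! ### `B'` is a ring -/

theorem pullRR_zero_add_le {E : Divisor Kbar (FN (N' * q))} (hE0 : ∀ P, 0 ≤ E P) {c c' : ℕ}
    (hc : c ≤ c') :
    pullRR (N' * q) (M * q * q) (0 + c • E) ≤ pullRR (N' * q) (M * q * q) (0 + c' • E) := by
  apply Main.pullRR_mono
  intro P
  rw [zero_add, zero_add, Finsupp.smul_apply, Finsupp.smul_apply, nsmul_eq_mul, nsmul_eq_mul]
  exact mul_le_mul_of_nonneg_right (by exact_mod_cast hc) (hE0 P)

theorem zero_mem_Bp (E : Divisor Kbar (FN (N' * q))) : (0 : O) ∈ Bp A N' M q O E :=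
  ⟨fun _ _ => map_zero _, 0, Submodule.zero_mem _⟩

theorem one_mem_Bp {E : Divisor Kbar (FN (N' * q))} : (1 : O) ∈ Bp A N' M q O E := by
  refine ⟨fun _ _ => map_one _, 0, ?_⟩
  apply Main.one_mem_pullRR
  intro P
  rw [zero_add, zero_smul]
  exact le_rfl

theorem add_mem_Bp {E : Divisor Kbar (FN (N' * q))} (hE0 : ∀ P, 0 ≤ E P) {b b' : O}
    (hb : b ∈ Bp A N' M q O E) (hb' : b' ∈ Bp A N' M q O E) : b + b' ∈ Bp A N' M q O E := by
  obtain ⟨hf, c, hc⟩ := hb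
  obtain ⟨hf', c', hc'⟩ := hb'
  refine ⟨fun τ hτ => ?_, c + c', ?_⟩
  · show coeffMap (τ : Kbar →+* Kbar) ((b : Om) + (b' : Om)) = (b : Om) + (b' : Om)
    rw [map_add, hf τ hτ, hf' τ hτ]
  · exact Submodule.add_mem _ (pullRR_zero_add_le hE0 (Nat.le_add_right c c') hc)
      (pullRR_zero_add_le hE0 (Nat.le_add_left c' c) hc')

theorem neg_mem_Bp {E : Divisor Kbar (FN (N' * q))} {b : O} (hb : b ∈ Bp A N' M q O E) :
    -b ∈ Bp A N' M q O E := by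
  obtain ⟨hf, c, hc⟩ := hb
  refine ⟨fun τ hτ => ?_, c, Submodule.neg_mem _ hc⟩
  show coeffMap (τ : Kbar →+* Kbar) (-(b : Om)) = -(b : Om)
  rw [map_neg, hf τ hτ]

theorem mul_mem_Bp {E : Divisor Kbar (FN (N' * q))} {b b' : O}
    (hb : b ∈ Bp A N' M q O E) (hb' : b' ∈ Bp A N' M q O E) : b * b' ∈ Bp A N' M q O E := by
  obtain ⟨hf, c, hc⟩ := hb
  obtain ⟨hf', c', hc'⟩ := hb'
  refine ⟨fun τ hτ => ?_, c + c', ?_⟩
  · show coeffMap (τ : Kbar →+* Kbar) ((b : Om) * (b' : Om)) = (b : Om) * (b' : Om)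
    rw [map_mul, hf τ hτ, hf' τ hτ]
  · have h := NodeInst.mul_mem_pullRR_add hc hc'
    have e : (0 + c • E) + (0 + c' • E) = 0 + (c + c') • E := by
      rw [zero_add, zero_add, zero_add, add_smul]
    rw [e] at h
    exact h

/-- **`A₃` is a subring of `B_κ³`.** -/
def A3sub (E : Divisor Kbar (FN (N' * q))) (ξ₀ : MidIdx q) (hE0 : ∀ P, 0 ≤ E P) :
    Subring (BK3 A M) where
  carrier := A3 A N' M q O ρ E ξ₀
  mul_mem' := by
    rintro t t' ⟨b, hb, e⟩ ⟨b', hb', e'⟩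
    exact ⟨b * b', mul_mem_Bp hb hb', by rw [map_mul, map_mul, e, e']⟩
  one_mem' := ⟨1, one_mem_Bp, by rw [map_one, map_one]⟩
  add_mem' := by
    rintro t t' ⟨b, hb, e⟩ ⟨b', hb', e'⟩
    exact ⟨b + b', add_mem_Bp hE0 hb hb', by rw [map_add, map_add, e, e']⟩
  zero_mem' := ⟨0, zero_mem_Bp E, by rw [map_zero, map_zero]⟩
  neg_mem' := by
    rintro t ⟨b, hb, e⟩
    exact ⟨-b, neg_mem_Bp hb, by rw [map_neg, map_neg, e]⟩

theorem mem_A3sub {E : Divisor Kbar (FN (N' * q))} {ξ₀ : MidIdx q} {hE0 : ∀ P, 0 ≤ E P}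
    {t : BK3 A M} : t ∈ A3sub (O := O) (ρ := ρ) E ξ₀ hE0 ↔ t ∈ A3 A N' M q O ρ E ξ₀ := Iff.rfl

/-! ### Constants -/

/-- The constant triple `(κ, κ, κ)` of `B_κ³`. -/
def cst (A : ValuationSubring Kbar) (M : ℕ) (κ : kk A) : BK3 A M :=
  (algebraMap (kk A) ↥(BKM A M) κ, algebraMap (kk A) ↥(BKM A M) κ,
    algebraMap (kk A) ↥(BKM A M) κ)

theorem coe_algebraMap_BKM (κ : kk A) :
    ((algebraMap (kk A) ↥(BKM A M) κ : ↥(BKM A M)) : Omk A) = HahnSeries.C κ := by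
  rw [Subalgebra.coe_algebraMap, algebraMap_LS_eq_C]

theorem pt_cst {P : BK3 A M →+* kk A} (hP : IsPt A M P) (κ : kk A) : P (cst A M κ) = κ := by
  obtain ⟨z, rfl | rfl | rfl⟩ := hP
  · show z (algebraMap (kk A) ↥(BKM A M) κ) = κ
    exact z.commutes κ
  · show z (algebraMap (kk A) ↥(BKM A M) κ) = κ
    exact z.commutes κ
  · show z (algebraMap (kk A) ↥(BKM A M) κ) = κ
    exact z.commutes κ

theorem cst_mem_A3 {E : Divisor Kbar (FN (N' * q))} (ξ₀ : MidIdx q)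
    (hConst : ConstStmt A q O ρ) (κ : kk A) : cst A M κ ∈ A3 A N' M q O ρ E ξ₀ := by
  obtain ⟨a, h, hfix, hρ⟩ := hConst κ
  refine ⟨⟨_, h⟩, ⟨hfix, 0, ?_⟩, ?_⟩
  · have h1 : (1 : Om) ∈ pullRR (N' * q) (M * q * q) (0 + 0 • E) := by
      apply Main.one_mem_pullRR
      intro P
      rw [zero_add, zero_smul]
      exact le_rfl
    have h2 := Main.C_mul_mem_pullRR a h1
    rwa [mul_one] at h2
  · refine Prod.ext ?_ (Prod.ext ?_ ?_)
    · rw [rho3_fst, iota3_fst, hρ]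
      exact (coe_algebraMap_BKM κ).symm
    · rw [rho3_snd_fst, iota3_snd_fst, hρ]
      exact (coe_algebraMap_BKM κ).symm
    · rw [rho3_snd_snd, iota3_snd_snd, hρ]
      exact (coe_algebraMap_BKM κ).symm

/-! ### The conductor -/

variable (A N' M q O ρ) in
/-- **One-component elements of `B'`**: `ρ₃(ε₁) = (a₁, 0, 0)`, `ρ₃(ε₂) = (0, a₂, 0)`,
`ρ₃(ε₃) = (0, 0, a₃)` with `aᵢ ≠ 0` in `B_κ`. -/
def OneCompK0 (E : Divisor Kbar (FN (N' * q))) (ξ₀ : MidIdx q) : Prop :=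
  ∃ (ε₁ ε₂ ε₃ : O) (a₁ a₂ a₃ : ↥(BKM A M)),
    ε₁ ∈ Bp A N' M q O E ∧ ε₂ ∈ Bp A N' M q O E ∧ ε₃ ∈ Bp A N' M q O E ∧
    a₁ ≠ 0 ∧ a₂ ≠ 0 ∧ a₃ ≠ 0 ∧
    rho3 A q O ρ ξ₀ ε₁ = iota3 A M (a₁, 0, 0) ∧
    rho3 A q O ρ ξ₀ ε₂ = iota3 A M (0, a₂, 0) ∧
    rho3 A q O ρ ξ₀ ε₃ = iota3 A M (0, 0, a₃)

/-- `(a₁, a₂, a₃) · B_κ³ ⊆ A₃`. -/
theorem mul_mem_A3 {E : Divisor Kbar (FN (N' * q))} {ξ₀ : MidIdx q} (hE0 : ∀ P, 0 ≤ E P)
    (hSurj : SurjStmt A N' M q O ρ ξ₀ E) {ε₁ ε₂ ε₃ : O} {a₁ a₂ a₃ : ↥(BKM A M)}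
    (hε₁ : ε₁ ∈ Bp A N' M q O E) (hε₂ : ε₂ ∈ Bp A N' M q O E) (hε₃ : ε₃ ∈ Bp A N' M q O E)
    (e₁ : rho3 A q O ρ ξ₀ ε₁ = iota3 A M (a₁, 0, 0))
    (e₂ : rho3 A q O ρ ξ₀ ε₂ = iota3 A M (0, a₂, 0))
    (e₃ : rho3 A q O ρ ξ₀ ε₃ = iota3 A M (0, 0, a₃)) (u : BK3 A M) :
    ((a₁ * u.1, a₂ * u.2.1, a₃ * u.2.2) : BK3 A M) ∈ A3 A N' M q O ρ E ξ₀ := by
  obtain ⟨⟨b₁, hb₁, eb₁⟩, -, -⟩ := hSurj u.1
  obtain ⟨-, ⟨b₂, hb₂, eb₂⟩, -⟩ := hSurj u.2.1
  obtain ⟨-, -, ⟨b₃, hb₃, eb₃⟩⟩ := hSurj u.2.2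
  refine ⟨ε₁ * b₁ + ε₂ * b₂ + ε₃ * b₃,
    add_mem_Bp hE0 (add_mem_Bp hE0 (mul_mem_Bp hε₁ hb₁) (mul_mem_Bp hε₂ hb₂))
      (mul_mem_Bp hε₃ hb₃), ?_⟩
  rw [map_add, map_add, map_mul, map_mul, map_mul, e₁, e₂, e₃]
  refine Prod.ext ?_ (Prod.ext ?_ ?_)
  · simp only [Prod.fst_add, Prod.fst_mul, iota3_fst, rho3_fst, eb₁, ZeroMemClass.coe_zero,
      zero_mul, add_zero, MulMemClass.coe_mul]
  · simp only [Prod.snd_add, Prod.fst_add, Prod.snd_mul, Prod.fst_mul, iota3_snd_fst,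
      rho3_snd_fst, eb₂, ZeroMemClass.coe_zero, zero_mul, add_zero, zero_add,
      MulMemClass.coe_mul]
  · simp only [Prod.snd_add, Prod.snd_mul, iota3_snd_snd, rho3_snd_snd, eb₃,
      ZeroMemClass.coe_zero, zero_mul, zero_add, MulMemClass.coe_mul]

/-- **[COND-K']** `K0Plan.CondStmt` from the one-component elements, [K0-SURJ] and
[K0-CONST]. -/
theorem condStmt_of (hq : q.Prime) (hqM : ¬ q ∣ M) (hAq : A.LiesOverPrime q)
    (E : Divisor Kbar (FN (N' * q))) (ξ₀ : MidIdx q) (hE0 : ∀ P, 0 ≤ E P)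
    (hConst : ConstStmt A q O ρ) (hSurj : SurjStmt A N' M q O ρ ξ₀ E)
    (hOne : OneCompK0 A N' M q O ρ E ξ₀) : CondStmt A N' M q O ρ ξ₀ E := by
  classical
  have : Fact q.Prime := ⟨hq⟩
  have : IsDedekindDomain ↥(BKM A M) := BKPlan.isDedekindDomain_planBK A M q hqM hAq
  have hres : ∀ 𝔪 : Ideal ↥(Fermat.Agent.S34.Plan.BK A M), 𝔪.IsMaximal →
      Function.Surjective (algebraMap (kk A) (↥(Fermat.Agent.S34.Plan.BK A M) ⧸ 𝔪)) := by
    rw [BKPlan.planBK_eq]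
    exact BKappa.residue_surjective_kk A M
  obtain ⟨ε₁, ε₂, ε₃, a₁, a₂, a₃, hε₁, hε₂, hε₃, ha₁, ha₂, ha₃, e₁, e₂, e₃⟩ := hOne
  obtain ⟨S₁, n₁, h₁⟩ := exists_points_pow_mem hres a₁ ha₁
  obtain ⟨S₂, n₂, h₂⟩ := exists_points_pow_mem hres a₂ ha₂
  obtain ⟨S₃, n₃, h₃⟩ := exists_points_pow_mem hres a₃ ha₃
  intro P hP
  -- the conductor ideal
  set J : Ideal (BK3 A M) := Ideal.span {((a₁, a₂, a₃) : BK3 A M)} with hJ
  have hJA : ∀ x ∈ J, x ∈ A3sub (O := O) (ρ := ρ) E ξ₀ hE0 := by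
    intro x hx
    rw [hJ, Ideal.mem_span_singleton'] at hx
    obtain ⟨u, rfl⟩ := hx
    have h := mul_mem_A3 hE0 hSurj hε₁ hε₂ hε₃ e₁ e₂ e₃ u
    have e : u * ((a₁, a₂, a₃) : BK3 A M) = (a₁ * u.1, a₂ * u.2.1, a₃ * u.2.2) := by
      refine Prod.ext ?_ (Prod.ext ?_ ?_)
      · exact mul_comm _ _
      · exact mul_comm _ _
      · exact mul_comm _ _
    rw [e]
    exact h
  -- the points over the zeros of the `aᵢ`
  set p₁ : (↥(BKM A M) →ₐ[kk A] kk A) → (BK3 A M →+* kk A) :=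
    fun z => (z : ↥(BKM A M) →+* kk A).comp (RingHom.fst _ _) with hp₁
  set p₂ : (↥(BKM A M) →ₐ[kk A] kk A) → (BK3 A M →+* kk A) :=
    fun z => (z : ↥(BKM A M) →+* kk A).comp ((RingHom.fst _ _).comp (RingHom.snd _ _)) with hp₂
  set p₃ : (↥(BKM A M) →ₐ[kk A] kk A) → (BK3 A M →+* kk A) :=
    fun z => (z : ↥(BKM A M) →+* kk A).comp ((RingHom.snd _ _).comp (RingHom.snd _ _)) with hp₃
  set S : Finset (BK3 A M →+* kk A) := S₁.image p₁ ∪ S₂.image p₂ ∪ S₃.image p₃ with hSdef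
  have hS : ∀ Q ∈ S, IsPt A M Q := by
    intro Q hQ
    rw [hSdef, Finset.mem_union, Finset.mem_union] at hQ
    rcases hQ with (hQ | hQ) | hQ
    · obtain ⟨z, -, rfl⟩ := Finset.mem_image.1 hQ
      exact ⟨z, Or.inl rfl⟩
    · obtain ⟨z, -, rfl⟩ := Finset.mem_image.1 hQ
      exact ⟨z, Or.inr (Or.inl rfl)⟩
    · obtain ⟨z, -, rfl⟩ := Finset.mem_image.1 hQ
      exact ⟨z, Or.inr (Or.inr rfl)⟩
  have hn : ∀ x : BK3 A M, (∀ Q ∈ S, Q x = 0) → x ^ (n₁ + n₂ + n₃) ∈ J := by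
    intro x hx
    obtain ⟨u₁, hu₁⟩ := h₁ x.1 fun z hz =>
      hx (p₁ z) (by
        rw [hSdef, Finset.mem_union, Finset.mem_union]
        exact Or.inl (Or.inl (Finset.mem_image_of_mem _ hz)))
    obtain ⟨u₂, hu₂⟩ := h₂ x.2.1 fun z hz =>
      hx (p₂ z) (by
        rw [hSdef, Finset.mem_union, Finset.mem_union]
        exact Or.inl (Or.inr (Finset.mem_image_of_mem _ hz)))
    obtain ⟨u₃, hu₃⟩ := h₃ x.2.2 fun z hz =>
      hx (p₃ z) (by
        rw [hSdef, Finset.mem_union, Finset.mem_union]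
        exact Or.inr (Finset.mem_image_of_mem _ hz))
    rw [hJ, Ideal.mem_span_singleton']
    refine ⟨(u₁ * x.1 ^ (n₂ + n₃), u₂ * x.2.1 ^ (n₁ + n₃), u₃ * x.2.2 ^ (n₁ + n₂)), ?_⟩
    refine Prod.ext ?_ (Prod.ext ?_ ?_)
    · show u₁ * x.1 ^ (n₂ + n₃) * a₁ = x.1 ^ (n₁ + n₂ + n₃)
      have e : x.1 ^ (n₁ + n₂ + n₃) = x.1 ^ n₁ * x.1 ^ (n₂ + n₃) := by
        rw [← pow_add, add_assoc]
      rw [e, hu₁]
      ring
    · show u₂ * x.2.1 ^ (n₁ + n₃) * a₂ = x.2.1 ^ (n₁ + n₂ + n₃)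
      have e : x.2.1 ^ (n₁ + n₂ + n₃) = x.2.1 ^ n₂ * x.2.1 ^ (n₁ + n₃) := by
        rw [← pow_add]
        congr 1
        ring
      rw [e, hu₂]
      ring
    · show u₃ * x.2.2 ^ (n₁ + n₂) * a₃ = x.2.2 ^ (n₁ + n₂ + n₃)
      have e : x.2.2 ^ (n₁ + n₂ + n₃) = x.2.2 ^ n₃ * x.2.2 ^ (n₁ + n₂) := by
        rw [← pow_add]
        congr 1
        ring
      rw [e, hu₃]
      ring
  exact cond_abs (IsPt A M) (A3sub (O := O) (ρ := ρ) E ξ₀ hE0) (cst A M)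
    (fun κ => cst_mem_A3 ξ₀ hConst κ) (fun Q hQ κ => pt_cst hQ κ) J hJA S hS (n₁ + n₂ + n₃) hn
    P hP

end Concrete

end Fermat.Agent.S36.CondK0

end
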