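import Mathlib
import Fermat.Agent.S36.InertiaField

/-!
# P8 [K0-DVR]: the inertia field `K0` and its discrete valuation ring `A0 = A ∩ K0` (helper2)

`Qb = AlgebraicClosure ℚ`, `A : ValuationSubring Qb` over a prime `q`, `I = A.inertiaSubgroupIn ℚ`.
Packaging of helper62's `S36/InertiaField` ([K0-VAL], [K0-RES]):

* `K0 A` : the fixed field of `I`; `A0 A : ValuationSubring (K0 A)` : `A ∩ K0`;
* `exists_eq_unit_mul_pow` : every nonzero element of `A0` is a unit times a power of `q`;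
* `irreducible_natCast`, `isDiscreteValuationRing_A0`, `maximalIdeal_A0_eq_span`;
* `exists_A0_sub_mem_nonunits`, `residueEquiv` : `A0` and `A` have the same residue field.
-/

set_option autoImplicit false

namespace Fermat.Agent.S36.K0DVR

open Fermat.Agent.Lib.InertiaGlue Fermat.Agent.S36.InertiaField

variable (A : ValuationSubring Qb)

/-- The inertia field of `A`: the subfield of `Q̄` fixed by the inertia group of `A`. -/
noncomputable abbrev K0 : IntermediateField ℚ Qb :=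
  IntermediateField.fixedField (A.inertiaSubgroupIn ℚ)

theorem mem_K0_iff (x : Qb) : x ∈ K0 A ↔ ∀ σ ∈ A.inertiaSubgroupIn ℚ, σ x = x :=
  IntermediateField.mem_fixedField_iff _ x

theorem fixed_coe (x : K0 A) : ∀ σ ∈ A.inertiaSubgroupIn ℚ, σ (x : Qb) = x :=
  (mem_K0_iff A _).mp x.2

/-- `A0 = A ∩ K0`, as a valuation subring of the inertia field. -/
noncomputable def A0 : ValuationSubring (K0 A) := A.comap (algebraMap (K0 A) Qb)

theorem mem_A0_iff (x : K0 A) : x ∈ A0 A ↔ (x : Qb) ∈ A := Iff.rfl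

theorem coe_mem (x : A0 A) : (((x : K0 A)) : Qb) ∈ A := x.2

theorem mem_nonunits_iff_inv_notMem {F : Type*} [Field F] (B : ValuationSubring F) (x : F) :
    x ∈ B.nonunits ↔ x = 0 ∨ x⁻¹ ∉ B := by
  rw [ValuationSubring.mem_nonunits_iff]
  constructor
  · intro h
    by_cases hx : x = 0
    · exact Or.inl hx
    · right
      intro hinv
      have h1 : B.valuation x⁻¹ ≤ 1 := (B.valuation_le_one_iff _).mpr hinv
      rw [map_inv₀] at h1
      have h2 : B.valuation x ≠ 0 := (Valuation.ne_zero_iff _).mpr hx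
      exact absurd ((inv_le_one₀ (zero_lt_iff.mpr h2)).mp h1) (not_le.mpr h)
  · rintro (rfl | h)
    · simp
    · by_contra hcon
      rw [not_lt] at hcon
      apply h
      rw [← B.valuation_le_one_iff, map_inv₀]
      by_cases hx : x = 0
      · simp [hx]
      · have h2 : B.valuation x ≠ 0 := (Valuation.ne_zero_iff _).mpr hx
        exact (inv_le_one₀ (zero_lt_iff.mpr h2)).mpr hcon

theorem mem_nonunits_A0_iff (x : K0 A) : x ∈ (A0 A).nonunits ↔ (x : Qb) ∈ A.nonunits := by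
  rw [mem_nonunits_iff_inv_notMem, mem_nonunits_iff_inv_notMem, mem_A0_iff]
  simp

section prime

variable (q : ℕ) (hq : q.Prime) (hA : A.LiesOverPrime q)

include hq hA

/-- **Every nonzero element of `A0` is a unit times a power of `q`.** -/
theorem exists_eq_unit_mul_pow (x : A0 A) (hx : x ≠ 0) :
    ∃ (n : ℕ) (u : (A0 A)ˣ), x = u * ((q : ℕ) : A0 A) ^ n := by
  have hx0 : (((x : K0 A)) : Qb) ≠ 0 := by
    intro h
    apply hx
    apply Subtype.ext
    apply Subtype.ext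
    exact h
  obtain ⟨m, hm⟩ := val_eq_zpow_of_inertia_fixed A q hq hA _ hx0 (fixed_coe A (x : K0 A))
  have hq0 : ((q : ℕ) : Qb) ≠ 0 := Nat.cast_ne_zero.mpr hq.ne_zero
  have hπ0 : A.valuation ((q : ℕ) : Qb) ≠ 0 := (Valuation.ne_zero_iff _).mpr hq0
  have hπ1 : A.valuation ((q : ℕ) : Qb) < 1 := by
    have hA' : ((q : ℕ) : Qb) ∈ A.nonunits := hA
    rwa [ValuationSubring.mem_nonunits_iff] at hA'
  have hle : A.valuation (((x : K0 A)) : Qb) ≤ 1 := (A.valuation_le_one_iff _).mpr (coe_mem A x)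
  have hm0 : 0 ≤ m := by
    rw [hm] at hle
    exact (zpow_le_one_iff_right_of_lt_one₀ (zero_lt_iff.mpr hπ0) hπ1).mp hle
  lift m to ℕ using hm0
  rw [zpow_natCast] at hm
  have hqK : ((q : ℕ) : K0 A) ≠ 0 := Nat.cast_ne_zero.mpr hq.ne_zero
  have hxK : (x : K0 A) ≠ 0 := fun h => hx (Subtype.ext h)
  have hcoe : (((x : K0 A) / ((q : ℕ) : K0 A) ^ m : K0 A) : Qb) =
      ((x : K0 A) : Qb) / ((q : ℕ) : Qb) ^ m := by
    push_cast
    rfl
  have huv : A.valuation (((x : K0 A) / ((q : ℕ) : K0 A) ^ m : K0 A) : Qb) = 1 := by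
    rw [hcoe, map_div₀, map_pow, hm, div_self (pow_ne_zero m hπ0)]
  have hu1 : (x : K0 A) / ((q : ℕ) : K0 A) ^ m ∈ A0 A :=
    (A.valuation_le_one_iff _).mp huv.le
  have hu2 : ((x : K0 A) / ((q : ℕ) : K0 A) ^ m)⁻¹ ∈ A0 A := by
    rw [mem_A0_iff]
    rw [← A.valuation_le_one_iff]
    have h1 : ((((x : K0 A) / ((q : ℕ) : K0 A) ^ m)⁻¹ : K0 A) : Qb) =
        ((((x : K0 A) / ((q : ℕ) : K0 A) ^ m : K0 A)) : Qb)⁻¹ := by
      push_cast
      rfl
    rw [h1, map_inv₀, huv, inv_one]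
  have hne : (x : K0 A) / ((q : ℕ) : K0 A) ^ m ≠ 0 := div_ne_zero hxK (pow_ne_zero m hqK)
  refine ⟨m, ⟨⟨_, hu1⟩, ⟨_, hu2⟩, Subtype.ext (mul_inv_cancel₀ hne),
    Subtype.ext (inv_mul_cancel₀ hne)⟩, Subtype.ext ?_⟩
  show (x : K0 A) = (x : K0 A) / ((q : ℕ) : K0 A) ^ m * (((q : ℕ) : A0 A) ^ m : A0 A)
  push_cast
  rw [div_mul_cancel₀ _ (pow_ne_zero m hqK)]

omit hq in
theorem natCast_mem_nonunits_A0 : ((q : ℕ) : K0 A) ∈ (A0 A).nonunits := by
  rw [mem_nonunits_A0_iff]
  have hA' : ((q : ℕ) : Qb) ∈ A.nonunits := hA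
  simpa using hA'

omit hq in
theorem not_isUnit_natCast : ¬ IsUnit ((q : ℕ) : A0 A) := by
  have h := natCast_mem_nonunits_A0 A q hA
  have h1 : (((q : ℕ) : A0 A) : K0 A) ∈ (A0 A).nonunits := by simpa using h
  rw [ValuationSubring.coe_mem_nonunits_iff] at h1
  exact (IsLocalRing.mem_maximalIdeal _).mp h1

/-- a non-unit of `A0` is divisible by `q` in `A0` -/
theorem natCast_dvd_of_not_isUnit (a : A0 A) (ha : ¬ IsUnit a) : ((q : ℕ) : A0 A) ∣ a := by
  have h1 : a ∈ IsLocalRing.maximalIdeal (A0 A) := (IsLocalRing.mem_maximalIdeal _).mpr ha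
  rw [← ValuationSubring.coe_mem_nonunits_iff, mem_nonunits_A0_iff] at h1
  have h2 := div_natCast_mem_of_inertia_fixed A q hq hA _ h1 (fixed_coe A (a : K0 A))
  have hqK : ((q : ℕ) : K0 A) ≠ 0 := Nat.cast_ne_zero.mpr hq.ne_zero
  have hmem : (a : K0 A) / ((q : ℕ) : K0 A) ∈ A0 A := by
    rw [mem_A0_iff]
    have : (((a : K0 A) / ((q : ℕ) : K0 A) : K0 A) : Qb) = ((a : K0 A) : Qb) / ((q : ℕ) : Qb) := by
      push_cast
      rfl
    rw [this]
    exact h2
  refine ⟨⟨_, hmem⟩, Subtype.ext ?_⟩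
  show (a : K0 A) = (((q : ℕ) : A0 A) : K0 A) * ((a : K0 A) / ((q : ℕ) : K0 A))
  push_cast
  rw [mul_div_cancel₀ _ hqK]

/-- **`q` is irreducible in `A0`.** -/
theorem irreducible_natCast : Irreducible ((q : ℕ) : A0 A) := by
  refine ⟨not_isUnit_natCast A q hA, fun a b hab => ?_⟩
  by_contra hcon
  push Not at hcon
  obtain ⟨a', rfl⟩ := natCast_dvd_of_not_isUnit A q hq hA a hcon.1
  obtain ⟨b', rfl⟩ := natCast_dvd_of_not_isUnit A q hq hA b hcon.2
  have hq0 : ((q : ℕ) : A0 A) ≠ 0 := Nat.cast_ne_zero.mpr hq.ne_zero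
  have h1 : ((q : ℕ) : A0 A) * 1 = ((q : ℕ) : A0 A) * (((q : ℕ) : A0 A) * (a' * b')) := by
    rw [mul_one]
    conv_lhs => rw [hab]
    ring
  have h2 : (1 : A0 A) = ((q : ℕ) : A0 A) * (a' * b') := mul_left_cancel₀ hq0 h1
  exact not_isUnit_natCast A q hA (IsUnit.of_mul_eq_one _ h2.symm)

/-- **`A0 = A ∩ K0` is a discrete valuation ring** (with uniformizer `q`). -/
theorem isDiscreteValuationRing_A0 : IsDiscreteValuationRing (A0 A) := by
  apply IsDiscreteValuationRing.ofHasUnitMulPowIrreducibleFactorization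
  refine ⟨((q : ℕ) : A0 A), irreducible_natCast A q hq hA, fun {x} hx => ?_⟩
  obtain ⟨n, u, hu⟩ := exists_eq_unit_mul_pow A q hq hA x hx
  exact ⟨n, u, by rw [hu, mul_comm]⟩

theorem maximalIdeal_A0_eq_span :
    IsLocalRing.maximalIdeal (A0 A) = Ideal.span {((q : ℕ) : A0 A)} := by
  apply le_antisymm
  · intro a ha
    rw [Ideal.mem_span_singleton]
    exact natCast_dvd_of_not_isUnit A q hq hA a ((IsLocalRing.mem_maximalIdeal _).mp ha)
  · rw [Ideal.span_singleton_le_iff_mem]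
    exact (IsLocalRing.mem_maximalIdeal _).mpr (not_isUnit_natCast A q hA)

/-- **[K0-RES]**, packaged: every element of `A` is congruent to an element of `A0` modulo the
maximal ideal of `A`. -/
theorem exists_A0_sub_mem_nonunits (u : Qb) (hu : u ∈ A) :
    ∃ z : A0 A, u - (((z : K0 A)) : Qb) ∈ A.nonunits := by
  obtain ⟨z, hzA, hzfix, hz⟩ := exists_inertia_fixed_lift A q hq hA u hu
  exact ⟨⟨⟨z, (mem_K0_iff A z).mpr hzfix⟩, hzA⟩, hz⟩

end prime

/-- the inclusion `A0 → A` -/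
noncomputable def incl : A0 A →+* A where
  toFun x := ⟨((x : K0 A) : Qb), coe_mem A x⟩
  map_one' := rfl
  map_mul' _ _ := rfl
  map_zero' := rfl
  map_add' _ _ := rfl

theorem coe_incl (x : A0 A) : ((incl A x : A) : Qb) = ((x : K0 A) : Qb) := rfl

instance isLocalHom_incl : IsLocalHom (incl A) where
  map_nonunit a ha := by
    by_contra hcon
    have h1 : a ∈ IsLocalRing.maximalIdeal (A0 A) := (IsLocalRing.mem_maximalIdeal _).mpr hcon
    rw [← ValuationSubring.coe_mem_nonunits_iff, mem_nonunits_A0_iff] at h1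
    have h2 : ((incl A a : A) : Qb) ∈ A.nonunits := h1
    rw [ValuationSubring.coe_mem_nonunits_iff] at h2
    exact (IsLocalRing.mem_maximalIdeal _).mp h2 ha

/-- **`A0` and `A` have the same residue field.** -/
noncomputable def residueEquiv (q : ℕ) (hq : q.Prime) (hA : A.LiesOverPrime q) :
    IsLocalRing.ResidueField (A0 A) ≃+* IsLocalRing.ResidueField A :=
  RingEquiv.ofBijective (IsLocalRing.ResidueField.map (incl A))
    ⟨(IsLocalRing.ResidueField.map (incl A)).injective, by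
      intro y
      obtain ⟨u, rfl⟩ := IsLocalRing.residue_surjective y
      obtain ⟨z, hz⟩ := exists_A0_sub_mem_nonunits A q hq hA (u : Qb) u.2
      refine ⟨IsLocalRing.residue (A0 A) z, ?_⟩
      rw [IsLocalRing.ResidueField.map_residue]
      symm
      rw [← sub_eq_zero, ← map_sub, IsLocalRing.residue_eq_zero_iff,
        ← ValuationSubring.coe_mem_nonunits_iff]
      exact hz⟩

theorem residueEquiv_residue (q : ℕ) (hq : q.Prime) (hA : A.LiesOverPrime q) (x : A0 A) :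
    residueEquiv A q hq hA (IsLocalRing.residue (A0 A) x) = IsLocalRing.residue A (incl A x) :=
  IsLocalRing.ResidueField.map_residue _ _

end Fermat.Agent.S36.K0DVR
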