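import Mathlib
import Fermat.Agent.S36.Plan

/-!
# S36 / P8 — [SETUP], [RED], [INV] for the level-`q²` frame (helper17)

For a frame `F : Plan.Frame M q h` and a valuation subring `A` of `Q̄`:

* `setupStmt A F : Plan.SetupStmt A F` — the pair `(O, ρ)` exists:
  `O = {g ∈ F_{Mq²} | ∀ i, ε_i g ∈ Ocal A}`, `ρ g = (red (ε_i g))_i`;
* `IsSetup.subring_eq`, `IsSetup.rho_eq` — `(O, ρ)` is unique;
* `redStmt : Plan.IsSetup A F O ρ → Plan.RedStmt A q O ρ` — constants of `O` are `A` and `ρ`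
  is the residue map on them, coordinatewise;
* `invStmt : Plan.IsSetup A F O ρ → Plan.InvStmt A q O ρ` — an element of `O` all of whose
  reductions are nonzero is a unit of `O` (`Ocal` is a localisation).

Elementwise API: `IsSetup.coe_mem`, `IsSetup.emb_mem`, `IsSetup.rho_coe`, `IsSetup.C_mem_iff`,
`IsSetup.rho_C`.
-/

set_option autoImplicit false

noncomputable section

namespace Fermat.Agent.S36.SetupQ2

open ModularCurve AlgebraicCurve Fermat.Agent.S24 Fermat.Agent.S18 Fermat.Agent.S18.Content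
  Fermat.Agent.S18.Plan Fermat.Agent.S34 Fermat.Agent.S36.Plan

variable {M q : ℕ} [NeZero M] [NeZero q] {h : Nat.Coprime M q}

instance instNonemptyCoord (q : ℕ) : Nonempty (Coord q) := ⟨Coord.inf⟩

/-! ## The construction -/

section Construction

variable (A : ValuationSubring Kbar) (F : Frame M q h)

/-- `O = {g ∈ F_{Mq²} | ∀ i, ε_i g ∈ Ocal A}` as a subring of `Q̄((T))`. -/
def Osub : Subring Om where
  carrier := {g | ∃ hg : g ∈ modularFunctionFieldBar (M * q * q),
    ∀ i : Coord q, F.emb i ⟨g, hg⟩ ∈ Ocal A}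
  mul_mem' := by
    rintro a b ⟨ha, hai⟩ ⟨hb, hbi⟩
    refine ⟨mul_mem ha hb, fun i => ?_⟩
    have e : F.emb i ⟨a * b, mul_mem ha hb⟩ = F.emb i ⟨a, ha⟩ * F.emb i ⟨b, hb⟩ :=
      (F.emb i).toRingHom.map_mul ⟨a, ha⟩ ⟨b, hb⟩
    rw [e]
    exact (Ocal A).mul_mem (hai i) (hbi i)
  one_mem' := by
    refine ⟨one_mem _, fun i => ?_⟩
    have e : F.emb i ⟨1, one_mem _⟩ = 1 := (F.emb i).toRingHom.map_one
    rw [e]
    exact (Ocal A).one_mem
  add_mem' := by
    rintro a b ⟨ha, hai⟩ ⟨hb, hbi⟩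
    refine ⟨add_mem ha hb, fun i => ?_⟩
    have e : F.emb i ⟨a + b, add_mem ha hb⟩ = F.emb i ⟨a, ha⟩ + F.emb i ⟨b, hb⟩ :=
      (F.emb i).toRingHom.map_add ⟨a, ha⟩ ⟨b, hb⟩
    rw [e]
    exact (Ocal A).add_mem (hai i) (hbi i)
  zero_mem' := by
    refine ⟨zero_mem _, fun i => ?_⟩
    have e : F.emb i ⟨0, zero_mem _⟩ = 0 := (F.emb i).toRingHom.map_zero
    rw [e]
    exact (Ocal A).zero_mem
  neg_mem' := by
    rintro a ⟨ha, hai⟩
    refine ⟨neg_mem ha, fun i => ?_⟩
    have e : F.emb i ⟨-a, neg_mem ha⟩ = -F.emb i ⟨a, ha⟩ :=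
      (F.emb i).toRingHom.map_neg ⟨a, ha⟩
    rw [e]
    exact (Ocal A).neg_mem (hai i)

/-- The inclusion `O → F_{Mq²}`. -/
def toFN : Osub A F →+* FN (M * q * q) where
  toFun g := ⟨(g : Om), g.2.1⟩
  map_one' := rfl
  map_mul' _ _ := rfl
  map_zero' := rfl
  map_add' _ _ := rfl

theorem coe_toFN (g : Osub A F) : ((toFN A F g : FN (M * q * q)) : Om) = (g : Om) := rfl

theorem emb_toFN_mem (g : Osub A F) (i : Coord q) : F.emb i (toFN A F g) ∈ Ocal A :=
  g.2.2 i

/-- The `i`-th coordinate of the reduction. -/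
def rhoCoord (i : Coord q) : Osub A F →+* Omk A :=
  (red A).comp (RingHom.codRestrict ((F.emb i : FN (M * q * q) →+* Om).comp (toFN A F))
    (Ocal A) (fun g => emb_toFN_mem A F g i))

/-- `ρ = (red ∘ ε_i)_i`. -/
def rhoQ2 : Osub A F →+* Rq A q := RingHom.pi (rhoCoord A F)

theorem rhoQ2_apply (g : Osub A F) (i : Coord q) :
    rhoQ2 A F g i = red A ⟨F.emb i (toFN A F g), emb_toFN_mem A F g i⟩ := rfl

/-- The constructed pair is a setup. -/
theorem isSetup : IsSetup A F (Osub A F) (rhoQ2 A F) where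
  mem_field g := g.2.1
  mem_iff x := by
    constructor
    · rintro ⟨hx, hxi⟩ i
      have e : (⟨(x : Om), hx⟩ : FN (M * q * q)) = x := Subtype.ext rfl
      rw [← e]
      exact hxi i
    · intro hxi
      refine ⟨x.2, fun i => ?_⟩
      have e : (⟨(x : Om), x.2⟩ : FN (M * q * q)) = x := Subtype.ext rfl
      rw [e]
      exact hxi i
  ρ_apply x hx i hi := by
    rw [rhoQ2_apply]
    apply red_congr
    have e : toFN A F ⟨(x : Om), hx⟩ = x := Subtype.ext rfl
    rw [e]

/-- **[SETUP]** the pair `(O, ρ)` exists. -/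
theorem setupStmt : SetupStmt A F := ⟨Osub A F, rhoQ2 A F, isSetup A F⟩

end Construction

/-! ## Consequences of `IsSetup` -/

section API

variable {A : ValuationSubring Kbar} {F : Frame M q h} {O : Subring Om} {ρ : O →+* Rq A q}

/-- An element of `O` as an element of `F_{Mq²}`. -/
def IsSetup.toField (hS : IsSetup A F O ρ) (g : O) : FN (M * q * q) := ⟨(g : Om), hS.mem_field g⟩

theorem IsSetup.coe_toField (hS : IsSetup A F O ρ) (g : O) :
    ((IsSetup.toField hS g : FN (M * q * q)) : Om) = (g : Om) := rfl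

theorem IsSetup.coe_mem (hS : IsSetup A F O ρ) (g : O) :
    ((IsSetup.toField hS g : FN (M * q * q)) : Om) ∈ O := g.2

/-- All expansions of an element of `O` are integral. -/
theorem IsSetup.emb_mem (hS : IsSetup A F O ρ) (g : O) (i : Coord q) :
    F.emb i (IsSetup.toField hS g) ∈ Ocal A :=
  (hS.mem_iff (IsSetup.toField hS g)).1 g.2 i

/-- `ρ g i = red (ε_i g)`. -/
theorem IsSetup.rho_coe (hS : IsSetup A F O ρ) (g : O) (i : Coord q) :
    ρ g i = red A ⟨F.emb i (IsSetup.toField hS g), IsSetup.emb_mem hS g i⟩ := by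
  have e : g = ⟨((IsSetup.toField hS g : FN (M * q * q)) : Om), IsSetup.coe_mem hS g⟩ := Subtype.ext rfl
  conv_lhs => rw [e]
  exact hS.ρ_apply (IsSetup.toField hS g) (IsSetup.coe_mem hS g) i (IsSetup.emb_mem hS g i)

/-- Membership in `O`, elementwise. -/
theorem IsSetup.mem_iff' (hS : IsSetup A F O ρ) (g : Om) :
    g ∈ O ↔ ∃ x : FN (M * q * q), (x : Om) = g ∧ ∀ i : Coord q, F.emb i x ∈ Ocal A := by
  constructor
  · intro hg
    exact ⟨IsSetup.toField hS ⟨g, hg⟩, rfl, IsSetup.emb_mem hS ⟨g, hg⟩⟩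
  · rintro ⟨x, rfl, hx⟩
    exact (hS.mem_iff x).2 hx

/-- **Uniqueness of `O`.** -/
theorem IsSetup.subring_eq {O' : Subring Om} {ρ' : O' →+* Rq A q} (hS : IsSetup A F O ρ)
    (hS' : IsSetup A F O' ρ') : O = O' := by
  ext g
  rw [IsSetup.mem_iff' hS, IsSetup.mem_iff' hS']

/-- **Uniqueness of `ρ`.** -/
theorem IsSetup.rho_eq {ρ' : O →+* Rq A q} (hS : IsSetup A F O ρ) (hS' : IsSetup A F O ρ') :
    ρ = ρ' := by
  refine RingHom.ext fun g => funext fun i => ?_
  rw [IsSetup.rho_coe hS g i, IsSetup.rho_coe hS' g i]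
  rfl

/-- Every expansion of a constant is that constant. -/
theorem emb_algebraMap (F : Frame M q h) (i : Coord q) (c : Kbar) :
    F.emb i (algebraMap Kbar (FN (M * q * q)) c) = HahnSeries.C c := by
  rw [AlgHom.commutes]
  exact algebraMap_LS_eq_C Kbar c

theorem coe_algebraMap_FN (N : ℕ) (c : Kbar) :
    ((algebraMap Kbar (FN N) c : FN N) : Om) = HahnSeries.C c := by
  have e : ((algebraMap Kbar (FN N) c : FN N) : Om) = algebraMap Kbar Om c := rfl
  rw [e]
  exact algebraMap_LS_eq_C Kbar c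

/-- `O ∩ Q̄ = A`. -/
theorem IsSetup.C_mem_iff (hS : IsSetup A F O ρ) (c : Kbar) :
    (HahnSeries.C c : Om) ∈ O ↔ c ∈ A := by
  rw [← coe_algebraMap_FN (M * q * q) c, hS.mem_iff]
  constructor
  · intro hc
    have := hc Coord.inf
    rw [emb_algebraMap] at this
    exact (C_mem_Ocal_iff A c).1 this
  · intro hc i
    rw [emb_algebraMap]
    exact C_mem_Ocal A hc

/-- `ρ` on constants is the residue map, coordinatewise. -/
theorem IsSetup.rho_C (hS : IsSetup A F O ρ) (a : A) (ha : (HahnSeries.C (a : Kbar) : Om) ∈ O)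
    (i : Coord q) : ρ ⟨_, ha⟩ i = HahnSeries.C (IsLocalRing.residue A a) := by
  have hx : ((algebraMap Kbar (FN (M * q * q)) (a : Kbar) : FN (M * q * q)) : Om) ∈ O := by
    rw [coe_algebraMap_FN]; exact ha
  have e : (⟨_, ha⟩ : O) = ⟨_, hx⟩ := Subtype.ext (coe_algebraMap_FN (M * q * q) (a : Kbar)).symm
  have hi : F.emb i (algebraMap Kbar (FN (M * q * q)) (a : Kbar)) ∈ Ocal A := by
    rw [emb_algebraMap]; exact C_mem_Ocal A a.2
  rw [e, hS.ρ_apply _ hx i hi]
  rw [red_congr A (emb_algebraMap F i (a : Kbar)) hi (C_mem_Ocal A a.2), red_C A a.2]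

/-- **[RED]** the reduction datum of `LiftCore2` / `LiftGen` for `(O, ρ)`. -/
theorem redStmt (hS : IsSetup A F O ρ) : RedStmt A q O ρ :=
  @LiftCore2.RedData.mk Kbar Om (kk A) (Rq A q) _ _ HahnSeries.instAlgebra _ _ (algR A q)
    A (IsLocalRing.residue A) O ρ
    IsLocalRing.residue_surjective
    (fun a => by
      rw [IsLocalRing.residue_eq_zero_iff, IsLocalRing.mem_maximalIdeal, mem_nonunits_iff])
    (fun c => IsSetup.C_mem_iff hS c)
    (fun a ha => funext fun i => IsSetup.rho_C hS a ha i)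

/-- **[INV]** an element of `O` all of whose reductions are nonzero is a unit of `O`. -/
theorem invStmt (hS : IsSetup A F O ρ) : InvStmt A q O ρ := by
  intro g hg
  have hx : (((IsSetup.toField hS g)⁻¹ : FN (M * q * q)) : Om) ∈ O := by
    rw [hS.mem_iff]
    intro i
    rw [map_inv₀]
    have hne : red A ⟨F.emb i (IsSetup.toField hS g), IsSetup.emb_mem hS g i⟩ ≠ 0 := by
      rw [← IsSetup.rho_coe hS g i]; exact hg i
    exact inv_mem_Ocal A ⟨F.emb i (IsSetup.toField hS g), IsSetup.emb_mem hS g i⟩ hne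
  exact hx

end API

end Fermat.Agent.S36.SetupQ2

end
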