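import Mathlib
import Fermat.Agent.S36.K0Plan
import Fermat.Agent.S36.K0DVR
import Fermat.Agent.S36.SetupQ2

/-!
# P8 [K0-CONST]: every residue constant is the reduction of a `K₀`-rational constant (helper2)

Provider of the contract `K0Plan.ConstStmt` of `S36/K0Plan`: for every `κ ∈ k` there is a
constant `a ∈ A ∩ K₀` (`K₀` the inertia field of `A`) with `ρ (C a) = (C κ)_i` at every
coordinate.  Inputs: `K0DVR.exists_A0_sub_mem_nonunits` (the residue field of `A ∩ K₀` is `k`)
and the reduction datum `Plan.RedStmt` (or a setup `Plan.IsSetup`).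
-/

set_option autoImplicit false

noncomputable section

namespace Fermat.Agent.S36.K0Const

open ModularCurve AlgebraicCurve Fermat.Agent.S24 Fermat.Agent.S18 Fermat.Agent.S18.Content
  Fermat.Agent.S18.Plan Fermat.Agent.S34 Fermat.Agent.S36.Plan

variable {A : ValuationSubring Kbar} {q : ℕ} [NeZero q]
variable {O : Subring Om} {ρ : O →+* Rq A q}

omit [NeZero q] in
/-- A constant fixed by the inertia group is `K₀`-rational as a series. -/
theorem fixed_C {a : Kbar} (ha : ∀ τ ∈ A.inertiaSubgroupIn ℚ, τ a = a) :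
    K0Plan.Fixed A (HahnSeries.C a : Om) := by
  intro τ hτ
  rw [HahnSeries.C_apply, coeffMap_single]
  show HahnSeries.single 0 (τ a) = _
  rw [ha τ hτ]

omit [NeZero q] in
/-- Every residue class of `A` has an inertia-fixed representative. -/
theorem exists_fixed_residue_eq (hq : q.Prime) (hA : A.LiesOverPrime q) (κ : kk A) :
    ∃ a : A, (∀ τ ∈ A.inertiaSubgroupIn ℚ, τ (a : Kbar) = a) ∧ IsLocalRing.residue A a = κ := by
  obtain ⟨u, rfl⟩ := IsLocalRing.residue_surjective κ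
  obtain ⟨z, hz⟩ := K0DVR.exists_A0_sub_mem_nonunits A q hq hA (u : Kbar) u.2
  refine ⟨⟨_, K0DVR.coe_mem A z⟩, K0DVR.fixed_coe A (z : K0DVR.K0 A), ?_⟩
  symm
  rw [← sub_eq_zero, ← map_sub, IsLocalRing.residue_eq_zero_iff, IsLocalRing.mem_maximalIdeal,
    mem_nonunits_iff]
  intro hu
  have h1 : ((u - ⟨_, K0DVR.coe_mem A z⟩ : A) : Kbar) ∈ A.nonunits := hz
  rw [ValuationSubring.coe_mem_nonunits_iff] at h1
  exact h1 hu

omit [NeZero q] in
/-- **[K0-CONST]** from the reduction datum `Plan.RedStmt`. -/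
theorem constStmt_of_red (hq : q.Prime) (hA : A.LiesOverPrime q) (hRed : Plan.RedStmt A q O ρ) :
    K0Plan.ConstStmt A q O ρ := by
  have hmem : ∀ c : Kbar, (HahnSeries.C c : Om) ∈ O ↔ c ∈ A :=
    @LiftCore2.RedData.mem_iff Kbar Om (kk A) (Rq A q) _ _ HahnSeries.instAlgebra _ _ (algR A q) A
      (IsLocalRing.residue A) O ρ hRed
  have hρalg : ∀ (a : A) (h' : (HahnSeries.C (a : Kbar) : Om) ∈ O),
      ρ ⟨_, h'⟩ = @algebraMap (kk A) (Rq A q) _ _ (algR A q) (IsLocalRing.residue A a) :=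
    @LiftCore2.RedData.ρ_alg Kbar Om (kk A) (Rq A q) _ _ HahnSeries.instAlgebra _ _ (algR A q) A
      (IsLocalRing.residue A) O ρ hRed
  intro κ
  obtain ⟨a, hfix, hres⟩ := exists_fixed_residue_eq hq hA κ
  have ha : (HahnSeries.C (a : Kbar) : Om) ∈ O := (hmem (a : Kbar)).2 a.2
  refine ⟨(a : Kbar), ha, fixed_C hfix, fun i => ?_⟩
  rw [hρalg a ha, hres]
  rfl

/-- **[K0-CONST]** for a setup `(O, ρ)` of the level-`q²` frame. -/
theorem constStmt {M : ℕ} [NeZero M] {h : Nat.Coprime M q} (hq : q.Prime)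
    (hA : A.LiesOverPrime q) (F : Plan.Frame M q h) (hS : Plan.IsSetup A F O ρ) :
    K0Plan.ConstStmt A q O ρ :=
  constStmt_of_red hq hA (SetupQ2.redStmt hS)

end Fermat.Agent.S36.K0Const

end
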