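/-
P8 / S36, block [EMB] (helper49): **the Atkin–Lehner involution `w₂` of `F_{Mq²}`** in the Prelude
vocabulary (`q ∤ M`), at the level spelled `M * q * q`.

`F := FN (M * q * q)`, `α := heckeAlphaBar Kbar (M * q) q` (the inclusion `F_{Mq} → F`),
`β := heckeBetaBar Kbar (M * q) q` (`T ↦ T^q`), `σ := S34.Sigma.sigma M q h` (the Atkin–Lehner
involution of `F_{Mq}`).

* `w2`              : `F ≃ₐ[Q̄] F`, the involution with `j(T^(d m)) ↦ j(T^(d m'))` for `d ∣ M`,
                      `m m' = q²` (`coe_w2_gen`);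
* `w2_alpha`        : `w₂ ∘ α = β ∘ σ`;   `w2_beta` : `w₂ ∘ β = α ∘ σ`   (`q` prime);
* `w2_w2`           : `w₂² = id`;
* `galois_smul_w2`  : `w₂` commutes with the coefficientwise action of `Gal(Q̄/ℚ)`;
* `coe_w2_jBar`, `coe_w2_jQ`, `coe_w2_jQQ` : `w₂ j = j(T^(q²))`, `w₂ j(T^q) = j(T^q)`,
                      `w₂ j(T^(q²)) = j`;
* `exists_w2`       : the package, as claimed on the board (#3079);
* `r0`              : the expansion "at the cusp `0`", `r₀ = (F ⊆ Q̄((T))) ∘ w₂`, with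
                      `r₀ ∘ α = (T ↦ T^q) ∘ σ`, `r₀ ∘ β = σ`.
-/
import Mathlib
import Fermat.Agent.S34.Sigma

set_option autoImplicit false
set_option linter.style.haveILetI false
set_option linter.unusedSectionVars false

noncomputable section

namespace Fermat.Agent.S36.Emb

open ModularCurve AlgebraicCurve Fermat.Agent.S24 Fermat.Agent.Lib
open Fermat.Agent.S37.Kron.AtkinLehner
open Fermat.Agent.S34

set_option synthInstance.maxHeartbeats 400000
set_option maxHeartbeats 1600000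

variable (M q : ℕ) [NeZero M] [NeZero q]

/-! ### The ring endomorphism -/

/-- The Atkin–Lehner ring endomorphism for `(M, q²)`, at the level spelled `M * q * q`. -/
theorem exists_w2Hom (h : Nat.Coprime M q) :
    ∃ w : FN (M * q * q) →+* FN (M * q * q),
      (∀ c : Kbar, w (algebraMap Kbar (FN (M * q * q)) c) =
        algebraMap Kbar (FN (M * q * q)) c) ∧
      (∀ (e e' : ℕ) [NeZero e] [NeZero e'] (he : e ∣ M * q * q),
        (∃ d d' m m' : ℕ, d * d' = M ∧ m * m' = q * q ∧ e = d * m ∧ e' = d * m') →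
        ((w ⟨FFBridge.gen e, FFBridge.gen_mem he⟩ : FN (M * q * q)) : LaurentSeries Kbar) =
          FFBridge.gen e') := by
  have key : ∀ n : ℕ, n = M * (q * q) →
      ∃ w : FN n →+* FN n,
        (∀ c : Kbar, w (algebraMap Kbar (FN n) c) = algebraMap Kbar (FN n) c) ∧
        (∀ (e e' : ℕ) [NeZero e] [NeZero e'] (he : e ∣ n),
          (∃ d d' m m' : ℕ, d * d' = M ∧ m * m' = q * q ∧ e = d * m ∧ e' = d * m') →
          ((w ⟨FFBridge.gen e, FFBridge.gen_mem he⟩ : FN n) : LaurentSeries Kbar) =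
            FFBridge.gen e') := by
    rintro n rfl
    have h' : Nat.Coprime M (q * q) := Nat.Coprime.mul_right h h
    obtain ⟨u, v, huv⟩ := Nat.isCoprime_iff_coprime.mpr h'
    have hab : v * ((q * q : ℕ) : ℤ) - (-u) * (M : ℤ) = 1 := by linarith
    exact exists_wHom (N := M) (ℓ := q * q) v (-u) hab
  exact key _ (Nat.mul_assoc M q q)

/-- The underlying ring endomorphism of `w₂`. -/
def w2Hom (h : Nat.Coprime M q) : FN (M * q * q) →+* FN (M * q * q) :=
  (exists_w2Hom M q h).choose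

variable {M q}

theorem w2Hom_algebraMap (h : Nat.Coprime M q) (c : Kbar) :
    w2Hom M q h (algebraMap Kbar (FN (M * q * q)) c) = algebraMap Kbar (FN (M * q * q)) c :=
  (exists_w2Hom M q h).choose_spec.1 c

/-- Values on generators: `j(T^(d m)) ↦ j(T^(d m'))`, `d ∣ M`, `m m' = q²`. -/
theorem coe_w2Hom_gen (h : Nat.Coprime M q) {e e' : ℕ} [NeZero e] [NeZero e']
    (he : e ∣ M * q * q) (d d' m m' : ℕ) (hd : d * d' = M) (hm : m * m' = q * q)
    (hee : e = d * m) (hee' : e' = d * m') :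
    ((w2Hom M q h ⟨FFBridge.gen e, FFBridge.gen_mem he⟩ : FN (M * q * q)) :
      LaurentSeries Kbar) = FFBridge.gen e' :=
  (exists_w2Hom M q h).choose_spec.2 e e' he ⟨d, d', m, m', hd, hm, hee, hee'⟩

theorem dvd_of_decomp {e d d' m m' : ℕ} (hd : d * d' = M) (hm : m * m' = q * q)
    (hee : e = d * m) : e ∣ M * q * q := by
  rw [Nat.mul_assoc, ← hd, ← hm, hee]
  exact Nat.mul_dvd_mul (Dvd.intro _ rfl) (Dvd.intro _ rfl)

/-- The same for any element with the given expansion. -/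
theorem coe_w2Hom_of_coe_eq (h : Nat.Coprime M q) {x : FN (M * q * q)} {e e' : ℕ} [NeZero e]
    [NeZero e'] (hx : (x : LaurentSeries Kbar) = FFBridge.gen e) (d d' m m' : ℕ)
    (hd : d * d' = M) (hm : m * m' = q * q) (hee : e = d * m) (hee' : e' = d * m') :
    ((w2Hom M q h x : FN (M * q * q)) : LaurentSeries Kbar) = FFBridge.gen e' := by
  have he : e ∣ M * q * q := dvd_of_decomp hd hm hee
  have hx' : x = ⟨FFBridge.gen e, FFBridge.gen_mem he⟩ := Subtype.ext hx
  rw [hx']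
  exact coe_w2Hom_gen h he d d' m m' hd hm hee hee'

/-- Every divisor of `M q²` is `d m` with `d ∣ M`, `m ∣ q²`. -/
theorem dvd_decomp {e : ℕ} (he : e ∣ M * q * q) :
    ∃ d d' m m' : ℕ, d * d' = M ∧ m * m' = q * q ∧ e = d * m := by
  rw [Nat.mul_assoc] at he
  obtain ⟨d, m, hd, hm, rfl⟩ := Nat.dvd_mul.mp he
  exact ⟨d, M / d, m, q * q / m, Nat.mul_div_cancel' hd, Nat.mul_div_cancel' hm, rfl⟩

/-- `w₂` permutes the generators, involutively. -/
theorem w2Hom_gen_exists (h : Nat.Coprime M q) {e : ℕ} [NeZero e] (he : e ∣ M * q * q) :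
    ∃ (e' : ℕ) (_ : NeZero e') (he' : e' ∣ M * q * q),
      w2Hom M q h ⟨FFBridge.gen e, FFBridge.gen_mem he⟩ =
          ⟨FFBridge.gen e', FFBridge.gen_mem he'⟩ ∧
        w2Hom M q h ⟨FFBridge.gen e', FFBridge.gen_mem he'⟩ =
          ⟨FFBridge.gen e, FFBridge.gen_mem he⟩ := by
  obtain ⟨d, d', m, m', hd, hm, rfl⟩ := dvd_decomp he
  have hd0 : d ≠ 0 := by
    rintro rfl
    exact NeZero.ne M (by rw [← hd, zero_mul])
  have hm'0 : m' ≠ 0 := by
    rintro rfl
    exact (Nat.mul_ne_zero (NeZero.ne q) (NeZero.ne q)) (by rw [← hm, mul_zero])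
  have hm'' : m' * m = q * q := by rw [mul_comm]; exact hm
  have hne : NeZero (d * m') := ⟨Nat.mul_ne_zero hd0 hm'0⟩
  have hdvd : d * m' ∣ M * q * q := dvd_of_decomp hd hm'' rfl
  refine ⟨d * m', hne, hdvd, Subtype.ext ?_, Subtype.ext ?_⟩
  · exact coe_w2Hom_gen h he d d' m m' hd hm rfl rfl
  · exact coe_w2Hom_gen h hdvd d d' m' m hd hm'' rfl rfl

theorem w2Hom_comp_self (h : Nat.Coprime M q) :
    (w2Hom M q h).comp (w2Hom M q h) = RingHom.id (FN (M * q * q)) := by
  refine FFBridge.ringHom_ext (M * q * q) _ _ (fun c => ?_) (fun e _ he => ?_)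
  · show w2Hom M q h (w2Hom M q h (algebraMap Kbar (FN (M * q * q)) c)) =
      algebraMap Kbar (FN (M * q * q)) c
    rw [w2Hom_algebraMap, w2Hom_algebraMap]
  · show w2Hom M q h (w2Hom M q h ⟨FFBridge.gen e, FFBridge.gen_mem he⟩) =
      ⟨FFBridge.gen e, FFBridge.gen_mem he⟩
    obtain ⟨e', _, he', h1, h2⟩ := w2Hom_gen_exists h he
    rw [h1, h2]

/-! ### The involution -/

variable (M q)

/-- **The Atkin–Lehner involution `w₂`** of `F_{Mq²}` (`M`, `q` coprime). -/
def w2 (h : Nat.Coprime M q) : FN (M * q * q) ≃ₐ[Kbar] FN (M * q * q) :=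
  AlgEquiv.ofRingEquiv
    (f := RingEquiv.ofRingHom (w2Hom M q h) (w2Hom M q h) (w2Hom_comp_self h) (w2Hom_comp_self h))
    (w2Hom_algebraMap h)

variable {M q}

theorem w2_apply (h : Nat.Coprime M q) (x : FN (M * q * q)) : w2 M q h x = w2Hom M q h x := rfl

/-- **`w₂² = id`.** -/
theorem w2_w2 (h : Nat.Coprime M q) (x : FN (M * q * q)) : w2 M q h (w2 M q h x) = x :=
  congrArg (fun φ : FN (M * q * q) →+* FN (M * q * q) => φ x) (w2Hom_comp_self h)

theorem w2_symm (h : Nat.Coprime M q) : (w2 M q h).symm = w2 M q h := by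
  refine AlgEquiv.ext fun x => ?_
  exact (AlgEquiv.symm_apply_eq _).mpr (w2_w2 h x).symm

/-- **Values on generators**: `w₂ j(T^(d m)) = j(T^(d m'))` for `d ∣ M`, `m m' = q²`. -/
theorem coe_w2_gen (h : Nat.Coprime M q) {x : FN (M * q * q)} {e e' : ℕ} [NeZero e]
    [NeZero e'] (hx : (x : LaurentSeries Kbar) = FFBridge.gen e) (d d' m m' : ℕ)
    (hd : d * d' = M) (hm : m * m' = q * q) (hee : e = d * m) (hee' : e' = d * m') :
    ((w2 M q h x : FN (M * q * q)) : LaurentSeries Kbar) = FFBridge.gen e' :=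
  coe_w2Hom_of_coe_eq h hx d d' m m' hd hm hee hee'

/-! ### `w₂` and the two copies of `F_{Mq}` -/

/-- **`w₂ ∘ α = β ∘ σ`** (`q` prime). -/
theorem w2_alpha (h : Nat.Coprime M q) (hq : q.Prime) (x : FN (M * q)) :
    w2 M q h (heckeAlphaBar Kbar (M * q) q x) =
      heckeBetaBar Kbar (M * q) q (Sigma.sigma M q h x) := by
  have key : (w2Hom M q h).comp (heckeAlphaBar Kbar (M * q) q).toRingHom =
      ((heckeBetaBar Kbar (M * q) q).toRingHom).comp
        ((Sigma.sigma M q h : FN (M * q) ≃+* FN (M * q)) : FN (M * q) →+* FN (M * q)) := by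
    refine FFBridge.ringHom_ext (M * q) _ _ (fun c => ?_) (fun e _ he => ?_)
    · show w2Hom M q h (heckeAlphaBar Kbar (M * q) q (algebraMap Kbar (FN (M * q)) c)) =
        heckeBetaBar Kbar (M * q) q (Sigma.sigma M q h (algebraMap Kbar (FN (M * q)) c))
      rw [AlgHom.commutes, AlgEquiv.commutes, AlgHom.commutes, w2Hom_algebraMap]
    · show w2Hom M q h (heckeAlphaBar Kbar (M * q) q ⟨FFBridge.gen e, FFBridge.gen_mem he⟩) =
        heckeBetaBar Kbar (M * q) q (Sigma.sigma M q h ⟨FFBridge.gen e, FFBridge.gen_mem he⟩)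
      obtain ⟨d₁, _, hd₁, hc | hc⟩ := Sigma.gen_cases hq he
      · rw [hc, Sigma.sigma_alpha]
        apply Subtype.ext
        have hR : ((heckeBetaBar Kbar (M * q) q (heckeBetaBar Kbar M q
            ⟨FFBridge.gen d₁, FFBridge.gen_mem hd₁⟩) : FN (M * q * q)) : LaurentSeries Kbar) =
            FFBridge.gen (q * (q * d₁)) := by
          rw [coe_heckeBetaBar, coe_heckeBetaBar]
          show qExpand Kbar q (qExpand Kbar q (FFBridge.gen d₁)) = _
          rw [qExpand_gen, qExpand_gen]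
        rw [hR]
        refine coe_w2Hom_of_coe_eq h (e := d₁) ?_ d₁ (M / d₁) 1 (q * q)
          (Nat.mul_div_cancel' hd₁) (one_mul _) (mul_one d₁).symm (by ring)
        rw [coe_heckeAlphaBar, coe_heckeAlphaBar]
      · rw [hc, Sigma.sigma_beta]
        apply Subtype.ext
        have hR : ((heckeBetaBar Kbar (M * q) q (heckeAlphaBar Kbar M q
            ⟨FFBridge.gen d₁, FFBridge.gen_mem hd₁⟩) : FN (M * q * q)) : LaurentSeries Kbar) =
            FFBridge.gen (q * d₁) := by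
          rw [coe_heckeBetaBar, coe_heckeAlphaBar]
          show qExpand Kbar q (FFBridge.gen d₁) = _
          rw [qExpand_gen]
        rw [hR]
        refine coe_w2Hom_of_coe_eq h (e := q * d₁) ?_ d₁ (M / d₁) q q
          (Nat.mul_div_cancel' hd₁) rfl (mul_comm q d₁) (mul_comm q d₁)
        rw [coe_heckeAlphaBar, coe_heckeBetaBar]
        show qExpand Kbar q (FFBridge.gen d₁) = _
        rw [qExpand_gen]
  exact congrArg (fun φ : FN (M * q) →+* FN (M * q * q) => φ x) key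

/-- **`w₂ ∘ β = α ∘ σ`** (`q` prime). -/
theorem w2_beta (h : Nat.Coprime M q) (hq : q.Prime) (x : FN (M * q)) :
    w2 M q h (heckeBetaBar Kbar (M * q) q x) =
      heckeAlphaBar Kbar (M * q) q (Sigma.sigma M q h x) := by
  have key : (w2Hom M q h).comp (heckeBetaBar Kbar (M * q) q).toRingHom =
      ((heckeAlphaBar Kbar (M * q) q).toRingHom).comp
        ((Sigma.sigma M q h : FN (M * q) ≃+* FN (M * q)) : FN (M * q) →+* FN (M * q)) := by
    refine FFBridge.ringHom_ext (M * q) _ _ (fun c => ?_) (fun e _ he => ?_)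
    · show w2Hom M q h (heckeBetaBar Kbar (M * q) q (algebraMap Kbar (FN (M * q)) c)) =
        heckeAlphaBar Kbar (M * q) q (Sigma.sigma M q h (algebraMap Kbar (FN (M * q)) c))
      rw [AlgHom.commutes, AlgEquiv.commutes, AlgHom.commutes, w2Hom_algebraMap]
    · show w2Hom M q h (heckeBetaBar Kbar (M * q) q ⟨FFBridge.gen e, FFBridge.gen_mem he⟩) =
        heckeAlphaBar Kbar (M * q) q (Sigma.sigma M q h ⟨FFBridge.gen e, FFBridge.gen_mem he⟩)
      obtain ⟨d₁, _, hd₁, hc | hc⟩ := Sigma.gen_cases hq he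
      · rw [hc, Sigma.sigma_alpha]
        apply Subtype.ext
        have hR : ((heckeAlphaBar Kbar (M * q) q (heckeBetaBar Kbar M q
            ⟨FFBridge.gen d₁, FFBridge.gen_mem hd₁⟩) : FN (M * q * q)) : LaurentSeries Kbar) =
            FFBridge.gen (q * d₁) := by
          rw [coe_heckeAlphaBar, coe_heckeBetaBar]
          show qExpand Kbar q (FFBridge.gen d₁) = _
          rw [qExpand_gen]
        rw [hR]
        refine coe_w2Hom_of_coe_eq h (e := q * d₁) ?_ d₁ (M / d₁) q q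
          (Nat.mul_div_cancel' hd₁) rfl (mul_comm q d₁) (mul_comm q d₁)
        rw [coe_heckeBetaBar, coe_heckeAlphaBar]
        show qExpand Kbar q (FFBridge.gen d₁) = _
        rw [qExpand_gen]
      · rw [hc, Sigma.sigma_beta]
        apply Subtype.ext
        have hR : ((heckeAlphaBar Kbar (M * q) q (heckeAlphaBar Kbar M q
            ⟨FFBridge.gen d₁, FFBridge.gen_mem hd₁⟩) : FN (M * q * q)) : LaurentSeries Kbar) =
            FFBridge.gen d₁ := by
          rw [coe_heckeAlphaBar, coe_heckeAlphaBar]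
        rw [hR]
        refine coe_w2Hom_of_coe_eq h (e := q * (q * d₁)) ?_ d₁ (M / d₁) (q * q) 1
          (Nat.mul_div_cancel' hd₁) (mul_one _) (by ring) (mul_one d₁).symm
        rw [coe_heckeBetaBar, coe_heckeBetaBar]
        show qExpand Kbar q (qExpand Kbar q (FFBridge.gen d₁)) = _
        rw [qExpand_gen, qExpand_gen]
  exact congrArg (fun φ : FN (M * q) →+* FN (M * q * q) => φ x) key

/-! ### `w₂` commutes with the Galois action -/

/-- **`w₂` commutes with the coefficientwise action of `Gal(Q̄/ℚ)`.** -/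
theorem galois_smul_w2 (h : Nat.Coprime M q) (τ : Kbar ≃ₐ[ℚ] Kbar) (x : FN (M * q * q)) :
    arithmeticGalois (modularFunctionFieldFull (M * q * q)) τ • w2 M q h x =
      w2 M q h (arithmeticGalois (modularFunctionFieldFull (M * q * q)) τ • x) := by
  set g : SemilinearAut Kbar (FN (M * q * q)) :=
    arithmeticGalois (modularFunctionFieldFull (M * q * q)) τ with hg
  have key : ((SemilinearAut.toRingAut g : FN (M * q * q) ≃+* FN (M * q * q)) :
        FN (M * q * q) →+* FN (M * q * q)).comp (w2Hom M q h) =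
      (w2Hom M q h).comp
        ((SemilinearAut.toRingAut g : FN (M * q * q) ≃+* FN (M * q * q)) :
          FN (M * q * q) →+* FN (M * q * q)) := by
    refine FFBridge.ringHom_ext (M * q * q) _ _ (fun a => ?_) (fun e _ he => ?_)
    · show g • w2Hom M q h (algebraMap Kbar (FN (M * q * q)) a) =
        w2Hom M q h (g • algebraMap Kbar (FN (M * q * q)) a)
      rw [w2Hom_algebraMap, SemilinearAut.smul_algebraMap, w2Hom_algebraMap]
    · show g • w2Hom M q h ⟨FFBridge.gen e, FFBridge.gen_mem he⟩ =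
        w2Hom M q h (g • ⟨FFBridge.gen e, FFBridge.gen_mem he⟩)
      obtain ⟨e', _, he', h1, _⟩ := w2Hom_gen_exists h he
      rw [hg, Sigma.galois_smul_gen (M * q * q) τ he, h1,
        Sigma.galois_smul_gen (M * q * q) τ he']
  exact congrArg (fun φ : FN (M * q * q) →+* FN (M * q * q) => φ x) key

/-! ### The package -/

/-- **[EMB], `w₂`** (board #3079). -/
theorem exists_w2 (M q : ℕ) [NeZero M] [NeZero q] (hq : q.Prime) (h : Nat.Coprime M q) :
    ∃ w : FN (M * q * q) ≃ₐ[Kbar] FN (M * q * q),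
      (∀ x : FN (M * q), w (heckeAlphaBar Kbar (M * q) q x) =
        heckeBetaBar Kbar (M * q) q (Sigma.sigma M q h x)) ∧
      (∀ x : FN (M * q), w (heckeBetaBar Kbar (M * q) q x) =
        heckeAlphaBar Kbar (M * q) q (Sigma.sigma M q h x)) ∧
      (∀ x, w (w x) = x) ∧
      (∀ (τ : Kbar ≃ₐ[ℚ] Kbar) (x : FN (M * q * q)),
        arithmeticGalois (modularFunctionFieldFull (M * q * q)) τ • w x =
          w (arithmeticGalois (modularFunctionFieldFull (M * q * q)) τ • x)) :=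
  ⟨w2 M q h, w2_alpha h hq, w2_beta h hq, w2_w2 h, galois_smul_w2 h⟩

/-! ### The elements `j`, `j_q`, `j_{q²}` -/

/-- `j(T^d) = (T ↦ T^d) j`. -/
theorem gen_eq_qExpand (d : ℕ) [NeZero d] :
    FFBridge.gen d = qExpand Kbar d (jqModC Kbar) := by
  rw [FFBridge.gen, coeffEmb, coeffMap_qExpand, ← jqModC_rat, coeffMap_jqModC]

theorem gen_one : FFBridge.gen 1 = jqModC Kbar := by
  rw [gen_eq_qExpand, qExpand_one_apply]

theorem gen_congr {d d' : ℕ} [NeZero d] [NeZero d'] (h : d = d') :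
    FFBridge.gen d = FFBridge.gen d' := by
  subst h
  rfl

theorem coe_jBar' (n : ℕ) [NeZero n] : ((jBar n : FN n) : LaurentSeries Kbar) = jqModC Kbar := by
  show coeffEmb Kbar jq = jqModC Kbar
  rw [coeffEmb, ← jqModC_rat, coeffMap_jqModC]

theorem coe_jBar (n : ℕ) [NeZero n] : ((jBar n : FN n) : LaurentSeries Kbar) = FFBridge.gen 1 := by
  rw [coe_jBar', gen_one]

theorem coe_jBarLevel (n : ℕ) [NeZero n] (d : ℕ) [NeZero d] (hd : d ∣ n) :
    ((jBarLevel n d hd : FN n) : LaurentSeries Kbar) = FFBridge.gen d := rfl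

variable (M q)

theorem q_dvd_level : q ∣ M * q * q := Dvd.intro_left _ rfl

theorem qq_dvd_level : q * q ∣ M * q * q := by
  rw [Nat.mul_assoc]
  exact Dvd.intro_left _ rfl

/-- `j_q = j(T^q)` as an element of `F_{Mq²}`. -/
def jQ : FN (M * q * q) := jBarLevel (M * q * q) q (q_dvd_level M q)

/-- `j_{q²} = j(T^(q²))` as an element of `F_{Mq²}`. -/
def jQQ : FN (M * q * q) := jBarLevel (M * q * q) (q * q) (qq_dvd_level M q)

variable {M q}

theorem coe_jQ : ((jQ M q : FN (M * q * q)) : LaurentSeries Kbar) = FFBridge.gen q := rfl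

theorem coe_jQQ : ((jQQ M q : FN (M * q * q)) : LaurentSeries Kbar) = FFBridge.gen (q * q) := rfl

theorem coe_jBar_eq : ((jBar (M * q * q) : FN (M * q * q)) : LaurentSeries Kbar) = jqModC Kbar :=
  coe_jBar' _

theorem coe_jQ_eq :
    ((jQ M q : FN (M * q * q)) : LaurentSeries Kbar) = qExpand Kbar q (jqModC Kbar) := by
  rw [coe_jQ, gen_eq_qExpand]

theorem coe_jQQ_eq :
    ((jQQ M q : FN (M * q * q)) : LaurentSeries Kbar) = qExpand Kbar (q * q) (jqModC Kbar) := by
  rw [coe_jQQ, gen_eq_qExpand]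

/-- `j = α j`. -/
theorem jBar_eq_alpha : jBar (M * q * q) = heckeAlphaBar Kbar (M * q) q (jBar (M * q)) :=
  Subtype.ext rfl

/-- `j_q = α j_q`. -/
theorem jQ_eq_alpha : jQ M q = heckeAlphaBar Kbar (M * q) q (Sigma.jQ M q) := by
  apply Subtype.ext
  rw [coe_heckeAlphaBar, coe_jQ, gen_eq_qExpand, Sigma.jQ, coe_heckeBetaBar, coe_jBar']

/-- `j_q = β j`. -/
theorem jQ_eq_beta : jQ M q = heckeBetaBar Kbar (M * q) q (jBar (M * q)) := by
  apply Subtype.ext
  rw [coe_heckeBetaBar, coe_jQ, gen_eq_qExpand, coe_jBar']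

/-- `j_{q²} = β j_q`. -/
theorem jQQ_eq_beta : jQQ M q = heckeBetaBar Kbar (M * q) q (Sigma.jQ M q) := by
  apply Subtype.ext
  rw [coe_heckeBetaBar, coe_jQQ, gen_eq_qExpand, Sigma.jQ, coe_heckeBetaBar, coe_jBar',
    qExpand_qExpand]

/-- **`w₂ j = j(T^(q²))`.** -/
theorem w2_jBar (h : Nat.Coprime M q) : w2 M q h (jBar (M * q * q)) = jQQ M q := by
  apply Subtype.ext
  rw [coe_jQQ]
  exact coe_w2_gen h (coe_jBar (M * q * q)) 1 M 1 (q * q) (one_mul M) (one_mul _) (one_mul 1).symm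
    (one_mul _).symm

/-- **`w₂ j(T^q) = j(T^q)`.** -/
theorem w2_jQ (h : Nat.Coprime M q) : w2 M q h (jQ M q) = jQ M q := by
  apply Subtype.ext
  rw [coe_jQ]
  exact coe_w2_gen h (coe_jQ (M := M) (q := q)) 1 M q q (one_mul M) rfl (one_mul q).symm
    (one_mul q).symm

/-- **`w₂ j(T^(q²)) = j`.** -/
theorem w2_jQQ (h : Nat.Coprime M q) : w2 M q h (jQQ M q) = jBar (M * q * q) := by
  rw [← w2_jBar h, w2_w2]

theorem coe_w2_jBar (h : Nat.Coprime M q) :
    ((w2 M q h (jBar (M * q * q)) : FN (M * q * q)) : LaurentSeries Kbar) =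
      qExpand Kbar (q * q) (jqModC Kbar) := by
  rw [w2_jBar, coe_jQQ_eq]

theorem coe_w2_jQ (h : Nat.Coprime M q) :
    ((w2 M q h (jQ M q) : FN (M * q * q)) : LaurentSeries Kbar) =
      qExpand Kbar q (jqModC Kbar) := by
  rw [w2_jQ, coe_jQ_eq]

theorem coe_w2_jQQ (h : Nat.Coprime M q) :
    ((w2 M q h (jQQ M q) : FN (M * q * q)) : LaurentSeries Kbar) = jqModC Kbar := by
  rw [w2_jQQ, coe_jBar_eq]

/-- The Galois group fixes `j`, `j_q`, `j_{q²}`. -/
theorem galois_smul_jQ (τ : Kbar ≃ₐ[ℚ] Kbar) :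
    arithmeticGalois (modularFunctionFieldFull (M * q * q)) τ • jQ M q = jQ M q :=
  Sigma.galois_smul_gen (M * q * q) τ (q_dvd_level M q)

theorem galois_smul_jQQ (τ : Kbar ≃ₐ[ℚ] Kbar) :
    arithmeticGalois (modularFunctionFieldFull (M * q * q)) τ • jQQ M q = jQQ M q :=
  Sigma.galois_smul_gen (M * q * q) τ (qq_dvd_level M q)

/-! ### The expansion at the cusp `0` -/

variable (M q)

/-- **The expansion of `F_{Mq²}` at the cusp `0`**: `r₀ = (F ⊆ Q̄((T))) ∘ w₂`. -/
def r0 (h : Nat.Coprime M q) : FN (M * q * q) →ₐ[Kbar] LaurentSeries Kbar :=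
  (IntermediateField.val (modularFunctionFieldBar (M * q * q))).comp
    (w2 M q h : FN (M * q * q) →ₐ[Kbar] FN (M * q * q))

variable {M q}

theorem r0_apply (h : Nat.Coprime M q) (x : FN (M * q * q)) :
    r0 M q h x = ((w2 M q h x : FN (M * q * q)) : LaurentSeries Kbar) := rfl

theorem r0_w2 (h : Nat.Coprime M q) (x : FN (M * q * q)) :
    r0 M q h (w2 M q h x) = (x : LaurentSeries Kbar) := by
  rw [r0_apply, w2_w2]

/-- `r₀ ∘ α = (T ↦ T^q) ∘ σ`. -/
theorem r0_alpha (h : Nat.Coprime M q) (hq : q.Prime) (x : FN (M * q)) :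
    r0 M q h (heckeAlphaBar Kbar (M * q) q x) =
      qExpand Kbar q ((Sigma.sigma M q h x : FN (M * q)) : LaurentSeries Kbar) := by
  rw [r0_apply, w2_alpha h hq, coe_heckeBetaBar]

/-- `r₀ ∘ β = σ`. -/
theorem r0_beta (h : Nat.Coprime M q) (hq : q.Prime) (x : FN (M * q)) :
    r0 M q h (heckeBetaBar Kbar (M * q) q x) =
      ((Sigma.sigma M q h x : FN (M * q)) : LaurentSeries Kbar) := by
  rw [r0_apply, w2_beta h hq, coe_heckeAlphaBar]

theorem r0_jBar (h : Nat.Coprime M q) :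
    r0 M q h (jBar (M * q * q)) = qExpand Kbar (q * q) (jqModC Kbar) := coe_w2_jBar h

theorem r0_jQ (h : Nat.Coprime M q) : r0 M q h (jQ M q) = qExpand Kbar q (jqModC Kbar) :=
  coe_w2_jQ h

theorem r0_jQQ (h : Nat.Coprime M q) : r0 M q h (jQQ M q) = jqModC Kbar := coe_w2_jQQ h

/-- `r₀` commutes with the coefficientwise Galois action. -/
theorem coeffMap_r0 (h : Nat.Coprime M q) (τ : Kbar ≃ₐ[ℚ] Kbar) (x : FN (M * q * q)) :
    coeffMap (τ : Kbar →+* Kbar) (r0 M q h x) =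
      r0 M q h (arithmeticGalois (modularFunctionFieldFull (M * q * q)) τ • x) := by
  rw [r0_apply, r0_apply, ← galois_smul_w2 h τ x]
  rfl

/-! ### Reductions -/

section Reduction

open Fermat.Agent.S18.Content Fermat.Agent.S18.Plan Fermat.Agent.Lib.KroneckerCong

variable (A : ValuationSubring Kbar)

/-- `w₂ (α x) = β (σ x)` has the reduction `(σ x)‾(T^q)`. -/
theorem red_w2_alpha (h : Nat.Coprime M q) (hq : q.Prime) {x : FN (M * q)}
    (hx : ((Sigma.sigma M q h x : FN (M * q)) : Om) ∈ Ocal A) :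
    ∃ hc : ((w2 M q h (heckeAlphaBar Kbar (M * q) q x) : FN (M * q * q)) : Om) ∈ Ocal A,
      red A ⟨_, hc⟩ = qExpand (kk A) q (red A ⟨_, hx⟩) := by
  rw [w2_alpha h hq]
  exact Sigma.red_beta A hx

/-- `w₂ (β x) = α (σ x)` has the reduction of `σ x`. -/
theorem red_w2_beta (h : Nat.Coprime M q) (hq : q.Prime) {x : FN (M * q)}
    (hx : ((Sigma.sigma M q h x : FN (M * q)) : Om) ∈ Ocal A) :
    ∃ hc : ((w2 M q h (heckeBetaBar Kbar (M * q) q x) : FN (M * q * q)) : Om) ∈ Ocal A,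
      red A ⟨_, hc⟩ = red A ⟨_, hx⟩ := by
  rw [w2_beta h hq]
  exact Sigma.red_alpha A hx

/-- If `w₂ g ∈ Ocal` then `w₂ (τ g) ∈ Ocal` and `red (w₂ (τ g)) = τ̄ (red (w₂ g))`, for `τ` in the
decomposition group of `A`. -/
theorem red_w2_galois (h : Nat.Coprime M q) (s : A.decompositionSubgroup ℚ) (g : FN (M * q * q))
    (hg : ((w2 M q h g : FN (M * q * q)) : Om) ∈ Ocal A) :
    ∃ hc : ((w2 M q h (Fermat.Agent.S37.Gal.gK A (M * q * q) s • g) : FN (M * q * q)) : Om) ∈
        Ocal A,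
      red A ⟨_, hc⟩ = coeffMap (Fermat.Agent.S37.Gal.sigmaBar A s) (red A ⟨_, hg⟩) := by
  rw [← galois_smul_w2 h]
  exact ⟨Fermat.Agent.S37.Gal.coeffMap_mem_Ocal A s hg,
    Fermat.Agent.S37.Gal.red_coeffMap A s _ hg⟩

end Reduction

/-! ### Places and divisors -/

variable (M q)

/-- `w₂` as a semilinear automorphism of `F_{Mq²}` (acting on places and divisors). -/
def w2S (h : Nat.Coprime M q) : SemilinearAut Kbar (FN (M * q * q)) :=
  SemilinearAut.ofAlgAut (w2 M q h)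

variable {M q}

theorem w2S_smul (h : Nat.Coprime M q) (x : FN (M * q * q)) : w2S M q h • x = w2 M q h x := rfl

/-- `w₂` is an involution on functions, places and divisors. -/
theorem w2S_mul_self (h : Nat.Coprime M q) : w2S M q h * w2S M q h = 1 := by
  refine Subtype.ext (Prod.ext (RingEquiv.ext fun x => ?_) rfl)
  exact w2_w2 h x

/-- `w₂` commutes with the Galois action, as semilinear automorphisms. -/
theorem galois_mul_w2S (h : Nat.Coprime M q) (τ : Kbar ≃ₐ[ℚ] Kbar) :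
    arithmeticGalois (modularFunctionFieldFull (M * q * q)) τ * w2S M q h =
      w2S M q h * arithmeticGalois (modularFunctionFieldFull (M * q * q)) τ := by
  refine Subtype.ext (Prod.ext (RingEquiv.ext fun x => ?_) ?_)
  · exact galois_smul_w2 h τ x
  · show (arithmeticGalois (modularFunctionFieldFull (M * q * q)) τ).val.2 * 1 =
      1 * (arithmeticGalois (modularFunctionFieldFull (M * q * q)) τ).val.2
    rw [mul_one, one_mul]

/-- `w₂` exchanges the pole divisors of `j` and `j_{q²}` and fixes that of `j_q`. -/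
theorem w2S_smul_poleDivisor_j (h : Nat.Coprime M q) (Cj Cqq : Divisor Kbar (FN (M * q * q)))
    (hCj : ∀ P, Cj P = max 0 (-(P.ord (jBar (M * q * q)))))
    (hCqq : ∀ P, Cqq P = max 0 (-(P.ord (jQQ M q)))) : w2S M q h • Cj = Cqq :=
  Sigma.smul_poleDivisor (w2S M q h) (jBar (M * q * q)) Cj Cqq hCj (fun P => by
    rw [w2S_smul, w2_jBar]; exact hCqq P)

theorem w2S_smul_poleDivisor_jQQ (h : Nat.Coprime M q) (Cj Cqq : Divisor Kbar (FN (M * q * q)))
    (hCj : ∀ P, Cj P = max 0 (-(P.ord (jBar (M * q * q)))))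
    (hCqq : ∀ P, Cqq P = max 0 (-(P.ord (jQQ M q)))) : w2S M q h • Cqq = Cj :=
  Sigma.smul_poleDivisor (w2S M q h) (jQQ M q) Cqq Cj hCqq (fun P => by
    rw [w2S_smul, w2_jQQ]; exact hCj P)

theorem w2S_smul_poleDivisor_jQ (h : Nat.Coprime M q) (Cq : Divisor Kbar (FN (M * q * q)))
    (hCq : ∀ P, Cq P = max 0 (-(P.ord (jQ M q)))) : w2S M q h • Cq = Cq :=
  Sigma.smul_poleDivisor (w2S M q h) (jQ M q) Cq Cq hCq (fun P => by
    rw [w2S_smul, w2_jQ]; exact hCq P)

/-- `E = (j)_∞ + (j_q)_∞ + (j_{q²})_∞` is `w₂`-stable. -/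
theorem w2S_smul_E (h : Nat.Coprime M q) (Cj Cq Cqq : Divisor Kbar (FN (M * q * q)))
    (hCj : ∀ P, Cj P = max 0 (-(P.ord (jBar (M * q * q)))))
    (hCq : ∀ P, Cq P = max 0 (-(P.ord (jQ M q))))
    (hCqq : ∀ P, Cqq P = max 0 (-(P.ord (jQQ M q)))) :
    w2S M q h • (Cj + Cq + Cqq) = Cj + Cq + Cqq := by
  rw [smul_add, smul_add, w2S_smul_poleDivisor_j h Cj Cqq hCj hCqq,
    w2S_smul_poleDivisor_jQQ h Cj Cqq hCj hCqq, w2S_smul_poleDivisor_jQ h Cq hCq]
  abel

/-- `E = (j)_∞ + (j_q)_∞ + (j_{q²})_∞` is Galois-stable. -/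
theorem galois_smul_E (τ : Kbar ≃ₐ[ℚ] Kbar) (Cj Cq Cqq : Divisor Kbar (FN (M * q * q)))
    (hCj : ∀ P, Cj P = max 0 (-(P.ord (jBar (M * q * q)))))
    (hCq : ∀ P, Cq P = max 0 (-(P.ord (jQ M q))))
    (hCqq : ∀ P, Cqq P = max 0 (-(P.ord (jQQ M q)))) :
    arithmeticGalois (modularFunctionFieldFull (M * q * q)) τ • (Cj + Cq + Cqq) =
      Cj + Cq + Cqq := by
  rw [smul_add, smul_add,
    Sigma.smul_poleDivisor _ (jBar (M * q * q)) Cj Cj hCj (fun P => by
      rw [Sigma.galois_smul_jBar]; exact hCj P),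
    Sigma.smul_poleDivisor _ (jQ M q) Cq Cq hCq (fun P => by
      rw [galois_smul_jQ]; exact hCq P),
    Sigma.smul_poleDivisor _ (jQQ M q) Cqq Cqq hCqq (fun P => by
      rw [galois_smul_jQQ]; exact hCqq P)]

end Fermat.Agent.S36.Emb

end
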