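/-
P8 / S36, block [EMB] (helper49): **`Plan.FrameStmt`** — the level-`q²` frame exists — and the
laws of the Atkin–Lehner half `w` of an ARBITRARY frame `F : Plan.Frame M q h` (the middle half
is `S36/FrameInst`, helper58).

* `frame`, `frameStmt`   : the frame (`w = Emb.w2`, `r = MidFam.midEmb`); `Plan.FrameStmt M q h`;
* `ringHom_ext_alpha_beta` : a ring hom out of `F_{Mq²}` is determined on `α F_{Mq}` and `β F_{Mq}`;
* `w_eq_w2`, `frame_unique` : the `w` of a frame is `Emb.w2`; a frame is unique;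
* `w_w`, `galois_smul_w` : `w² = id`, `w` commutes with `Gal(Q̄/ℚ)`;
* `w_jBar`, `w_jQ`, `w_jQQ` : `w` exchanges `j` and `j(T^(q²))` and fixes `j(T^q)`;
* `emb_*`                : the `q + 1` expansions of `j`, `j(T^q)`, `j(T^(q²))`, and of `α x`,
                           `β x`, `x ∈ F_{Mq}`;
* `galCoord`, `coeffMap_emb` : Galois equivariance `σ (ε_i x) = ε_{σ i} (σ x)` of the family of
                           expansions (`σ` permutes the middle coordinates through `ξ ↦ σ ξ`).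
-/
import Mathlib
import Fermat.Agent.S36.Emb
import Fermat.Agent.S36.FrameInst

set_option autoImplicit false
set_option linter.style.haveILetI false
set_option linter.unusedSectionVars false

noncomputable section

namespace Fermat.Agent.S36.EmbFrame

open ModularCurve AlgebraicCurve Fermat.Agent.S24 Fermat.Agent.S18.Plan Fermat.Agent.S34
  Fermat.Agent.Lib

set_option synthInstance.maxHeartbeats 400000
set_option maxHeartbeats 1600000

variable {M q : ℕ} [NeZero M] [NeZero q]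

/-! ### The frame -/

/-- **The level-`q²` frame**: `w = Emb.w2`, `r ξ = MidFam.midEmb`. -/
def frame (hq : q.Prime) (h : Nat.Coprime M q) : Plan.Frame M q h :=
  FrameInst.frameOfW hq h (Emb.w2 M q h) (Emb.w2_alpha h hq) (Emb.w2_beta h hq)

/-- **[EMB]** the frame exists. -/
theorem frameStmt (hq : q.Prime) (h : Nat.Coprime M q) : Plan.FrameStmt M q h :=
  ⟨frame hq h⟩

theorem frame_w (hq : q.Prime) (h : Nat.Coprime M q) : (frame hq h).w = Emb.w2 M q h := rfl

/-! ### Uniqueness -/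

/-- A ring hom out of `F_{Mq²}` is determined by its values on the two copies `α F_{Mq}`,
`β F_{Mq}` of `F_{Mq}`. -/
theorem ringHom_ext_alpha_beta (hq : q.Prime) {S : Type*} [DivisionRing S]
    (φ ψ : FN (M * q * q) →+* S)
    (hα : ∀ x : FN (M * q),
      φ (heckeAlphaBar Kbar (M * q) q x) = ψ (heckeAlphaBar Kbar (M * q) q x))
    (hβ : ∀ x : FN (M * q),
      φ (heckeBetaBar Kbar (M * q) q x) = ψ (heckeBetaBar Kbar (M * q) q x)) : φ = ψ := by
  refine FFBridge.ringHom_ext (M * q * q) _ _ (fun c => ?_) (fun e _ he => ?_)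
  · have h1 := hα (algebraMap Kbar (FN (M * q)) c)
    rwa [AlgHom.commutes] at h1
  · rcases MidEmb.gen_cases hq he with ⟨h1, hc⟩ | ⟨d, _, hd, hc⟩
    · rw [hc]
      exact hα _
    · rw [hc]
      exact hβ _

variable {h : Nat.Coprime M q}

/-- The involution of a frame is `Emb.w2`. -/
theorem w_eq_w2 (hq : q.Prime) (F : Plan.Frame M q h) : F.w = Emb.w2 M q h := by
  have key : ((F.w : FN (M * q * q) ≃+* FN (M * q * q)) : FN (M * q * q) →+* FN (M * q * q)) =
      ((Emb.w2 M q h : FN (M * q * q) ≃+* FN (M * q * q)) :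
        FN (M * q * q) →+* FN (M * q * q)) := by
    refine ringHom_ext_alpha_beta hq _ _ (fun x => ?_) (fun x => ?_)
    · show F.w (heckeAlphaBar Kbar (M * q) q x) = Emb.w2 M q h (heckeAlphaBar Kbar (M * q) q x)
      rw [F.w_alpha, Emb.w2_alpha h hq]
    · show F.w (heckeBetaBar Kbar (M * q) q x) = Emb.w2 M q h (heckeBetaBar Kbar (M * q) q x)
      rw [F.w_beta, Emb.w2_beta h hq]
  exact AlgEquiv.ext fun x => RingHom.congr_fun key x

/-- **`w² = id`** for any frame. -/
theorem w_w (hq : q.Prime) (F : Plan.Frame M q h) (x : FN (M * q * q)) : F.w (F.w x) = x := by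
  rw [w_eq_w2 hq F]
  exact Emb.w2_w2 h x

theorem w_symm (hq : q.Prime) (F : Plan.Frame M q h) : F.w.symm = F.w := by
  rw [w_eq_w2 hq F]
  exact Emb.w2_symm h

/-- **`w` commutes with the coefficientwise action of `Gal(Q̄/ℚ)`**, for any frame. -/
theorem galois_smul_w (hq : q.Prime) (F : Plan.Frame M q h) (τ : Kbar ≃ₐ[ℚ] Kbar)
    (x : FN (M * q * q)) :
    arithmeticGalois (modularFunctionFieldFull (M * q * q)) τ • F.w x =
      F.w (arithmeticGalois (modularFunctionFieldFull (M * q * q)) τ • x) := by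
  rw [w_eq_w2 hq F]
  exact Emb.galois_smul_w2 h τ x

/-- A frame is unique: all expansions agree. -/
theorem emb_unique (hq : q.Prime) (F F' : Plan.Frame M q h) (i : Plan.Coord q) :
    F.emb i = F'.emb i := by
  cases i with
  | inf => rfl
  | zero =>
      refine AlgHom.ext fun x => ?_
      rw [Plan.Frame.emb_zero, Plan.Frame.emb_zero, w_eq_w2 hq F, w_eq_w2 hq F']
  | mid ξ =>
      show F.r ξ = F'.r ξ
      exact FrameInst.r_unique hq F F' ξ

/-! ### The elements `j`, `j(T^q)`, `j(T^(q²))` -/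

theorem w_jBar (hq : q.Prime) (F : Plan.Frame M q h) : F.w (jBar (M * q * q)) = Emb.jQQ M q := by
  rw [w_eq_w2 hq F]
  exact Emb.w2_jBar h

theorem w_jQ (hq : q.Prime) (F : Plan.Frame M q h) : F.w (Emb.jQ M q) = Emb.jQ M q := by
  rw [w_eq_w2 hq F]
  exact Emb.w2_jQ h

theorem w_jQQ (hq : q.Prime) (F : Plan.Frame M q h) : F.w (Emb.jQQ M q) = jBar (M * q * q) := by
  rw [w_eq_w2 hq F]
  exact Emb.w2_jQQ h

/-! #### the `∞`-coordinate -/

theorem emb_inf_jBar (F : Plan.Frame M q h) : F.emb .inf (jBar (M * q * q)) = jK :=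
  Emb.coe_jBar_eq (M := M) (q := q)

theorem emb_inf_jQ (F : Plan.Frame M q h) : F.emb .inf (Emb.jQ M q) = qExpand Kbar q jK :=
  Emb.coe_jQ_eq (M := M) (q := q)

theorem emb_inf_jQQ (F : Plan.Frame M q h) :
    F.emb .inf (Emb.jQQ M q) = qExpand Kbar (q * q) jK :=
  Emb.coe_jQQ_eq (M := M) (q := q)

theorem emb_inf_alpha (F : Plan.Frame M q h) (x : FN (M * q)) :
    F.emb .inf (heckeAlphaBar Kbar (M * q) q x) = (x : Om) := by
  rw [Plan.Frame.emb_inf, coe_heckeAlphaBar]

theorem emb_inf_beta (F : Plan.Frame M q h) (x : FN (M * q)) :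
    F.emb .inf (heckeBetaBar Kbar (M * q) q x) = qExpand Kbar q (x : Om) := by
  rw [Plan.Frame.emb_inf, coe_heckeBetaBar]

/-! #### the `0`-coordinate -/

theorem emb_zero_jBar (hq : q.Prime) (F : Plan.Frame M q h) :
    F.emb .zero (jBar (M * q * q)) = qExpand Kbar (q * q) jK := by
  rw [Plan.Frame.emb_zero, w_jBar hq F]
  exact Emb.coe_jQQ_eq

theorem emb_zero_jQ (hq : q.Prime) (F : Plan.Frame M q h) :
    F.emb .zero (Emb.jQ M q) = qExpand Kbar q jK := by
  rw [Plan.Frame.emb_zero, w_jQ hq F]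
  exact Emb.coe_jQ_eq

theorem emb_zero_jQQ (hq : q.Prime) (F : Plan.Frame M q h) :
    F.emb .zero (Emb.jQQ M q) = jK := by
  rw [Plan.Frame.emb_zero, w_jQQ hq F]
  exact Emb.coe_jBar_eq

theorem emb_zero_alpha (F : Plan.Frame M q h) (x : FN (M * q)) :
    F.emb .zero (heckeAlphaBar Kbar (M * q) q x) =
      qExpand Kbar q ((Sigma.sigma M q h x : FN (M * q)) : Om) := by
  rw [Plan.Frame.emb_zero, F.w_alpha, coe_heckeBetaBar]

theorem emb_zero_beta (F : Plan.Frame M q h) (x : FN (M * q)) :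
    F.emb .zero (heckeBetaBar Kbar (M * q) q x) =
      ((Sigma.sigma M q h x : FN (M * q)) : Om) := by
  rw [Plan.Frame.emb_zero, F.w_beta, coe_heckeAlphaBar]

/-- `ε_0 (w x) = ε_∞ x`. -/
theorem emb_zero_w (hq : q.Prime) (F : Plan.Frame M q h) (x : FN (M * q * q)) :
    F.emb .zero (F.w x) = (x : Om) := by
  rw [Plan.Frame.emb_zero, w_w hq F]

/-- `ε_∞ (w x) = ε_0 x`. -/
theorem emb_inf_w (F : Plan.Frame M q h) (x : FN (M * q * q)) :
    F.emb .inf (F.w x) = F.emb .zero x := rfl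

/-! #### the middle coordinates -/

theorem emb_mid_jBar (F : Plan.Frame M q h) (ξ : Plan.MidIdx q) :
    F.emb (.mid ξ) (jBar (M * q * q)) = jK := by
  rw [Plan.Frame.emb_mid, Emb.jBar_eq_alpha, F.r_alpha]
  exact Emb.coe_jBar' _

theorem emb_mid_jQ (F : Plan.Frame M q h) (ξ : Plan.MidIdx q) :
    F.emb (.mid ξ) (Emb.jQ M q) = qExpand Kbar q jK := by
  rw [Plan.Frame.emb_mid, Emb.jQ_eq_alpha, F.r_alpha, Sigma.jQ, coe_heckeBetaBar, Emb.coe_jBar']

theorem emb_mid_jQQ (F : Plan.Frame M q h) (ξ : Plan.MidIdx q) :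
    F.emb (.mid ξ) (Emb.jQQ M q) = Fermat.Agent.S28.scale ξ.1 jK := by
  rw [Plan.Frame.emb_mid, Emb.jQQ_eq_beta, Sigma.jQ, F.r_beta, Emb.coe_jBar']

theorem emb_mid_alpha (F : Plan.Frame M q h) (ξ : Plan.MidIdx q) (x : FN (M * q)) :
    F.emb (.mid ξ) (heckeAlphaBar Kbar (M * q) q x) = (x : Om) :=
  F.r_alpha ξ x

theorem emb_mid_beta (hq : q.Prime) (F : Plan.Frame M q h) (ξ : Plan.MidIdx q)
    (x : FN (M * q)) :
    F.emb (.mid ξ) (heckeBetaBar Kbar (M * q) q x) =
      Fermat.Agent.S28.scale ξ.1 ((Sigma.sigma M q h x : FN (M * q)) : Om) :=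
  FrameInst.r_beta_sigma hq F ξ x

/-! ### Galois equivariance of the family of expansions -/

/-- The Galois action on the coordinates: `∞`, `0` are fixed, `mid ξ ↦ mid (σ ξ)`. -/
def galCoord (σ : Kbar ≃ₐ[ℚ] Kbar) : Plan.Coord q → Plan.Coord q
  | .inf => .inf
  | .zero => .zero
  | .mid ξ => .mid (FrameInst.galMid σ ξ)

@[simp] theorem galCoord_inf (σ : Kbar ≃ₐ[ℚ] Kbar) :
    galCoord σ (Plan.Coord.inf : Plan.Coord q) = .inf := rfl

@[simp] theorem galCoord_zero (σ : Kbar ≃ₐ[ℚ] Kbar) :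
    galCoord σ (Plan.Coord.zero : Plan.Coord q) = .zero := rfl

@[simp] theorem galCoord_mid (σ : Kbar ≃ₐ[ℚ] Kbar) (ξ : Plan.MidIdx q) :
    galCoord σ (Plan.Coord.mid ξ) = .mid (FrameInst.galMid σ ξ) := rfl

/-- **Galois equivariance**: `σ (ε_i x) = ε_{σ i} (σ x)`. -/
theorem coeffMap_emb (hq : q.Prime) (F : Plan.Frame M q h) (σ : Kbar ≃ₐ[ℚ] Kbar)
    (i : Plan.Coord q) (x : FN (M * q * q)) :
    coeffMap (σ : Kbar →+* Kbar) (F.emb i x) =
      F.emb (galCoord σ i) (arithmeticGalois (modularFunctionFieldFull (M * q * q)) σ • x) := by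
  cases i with
  | inf => rfl
  | zero =>
      rw [galCoord_zero, Plan.Frame.emb_zero, Plan.Frame.emb_zero, ← galois_smul_w hq F σ x]
      rfl
  | mid ξ =>
      rw [galCoord_mid, Plan.Frame.emb_mid, Plan.Frame.emb_mid]
      exact FrameInst.r_galois hq F σ ξ x

/-- If `σ` fixes the `q`-th roots of unity, it fixes every coordinate. -/
theorem galCoord_of_fix (σ : Kbar ≃ₐ[ℚ] Kbar)
    (hσ : ∀ ξ : Plan.MidIdx q, σ (ξ.1 : Kbar) = ξ.1) (i : Plan.Coord q) : galCoord σ i = i := by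
  cases i with
  | inf => rfl
  | zero => rfl
  | mid ξ =>
      rw [galCoord_mid]
      exact congrArg Plan.Coord.mid (Subtype.ext (Units.ext (hσ ξ)))

end Fermat.Agent.S36.EmbFrame

end
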