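import Mathlib
import Fermat.Agent.S36.SetupQ2
import Fermat.Agent.S36.EmbFrame
import Fermat.Agent.S36.PullRed
import Fermat.Agent.S18.ContentMain

/-!
# S36 / P8 — [ONE-COMP]: the three one-component elements (helper17)

`F` a level-`q²` frame, `(O, ρ)` its setup (`Plan.IsSetup A F O ρ`), `A` over the prime `q`.
With `j = j(T)` and `J = j_{q²} = j(T^(q²))` (elements of `F_N` for every `N` with `q² ∣ N`):

    z_inf  := (j − J^(q²)) · (j − J),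
    z_zero := (J − j^(q²)) · (j − J),
    z_mid  := (J − j^(q²)) · (j − J^(q²)).

* `rho_J0`, `rho_J2`       : `ρ j = (j̄; j̄^(q²); j̄, …, j̄)`, `ρ J = (j̄^(q²); j̄; j̄, …, j̄)`;
* `zInf`, `zZero`, `zMid`   : the three elements, in `F_N` (`q² ∣ N`);
* `gal_smul_zInf` (…)       : they are fixed by all of `Gal(Q̄/ℚ)`;
* `zInf_mem`, `rho_zInf` (…) : they lie in `O` and
  `ρ z_inf = ((j̄ − j̄^(q⁴))(j̄ − j̄^(q²)); 0; 0, …, 0)`,
  `ρ z_zero = (0; (j̄ − j̄^(q⁴))(j̄^(q²) − j̄); 0, …, 0)`,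
  `ρ z_mid = (0; 0; (j̄ − j̄^(q²))², …)`;
* `exists_oneComp`          : the packaged statement (the hypothesis contract `OneCompStmt` of
  `S36/NormRed`).
-/

set_option autoImplicit false
set_option linter.unusedSectionVars false

noncomputable section

namespace Fermat.Agent.S36.OneComp

open ModularCurve AlgebraicCurve Fermat.Agent.S24 Fermat.Agent.S18 Fermat.Agent.S18.Content
  Fermat.Agent.S18.Plan Fermat.Agent.S34 Fermat.Agent.S28 Fermat.Agent.Lib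

/-! ## Residue-side facts -/

section Residue

variable (κ : Type) [Field κ]

/-- Distinct powers of `j̄` are distinct. -/
theorem jq_pow_ne {a b : ℕ} (hab : a ≠ b) : jqModC κ ^ a ≠ jqModC κ ^ b := by
  intro h
  have h2 := congrArg HahnSeries.order h
  rw [HahnSeries.order_pow, HahnSeries.order_pow, Fermat.Agent.S28.Tower.order_jqModC] at h2
  simp only [nsmul_eq_mul] at h2
  apply hab
  have h3 : (a : ℤ) = b := by linarith
  exact_mod_cast h3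

variable (q : ℕ) [NeZero q]

/-- In characteristic `q`: `j̄(T^q) = j̄^q`. -/
theorem qExpand_jq [Fact q.Prime] [CharP κ q] : qExpand κ q (jqModC κ) = jqModC κ ^ q := by
  rw [Fermat.Agent.Lib.KroneckerCong.pow_char_eq q (jqModC κ), coeffMap_jqModC]

/-- In characteristic `q`: `j̄(T^(q²)) = j̄^(q²)`. -/
theorem qExpand_qq_jq [Fact q.Prime] [CharP κ q] :
    qExpand κ (q * q) (jqModC κ) = jqModC κ ^ (q * q) := by
  rw [← qExpand_qExpand, qExpand_jq, map_pow, qExpand_jq, ← pow_mul]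

end Residue

/-! ## The coordinates of `j` and `j_{q²}` -/

section Coordinates

variable {M q : ℕ} [NeZero M] [NeZero q] {h : Nat.Coprime M q}
variable {A : ValuationSubring Kbar} {F : Plan.Frame M q h} {O : Subring Om}
  {ρ : O →+* Plan.Rq A q}

/-- `ρ j = (j̄; j̄^(q²); j̄, …, j̄)`. -/
def rJ0 (A : ValuationSubring Kbar) (q : ℕ) : Plan.Rq A q
  | .inf => jk A
  | .zero => jk A ^ (q * q)
  | .mid _ => jk A

/-- `ρ j_{q²} = (j̄^(q²); j̄; j̄, …, j̄)`. -/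
def rJ2 (A : ValuationSubring Kbar) (q : ℕ) : Plan.Rq A q
  | .inf => jk A ^ (q * q)
  | .zero => jk A
  | .mid _ => jk A

@[simp] theorem rJ0_inf : rJ0 A q .inf = jk A := rfl
@[simp] theorem rJ0_zero : rJ0 A q .zero = jk A ^ (q * q) := rfl
@[simp] theorem rJ0_mid (ξ : Plan.MidIdx q) : rJ0 A q (.mid ξ) = jk A := rfl
@[simp] theorem rJ2_inf : rJ2 A q .inf = jk A ^ (q * q) := rfl
@[simp] theorem rJ2_zero : rJ2 A q .zero = jk A := rfl
@[simp] theorem rJ2_mid (ξ : Plan.MidIdx q) : rJ2 A q (.mid ξ) = jk A := rfl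

/-- A primitive `q`-th root of unity is `≡ 1` modulo the maximal ideal of `A` (over `q`). -/
theorem mid_sub_one_mem (hq : q.Prime) (hA : A.LiesOverPrime q) (ξ : Plan.MidIdx q) :
    ((ξ.1 : Kbarˣ) : Kbar) - 1 ∈ A.nonunits := by
  rw [ValuationSubring.mem_nonunits_iff]
  exact InertiaFieldZeta.val_zeta_sub_one_lt_one A q hq hA _
    (IsPrimitiveRoot.coe_units_iff.2 ξ.2)

/-- The `q + 1` expansions of `j` are integral. -/
theorem emb_J0_mem (hq : q.Prime) (A : ValuationSubring Kbar) (F : Plan.Frame M q h)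
    (i : Plan.Coord q) : F.emb i (jBar (M * q * q)) ∈ Ocal A := by
  cases i with
  | inf => rw [EmbFrame.emb_inf_jBar]; exact Main.jK_mem_Ocal A
  | zero =>
    rw [EmbFrame.emb_zero_jBar hq]
    exact Fermat.Agent.Lib.KroneckerCong.qExpand_mem_Ocal A (q * q) (Main.jK_mem_Ocal A)
  | mid ξ => rw [EmbFrame.emb_mid_jBar]; exact Main.jK_mem_Ocal A

/-- The `q + 1` expansions of `j_{q²}` are integral. -/
theorem emb_J2_mem (hq : q.Prime) (hA : A.LiesOverPrime q) (F : Plan.Frame M q h)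
    (i : Plan.Coord q) : F.emb i (Emb.jQQ M q) ∈ Ocal A := by
  cases i with
  | inf =>
    rw [EmbFrame.emb_inf_jQQ]
    exact Fermat.Agent.Lib.KroneckerCong.qExpand_mem_Ocal A (q * q) (Main.jK_mem_Ocal A)
  | zero => rw [EmbFrame.emb_zero_jQQ hq]; exact Main.jK_mem_Ocal A
  | mid ξ =>
    rw [EmbFrame.emb_mid_jQQ]
    exact PullRed.scale_mem_Ocal A ξ.1 (mid_sub_one_mem hq hA ξ) (Main.jK_mem_Ocal A)

/-- `j ∈ O`. -/
theorem J0_mem (hq : q.Prime) (hS : Plan.IsSetup A F O ρ) : (jK : Om) ∈ O := by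
  have h1 : ((jBar (M * q * q) : FN (M * q * q)) : Om) ∈ O :=
    (hS.mem_iff _).2 (emb_J0_mem hq A F)
  rwa [Emb.coe_jBar_eq] at h1

/-- `j_{q²} ∈ O`. -/
theorem J2_mem (hq : q.Prime) (hA : A.LiesOverPrime q) (hS : Plan.IsSetup A F O ρ) :
    (qExpand Kbar (q * q) jK : Om) ∈ O := by
  have h1 : ((Emb.jQQ M q : FN (M * q * q)) : Om) ∈ O :=
    (hS.mem_iff _).2 (emb_J2_mem hq hA F)
  rwa [Emb.coe_jQQ_eq] at h1

/-- **`ρ j = (j̄; j̄^(q²); j̄, …, j̄)`.** -/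
theorem rho_J0 (hq : q.Prime) (hA : A.LiesOverPrime q) (hS : Plan.IsSetup A F O ρ) :
    ρ ⟨jK, J0_mem hq hS⟩ = rJ0 A q := by
  have : Fact q.Prime := ⟨hq⟩
  have : CharP (kk A) q := charP_residueField_of_liesOverPrime A q hA
  have hO : ((jBar (M * q * q) : FN (M * q * q)) : Om) ∈ O :=
    (hS.mem_iff _).2 (emb_J0_mem hq A F)
  have e : (⟨jK, J0_mem hq hS⟩ : O) = ⟨((jBar (M * q * q) : FN (M * q * q)) : Om), hO⟩ :=
    Subtype.ext (Emb.coe_jBar_eq (M := M) (q := q)).symm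
  rw [e]
  funext i
  rw [hS.ρ_apply _ hO i (emb_J0_mem hq A F i)]
  cases i with
  | inf =>
    rw [rJ0_inf, red_congr A (EmbFrame.emb_inf_jBar F) _ (Main.jK_mem_Ocal A), Main.red_jK]
  | zero =>
    rw [rJ0_zero, red_congr A (EmbFrame.emb_zero_jBar hq F) _
      (Fermat.Agent.Lib.KroneckerCong.qExpand_mem_Ocal A (q * q) (Main.jK_mem_Ocal A)),
      Fermat.Agent.Lib.KroneckerCong.red_qExpand A (q * q) ⟨jK, Main.jK_mem_Ocal A⟩,
      Main.red_jK]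
    exact qExpand_qq_jq (kk A) q
  | mid ξ =>
    rw [rJ0_mid, red_congr A (EmbFrame.emb_mid_jBar F ξ) _ (Main.jK_mem_Ocal A), Main.red_jK]

/-- **`ρ j_{q²} = (j̄^(q²); j̄; j̄, …, j̄)`.** -/
theorem rho_J2 (hq : q.Prime) (hA : A.LiesOverPrime q) (hS : Plan.IsSetup A F O ρ) :
    ρ ⟨qExpand Kbar (q * q) jK, J2_mem hq hA hS⟩ = rJ2 A q := by
  have : Fact q.Prime := ⟨hq⟩
  have : CharP (kk A) q := charP_residueField_of_liesOverPrime A q hA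
  have hO : ((Emb.jQQ M q : FN (M * q * q)) : Om) ∈ O :=
    (hS.mem_iff _).2 (emb_J2_mem hq hA F)
  have e : (⟨qExpand Kbar (q * q) jK, J2_mem hq hA hS⟩ : O) =
      ⟨((Emb.jQQ M q : FN (M * q * q)) : Om), hO⟩ :=
    Subtype.ext (Emb.coe_jQQ_eq (M := M) (q := q)).symm
  rw [e]
  funext i
  rw [hS.ρ_apply _ hO i (emb_J2_mem hq hA F i)]
  cases i with
  | inf =>
    rw [rJ2_inf, red_congr A (EmbFrame.emb_inf_jQQ F) _
      (Fermat.Agent.Lib.KroneckerCong.qExpand_mem_Ocal A (q * q) (Main.jK_mem_Ocal A)),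
      Fermat.Agent.Lib.KroneckerCong.red_qExpand A (q * q) ⟨jK, Main.jK_mem_Ocal A⟩,
      Main.red_jK]
    exact qExpand_qq_jq (kk A) q
  | zero =>
    rw [rJ2_zero, red_congr A (EmbFrame.emb_zero_jQQ hq F) _ (Main.jK_mem_Ocal A), Main.red_jK]
  | mid ξ =>
    rw [rJ2_mid, red_congr A (EmbFrame.emb_mid_jQQ F ξ) _
      (PullRed.scale_mem_Ocal A ξ.1 (mid_sub_one_mem hq hA ξ) (Main.jK_mem_Ocal A)),
      PullRed.red_scale A ξ.1 (mid_sub_one_mem hq hA ξ) (Main.jK_mem_Ocal A), Main.red_jK]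

end Coordinates

/-! ## The three elements -/

section Elements

variable (N q : ℕ) [NeZero N] [NeZero q] (hqq : q * q ∣ N)

/-- `z_inf = (j − J^(q²))(j − J)`: a unit on the `∞`-coordinate, zero on the others. -/
def zInf : FN N :=
  (jBar N - jBarLevel N (q * q) hqq ^ (q * q)) * (jBar N - jBarLevel N (q * q) hqq)

/-- `z_zero = (J − j^(q²))(j − J)`: a unit on the `0`-coordinate, zero on the others. -/
def zZero : FN N :=
  (jBarLevel N (q * q) hqq - jBar N ^ (q * q)) * (jBar N - jBarLevel N (q * q) hqq)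

/-- `z_mid = (J − j^(q²))(j − J^(q²))`: a unit on the middle coordinates, zero at `∞`, `0`. -/
def zMid : FN N :=
  (jBarLevel N (q * q) hqq - jBar N ^ (q * q)) *
    (jBar N - jBarLevel N (q * q) hqq ^ (q * q))

theorem coe_jBar' : ((jBar N : FN N) : Om) = jK := Emb.coe_jBar' N

theorem coe_jBarLevel_qq : ((jBarLevel N (q * q) hqq : FN N) : Om) = qExpand Kbar (q * q) jK :=
  Emb.gen_eq_qExpand (q * q)

theorem coe_zInf : ((zInf N q hqq : FN N) : Om) =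
    (jK - qExpand Kbar (q * q) jK ^ (q * q)) * (jK - qExpand Kbar (q * q) jK) := by
  have e : ((zInf N q hqq : FN N) : Om) =
      (((jBar N : FN N) : Om) - ((jBarLevel N (q * q) hqq : FN N) : Om) ^ (q * q)) *
        (((jBar N : FN N) : Om) - ((jBarLevel N (q * q) hqq : FN N) : Om)) := rfl
  rw [e, coe_jBar', coe_jBarLevel_qq]

theorem coe_zZero : ((zZero N q hqq : FN N) : Om) =
    (qExpand Kbar (q * q) jK - jK ^ (q * q)) * (jK - qExpand Kbar (q * q) jK) := by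
  have e : ((zZero N q hqq : FN N) : Om) =
      (((jBarLevel N (q * q) hqq : FN N) : Om) - ((jBar N : FN N) : Om) ^ (q * q)) *
        (((jBar N : FN N) : Om) - ((jBarLevel N (q * q) hqq : FN N) : Om)) := rfl
  rw [e, coe_jBar', coe_jBarLevel_qq]

theorem coe_zMid : ((zMid N q hqq : FN N) : Om) =
    (qExpand Kbar (q * q) jK - jK ^ (q * q)) * (jK - qExpand Kbar (q * q) jK ^ (q * q)) := by
  have e : ((zMid N q hqq : FN N) : Om) =
      (((jBarLevel N (q * q) hqq : FN N) : Om) - ((jBar N : FN N) : Om) ^ (q * q)) *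
        (((jBar N : FN N) : Om) - ((jBarLevel N (q * q) hqq : FN N) : Om) ^ (q * q)) := rfl
  rw [e, coe_jBar', coe_jBarLevel_qq]

/-- The Galois group fixes `j_{q²}`. -/
theorem gal_smul_jBarLevel (τ : Kbar ≃ₐ[ℚ] Kbar) :
    S34.Plan.gal N τ • jBarLevel N (q * q) hqq = jBarLevel N (q * q) hqq :=
  Sigma.galois_smul_gen N τ hqq

theorem gal_smul_zInf (τ : Kbar ≃ₐ[ℚ] Kbar) :
    S34.Plan.gal N τ • zInf N q hqq = zInf N q hqq := by
  rw [zInf, smul_mul', smul_sub, smul_sub, smul_pow', gal_smul_jBarLevel,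
    Sigma.galois_smul_jBar]

theorem gal_smul_zZero (τ : Kbar ≃ₐ[ℚ] Kbar) :
    S34.Plan.gal N τ • zZero N q hqq = zZero N q hqq := by
  rw [zZero, smul_mul', smul_sub, smul_sub, smul_pow', gal_smul_jBarLevel,
    Sigma.galois_smul_jBar]

theorem gal_smul_zMid (τ : Kbar ≃ₐ[ℚ] Kbar) :
    S34.Plan.gal N τ • zMid N q hqq = zMid N q hqq := by
  rw [zMid, smul_mul', smul_sub, smul_sub, smul_pow', smul_pow', gal_smul_jBarLevel,
    Sigma.galois_smul_jBar]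

end Elements

/-! ## Membership in `O` and reductions -/

section Reductions

variable {M q : ℕ} [NeZero M] [NeZero q] {h : Nat.Coprime M q}
variable {A : ValuationSubring Kbar} {F : Plan.Frame M q h} {O : Subring Om}
  {ρ : O →+* Plan.Rq A q}
variable (N : ℕ) [NeZero N] (hqq : q * q ∣ N)

theorem zInf_mem (hq : q.Prime) (hA : A.LiesOverPrime q) (hS : Plan.IsSetup A F O ρ) :
    ((zInf N q hqq : FN N) : Om) ∈ O := by
  rw [coe_zInf]
  exact O.mul_mem (O.sub_mem (J0_mem hq hS) (O.pow_mem (J2_mem hq hA hS) _))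
    (O.sub_mem (J0_mem hq hS) (J2_mem hq hA hS))

theorem zZero_mem (hq : q.Prime) (hA : A.LiesOverPrime q) (hS : Plan.IsSetup A F O ρ) :
    ((zZero N q hqq : FN N) : Om) ∈ O := by
  rw [coe_zZero]
  exact O.mul_mem (O.sub_mem (J2_mem hq hA hS) (O.pow_mem (J0_mem hq hS) _))
    (O.sub_mem (J0_mem hq hS) (J2_mem hq hA hS))

theorem zMid_mem (hq : q.Prime) (hA : A.LiesOverPrime q) (hS : Plan.IsSetup A F O ρ) :
    ((zMid N q hqq : FN N) : Om) ∈ O := by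
  rw [coe_zMid]
  exact O.mul_mem (O.sub_mem (J2_mem hq hA hS) (O.pow_mem (J0_mem hq hS) _))
    (O.sub_mem (J0_mem hq hS) (O.pow_mem (J2_mem hq hA hS) _))

/-- `ρ z_inf = (ρ j − (ρ J)^(q²)) (ρ j − ρ J)`. -/
theorem rho_zInf (hq : q.Prime) (hA : A.LiesOverPrime q) (hS : Plan.IsSetup A F O ρ) :
    ρ ⟨_, zInf_mem N hqq hq hA hS⟩ =
      (rJ0 A q - rJ2 A q ^ (q * q)) * (rJ0 A q - rJ2 A q) := by
  have e : (⟨_, zInf_mem N hqq hq hA hS⟩ : O) =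
      ((⟨jK, J0_mem hq hS⟩ : O) - (⟨_, J2_mem hq hA hS⟩ : O) ^ (q * q)) *
        ((⟨jK, J0_mem hq hS⟩ : O) - (⟨_, J2_mem hq hA hS⟩ : O)) :=
    Subtype.ext (coe_zInf N q hqq)
  rw [e, map_mul, map_sub, map_sub, map_pow, rho_J0 hq hA hS, rho_J2 hq hA hS]

/-- `ρ z_zero = (ρ J − (ρ j)^(q²)) (ρ j − ρ J)`. -/
theorem rho_zZero (hq : q.Prime) (hA : A.LiesOverPrime q) (hS : Plan.IsSetup A F O ρ) :
    ρ ⟨_, zZero_mem N hqq hq hA hS⟩ =
      (rJ2 A q - rJ0 A q ^ (q * q)) * (rJ0 A q - rJ2 A q) := by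
  have e : (⟨_, zZero_mem N hqq hq hA hS⟩ : O) =
      ((⟨_, J2_mem hq hA hS⟩ : O) - (⟨jK, J0_mem hq hS⟩ : O) ^ (q * q)) *
        ((⟨jK, J0_mem hq hS⟩ : O) - (⟨_, J2_mem hq hA hS⟩ : O)) :=
    Subtype.ext (coe_zZero N q hqq)
  rw [e, map_mul, map_sub, map_sub, map_pow, rho_J0 hq hA hS, rho_J2 hq hA hS]

/-- `ρ z_mid = (ρ J − (ρ j)^(q²)) (ρ j − (ρ J)^(q²))`. -/
theorem rho_zMid (hq : q.Prime) (hA : A.LiesOverPrime q) (hS : Plan.IsSetup A F O ρ) :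
    ρ ⟨_, zMid_mem N hqq hq hA hS⟩ =
      (rJ2 A q - rJ0 A q ^ (q * q)) * (rJ0 A q - rJ2 A q ^ (q * q)) := by
  have e : (⟨_, zMid_mem N hqq hq hA hS⟩ : O) =
      ((⟨_, J2_mem hq hA hS⟩ : O) - (⟨jK, J0_mem hq hS⟩ : O) ^ (q * q)) *
        ((⟨jK, J0_mem hq hS⟩ : O) - (⟨_, J2_mem hq hA hS⟩ : O) ^ (q * q)) :=
    Subtype.ext (coe_zMid N q hqq)
  rw [e, map_mul, map_sub, map_sub, map_pow, map_pow, rho_J0 hq hA hS, rho_J2 hq hA hS]

/-! ### Coordinates -/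

theorem rho_zInf_inf (hq : q.Prime) (hA : A.LiesOverPrime q) (hS : Plan.IsSetup A F O ρ) :
    ρ ⟨_, zInf_mem N hqq hq hA hS⟩ .inf =
      (jk A - (jk A ^ (q * q)) ^ (q * q)) * (jk A - jk A ^ (q * q)) := by
  rw [rho_zInf N hqq hq hA hS]; rfl

theorem rho_zInf_zero (hq : q.Prime) (hA : A.LiesOverPrime q) (hS : Plan.IsSetup A F O ρ) :
    ρ ⟨_, zInf_mem N hqq hq hA hS⟩ .zero = 0 := by
  rw [rho_zInf N hqq hq hA hS]
  show (jk A ^ (q * q) - jk A ^ (q * q)) * (jk A ^ (q * q) - jk A) = 0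
  rw [sub_self, zero_mul]

theorem rho_zInf_mid (hq : q.Prime) (hA : A.LiesOverPrime q) (hS : Plan.IsSetup A F O ρ)
    (ξ : Plan.MidIdx q) : ρ ⟨_, zInf_mem N hqq hq hA hS⟩ (.mid ξ) = 0 := by
  rw [rho_zInf N hqq hq hA hS]
  show (jk A - jk A ^ (q * q)) * (jk A - jk A) = 0
  rw [sub_self, mul_zero]

theorem rho_zZero_inf (hq : q.Prime) (hA : A.LiesOverPrime q) (hS : Plan.IsSetup A F O ρ) :
    ρ ⟨_, zZero_mem N hqq hq hA hS⟩ .inf = 0 := by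
  rw [rho_zZero N hqq hq hA hS]
  show (jk A ^ (q * q) - jk A ^ (q * q)) * (jk A - jk A ^ (q * q)) = 0
  rw [sub_self, zero_mul]

theorem rho_zZero_zero (hq : q.Prime) (hA : A.LiesOverPrime q) (hS : Plan.IsSetup A F O ρ) :
    ρ ⟨_, zZero_mem N hqq hq hA hS⟩ .zero =
      (jk A - (jk A ^ (q * q)) ^ (q * q)) * (jk A ^ (q * q) - jk A) := by
  rw [rho_zZero N hqq hq hA hS]; rfl

theorem rho_zZero_mid (hq : q.Prime) (hA : A.LiesOverPrime q) (hS : Plan.IsSetup A F O ρ)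
    (ξ : Plan.MidIdx q) : ρ ⟨_, zZero_mem N hqq hq hA hS⟩ (.mid ξ) = 0 := by
  rw [rho_zZero N hqq hq hA hS]
  show (jk A - jk A ^ (q * q)) * (jk A - jk A) = 0
  rw [sub_self, mul_zero]

theorem rho_zMid_inf (hq : q.Prime) (hA : A.LiesOverPrime q) (hS : Plan.IsSetup A F O ρ) :
    ρ ⟨_, zMid_mem N hqq hq hA hS⟩ .inf = 0 := by
  rw [rho_zMid N hqq hq hA hS]
  show (jk A ^ (q * q) - jk A ^ (q * q)) * (jk A - (jk A ^ (q * q)) ^ (q * q)) = 0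
  rw [sub_self, zero_mul]

theorem rho_zMid_zero (hq : q.Prime) (hA : A.LiesOverPrime q) (hS : Plan.IsSetup A F O ρ) :
    ρ ⟨_, zMid_mem N hqq hq hA hS⟩ .zero = 0 := by
  rw [rho_zMid N hqq hq hA hS]
  show (jk A - (jk A ^ (q * q)) ^ (q * q)) * (jk A ^ (q * q) - jk A ^ (q * q)) = 0
  rw [sub_self, mul_zero]

theorem rho_zMid_mid (hq : q.Prime) (hA : A.LiesOverPrime q) (hS : Plan.IsSetup A F O ρ)
    (ξ : Plan.MidIdx q) : ρ ⟨_, zMid_mem N hqq hq hA hS⟩ (.mid ξ) =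
      (jk A - jk A ^ (q * q)) * (jk A - jk A ^ (q * q)) := by
  rw [rho_zMid N hqq hq hA hS]; rfl

/-! ### Non-vanishing -/

theorem jk_sub_pow_ne_zero (A : ValuationSubring Kbar) {m : ℕ} (hm : m ≠ 1) :
    jk A - jk A ^ m ≠ 0 := by
  intro h0
  have h1 : jk A ^ 1 = jk A ^ m := by rw [pow_one]; exact sub_eq_zero.1 h0
  exact jq_pow_ne (kk A) (Ne.symm hm) h1

theorem qq_ne_one (hq : q.Prime) : q * q ≠ 1 := by
  have := hq.two_le
  nlinarith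

theorem rho_zInf_inf_ne (hq : q.Prime) (hA : A.LiesOverPrime q) (hS : Plan.IsSetup A F O ρ) :
    ρ ⟨_, zInf_mem N hqq hq hA hS⟩ .inf ≠ 0 := by
  rw [rho_zInf_inf N hqq hq hA hS, ← pow_mul]
  refine mul_ne_zero (jk_sub_pow_ne_zero A ?_) (jk_sub_pow_ne_zero A (qq_ne_one hq))
  have := hq.two_le
  nlinarith [qq_ne_one hq, Nat.mul_le_mul this this]

theorem rho_zZero_zero_ne (hq : q.Prime) (hA : A.LiesOverPrime q) (hS : Plan.IsSetup A F O ρ) :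
    ρ ⟨_, zZero_mem N hqq hq hA hS⟩ .zero ≠ 0 := by
  rw [rho_zZero_zero N hqq hq hA hS, ← pow_mul]
  refine mul_ne_zero (jk_sub_pow_ne_zero A ?_) ?_
  · have := hq.two_le
    nlinarith [qq_ne_one hq, Nat.mul_le_mul this this]
  · intro h0
    exact jk_sub_pow_ne_zero A (qq_ne_one hq) (by rw [← neg_sub, h0, neg_zero])

theorem rho_zMid_mid_ne (hq : q.Prime) (hA : A.LiesOverPrime q) (hS : Plan.IsSetup A F O ρ)
    (ξ : Plan.MidIdx q) : ρ ⟨_, zMid_mem N hqq hq hA hS⟩ (.mid ξ) ≠ 0 := by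
  rw [rho_zMid_mid N hqq hq hA hS]
  exact mul_ne_zero (jk_sub_pow_ne_zero A (qq_ne_one hq)) (jk_sub_pow_ne_zero A (qq_ne_one hq))

end Reductions

/-! ## The packaged statement -/

section Packaged

variable {M q : ℕ} [NeZero M] [NeZero q] {h : Nat.Coprime M q}
variable {A : ValuationSubring Kbar} {F : Plan.Frame M q h} {O : Subring Om}
  {ρ : O →+* Plan.Rq A q}

/-- **[ONE-COMP]** at a level `N` with `q² ∣ N`: three elements of `F_N`, fixed by `Gal(Q̄/ℚ)`,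
lying in `O`, each a unit on exactly one of the three kinds of coordinates and zero on the
others. -/
theorem exists_oneComp_level (hq : q.Prime) (hA : A.LiesOverPrime q)
    (hS : Plan.IsSetup A F O ρ) (N : ℕ) [NeZero N] (hqq : q * q ∣ N) :
    ∃ z_inf z_zero z_mid : FN N,
      (∀ τ : Kbar ≃ₐ[ℚ] Kbar, S34.Plan.gal N τ • z_inf = z_inf) ∧
      (∀ τ : Kbar ≃ₐ[ℚ] Kbar, S34.Plan.gal N τ • z_zero = z_zero) ∧
      (∀ τ : Kbar ≃ₐ[ℚ] Kbar, S34.Plan.gal N τ • z_mid = z_mid) ∧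
      ∃ (h1 : (z_inf : Om) ∈ O) (h2 : (z_zero : Om) ∈ O) (h3 : (z_mid : Om) ∈ O),
        (ρ ⟨_, h1⟩ .inf ≠ 0 ∧ ρ ⟨_, h1⟩ .zero = 0 ∧ ∀ ξ, ρ ⟨_, h1⟩ (.mid ξ) = 0) ∧
        (ρ ⟨_, h2⟩ .inf = 0 ∧ ρ ⟨_, h2⟩ .zero ≠ 0 ∧ ∀ ξ, ρ ⟨_, h2⟩ (.mid ξ) = 0) ∧
        (ρ ⟨_, h3⟩ .inf = 0 ∧ ρ ⟨_, h3⟩ .zero = 0 ∧ ∀ ξ, ρ ⟨_, h3⟩ (.mid ξ) ≠ 0) :=
  ⟨zInf N q hqq, zZero N q hqq, zMid N q hqq, gal_smul_zInf N q hqq, gal_smul_zZero N q hqq,
    gal_smul_zMid N q hqq, zInf_mem N hqq hq hA hS, zZero_mem N hqq hq hA hS,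
    zMid_mem N hqq hq hA hS,
    ⟨rho_zInf_inf_ne N hqq hq hA hS, rho_zInf_zero N hqq hq hA hS,
      rho_zInf_mid N hqq hq hA hS⟩,
    ⟨rho_zZero_inf N hqq hq hA hS, rho_zZero_zero_ne N hqq hq hA hS,
      rho_zZero_mid N hqq hq hA hS⟩,
    ⟨rho_zMid_inf N hqq hq hA hS, rho_zMid_zero N hqq hq hA hS,
      rho_zMid_mid_ne N hqq hq hA hS⟩⟩

/-- **[ONE-COMP]** at the divisor level `N' * q` (`q ∣ N'`). -/
theorem exists_oneComp (hq : q.Prime) (hA : A.LiesOverPrime q) (hS : Plan.IsSetup A F O ρ)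
    {N' : ℕ} [NeZero N'] (hq' : q ∣ N') :
    ∃ z_inf z_zero z_mid : FN (N' * q),
      (∀ τ : Kbar ≃ₐ[ℚ] Kbar, S34.Plan.gal (N' * q) τ • z_inf = z_inf) ∧
      (∀ τ : Kbar ≃ₐ[ℚ] Kbar, S34.Plan.gal (N' * q) τ • z_zero = z_zero) ∧
      (∀ τ : Kbar ≃ₐ[ℚ] Kbar, S34.Plan.gal (N' * q) τ • z_mid = z_mid) ∧
      ∃ (h1 : (z_inf : Om) ∈ O) (h2 : (z_zero : Om) ∈ O) (h3 : (z_mid : Om) ∈ O),
        (ρ ⟨_, h1⟩ .inf ≠ 0 ∧ ρ ⟨_, h1⟩ .zero = 0 ∧ ∀ ξ, ρ ⟨_, h1⟩ (.mid ξ) = 0) ∧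
        (ρ ⟨_, h2⟩ .inf = 0 ∧ ρ ⟨_, h2⟩ .zero ≠ 0 ∧ ∀ ξ, ρ ⟨_, h2⟩ (.mid ξ) = 0) ∧
        (ρ ⟨_, h3⟩ .inf = 0 ∧ ρ ⟨_, h3⟩ .zero = 0 ∧ ∀ ξ, ρ ⟨_, h3⟩ (.mid ξ) ≠ 0) :=
  exists_oneComp_level hq hA hS (N' * q) (Nat.mul_dvd_mul_right hq' q)

end Packaged

end Fermat.Agent.S36.OneComp

end
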