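import Mathlib
import Fermat.Agent.S36.OneComp
import Fermat.Agent.S36.K0Plan
import Fermat.Agent.S34.CuspRegInst
import Fermat.Agent.S34.GalTransport

/-!
# S36 / P8 — the one-component elements in `K0Plan` vocabulary (helper17)

The three elements `zInf`, `zMid`, `zZero` of `S36/OneComp`, as elements of the `K'`-ring
`B' = K0Plan.Bp` with their three-coordinate reductions (coordinate order `(∞, mid, 0)`):

* `fixed_zInf` (…)      : they are `K₀`-rational (fixed by all of `Gal(Q̄/ℚ)`);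
* `zInf_mem_pullRR` (…) : pole bounds `zInf, zZero ∈ L((q² + 1) E)`, `zMid ∈ L(2 q² E)`;
* `zInf_mem_Bp` (…)     : they lie in `B'`;
* `aInf`, `aMid`, `aZero` : their nonzero reductions, as elements of `B_κ`;
* `rho3_zInf` (…)       : `ρ₃ zInf = (aInf, 0, 0)`, `ρ₃ zMid = (0, aMid, 0)`,
                          `ρ₃ zZero = (0, 0, aZero)`;
* `exists_oneCompK0`    : the packaged statement (`OneCompK0` of `S36/CondK0`).
-/

set_option autoImplicit false
set_option linter.unusedSectionVars false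

noncomputable section

namespace Fermat.Agent.S36.OneCompBp

open ModularCurve AlgebraicCurve Fermat.Agent.S24 Fermat.Agent.S18 Fermat.Agent.S18.Content
  Fermat.Agent.S18.Plan Fermat.Agent.S34 Fermat.Agent.S34.Lift Fermat.Agent.S36.OneComp

/-! ## `K₀`-rationality -/

section Fixed

variable (A : ValuationSubring Kbar) (N q : ℕ) [NeZero N] [NeZero q] (hqq : q * q ∣ N)

/-- An element of `F_N` fixed by the Galois group has a `K₀`-rational expansion. -/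
theorem fixed_of_gal {g : FN N} (hg : ∀ τ : Kbar ≃ₐ[ℚ] Kbar, S34.Plan.gal N τ • g = g) :
    K0Plan.Fixed A (g : Om) := fun τ _ => congrArg Subtype.val (hg τ)

theorem fixed_zInf : K0Plan.Fixed A ((zInf N q hqq : FN N) : Om) :=
  fixed_of_gal A N (gal_smul_zInf N q hqq)

theorem fixed_zMid : K0Plan.Fixed A ((zMid N q hqq : FN N) : Om) :=
  fixed_of_gal A N (gal_smul_zMid N q hqq)

theorem fixed_zZero : K0Plan.Fixed A ((zZero N q hqq : FN N) : Om) :=
  fixed_of_gal A N (gal_smul_zZero N q hqq)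

end Fixed

/-! ## Pole bounds -/

section Pole

variable {N N₂ q : ℕ} [NeZero N] [NeZero q]
variable (hle : modularFunctionFieldBar N ≤ modularFunctionFieldBar N₂)
variable (hq : q ∣ N) (hqq : q * q ∣ N) {E : Divisor Kbar (FN N)}

theorem E3_nonneg (hE : Plan.IsE3 N q hq hqq E) (P : Place Kbar (FN N)) : 0 ≤ E P := by
  rw [hE P]
  have h1 := le_max_left 0 (-(P.ord (jBar N)))
  have h2 := le_max_left 0 (-(P.ord (jBarLevel N q hq)))
  have h3 := le_max_left 0 (-(P.ord (jBarLevel N (q * q) hqq)))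
  linarith

include hle in
/-- `j ∈ L(E)`. -/
theorem j_mem_pullRR (hE : Plan.IsE3 N q hq hqq E) :
    ((jBar N : FN N) : Om) ∈ pullRR N N₂ E :=
  CuspReg.coe_mem_pullRR_of_pole hle (Main.jBar_ne_zero N) (fun P => by
    rw [hE P]
    have h1 := le_max_right 0 (-(P.ord (jBar N)))
    have h2 := le_max_left 0 (-(P.ord (jBarLevel N q hq)))
    have h3 := le_max_left 0 (-(P.ord (jBarLevel N (q * q) hqq)))
    linarith)

include hle in
/-- `j_{q²} ∈ L(E)`. -/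
theorem J_mem_pullRR (hE : Plan.IsE3 N q hq hqq E) :
    ((jBarLevel N (q * q) hqq : FN N) : Om) ∈ pullRR N N₂ E :=
  CuspReg.coe_mem_pullRR_of_pole hle (jBarLevel_ne_zero N (q * q) hqq) (fun P => by
    rw [hE P]
    have h1 := le_max_left 0 (-(P.ord (jBar N)))
    have h2 := le_max_left 0 (-(P.ord (jBarLevel N q hq)))
    have h3 := le_max_right 0 (-(P.ord (jBarLevel N (q * q) hqq)))
    linarith)

theorem one_le_qq : 1 ≤ q * q :=
  Nat.mul_pos (Nat.pos_of_ne_zero (NeZero.ne q)) (Nat.pos_of_ne_zero (NeZero.ne q))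

include hle in
/-- `L(E) ⊆ L(q² E)`. -/
theorem pullRR_le_qq (hE : Plan.IsE3 N q hq hqq E) :
    pullRR N N₂ E ≤ pullRR N N₂ ((q * q) • E) :=
  Main.pullRR_mono (fun P => by
    rw [smul_E_apply]
    have h0 := E3_nonneg hq hqq hE P
    have h1 : (1 : ℤ) ≤ ((q * q : ℕ) : ℤ) := by exact_mod_cast one_le_qq (q := q)
    have h2 := mul_le_mul_of_nonneg_right h1 h0
    linarith)

include hle in
/-- `j_{q²}^(q²) ∈ L(q² E)`. -/
theorem J_pow_mem_pullRR (hE : Plan.IsE3 N q hq hqq E) :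
    ((jBarLevel N (q * q) hqq : FN N) : Om) ^ (q * q) ∈ pullRR N N₂ ((q * q) • E) :=
  Main.pow_mem_pullRR (q * q) (fun P => smul_E_apply _ (q * q) P) (J_mem_pullRR hle hq hqq hE)

include hle in
/-- `j^(q²) ∈ L(q² E)`. -/
theorem j_pow_mem_pullRR (hE : Plan.IsE3 N q hq hqq E) :
    ((jBar N : FN N) : Om) ^ (q * q) ∈ pullRR N N₂ ((q * q) • E) :=
  Main.pow_mem_pullRR (q * q) (fun P => smul_E_apply _ (q * q) P) (j_mem_pullRR hle hq hqq hE)

include hle in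
/-- `zInf ∈ L((q² + 1) E)`. -/
theorem zInf_mem_pullRR (hE : Plan.IsE3 N q hq hqq E) :
    ((zInf N q hqq : FN N) : Om) ∈ pullRR N N₂ ((q * q + 1) • E) := by
  have e : ((zInf N q hqq : FN N) : Om) =
      (((jBar N : FN N) : Om) - ((jBarLevel N (q * q) hqq : FN N) : Om) ^ (q * q)) *
        (((jBar N : FN N) : Om) - ((jBarLevel N (q * q) hqq : FN N) : Om)) := rfl
  rw [e]
  refine CuspReg.mul_mem_pullRR_add (B₁ := (q * q) • E) (B₂ := E) (fun P => ?_)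
    (Submodule.sub_mem _ (pullRR_le_qq hle hq hqq hE (j_mem_pullRR hle hq hqq hE))
      (J_pow_mem_pullRR hle hq hqq hE))
    (Submodule.sub_mem _ (j_mem_pullRR hle hq hqq hE) (J_mem_pullRR hle hq hqq hE))
  rw [smul_E_apply, smul_E_apply]
  push_cast
  linarith

include hle in
/-- `zZero ∈ L((q² + 1) E)`. -/
theorem zZero_mem_pullRR (hE : Plan.IsE3 N q hq hqq E) :
    ((zZero N q hqq : FN N) : Om) ∈ pullRR N N₂ ((q * q + 1) • E) := by
  have e : ((zZero N q hqq : FN N) : Om) =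
      (((jBarLevel N (q * q) hqq : FN N) : Om) - ((jBar N : FN N) : Om) ^ (q * q)) *
        (((jBar N : FN N) : Om) - ((jBarLevel N (q * q) hqq : FN N) : Om)) := rfl
  rw [e]
  refine CuspReg.mul_mem_pullRR_add (B₁ := (q * q) • E) (B₂ := E) (fun P => ?_)
    (Submodule.sub_mem _ (pullRR_le_qq hle hq hqq hE (J_mem_pullRR hle hq hqq hE))
      (j_pow_mem_pullRR hle hq hqq hE))
    (Submodule.sub_mem _ (j_mem_pullRR hle hq hqq hE) (J_mem_pullRR hle hq hqq hE))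
  rw [smul_E_apply, smul_E_apply]
  push_cast
  linarith

include hle in
/-- `zMid ∈ L(2 q² E)`. -/
theorem zMid_mem_pullRR (hE : Plan.IsE3 N q hq hqq E) :
    ((zMid N q hqq : FN N) : Om) ∈ pullRR N N₂ ((2 * (q * q)) • E) := by
  have e : ((zMid N q hqq : FN N) : Om) =
      (((jBarLevel N (q * q) hqq : FN N) : Om) - ((jBar N : FN N) : Om) ^ (q * q)) *
        (((jBar N : FN N) : Om) - ((jBarLevel N (q * q) hqq : FN N) : Om) ^ (q * q)) := rfl
  rw [e]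
  refine CuspReg.mul_mem_pullRR_add (B₁ := (q * q) • E) (B₂ := (q * q) • E) (fun P => ?_)
    (Submodule.sub_mem _ (pullRR_le_qq hle hq hqq hE (J_mem_pullRR hle hq hqq hE))
      (j_pow_mem_pullRR hle hq hqq hE))
    (Submodule.sub_mem _ (pullRR_le_qq hle hq hqq hE (j_mem_pullRR hle hq hqq hE))
      (J_pow_mem_pullRR hle hq hqq hE))
  rw [smul_E_apply, smul_E_apply]
  push_cast
  linarith

end Pole

/-! ## The reductions, as elements of `B_κ` -/

section BK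

variable (A : ValuationSubring Kbar) (M q : ℕ)

/-- `j̄ ∈ B_κ`. -/
theorem jk_mem_BKM : jk A ∈ K0Plan.BKM A M := by
  refine ⟨jqModC_mem_full _ M, ?_⟩
  have h1 : jk A ∈ polyJ (kk A) := Algebra.subset_adjoin (Set.mem_singleton _)
  exact (integralClosure (polyJ (kk A)) (Omk A)).algebraMap_mem ⟨jk A, h1⟩

/-- `j̄` as an element of `B_κ`. -/
def jkB : ↥(K0Plan.BKM A M) := ⟨jk A, jk_mem_BKM A M⟩

/-- `(j̄ − j̄^(q⁴)) (j̄ − j̄^(q²))`: the reduction of `zInf` at `∞`. -/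
def aInf : ↥(K0Plan.BKM A M) :=
  (jkB A M - (jkB A M ^ (q * q)) ^ (q * q)) * (jkB A M - jkB A M ^ (q * q))

/-- `(j̄ − j̄^(q²))²`: the reduction of `zMid` at the middle coordinates. -/
def aMid : ↥(K0Plan.BKM A M) :=
  (jkB A M - jkB A M ^ (q * q)) * (jkB A M - jkB A M ^ (q * q))

/-- `(j̄ − j̄^(q⁴)) (j̄^(q²) − j̄)`: the reduction of `zZero` at `0`. -/
def aZero : ↥(K0Plan.BKM A M) :=
  (jkB A M - (jkB A M ^ (q * q)) ^ (q * q)) * (jkB A M ^ (q * q) - jkB A M)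

theorem coe_aInf : ((aInf A M q : ↥(K0Plan.BKM A M)) : Omk A) =
    (jk A - (jk A ^ (q * q)) ^ (q * q)) * (jk A - jk A ^ (q * q)) := rfl

theorem coe_aMid : ((aMid A M q : ↥(K0Plan.BKM A M)) : Omk A) =
    (jk A - jk A ^ (q * q)) * (jk A - jk A ^ (q * q)) := rfl

theorem coe_aZero : ((aZero A M q : ↥(K0Plan.BKM A M)) : Omk A) =
    (jk A - (jk A ^ (q * q)) ^ (q * q)) * (jk A ^ (q * q) - jk A) := rfl

end BK

/-! ## Membership in `B'` and the three-coordinate reductions -/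

section Bp

variable {M q N' : ℕ} [NeZero M] [NeZero q] [NeZero N'] {h : Nat.Coprime M q}
variable {A : ValuationSubring Kbar} {F : Plan.Frame M q h} {O : Subring Om}
  {ρ : O →+* Plan.Rq A q}
variable (hq : q.Prime) (hA : A.LiesOverPrime q) (hS : Plan.IsSetup A F O ρ) (hq' : q ∣ N')
variable (hle : modularFunctionFieldBar (N' * q) ≤ modularFunctionFieldBar (M * q * q))
variable {E : Divisor Kbar (FN (N' * q))}

/-- `zInf`, as an element of `O`. -/
def eInf : O := ⟨_, zInf_mem (N' * q) (Nat.mul_dvd_mul_right hq' q) hq hA hS⟩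

/-- `zMid`, as an element of `O`. -/
def eMid : O := ⟨_, zMid_mem (N' * q) (Nat.mul_dvd_mul_right hq' q) hq hA hS⟩

/-- `zZero`, as an element of `O`. -/
def eZero : O := ⟨_, zZero_mem (N' * q) (Nat.mul_dvd_mul_right hq' q) hq hA hS⟩

include hle in
theorem eInf_mem_Bp
    (hE : Plan.IsE3 (N' * q) q (Dvd.intro_left N' rfl) (Nat.mul_dvd_mul_right hq' q) E) :
    eInf hq hA hS hq' ∈ K0Plan.Bp A N' M q O E :=
  ⟨fixed_zInf A (N' * q) q _, q * q + 1, by
    rw [zero_add]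
    exact zInf_mem_pullRR hle _ _ hE⟩

include hle in
theorem eMid_mem_Bp
    (hE : Plan.IsE3 (N' * q) q (Dvd.intro_left N' rfl) (Nat.mul_dvd_mul_right hq' q) E) :
    eMid hq hA hS hq' ∈ K0Plan.Bp A N' M q O E :=
  ⟨fixed_zMid A (N' * q) q _, 2 * (q * q), by
    rw [zero_add]
    exact zMid_mem_pullRR hle _ _ hE⟩

include hle in
theorem eZero_mem_Bp
    (hE : Plan.IsE3 (N' * q) q (Dvd.intro_left N' rfl) (Nat.mul_dvd_mul_right hq' q) E) :
    eZero hq hA hS hq' ∈ K0Plan.Bp A N' M q O E :=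
  ⟨fixed_zZero A (N' * q) q _, q * q + 1, by
    rw [zero_add]
    exact zZero_mem_pullRR hle _ _ hE⟩

/-- `ρ₃ zInf = (aInf, 0, 0)`. -/
theorem rho3_eInf (ξ₀ : Plan.MidIdx q) :
    K0Plan.rho3 A q O ρ ξ₀ (eInf hq hA hS hq') = K0Plan.iota3 A M (aInf A M q, 0, 0) :=
  Prod.ext (rho_zInf_inf (N' * q) _ hq hA hS)
    (Prod.ext (rho_zInf_mid (N' * q) _ hq hA hS ξ₀) (rho_zInf_zero (N' * q) _ hq hA hS))

/-- `ρ₃ zMid = (0, aMid, 0)`. -/
theorem rho3_eMid (ξ₀ : Plan.MidIdx q) :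
    K0Plan.rho3 A q O ρ ξ₀ (eMid hq hA hS hq') = K0Plan.iota3 A M (0, aMid A M q, 0) :=
  Prod.ext (rho_zMid_inf (N' * q) _ hq hA hS)
    (Prod.ext (rho_zMid_mid (N' * q) _ hq hA hS ξ₀) (rho_zMid_zero (N' * q) _ hq hA hS))

/-- `ρ₃ zZero = (0, 0, aZero)`. -/
theorem rho3_eZero (ξ₀ : Plan.MidIdx q) :
    K0Plan.rho3 A q O ρ ξ₀ (eZero hq hA hS hq') = K0Plan.iota3 A M (0, 0, aZero A M q) :=
  Prod.ext (rho_zZero_inf (N' * q) _ hq hA hS)
    (Prod.ext (rho_zZero_mid (N' * q) _ hq hA hS ξ₀) (rho_zZero_zero (N' * q) _ hq hA hS))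

include hq in
theorem aInf_ne_zero : aInf A M q ≠ 0 := by
  intro h0
  have h1 : ((aInf A M q : ↥(K0Plan.BKM A M)) : Omk A) = 0 := by rw [h0]; rfl
  rw [coe_aInf, ← pow_mul] at h1
  refine mul_ne_zero (jk_sub_pow_ne_zero A ?_) (jk_sub_pow_ne_zero A (qq_ne_one hq)) h1
  have := hq.two_le
  nlinarith [qq_ne_one hq, Nat.mul_le_mul this this]

include hq in
theorem aMid_ne_zero : aMid A M q ≠ 0 := by
  intro h0
  have h1 : ((aMid A M q : ↥(K0Plan.BKM A M)) : Omk A) = 0 := by rw [h0]; rfl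
  rw [coe_aMid] at h1
  exact mul_ne_zero (jk_sub_pow_ne_zero A (qq_ne_one hq))
    (jk_sub_pow_ne_zero A (qq_ne_one hq)) h1

include hq in
theorem aZero_ne_zero : aZero A M q ≠ 0 := by
  intro h0
  have h1 : ((aZero A M q : ↥(K0Plan.BKM A M)) : Omk A) = 0 := by rw [h0]; rfl
  rw [coe_aZero, ← pow_mul] at h1
  refine mul_ne_zero (jk_sub_pow_ne_zero A ?_) ?_ h1
  · have := hq.two_le
    nlinarith [qq_ne_one hq, Nat.mul_le_mul this this]
  · intro h2
    exact jk_sub_pow_ne_zero A (qq_ne_one hq) (by rw [← neg_sub, h2, neg_zero])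

include hq hA hS hle in
/-- **The one-component elements of `B'`** (`OneCompK0` of `S36/CondK0`): `ε₁, ε₂, ε₃ ∈ B'` with
`ρ₃ ε₁ = (a₁, 0, 0)`, `ρ₃ ε₂ = (0, a₂, 0)`, `ρ₃ ε₃ = (0, 0, a₃)`, `a_i ∈ B_κ` nonzero. -/
theorem exists_oneCompK0
    (hE : Plan.IsE3 (N' * q) q (Dvd.intro_left N' rfl) (Nat.mul_dvd_mul_right hq' q) E)
    (ξ₀ : Plan.MidIdx q) :
    ∃ (ε₁ ε₂ ε₃ : O) (a₁ a₂ a₃ : ↥(K0Plan.BKM A M)),
      ε₁ ∈ K0Plan.Bp A N' M q O E ∧ ε₂ ∈ K0Plan.Bp A N' M q O E ∧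
      ε₃ ∈ K0Plan.Bp A N' M q O E ∧ a₁ ≠ 0 ∧ a₂ ≠ 0 ∧ a₃ ≠ 0 ∧
      K0Plan.rho3 A q O ρ ξ₀ ε₁ = K0Plan.iota3 A M (a₁, 0, 0) ∧
      K0Plan.rho3 A q O ρ ξ₀ ε₂ = K0Plan.iota3 A M (0, a₂, 0) ∧
      K0Plan.rho3 A q O ρ ξ₀ ε₃ = K0Plan.iota3 A M (0, 0, a₃) :=
  ⟨eInf hq hA hS hq', eMid hq hA hS hq', eZero hq hA hS hq', aInf A M q, aMid A M q,
    aZero A M q, eInf_mem_Bp hq hA hS hq' hle hE, eMid_mem_Bp hq hA hS hq' hle hE,
    eZero_mem_Bp hq hA hS hq' hle hE, aInf_ne_zero hq, aMid_ne_zero hq, aZero_ne_zero hq,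
    rho3_eInf hq hA hS hq' ξ₀, rho3_eMid hq hA hS hq' ξ₀, rho3_eZero hq hA hS hq' ξ₀⟩

end Bp

end Fermat.Agent.S36.OneCompBp

end
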