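import Mathlib
import Fermat.Agent.S36.CondK0
import Fermat.Agent.S36.OneCompBp
import Fermat.Agent.S36.K0Const

/-!
# P8 / S36 — [COND-K']: the instance of `K0Plan.CondStmt` (helper70)

`condStmt`: `K0Plan.CondStmt A N' M q O ρ ξ₀ E` for the `Q̄`-setup `(O, ρ)` of a frame and a cusp
divisor `E` (`IsE3`), with [K0-SURJ] (`K0Plan.SurjStmt`) as the only remaining hypothesis:

* the one-component elements are `OneCompBp.exists_oneCompK0` (helper17);
* the constants are `K0Const.constStmt` (helper2);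
* the algebra is `CondK0.condStmt_of`.

`condStmt_all` is the shape consumed by the junction `S36/OneGen`
(`∀ E, IsE3 … E → CondStmt … E`).
-/

set_option autoImplicit false
set_option maxHeartbeats 400000
set_option synthInstance.maxHeartbeats 400000

noncomputable section

namespace Fermat.Agent.S36.CondK0Inst

open ModularCurve AlgebraicCurve Fermat.Agent.S24 Fermat.Agent.S18 Fermat.Agent.S18.Content
  Fermat.Agent.S18.Plan Fermat.Agent.S36.Plan Fermat.Agent.S36.K0Plan

variable {A : ValuationSubring Kbar} {N' M q : ℕ} [NeZero N'] [NeZero M] [NeZero q]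
  {O : Subring Om} {ρ : O →+* Rq A q} {h : Nat.Coprime M q} {F : Plan.Frame M q h}

/-- The one-component elements of `B'`, in the shape of `CondK0.OneCompK0`. -/
theorem oneCompK0 (hq : q.Prime) (hA : A.LiesOverPrime q) (hS : Plan.IsSetup A F O ρ)
    (hq' : q ∣ N')
    (hle : modularFunctionFieldBar (N' * q) ≤ modularFunctionFieldBar (M * q * q))
    {E : Divisor Kbar (FN (N' * q))}
    (hE : IsE3 (N' * q) q (Dvd.intro_left N' rfl) (Nat.mul_dvd_mul_right hq' q) E)
    (ξ₀ : MidIdx q) : CondK0.OneCompK0 A N' M q O ρ E ξ₀ :=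
  OneCompBp.exists_oneCompK0 hq hA hS hq' hle hE ξ₀

/-- **[COND-K']** `K0Plan.CondStmt` for the setup of a frame, from [K0-SURJ]. -/
theorem condStmt (hq : q.Prime) (hA : A.LiesOverPrime q) (hS : Plan.IsSetup A F O ρ)
    (hq' : q ∣ N')
    (hle : modularFunctionFieldBar (N' * q) ≤ modularFunctionFieldBar (M * q * q))
    (ξ₀ : MidIdx q) (E : Divisor Kbar (FN (N' * q)))
    (hE : IsE3 (N' * q) q (Dvd.intro_left N' rfl) (Nat.mul_dvd_mul_right hq' q) E)
    (hSurj : SurjStmt A N' M q O ρ ξ₀ E) : CondStmt A N' M q O ρ ξ₀ E :=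
  CondK0.condStmt_of hq (FrameInst.not_dvd_of_coprime hq h) hA E ξ₀
    (OneCompBp.E3_nonneg _ _ hE) (K0Const.constStmt hq hA F hS) hSurj
    (oneCompK0 hq hA hS hq' hle hE ξ₀)

/-- The shape consumed by the junction: for every cusp divisor `E`. -/
theorem condStmt_all (hq : q.Prime) (hA : A.LiesOverPrime q) (hS : Plan.IsSetup A F O ρ)
    (hq' : q ∣ N')
    (hle : modularFunctionFieldBar (N' * q) ≤ modularFunctionFieldBar (M * q * q))
    (ξ₀ : MidIdx q)
    (hSurj : ∀ E : Divisor Kbar (FN (N' * q)),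
      IsE3 (N' * q) q (Dvd.intro_left N' rfl) (Nat.mul_dvd_mul_right hq' q) E →
        SurjStmt A N' M q O ρ ξ₀ E) :
    ∀ E : Divisor Kbar (FN (N' * q)),
      IsE3 (N' * q) q (Dvd.intro_left N' rfl) (Nat.mul_dvd_mul_right hq' q) E →
        CondStmt A N' M q O ρ ξ₀ E :=
  fun E hE => condStmt hq hA hS hq' hle ξ₀ E hE (hSurj E hE)

/-- The same with the level hypothesis in divisibility form. -/
theorem condStmt_all_of_dvd (hq : q.Prime) (hA : A.LiesOverPrime q)
    (hS : Plan.IsSetup A F O ρ) (hq' : q ∣ N') (hNM : N' ∣ M * q) (ξ₀ : MidIdx q)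
    (hSurj : ∀ E : Divisor Kbar (FN (N' * q)),
      IsE3 (N' * q) q (Dvd.intro_left N' rfl) (Nat.mul_dvd_mul_right hq' q) E →
        SurjStmt A N' M q O ρ ξ₀ E) :
    ∀ E : Divisor Kbar (FN (N' * q)),
      IsE3 (N' * q) q (Dvd.intro_left N' rfl) (Nat.mul_dvd_mul_right hq' q) E →
        CondStmt A N' M q O ρ ξ₀ E :=
  condStmt_all hq hA hS hq' (RR0.modularFunctionFieldBar_le (Nat.mul_dvd_mul_right hNM q)) ξ₀ hSurj

end Fermat.Agent.S36.CondK0Inst

end
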