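import Mathlib
import Fermat.Agent.S34.Plan
import Fermat.Agent.S18.FibreCount
import Fermat.Agent.Lib.FFSep.LaurentDescent

/-!
# P8 `[I-DESC]` — Galois-fixed divisor classes contain Galois-stable divisors (helper89)

`F_N = FN N` over `Q̄`, with the coefficientwise action `S34.Plan.gal N τ` of `τ ∈ G_ℚ`.
For ANY set `H` of elements of `G_ℚ` (e.g. an inertia group):

* `exists_stable` : a divisor `D₀` with `τ D₀ ∼ D₀` for all `τ ∈ H` is linearly equivalent to a
  divisor `D` with `τ D = D` for all `τ ∈ H`;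
* `exists_fixed_kummer` : if `D` is `H`-stable and `div u = n • D`, then the multiple of `u` with
  leading `q`-coefficient `1` is fixed by `H`;
* `exists_stable_pair` : both at once;
* `iDesc` : `exists_stable` for `H` = the inertia group of a valuation subring `A` of `Q̄`.

Proof: the reduced divisor with respect to the cusp place `∞` (`Lib/FFSep/Descent`,
`Lib/FFSep/LaurentDescent`): the cusp place is fixed by every coefficientwise automorphism, and
the `∞`-reduced pair `(m, E)` of a degree-zero class is unique, hence `τ E = E` as soon as `τ`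
fixes the class.
-/

set_option autoImplicit false

noncomputable section

namespace Fermat.Agent.S36.IDesc

open ModularCurve AlgebraicCurve IntermediateField Fermat.Agent.S24 Fermat.Agent.S18.Content
open Fermat.Agent.S18.Plan Fermat.Agent.Lib Fermat.Agent.Lib.FFSep

set_option synthInstance.maxHeartbeats 400000
set_option maxHeartbeats 800000

variable (N : ℕ) [NeZero N]

/-- A degree-zero divisor of `F_N` whose class is fixed by a set `H` of elements of `G_ℚ` is
linearly equivalent to an `H`-stable divisor. -/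
theorem exists_stable_of_degree_eq_zero (H : Set (Kbar ≃ₐ[ℚ] Kbar)) (D₀ : Divisor Kbar (FN N))
    (hD : Divisor.degree D₀ = 0)
    (h : ∀ τ ∈ H, Fermat.Agent.S34.Plan.gal N τ • D₀ - D₀ ∈
      Divisor.principal (K := Kbar) (F := FN N)) :
    ∃ D : Divisor Kbar (FN N), D - D₀ ∈ Divisor.principal (K := Kbar) (F := FN N) ∧
      ∀ τ ∈ H, Fermat.Agent.S34.Plan.gal N τ • D = D := by
  have hxt := Fermat.Agent.S18.FibreCount.transcendental_jBar N
  have := Fermat.Agent.S18.FibreCount.finiteDimensional N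
  have := isSeparable_laurentBaseChange (L := Kbar) (modularFunctionFieldFull N) (jBar N)
  obtain ⟨P, hP⟩ := exists_cuspPlace (L := Kbar) (modularFunctionFieldFull N) hxt
  obtain ⟨m, E, hred⟩ := FFSep.exists_isReduced hxt P D₀
  refine ⟨E - Finsupp.single P (m : ℤ), ?_, fun τ hτ => ?_⟩
  · have h1 := hred.2.1
    have h2 : E - Finsupp.single P (m : ℤ) - D₀ = E - (D₀ + Finsupp.single P (m : ℤ)) := by abel
    rw [h2]
    exact h1
  · have hg : Fermat.Agent.S34.Plan.gal N τ • P = P :=
      arithmeticGalois_smul_eq (modularFunctionFieldFull N) P hP τ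
    have h1 := hred.smul (Fermat.Agent.S34.Plan.gal N τ) hg
    have h2 := (FFSep.IsReduced.unique hxt hD hred h1 (h τ hτ)).2
    rw [smul_sub, ← h2, SemilinearAut.smul_single, hg]

/-- **[I-DESC], divisor half.**  A divisor of `F_N` (of any degree) whose class is fixed by a set
`H` of elements of `G_ℚ` is linearly equivalent to an `H`-stable divisor. -/
theorem exists_stable (H : Set (Kbar ≃ₐ[ℚ] Kbar)) (D₀ : Divisor Kbar (FN N))
    (h : ∀ τ ∈ H, Fermat.Agent.S34.Plan.gal N τ • D₀ - D₀ ∈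
      Divisor.principal (K := Kbar) (F := FN N)) :
    ∃ D : Divisor Kbar (FN N), D - D₀ ∈ Divisor.principal (K := Kbar) (F := FN N) ∧
      ∀ τ ∈ H, Fermat.Agent.S34.Plan.gal N τ • D = D := by
  have hxt := Fermat.Agent.S18.FibreCount.transcendental_jBar N
  have := Fermat.Agent.S18.FibreCount.finiteDimensional N
  have := isSeparable_laurentBaseChange (L := Kbar) (modularFunctionFieldFull N) (jBar N)
  obtain ⟨P, hP⟩ := exists_cuspPlace (L := Kbar) (modularFunctionFieldFull N) hxt
  have hgP : ∀ τ : Kbar ≃ₐ[ℚ] Kbar, Fermat.Agent.S34.Plan.gal N τ • P = P := fun τ =>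
    arithmeticGalois_smul_eq (modularFunctionFieldFull N) P hP τ
  set d : ℤ := Divisor.degree D₀ with hd
  have hdeg : Divisor.degree (D₀ - Finsupp.single P d) = 0 := by
    rw [map_sub, Divisor.degree_single, FFSep.deg_eq_one (jBar N) P]
    simp [hd]
  have hfix : ∀ τ : Kbar ≃ₐ[ℚ] Kbar,
      Fermat.Agent.S34.Plan.gal N τ • (Finsupp.single P d : Divisor Kbar (FN N))
        = Finsupp.single P d := by
    intro τ
    rw [SemilinearAut.smul_single, hgP τ]
  obtain ⟨D', hD', hstab⟩ := exists_stable_of_degree_eq_zero N H (D₀ - Finsupp.single P d) hdeg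
    (fun τ hτ => by
      have h1 := h τ hτ
      have h2 : Fermat.Agent.S34.Plan.gal N τ • (D₀ - Finsupp.single P d)
          - (D₀ - Finsupp.single P d) = Fermat.Agent.S34.Plan.gal N τ • D₀ - D₀ := by
        rw [smul_sub, hfix τ]
        abel
      rw [h2]
      exact h1)
  refine ⟨D' + Finsupp.single P d, ?_, fun τ hτ => ?_⟩
  · have h2 : D' + Finsupp.single P d - D₀ = D' - (D₀ - Finsupp.single P d) := by abel
    rw [h2]
    exact hD'
  · rw [smul_add, hstab τ hτ, hfix τ]

/-- **[I-DESC], function half.**  If `D` is `H`-stable and `div u = n • D`, then the multiple of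
`u` with leading `q`-coefficient `1` is fixed by `H`. -/
theorem exists_fixed_kummer (H : Set (Kbar ≃ₐ[ℚ] Kbar)) (n : ℤ) (D : Divisor Kbar (FN N))
    (hstab : ∀ τ ∈ H, Fermat.Agent.S34.Plan.gal N τ • D = D) (u : FN N) (hu : u ≠ 0)
    (hdiv : ∀ P : Place Kbar (FN N), P.ord u = n * D P) :
    ∃ c : Kbar, c ≠ 0 ∧ ∀ τ ∈ H,
      Fermat.Agent.S34.Plan.gal N τ • (algebraMap Kbar (FN N) c * u)
        = algebraMap Kbar (FN N) c * u := by
  have hxt := Fermat.Agent.S18.FibreCount.transcendental_jBar N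
  have := Fermat.Agent.S18.FibreCount.finiteDimensional N
  have := isSeparable_laurentBaseChange (L := Kbar) (modularFunctionFieldFull N) (jBar N)
  have hl0 := lcoeff_ne_zero (modularFunctionFieldFull N) u hu
  refine ⟨(lcoeff (modularFunctionFieldFull N) u)⁻¹, inv_ne_zero hl0, fun τ hτ => ?_⟩
  set u' : FN N := algebraMap Kbar (FN N) (lcoeff (modularFunctionFieldFull N) u)⁻¹ * u with hu'
  have hu'0 : u' ≠ 0 := mul_ne_zero ((map_ne_zero _).mpr (inv_ne_zero hl0)) hu
  have hlc : lcoeff (modularFunctionFieldFull N) u' = 1 := by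
    rw [hu', lcoeff_algebraMap_mul, inv_mul_cancel₀ hl0]
  have hord : ∀ P : Place Kbar (FN N), P.ord u' = n * D P := by
    intro P
    rw [hu', Place.ord_mul P ((map_ne_zero _).mpr (inv_ne_zero hl0)) hu,
      FFPlaces.ord_algebraMap, zero_add, hdiv P]
  set g := Fermat.Agent.S34.Plan.gal N τ with hg
  have hgu0 : g • u' ≠ 0 := by
    intro h0
    apply hu'0
    have := congrArg (g⁻¹ • ·) h0
    simpa using this
  have hw : ∀ P : Place Kbar (FN N), P.ord (g • u' * u'⁻¹) = 0 := by
    intro P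
    rw [Place.ord_mul P hgu0 (inv_ne_zero hu'0), Place.ord_inv, ord_smul_eq, hord, hord]
    have h1 : (g • D) P = D (g⁻¹ • P) := SemilinearAut.divisor_smul_apply g D P
    rw [hstab τ hτ] at h1
    rw [h1]
    ring
  obtain ⟨a, ha⟩ := eq_algebraMap_of_ord_eq_zero hxt hw
  have h2 : g • u' = algebraMap Kbar (FN N) a * u' := by
    rw [← ha, mul_assoc, inv_mul_cancel₀ hu'0, mul_one]
  have h3 : lcoeff (modularFunctionFieldFull N) (g • u') = 1 := by
    rw [hg]
    show lcoeff (modularFunctionFieldFull N)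
      (arithmeticGalois (modularFunctionFieldFull N) τ • u') = 1
    rw [lcoeff_arithmeticGalois_smul, hlc, map_one]
  rw [h2, lcoeff_algebraMap_mul, hlc, mul_one] at h3
  rw [h2, h3, map_one, one_mul]

/-- **[I-DESC], packaged.**  A divisor `D₀` with `n • D₀ = div u₀` whose class is fixed by a set
`H` of elements of `G_ℚ` can be replaced, inside its class, by an `H`-stable divisor `D` with
`n • D = div u` for an `H`-fixed function `u`. -/
theorem exists_stable_pair (H : Set (Kbar ≃ₐ[ℚ] Kbar)) (n : ℕ) (D₀ : Divisor Kbar (FN N))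
    (u₀ : FN N) (hu₀ : u₀ ≠ 0) (hdiv : ∀ P : Place Kbar (FN N), P.ord u₀ = n * D₀ P)
    (h : ∀ τ ∈ H, Fermat.Agent.S34.Plan.gal N τ • D₀ - D₀ ∈
      Divisor.principal (K := Kbar) (F := FN N)) :
    ∃ (D : Divisor Kbar (FN N)) (u : FN N),
      D - D₀ ∈ Divisor.principal (K := Kbar) (F := FN N) ∧ u ≠ 0 ∧
      (∀ P : Place Kbar (FN N), P.ord u = n * D P) ∧
      (∀ τ ∈ H, Fermat.Agent.S34.Plan.gal N τ • D = D) ∧
      (∀ τ ∈ H, Fermat.Agent.S34.Plan.gal N τ • u = u) := by
  obtain ⟨D, hDD, hstab⟩ := exists_stable N H D₀ h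
  obtain ⟨g, hg0, hg⟩ := hDD
  have hu₁0 : u₀ * g ^ n ≠ 0 := mul_ne_zero hu₀ (pow_ne_zero n hg0)
  have hu₁ : ∀ P : Place Kbar (FN N), P.ord (u₀ * g ^ n) = (n : ℤ) * D P := by
    intro P
    have h1 := hg P
    rw [Finsupp.sub_apply] at h1
    have h2 : P.ord (g ^ n) = n * P.ord g := by
      have := Place.ord_zpow P g (n : ℤ)
      rwa [zpow_natCast] at this
    rw [Place.ord_mul P hu₀ (pow_ne_zero n hg0), hdiv P, h2, ← h1]
    ring
  obtain ⟨c, hc, hfix⟩ := exists_fixed_kummer N H (n : ℤ) D hstab (u₀ * g ^ n) hu₁0 hu₁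
  have hc' : algebraMap Kbar (FN N) c ≠ 0 := (map_ne_zero _).mpr hc
  refine ⟨D, algebraMap Kbar (FN N) c * (u₀ * g ^ n), ⟨g, hg0, hg⟩, mul_ne_zero hc' hu₁0,
    fun P => ?_, hstab, hfix⟩
  rw [Place.ord_mul P hc' hu₁0, FFPlaces.ord_algebraMap, zero_add, hu₁ P]

/-- **[I-DESC]** in the shape of the P8 junction contract: `H` = the inertia group of `A`. -/
theorem iDesc (A : ValuationSubring Kbar) (D₀ : Divisor Kbar (FN N))
    (h : ∀ τ : Kbar ≃ₐ[ℚ] Kbar, τ ∈ A.inertiaSubgroupIn ℚ →
      Fermat.Agent.S34.Plan.gal N τ • D₀ - D₀ ∈ Divisor.principal (K := Kbar) (F := FN N)) :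
    ∃ D : Divisor Kbar (FN N), D - D₀ ∈ Divisor.principal (K := Kbar) (F := FN N) ∧
      ∀ τ : Kbar ≃ₐ[ℚ] Kbar, τ ∈ A.inertiaSubgroupIn ℚ →
        Fermat.Agent.S34.Plan.gal N τ • D = D :=
  exists_stable N {τ | τ ∈ A.inertiaSubgroupIn ℚ} D₀ h

end Fermat.Agent.S36.IDesc
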