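/-
P8 / S36 junction (helper16): the geometric target of S36 in the divisor vocabulary of `S35/FPlan`.

* `B2Stmt N' q p`   — helper79's junction contract on `J₀(N' q)`: the inertia-invariants of the
  `q`-new `p`-power torsion are killed by one nonzero constant (one place over `q`);
* `B2Div A N' q c₀` — divisor form: `D₀` of degree `0`, `n D₀` principal (`q ∤ n`), both
  push-forwards principal, class fixed by the inertia group of `A` ⟹ `c₀ D₀` principal;
* `IDesc A N' q`    — helper80's [I-DESC]: a divisor with inertia-fixed class is linearly equivalent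
  to an inertia-stable divisor;
* `B2Stable A N' q c₀` — the same as `B2Div` for inertia-stable divisors (the geometric target).

* `B2Pair A N' q c₀` — the same with all `K₀`-rational data supplied: `D` inertia-stable,
  `n D = div u`, `α_* D = div a`, `β_* D = div b` with `u`, `a`, `b` fixed by the inertia group.

`b2Stmt_of_b2Div`, `b2Div_of_stable`, `b2Stmt_of_stable` : the chain
`IDesc` + `B2Stable` ⟹ `B2Div` ⟹ `B2Stmt`;
`b2Stable_of_pair`, `b2Stmt_of_pair` : `B2Pair` ⟹ `B2Stable` ⟹ `B2Stmt`, with [I-DESC]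
discharged by helper89's `S36/IDesc.lean`.
-/
import Mathlib
import Fermat.Agent.P5.CoreT
import Fermat.Agent.S35.FPlan
import Fermat.Agent.S35.Push
import Fermat.Agent.S35.FTop
import Fermat.Agent.S36.IDesc
import Fermat.Agent.Lib.CorrSemilinear
import Fermat.Agent.P5.GalHecke

set_option autoImplicit false

noncomputable section

namespace Fermat.Agent.S36.B2Plan

open ModularCurve AlgebraicCurve Fermat.Agent.S24
open Fermat.Agent.S37.HeckeInputs Fermat.Agent.S35 Fermat.Agent.S34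

section Contracts

variable (A : ValuationSubring Kbar) (N' q : ℕ) [NeZero N'] [NeZero q]

/-- **(B2), divisor form** with constant `c₀`: a divisor `D₀` of degree `0` of `F_{N' q}` with
`n D₀` principal (`q ∤ n`), both push-forwards to `F_{N'}` principal, and whose class is fixed by
the inertia group of `A`, has `c₀ D₀` principal. -/
def B2Div (c₀ : ℕ) : Prop :=
  ∀ (D₀ : Divisor Kbar (FN (N' * q))) (n : ℕ), Divisor.degree D₀ = 0 → 0 < n → ¬ q ∣ n →
    n • D₀ ∈ Divisor.principal (K := Kbar) (F := FN (N' * q)) →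
    Divisor.pushforwardAlong (heckeAlphaBar Kbar N' q) (heckeAlphaBarIntegral N' q) D₀ ∈
      Divisor.principal (K := Kbar) (F := FN N') →
    Divisor.pushforwardAlong (heckeBetaBar Kbar N' q) (heckeBetaBarIntegral N' q) D₀ ∈
      Divisor.principal (K := Kbar) (F := FN N') →
    (∀ τ : Kbar ≃ₐ[ℚ] Kbar, τ ∈ A.inertiaSubgroupIn ℚ →
      Plan.gal (N' * q) τ • D₀ - D₀ ∈ Divisor.principal (K := Kbar) (F := FN (N' * q))) →
    c₀ • D₀ ∈ Divisor.principal (K := Kbar) (F := FN (N' * q))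

/-- **(B2) on `J₀(N' q)`** (helper79's junction contract): the inertia-invariants of the `q`-new
`p`-power torsion are killed by one nonzero constant. -/
def B2Stmt (p : ℕ) : Prop :=
  ∃ A : ValuationSubring Kbar, A.LiesOverPrime q ∧ ∃ c₀ : ℕ, c₀ ≠ 0 ∧
    ∀ x : JZero (N' * q), (∃ m : ℕ, p ^ m • x = 0) → Push.IsNew N' q x →
      (∀ τ : Kbar ≃ₐ[ℚ] Kbar, τ ∈ A.inertiaSubgroupIn ℚ → τ • x = x) → c₀ • x = 0

/-- **[I-DESC]** (helper80): a divisor whose class is fixed by the inertia group of `A` is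
linearly equivalent to an inertia-stable divisor. -/
def IDesc : Prop :=
  ∀ D₀ : Divisor Kbar (FN (N' * q)),
    (∀ τ : Kbar ≃ₐ[ℚ] Kbar, τ ∈ A.inertiaSubgroupIn ℚ →
      Plan.gal (N' * q) τ • D₀ - D₀ ∈ Divisor.principal (K := Kbar) (F := FN (N' * q))) →
    ∃ D : Divisor Kbar (FN (N' * q)),
      D - D₀ ∈ Divisor.principal (K := Kbar) (F := FN (N' * q)) ∧
      ∀ τ : Kbar ≃ₐ[ℚ] Kbar, τ ∈ A.inertiaSubgroupIn ℚ → Plan.gal (N' * q) τ • D = D

/-- **(B2), stable-divisor form** with constant `c₀`: the geometric target. -/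
def B2Stable (c₀ : ℕ) : Prop :=
  ∀ (D : Divisor Kbar (FN (N' * q))) (n : ℕ), Divisor.degree D = 0 → 0 < n → ¬ q ∣ n →
    n • D ∈ Divisor.principal (K := Kbar) (F := FN (N' * q)) →
    Divisor.pushforwardAlong (heckeAlphaBar Kbar N' q) (heckeAlphaBarIntegral N' q) D ∈
      Divisor.principal (K := Kbar) (F := FN N') →
    Divisor.pushforwardAlong (heckeBetaBar Kbar N' q) (heckeBetaBarIntegral N' q) D ∈
      Divisor.principal (K := Kbar) (F := FN N') →
    (∀ τ : Kbar ≃ₐ[ℚ] Kbar, τ ∈ A.inertiaSubgroupIn ℚ → Plan.gal (N' * q) τ • D = D) →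
    c₀ • D ∈ Divisor.principal (K := Kbar) (F := FN (N' * q))

end Contracts

variable {N' q : ℕ} [NeZero N'] [NeZero q]

/-- (B2) on classes from (B2) on divisors. -/
theorem smul_eq_zero_of_b2Div (p : ℕ) (hq : q.Prime) (hqp : ¬ q ∣ p)
    (A : ValuationSubring Kbar) (c₀ : ℕ) (hB : B2Div A N' q c₀)
    (x : JZero (N' * q)) (hx : ∃ m : ℕ, p ^ m • x = 0) (hnew : Push.IsNew N' q x)
    (hfix : ∀ τ : Kbar ≃ₐ[ℚ] Kbar, τ ∈ A.inertiaSubgroupIn ℚ → τ • x = x) : c₀ • x = 0 := by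
  obtain ⟨m, hm⟩ := hx
  have hpm : ¬ q ∣ p ^ m := fun hd => hqp (hq.dvd_of_dvd_pow hd)
  have hp0 : 0 < p := Nat.pos_of_ne_zero (fun h0 => hqp (by rw [h0]; exact dvd_zero q))
  obtain ⟨D, rfl⟩ := Pic0.mk_surjective x
  have h1 : ((p ^ m • D : Divisor.degZero (K := Kbar) (F := FN (N' * q))) :
      Divisor Kbar (FN (N' * q))) ∈ Divisor.principal (K := Kbar) (F := FN (N' * q)) :=
    FTop.principal_of_mk_eq_zero (N' * q) _ hm
  have hA' := FTop.principal_of_mk_eq_zero N' _ ((Push.pushA_mk N' q D).symm.trans hnew.1)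
  have hB' := FTop.principal_of_mk_eq_zero N' _ ((Push.pushB_mk N' q D).symm.trans hnew.2)
  have hI : ∀ τ : Kbar ≃ₐ[ℚ] Kbar, τ ∈ A.inertiaSubgroupIn ℚ →
      Plan.gal (N' * q) τ • (D : Divisor Kbar (FN (N' * q))) - (D : Divisor Kbar (FN (N' * q)))
        ∈ Divisor.principal (K := Kbar) (F := FN (N' * q)) := by
    intro τ hτ
    have h2 : (Pic0.mk (SemilinearAut.degZeroSMulHom (Plan.gal (N' * q) τ) D - D) :
        JZero (N' * q)) = 0 := by
      have h3 : (Pic0.mk (SemilinearAut.degZeroSMulHom (Plan.gal (N' * q) τ) D - D) :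
          JZero (N' * q)) = τ • (Pic0.mk D : JZero (N' * q)) - Pic0.mk D := rfl
      rw [h3, hfix τ hτ, sub_self]
    exact FTop.principal_of_mk_eq_zero (N' * q) _ h2
  have h4 := hB (D : Divisor Kbar (FN (N' * q))) (p ^ m) (Divisor.mem_degZero.mp D.2)
    (pow_pos hp0 m) hpm h1 hA' hB' hI
  exact Fermat.Agent.P5.CoreT.mk_eq_zero_of_principal (N' * q) (c₀ • D) h4

/-- **[B2-TOP]**: helper79's junction contract from the divisor form at one place. -/
theorem b2Stmt_of_b2Div (p : ℕ) (hq : q.Prime) (hqp : ¬ q ∣ p)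
    (A : ValuationSubring Kbar) (hA : A.LiesOverPrime q) (c₀ : ℕ) (hc₀ : c₀ ≠ 0)
    (hB : B2Div A N' q c₀) : B2Stmt N' q p :=
  ⟨A, hA, c₀, hc₀, fun x hx hnew hfix => smul_eq_zero_of_b2Div p hq hqp A c₀ hB x hx hnew hfix⟩

/-- A principal divisor of `F_N` has degree `0`. -/
theorem degree_eq_zero_of_principal (N : ℕ) [NeZero N] {D : Divisor Kbar (FN N)}
    (hD : D ∈ Divisor.principal (K := Kbar) (F := FN N)) : Divisor.degree D = 0 := by
  have := hasPrincipalDivisors_FN N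
  obtain ⟨f, hf, hDf⟩ := hD
  obtain ⟨D', hD', hdeg⟩ := HasPrincipalDivisors.exists_divisor (K := Kbar) (F := FN N) f hf
  have : D = D' := Finsupp.ext fun v => by rw [hDf v, hD' v]
  rw [this]
  exact hdeg

/-- (B2), divisor form, from [I-DESC] and the stable-divisor form. -/
theorem b2Div_of_stable (A : ValuationSubring Kbar) (c₀ : ℕ) (hI : IDesc A N' q)
    (hB : B2Stable A N' q c₀) : B2Div A N' q c₀ := by
  intro D₀ n hdeg hn hqn hprin hα hβ hfix
  have := hasPrincipalDivisors_FN (N' * q)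
  obtain ⟨D, hDD₀, hst⟩ := hI D₀ hfix
  have hD : D = D₀ + (D - D₀) := by abel
  have hdegD : Divisor.degree D = 0 := by
    rw [hD, map_add, hdeg, degree_eq_zero_of_principal (N' * q) hDD₀, add_zero]
  have hnD : n • D ∈ Divisor.principal (K := Kbar) (F := FN (N' * q)) := by
    rw [hD, nsmul_add]
    exact add_mem hprin (nsmul_mem hDD₀ n)
  have hαD : Divisor.pushforwardAlong (heckeAlphaBar Kbar N' q) (heckeAlphaBarIntegral N' q) D ∈
      Divisor.principal (K := Kbar) (F := FN N') := by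
    rw [hD, map_add]
    exact add_mem hα (Divisor.isPrincipal_pushforwardAlong _ _ (finiteAlong_alpha N' q)
      (normFormulaAlong_alpha N' q) hDD₀)
  have hβD : Divisor.pushforwardAlong (heckeBetaBar Kbar N' q) (heckeBetaBarIntegral N' q) D ∈
      Divisor.principal (K := Kbar) (F := FN N') := by
    rw [hD, map_add]
    exact add_mem hβ (Divisor.isPrincipal_pushforwardAlong _ _ (finiteAlong_beta N' q)
      (normFormulaAlong_beta N' q) hDD₀)
  have h := hB D n hdegD hn hqn hnD hαD hβD hst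
  have h2 : c₀ • D₀ = c₀ • D - c₀ • (D - D₀) := by
    rw [← nsmul_sub]
    congr 1
    abel
  rw [h2]
  exact sub_mem h (nsmul_mem hDD₀ c₀)

/-- **The P8 junction**: helper79's `B2Stmt` from [I-DESC] and the stable-divisor form of (B2)
at one place. -/
theorem b2Stmt_of_stable (p : ℕ) (hq : q.Prime) (hqp : ¬ q ∣ p)
    (A : ValuationSubring Kbar) (hA : A.LiesOverPrime q) (c₀ : ℕ) (hc₀ : c₀ ≠ 0)
    (hI : IDesc A N' q) (hB : B2Stable A N' q c₀) : B2Stmt N' q p :=
  b2Stmt_of_b2Div p hq hqp A hA c₀ hc₀ (b2Div_of_stable A c₀ hI hB)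

/-! ### The `K₀`-pair form (with [I-DESC] discharged) -/

section Pair

variable (A : ValuationSubring Kbar) (N' q : ℕ) [NeZero N'] [NeZero q]

/-- **(B2), `K₀`-pair form** with constant `c₀` — the geometric target with all inertia-fixed
data supplied: `D` of degree `0` is inertia-stable, `n D = div u`, `α_* D = div a`,
`β_* D = div b`, and `u`, `a`, `b` are fixed by the inertia group of `A` (`q ∤ n`). Then
`c₀ D` is principal. -/
def B2Pair (c₀ : ℕ) : Prop :=
  ∀ (D : Divisor Kbar (FN (N' * q))) (n : ℕ) (u : FN (N' * q)) (a b : FN N'),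
    Divisor.degree D = 0 → 0 < n → ¬ q ∣ n →
    u ≠ 0 → (∀ P : Place Kbar (FN (N' * q)), P.ord u = n * D P) →
    a ≠ 0 → (∀ P : Place Kbar (FN N'), P.ord a =
      Divisor.pushforwardAlong (heckeAlphaBar Kbar N' q) (heckeAlphaBarIntegral N' q) D P) →
    b ≠ 0 → (∀ P : Place Kbar (FN N'), P.ord b =
      Divisor.pushforwardAlong (heckeBetaBar Kbar N' q) (heckeBetaBarIntegral N' q) D P) →
    (∀ τ : Kbar ≃ₐ[ℚ] Kbar, τ ∈ A.inertiaSubgroupIn ℚ → Plan.gal (N' * q) τ • D = D) →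
    (∀ τ : Kbar ≃ₐ[ℚ] Kbar, τ ∈ A.inertiaSubgroupIn ℚ → Plan.gal (N' * q) τ • u = u) →
    (∀ τ : Kbar ≃ₐ[ℚ] Kbar, τ ∈ A.inertiaSubgroupIn ℚ → Plan.gal N' τ • a = a) →
    (∀ τ : Kbar ≃ₐ[ℚ] Kbar, τ ∈ A.inertiaSubgroupIn ℚ → Plan.gal N' τ • b = b) →
    c₀ • D ∈ Divisor.principal (K := Kbar) (F := FN (N' * q))

variable {A N' q}

/-- An inertia-stable principal divisor of `F_N` is the divisor of an inertia-fixed function. -/
theorem exists_fixed_generator (N : ℕ) [NeZero N] (A : ValuationSubring Kbar)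
    (E : Divisor Kbar (FN N)) (hE : E ∈ Divisor.principal (K := Kbar) (F := FN N))
    (hst : ∀ τ : Kbar ≃ₐ[ℚ] Kbar, τ ∈ A.inertiaSubgroupIn ℚ → Plan.gal N τ • E = E) :
    ∃ a : FN N, a ≠ 0 ∧ (∀ P : Place Kbar (FN N), P.ord a = E P) ∧
      ∀ τ : Kbar ≃ₐ[ℚ] Kbar, τ ∈ A.inertiaSubgroupIn ℚ → Plan.gal N τ • a = a := by
  obtain ⟨a₀, ha₀, hdiv⟩ := hE
  obtain ⟨c, hc, hfix⟩ := Fermat.Agent.S36.IDesc.exists_fixed_kummer N
    {τ | τ ∈ A.inertiaSubgroupIn ℚ} (1 : ℤ) E hst a₀ ha₀ (fun P => by rw [one_mul, hdiv P])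
  have hc' : algebraMap Kbar (FN N) c ≠ 0 := (map_ne_zero _).mpr hc
  refine ⟨algebraMap Kbar (FN N) c * a₀, mul_ne_zero hc' ha₀, fun P => ?_, hfix⟩
  rw [Place.ord_mul P hc' ha₀, Fermat.Agent.Lib.FFPlaces.ord_algebraMap, zero_add, hdiv P]

/-- (B2), stable-divisor form, from the `K₀`-pair form. -/
theorem b2Stable_of_pair (c₀ : ℕ) (hP : B2Pair A N' q c₀) : B2Stable A N' q c₀ := by
  intro D n hdeg hn hqn hprin hα hβ hst
  -- the Kummer function
  obtain ⟨u₀, hu₀, hdiv₀⟩ := hprin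
  have hdiv₀' : ∀ P : Place Kbar (FN (N' * q)), P.ord u₀ = (n : ℤ) * D P := by
    intro P
    rw [← hdiv₀ P, Finsupp.smul_apply, nsmul_eq_mul]
  obtain ⟨c, hc, hfix⟩ := Fermat.Agent.S36.IDesc.exists_fixed_kummer (N' * q)
    {τ | τ ∈ A.inertiaSubgroupIn ℚ} (n : ℤ) D hst u₀ hu₀ hdiv₀'
  have hc' : algebraMap Kbar (FN (N' * q)) c ≠ 0 := (map_ne_zero _).mpr hc
  have hu : ∀ P : Place Kbar (FN (N' * q)),
      P.ord (algebraMap Kbar (FN (N' * q)) c * u₀) = (n : ℤ) * D P := by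
    intro P
    rw [Place.ord_mul P hc' hu₀, Fermat.Agent.Lib.FFPlaces.ord_algebraMap, zero_add, hdiv₀' P]
  -- the two push-forwards are inertia-stable
  have hstα : ∀ τ : Kbar ≃ₐ[ℚ] Kbar, τ ∈ A.inertiaSubgroupIn ℚ → Plan.gal N' τ •
      Divisor.pushforwardAlong (heckeAlphaBar Kbar N' q) (heckeAlphaBarIntegral N' q) D =
      Divisor.pushforwardAlong (heckeAlphaBar Kbar N' q) (heckeAlphaBarIntegral N' q) D := by
    intro τ hτ
    rw [Fermat.Agent.Lib.CorrSemilinear.smul_pushforwardAlong _ _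
      (Fermat.Agent.P5.GalHecke.intertwines_alpha N' q τ) D, hst τ hτ]
  have hstβ : ∀ τ : Kbar ≃ₐ[ℚ] Kbar, τ ∈ A.inertiaSubgroupIn ℚ → Plan.gal N' τ •
      Divisor.pushforwardAlong (heckeBetaBar Kbar N' q) (heckeBetaBarIntegral N' q) D =
      Divisor.pushforwardAlong (heckeBetaBar Kbar N' q) (heckeBetaBarIntegral N' q) D := by
    intro τ hτ
    rw [Fermat.Agent.Lib.CorrSemilinear.smul_pushforwardAlong _ _
      (Fermat.Agent.P5.GalHecke.intertwines_beta N' q τ) D, hst τ hτ]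
  obtain ⟨a, ha, hadiv, hafix⟩ := exists_fixed_generator N' A _ hα hstα
  obtain ⟨b, hb, hbdiv, hbfix⟩ := exists_fixed_generator N' A _ hβ hstβ
  exact hP D n _ a b hdeg hn hqn (mul_ne_zero hc' hu₀) hu ha hadiv hb hbdiv hst hfix hafix hbfix

/-- **The P8 junction, final form**: helper79's `B2Stmt` from the `K₀`-pair form of (B2) at one
place (with [I-DESC] = `S36.IDesc.iDesc`). -/
theorem b2Stmt_of_pair (p : ℕ) (hq : q.Prime) (hqp : ¬ q ∣ p)
    (A : ValuationSubring Kbar) (hA : A.LiesOverPrime q) (c₀ : ℕ) (hc₀ : c₀ ≠ 0)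
    (hP : B2Pair A N' q c₀) : B2Stmt N' q p :=
  b2Stmt_of_stable p hq hqp A hA c₀ hc₀ (fun D₀ h => Fermat.Agent.S36.IDesc.iDesc (N' * q) A D₀ h)
    (b2Stable_of_pair c₀ hP)

end Pair

end Fermat.Agent.S36.B2Plan

end
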