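import Mathlib
import Fermat.Agent.S36.Plan2

/-!
# S36 / P8 — PlanAll: the two remaining contracts at ALL levels (owner: helper74)

The final assembly (`S36/Assemble.lean`, `S36/Final.lean`) consumes exactly two statements beyond
the landed blocks ([TOP], [DEGEN'], [I-DESC], [B2-TOP], [E3], [DESC-NORM], [EMB], [SETUP]):

* `OneAllStmt`  : **[ONE]** for every level datum, every place `A` over `q`, every frame `F` and
                  every setup `(O, ρ)`: `Plan.OneStmt … c₁` for SOME `c₁ ≠ 0`;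
* `LiftAllStmt` : **[LIFT-ONE]** in the same generality: `Plan.LiftOneStmt …`.

Level datum: `q` prime, `N₀` prime to `q`, `N' = N₀ * q`, good level `M = S34.Plan.aux q * N₀`
(prime to `q`, `N₀ ∣ M`), top level `M * q * q`, divisor level `N' * q`.
The frame and the setup are unique (`FrameFinal.w_eq_w2`, `SetupQ2.IsSetup.subring_eq`,
`SetupQ2.IsSetup.rho_eq`), so a provider may rewrite to its own.
-/

set_option autoImplicit false

noncomputable section

namespace Fermat.Agent.S36.Plan

open ModularCurve AlgebraicCurve Fermat.Agent.S24 Fermat.Agent.S18 Fermat.Agent.S18.Content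
  Fermat.Agent.S18.Plan Fermat.Agent.S34

/-- **[ONE] at all levels.** -/
def OneAllStmt : Prop :=
  ∀ (N₀ N' M q : ℕ) [NeZero N'] [NeZero M] [NeZero q] (hq' : q ∣ N') (h : Nat.Coprime M q),
    q.Prime → Nat.Coprime N₀ q → N' = N₀ * q → M = S34.Plan.aux q * N₀ →
    ∀ A : ValuationSubring Kbar, A.LiesOverPrime q →
    ∀ (F : Frame M q h) (O : Subring Om) (ρ : O →+* Rq A q), IsSetup A F O ρ →
      ∃ c₁ : ℕ, c₁ ≠ 0 ∧ OneStmt A N' M q hq' O ρ c₁

/-- **[LIFT-ONE] at all levels.** -/
def LiftAllStmt : Prop :=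
  ∀ (N₀ N' M q : ℕ) [NeZero N'] [NeZero M] [NeZero q] (hq' : q ∣ N') (h : Nat.Coprime M q),
    q.Prime → Nat.Coprime N₀ q → N' = N₀ * q → M = S34.Plan.aux q * N₀ →
    ∀ A : ValuationSubring Kbar, A.LiesOverPrime q →
    ∀ (F : Frame M q h) (O : Subring Om) (ρ : O →+* Rq A q), IsSetup A F O ρ →
      LiftOneStmt A N' M q hq' O ρ

end Fermat.Agent.S36.Plan

end
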