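import Mathlib
import Fermat.Agent.S35.NormPush
import Fermat.Agent.S36.PlanAll
import Fermat.Agent.S36.B2Plan

/-!
# S36 / P8 — OnePlan: the top-down junction of [ONE] (owner: helper74)

`Plan.OneStmt` (of `S36/Plan2`) is cut into three contracts, each a statement about ONE pair
`(D, u)` at the divisor level `N' q`:

* `PairData D n u` : the data carried along the chain — `StableData D n` (degree `0`, `n D`
                     principal, `q ∤ n`, both push-forwards principal, `D` inertia-stable) and an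
                     inertia-fixed Kummer function `u` (`div u = n D`);
* `VNormStmt c`    : **[VNORM]** (component group): a pair `(D', u')` with `D' ~ c • D` and `u'` a
                     unit at every coordinate (`u' ∈ O`, all `q + 1` reductions nonzero);
* `NormRedStmt c`  : **[NORM-RED]** from a pair with unit reductions to a pair `(D', u')`,
                     `D' ~ c • D`, all of whose reductions are nonzero CONSTANTS;
* `OneConstStmt c` : **[ONE-CONST]** (the `K'`-chain: [BP], [LOC-λ], [TWIST], partition of unity):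
                     from a pair with constant reductions to the conclusion of `OneStmt`.

`oneStmt_of_chain` : `VNormStmt c₁ → NormRedStmt c₂ → OneConstStmt c₃ → OneStmt (c₃ * (c₂ * c₁))`.
`PairData.of_principal` builds the `PairData` of a linearly equivalent pair.
-/

set_option autoImplicit false

noncomputable section

namespace Fermat.Agent.S36.Plan

open ModularCurve AlgebraicCurve Fermat.Agent.S24 Fermat.Agent.S18 Fermat.Agent.S18.Content
  Fermat.Agent.S18.Plan Fermat.Agent.S34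

/-- A function of level `N` fixed by the inertia group of `A`. -/
def IFix (A : ValuationSubring Kbar) (N : ℕ) [NeZero N] (g : FN N) : Prop :=
  ∀ τ : Kbar ≃ₐ[ℚ] Kbar, τ ∈ A.inertiaSubgroupIn ℚ → S34.Plan.gal N τ • g = g

section Chain

variable (A : ValuationSubring Kbar) (N' M q : ℕ) [NeZero N'] [NeZero M] [NeZero q]

/-- The data carried along the [ONE] chain: a stable datum `(D, n)` with an inertia-fixed Kummer
function `u`. -/
structure PairData (D : Divisor Kbar (FN (N' * q))) (n : ℕ) (u : FN (N' * q)) : Prop where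
  stable : StableData A N' q D n
  ne : u ≠ 0
  ord : ∀ P : Place Kbar (FN (N' * q)), P.ord u = n * D P
  fix : IFix A (N' * q) u

variable (hq' : q ∣ N') (O : Subring Om) (ρ : O →+* Rq A q)

/-- **[VNORM]** a pair `(D', u')`, `D' ~ c • D`, with `u'` a unit at every coordinate. -/
def VNormStmt (c : ℕ) : Prop :=
  ∀ (D : Divisor Kbar (FN (N' * q))) (n : ℕ) (u : FN (N' * q)), PairData A N' q D n u →
    ∃ (D' : Divisor Kbar (FN (N' * q))) (u' : FN (N' * q)),
      D' - c • D ∈ Divisor.principal (K := Kbar) (F := FN (N' * q)) ∧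
      PairData A N' q D' n u' ∧
      ∃ hu' : (u' : Om) ∈ O, ∀ i : Coord q, ρ ⟨_, hu'⟩ i ≠ 0

/-- **[NORM-RED]** from unit reductions to constant reductions. -/
def NormRedStmt (c : ℕ) : Prop :=
  ∀ (D : Divisor Kbar (FN (N' * q))) (n : ℕ) (u : FN (N' * q)), PairData A N' q D n u →
    ∀ hu : (u : Om) ∈ O, (∀ i : Coord q, ρ ⟨_, hu⟩ i ≠ 0) →
    ∃ (D' : Divisor Kbar (FN (N' * q))) (u' : FN (N' * q)),
      D' - c • D ∈ Divisor.principal (K := Kbar) (F := FN (N' * q)) ∧
      PairData A N' q D' n u' ∧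
      ∃ hu' : (u' : Om) ∈ O, ∀ i : Coord q, ∃ κ : kk A, κ ≠ 0 ∧ ρ ⟨_, hu'⟩ i = HahnSeries.C κ

/-- **[ONE-CONST]** from a pair with constant reductions to the conclusion of `OneStmt`. -/
def OneConstStmt (c : ℕ) : Prop :=
  ∀ (D : Divisor Kbar (FN (N' * q))) (n : ℕ) (u : FN (N' * q)), PairData A N' q D n u →
    ∀ hu : (u : Om) ∈ O,
      (∀ i : Coord q, ∃ κ : kk A, κ ≠ 0 ∧ ρ ⟨_, hu⟩ i = HahnSeries.C κ) →
    ∀ E : Divisor Kbar (FN (N' * q)),
      IsE3 (N' * q) q (Dvd.intro_left N' rfl) (Nat.mul_dvd_mul_right hq' q) E →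
    ∃ (D' : Divisor Kbar (FN (N' * q))) (w : FN (N' * q)) (hw : (w : Om) ∈ O) (g₀ : O) (c' : ℕ),
      D' - c • D ∈ Divisor.principal (K := Kbar) (F := FN (N' * q)) ∧
      Divisor.degree D' = 0 ∧
      w ≠ 0 ∧ (∀ P : Place Kbar (FN (N' * q)), P.ord w = n * D' P) ∧
      (g₀ : Om) ∈ pullRR (N' * q) (M * q * q) (D' + c' • E) ∧
      (∀ i : Coord q, ρ g₀ i ≠ 0) ∧ ρ ⟨_, hw⟩ * ρ g₀ ^ n = 1

variable {A N' M q hq' O ρ}

/-- The `PairData` of a linearly equivalent pair: only the inertia-stability of `D'` and the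
Kummer function `u'` have to be supplied. -/
theorem PairData.of_principal {D D' : Divisor Kbar (FN (N' * q))} {n c : ℕ} {u u' : FN (N' * q)}
    (h : PairData A N' q D n u)
    (hcls : D' - c • D ∈ Divisor.principal (K := Kbar) (F := FN (N' * q)))
    (hst : ∀ τ : Kbar ≃ₐ[ℚ] Kbar, τ ∈ A.inertiaSubgroupIn ℚ → S34.Plan.gal (N' * q) τ • D' = D')
    (hu' : u' ≠ 0) (hord : ∀ P : Place Kbar (FN (N' * q)), P.ord u' = n * D' P)
    (hfix : IFix A (N' * q) u') : PairData A N' q D' n u' := by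
  have hD' : D' = (D' - c • D) + c • D := by abel
  refine ⟨⟨?_, h.stable.pos, h.stable.not_dvd, ⟨u', hu', fun P => ?_⟩, ?_, ?_, hst⟩, hu', hord, hfix⟩
  · rw [hD', map_add, Fermat.Agent.S36.B2Plan.degree_eq_zero_of_principal (N' * q) hcls, map_nsmul, h.stable.deg, smul_zero,
      add_zero]
  · rw [hord P, Finsupp.smul_apply, nsmul_eq_mul]
  · rw [hD', map_add, map_nsmul]
    exact AddSubgroup.add_mem _ (Fermat.Agent.S35.NormPush.push_alpha_principal N' q _ hcls)
      (AddSubgroup.nsmul_mem _ h.stable.pushA c)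
  · rw [hD', map_add, map_nsmul]
    exact AddSubgroup.add_mem _ (Fermat.Agent.S35.NormPush.push_beta_principal N' q _ hcls)
      (AddSubgroup.nsmul_mem _ h.stable.pushB c)

/-- A stable datum has an inertia-fixed Kummer function. -/
theorem exists_pairData {D : Divisor Kbar (FN (N' * q))} {n : ℕ} (hD : StableData A N' q D n) :
    ∃ u : FN (N' * q), PairData A N' q D n u := by
  have hst : ∀ τ : Kbar ≃ₐ[ℚ] Kbar, τ ∈ A.inertiaSubgroupIn ℚ →
      S34.Plan.gal (N' * q) τ • (n • D) = n • D := fun τ hτ => by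
    rw [smul_comm, hD.stable τ hτ]
  obtain ⟨u, hu, hord, hfix⟩ :=
    Fermat.Agent.S36.B2Plan.exists_fixed_generator (N' * q) A (n • D) hD.tors hst
  exact ⟨u, hD, hu, fun P => by rw [hord P, Finsupp.smul_apply, nsmul_eq_mul], hfix⟩

omit [NeZero M] in
/-- **The junction of [ONE]**: `[VNORM] + [NORM-RED] + [ONE-CONST] ⟹ OneStmt`. -/
theorem oneStmt_of_chain {c₁ c₂ c₃ : ℕ} (hV : VNormStmt A N' q O ρ c₁)
    (hN : NormRedStmt A N' q O ρ c₂) (hC : OneConstStmt A N' M q hq' O ρ c₃) :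
    OneStmt A N' M q hq' O ρ (c₃ * (c₂ * c₁)) := by
  intro D n hD E hE
  obtain ⟨u, hP⟩ := exists_pairData hD
  obtain ⟨D₁, u₁, hcls₁, hP₁, hu₁, hunit₁⟩ := hV D n u hP
  obtain ⟨D₂, u₂, hcls₂, hP₂, hu₂, hconst₂⟩ := hN D₁ n u₁ hP₁ hu₁ hunit₁
  obtain ⟨D₃, w, hw, g₀, c', hcls₃, hdeg, hw0, hord, hg₀, hunit, hρ⟩ :=
    hC D₂ n u₂ hP₂ hu₂ hconst₂ E hE
  refine ⟨D₃, w, hw, g₀, c', ?_, hdeg, hw0, hord, hg₀, hunit, hρ⟩
  have h : D₃ - (c₃ * (c₂ * c₁)) • D
      = (D₃ - c₃ • D₂) + c₃ • ((D₂ - c₂ • D₁) + c₂ • (D₁ - c₁ • D)) := by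
    rw [mul_smul, mul_smul, smul_add, smul_sub, smul_sub, smul_sub]
    abel
  rw [h]
  exact AddSubgroup.add_mem _ hcls₃ (AddSubgroup.nsmul_mem _
    (AddSubgroup.add_mem _ hcls₂ (AddSubgroup.nsmul_mem _ hcls₁ c₂)) c₃)

end Chain

end Fermat.Agent.S36.Plan

end
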