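import Mathlib
import Fermat.Agent.S36.PlanAll
import Fermat.Agent.S36.OnePlan
import Fermat.Agent.S36.K0Plan

/-!
# S36 / P8 — [ONE-ALL], hypothesis form (owner: helper74)

`Plan.OneAllStmt` (the first of the two inputs of `S36/Final.result_of_all`) from the three
contracts of `S36/OnePlan`, each at all levels (the binders of `Plan.OneAllStmt`), with SOME
nonzero constant:

* `VNormAllStmt`    : **[VNORM]**     `Plan.VNormStmt A N' q O ρ c`;
* `NormRedAllStmt`  : **[NORM-RED]**  `Plan.NormRedStmt A N' q O ρ c`;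
* `OneConstAllStmt` : **[ONE-CONST]** `Plan.OneConstStmt A N' M q hq' O ρ c`.

and the contracts of `S36/K0Plan` (the inputs of the junction `S36/OneGen`) at all levels:
`RangeAllStmt`, `MidEqAllStmt`, `SurjAllStmt`, `InvKAllStmt`, `CondAllStmt`, `TwistAllStmt`
(`K0Plan.ConstStmt` is `S36/K0Const`, unconditional).  Providers prove these `…AllStmt` Props
(or a per-setup theorem from which they follow in one line).
-/

set_option autoImplicit false

noncomputable section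

namespace Fermat.Agent.S36.OneAllOf

open ModularCurve AlgebraicCurve Fermat.Agent.S24 Fermat.Agent.S18 Fermat.Agent.S18.Content
  Fermat.Agent.S18.Plan Fermat.Agent.S34 Fermat.Agent.S36.Plan

/-! ### The three contracts of `OnePlan` at all levels -/

/-- **[VNORM] at all levels.** -/
def VNormAllStmt : Prop :=
  ∀ (N₀ N' M q : ℕ) [NeZero N'] [NeZero M] [NeZero q] (_ : q ∣ N') (h : Nat.Coprime M q),
    q.Prime → Nat.Coprime N₀ q → N' = N₀ * q → M = S34.Plan.aux q * N₀ →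
    ∀ A : ValuationSubring Kbar, A.LiesOverPrime q →
    ∀ (F : Frame M q h) (O : Subring Om) (ρ : O →+* Rq A q), IsSetup A F O ρ →
      ∃ c : ℕ, c ≠ 0 ∧ VNormStmt A N' q O ρ c

/-- **[NORM-RED] at all levels.** -/
def NormRedAllStmt : Prop :=
  ∀ (N₀ N' M q : ℕ) [NeZero N'] [NeZero M] [NeZero q] (_ : q ∣ N') (h : Nat.Coprime M q),
    q.Prime → Nat.Coprime N₀ q → N' = N₀ * q → M = S34.Plan.aux q * N₀ →
    ∀ A : ValuationSubring Kbar, A.LiesOverPrime q →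
    ∀ (F : Frame M q h) (O : Subring Om) (ρ : O →+* Rq A q), IsSetup A F O ρ →
      ∃ c : ℕ, c ≠ 0 ∧ NormRedStmt A N' q O ρ c

/-- **[ONE-CONST] at all levels.** -/
def OneConstAllStmt : Prop :=
  ∀ (N₀ N' M q : ℕ) [NeZero N'] [NeZero M] [NeZero q] (hq' : q ∣ N') (h : Nat.Coprime M q),
    q.Prime → Nat.Coprime N₀ q → N' = N₀ * q → M = S34.Plan.aux q * N₀ →
    ∀ A : ValuationSubring Kbar, A.LiesOverPrime q →
    ∀ (F : Frame M q h) (O : Subring Om) (ρ : O →+* Rq A q), IsSetup A F O ρ →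
      ∃ c : ℕ, c ≠ 0 ∧ OneConstStmt A N' M q hq' O ρ c

/-- **[ONE-ALL]**, hypothesis form: `Plan.OneAllStmt` from [VNORM], [NORM-RED], [ONE-CONST] at
all levels. -/
theorem oneAllStmt_of (hV : VNormAllStmt) (hN : NormRedAllStmt) (hC : OneConstAllStmt) :
    OneAllStmt := by
  intro N₀ N' M q _ _ _ hq' h hqp hcop hN' hM A hA F O ρ hS
  obtain ⟨c₁, hc₁, hV'⟩ := hV N₀ N' M q hq' h hqp hcop hN' hM A hA F O ρ hS
  obtain ⟨c₂, hc₂, hN''⟩ := hN N₀ N' M q hq' h hqp hcop hN' hM A hA F O ρ hS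
  obtain ⟨c₃, hc₃, hC'⟩ := hC N₀ N' M q hq' h hqp hcop hN' hM A hA F O ρ hS
  exact ⟨c₃ * (c₂ * c₁), Nat.mul_ne_zero hc₃ (Nat.mul_ne_zero hc₂ hc₁),
    oneStmt_of_chain hV' hN'' hC'⟩

/-! ### The contracts of `K0Plan` at all levels -/

/-- **[K0-RANGE] at all levels.** -/
def RangeAllStmt : Prop :=
  ∀ (N₀ N' M q : ℕ) [NeZero N'] [NeZero M] [NeZero q] (_ : q ∣ N') (h : Nat.Coprime M q),
    q.Prime → Nat.Coprime N₀ q → N' = N₀ * q → M = S34.Plan.aux q * N₀ →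
    ∀ A : ValuationSubring Kbar, A.LiesOverPrime q →
    ∀ (F : Frame M q h) (O : Subring Om) (ρ : O →+* Rq A q), IsSetup A F O ρ →
    ∀ ξ₀ : MidIdx q, K0Plan.RangeStmt A M q O ρ ξ₀

/-- **[MID-EQ] at all levels.** -/
def MidEqAllStmt : Prop :=
  ∀ (N₀ N' M q : ℕ) [NeZero N'] [NeZero M] [NeZero q] (_ : q ∣ N') (h : Nat.Coprime M q),
    q.Prime → Nat.Coprime N₀ q → N' = N₀ * q → M = S34.Plan.aux q * N₀ →
    ∀ A : ValuationSubring Kbar, A.LiesOverPrime q →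
    ∀ (F : Frame M q h) (O : Subring Om) (ρ : O →+* Rq A q), IsSetup A F O ρ →
      K0Plan.MidEqStmt A q O ρ

/-- **[K0-SURJ] at all levels.** -/
def SurjAllStmt : Prop :=
  ∀ (N₀ N' M q : ℕ) [NeZero N'] [NeZero M] [NeZero q] (hq' : q ∣ N') (h : Nat.Coprime M q),
    q.Prime → Nat.Coprime N₀ q → N' = N₀ * q → M = S34.Plan.aux q * N₀ →
    ∀ A : ValuationSubring Kbar, A.LiesOverPrime q →
    ∀ (F : Frame M q h) (O : Subring Om) (ρ : O →+* Rq A q), IsSetup A F O ρ →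
    ∀ (ξ₀ : MidIdx q) (E : Divisor Kbar (FN (N' * q))),
      IsE3 (N' * q) q (Dvd.intro_left N' rfl) (Nat.mul_dvd_mul_right hq' q) E →
      K0Plan.SurjStmt A N' M q O ρ ξ₀ E

/-- **[REG] (Lemma R in [INV] form) at all levels.** -/
def InvKAllStmt : Prop :=
  ∀ (N₀ N' M q : ℕ) [NeZero N'] [NeZero M] [NeZero q] (hq' : q ∣ N') (h : Nat.Coprime M q),
    q.Prime → Nat.Coprime N₀ q → N' = N₀ * q → M = S34.Plan.aux q * N₀ →
    ∀ A : ValuationSubring Kbar, A.LiesOverPrime q →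
    ∀ (F : Frame M q h) (O : Subring Om) (ρ : O →+* Rq A q), IsSetup A F O ρ →
    ∀ (ξ₀ : MidIdx q) (E : Divisor Kbar (FN (N' * q))),
      IsE3 (N' * q) q (Dvd.intro_left N' rfl) (Nat.mul_dvd_mul_right hq' q) E →
      K0Plan.InvKStmt A N' M q O ρ ξ₀ E

/-- **[COND-K'] at all levels.** -/
def CondAllStmt : Prop :=
  ∀ (N₀ N' M q : ℕ) [NeZero N'] [NeZero M] [NeZero q] (hq' : q ∣ N') (h : Nat.Coprime M q),
    q.Prime → Nat.Coprime N₀ q → N' = N₀ * q → M = S34.Plan.aux q * N₀ →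
    ∀ A : ValuationSubring Kbar, A.LiesOverPrime q →
    ∀ (F : Frame M q h) (O : Subring Om) (ρ : O →+* Rq A q), IsSetup A F O ρ →
    ∀ (ξ₀ : MidIdx q) (E : Divisor Kbar (FN (N' * q))),
      IsE3 (N' * q) q (Dvd.intro_left N' rfl) (Nat.mul_dvd_mul_right hq' q) E →
      K0Plan.CondStmt A N' M q O ρ ξ₀ E

/-- **[TWIST] at all levels** (some nonzero constant `c_b`, e.g. `q * q - 1`). -/
def TwistAllStmt : Prop :=
  ∀ (N₀ N' M q : ℕ) [NeZero N'] [NeZero M] [NeZero q] (hq' : q ∣ N') (h : Nat.Coprime M q),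
    q.Prime → Nat.Coprime N₀ q → N' = N₀ * q → M = S34.Plan.aux q * N₀ →
    ∀ A : ValuationSubring Kbar, A.LiesOverPrime q →
    ∀ (F : Frame M q h) (O : Subring Om) (ρ : O →+* Rq A q), IsSetup A F O ρ →
    ∀ ξ₀ : MidIdx q, ∃ cb : ℕ, cb ≠ 0 ∧ K0Plan.TwistStmt A N' M q hq' O ρ ξ₀ cb

end Fermat.Agent.S36.OneAllOf

end
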