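/-
P8 (S36) block [DER] (helper64): every expansion of a function field intertwines `d/dx` with
`θ = T d/dT`, hence the expansions of `ω_{x,f} = (df/dx)^6 · P(x)/P(f)`, `P(y) = y^4 (y - 1728)^3`,
are quotients of the formal discriminant.

Frame-independent: `ε` is ANY `K`-algebra homomorphism `F → K((T))`.
Namespace `Fermat.Agent.S36.Der`.
-/
import Mathlib
import Fermat.Agent.S28.Theta
import Fermat.Agent.S24.PlaceDiff

set_option autoImplicit false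
set_option linter.style.haveILetI false

noncomputable section

namespace Fermat.Agent.S36.Der

open Fermat.Agent.S28 KaehlerDifferential ModularCurve

/-! ### The chain rule for an expansion -/

section Chain

variable {K F : Type*} [Field K] [Field F] [Algebra K F]

/-- **[DER]** if `df = g · dx` in `Ω[F/K]`, then `θ(ε f) = ε(g) · θ(ε x)` for every expansion
`ε : F → K((T))` (the `K`-derivation `θ ∘ ε` factors through the universal derivation). -/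
theorem theta_map (ε : F →ₐ[K] LaurentSeries K) {f g x : F} (h : D K F f = g • D K F x) :
    theta K (ε f) = ε g * theta K (ε x) := by
  letI : Algebra F (LaurentSeries K) := ε.toRingHom.toAlgebra
  haveI : IsScalarTower K F (LaurentSeries K) := ⟨fun c a s => by
    show ε (c • a) * s = c • (ε a * s)
    rw [Algebra.smul_def, map_mul, ε.commutes, ThetaAux.algebraMap_eq_C, mul_assoc,
      HahnSeries.C_mul_eq_smul]⟩
  let d : Derivation K F (LaurentSeries K) := (ThetaAux.thetaDer K).compAlgebraMap F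
  have hd : ∀ a : F, d a = theta K (ε a) := fun a => rfl
  have h1 := d.liftKaehlerDifferential_comp_D f
  rw [h, map_smul, Derivation.liftKaehlerDifferential_comp_D, hd, hd] at h1
  rw [← h1]
  rfl

/-- the sixth power, the only form used. -/
theorem theta_map_pow_six (ε : F →ₐ[K] LaurentSeries K) {f g x : F}
    (h : D K F f = g • D K F x) :
    theta K (ε f) ^ 6 = ε (g ^ 6) * theta K (ε x) ^ 6 := by
  rw [theta_map ε h, mul_pow, map_pow]

end Chain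

/-! ### `θ` of the substituted `j`-series -/

section YS

variable (K : Type*) [Field K]

/-- the substituted discriminant `Δ((ξT)^m)`. -/
def deltaY (ξ : Kˣ) (m : ℕ) : LaurentSeries K := expand K m (scale ξ (deltaS K))

theorem ofNat_eq_C (n : ℕ) [n.AtLeastTwo] :
    (OfNat.ofNat n : LaurentSeries K) = HahnSeries.C (OfNat.ofNat n : K) := by
  rw [map_ofNat]

/-- `(θ y)^6 = m^6 · y^4 (y - 1728)^3 · Δ((ξT)^m)` for `y = j((ξT)^m)`. -/
theorem theta_yS_pow_six (ξ : Kˣ) (m : ℕ) (hm : m ≠ 0) :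
    theta K (yS K ξ m) ^ 6
      = (m : LaurentSeries K) ^ 6 * (yS K ξ m ^ 4 * (yS K ξ m - 1728) ^ 3) * deltaY K ξ m := by
  have h0 := theta_jqModC_pow_six K
  have h1 : theta K (yS K ξ m) = (m : LaurentSeries K) * expand K m (scale ξ (theta K (jqModC K))) := by
    unfold yS
    rw [theta_expand hm, theta_scale]
  rw [h1, mul_pow, ← map_pow, ← map_pow, h0]
  unfold yS deltaY
  simp only [map_mul, map_pow, map_sub, map_ofNat]
  ring

theorem coeff_yS_neg (ξ : Kˣ) (m : ℕ) (hm : m ≠ 0) :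
    (yS K ξ m).coeff (-(m : ℤ)) = ((ξ⁻¹ : Kˣ) : K) := by
  have : NeZero m := ⟨hm⟩
  unfold yS
  rw [ThetaAux.expand_eq m hm]
  have h := qExpand_coeff_mul (R := K) m (scale ξ (jqModC K)) (-1)
  rw [mul_neg_one] at h
  rw [h]
  show ((ξ ^ (-1 : ℤ) : Kˣ) : K) * (jqModC K).coeff (-1) = _
  rw [coeff_jqModC_neg_one K, mul_one, zpow_neg_one]

/-- `j((ξT)^m)` is not a constant. -/
theorem yS_ne_C (ξ : Kˣ) (m : ℕ) (hm : m ≠ 0) (c : K) : yS K ξ m ≠ HahnSeries.C c := by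
  intro h
  have h1 := coeff_yS_neg K ξ m hm
  rw [h, HahnSeries.C_apply, HahnSeries.coeff_single_of_ne] at h1
  · exact (Units.ne_zero _) h1.symm
  · intro h2
    apply hm
    have : (m : ℤ) = 0 := by omega
    exact_mod_cast this

theorem yS_ne_zero (ξ : Kˣ) (m : ℕ) (hm : m ≠ 0) : yS K ξ m ≠ 0 := by
  have h := yS_ne_C K ξ m hm 0
  rwa [map_zero] at h

theorem yS_sub_ne_zero (ξ : Kˣ) (m : ℕ) (hm : m ≠ 0) : yS K ξ m - 1728 ≠ 0 := by
  intro h
  apply yS_ne_C K ξ m hm 1728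
  rw [← ofNat_eq_C]
  exact sub_eq_zero.mp h

theorem pol_yS_ne_zero (ξ : Kˣ) (m : ℕ) (hm : m ≠ 0) :
    yS K ξ m ^ 4 * (yS K ξ m - 1728) ^ 3 ≠ 0 :=
  mul_ne_zero (pow_ne_zero _ (yS_ne_zero K ξ m hm)) (pow_ne_zero _ (yS_sub_ne_zero K ξ m hm))

end YS

/-! ### The expansions of `ω_{x,f}` -/

section Omega

variable {K F : Type*} [Field K] [Field F] [Algebra K F]

/-- `ω_{x,f} = g^6 · P(x) / P(f)` for a given `g = df/dx`. -/
def omega (x f g : F) : F :=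
  g ^ 6 * (x ^ 4 * (x - algebraMap K F 1728) ^ 3) / (f ^ 4 * (f - algebraMap K F 1728) ^ 3)

theorem map_c1728 (ε : F →ₐ[K] LaurentSeries K) : ε (algebraMap K F 1728) = 1728 := by
  rw [ε.commutes, map_ofNat]

/-- **the expansion of `ω_{x,f}`**, cross-multiplied: if `ε x = j((ξ₁T)^{m₁})` and
`ε f = j((ξ₂T)^{m₂})` then `ε(ω_{x,f}) · m₁^6 Δ((ξ₁T)^{m₁}) = m₂^6 Δ((ξ₂T)^{m₂})`. -/
theorem map_omega_mul (ε : F →ₐ[K] LaurentSeries K) {f g x : F} (h : D K F f = g • D K F x)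
    (ξ₁ ξ₂ : Kˣ) (m₁ m₂ : ℕ) (h₁ : m₁ ≠ 0) (h₂ : m₂ ≠ 0)
    (hx : ε x = yS K ξ₁ m₁) (hf : ε f = yS K ξ₂ m₂) :
    ε (omega (K := K) x f g) * ((m₁ : LaurentSeries K) ^ 6 * deltaY K ξ₁ m₁)
      = (m₂ : LaurentSeries K) ^ 6 * deltaY K ξ₂ m₂ := by
  have h6 := theta_map_pow_six ε h
  rw [hx, hf, theta_yS_pow_six K ξ₁ m₁ h₁, theta_yS_pow_six K ξ₂ m₂ h₂] at h6
  have hP := pol_yS_ne_zero K ξ₂ m₂ h₂
  unfold omega
  simp only [map_div₀, map_mul, map_pow, map_sub, map_c1728, hx, hf]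
  rw [div_mul_eq_mul_div, div_eq_iff hP]
  rw [map_pow] at h6
  linear_combination -h6

/-- `Δ((ξT)^m) ≠ 0`. -/
theorem deltaY_ne_zero (ξ : Kˣ) (m : ℕ) : deltaY K ξ m ≠ 0 := by
  unfold deltaY
  have hinj : Function.Injective (expand K m) := (expand K m).injective
  have hinj' : Function.Injective (scale (R := K) ξ) := (scale ξ).injective
  rw [Ne, map_eq_zero_iff _ hinj, map_eq_zero_iff _ hinj']
  intro h0
  have h := theta_jqModC_pow_six K
  rw [h0, mul_zero] at h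
  exact theta_jqModC_ne_zero K (pow_eq_zero_iff (by norm_num) |>.mp h)

theorem natCast_ne_zero [CharZero K] (m : ℕ) (hm : m ≠ 0) : (m : LaurentSeries K) ≠ 0 := by
  have h : (m : LaurentSeries K) = HahnSeries.C (m : K) := (map_natCast HahnSeries.C m).symm
  rw [h, Ne, map_eq_zero_iff _ HahnSeries.C_injective]
  exact_mod_cast hm

/-- `m^6 Δ((ξT)^m) ≠ 0` in characteristic zero. -/
theorem pow_mul_deltaY_ne_zero [CharZero K] (ξ : Kˣ) (m : ℕ) (hm : m ≠ 0) :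
    (m : LaurentSeries K) ^ 6 * deltaY K ξ m ≠ 0 :=
  mul_ne_zero (pow_ne_zero _ (natCast_ne_zero m hm)) (deltaY_ne_zero ξ m)

/-- **the expansion of `U = ω_{x,f₁}^2 / ω_{x,f₂}`** (helper81's `U2` for `x = j`, `f₁ = j_q`,
`f₂ = j_{q²}`), cross-multiplied:
`ε(U) · m₀^6 Δ₀ · m₂^6 Δ₂ = (m₁^6 Δ₁)^2`. -/
theorem map_U_mul [CharZero K] (ε : F →ₐ[K] LaurentSeries K) {x f₁ f₂ g₁ g₂ : F}
    (hg₁ : D K F f₁ = g₁ • D K F x) (hg₂ : D K F f₂ = g₂ • D K F x)
    (ξ₀ ξ₁ ξ₂ : Kˣ) (m₀ m₁ m₂ : ℕ) (h₀ : m₀ ≠ 0) (h₁ : m₁ ≠ 0) (h₂ : m₂ ≠ 0)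
    (hx : ε x = yS K ξ₀ m₀) (hf₁ : ε f₁ = yS K ξ₁ m₁) (hf₂ : ε f₂ = yS K ξ₂ m₂) :
    ε (omega (K := K) x f₁ g₁ ^ 2 / omega (K := K) x f₂ g₂)
        * ((m₀ : LaurentSeries K) ^ 6 * deltaY K ξ₀ m₀ * ((m₂ : LaurentSeries K) ^ 6 * deltaY K ξ₂ m₂))
      = ((m₁ : LaurentSeries K) ^ 6 * deltaY K ξ₁ m₁) ^ 2 := by
  have e1 := map_omega_mul ε hg₁ ξ₀ ξ₁ m₀ m₁ h₀ h₁ hx hf₁
  have e2 := map_omega_mul ε hg₂ ξ₀ ξ₂ m₀ m₂ h₀ h₂ hx hf₂
  have hz : ε (omega (K := K) x f₂ g₂) ≠ 0 := by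
    intro hz
    rw [hz, zero_mul] at e2
    exact pow_mul_deltaY_ne_zero ξ₂ m₂ h₂ e2.symm
  rw [map_div₀, map_pow, ← e1, ← e2]
  field_simp

end Omega

end Fermat.Agent.S36.Der
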