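/-
P8 (S36) leaf [SCALE-θ] (helper15): the first-order expansion of the substitution `T ↦ ζ T` on
Laurent series around `ζ = 1`:

  `f(ζ T) = f(T) + (ζ - 1) · θ f + (ζ - 1)² · g`,   `θ = T d/dT`,

with `g` explicit, coefficientwise a multiple of `f` by elements of `ℤ[ζ, ζ⁻¹]` (so every
integrality / Gauss-norm bound on `f` passes to `g`).  This is the computation behind the
reduction of a *middle cusp* expansion: for `ζ` a primitive `q`-th root of unity and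
`π = ζ - 1`, `(f(ζ^a T) - f(T)) / π ≡ a · θ f  (mod π)`.

Imports only Mathlib and the (frozen) S28 definitions `scale`, `theta`.
-/
import Mathlib
import Fermat.Agent.S28.Defs

set_option autoImplicit false

noncomputable section

namespace Fermat.Agent.S36.ScaleTheta

open Fermat.Agent.S28

variable {R : Type*} [CommRing R]

/-- `ζ⁻¹ = 1 - π + π² ζ⁻¹` with `π = ζ - 1`. -/
theorem inv_eq (ζ : Rˣ) :
    ((ζ⁻¹ : Rˣ) : R) = 1 - ((ζ : R) - 1) + ((ζ : R) - 1) ^ 2 * ((ζ⁻¹ : Rˣ) : R) := by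
  have h : (ζ : R) * ((ζ⁻¹ : Rˣ) : R) = 1 := by
    rw [← Units.val_mul, mul_inv_cancel, Units.val_one]
  linear_combination (2 - (ζ : R)) * h

/-- The second-order remainder of `ζ^n` at `ζ = 1`, inside any subring containing `ζ^{±1}`. -/
theorem exists_rem (ζ : Rˣ) (S : Subring R) (hζ : (ζ : R) ∈ S) (hζ' : ((ζ⁻¹ : Rˣ) : R) ∈ S)
    (n : ℤ) :
    ∃ c ∈ S, ((ζ ^ n : Rˣ) : R) = 1 + (n : R) * ((ζ : R) - 1) + ((ζ : R) - 1) ^ 2 * c := by
  have hπ : (ζ : R) - 1 ∈ S := S.sub_mem hζ S.one_mem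
  induction n using Int.induction_on with
  | zero => exact ⟨0, S.zero_mem, by simp⟩
  | succ n ih =>
    obtain ⟨c, hc, h⟩ := ih
    refine ⟨(n : R) + c + c * ((ζ : R) - 1), ?_, ?_⟩
    · exact S.add_mem (S.add_mem (natCast_mem S n) hc) (S.mul_mem hc hπ)
    · rw [zpow_add_one, Units.val_mul, h]
      push_cast
      ring
  | pred n ih =>
    obtain ⟨c, hc, h⟩ := ih
    have hm : ((-(n : ℤ) : ℤ) : R) ∈ S := intCast_mem S _
    refine ⟨((ζ⁻¹ : Rˣ) : R) - ((-(n : ℤ) : ℤ) : R)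
        + ((-(n : ℤ) : ℤ) : R) * ((ζ : R) - 1) * ((ζ⁻¹ : Rˣ) : R)
        + c * (1 - ((ζ : R) - 1) + ((ζ : R) - 1) ^ 2 * ((ζ⁻¹ : Rˣ) : R)), ?_, ?_⟩
    · refine S.add_mem (S.add_mem (S.sub_mem hζ' hm) (S.mul_mem (S.mul_mem hm hπ) hζ'))
        (S.mul_mem hc ?_)
      exact S.add_mem (S.sub_mem S.one_mem hπ) (S.mul_mem (S.pow_mem hπ 2) hζ')
    · rw [zpow_sub_one, Units.val_mul, h]
      have hinv := inv_eq ζ
      push_cast at hinv ⊢
      linear_combination (1 + (-(n : R)) * ((ζ : R) - 1) + ((ζ : R) - 1) ^ 2 * c) * hinv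

/-- The canonical second-order remainder `rem ζ n = (ζ^n - 1 - n(ζ - 1)) / (ζ - 1)²`, chosen in
`ℤ[ζ, ζ⁻¹]`. -/
def rem (ζ : Rˣ) (n : ℤ) : R :=
  Classical.choose (exists_rem ζ (Subring.closure {(ζ : R), ((ζ⁻¹ : Rˣ) : R)})
    (Subring.subset_closure (by simp)) (Subring.subset_closure (by simp)) n)

theorem rem_mem_closure (ζ : Rˣ) (n : ℤ) :
    rem ζ n ∈ Subring.closure {(ζ : R), ((ζ⁻¹ : Rˣ) : R)} :=
  (Classical.choose_spec (exists_rem ζ (Subring.closure {(ζ : R), ((ζ⁻¹ : Rˣ) : R)})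
    (Subring.subset_closure (by simp)) (Subring.subset_closure (by simp)) n)).1

/-- `ζ^n = 1 + n (ζ - 1) + (ζ - 1)² · rem ζ n`. -/
theorem zpow_eq (ζ : Rˣ) (n : ℤ) :
    ((ζ ^ n : Rˣ) : R) = 1 + (n : R) * ((ζ : R) - 1) + ((ζ : R) - 1) ^ 2 * rem ζ n :=
  (Classical.choose_spec (exists_rem ζ (Subring.closure {(ζ : R), ((ζ⁻¹ : Rˣ) : R)})
    (Subring.subset_closure (by simp)) (Subring.subset_closure (by simp)) n)).2

/-- `rem ζ n` lies in every subring containing `ζ` and `ζ⁻¹`. -/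
theorem rem_mem (ζ : Rˣ) (S : Subring R) (hζ : (ζ : R) ∈ S) (hζ' : ((ζ⁻¹ : Rˣ) : R) ∈ S)
    (n : ℤ) : rem ζ n ∈ S := by
  have hle : Subring.closure {(ζ : R), ((ζ⁻¹ : Rˣ) : R)} ≤ S := by
    rw [Subring.closure_le]
    intro x hx
    rcases hx with rfl | rfl
    · exact hζ
    · exact hζ'
  exact hle (rem_mem_closure ζ n)

/-- The remainder series: coefficientwise `rem ζ n · fₙ`. -/
def scaleRem (ζ : Rˣ) (f : LaurentSeries R) : LaurentSeries R where
  coeff := fun n => rem ζ n * f.coeff n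
  isPWO_support' := f.isPWO_support.mono fun n hn => by
    simp only [Function.mem_support, ne_eq, HahnSeries.mem_support] at hn ⊢
    intro h
    exact hn (by rw [h, mul_zero])

@[simp]
theorem scaleRem_coeff (ζ : Rˣ) (f : LaurentSeries R) (n : ℤ) :
    (scaleRem ζ f).coeff n = rem ζ n * f.coeff n := rfl

theorem support_scaleRem_subset (ζ : Rˣ) (f : LaurentSeries R) :
    (scaleRem ζ f).support ⊆ f.support := by
  intro n hn
  simp only [HahnSeries.mem_support, scaleRem_coeff, ne_eq] at hn ⊢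
  intro h
  exact hn (by rw [h, mul_zero])

/-- Coefficientwise integrality passes from `f` to the remainder. -/
theorem scaleRem_coeff_mem (ζ : Rˣ) (S : Subring R) (hζ : (ζ : R) ∈ S)
    (hζ' : ((ζ⁻¹ : Rˣ) : R) ∈ S) (f : LaurentSeries R) (hf : ∀ n, f.coeff n ∈ S) (n : ℤ) :
    (scaleRem ζ f).coeff n ∈ S :=
  S.mul_mem (rem_mem ζ S hζ hζ' n) (hf n)

theorem C_mul_coeff (c : R) (g : LaurentSeries R) (n : ℤ) :
    (HahnSeries.C c * g).coeff n = c * g.coeff n := by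
  rw [HahnSeries.C_mul_eq_smul, HahnSeries.coeff_smul, smul_eq_mul]

/-- **First-order expansion of `T ↦ ζ T`**:
`f(ζ T) = f + (ζ - 1) · θ f + (ζ - 1)² · scaleRem ζ f`. -/
theorem scale_eq (ζ : Rˣ) (f : LaurentSeries R) :
    scale ζ f = f + HahnSeries.C ((ζ : R) - 1) * theta R f
      + HahnSeries.C (((ζ : R) - 1) ^ 2) * scaleRem ζ f := by
  ext n
  rw [HahnSeries.coeff_add, HahnSeries.coeff_add, C_mul_coeff, C_mul_coeff, scaleRem_coeff]
  show ((ζ ^ n : Rˣ) : R) * f.coeff n = f.coeff n + ((ζ : R) - 1) * ((n : R) * f.coeff n)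
    + ((ζ : R) - 1) ^ 2 * (rem ζ n * f.coeff n)
  rw [zpow_eq ζ n]
  ring

/-- Difference form: `f(ζ T) - f(T) = (ζ - 1) · (θ f + (ζ - 1) · scaleRem ζ f)`. -/
theorem scale_sub (ζ : Rˣ) (f : LaurentSeries R) :
    scale ζ f - f = HahnSeries.C ((ζ : R) - 1) *
      (theta R f + HahnSeries.C ((ζ : R) - 1) * scaleRem ζ f) := by
  rw [scale_eq ζ f, pow_two, map_mul]
  ring

/-- The remainder of `ζ^a` expressed through `π = ζ - 1`:
`ζ^a - 1 = a π + π² rem ζ a`, hence `f(ζ^a T) = f + a π · θ f + π² · g` with `g` integral. -/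
theorem exists_scale_zpow_eq (ζ : Rˣ) (a : ℤ) (f : LaurentSeries R) :
    ∃ g : LaurentSeries R,
      (∀ S : Subring R, (ζ : R) ∈ S → ((ζ⁻¹ : Rˣ) : R) ∈ S → (∀ n, f.coeff n ∈ S) →
        ∀ n, g.coeff n ∈ S) ∧
      scale (ζ ^ a) f = f + HahnSeries.C ((a : R) * ((ζ : R) - 1)) * theta R f
        + HahnSeries.C (((ζ : R) - 1) ^ 2) * g := by
  -- g = rem ζ a • θ f + (rem ζ a · π + a)² ... : expand `scale_eq` for the unit `ζ^a`
  set π : R := (ζ : R) - 1 with hπ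
  set r : R := rem ζ a with hr
  have hza : ((ζ ^ a : Rˣ) : R) - 1 = (a : R) * π + π ^ 2 * r := by
    rw [zpow_eq ζ a]; ring
  refine ⟨HahnSeries.C r * theta R f
      + HahnSeries.C (((a : R) + π * r) ^ 2) * scaleRem (ζ ^ a) f, ?_, ?_⟩
  · intro S hζ hζ' hf n
    have hπS : π ∈ S := S.sub_mem hζ S.one_mem
    have hrS : r ∈ S := rem_mem ζ S hζ hζ' a
    have haS : (a : R) ∈ S := intCast_mem S a
    have hzS : ((ζ ^ a : Rˣ) : R) ∈ S := by
      have : ((ζ ^ a : Rˣ) : R) = 1 + ((a : R) * π + π ^ 2 * r) := by rw [← hza]; ring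
      rw [this]
      exact S.add_mem S.one_mem (S.add_mem (S.mul_mem haS hπS) (S.mul_mem (S.pow_mem hπS 2) hrS))
    have hzS' : (((ζ ^ a)⁻¹ : Rˣ) : R) ∈ S := by
      have hneg := rem_mem ζ S hζ hζ' (-a)
      have : (((ζ ^ a)⁻¹ : Rˣ) : R) = ((ζ ^ (-a) : Rˣ) : R) := by rw [zpow_neg]
      rw [this, zpow_eq ζ (-a)]
      refine S.add_mem (S.add_mem S.one_mem (S.mul_mem ?_ hπS)) (S.mul_mem (S.pow_mem hπS 2) hneg)
      exact_mod_cast intCast_mem S (-a)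
    rw [HahnSeries.coeff_add, C_mul_coeff, C_mul_coeff]
    refine S.add_mem (S.mul_mem hrS ?_) (S.mul_mem (S.pow_mem (S.add_mem haS (S.mul_mem hπS hrS)) 2)
      (scaleRem_coeff_mem (ζ ^ a) S hzS hzS' f hf n))
    show (n : R) * f.coeff n ∈ S
    exact S.mul_mem (intCast_mem S n) (hf n)
  · rw [scale_eq (ζ ^ a) f, hza]
    have h2 : ((a : R) * π + π ^ 2 * r) ^ 2 = π ^ 2 * ((a : R) + π * r) ^ 2 := by ring
    rw [h2]
    simp only [map_add, map_mul, map_pow]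
    ring

end Fermat.Agent.S36.ScaleTheta
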