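/-
P8 (S36) leaf [SCALE-θ-RED] (helper15): the middle-cusp reduction formula in the S18 vocabulary
(`iota A`, `rho A` of `S18/ContentBase`).

`A` a valuation subring of a field `K`, `ζ` a unit of `A` with `π := ζ - 1` in the maximal ideal
(e.g. a primitive `q`-th root of unity over a place above `q`).  For every `A`-integral Laurent
series `u` and every `a : ℤ`:

  `u(ζ^a T) - u(T) = π · w`  with `w` `A`-integral and  `ρ(w) = a · θ(ρ u)`.

So `(f(ζ^a T) - f(T)) / (ζ - 1)` is Gauss-integral and reduces to `a · θ f̄`.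
-/
import Mathlib
import Fermat.Agent.S18.ContentBase
import Fermat.Agent.S28.Subst
import Fermat.Agent.S28.Theta
import Fermat.Agent.S36.ScaleTheta

set_option autoImplicit false

noncomputable section

namespace Fermat.Agent.S36.ScaleThetaRed

open Fermat.Agent.S28 Fermat.Agent.S18.Content ModularCurve Fermat.Agent.S36.ScaleTheta

variable {K : Type*} [Field K] (A : ValuationSubring K)

/-- Integral form: `u(ζ^a T) - u(T) = π · w`, `ρ w = a · θ (ρ u)`. -/
theorem exists_scale_sub_eq_mul (ζ : (↥A)ˣ)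
    (hζ : ((ζ : ↥A) - 1) ∈ IsLocalRing.maximalIdeal ↥A) (a : ℤ) (u : LaurentSeries ↥A) :
    ∃ w : LaurentSeries ↥A,
      scale (ζ ^ a) u - u = HahnSeries.C ((ζ : ↥A) - 1) * w ∧
      rho A w = HahnSeries.C ((a : ℤ) : IsLocalRing.ResidueField ↥A) *
        theta (IsLocalRing.ResidueField ↥A) (rho A u) := by
  obtain ⟨g, -, hg⟩ := exists_scale_zpow_eq ζ a u
  refine ⟨HahnSeries.C ((a : ℤ) : ↥A) * theta ↥A u + HahnSeries.C ((ζ : ↥A) - 1) * g, ?_, ?_⟩
  · rw [hg, pow_two, map_mul (HahnSeries.C (Γ := ℤ) (R := ↥A)),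
      map_mul (HahnSeries.C (Γ := ℤ) (R := ↥A))]
    ring
  · have hres : IsLocalRing.residue ↥A ((ζ : ↥A) - 1) = 0 :=
      (IsLocalRing.residue_eq_zero_iff _).mpr hζ
    have hC : ∀ c : ↥A, rho A (HahnSeries.C c) = HahnSeries.C (IsLocalRing.residue ↥A c) :=
      fun c => rho_C A c
    rw [map_add, map_mul, map_mul, hC, hC, hres, map_zero, zero_mul, add_zero, map_intCast]
    rfl

/-- The same over `K`: for `f = ι u` with `A`-integral coefficients,
`f(ζ^a T) - f(T) = π · ι w` with `ρ w = a · θ (ρ u)`. -/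
theorem exists_iota_scale_sub_eq_mul (ζ : (↥A)ˣ)
    (hζ : ((ζ : ↥A) - 1) ∈ IsLocalRing.maximalIdeal ↥A) (a : ℤ) (u : LaurentSeries ↥A) :
    ∃ w : LaurentSeries ↥A,
      scale (Units.map (A.subtype : ↥A →* K) ζ ^ a) (iota A u) - iota A u
        = HahnSeries.C (((ζ : ↥A) : K) - 1) * iota A w ∧
      rho A w = HahnSeries.C ((a : ℤ) : IsLocalRing.ResidueField ↥A) *
        theta (IsLocalRing.ResidueField ↥A) (rho A u) := by
  obtain ⟨w, hw, hρ⟩ := exists_scale_sub_eq_mul A ζ hζ a u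
  refine ⟨w, ?_, hρ⟩
  have h := congrArg (iota A) hw
  rw [map_sub, map_mul, coeffMap_scale, iota_C] at h
  rw [← map_zpow, h]
  congr 2

end Fermat.Agent.S36.ScaleThetaRed
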