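/-
P8 (S36) leaf [MID-RED] (helper15): the middle-coordinate reduction of Lemma R's function
`r = x^{12(q-1)} / U2`, frame-independent, in the S18 content vocabulary (`Ocal A`, `red A`).

`K` any field, `A : ValuationSubring K` with residue field `κ` of characteristic `q`,
`ξ ∈ K` a primitive `q`-th root of unity.  Then

* `scale ξ` (the substitution `T ↦ ξ T`) preserves `Ocal A` and commutes with `red`
  (`red (scale ξ y) = red y`, since `ξ̄ = 1`);
* `exists_scale_sub`: for every `τ ∈ Ocal A`, `τ(ξ T) - τ(T) = (ξ - 1) · w` with `w ∈ Ocal A`,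
  `red w = θ (red τ)`  (`θ = T d/dT`; quotient rule on `Ocal`);
* `exists_cyclo_const`: `q = c · (1 - ξ)^(q-1)` with `c ∈ Aˣ`, `c̄ = -1` (product formula + Wilson);
* `expand_deltaS_char`: `Δ̄(T^q) = Δ̄^q`;
* `rRed`: if `U · Δ(T) · Δ(ξT) = q^12 · Δ(T^q)^2` (the middle expansion of `U2`, `Der.map_U_mul`),
  then `(τ(ξT) - τ(T))^(12(q-1)) / U ∈ Ocal A` and its reduction `r̄` satisfies
  `r̄ · Δ̄^(2(q-1)) = (θ τ̄)^(12(q-1))`,   i.e.   `r̄ = [(θ τ̄)^6 / Δ̄]^(2(q-1))`.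

Imports only Mathlib and frozen files (S18/ContentBase, S28, Lib/KroneckerCong, S36/ScaleTheta*,
S36/Der).
-/
import Mathlib
import Fermat.Agent.S18.ContentBase
import Fermat.Agent.S28.Subst
import Fermat.Agent.S28.Theta
import Fermat.Agent.S28.DeltaProd
import Fermat.Agent.Lib.KroneckerCong
import Fermat.Agent.S36.ScaleTheta
import Fermat.Agent.S36.ScaleThetaRed
import Fermat.Agent.S36.Der

set_option autoImplicit false

noncomputable section

namespace Fermat.Agent.S36.MidRed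

open Fermat.Agent.S28 Fermat.Agent.S18.Content ModularCurve

variable {K : Type*} [Field K] (A : ValuationSubring K)

/-- The image in `K` of a unit of `A`. -/
abbrev uK (ζ : (↥A)ˣ) : Kˣ := Units.map ((A.subtype : ↥A →+* K) : ↥A →* K) ζ

/-- The image in the residue field of a unit of `A`. -/
abbrev uk (ζ : (↥A)ˣ) : (IsLocalRing.ResidueField ↥A)ˣ :=
  Units.map ((IsLocalRing.residue ↥A : ↥A →+* IsLocalRing.ResidueField ↥A) :
    ↥A →* IsLocalRing.ResidueField ↥A) ζ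

theorem iota_scale (ζ : (↥A)ˣ) (u : LaurentSeries ↥A) :
    iota A (scale ζ u) = scale (uK A ζ) (iota A u) :=
  coeffMap_scale _ ζ u

theorem rho_scale (ζ : (↥A)ˣ) (u : LaurentSeries ↥A) :
    rho A (scale ζ u) = scale (uk A ζ) (rho A u) :=
  coeffMap_scale _ ζ u

/-! ### `scale` on `Ocal` -/

theorem scale_mem_Ocal (ζ : (↥A)ˣ) {y : LaurentSeries K} (hy : y ∈ Ocal A) :
    scale (uK A ζ) y ∈ Ocal A := by
  obtain ⟨u, v, hv, h⟩ := hy
  refine ⟨scale ζ u, scale ζ v, ?_, ?_⟩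
  · rw [rho_scale]
    intro h0
    exact hv (scale_injective _ (h0.trans (map_zero _).symm))
  · rw [iota_scale, iota_scale, ← map_mul, h]

theorem red_scale (ζ : (↥A)ˣ) (y : Ocal A) :
    red A ⟨_, scale_mem_Ocal A ζ y.2⟩ = scale (uk A ζ) (red A y) := by
  obtain ⟨u, v, hv, h⟩ := y.2
  have hv' : rho A (scale ζ v) ≠ 0 := by
    rw [rho_scale]
    intro h0
    exact hv (scale_injective _ (h0.trans (map_zero _).symm))
  have h' : scale (uK A ζ) (y : LaurentSeries K) * iota A (scale ζ v) = iota A (scale ζ u) := by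
    rw [iota_scale, iota_scale, ← map_mul, h]
  rw [red_mk_eq A _ _ (scale ζ u) (scale ζ v) hv' h', red_eq A y u v hv h, rho_scale, rho_scale,
    map_div₀]

/-- If `ζ̄ = 1`, `scale ζ` does not change the reduction. -/
theorem red_scale_of_residue (ζ : (↥A)ˣ) (hζ : IsLocalRing.residue ↥A (ζ : ↥A) = 1) (y : Ocal A) :
    red A ⟨_, scale_mem_Ocal A ζ y.2⟩ = red A y := by
  have h1 : uk A ζ = 1 := Units.ext hζ
  rw [red_scale, h1, scale_one]

/-! ### First-order expansion on `Ocal` -/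

/-- **Quotient rule**: `τ(ζ T) - τ(T) = (ζ - 1) · w`, `red w = θ (red τ)`, for every
`τ ∈ Ocal A` and every unit `ζ` of `A` with `ζ̄ = 1`. -/
theorem exists_scale_sub (ζ : (↥A)ˣ)
    (hζ : ((ζ : ↥A) - 1) ∈ IsLocalRing.maximalIdeal ↥A) (τ : Ocal A) :
    ∃ w : Ocal A,
      scale (uK A ζ) (τ : LaurentSeries K) - (τ : LaurentSeries K)
        = HahnSeries.C (((ζ : ↥A) : K) - 1) * (w : LaurentSeries K) ∧
      red A w = theta (IsLocalRing.ResidueField ↥A) (red A τ) := by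
  have hres : IsLocalRing.residue ↥A (ζ : ↥A) = 1 := by
    have := (IsLocalRing.residue_eq_zero_iff _).mpr hζ
    rwa [map_sub, map_one, sub_eq_zero] at this
  obtain ⟨u, v, hv, h⟩ := τ.2
  obtain ⟨wu, hwu, hρu⟩ := ScaleThetaRed.exists_iota_scale_sub_eq_mul A ζ hζ 1 u
  obtain ⟨wv, hwv, hρv⟩ := ScaleThetaRed.exists_iota_scale_sub_eq_mul A ζ hζ 1 v
  rw [zpow_one] at hwu hwv
  rw [Int.cast_one, map_one, one_mul] at hρu hρv
  -- the denominator `v(ζ T)`
  have hv' : rho A (scale ζ v) ≠ 0 := by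
    rw [rho_scale]
    intro h0
    exact hv (scale_injective _ (h0.trans (map_zero _).symm))
  let V' : Ocal A := ⟨iota A (scale ζ v), iota_mem_Ocal A _⟩
  have hV'red : red A V' = rho A v := by
    show red A ⟨iota A (scale ζ v), iota_mem_Ocal A _⟩ = rho A v
    rw [red_iota, rho_scale, show uk A ζ = 1 from Units.ext hres, scale_one]
  have hV'0 : red A V' ≠ 0 := by rw [hV'red]; exact hv
  let Vinv : Ocal A := ⟨(V' : LaurentSeries K)⁻¹, inv_mem_Ocal A V' hV'0⟩
  have hVinv : red A Vinv = (rho A v)⁻¹ := by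
    show red A ⟨(V' : LaurentSeries K)⁻¹, inv_mem_Ocal A V' hV'0⟩ = _
    rw [red_inv A V' hV'0, hV'red]
  let Wu : Ocal A := ⟨iota A wu, iota_mem_Ocal A _⟩
  let Wv : Ocal A := ⟨iota A wv, iota_mem_Ocal A _⟩
  have hV'ne : (iota A (scale ζ v) : LaurentSeries K) ≠ 0 := rho_ne_zero_imp A _ hv'
  refine ⟨(Wu - τ * Wv) * Vinv, ?_, ?_⟩
  · show scale (uK A ζ) (τ : LaurentSeries K) - (τ : LaurentSeries K)
      = HahnSeries.C (((ζ : ↥A) : K) - 1)
        * ((iota A wu - (τ : LaurentSeries K) * iota A wv) * (iota A (scale ζ v))⁻¹)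
    have h2 : scale (uK A ζ) (τ : LaurentSeries K) * scale (uK A ζ) (iota A v)
        = scale (uK A ζ) (iota A u) := by
      rw [← map_mul, h]
    rw [iota_scale] at hV'ne ⊢
    have key : (scale (uK A ζ) (τ : LaurentSeries K) - (τ : LaurentSeries K))
          * scale (uK A ζ) (iota A v)
        = HahnSeries.C (((ζ : ↥A) : K) - 1)
          * (iota A wu - (τ : LaurentSeries K) * iota A wv) := by
      linear_combination h2 + hwu - (τ : LaurentSeries K) * hwv - h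
    calc scale (uK A ζ) (τ : LaurentSeries K) - (τ : LaurentSeries K)
        = (scale (uK A ζ) (τ : LaurentSeries K) - (τ : LaurentSeries K))
            * scale (uK A ζ) (iota A v) * (scale (uK A ζ) (iota A v))⁻¹ := by
          rw [mul_assoc, mul_inv_cancel₀ hV'ne, mul_one]
      _ = _ := by rw [key, mul_assoc]
  · rw [map_mul, map_sub, map_mul, hVinv]
    show (red A ⟨iota A wu, iota_mem_Ocal A _⟩ - red A τ * red A ⟨iota A wv, iota_mem_Ocal A _⟩)
      * (rho A v)⁻¹ = _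
    rw [red_iota, red_iota, hρu, hρv]
    have hτ : red A τ * rho A v = rho A u := by
      rw [red_eq A τ u v hv h, div_mul_cancel₀ _ hv]
    rw [← hτ, theta_mul]
    field_simp
    ring

/-! ### The cyclotomic constant -/

section Cyclo

variable (q : ℕ) [Fact q.Prime]

/-- A root of unity of `K` is a unit of `A`. -/
theorem exists_unit_eq {ξ : Kˣ} {n : ℕ} (hn : n ≠ 0) (h : ξ ^ n = 1) :
    ∃ ζ : (↥A)ˣ, uK A ζ = ξ := by
  have h1 : A.valuation (ξ : K) = 1 := by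
    have h2 : A.valuation (ξ : K) ^ n = 1 := by
      rw [← map_pow, ← Units.val_pow_eq_pow_val, h, Units.val_one, map_one]
    exact (pow_eq_one_iff_of_nonneg zero_le hn).mp h2
  have hmem : (ξ : K) ∈ A := (A.valuation_le_one_iff _).mp h1.le
  have hu : IsUnit (⟨(ξ : K), hmem⟩ : ↥A) := (A.valuation_eq_one_iff _).mpr h1
  obtain ⟨ζ, hζ⟩ := hu
  refine ⟨ζ, Units.ext ?_⟩
  show ((ζ : ↥A) : K) = ξ
  rw [hζ]

/-- A `q`-th root of unity of `A` reduces to `1` in residue characteristic `q`. -/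
theorem residue_eq_one (hκ : CharP (IsLocalRing.ResidueField ↥A) q) (ζ : (↥A)ˣ) (h : ζ ^ q = 1) :
    IsLocalRing.residue ↥A (ζ : ↥A) = 1 := by
  have h2 : IsLocalRing.residue ↥A (ζ : ↥A) ^ q = 1 := by
    rw [← map_pow, ← Units.val_pow_eq_pow_val, h, Units.val_one, map_one]
  have h3 : (IsLocalRing.residue ↥A (ζ : ↥A) - 1) ^ q = 0 := by
    rw [sub_pow_char, h2, one_pow, sub_self]
  exact sub_eq_zero.mp ((pow_eq_zero_iff (Fact.out : q.Prime).ne_zero).mp h3)

theorem sub_one_mem (hκ : CharP (IsLocalRing.ResidueField ↥A) q) (ζ : (↥A)ˣ) (h : ζ ^ q = 1) :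
    ((ζ : ↥A) - 1) ∈ IsLocalRing.maximalIdeal ↥A := by
  rw [← IsLocalRing.residue_eq_zero_iff, map_sub, map_one, residue_eq_one A q hκ ζ h, sub_self]

/-- **`q = c · (1 - ζ)^(q-1)` with `c ∈ Aˣ`, `c̄ = -1`** (product formula and Wilson). -/
theorem exists_cyclo_const_unit (hκ : CharP (IsLocalRing.ResidueField ↥A) q) (ζ : (↥A)ˣ)
    (hζ : IsPrimitiveRoot (ζ : ↥A) q) :
    ∃ c : (↥A)ˣ, (q : ↥A) = (c : ↥A) * (1 - (ζ : ↥A)) ^ (q - 1) ∧
      IsLocalRing.residue ↥A (c : ↥A) = -1 := by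
  have hq : q.Prime := Fact.out
  have hζq : ζ ^ q = 1 := Units.ext (by rw [Units.val_pow_eq_pow_val, hζ.pow_eq_one, Units.val_one])
  have hres := residue_eq_one A q hκ ζ hζq
  obtain ⟨n, hn⟩ : ∃ n, q = n + 1 := ⟨q - 1, (Nat.succ_pred_eq_of_pos hq.pos).symm⟩
  have hprod : ∏ k ∈ Finset.range n, (1 - (ζ : ↥A) ^ (k + 1)) = (n : ↥A) + 1 := by
    have hζ' : IsPrimitiveRoot (ζ : ↥A) (n + 1) := hn ▸ hζ
    exact hζ'.prod_one_sub_pow_eq_order
  set c0 : ↥A := ∏ k ∈ Finset.range n, ∑ i ∈ Finset.range (k + 1), (ζ : ↥A) ^ i with hc0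
  have hfac : (q : ↥A) = c0 * (1 - (ζ : ↥A)) ^ (q - 1) := by
    have h1 : ∀ k ∈ Finset.range n, (1 - (ζ : ↥A) ^ (k + 1))
        = (1 - (ζ : ↥A)) * ∑ i ∈ Finset.range (k + 1), (ζ : ↥A) ^ i := by
      intro k _
      rw [mul_neg_geom_sum]
    rw [Finset.prod_congr rfl h1, Finset.prod_mul_distrib, Finset.prod_const,
      Finset.card_range] at hprod
    have hn' : q - 1 = n := by omega
    rw [hn', hc0, mul_comm, hprod, hn]
    push_cast
    ring
  have hc0res : IsLocalRing.residue ↥A c0 = -1 := by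
    rw [hc0, map_prod]
    have h2 : ∀ k ∈ Finset.range n,
        IsLocalRing.residue ↥A (∑ i ∈ Finset.range (k + 1), (ζ : ↥A) ^ i)
          = ((k + 1 : ℕ) : IsLocalRing.ResidueField ↥A) := by
      intro k _
      rw [map_sum]
      simp only [map_pow, hres, one_pow, Finset.sum_const, Finset.card_range, nsmul_eq_mul,
        mul_one]
    rw [Finset.prod_congr rfl h2, ← Nat.cast_prod, Finset.prod_range_add_one_eq_factorial]
    have hw : ((q - 1).factorial : ZMod q) = -1 := ZMod.wilsons_lemma q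
    have hcast := congrArg (ZMod.castHom (dvd_refl q) (IsLocalRing.ResidueField ↥A)) hw
    rw [map_natCast, map_neg, map_one] at hcast
    have hn' : q - 1 = n := by omega
    rw [← hn']
    exact hcast
  have hunit : IsUnit c0 := by
    rw [← IsLocalRing.residue_ne_zero_iff_isUnit, hc0res]
    exact neg_ne_zero.mpr one_ne_zero
  obtain ⟨c, hc⟩ := hunit
  exact ⟨c, by rw [hc]; exact hfac, by rw [hc]; exact hc0res⟩

end Cyclo

/-! ### Frobenius on `Δ`, and the reduction of `r` -/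

section RRed

variable (q : ℕ) [Fact q.Prime]

/-- `Δ̄(T^q) = Δ̄^q` in characteristic `q`. -/
theorem expand_deltaS_char (k : Type*) [CommRing k] [CharP k q] :
    expand k q (deltaS k) = deltaS k ^ q := by
  have : NeZero q := ⟨(Fact.out : q.Prime).ne_zero⟩
  rw [Fermat.Agent.Lib.KroneckerCong.pow_char_eq q (deltaS k), coeffMap_deltaS,
    expand_eq_qExpand q]

theorem iota_deltaS : iota A (deltaS ↥A) = deltaS K := coeffMap_deltaS _

theorem rho_deltaS : rho A (deltaS ↥A) = deltaS (IsLocalRing.ResidueField ↥A) := coeffMap_deltaS _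

/-- **Reduction of `r = x^{12(q-1)} / U2` at a middle coordinate.**
`hU` is the middle expansion of `U2` (`S36.Der.map_U_mul` at `(m₀,m₁,m₂) = (1,q,1)`). -/
theorem rRed (hκ : CharP (IsLocalRing.ResidueField ↥A) q) (ξ : Kˣ) (hξ : IsPrimitiveRoot ξ q)
    (τ : Ocal A) (U : LaurentSeries K)
    (hU : U * (deltaS K * scale ξ (deltaS K))
      = (q : LaurentSeries K) ^ 12 * expand K q (deltaS K) ^ 2) :
    ∃ h : (scale ξ (τ : LaurentSeries K) - (τ : LaurentSeries K)) ^ (12 * (q - 1)) / U ∈ Ocal A,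
      red A ⟨_, h⟩ * deltaS (IsLocalRing.ResidueField ↥A) ^ (2 * (q - 1))
        = theta (IsLocalRing.ResidueField ↥A) (red A τ) ^ (12 * (q - 1)) := by
  have hq : q.Prime := Fact.out
  obtain ⟨ζ, hζξ⟩ := exists_unit_eq A hq.ne_zero hξ.pow_eq_one
  have hζK : ((ζ : ↥A) : K) = (ξ : K) := by rw [← hζξ]; rfl
  have hζprim : IsPrimitiveRoot (ζ : ↥A) q := by
    have h1 : IsPrimitiveRoot (ξ : K) q := IsPrimitiveRoot.coe_units_iff.mpr hξ
    rw [← hζK] at h1
    exact IsPrimitiveRoot.of_map_of_injective (f := (A.subtype : ↥A →+* K)) h1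
      Subtype.val_injective
  have hζq : ζ ^ q = 1 :=
    Units.ext (by rw [Units.val_pow_eq_pow_val, hζprim.pow_eq_one, Units.val_one])
  have hmem := sub_one_mem A q hκ ζ hζq
  have hres := residue_eq_one A q hκ ζ hζq
  obtain ⟨c, hc, hcres⟩ := exists_cyclo_const_unit A q hκ ζ hζprim
  obtain ⟨w, hw, hwred⟩ := exists_scale_sub A ζ hmem τ
  rw [hζξ, hζK] at hw
  -- the constant
  have hcK : (q : K) = ((c : ↥A) : K) * (1 - (ξ : K)) ^ (q - 1) := by
    have := congrArg (A.subtype : ↥A →+* K) hc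
    rw [map_natCast, map_mul, map_pow, map_sub, map_one] at this
    rw [← hζK]
    exact this
  have hcinv : ((c : ↥A) : K) * (((c⁻¹ : (↥A)ˣ) : ↥A) : K) = 1 := by
    have := congrArg (A.subtype : ↥A →+* K) (Units.mul_inv c)
    rwa [map_mul, map_one] at this
  have hξ1 : (1 : K) - (ξ : K) ≠ 0 := by
    intro h0
    have h1 : (ξ : K) = 1 := (sub_eq_zero.mp h0).symm
    have h2 : IsPrimitiveRoot (ξ : K) q := IsPrimitiveRoot.coe_units_iff.mpr hξ
    rw [h1] at h2
    exact hq.one_lt.ne' (IsPrimitiveRoot.one_left_iff.mp h2)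
  have hc0 : ((c : ↥A) : K) ≠ 0 := left_ne_zero_of_mul_eq_one hcinv
  have hqK : (q : K) ≠ 0 := by
    rw [hcK]
    exact mul_ne_zero hc0 (pow_ne_zero _ hξ1)
  have hpow : ((ξ : K) - 1) ^ (12 * (q - 1))
      = (q : K) ^ 12 * ((((c⁻¹ : (↥A)ˣ) : ↥A) : K)) ^ 12 := by
    have h1 : ((ξ : K) - 1) ^ (12 * (q - 1)) = ((1 - (ξ : K)) ^ (q - 1)) ^ 12 := by
      rw [← pow_mul, mul_comm (q - 1) 12, pow_mul, pow_mul]
      congr 1
      ring
    have h2 : (1 - (ξ : K)) ^ (q - 1) = (q : K) * (((c⁻¹ : (↥A)ˣ) : ↥A) : K) := by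
      rw [hcK]
      linear_combination (-(1 - (ξ : K)) ^ (q - 1)) * hcinv
    rw [h1, h2, mul_pow]
  -- the three `Δ`'s
  let D0 : Ocal A := ⟨iota A (deltaS ↥A), iota_mem_Ocal A _⟩
  let Dξ : Ocal A := ⟨iota A (scale ζ (deltaS ↥A)), iota_mem_Ocal A _⟩
  let Dq : Ocal A := ⟨iota A (expand ↥A q (deltaS ↥A)), iota_mem_Ocal A _⟩
  have hD0 : (D0 : LaurentSeries K) = deltaS K := iota_deltaS A
  have hDξ : (Dξ : LaurentSeries K) = scale ξ (deltaS K) := by
    show iota A (scale ζ (deltaS ↥A)) = _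
    rw [iota_scale, iota_deltaS, hζξ]
  have hDq : (Dq : LaurentSeries K) = expand K q (deltaS K) := by
    show iota A (expand ↥A q (deltaS ↥A)) = _
    rw [show iota A (expand ↥A q (deltaS ↥A)) = expand K q (iota A (deltaS ↥A)) from
      coeffMap_expand _ q _, iota_deltaS]
  have hΔ0 : deltaS (IsLocalRing.ResidueField ↥A) ≠ 0 := deltaS_ne_zero _
  have hD0red : red A D0 = deltaS (IsLocalRing.ResidueField ↥A) := by
    show red A ⟨iota A (deltaS ↥A), iota_mem_Ocal A _⟩ = _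
    rw [red_iota, rho_deltaS]
  have hDξred : red A Dξ = deltaS (IsLocalRing.ResidueField ↥A) := by
    show red A ⟨iota A (scale ζ (deltaS ↥A)), iota_mem_Ocal A _⟩ = _
    rw [red_iota, rho_scale, show uk A ζ = 1 from Units.ext hres, scale_one, rho_deltaS]
  have hDqred : red A Dq = deltaS (IsLocalRing.ResidueField ↥A) ^ q := by
    show red A ⟨iota A (expand ↥A q (deltaS ↥A)), iota_mem_Ocal A _⟩ = _
    rw [red_iota, show rho A (expand ↥A q (deltaS ↥A))
        = expand (IsLocalRing.ResidueField ↥A) q (rho A (deltaS ↥A)) from coeffMap_expand _ q _,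
      rho_deltaS, expand_deltaS_char q]
  have hDq0 : red A Dq ≠ 0 := by rw [hDqred]; exact pow_ne_zero _ hΔ0
  let Dqinv : Ocal A := ⟨(Dq : LaurentSeries K)⁻¹, inv_mem_Ocal A Dq hDq0⟩
  have hDqinvred : red A Dqinv = (deltaS (IsLocalRing.ResidueField ↥A) ^ q)⁻¹ := by
    show red A ⟨(Dq : LaurentSeries K)⁻¹, inv_mem_Ocal A Dq hDq0⟩ = _
    rw [red_inv A Dq hDq0, hDqred]
  have hDqne : expand K q (deltaS K) ≠ 0 := by
    rw [← hDq]
    exact ne_zero_of_red_ne_zero A Dq hDq0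
  let cinv : Ocal A := constO A ((c⁻¹ : (↥A)ˣ) : ↥A)
  have hcinvred : red A cinv ^ 12 = 1 := by
    show red A (constO A ((c⁻¹ : (↥A)ˣ) : ↥A)) ^ 12 = 1
    have h1 : IsLocalRing.residue ↥A ((c⁻¹ : (↥A)ˣ) : ↥A) = -1 := by
      have h2 := congrArg (IsLocalRing.residue ↥A) (Units.mul_inv c)
      rw [map_mul, map_one, hcres] at h2
      linear_combination -h2
    rw [red_constO, h1, ← map_pow]
    norm_num
  let R : Ocal A := cinv ^ 12 * w ^ (12 * (q - 1)) * D0 * Dξ * Dqinv ^ 2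
  -- `U ≠ 0`
  have hqL : (q : LaurentSeries K) = HahnSeries.C (q : K) := (map_natCast _ q).symm
  have hU0 : U ≠ 0 := by
    intro h0
    rw [h0, zero_mul, hqL] at hU
    have h1 : HahnSeries.C (q : K) ≠ 0 :=
      (map_ne_zero (HahnSeries.C (Γ := ℤ) (R := K))).mpr hqK
    exact mul_ne_zero (pow_ne_zero 12 h1) (pow_ne_zero 2 hDqne) hU.symm
  have hR : (scale ξ (τ : LaurentSeries K) - (τ : LaurentSeries K)) ^ (12 * (q - 1)) / U
      = (R : LaurentSeries K) := by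
    have hRcoe : (R : LaurentSeries K) = HahnSeries.C ((((c⁻¹ : (↥A)ˣ) : ↥A) : K)) ^ 12
        * (w : LaurentSeries K) ^ (12 * (q - 1)) * (D0 : LaurentSeries K)
        * (Dξ : LaurentSeries K) * ((Dq : LaurentSeries K)⁻¹) ^ 2 := by
      show ((cinv ^ 12 * w ^ (12 * (q - 1)) * D0 * Dξ * Dqinv ^ 2 : Ocal A) : LaurentSeries K)
        = _
      rw [Subring.coe_mul, Subring.coe_mul, Subring.coe_mul, Subring.coe_mul, Subring.coe_pow,
        Subring.coe_pow, Subring.coe_pow,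
        show (cinv : LaurentSeries K) = HahnSeries.C ((((c⁻¹ : (↥A)ˣ) : ↥A) : K)) from
          coe_constO A _]
    rw [div_eq_iff hU0, hRcoe]
    have hX : (scale ξ (τ : LaurentSeries K) - (τ : LaurentSeries K)) ^ (12 * (q - 1))
        = (q : LaurentSeries K) ^ 12 * HahnSeries.C ((((c⁻¹ : (↥A)ˣ) : ↥A) : K)) ^ 12
          * (w : LaurentSeries K) ^ (12 * (q - 1)) := by
      rw [hw, mul_pow, hqL]
      congr 1
      rw [← map_pow (HahnSeries.C (Γ := ℤ) (R := K)), hpow, map_mul, map_pow, map_pow]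
    rw [hD0, hDξ, hDq, hX]
    have e1 : HahnSeries.C ((((c⁻¹ : (↥A)ˣ) : ↥A) : K)) ^ 12
          * (w : LaurentSeries K) ^ (12 * (q - 1)) * deltaS K * scale ξ (deltaS K)
          * ((expand K q (deltaS K))⁻¹) ^ 2 * U
        = HahnSeries.C ((((c⁻¹ : (↥A)ˣ) : ↥A) : K)) ^ 12
          * (w : LaurentSeries K) ^ (12 * (q - 1)) * ((expand K q (deltaS K))⁻¹) ^ 2
          * (U * (deltaS K * scale ξ (deltaS K))) := by ring
    rw [e1, hU, inv_pow]
    have e3 := inv_mul_cancel₀ (pow_ne_zero 2 hDqne)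
    linear_combination (-((q : LaurentSeries K) ^ 12
      * HahnSeries.C ((((c⁻¹ : (↥A)ˣ) : ↥A) : K)) ^ 12
      * (w : LaurentSeries K) ^ (12 * (q - 1)))) * e3
  refine ⟨hR ▸ R.2, ?_⟩
  rw [red_congr A hR _ R.2]
  show red A R * _ = _
  rw [show R = cinv ^ 12 * w ^ (12 * (q - 1)) * D0 * Dξ * Dqinv ^ 2 from rfl, map_mul, map_mul,
    map_mul, map_mul, map_pow, map_pow, map_pow, hcinvred, hwred, hD0red, hDξred, hDqinvred,
    one_mul]
  have e2 : deltaS (IsLocalRing.ResidueField ↥A) * deltaS (IsLocalRing.ResidueField ↥A)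
      * deltaS (IsLocalRing.ResidueField ↥A) ^ (2 * (q - 1))
      = (deltaS (IsLocalRing.ResidueField ↥A) ^ q) ^ 2 := by
    have hq1 : 2 * (q - 1) + 2 = q * 2 := by have := hq.pos; omega
    rw [← pow_mul, ← hq1]
    ring
  have hΔq : deltaS (IsLocalRing.ResidueField ↥A) ^ q ≠ 0 := pow_ne_zero _ hΔ0
  calc theta (IsLocalRing.ResidueField ↥A) (red A τ) ^ (12 * (q - 1))
          * deltaS (IsLocalRing.ResidueField ↥A) * deltaS (IsLocalRing.ResidueField ↥A)
          * ((deltaS (IsLocalRing.ResidueField ↥A) ^ q)⁻¹) ^ 2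
          * deltaS (IsLocalRing.ResidueField ↥A) ^ (2 * (q - 1))
      = theta (IsLocalRing.ResidueField ↥A) (red A τ) ^ (12 * (q - 1))
          * ((deltaS (IsLocalRing.ResidueField ↥A) * deltaS (IsLocalRing.ResidueField ↥A)
            * deltaS (IsLocalRing.ResidueField ↥A) ^ (2 * (q - 1)))
          * ((deltaS (IsLocalRing.ResidueField ↥A) ^ q)⁻¹) ^ 2) := by ring
    _ = _ := by
        rw [e2, inv_pow, mul_inv_cancel₀ (pow_ne_zero 2 hΔq), mul_one]

/-! ### The same statements for a root of unity `ξ` of `K` -/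

/-- `scale ξ` preserves `Ocal A` for a root of unity `ξ` of `K`. -/
theorem scale_xi_mem_Ocal (ξ : Kˣ) {n : ℕ} (hn : n ≠ 0) (hξ : ξ ^ n = 1) {y : LaurentSeries K}
    (hy : y ∈ Ocal A) : scale ξ y ∈ Ocal A := by
  obtain ⟨ζ, hζξ⟩ := exists_unit_eq A hn hξ
  rw [← hζξ]
  exact scale_mem_Ocal A ζ hy

/-- `red (y(ξ T)) = red y` for a `q`-th root of unity `ξ` in residue characteristic `q`. -/
theorem red_scale_xi (hκ : CharP (IsLocalRing.ResidueField ↥A) q) (ξ : Kˣ) (hξ : ξ ^ q = 1)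
    (y : Ocal A) (h : scale ξ (y : LaurentSeries K) ∈ Ocal A) :
    red A ⟨scale ξ (y : LaurentSeries K), h⟩ = red A y := by
  have hq : q.Prime := Fact.out
  obtain ⟨ζ, hζξ⟩ := exists_unit_eq A hq.ne_zero hξ
  have hζq : ζ ^ q = 1 := by
    apply Units.ext
    apply Subtype.val_injective
    have h1 := congrArg (fun u : Kˣ => (u : K)) hξ
    simp only [Units.val_pow_eq_pow_val, Units.val_one] at h1
    rw [← hζξ] at h1
    show (((ζ ^ q : (↥A)ˣ) : ↥A) : K) = ((1 : (↥A)ˣ) : ↥A)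
    rw [Units.val_pow_eq_pow_val, Units.val_one]
    exact h1
  have hres := residue_eq_one A q hκ ζ hζq
  rw [← red_scale_of_residue A ζ hres y]
  exact red_congr A (by rw [hζξ]) _ _

/-- `τ(ξ T) - τ(T) = (ξ - 1) · w`, `red w = θ (red τ)`, for a `q`-th root of unity `ξ` of `K`
in residue characteristic `q`. -/
theorem exists_scale_sub_xi (hκ : CharP (IsLocalRing.ResidueField ↥A) q) (ξ : Kˣ)
    (hξ : ξ ^ q = 1) (τ : Ocal A) :
    ∃ w : Ocal A,
      scale ξ (τ : LaurentSeries K) - (τ : LaurentSeries K)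
        = HahnSeries.C ((ξ : K) - 1) * (w : LaurentSeries K) ∧
      red A w = theta (IsLocalRing.ResidueField ↥A) (red A τ) := by
  have hq : q.Prime := Fact.out
  obtain ⟨ζ, hζξ⟩ := exists_unit_eq A hq.ne_zero hξ
  have hζK : ((ζ : ↥A) : K) = (ξ : K) := by rw [← hζξ]; rfl
  have hζq : ζ ^ q = 1 := by
    apply Units.ext
    apply Subtype.val_injective
    have h1 := congrArg (fun u : Kˣ => (u : K)) hξ
    simp only [Units.val_pow_eq_pow_val, Units.val_one] at h1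
    rw [← hζK] at h1
    show (((ζ ^ q : (↥A)ˣ) : ↥A) : K) = ((1 : (↥A)ˣ) : ↥A)
    rw [Units.val_pow_eq_pow_val, Units.val_one]
    exact h1
  obtain ⟨w, hw, hwred⟩ := exists_scale_sub A ζ (sub_one_mem A q hκ ζ hζq) τ
  rw [hζξ, hζK] at hw
  exact ⟨w, hw, hwred⟩

/-- `q = c · (1 - ξ)^(q-1)` in `K`, `c ∈ Aˣ`, `c̄ = -1`, for a primitive `q`-th root of unity
`ξ` of `K` (in particular `v(1 - ξ) = v(q)/(q-1)`). -/
theorem exists_cyclo_const (hκ : CharP (IsLocalRing.ResidueField ↥A) q) (ξ : Kˣ)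
    (hξ : IsPrimitiveRoot ξ q) :
    ∃ c : (↥A)ˣ, (q : K) = ((c : ↥A) : K) * (1 - (ξ : K)) ^ (q - 1) ∧
      IsLocalRing.residue ↥A (c : ↥A) = -1 := by
  have hq : q.Prime := Fact.out
  obtain ⟨ζ, hζξ⟩ := exists_unit_eq A hq.ne_zero hξ.pow_eq_one
  have hζK : ((ζ : ↥A) : K) = (ξ : K) := by rw [← hζξ]; rfl
  have hζprim : IsPrimitiveRoot (ζ : ↥A) q := by
    have h1 : IsPrimitiveRoot (ξ : K) q := IsPrimitiveRoot.coe_units_iff.mpr hξ
    rw [← hζK] at h1
    exact IsPrimitiveRoot.of_map_of_injective (f := (A.subtype : ↥A →+* K)) h1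
      Subtype.val_injective
  obtain ⟨c, hc, hcres⟩ := exists_cyclo_const_unit A q hκ ζ hζprim
  refine ⟨c, ?_, hcres⟩
  have := congrArg (A.subtype : ↥A →+* K) hc
  rw [map_natCast, map_mul, map_pow, map_sub, map_one] at this
  rw [← hζK]
  exact this

/-- If moreover `θ (red τ) ≠ 0`, then `(τ(ξT) - τ(T))⁻¹ = (ξ - 1)⁻¹ · w'` with `w' ∈ Ocal A`
(so `τ(ξT) - τ(T)` has exact Gauss valuation `v(ξ - 1)`). -/
theorem exists_inv_scale_sub_xi (hκ : CharP (IsLocalRing.ResidueField ↥A) q) (ξ : Kˣ)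
    (hξ : ξ ^ q = 1) (τ : Ocal A)
    (hθ : theta (IsLocalRing.ResidueField ↥A) (red A τ) ≠ 0) :
    ∃ w' : Ocal A,
      (scale ξ (τ : LaurentSeries K) - (τ : LaurentSeries K)) * (w' : LaurentSeries K)
        = HahnSeries.C ((ξ : K) - 1) ∧
      red A w' * theta (IsLocalRing.ResidueField ↥A) (red A τ) = 1 := by
  obtain ⟨w, hw, hwred⟩ := exists_scale_sub_xi A q hκ ξ hξ τ
  have hw0 : red A w ≠ 0 := by rw [hwred]; exact hθ
  refine ⟨⟨(w : LaurentSeries K)⁻¹, inv_mem_Ocal A w hw0⟩, ?_, ?_⟩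
  · show (scale ξ (τ : LaurentSeries K) - (τ : LaurentSeries K)) * (w : LaurentSeries K)⁻¹ = _
    rw [hw, mul_assoc, mul_inv_cancel₀ (ne_zero_of_red_ne_zero A w hw0), mul_one]
  · rw [red_inv A w hw0, hwred, inv_mul_cancel₀ hθ]

/-- `rRed` with `hU` in the literal shape produced by `S36.Der.map_U_mul` at
`(ξ₀, ξ₁, ξ₂) = (1, 1, ξ)`, `(m₀, m₁, m₂) = (1, q, 1)`. -/
theorem rRed_of_map_U (hκ : CharP (IsLocalRing.ResidueField ↥A) q) (ξ : Kˣ)
    (hξ : IsPrimitiveRoot ξ q) (τ : Ocal A) (U : LaurentSeries K)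
    (hU : U * (((1 : ℕ) : LaurentSeries K) ^ 6 * Fermat.Agent.S36.Der.deltaY K 1 1
        * (((1 : ℕ) : LaurentSeries K) ^ 6 * Fermat.Agent.S36.Der.deltaY K ξ 1))
      = ((q : LaurentSeries K) ^ 6 * Fermat.Agent.S36.Der.deltaY K 1 q) ^ 2) :
    ∃ h : (scale ξ (τ : LaurentSeries K) - (τ : LaurentSeries K)) ^ (12 * (q - 1)) / U ∈ Ocal A,
      red A ⟨_, h⟩ * deltaS (IsLocalRing.ResidueField ↥A) ^ (2 * (q - 1))
        = theta (IsLocalRing.ResidueField ↥A) (red A τ) ^ (12 * (q - 1)) := by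
  refine rRed A q hκ ξ hξ τ U ?_
  have h1 : Fermat.Agent.S36.Der.deltaY K 1 1 = deltaS K := by
    unfold Fermat.Agent.S36.Der.deltaY
    rw [scale_one, expand_one]
  have h2 : Fermat.Agent.S36.Der.deltaY K ξ 1 = scale ξ (deltaS K) := by
    unfold Fermat.Agent.S36.Der.deltaY
    rw [expand_one]
  have h3 : Fermat.Agent.S36.Der.deltaY K 1 q = expand K q (deltaS K) := by
    unfold Fermat.Agent.S36.Der.deltaY
    rw [scale_one]
  rw [h1, h2, h3, Nat.cast_one, one_pow, one_mul, one_mul] at hU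
  rw [hU]
  ring

end RRed

end Fermat.Agent.S36.MidRed
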