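import Mathlib
import Fermat.Agent.S34.PullWJ
import Fermat.Agent.S34.Sigma
import Fermat.Agent.S36.Plan
import Fermat.Agent.S36.MidRed

/-!
# S36 (P8) — [CR-LIFT-q²]: the lifts of `WJ m` through the coordinates of the level-`q²` frame
(helper60)

For a frame `F : Plan.Frame M q h` and `(O, ρ)` with `Plan.IsSetup A F O ρ`:

* `rho_level`      : `(V5)`: for `x ∈ F_M ∩ Ocal`: `x ∈ O` and
  `ρ x = (red x; red x(T^{q²}); (red x)_ξ)` (coordinates `∞; 0; mid ξ`);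
* `rho_level_beta` : for `x ∈ F_M ∩ Ocal`: `x(T^{q²}) ∈ O` and
  `ρ (x(T^{q²})) = (red x(T^{q²}); red x; (red x)_ξ)`;
* `lift_alpha`     : for `m ≥ m₀` and `a ∈ WJ m` (good level `M`) there is `g ∈ O ∩ L(m (j)_∞)`
  with `ρ g = (a; a(T^{q²}); (a)_ξ)`;
* `lift_beta`      : … there is `g ∈ O ∩ L(m (j_{q²})_∞)` with `ρ g = (a(T^{q²}); a; (a)_ξ)`.

These are the hypotheses `hLα`, `hLβ` of `S36/CuspFam` (`lift_alpha'`, `lift_beta'`).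
-/

set_option autoImplicit false

noncomputable section

namespace Fermat.Agent.S36.CuspLift

open ModularCurve AlgebraicCurve Fermat.Agent.S24 Fermat.Agent.S18.Content Fermat.Agent.S18.Plan
  Fermat.Agent.S18 Fermat.Agent.S34

variable {A : ValuationSubring Kbar} {M q : ℕ} [NeZero M] [NeZero q] {h : Nat.Coprime M q}
variable {F : Plan.Frame M q h} {O : Subring Om} {ρ : O →+* Plan.Rq A q}

/-- **(V5)** on `F_M`: the three coordinate types of an element of `F_M ∩ Ocal`. -/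
theorem rho_level (hS : Plan.IsSetup A F O ρ) (x : FN M) (hx : (x : Om) ∈ Ocal A) :
    ∃ hO : (x : Om) ∈ O, ρ ⟨_, hO⟩ .inf = red A ⟨_, hx⟩ ∧
      ρ ⟨_, hO⟩ .zero = qExpand (kk A) (q * q) (red A ⟨_, hx⟩) ∧
      ∀ ξ, ρ ⟨_, hO⟩ (.mid ξ) = red A ⟨_, hx⟩ := by
  set X : FN (M * q * q) := heckeAlphaBar Kbar (M * q) q (heckeAlphaBar Kbar M q x) with hX
  have hcoe : ((X : FN (M * q * q)) : Om) = (x : Om) := by
    rw [hX, Sigma.coe_alpha, Sigma.coe_alpha]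
  have e0 : F.emb .zero X = qExpand Kbar (q * q) (x : Om) := by
    rw [Plan.Frame.emb_zero, hX, F.w_alpha, Sigma.sigma_alpha, Sigma.coe_beta, Sigma.coe_beta,
      qExpand_qExpand q q]
  have em : ∀ ξ, F.emb (.mid ξ) X = (x : Om) := by
    intro ξ
    rw [Plan.Frame.emb_mid, hX, F.r_alpha, Sigma.coe_alpha]
  have h0 : qExpand Kbar (q * q) (x : Om) ∈ Ocal A :=
    Lib.KroneckerCong.qExpand_mem_Ocal A (q * q) hx
  have hall : ∀ i : Plan.Coord q, F.emb i X ∈ Ocal A := by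
    intro i
    cases i with
    | inf => rw [Plan.Frame.emb_inf, hcoe]; exact hx
    | zero => rw [e0]; exact h0
    | mid ξ => rw [em ξ]; exact hx
  have hXO : ((X : FN (M * q * q)) : Om) ∈ O := (hS.mem_iff X).2 hall
  have hO : (x : Om) ∈ O := hcoe ▸ hXO
  have hsub : (⟨(x : Om), hO⟩ : O) = ⟨((X : FN (M * q * q)) : Om), hXO⟩ := Subtype.ext hcoe.symm
  refine ⟨hO, ?_, ?_, ?_⟩
  · rw [hsub, hS.ρ_apply X hXO .inf (hall .inf)]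
    exact red_congr A (by rw [Plan.Frame.emb_inf, hcoe]) _ _
  · rw [hsub, hS.ρ_apply X hXO .zero (hall .zero), red_congr A e0 (hall .zero) h0]
    exact Lib.KroneckerCong.red_qExpand A (q * q) ⟨_, hx⟩
  · intro ξ
    rw [hsub, hS.ρ_apply X hXO (.mid ξ) (hall (.mid ξ))]
    exact red_congr A (em ξ) _ _

/-- **(V5)** for `x(T^{q²})`, `x ∈ F_M ∩ Ocal`. -/
theorem rho_level_beta (hS : Plan.IsSetup A F O ρ) (hq : q.Prime) (hA : A.LiesOverPrime q)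
    (x : FN M) (hx : (x : Om) ∈ Ocal A) :
    ∃ hO : qExpand Kbar (q * q) (x : Om) ∈ O,
      ρ ⟨_, hO⟩ .inf = qExpand (kk A) (q * q) (red A ⟨_, hx⟩) ∧
      ρ ⟨_, hO⟩ .zero = red A ⟨_, hx⟩ ∧
      ∀ ξ, ρ ⟨_, hO⟩ (.mid ξ) = red A ⟨_, hx⟩ := by
  have : Fact q.Prime := ⟨hq⟩
  have hκ : CharP (kk A) q := charP_residueField_of_liesOverPrime A q hA
  set X : FN (M * q * q) := heckeBetaBar Kbar (M * q) q (heckeBetaBar Kbar M q x) with hX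
  have hcoe : ((X : FN (M * q * q)) : Om) = qExpand Kbar (q * q) (x : Om) := by
    rw [hX, Sigma.coe_beta, Sigma.coe_beta, qExpand_qExpand q q]
  have e0 : F.emb .zero X = (x : Om) := by
    rw [Plan.Frame.emb_zero, hX, F.w_beta, Sigma.sigma_beta, Sigma.coe_alpha, Sigma.coe_alpha]
  have em : ∀ ξ : Plan.MidIdx q, F.emb (.mid ξ) X = Fermat.Agent.S28.scale ξ.1 (x : Om) := by
    intro ξ
    rw [Plan.Frame.emb_mid, hX, F.r_beta]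
  have h0 : qExpand Kbar (q * q) (x : Om) ∈ Ocal A :=
    Lib.KroneckerCong.qExpand_mem_Ocal A (q * q) hx
  have hm : ∀ ξ : Plan.MidIdx q, Fermat.Agent.S28.scale ξ.1 (x : Om) ∈ Ocal A := fun ξ =>
    MidRed.scale_xi_mem_Ocal A ξ.1 hq.ne_zero ξ.2.pow_eq_one hx
  have hall : ∀ i : Plan.Coord q, F.emb i X ∈ Ocal A := by
    intro i
    cases i with
    | inf => rw [Plan.Frame.emb_inf, hcoe]; exact h0
    | zero => rw [e0]; exact hx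
    | mid ξ => rw [em ξ]; exact hm ξ
  have hXO : ((X : FN (M * q * q)) : Om) ∈ O := (hS.mem_iff X).2 hall
  have hO : qExpand Kbar (q * q) (x : Om) ∈ O := hcoe ▸ hXO
  have hsub : (⟨qExpand Kbar (q * q) (x : Om), hO⟩ : O)
      = ⟨((X : FN (M * q * q)) : Om), hXO⟩ := Subtype.ext hcoe.symm
  refine ⟨hO, ?_, ?_, ?_⟩
  · rw [hsub, hS.ρ_apply X hXO .inf (hall .inf),
      red_congr A (show F.emb .inf X = qExpand Kbar (q * q) (x : Om) by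
        rw [Plan.Frame.emb_inf, hcoe]) (hall .inf) h0]
    exact Lib.KroneckerCong.red_qExpand A (q * q) ⟨_, hx⟩
  · rw [hsub, hS.ρ_apply X hXO .zero (hall .zero)]
    exact red_congr A e0 _ _
  · intro ξ
    rw [hsub, hS.ρ_apply X hXO (.mid ξ) (hall (.mid ξ)), red_congr A (em ξ) (hall (.mid ξ)) (hm ξ)]
    exact MidRed.red_scale_xi A q hκ ξ.1 ξ.2.pow_eq_one ⟨_, hx⟩ (hm ξ)

section Lift

variable {N : ℕ} [NeZero N]

/-- **The `α`-lift**: `a ∈ WJ m` (good level `M`, `m` large) lifts to `g ∈ O ∩ L(m (j)_∞)` with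
`ρ g = (a; a(T^{q²}); (a)_ξ)`. -/
theorem lift_alpha (hS : Plan.IsSetup A F O ρ) (hq : q.Prime) (hTF : 4 ∣ M ∨ 9 ∣ M)
    (hA : A.LiesOverPrime q) (hN : N ∣ M * q * q) :
    ∃ m₀ : ℕ, ∀ Cj : Divisor Kbar (FN N), S34.Plan.IsPoleJ N Cj → ∀ m : ℕ, m₀ ≤ m →
      ∀ a : Omk A, a ∈ WJ (kk A) (Fk A M) m →
        ∃ g : O, (g : Om) ∈ pullRR N (M * q * q) (m • Cj) ∧ ρ g .inf = a ∧
          ρ g .zero = qExpand (kk A) (q * q) a ∧ ∀ ξ, ρ g (.mid ξ) = a := by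
  have : Fact q.Prime := ⟨hq⟩
  have hqM : ¬ q ∣ M := (Nat.Prime.coprime_iff_not_dvd hq).mp h.symm
  have : NeZero (M * q * q) :=
    ⟨Nat.mul_ne_zero (Nat.mul_ne_zero (NeZero.ne M) (NeZero.ne q)) (NeZero.ne q)⟩
  obtain ⟨c₀, hc₀⟩ := SurjFree.exists_lift_of_mem_WJ M q hqM hTF A hA
  refine ⟨c₀, fun Cj hCj m hm a ha => ?_⟩
  obtain ⟨CpM, hCpM, -⟩ := Char0.exists_poleDivisor_jBar M
  obtain ⟨g, hgO, hgL, hgred⟩ := hc₀ m hm CpM hCpM a ha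
  have h1 : (g : Om) ∈ pullRR N (M * q * q) (m • Cj) :=
    PullWJ.coe_mem_pullRR_level M N (M * q * q) ⟨q * q, by ring⟩ hN m CpM hCpM Cj hCj hgL
  obtain ⟨hO, r1, r2, r3⟩ := rho_level hS g hgO
  refine ⟨⟨_, hO⟩, h1, ?_, ?_, ?_⟩
  · rw [r1, hgred]
  · rw [r2, hgred]
  · intro ξ
    rw [r3 ξ, hgred]

/-- **The `β`-lift**: `a ∈ WJ m` lifts to `g ∈ O ∩ L(m (j_{q²})_∞)` with
`ρ g = (a(T^{q²}); a; (a)_ξ)`. -/
theorem lift_beta (hS : Plan.IsSetup A F O ρ) (hq : q.Prime) (hTF : 4 ∣ M ∨ 9 ∣ M)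
    (hA : A.LiesOverPrime q) (hqq : q * q ∣ N) :
    ∃ m₀ : ℕ, ∀ Cqq : Divisor Kbar (FN N), S34.Plan.IsPoleJq N (q * q) hqq Cqq → ∀ m : ℕ,
      m₀ ≤ m → ∀ a : Omk A, a ∈ WJ (kk A) (Fk A M) m →
        ∃ g : O, (g : Om) ∈ pullRR N (M * q * q) (m • Cqq) ∧
          ρ g .inf = qExpand (kk A) (q * q) a ∧ ρ g .zero = a ∧ ∀ ξ, ρ g (.mid ξ) = a := by
  have : Fact q.Prime := ⟨hq⟩
  have hqM : ¬ q ∣ M := (Nat.Prime.coprime_iff_not_dvd hq).mp h.symm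
  obtain ⟨c₀, hc₀⟩ := SurjFree.exists_lift_of_mem_WJ M q hqM hTF A hA
  refine ⟨c₀, fun Cqq hCqq m hm a ha => ?_⟩
  obtain ⟨CpM, hCpM, -⟩ := Char0.exists_poleDivisor_jBar M
  obtain ⟨g, hgO, hgL, hgred⟩ := hc₀ m hm CpM hCpM a ha
  have h1 : qExpand Kbar (q * q) (g : Om) ∈ pullRR N (M * (q * q)) (m • Cqq) :=
    PullWJ.qExpand_mem_pullRR M (q * q) N hqq m CpM hCpM Cqq hCqq hgL
  rw [← Nat.mul_assoc] at h1
  obtain ⟨hO, r1, r2, r3⟩ := rho_level_beta hS hq hA g hgO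
  refine ⟨⟨_, hO⟩, h1, ?_, ?_, ?_⟩
  · rw [r1, hgred]
  · rw [r2, hgred]
  · intro ξ
    rw [r3 ξ, hgred]

/-- `lift_alpha` in the shape of the hypothesis `hLα` of `S36/CuspFam`. -/
theorem lift_alpha' (hS : Plan.IsSetup A F O ρ) (hq : q.Prime) (hTF : 4 ∣ M ∨ 9 ∣ M)
    (hA : A.LiesOverPrime q) (hN : N ∣ M * q * q) {Cj : Divisor Kbar (FN N)}
    (hCj : S34.Plan.IsPoleJ N Cj) :
    ∃ m₀ : ℕ, ∀ m : ℕ, m₀ ≤ m → ∀ a : Omk A, a ∈ WJ (kk A) (Fk A M) m →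
      ∃ g : O, (g : Om) ∈ pullRR N (M * q * q) (m • Cj) ∧ ρ g .inf = a ∧
        ∀ ξ, ρ g (.mid ξ) = a := by
  obtain ⟨m₀, hm₀⟩ := lift_alpha hS hq hTF hA hN
  refine ⟨m₀, fun m hm a ha => ?_⟩
  obtain ⟨g, h1, h2, -, h4⟩ := hm₀ Cj hCj m hm a ha
  exact ⟨g, h1, h2, h4⟩

/-- `lift_beta` in the shape of the hypothesis `hLβ` of `S36/CuspFam`. -/
theorem lift_beta' (hS : Plan.IsSetup A F O ρ) (hq : q.Prime) (hTF : 4 ∣ M ∨ 9 ∣ M)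
    (hA : A.LiesOverPrime q) (hqq : q * q ∣ N) {Cqq : Divisor Kbar (FN N)}
    (hCqq : S34.Plan.IsPoleJq N (q * q) hqq Cqq) :
    ∃ m₀ : ℕ, ∀ m : ℕ, m₀ ≤ m → ∀ a : Omk A, a ∈ WJ (kk A) (Fk A M) m →
      ∃ g : O, (g : Om) ∈ pullRR N (M * q * q) (m • Cqq) ∧ ρ g .zero = a := by
  obtain ⟨m₀, hm₀⟩ := lift_beta hS hq hTF hA hqq
  refine ⟨m₀, fun m hm a ha => ?_⟩
  obtain ⟨g, h1, -, h3, -⟩ := hm₀ Cqq hCqq m hm a ha
  exact ⟨g, h1, h3⟩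

end Lift

end Fermat.Agent.S36.CuspLift

end
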