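import Mathlib
import Fermat.Agent.S36.K0Plan
import Fermat.Agent.S36.CuspLift
import Fermat.Agent.S36.K0Red
import Fermat.Agent.S36.LevelRed
import Fermat.Agent.S34.GalPull
import Fermat.Agent.S34.BKPlan
import Fermat.Agent.S34.RRExact
import Fermat.Agent.S34.PlanTop
import Fermat.Agent.S18.SurjFree
import Fermat.Agent.S18.Red
import Fermat.Agent.S34.FkFrob
import Fermat.Agent.S34.Sigma

/-!
# S36 (P8) — [K0-SURJ]: `K₀`-rational lifts through the coordinates of the level-`q²` frame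
(helper89)

Provider of `K0Plan.SurjStmt` (contract (4) of `S36/K0Plan`) and of the two-coordinate form
(`diagStmt`) consumed by the twist junction.

* `exists_fixed_level_lift` : for `m` large every `a ∈ WJ m` (good level `M`) is the reduction of
  an INERTIA-FIXED element of `L_{F_M}(m (j)_∞) ∩ Ocal`;
* `exists_alpha` : every `d ∈ B_κ` is `ρ b ∞ = ρ b (mid ξ)` for some `b ∈ B'`, with
  `ρ b 0 = d(T^{q²})`;
* `exists_beta`  : every `d ∈ B_κ` is `ρ b 0 = ρ b (mid ξ)` for some `b ∈ B'`, with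
  `ρ b ∞ = d(T^{q²})`;
* `surjStmt` : `K0Plan.SurjStmt`;
* `qExpand_mem_BK` : `B_κ` is stable under `T ↦ T^q`;
* `diagStmt` : `(d, d, *) ∈ A₃` and `(*, d, d) ∈ A₃` for every `d ∈ B_κ`.
-/

set_option autoImplicit false

noncomputable section

namespace Fermat.Agent.S36.SurjK0

open ModularCurve AlgebraicCurve Fermat.Agent.S24 Fermat.Agent.S18.Content Fermat.Agent.S18.Plan
  Fermat.Agent.S18 Fermat.Agent.S34

set_option synthInstance.maxHeartbeats 400000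

variable {A : ValuationSubring Kbar} {M q : ℕ} [NeZero M] [NeZero q] {h : Nat.Coprime M q}
variable {F : Plan.Frame M q h} {O : Subring Om} {ρ : O →+* Plan.Rq A q}

omit [NeZero q] in
/-- **The `K₀`-rational level-`M` lift**: for `m` large every `a ∈ WJ m` is the reduction of an
inertia-fixed element of `L_{F_M}(m (j)_∞) ∩ Ocal`. -/
theorem exists_fixed_level_lift (hq : q.Prime) (hA : A.LiesOverPrime q) (hTF : 4 ∣ M ∨ 9 ∣ M)
    (hqM : ¬ q ∣ M) :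
    ∃ m₀ : ℕ, ∀ m, m₀ ≤ m → ∀ CpM : Divisor Kbar (FN M),
      (∀ P, CpM P = max 0 (-(P.ord (jBar M)))) → ∀ a ∈ WJ (kk A) (Fk A M) m,
        ∃ (g : FN M) (hg : (g : Om) ∈ Ocal A), g ∈ riemannRochSpace (m • CpM) ∧
          K0Red.Fixed A (g : Om) ∧ red A ⟨_, hg⟩ = a := by
  have : Fact q.Prime := ⟨hq⟩
  obtain ⟨c₀, hc₀⟩ := SurjFree.exists_lift_of_mem_WJ M q hqM hTF A hA
  refine ⟨c₀, fun m hm CpM hCpM a ha => ?_⟩
  obtain ⟨g₁, hg₁O, hg₁L, hg₁red⟩ := hc₀ m hm CpM hCpM a ha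
  have hfin : Module.Finite Kbar (pullRR M M (m • CpM)) := RRExact.finite_pullRR_self M _
  have hg₁W : (g₁ : Om) ∈ pullRR M M (m • CpM) :=
    PullPlan.coe_mem_pullRR (le_refl (modularFunctionFieldBar M)) hg₁L
  have hstab : ∀ τ ∈ A.inertiaSubgroupIn ℚ, ∀ w ∈ pullRR M M (m • CpM),
      coeffMap (τ : Kbar →+* Kbar) w ∈ pullRR M M (m • CpM) := by
    intro τ _ w hw
    have h1 := GalPull.coeffMap_mem_pullRR (N' := M) τ hw
    have h2 : GalPull.gQ M τ • (m • CpM) = m • CpM := by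
      rw [smul_comm, GalPull.smul_poleDivisor (GalPull.gQ M τ) (GalPull.gQ_smul_jBar τ) CpM hCpM]
    rwa [h2] at h1
  obtain ⟨y₀, hy₀W, hy₀fix, hy₀red⟩ :=
    K0Red.exists_fixed_red_eq_of_redStmt hq hA M (Red.redStmt M q hqM A hA)
      (pullRR M M (m • CpM)) (fun w hw => hw.1) hstab ⟨(g₁ : Om), hg₁O⟩ hg₁W
  rw [RRExact.pullRR_self] at hy₀W
  obtain ⟨g, hgL, hgy⟩ := hy₀W
  have hgy' : (g : Om) = (y₀ : Om) := hgy
  refine ⟨g, hgy' ▸ y₀.2, hgL, hgy' ▸ hy₀fix, ?_⟩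
  rw [← hg₁red, ← hy₀red]
  exact red_congr A hgy' _ _

/-- **The `α`-lift in `B'`**: every `d ∈ B_κ` is `ρ b ∞ = ρ b (mid ξ)` for some `b ∈ B'`, and then
`ρ b 0 = d(T^{q²})`. -/
theorem exists_alpha (hq : q.Prime) (hA : A.LiesOverPrime q) (hTF : 4 ∣ M ∨ 9 ∣ M)
    (hS : Plan.IsSetup A F O ρ) (N' : ℕ) [NeZero N'] (hq' : q ∣ N') (hN : N' * q ∣ M * q * q)
    (E : Divisor Kbar (FN (N' * q)))
    (hE : Plan.IsE3 (N' * q) q (Dvd.intro_left N' rfl) (Nat.mul_dvd_mul_right hq' q) E)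
    (d : ↥(K0Plan.BKM A M)) :
    ∃ b ∈ K0Plan.Bp A N' M q O E, ρ b .inf = (d : Omk A) ∧
      ρ b .zero = qExpand (kk A) (q * q) (d : Omk A) ∧ ∀ ξ, ρ b (.mid ξ) = (d : Omk A) := by
  have hqM : ¬ q ∣ M := (Nat.Prime.coprime_iff_not_dvd hq).mp h.symm
  obtain ⟨m₀, hm₀⟩ := exists_fixed_level_lift (A := A) hq hA hTF hqM
  obtain ⟨m₁, hm₁⟩ := BKPlan.exists_WJ_of_mem_planBK d.2
  obtain ⟨CpM, hCpM, -⟩ := Char0.exists_poleDivisor_jBar M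
  obtain ⟨Cj, hCj⟩ := PlanTop.exists_isPoleJ (N' * q)
  have hm : (d : Omk A) ∈ WJ (kk A) (Fk A M) (max m₁ m₀) :=
    WJCalc.WJ_mono (le_max_left _ _) hm₁
  obtain ⟨g, hgO, hgL, hgfix, hgred⟩ := hm₀ _ (le_max_right _ _) CpM hCpM _ hm
  obtain ⟨hO, r1, r2, r3⟩ := CuspLift.rho_level hS g hgO
  have h1 : (g : Om) ∈ pullRR (N' * q) (M * q * q) ((max m₁ m₀) • Cj) :=
    PullWJ.coe_mem_pullRR_level M (N' * q) (M * q * q) ⟨q * q, by ring⟩ hN _ CpM hCpM Cj hCj hgL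
  refine ⟨⟨_, hO⟩, ⟨fun τ hτ => hgfix τ hτ, max m₁ m₀, ?_⟩, ?_, ?_, ?_⟩
  · refine Main.pullRR_mono (fun P => ?_) h1
    rw [zero_add, Finsupp.smul_apply, Finsupp.smul_apply, hCj P, hE P]
    have e1 := le_max_left (0 : ℤ) (-(P.ord (jBarLevel (N' * q) q (Dvd.intro_left N' rfl))))
    have e2 := le_max_left (0 : ℤ)
      (-(P.ord (jBarLevel (N' * q) (q * q) (Nat.mul_dvd_mul_right hq' q))))
    exact nsmul_le_nsmul_right (by linarith) _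
  · rw [r1, hgred]
  · rw [r2, hgred]
  · intro ξ
    rw [r3 ξ, hgred]

/-- **The `β`-lift in `B'`**: every `d ∈ B_κ` is `ρ b 0 = ρ b (mid ξ)` for some `b ∈ B'`, and then
`ρ b ∞ = d(T^{q²})`. -/
theorem exists_beta (hq : q.Prime) (hA : A.LiesOverPrime q) (hTF : 4 ∣ M ∨ 9 ∣ M)
    (hS : Plan.IsSetup A F O ρ) (N' : ℕ) [NeZero N'] (hq' : q ∣ N')
    (E : Divisor Kbar (FN (N' * q)))
    (hE : Plan.IsE3 (N' * q) q (Dvd.intro_left N' rfl) (Nat.mul_dvd_mul_right hq' q) E)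
    (d : ↥(K0Plan.BKM A M)) :
    ∃ b ∈ K0Plan.Bp A N' M q O E, ρ b .inf = qExpand (kk A) (q * q) (d : Omk A) ∧
      ρ b .zero = (d : Omk A) ∧ ∀ ξ, ρ b (.mid ξ) = (d : Omk A) := by
  have hqM : ¬ q ∣ M := (Nat.Prime.coprime_iff_not_dvd hq).mp h.symm
  obtain ⟨m₀, hm₀⟩ := exists_fixed_level_lift (A := A) hq hA hTF hqM
  obtain ⟨m₁, hm₁⟩ := BKPlan.exists_WJ_of_mem_planBK d.2
  obtain ⟨CpM, hCpM, -⟩ := Char0.exists_poleDivisor_jBar M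
  obtain ⟨Cqq, hCqq⟩ := PlanTop.exists_isPoleJq (N' * q) (q * q) (Nat.mul_dvd_mul_right hq' q)
  have hm : (d : Omk A) ∈ WJ (kk A) (Fk A M) (max m₁ m₀) :=
    WJCalc.WJ_mono (le_max_left _ _) hm₁
  obtain ⟨g, hgO, hgL, hgfix, hgred⟩ := hm₀ _ (le_max_right _ _) CpM hCpM _ hm
  obtain ⟨hO, r1, r2, r3⟩ := CuspLift.rho_level_beta hS hq hA g hgO
  have h1 : qExpand Kbar (q * q) (g : Om) ∈ pullRR (N' * q) (M * (q * q)) ((max m₁ m₀) • Cqq) :=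
    PullWJ.qExpand_mem_pullRR M (q * q) (N' * q) (Nat.mul_dvd_mul_right hq' q) _ CpM hCpM Cqq hCqq
      hgL
  rw [← Nat.mul_assoc] at h1
  refine ⟨⟨_, hO⟩, ⟨fun τ hτ => ?_, max m₁ m₀, ?_⟩, ?_, ?_, ?_⟩
  · show coeffMap (τ : Kbar →+* Kbar) (qExpand Kbar (q * q) (g : Om)) = _
    rw [coeffMap_qExpand, hgfix τ hτ]
  · refine Main.pullRR_mono (fun P => ?_) h1
    rw [zero_add, Finsupp.smul_apply, Finsupp.smul_apply, hCqq P, hE P]
    have e1 := le_max_left (0 : ℤ) (-(P.ord (jBarLevel (N' * q) q (Dvd.intro_left N' rfl))))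
    have e2 := le_max_left (0 : ℤ) (-(P.ord (jBar (N' * q))))
    exact nsmul_le_nsmul_right (by linarith) _
  · rw [r1, hgred]
  · rw [r2, hgred]
  · intro ξ
    rw [r3 ξ, hgred]

/-- **[K0-SURJ]** = `K0Plan.SurjStmt` (contract (4)): each of the three coordinates of `ρ₃` maps
`B'` onto `B_κ`. -/
theorem surjStmt (hq : q.Prime) (hA : A.LiesOverPrime q) (hTF : 4 ∣ M ∨ 9 ∣ M)
    (hS : Plan.IsSetup A F O ρ) (N' : ℕ) [NeZero N'] (hq' : q ∣ N') (hN : N' * q ∣ M * q * q)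
    (ξ₀ : Plan.MidIdx q) (E : Divisor Kbar (FN (N' * q)))
    (hE : Plan.IsE3 (N' * q) q (Dvd.intro_left N' rfl) (Nat.mul_dvd_mul_right hq' q) E) :
    K0Plan.SurjStmt A N' M q O ρ ξ₀ E := by
  intro d
  obtain ⟨b, hb, r1, -, r3⟩ := exists_alpha hq hA hTF hS N' hq' hN E hE d
  obtain ⟨b', hb', -, r2', -⟩ := exists_beta hq hA hTF hS N' hq' E hE d
  exact ⟨⟨b, hb, r1⟩, ⟨b, hb, r3 ξ₀⟩, ⟨b', hb', r2'⟩⟩

/-! ### `B_κ` is stable under `T ↦ T^q` -/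

section Frob

variable (κ : Type) [Field κ]

theorem qExpand_mem_polyJ (n : ℕ) [NeZero n] (hj : qExpand κ n (jqModC κ) ∈ polyJ κ)
    {a : LaurentSeries κ} (ha : a ∈ polyJ κ) : qExpand κ n a ∈ polyJ κ := by
  have h1 : (polyJ κ).map (qExpandAlgHomC κ n) ≤ polyJ κ := by
    rw [polyJ, AlgHom.map_adjoin, Set.image_singleton]
    exact Algebra.adjoin_le (Set.singleton_subset_iff.2 hj)
  exact h1 ⟨a, ha, rfl⟩

/-- `T ↦ T^n` preserves integrality over `κ[j̄]` when `j̄(T^n) ∈ κ[j̄]`. -/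
theorem isIntegral_polyJ_qExpand (n : ℕ) [NeZero n] (hj : qExpand κ n (jqModC κ) ∈ polyJ κ)
    {y : LaurentSeries κ} (hy : IsIntegral (polyJ κ) y) : IsIntegral (polyJ κ) (qExpand κ n y) :=
  IsIntegral.map_of_comp_eq
    (RingHom.codRestrict ((qExpand κ n).comp (polyJ κ).val.toRingHom) (polyJ κ)
      (fun x => qExpand_mem_polyJ κ n hj x.2))
    (qExpand κ n) (by ext x; rfl) hy

end Frob

omit [NeZero M] in
/-- `B_κ` is stable under `T ↦ T^q`. -/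
theorem qExpand_mem_BK (hq : q.Prime) (hA : A.LiesOverPrime q) {a : Omk A}
    (ha : a ∈ S34.Plan.BK A M) : qExpand (kk A) q a ∈ S34.Plan.BK A M := by
  have : Fact q.Prime := ⟨hq⟩
  have : CharP (kk A) q := charP_residueField_of_liesOverPrime A q hA
  rw [BKPlan.mem_planBK] at ha ⊢
  refine ⟨FkFrob.qExpand_mem_Fk A q M hq hA a ha.1, isIntegral_polyJ_qExpand (kk A) q ?_ ha.2⟩
  rw [Sigma.qExpand_jqModC (kk A) hq]
  exact pow_mem (Algebra.subset_adjoin (Set.mem_singleton _)) q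

omit [NeZero M] in
/-- `B_κ` is stable under `T ↦ T^{q²}`. -/
theorem qExpand_sq_mem_BK (hq : q.Prime) (hA : A.LiesOverPrime q) {a : Omk A}
    (ha : a ∈ S34.Plan.BK A M) : qExpand (kk A) (q * q) a ∈ S34.Plan.BK A M := by
  rw [← qExpand_qExpand q q]
  exact qExpand_mem_BK hq hA (qExpand_mem_BK hq hA ha)

/-- **[K0-DIAG]**: two coordinates of `A₃` simultaneously: for every `d ∈ B_κ`,
`(d, d, d(T^{q²})) ∈ A₃` and `(d(T^{q²}), d, d) ∈ A₃`. -/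
theorem diag_mem (hq : q.Prime) (hA : A.LiesOverPrime q) (hTF : 4 ∣ M ∨ 9 ∣ M)
    (hS : Plan.IsSetup A F O ρ) (N' : ℕ) [NeZero N'] (hq' : q ∣ N') (hN : N' * q ∣ M * q * q)
    (ξ₀ : Plan.MidIdx q) (E : Divisor Kbar (FN (N' * q)))
    (hE : Plan.IsE3 (N' * q) q (Dvd.intro_left N' rfl) (Nat.mul_dvd_mul_right hq' q) E)
    (d : ↥(K0Plan.BKM A M)) :
    ((d, d, ⟨_, qExpand_sq_mem_BK hq hA d.2⟩) : K0Plan.BK3 A M) ∈ K0Plan.A3 A N' M q O ρ E ξ₀ ∧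
    ((⟨_, qExpand_sq_mem_BK hq hA d.2⟩, d, d) : K0Plan.BK3 A M) ∈ K0Plan.A3 A N' M q O ρ E ξ₀ := by
  obtain ⟨b, hb, r1, r2, r3⟩ := exists_alpha hq hA hTF hS N' hq' hN E hE d
  obtain ⟨b', hb', r1', r2', r3'⟩ := exists_beta hq hA hTF hS N' hq' E hE d
  refine ⟨⟨b, hb, ?_⟩, ⟨b', hb', ?_⟩⟩
  · refine Prod.ext ?_ (Prod.ext ?_ ?_)
    · exact r1
    · exact r3 ξ₀
    · exact r2
  · refine Prod.ext ?_ (Prod.ext ?_ ?_)
    · exact r1'
    · exact r3' ξ₀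
    · exact r2'

/-- **[K0-DIAG]** in the shape of the twist junction's `DiagStmt`. -/
theorem diagStmt (hq : q.Prime) (hA : A.LiesOverPrime q) (hTF : 4 ∣ M ∨ 9 ∣ M)
    (hS : Plan.IsSetup A F O ρ) (N' : ℕ) [NeZero N'] (hq' : q ∣ N') (hN : N' * q ∣ M * q * q)
    (ξ₀ : Plan.MidIdx q) (E : Divisor Kbar (FN (N' * q)))
    (hE : Plan.IsE3 (N' * q) q (Dvd.intro_left N' rfl) (Nat.mul_dvd_mul_right hq' q) E) :
    ∀ d : ↥(K0Plan.BKM A M),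
      (∃ t ∈ K0Plan.A3 A N' M q O ρ E ξ₀, t.1 = d ∧ t.2.1 = d) ∧
      (∃ t ∈ K0Plan.A3 A N' M q O ρ E ξ₀, t.2.1 = d ∧ t.2.2 = d) := by
  intro d
  obtain ⟨h1, h2⟩ := diag_mem hq hA hTF hS N' hq' hN ξ₀ E hE d
  exact ⟨⟨_, h1, rfl, rfl⟩, ⟨_, h2, rfl, rfl⟩⟩

end Fermat.Agent.S36.SurjK0

end
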