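import Mathlib
import Fermat.Agent.S36.OneAllOf
import Fermat.Agent.S36.SurjK0

/-!
# S36 (P8) — [K0-SURJ] at all levels (helper89)

`surjAllStmt : OneAllOf.SurjAllStmt` — the all-level form of `K0Plan.SurjStmt`
(`SurjK0.surjStmt`), with the level arithmetic discharged; `diag_all` is the all-level form of
`SurjK0.diag_mem`.
-/

set_option autoImplicit false

noncomputable section

namespace Fermat.Agent.S36.SurjAll

open ModularCurve AlgebraicCurve Fermat.Agent.S24 Fermat.Agent.S18 Fermat.Agent.S18.Content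
  Fermat.Agent.S18.Plan Fermat.Agent.S34 Fermat.Agent.S36.Plan

/-- The good level `M = aux q * N₀` is divisible by `4` or by `9`. -/
theorem four_or_nine_dvd {N₀ M q : ℕ} (hM : M = S34.Plan.aux q * N₀) : 4 ∣ M ∨ 9 ∣ M := by
  by_cases h2 : q = 2
  · right
    refine ⟨N₀, ?_⟩
    rw [hM, S34.Plan.aux, if_pos h2]
  · left
    refine ⟨N₀, ?_⟩
    rw [hM, S34.Plan.aux, if_neg h2]

/-- The divisor level `N' * q` divides the top level `M * q * q`. -/
theorem divisor_level_dvd {N₀ N' M q : ℕ} (hN' : N' = N₀ * q) (hM : M = S34.Plan.aux q * N₀) :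
    N' * q ∣ M * q * q :=
  ⟨S34.Plan.aux q, by rw [hN', hM]; ring⟩

/-- **[K0-SURJ] at all levels.** -/
theorem surjAllStmt : OneAllOf.SurjAllStmt := by
  intro N₀ N' M q _ _ _ hq' h hqp _ hN' hM A hA F O ρ hS ξ₀ E hE
  exact SurjK0.surjStmt hqp hA (four_or_nine_dvd hM) hS N' hq' (divisor_level_dvd hN' hM) ξ₀ E hE

/-- **[K0-DIAG] at all levels**: `(d, d, d(T^{q²})) ∈ A₃` and `(d(T^{q²}), d, d) ∈ A₃`. -/
theorem diag_all (N₀ N' M q : ℕ) [NeZero N'] [NeZero M] [NeZero q] (hq' : q ∣ N')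
    (h : Nat.Coprime M q) (hqp : q.Prime) (hN' : N' = N₀ * q) (hM : M = S34.Plan.aux q * N₀)
    (A : ValuationSubring Kbar) (hA : A.LiesOverPrime q) (F : Frame M q h) (O : Subring Om)
    (ρ : O →+* Rq A q) (hS : IsSetup A F O ρ) (ξ₀ : MidIdx q) (E : Divisor Kbar (FN (N' * q)))
    (hE : IsE3 (N' * q) q (Dvd.intro_left N' rfl) (Nat.mul_dvd_mul_right hq' q) E) :
    ∀ d : ↥(K0Plan.BKM A M),
      (∃ t ∈ K0Plan.A3 A N' M q O ρ E ξ₀, t.1 = d ∧ t.2.1 = d) ∧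
      (∃ t ∈ K0Plan.A3 A N' M q O ρ E ξ₀, t.2.1 = d ∧ t.2.2 = d) :=
  SurjK0.diagStmt hqp hA (four_or_nine_dvd hM) hS N' hq' (divisor_level_dvd hN' hM) ξ₀ E hE

end Fermat.Agent.S36.SurjAll

end
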