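import Mathlib
import Fermat.Agent.S36.CondK0Inst
import Fermat.Agent.S36.OneAllOf
import Fermat.Agent.S36.SurjAll

/-!
# S36 / P8 — [MID-EQ] and [COND-K'] at all levels (helper70)

* `midEqAllStmt`   : `OneAllOf.MidEqAllStmt`, unconditional (from `CondK0.midEqStmt`);
* `condAllStmt_of` : `OneAllOf.CondAllStmt` from `OneAllOf.SurjAllStmt` (from
  `CondK0Inst.condStmt`; the level hypothesis `F_{N'q} ≤ F_{Mq²}` is derived from
  `N' = N₀ q`, `M = aux q · N₀`);
* `condAllStmt`    : `OneAllOf.CondAllStmt`, unconditional (with `SurjAll.surjAllStmt`).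
-/

set_option autoImplicit false

noncomputable section

namespace Fermat.Agent.S36.CondK0All

open ModularCurve Fermat.Agent.S18

/-- **[MID-EQ] at all levels.** -/
theorem midEqAllStmt : OneAllOf.MidEqAllStmt :=
  fun _ _ _ _ _ _ _ _ _ hqp _ _ _ _ hA _ _ _ hS => CondK0.midEqStmt hqp hA hS

/-- `N' = N₀ q`, `M = c N₀` give `N' ∣ M q`. -/
theorem dvd_of_levels {N₀ N' M q c : ℕ} (hN' : N' = N₀ * q) (hM : M = c * N₀) : N' ∣ M * q :=
  ⟨c, by rw [hN', hM]; ring⟩

/-- **[COND-K'] at all levels**, from [K0-SURJ] at all levels. -/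
theorem condAllStmt_of (hSurj : OneAllOf.SurjAllStmt) : OneAllOf.CondAllStmt := by
  intro N₀ N' M q _ _ _ hq' h hqp hcop hN' hM A hA F O ρ hS ξ₀ E hE
  exact CondK0Inst.condStmt hqp hA hS hq'
    (RR0.modularFunctionFieldBar_le (Nat.mul_dvd_mul_right (dvd_of_levels hN' hM) q)) ξ₀ E hE
    (hSurj N₀ N' M q hq' h hqp hcop hN' hM A hA F O ρ hS ξ₀ E hE)

/-- **[COND-K'] at all levels.** -/
theorem condAllStmt : OneAllOf.CondAllStmt := condAllStmt_of SurjAll.surjAllStmt

end Fermat.Agent.S36.CondK0All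

end
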