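import Mathlib
import Fermat.Agent.S34.CuspRegInst
import Fermat.Agent.S34.PullWJ
import Fermat.Agent.S36.Plan

/-!
# S36 (P8) — [CR-FAM-q²]: the explicit families of cusp regularity at level `q²` (helper60)

Characteristic-zero side of `[CR-q²-INST]`: the three families of elements of `L(cE) ∩ O`
(`E = (j)_∞ + (j_q)_∞ + (j_{q²})_∞` on `F_N`, `q * q ∣ N ∣ M * q * q`) whose reductions are
concentrated in one coordinate type of the frame `Plan.Coord q = {∞, 0, mid ξ}`: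

* `fam_inf`  : `F = z_I · g_a · j_q^c · j_{q²}^(c - q²)`,  `z_I = (j - j_{q²}^{q²}) (j - j_{q²})`,
  `ρ F = (ω_I · a; 0; 0)`;
* `fam_zero` : `F = z_0 · g'_a · j_q^c · j^(c - q²)`,      `z_0 = (j_{q²} - j^{q²}) (j_{q²} - j)`,
  `ρ F = (0; ω_I · a; 0)`;
* `fam_mid`  : `F = y_m · g_a · j_q^(c+1) · j_{q²}^(c - q² - m)`, `y_m = κ · z_M · (j - j_{q²})^m`,
  `z_M = (j_{q²} - j^{q²}) (j - j_{q²}^{q²})`, `ρ F = (0; 0; ((t_ξ Θ)^m · ω_M · a)_ξ)`,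

with `ω_I = (j̄ - j̄^(q⁴)) (j̄ - j̄^(q²)) j̄^(q c + q² (c - q²))` and
`ω_M = (j̄ - j̄^(q²))² j̄^(q (c + 1) + (c - q² - m))`.

Hypothesis form over the frame of `S36/Plan.lean`: the inputs are the coordinates of
`ρ(j)`, `ρ(j_q)`, `ρ(j_{q²})`, the pole chain `(j_q)_∞ ≤ q (j)_∞`, `(j)_∞ ≤ q (j_q)_∞`,
`(j_q)_∞ ≤ q (j_{q²})_∞`, `(j_{q²})_∞ ≤ q (j_q)_∞`, the lifts `g_a`, `g'_a` of
`a ∈ WJ m` with poles bounded by `m (j)_∞`, resp. `m (j_{q²})_∞`, and the integrality and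
reduction of `y_m`.  The pole bookkeeping (`F ∈ L(cE)`) is done here; for the middle family it
is the pointwise inequality `m · max x z + y ≤ q x + m z` (`budget_mid`).
-/

set_option autoImplicit false

noncomputable section

namespace Fermat.Agent.S36.CuspFam

open ModularCurve AlgebraicCurve Fermat.Agent.S24 Fermat.Agent.S18.Content Fermat.Agent.S18.Plan
  Fermat.Agent.S18

/-! ## Pointwise arithmetic -/

/-- The pole budget of the middle family. -/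
theorem budget_mid {q m : ℕ} {x y z : ℤ} (hm : m ≤ q) (hz : 0 ≤ z)
    (hyx : y ≤ q * x) (hyz : y ≤ q * z) : (m : ℤ) * max x z + y ≤ q * x + m * z := by
  have hmq : (m : ℤ) ≤ (q : ℤ) := by exact_mod_cast hm
  rcases le_total x z with h | h
  · rw [max_eq_right h]
    linarith
  · rw [max_eq_left h]
    have h1 : ((q : ℤ) - m) * z ≤ ((q : ℤ) - m) * x :=
      mul_le_mul_of_nonneg_left h (by linarith)
    nlinarith

/-- `(y)_∞ ≤ q (x)_∞` from the `min`-form of the Kronecker inequality. -/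
theorem pole_le_of_ord {N : ℕ} (q : ℕ) {x y : FN N} {Cx Cy : Divisor Kbar (FN N)}
    (hCx : ∀ P, Cx P = max 0 (-(P.ord x))) (hCy : ∀ P, Cy P = max 0 (-(P.ord y)))
    (h : ∀ P : Place Kbar (FN N), (q : ℤ) * min 0 (P.ord x) ≤ P.ord y) :
    ∀ P, Cy P ≤ q * Cx P := by
  intro P
  have h1 := h P
  have hq0 : (0 : ℤ) ≤ (q : ℤ) := Nat.cast_nonneg q
  rw [hCx P, hCy P]
  rcases le_total 0 (P.ord x) with hx | hx
  · rw [min_eq_left hx, mul_zero] at h1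
    rw [max_eq_left (by omega), max_eq_left (by omega)]
    simp
  · rw [min_eq_right hx] at h1
    rw [max_eq_right (a := (0 : ℤ)) (b := -(P.ord x)) (by omega)]
    apply max_le
    · exact mul_nonneg hq0 (by omega)
    · linarith

/-! ## Basic memberships -/

section Base

variable {N Mt : ℕ} [NeZero N]

theorem nsmul_div_apply (c : ℕ) (B : Divisor Kbar (FN N)) (P : Place Kbar (FN N)) :
    (c • B) P = (c : ℤ) * B P := by
  rw [Finsupp.smul_apply, nsmul_eq_mul]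

theorem jK_mem_pullRR (hle : modularFunctionFieldBar N ≤ modularFunctionFieldBar Mt)
    {Cj : Divisor Kbar (FN N)} (hCj : S34.Plan.IsPoleJ N Cj) :
    (jK : Om) ∈ pullRR N Mt Cj := by
  rw [← Main.coe_jBar N]
  refine S34.CuspReg.coe_mem_pullRR_of_pole hle (Main.jBar_ne_zero N) fun P => ?_
  rw [hCj P]
  exact le_max_right _ _

theorem jLevel_mem_pullRR (hle : modularFunctionFieldBar N ≤ modularFunctionFieldBar Mt)
    (d : ℕ) [NeZero d] (hd : d ∣ N) {Cd : Divisor Kbar (FN N)}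
    (hCd : S34.Plan.IsPoleJq N d hd Cd) :
    (qExpand Kbar d jK : Om) ∈ pullRR N Mt Cd := by
  rw [← S34.CuspReg.coe_jBarLevel_eq (hqN := hd)]
  refine S34.CuspReg.coe_mem_pullRR_of_pole hle (S34.PullWJ.jBarLevel_ne_zero d N hd) fun P => ?_
  rw [hCd P]
  exact le_max_right _ _

end Base

/-! ## The three families -/

section Fam

variable {A : ValuationSubring Kbar} {N M q : ℕ} [NeZero N] [NeZero M] [NeZero q]
variable {hq : q ∣ N} {hqq : q * q ∣ N}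
variable {O : Subring Om} {ρ : O →+* Plan.Rq A q}

/-- The pole data of `j`, `j_q`, `j_{q²}` on `F_N`: the three pole divisors, `E` their sum, and
the chain inequalities. -/
structure PoleData (N q : ℕ) [NeZero N] [NeZero q] (hq : q ∣ N) (hqq : q * q ∣ N)
    (E Cj Cq Cqq : Divisor Kbar (FN N)) : Prop where
  isE : Plan.IsE3 N q hq hqq E
  isJ : S34.Plan.IsPoleJ N Cj
  isJq : S34.Plan.IsPoleJq N q hq Cq
  isJqq : S34.Plan.IsPoleJq N (q * q) hqq Cqq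
  jq_le_j : ∀ P, Cq P ≤ q * Cj P
  j_le_jq : ∀ P, Cj P ≤ q * Cq P
  jq_le_jqq : ∀ P, Cq P ≤ q * Cqq P
  jqq_le_jq : ∀ P, Cqq P ≤ q * Cq P

namespace PoleData

variable {E Cj Cq Cqq : Divisor Kbar (FN N)}

theorem E_apply (h : PoleData N q hq hqq E Cj Cq Cqq) (P : Place Kbar (FN N)) :
    E P = Cj P + Cq P + Cqq P := by
  rw [h.isE P, h.isJ P, h.isJq P, h.isJqq P]

theorem j_nonneg (h : PoleData N q hq hqq E Cj Cq Cqq) (P : Place Kbar (FN N)) : 0 ≤ Cj P := by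
  rw [h.isJ P]
  exact le_max_left _ _

theorem jq_nonneg (h : PoleData N q hq hqq E Cj Cq Cqq) (P : Place Kbar (FN N)) : 0 ≤ Cq P := by
  rw [h.isJq P]
  exact le_max_left _ _

theorem jqq_nonneg (h : PoleData N q hq hqq E Cj Cq Cqq) (P : Place Kbar (FN N)) :
    0 ≤ Cqq P := by
  rw [h.isJqq P]
  exact le_max_left _ _

theorem j_le_jqq (h : PoleData N q hq hqq E Cj Cq Cqq) (P : Place Kbar (FN N)) :
    Cj P ≤ ((q * q : ℕ) : ℤ) * Cqq P := by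
  have h1 := h.j_le_jq P
  have h2 := h.jq_le_jqq P
  have hq0 : (0 : ℤ) ≤ (q : ℤ) := Nat.cast_nonneg q
  have h3 : (q : ℤ) * Cq P ≤ (q : ℤ) * ((q : ℤ) * Cqq P) := mul_le_mul_of_nonneg_left h2 hq0
  push_cast
  nlinarith

theorem jqq_le_j (h : PoleData N q hq hqq E Cj Cq Cqq) (P : Place Kbar (FN N)) :
    Cqq P ≤ ((q * q : ℕ) : ℤ) * Cj P := by
  have h1 := h.jqq_le_jq P
  have h2 := h.jq_le_j P
  have hq0 : (0 : ℤ) ≤ (q : ℤ) := Nat.cast_nonneg q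
  have h3 : (q : ℤ) * Cq P ≤ (q : ℤ) * ((q : ℤ) * Cj P) := mul_le_mul_of_nonneg_left h2 hq0
  push_cast
  nlinarith

theorem le_sq_mul (h : PoleData N q hq hqq E Cj Cq Cqq) {x : ℤ} (hx : 0 ≤ x) :
    x ≤ ((q * q : ℕ) : ℤ) * x := by
  have h1 : (1 : ℤ) ≤ ((q * q : ℕ) : ℤ) := by
    have : 0 < q * q := Nat.mul_pos (Nat.pos_of_ne_zero (NeZero.ne q))
      (Nat.pos_of_ne_zero (NeZero.ne q))
    exact_mod_cast this
  nlinarith

section Mem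

variable {Mt : ℕ} (hle : modularFunctionFieldBar N ≤ modularFunctionFieldBar Mt)
include hle

/-- `j - j_{q²}^{q²} ∈ L(q² (j_{q²})_∞)`. -/
theorem sub_pow_mem₁ (h : PoleData N q hq hqq E Cj Cq Cqq) :
    (jK : Om) - qExpand Kbar (q * q) jK ^ (q * q) ∈ pullRR N Mt ((q * q) • Cqq) := by
  refine Submodule.sub_mem _ ?_ ?_
  · refine Main.pullRR_mono (fun P => ?_) (jK_mem_pullRR hle h.isJ)
    rw [nsmul_div_apply]
    exact h.j_le_jqq P
  · exact Main.pow_mem_pullRR (q * q) (fun P => nsmul_div_apply _ _ P)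
      (jLevel_mem_pullRR hle (q * q) hqq h.isJqq)

/-- `j_{q²} - j^{q²} ∈ L(q² (j)_∞)`. -/
theorem sub_pow_mem₂ (h : PoleData N q hq hqq E Cj Cq Cqq) :
    qExpand Kbar (q * q) jK - (jK : Om) ^ (q * q) ∈ pullRR N Mt ((q * q) • Cj) := by
  refine Submodule.sub_mem _ ?_ ?_
  · refine Main.pullRR_mono (fun P => ?_) (jLevel_mem_pullRR hle (q * q) hqq h.isJqq)
    rw [nsmul_div_apply]
    exact h.jqq_le_j P
  · exact Main.pow_mem_pullRR (q * q) (fun P => nsmul_div_apply _ _ P)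
      (jK_mem_pullRR hle h.isJ)

/-- `j - j_{q²} ∈ L(q² (j)_∞)`. -/
theorem sub_mem_j (h : PoleData N q hq hqq E Cj Cq Cqq) :
    (jK : Om) - qExpand Kbar (q * q) jK ∈ pullRR N Mt ((q * q) • Cj) := by
  refine Submodule.sub_mem _ ?_ ?_
  · refine Main.pullRR_mono (fun P => ?_) (jK_mem_pullRR hle h.isJ)
    rw [nsmul_div_apply]
    exact h.le_sq_mul (h.j_nonneg P)
  · refine Main.pullRR_mono (fun P => ?_) (jLevel_mem_pullRR hle (q * q) hqq h.isJqq)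
    rw [nsmul_div_apply]
    exact h.jqq_le_j P

/-- `j_{q²} - j ∈ L(q² (j_{q²})_∞)`. -/
theorem sub_mem_jqq (h : PoleData N q hq hqq E Cj Cq Cqq) :
    qExpand Kbar (q * q) jK - (jK : Om) ∈ pullRR N Mt ((q * q) • Cqq) := by
  refine Submodule.sub_mem _ ?_ ?_
  · refine Main.pullRR_mono (fun P => ?_) (jLevel_mem_pullRR hle (q * q) hqq h.isJqq)
    rw [nsmul_div_apply]
    exact h.le_sq_mul (h.jqq_nonneg P)
  · refine Main.pullRR_mono (fun P => ?_) (jK_mem_pullRR hle h.isJ)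
    rw [nsmul_div_apply]
    exact h.j_le_jqq P

/-- `j - j_{q²} ∈ L(max((j)_∞, (j_{q²})_∞))`. -/
theorem sub_mem_sup (h : PoleData N q hq hqq E Cj Cq Cqq) :
    (jK : Om) - qExpand Kbar (q * q) jK ∈ pullRR N Mt (Cj ⊔ Cqq) := by
  refine Submodule.sub_mem _ ?_ ?_
  · refine Main.pullRR_mono (fun P => ?_) (jK_mem_pullRR hle h.isJ)
    rw [Finsupp.sup_apply]
    exact le_sup_left
  · refine Main.pullRR_mono (fun P => ?_) (jLevel_mem_pullRR hle (q * q) hqq h.isJqq)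
    rw [Finsupp.sup_apply]
    exact le_sup_right

end Mem

end PoleData

variable {E Cj Cq Cqq : Divisor Kbar (FN N)}

/-- **The `∞`-family.** -/
theorem fam_inf (hN : N ∣ M * q * q) (hD : PoleData N q hq hqq E Cj Cq Cqq)
    (hρj : ∃ h : (jK : Om) ∈ O, ρ ⟨_, h⟩ .inf = jk A ∧ ρ ⟨_, h⟩ .zero = jk A ^ (q ^ 2) ∧
      ∀ ξ, ρ ⟨_, h⟩ (.mid ξ) = jk A)
    (hρjq : ∃ h : (qExpand Kbar q jK : Om) ∈ O, ∀ i, ρ ⟨_, h⟩ i = jk A ^ q)
    (hρj2 : ∃ h : (qExpand Kbar (q * q) jK : Om) ∈ O, ρ ⟨_, h⟩ .inf = jk A ^ (q ^ 2) ∧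
      ρ ⟨_, h⟩ .zero = jk A ∧ ∀ ξ, ρ ⟨_, h⟩ (.mid ξ) = jk A)
    (hLα : ∃ m₀ : ℕ, ∀ m : ℕ, m₀ ≤ m → ∀ a : Omk A, a ∈ WJ (kk A) (Fk A M) m →
      ∃ g : O, (g : Om) ∈ pullRR N (M * q * q) (m • Cj) ∧ ρ g .inf = a ∧
        ∀ ξ, ρ g (.mid ξ) = a) :
    ∃ c₁ : ℕ, ∀ c : ℕ, c₁ ≤ c → ∀ a : Omk A, a ∈ WJ (kk A) (Fk A M) (c - q ^ 2) →
      ∃ F : O, (F : Om) ∈ pullRR N (M * q * q) (c • E) ∧
        ρ F .inf = (jk A - jk A ^ (q ^ 4)) * (jk A - jk A ^ (q ^ 2))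
          * jk A ^ (q * c + q ^ 2 * (c - q ^ 2)) * a ∧
        ρ F .zero = 0 ∧ ∀ ξ, ρ F (.mid ξ) = 0 := by
  obtain ⟨hjO, hj1, hj2, hj3⟩ := hρj
  obtain ⟨hjqO, hjq⟩ := hρjq
  obtain ⟨hj2O, h21, h22, h23⟩ := hρj2
  obtain ⟨m₀, hL⟩ := hLα
  refine ⟨m₀ + q ^ 2, fun c hc a ha => ?_⟩
  have hcq : q ^ 2 ≤ c := le_trans (Nat.le_add_left _ _) hc
  obtain ⟨g, hg, hg1, hg3⟩ := hL (c - q ^ 2) (by omega) a ha
  have hle : modularFunctionFieldBar N ≤ modularFunctionFieldBar (M * q * q) :=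
    RR0.modularFunctionFieldBar_le hN
  refine ⟨((⟨_, hjO⟩ : O) - (⟨_, hj2O⟩ : O) ^ (q * q)) * ((⟨_, hjO⟩ : O) - (⟨_, hj2O⟩ : O)) * g
    * (⟨_, hjqO⟩ : O) ^ c * (⟨_, hj2O⟩ : O) ^ (c - q ^ 2), ?_, ?_, ?_, ?_⟩
  · show ((jK : Om) - qExpand Kbar (q * q) jK ^ (q * q)) * ((jK : Om) - qExpand Kbar (q * q) jK)
      * (g : Om) * qExpand Kbar q jK ^ c * qExpand Kbar (q * q) jK ^ (c - q ^ 2)
        ∈ pullRR N (M * q * q) (c • E)
    have hz : ((jK : Om) - qExpand Kbar (q * q) jK ^ (q * q))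
        * ((jK : Om) - qExpand Kbar (q * q) jK)
        ∈ pullRR N (M * q * q) ((q * q) • Cqq + (q * q) • Cj) :=
      S34.CuspReg.mul_mem_pullRR_add (fun P => (Finsupp.add_apply _ _ P).ge)
        (hD.sub_pow_mem₁ hle) (hD.sub_mem_j hle)
    have h3 := S34.CuspReg.mul_mem_pullRR_add
      (B := (q * q) • Cqq + (q * q) • Cj + (c - q ^ 2) • Cj)
      (fun P => (Finsupp.add_apply _ _ P).ge) hz hg
    have h4 := S34.CuspReg.mul_mem_pullRR_add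
      (B := (q * q) • Cqq + (q * q) • Cj + (c - q ^ 2) • Cj + c • Cq)
      (fun P => (Finsupp.add_apply _ _ P).ge) h3
      (Main.pow_mem_pullRR c (fun P => nsmul_div_apply c Cq P)
        (jLevel_mem_pullRR hle q hq hD.isJq))
    refine S34.CuspReg.mul_mem_pullRR_add (fun P => ?_) h4
      (Main.pow_mem_pullRR (c - q ^ 2) (fun P => nsmul_div_apply (c - q ^ 2) Cqq P)
        (jLevel_mem_pullRR hle (q * q) hqq hD.isJqq))
    simp only [Finsupp.add_apply, nsmul_div_apply]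
    rw [hD.E_apply P]
    have e : ((c - q ^ 2 : ℕ) : ℤ) = (c : ℤ) - (q : ℤ) ^ 2 := by
      push_cast [hcq]
      ring
    rw [e]
    push_cast
    apply le_of_eq
    ring
  · simp only [map_mul, map_sub, map_pow, Pi.mul_apply, Pi.sub_apply, Pi.pow_apply, hj1, h21, hjq,
      hg1]
    ring
  · simp only [map_mul, map_sub, map_pow, Pi.mul_apply, Pi.sub_apply, Pi.pow_apply, hj2, h22]
    ring
  · intro ξ
    simp only [map_mul, map_sub, map_pow, Pi.mul_apply, Pi.sub_apply, Pi.pow_apply, hj3, h23]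
    ring

/-- **The `0`-family.** -/
theorem fam_zero (hN : N ∣ M * q * q) (hD : PoleData N q hq hqq E Cj Cq Cqq)
    (hρj : ∃ h : (jK : Om) ∈ O, ρ ⟨_, h⟩ .inf = jk A ∧ ρ ⟨_, h⟩ .zero = jk A ^ (q ^ 2) ∧
      ∀ ξ, ρ ⟨_, h⟩ (.mid ξ) = jk A)
    (hρjq : ∃ h : (qExpand Kbar q jK : Om) ∈ O, ∀ i, ρ ⟨_, h⟩ i = jk A ^ q)
    (hρj2 : ∃ h : (qExpand Kbar (q * q) jK : Om) ∈ O, ρ ⟨_, h⟩ .inf = jk A ^ (q ^ 2) ∧
      ρ ⟨_, h⟩ .zero = jk A ∧ ∀ ξ, ρ ⟨_, h⟩ (.mid ξ) = jk A)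
    (hLβ : ∃ m₀ : ℕ, ∀ m : ℕ, m₀ ≤ m → ∀ a : Omk A, a ∈ WJ (kk A) (Fk A M) m →
      ∃ g : O, (g : Om) ∈ pullRR N (M * q * q) (m • Cqq) ∧ ρ g .zero = a) :
    ∃ c₁ : ℕ, ∀ c : ℕ, c₁ ≤ c → ∀ a : Omk A, a ∈ WJ (kk A) (Fk A M) (c - q ^ 2) →
      ∃ F : O, (F : Om) ∈ pullRR N (M * q * q) (c • E) ∧
        ρ F .inf = 0 ∧
        ρ F .zero = (jk A - jk A ^ (q ^ 4)) * (jk A - jk A ^ (q ^ 2))
          * jk A ^ (q * c + q ^ 2 * (c - q ^ 2)) * a ∧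
        ∀ ξ, ρ F (.mid ξ) = 0 := by
  obtain ⟨hjO, hj1, hj2, hj3⟩ := hρj
  obtain ⟨hjqO, hjq⟩ := hρjq
  obtain ⟨hj2O, h21, h22, h23⟩ := hρj2
  obtain ⟨m₀, hL⟩ := hLβ
  refine ⟨m₀ + q ^ 2, fun c hc a ha => ?_⟩
  have hcq : q ^ 2 ≤ c := le_trans (Nat.le_add_left _ _) hc
  obtain ⟨g, hg, hg2⟩ := hL (c - q ^ 2) (by omega) a ha
  have hle : modularFunctionFieldBar N ≤ modularFunctionFieldBar (M * q * q) :=
    RR0.modularFunctionFieldBar_le hN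
  refine ⟨((⟨_, hj2O⟩ : O) - (⟨_, hjO⟩ : O) ^ (q * q)) * ((⟨_, hj2O⟩ : O) - (⟨_, hjO⟩ : O)) * g
    * (⟨_, hjqO⟩ : O) ^ c * (⟨_, hjO⟩ : O) ^ (c - q ^ 2), ?_, ?_, ?_, ?_⟩
  · show (qExpand Kbar (q * q) jK - (jK : Om) ^ (q * q)) * (qExpand Kbar (q * q) jK - (jK : Om))
      * (g : Om) * qExpand Kbar q jK ^ c * (jK : Om) ^ (c - q ^ 2)
        ∈ pullRR N (M * q * q) (c • E)
    have hz : (qExpand Kbar (q * q) jK - (jK : Om) ^ (q * q))
        * (qExpand Kbar (q * q) jK - (jK : Om))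
        ∈ pullRR N (M * q * q) ((q * q) • Cj + (q * q) • Cqq) :=
      S34.CuspReg.mul_mem_pullRR_add (fun P => (Finsupp.add_apply _ _ P).ge)
        (hD.sub_pow_mem₂ hle) (hD.sub_mem_jqq hle)
    have h3 := S34.CuspReg.mul_mem_pullRR_add
      (B := (q * q) • Cj + (q * q) • Cqq + (c - q ^ 2) • Cqq)
      (fun P => (Finsupp.add_apply _ _ P).ge) hz hg
    have h4 := S34.CuspReg.mul_mem_pullRR_add
      (B := (q * q) • Cj + (q * q) • Cqq + (c - q ^ 2) • Cqq + c • Cq)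
      (fun P => (Finsupp.add_apply _ _ P).ge) h3
      (Main.pow_mem_pullRR c (fun P => nsmul_div_apply c Cq P)
        (jLevel_mem_pullRR hle q hq hD.isJq))
    refine S34.CuspReg.mul_mem_pullRR_add (fun P => ?_) h4
      (Main.pow_mem_pullRR (c - q ^ 2) (fun P => nsmul_div_apply (c - q ^ 2) Cj P)
        (jK_mem_pullRR hle hD.isJ))
    simp only [Finsupp.add_apply, nsmul_div_apply]
    rw [hD.E_apply P]
    have e : ((c - q ^ 2 : ℕ) : ℤ) = (c : ℤ) - (q : ℤ) ^ 2 := by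
      push_cast [hcq]
      ring
    rw [e]
    push_cast
    apply le_of_eq
    ring
  · simp only [map_mul, map_sub, map_pow, Pi.mul_apply, Pi.sub_apply, Pi.pow_apply, hj1, h21]
    ring
  · simp only [map_mul, map_sub, map_pow, Pi.mul_apply, Pi.sub_apply, Pi.pow_apply, hj2, h22, hjq,
      hg2]
    ring
  · intro ξ
    simp only [map_mul, map_sub, map_pow, Pi.mul_apply, Pi.sub_apply, Pi.pow_apply, hj3, h23]
    ring

/-- **The middle families**, `m ≤ q - 2`. -/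
theorem fam_mid (hN : N ∣ M * q * q) (hD : PoleData N q hq hqq E Cj Cq Cqq)
    (hρjq : ∃ h : (qExpand Kbar q jK : Om) ∈ O, ∀ i, ρ ⟨_, h⟩ i = jk A ^ q)
    (hρj2 : ∃ h : (qExpand Kbar (q * q) jK : Om) ∈ O, ρ ⟨_, h⟩ .inf = jk A ^ (q ^ 2) ∧
      ρ ⟨_, h⟩ .zero = jk A ∧ ∀ ξ, ρ ⟨_, h⟩ (.mid ξ) = jk A)
    (hLα : ∃ m₀ : ℕ, ∀ m : ℕ, m₀ ≤ m → ∀ a : Omk A, a ∈ WJ (kk A) (Fk A M) m →
      ∃ g : O, (g : Om) ∈ pullRR N (M * q * q) (m • Cj) ∧ ρ g .inf = a ∧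
        ∀ ξ, ρ g (.mid ξ) = a)
    (Θ : Omk A) (t : Plan.MidIdx q → kk A)
    (hZW : ∀ m : ℕ, m ≤ q - 2 → ∃ (y : O) (κ : Kbar),
      (y : Om) = HahnSeries.C κ * ((qExpand Kbar (q * q) jK - (jK : Om) ^ (q * q))
        * ((jK : Om) - qExpand Kbar (q * q) jK ^ (q * q))
        * ((jK : Om) - qExpand Kbar (q * q) jK) ^ m) ∧
      ρ y .inf = 0 ∧ ρ y .zero = 0 ∧
      ∀ ξ, ρ y (.mid ξ) = (HahnSeries.C (t ξ) * Θ) ^ m * (jk A - jk A ^ (q ^ 2)) ^ 2) :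
    ∃ c₁ : ℕ, ∀ c : ℕ, c₁ ≤ c → ∀ m : ℕ, m ≤ q - 2 → ∀ a : Omk A,
      a ∈ WJ (kk A) (Fk A M) (c - q ^ 2 - q) →
      ∃ F : O, (F : Om) ∈ pullRR N (M * q * q) (c • E) ∧ ρ F .inf = 0 ∧ ρ F .zero = 0 ∧
        ∀ ξ, ρ F (.mid ξ) = (HahnSeries.C (t ξ) * Θ) ^ m
          * ((jk A - jk A ^ (q ^ 2)) ^ 2 * jk A ^ (q * (c + 1) + (c - q ^ 2 - m)) * a) := by
  obtain ⟨hjqO, hjq⟩ := hρjq
  obtain ⟨hj2O, h21, h22, h23⟩ := hρj2
  obtain ⟨m₀, hL⟩ := hLα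
  refine ⟨m₀ + q ^ 2 + q, fun c hc m hm a ha => ?_⟩
  have hcq : q ^ 2 + q ≤ c := by omega
  obtain ⟨g, hg, hg1, hg3⟩ := hL (c - q ^ 2 - q) (by omega) a ha
  obtain ⟨y, κ, hy, hy1, hy2, hy3⟩ := hZW m hm
  have hle : modularFunctionFieldBar N ≤ modularFunctionFieldBar (M * q * q) :=
    RR0.modularFunctionFieldBar_le hN
  refine ⟨y * g * (⟨_, hjqO⟩ : O) ^ (c + 1) * (⟨_, hj2O⟩ : O) ^ (c - q ^ 2 - m), ?_, ?_, ?_, ?_⟩
  · show (y : Om) * (g : Om) * qExpand Kbar q jK ^ (c + 1)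
      * qExpand Kbar (q * q) jK ^ (c - q ^ 2 - m) ∈ pullRR N (M * q * q) (c • E)
    have hz : (qExpand Kbar (q * q) jK - (jK : Om) ^ (q * q))
        * ((jK : Om) - qExpand Kbar (q * q) jK ^ (q * q))
        ∈ pullRR N (M * q * q) ((q * q) • Cj + (q * q) • Cqq) :=
      S34.CuspReg.mul_mem_pullRR_add (fun P => (Finsupp.add_apply _ _ P).ge)
        (hD.sub_pow_mem₂ hle) (hD.sub_pow_mem₁ hle)
    have hy' : (y : Om) ∈ pullRR N (M * q * q)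
        ((q * q) • Cj + (q * q) • Cqq + m • (Cj ⊔ Cqq)) := by
      rw [hy]
      refine Main.C_mul_mem_pullRR κ ?_
      exact S34.CuspReg.mul_mem_pullRR_add (fun P => (Finsupp.add_apply _ _ P).ge) hz
        (Main.pow_mem_pullRR m (fun P => nsmul_div_apply m _ P) (hD.sub_mem_sup hle))
    have h3 := S34.CuspReg.mul_mem_pullRR_add
      (B := (q * q) • Cj + (q * q) • Cqq + m • (Cj ⊔ Cqq) + (c - q ^ 2 - q) • Cj)
      (fun P => (Finsupp.add_apply _ _ P).ge) hy' hg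
    have h4 := S34.CuspReg.mul_mem_pullRR_add
      (B := (q * q) • Cj + (q * q) • Cqq + m • (Cj ⊔ Cqq) + (c - q ^ 2 - q) • Cj + (c + 1) • Cq)
      (fun P => (Finsupp.add_apply _ _ P).ge) h3
      (Main.pow_mem_pullRR (c + 1) (fun P => nsmul_div_apply (c + 1) Cq P)
        (jLevel_mem_pullRR hle q hq hD.isJq))
    refine S34.CuspReg.mul_mem_pullRR_add (fun P => ?_) h4
      (Main.pow_mem_pullRR (c - q ^ 2 - m) (fun P => nsmul_div_apply (c - q ^ 2 - m) Cqq P)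
        (jLevel_mem_pullRR hle (q * q) hqq hD.isJqq))
    simp only [Finsupp.add_apply, nsmul_div_apply, Finsupp.sup_apply]
    rw [hD.E_apply P]
    have hmq : m ≤ q := le_trans hm (Nat.sub_le _ _)
    have e1 : ((c - q ^ 2 - q : ℕ) : ℤ) = (c : ℤ) - (q : ℤ) ^ 2 - (q : ℤ) := by
      have h1 : q ^ 2 ≤ c := by omega
      have h2 : q ≤ c - q ^ 2 := by omega
      rw [Nat.cast_sub h2, Nat.cast_sub h1]
      push_cast
      ring
    have e2 : ((c - q ^ 2 - m : ℕ) : ℤ) = (c : ℤ) - (q : ℤ) ^ 2 - (m : ℤ) := by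
      have h1 : q ^ 2 ≤ c := by omega
      have h2 : m ≤ c - q ^ 2 := by omega
      rw [Nat.cast_sub h2, Nat.cast_sub h1]
      push_cast
      ring
    rw [e1, e2]
    have hb := budget_mid (q := q) (m := m) (x := Cj P) (y := Cq P) (z := Cqq P) hmq
      (hD.jqq_nonneg P) (hD.jq_le_j P) (hD.jq_le_jqq P)
    have hsup : Cj P ⊔ Cqq P = max (Cj P) (Cqq P) := rfl
    rw [hsup]
    push_cast
    nlinarith
  · simp only [map_mul, map_pow, Pi.mul_apply, Pi.pow_apply, hy1]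
    ring
  · simp only [map_mul, map_pow, Pi.mul_apply, Pi.pow_apply, hy2]
    ring
  · intro ξ
    simp only [map_mul, map_pow, Pi.mul_apply, Pi.pow_apply, hy3, hg3, hjq, h23]
    ring

end Fam

end Fermat.Agent.S36.CuspFam

end
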