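/-
P8 / S36 frame (helper58): **finiteness of the coordinate index** of the level-`q²` frame.

* `exists_primitiveRoot`        : `ℚ̄ˣ` has a primitive `q`-th root of unity;
* `midEquiv hq ζ hζ`            : `Fin (q - 1) ≃ Plan.MidIdx q`, `u ↦ ζ^(u+1)`;
* `Finite (Plan.MidIdx q)`, `Finite (Plan.Coord q)` (instances, `[NeZero q]`);
  `fintypeMidIdx`, `fintypeCoord` (noncomputable `def`s, to be used with `letI`);
* `card_midIdx`, `card_coord`   : `q - 1` middle cusps, `q + 1` coordinates (`q` prime);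
* `coordEquiv`                  : `Plan.Coord q ≃ Option (Option (Plan.MidIdx q))`;
* `prod_mid_eq`, `prod_coord`   : products over the index sets;
* `r_eq_fam`                    : the middle coordinate `midEquiv u` of any frame is `MidFam.fam (some u)`.
-/
import Mathlib
import Fermat.Agent.S36.Plan
import Fermat.Agent.S36.MidFam
import Fermat.Agent.S36.FrameInst

set_option autoImplicit false
set_option linter.unusedSectionVars false
set_option linter.style.haveILetI false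

noncomputable section

namespace Fermat.Agent.S36.CoordFin

open ModularCurve AlgebraicCurve Fermat.Agent.S24 Fermat.Agent.S18.Plan Fermat.Agent.S34
open Fermat.Agent.S36.MidEmb

/-! ### Roots of unity -/

/-- `ℚ̄ˣ` contains a primitive `q`-th root of unity. -/
theorem exists_primitiveRoot (q : ℕ) [NeZero q] : ∃ ζ : Kbarˣ, IsPrimitiveRoot ζ q := by
  haveI : NeZero ((q : ℕ) : ℚ) := ⟨by exact_mod_cast NeZero.ne q⟩
  obtain ⟨ξ, hξ⟩ := HasEnoughRootsOfUnity.exists_primitiveRoot (AlgebraicClosure ℚ) q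
  obtain ⟨u, hu⟩ := hξ.isUnit (NeZero.ne q)
  refine ⟨u, IsPrimitiveRoot.coe_units_iff.mp ?_⟩
  rw [hu]
  exact hξ

variable {q : ℕ}

/-! ### The middle index -/

/-- `u ↦ ζ^(u+1)`. -/
def midFun (hq : q.Prime) (ζ : Kbarˣ) (hζ : IsPrimitiveRoot ζ q) (u : Fin (q - 1)) :
    Plan.MidIdx q :=
  ⟨ζ ^ ((u : ℕ) + 1),
    haveI : NeZero q := ⟨hq.ne_zero⟩
    MidFam.isPrimitiveRoot_pow_succ hq hζ u⟩

theorem midFun_injective (hq : q.Prime) (ζ : Kbarˣ) (hζ : IsPrimitiveRoot ζ q) :
    Function.Injective (midFun hq ζ hζ) := by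
  intro u u' huu
  have h1 : ζ ^ ((u : ℕ) + 1) = ζ ^ ((u' : ℕ) + 1) := congrArg Subtype.val huu
  have hu : (u : ℕ) + 1 < q := by have := u.2; omega
  have hu' : (u' : ℕ) + 1 < q := by have := u'.2; omega
  have := hζ.pow_inj hu hu' h1
  exact Fin.ext (by omega)

theorem midFun_surjective (hq : q.Prime) (ζ : Kbarˣ) (hζ : IsPrimitiveRoot ζ q) :
    Function.Surjective (midFun hq ζ hζ) := by
  rintro ⟨ξ, hξ⟩
  haveI : NeZero q := ⟨hq.ne_zero⟩
  obtain ⟨k, hk, rfl⟩ := hζ.eq_pow_of_mem_rootsOfUnity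
    ((mem_rootsOfUnity q ξ).mpr hξ.pow_eq_one)
  have hk0 : k ≠ 0 := by
    rintro rfl
    rw [pow_zero] at hξ
    exact hq.ne_one (hξ.unique IsPrimitiveRoot.one)
  refine ⟨⟨k - 1, by omega⟩, Subtype.ext ?_⟩
  show ζ ^ (k - 1 + 1) = ζ ^ k
  congr 1
  omega

/-- **`Fin (q - 1) ≃ Plan.MidIdx q`**, `u ↦ ζ^(u+1)`. -/
def midEquiv (hq : q.Prime) (ζ : Kbarˣ) (hζ : IsPrimitiveRoot ζ q) :
    Fin (q - 1) ≃ Plan.MidIdx q :=
  Equiv.ofBijective (midFun hq ζ hζ) ⟨midFun_injective hq ζ hζ, midFun_surjective hq ζ hζ⟩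

theorem coe_midEquiv (hq : q.Prime) (ζ : Kbarˣ) (hζ : IsPrimitiveRoot ζ q) (u : Fin (q - 1)) :
    ((midEquiv hq ζ hζ u).1 : Kbarˣ) = ζ ^ ((u : ℕ) + 1) := rfl

instance instFiniteMidIdx [NeZero q] : Finite (Plan.MidIdx q) :=
  Finite.of_injective
    (fun ξ : Plan.MidIdx q =>
      (⟨ξ.1, (mem_rootsOfUnity q ξ.1).mpr ξ.2.pow_eq_one⟩ : rootsOfUnity q Kbar))
    (fun a b hab => Subtype.ext (by
      have := congrArg (fun z : rootsOfUnity q Kbar => (z : Kbarˣ)) hab
      exact this))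

/-- A `Fintype` structure on the middle index (use with `letI`). -/
@[reducible] def fintypeMidIdx (q : ℕ) [NeZero q] : Fintype (Plan.MidIdx q) := Fintype.ofFinite _

/-- There are `q - 1` middle cusps. -/
theorem card_midIdx (hq : q.Prime) : Nat.card (Plan.MidIdx q) = q - 1 := by
  haveI : NeZero q := ⟨hq.ne_zero⟩
  obtain ⟨ζ, hζ⟩ := exists_primitiveRoot q
  rw [← Nat.card_congr (midEquiv hq ζ hζ), Nat.card_fin]

theorem fintype_card_midIdx [Fintype (Plan.MidIdx q)] (hq : q.Prime) :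
    Fintype.card (Plan.MidIdx q) = q - 1 := by
  rw [← Nat.card_eq_fintype_card]
  exact card_midIdx hq

/-- For `q` an odd prime... in fact for every prime `q ≥ 2` with `q ≠ 2` there are at least two
middle cusps; for every prime there is at least one. -/
theorem midIdx_nonempty (hq : q.Prime) : Nonempty (Plan.MidIdx q) := by
  haveI : NeZero q := ⟨hq.ne_zero⟩
  obtain ⟨ζ, hζ⟩ := exists_primitiveRoot q
  exact ⟨⟨ζ, hζ⟩⟩

theorem prod_mid_eq [Fintype (Plan.MidIdx q)] (hq : q.Prime) (ζ : Kbarˣ)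
    (hζ : IsPrimitiveRoot ζ q) {R : Type*} [CommMonoid R] (f : Plan.MidIdx q → R) :
    ∏ ξ, f ξ = ∏ u : Fin (q - 1), f (midEquiv hq ζ hζ u) :=
  (Equiv.prod_comp (midEquiv hq ζ hζ) f).symm

theorem sum_mid_eq [Fintype (Plan.MidIdx q)] (hq : q.Prime) (ζ : Kbarˣ)
    (hζ : IsPrimitiveRoot ζ q) {R : Type*} [AddCommMonoid R] (f : Plan.MidIdx q → R) :
    ∑ ξ, f ξ = ∑ u : Fin (q - 1), f (midEquiv hq ζ hζ u) :=
  (Equiv.sum_comp (midEquiv hq ζ hζ) f).symm

/-! ### The coordinates -/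

/-- `Plan.Coord q ≃ Option (Option (Plan.MidIdx q))`: `∞ ↦ none`, `0 ↦ some none`,
`mid ξ ↦ some (some ξ)`. -/
def coordEquiv (q : ℕ) : Plan.Coord q ≃ Option (Option (Plan.MidIdx q)) where
  toFun
    | .inf => none
    | .zero => some none
    | .mid ξ => some (some ξ)
  invFun
    | none => .inf
    | some none => .zero
    | some (some ξ) => .mid ξ
  left_inv := by
    intro i
    cases i <;> rfl
  right_inv := by
    rintro (_ | _ | ξ) <;> rfl

instance instFiniteCoord [NeZero q] : Finite (Plan.Coord q) :=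
  Finite.of_equiv _ (coordEquiv q).symm

/-- A `Fintype` structure on the coordinates (use with `letI`). -/
@[reducible] def fintypeCoord (q : ℕ) [NeZero q] : Fintype (Plan.Coord q) := Fintype.ofFinite _

/-- There are `q + 1` coordinates. -/
theorem card_coord (hq : q.Prime) : Nat.card (Plan.Coord q) = q + 1 := by
  haveI : NeZero q := ⟨hq.ne_zero⟩
  rw [Nat.card_congr (coordEquiv q), Finite.card_option, Finite.card_option, card_midIdx hq]
  have := hq.two_le
  omega

theorem fintype_card_coord [Fintype (Plan.Coord q)] (hq : q.Prime) :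
    Fintype.card (Plan.Coord q) = q + 1 := by
  rw [← Nat.card_eq_fintype_card]
  exact card_coord hq

theorem prod_coord [Fintype (Plan.Coord q)] [Fintype (Plan.MidIdx q)] {R : Type*} [CommMonoid R]
    (f : Plan.Coord q → R) :
    ∏ i, f i = f .inf * (f .zero * ∏ ξ, f (.mid ξ)) := by
  rw [← Equiv.prod_comp (coordEquiv q).symm f, Fintype.prod_option, Fintype.prod_option]
  rfl

theorem sum_coord [Fintype (Plan.Coord q)] [Fintype (Plan.MidIdx q)] {R : Type*}
    [AddCommMonoid R] (f : Plan.Coord q → R) :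
    ∑ i, f i = f .inf + (f .zero + ∑ ξ, f (.mid ξ)) := by
  rw [← Equiv.sum_comp (coordEquiv q).symm f, Fintype.sum_option, Fintype.sum_option]
  rfl

/-! ### The middle coordinates of a frame as the family `MidFam.fam` -/

variable {M : ℕ} [NeZero M] [NeZero q] {h : Nat.Coprime M q}

/-- The middle coordinate `midEquiv u` of any frame is `MidFam.fam (some u)`. -/
theorem r_eq_fam (hq : q.Prime) (hqM : ¬ q ∣ M) (ζ : Kbarˣ) (hζ : IsPrimitiveRoot ζ q)
    (F : Plan.Frame M q h) (u : Fin (q - 1)) :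
    F.r (midEquiv hq ζ hζ u) = MidFam.fam M q hq hqM ζ hζ (some u) := by
  have key := IsMid.ext hq (FrameInst.isMid F (midEquiv hq ζ hζ u))
    (MidFam.fam_some_isMid hq hqM ζ hζ u)
  exact AlgHom.ext fun x => RingHom.congr_fun key x

/-- The `∞`-coordinate and the middle coordinates of a frame, as the family `MidFam.fam`. -/
theorem prod_inf_mid_eq [Fintype (Plan.MidIdx q)] (hq : q.Prime) (hqM : ¬ q ∣ M) (ζ : Kbarˣ)
    (hζ : IsPrimitiveRoot ζ q) (F : Plan.Frame M q h) (y : FN (M * q * q)) :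
    (y : Om) * ∏ ξ : Plan.MidIdx q, F.r ξ y =
      ∏ i : Option (Fin (q - 1)), MidFam.fam M q hq hqM ζ hζ i y := by
  rw [Fintype.prod_option, prod_mid_eq hq ζ hζ]
  congr 1
  refine Finset.prod_congr rfl fun u _ => ?_
  rw [r_eq_fam hq hqM ζ hζ F u]

end Fermat.Agent.S36.CoordFin
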