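import Mathlib
import Fermat.Agent.S18.WJCalc

/-!
# S36 (P8) — [CR-GEN]: cusp regularity for any number of coordinates, by one count (helper51)

Abstract, frame-independent.  `κ` a field, `R` any `κ`-module (the residue ring of the frame),
`Bb c = B̄(c)` an increasing family of finite-dimensional subspaces, `W c` the subspace cut out
by the coordinatewise pole bounds.

* `inf_eq_of_disjoint`   : one step of the count.
* `inf_eq_of_complement` : if `dim B̄(c+1) ≤ dim B̄(c) + d c` and `B̄(c+1)` contains a subspace of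
  dimension `≥ d c` meeting `W c` trivially, then `B̄(c') ⊓ W c = B̄(c)` for all `c' ≥ c ≥ c₁`.
* `inf_eq_of_blocks`     : the same with the subspace produced by finitely many blocks
  `φ b c : S b c → B̄(c+1)` which are jointly independent modulo `W c` up to `S' b c`.
* `coeff_mem_of_distinct`: finite Vandermonde (distinct nodes), with values in a module.
* `Wcoord`, `cuspReg_coord`: the coordinate form (the shape of `hCR` in `S36/LiftGen`).
-/

set_option autoImplicit false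
set_option linter.style.haveILetI false

noncomputable section

namespace Fermat.Agent.S36.CuspRegGen

open Module

section Count

variable {κ : Type*} [Field κ] {R : Type*} [AddCommGroup R] [Module κ R]

/-- One step of the count: `B ≤ B' ⊓ W`, `dim B' ≤ dim B + d`, and `B'` contains a subspace `V`
of dimension `≥ d` meeting `W` trivially; then `B' ⊓ W = B`. -/
theorem inf_eq_of_disjoint (B B' W V : Submodule κ R) [Module.Finite κ B'] (hBB' : B ≤ B')
    (hBW : B ≤ W) (d : ℕ) (hcount : finrank κ B' ≤ finrank κ B + d)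
    (hV : V ≤ B') (hVW : V ⊓ W = ⊥) (hd : d ≤ finrank κ V) : B' ⊓ W = B := by
  have hI : B' ⊓ W ≤ B' := inf_le_left
  haveI : Module.Finite κ V := Submodule.finiteDimensional_of_le hV
  haveI : Module.Finite κ (B' ⊓ W : Submodule κ R) := Submodule.finiteDimensional_of_le hI
  haveI : Module.Finite κ B := Submodule.finiteDimensional_of_le hBB'
  have hBI : B ≤ B' ⊓ W := le_inf hBB' hBW
  have hdisj : V ⊓ (B' ⊓ W) = ⊥ := by
    apply le_bot_iff.1
    calc V ⊓ (B' ⊓ W) ≤ V ⊓ W := inf_le_inf_left V inf_le_right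
      _ = ⊥ := hVW
  have h1 := Submodule.finrank_sup_add_finrank_inf_eq V (B' ⊓ W)
  rw [hdisj, finrank_bot, add_zero] at h1
  have h2 : finrank κ (V ⊔ (B' ⊓ W) : Submodule κ R) ≤ finrank κ B' :=
    Submodule.finrank_mono (sup_le hV hI)
  have h3 : finrank κ (B' ⊓ W : Submodule κ R) ≤ finrank κ B := by omega
  exact (Submodule.eq_of_le_of_finrank_le hBI h3).symm

/-- **[CR-GEN], complement form.** -/
theorem inf_eq_of_complement (Bb W : ℕ → Submodule κ R) (hBmono : Monotone Bb)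
    (hWmono : Monotone W) (hBW : ∀ c, Bb c ≤ W c) (hfin : ∀ c, Module.Finite κ (Bb c))
    (c₁ : ℕ) (d : ℕ → ℕ)
    (hcount : ∀ c, c₁ ≤ c → finrank κ (Bb (c + 1)) ≤ finrank κ (Bb c) + d c)
    (hV : ∀ c, c₁ ≤ c → ∃ V : Submodule κ R, V ≤ Bb (c + 1) ∧ V ⊓ W c = ⊥ ∧ d c ≤ finrank κ V) :
    ∀ c c', c₁ ≤ c → c ≤ c' → Bb c' ⊓ W c = Bb c := by
  have step : ∀ c, c₁ ≤ c → Bb (c + 1) ⊓ W c = Bb c := by
    intro c hc
    obtain ⟨V, hV1, hV2, hV3⟩ := hV c hc
    haveI := hfin (c + 1)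
    exact inf_eq_of_disjoint (Bb c) (Bb (c + 1)) (W c) V (hBmono (Nat.le_succ c)) (hBW c) (d c)
      (hcount c hc) hV1 hV2 hV3
  intro c c' hc hcc'
  induction c', hcc' using Nat.le_induction with
  | base => exact inf_eq_left.2 (hBW c)
  | succ n hn ih =>
    have h1 : Bb (n + 1) ⊓ W c = (Bb (n + 1) ⊓ W n) ⊓ W c := by
      rw [inf_assoc, inf_eq_right.2 (hWmono hn)]
    rw [h1, step n (hc.trans hn), ih]

/-- **[CR-GEN], block form.**  Finitely many blocks `b`; block `b` maps a finite-dimensional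
source space `S b c` into `B̄(c+1)` by `φ b c`; a sum `∑ b, φ b c (a b)` lies in `W c` only if
every `a b` lies in the smaller space `S' b c`; and the total gap `∑ (dim S - dim S')` is at
least the growth bound `d c` of `B̄`. -/
theorem inf_eq_of_blocks {𝔅 : Type*} [Fintype 𝔅] {R' : Type*} [AddCommGroup R'] [Module κ R']
    (Bb W : ℕ → Submodule κ R) (hBmono : Monotone Bb) (hWmono : Monotone W)
    (hBW : ∀ c, Bb c ≤ W c) (hfin : ∀ c, Module.Finite κ (Bb c)) (c₁ : ℕ) (d : ℕ → ℕ)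
    (hcount : ∀ c, c₁ ≤ c → finrank κ (Bb (c + 1)) ≤ finrank κ (Bb c) + d c)
    (S S' : 𝔅 → ℕ → Submodule κ R') (hS' : ∀ b c, S' b c ≤ S b c)
    (hSfin : ∀ b c, Module.Finite κ (S b c))
    (φ : 𝔅 → ℕ → R' →ₗ[κ] R)
    (hφB : ∀ c, c₁ ≤ c → ∀ b, ∀ a ∈ S b c, φ b c a ∈ Bb (c + 1))
    (hφW : ∀ c, c₁ ≤ c → ∀ a : 𝔅 → R', (∀ b, a b ∈ S b c) → ∑ b, φ b c (a b) ∈ W c →
      ∀ b, a b ∈ S' b c)
    (hdim : ∀ c, c₁ ≤ c → d c + ∑ b, finrank κ (S' b c) ≤ ∑ b, finrank κ (S b c)) :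
    ∀ c c', c₁ ≤ c → c ≤ c' → Bb c' ⊓ W c = Bb c := by
  classical
  refine inf_eq_of_complement Bb W hBmono hWmono hBW hfin c₁ d hcount ?_
  intro c hc
  -- complements of `S' b c` in `S b c`
  have hC : ∀ b, ∃ C : Submodule κ R', C ≤ S b c ∧ C ⊓ S' b c = ⊥ ∧
      finrank κ (S b c) = finrank κ (S' b c) + finrank κ C := by
    intro b
    obtain ⟨C', hC'⟩ := Submodule.exists_isCompl (S' b c)
    haveI := hSfin b c
    haveI : Module.Finite κ (S' b c) := Submodule.finiteDimensional_of_le (hS' b c)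
    haveI : Module.Finite κ (C' ⊓ S b c : Submodule κ R') :=
      Submodule.finiteDimensional_of_le inf_le_right
    have h3 : S' b c ⊓ (C' ⊓ S b c) = ⊥ := by
      rw [← inf_assoc, hC'.inf_eq_bot, bot_inf_eq]
    refine ⟨C' ⊓ S b c, inf_le_right, ?_, ?_⟩
    · rw [inf_comm, h3]
    · have h1 := Submodule.finrank_sup_add_finrank_inf_eq (S' b c) (C' ⊓ S b c)
      have h2 : S' b c ⊔ (C' ⊓ S b c) = S b c := by
        rw [← sup_inf_assoc_of_le C' (hS' b c), hC'.sup_eq_top, top_inf_eq]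
      rw [h2, h3, finrank_bot, add_zero] at h1
      exact h1
  choose C hCS hCS' hCdim using hC
  haveI : ∀ b, Module.Finite κ (C b) := fun b =>
    haveI := hSfin b c
    Submodule.finiteDimensional_of_le (hCS b)
  -- the map
  let Ψ : (∀ b, ↥(C b)) →ₗ[κ] R :=
    ∑ b, (φ b c) ∘ₗ (C b).subtype ∘ₗ (LinearMap.proj b)
  have hΨ : ∀ a : ∀ b, ↥(C b), Ψ a = ∑ b, φ b c (a b : R') := by
    intro a
    simp [Ψ, LinearMap.sum_apply]
  have hker : ∀ a : ∀ b, ↥(C b), Ψ a ∈ W c → a = 0 := by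
    intro a ha
    rw [hΨ] at ha
    have h := hφW c hc (fun b => (a b : R')) (fun b => hCS b (a b).2) ha
    funext b
    have hb : (a b : R') ∈ C b ⊓ S' b c := ⟨(a b).2, h b⟩
    rw [hCS' b] at hb
    exact Subtype.ext ((Submodule.mem_bot κ).1 hb)
  have hinj : Function.Injective Ψ := by
    rw [← LinearMap.ker_eq_bot, LinearMap.ker_eq_bot']
    intro a ha
    exact hker a (by rw [ha]; exact (W c).zero_mem)
  refine ⟨LinearMap.range Ψ, ?_, ?_, ?_⟩
  · rintro _ ⟨a, rfl⟩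
    rw [hΨ]
    exact (Bb (c + 1)).sum_mem fun b _ => hφB c hc b _ (hCS b (a b).2)
  · rw [eq_bot_iff]
    rintro x ⟨⟨a, rfl⟩, hxW⟩
    rw [hker a hxW, map_zero]
    exact (Submodule.mem_bot κ).2 rfl
  · have h1 : finrank κ (LinearMap.range Ψ) = finrank κ (∀ b, ↥(C b)) :=
      LinearMap.finrank_range_of_inj hinj
    rw [h1, Module.finrank_pi_fintype]
    have h2 := hdim c hc
    have h3 : ∑ b, finrank κ (S b c) = ∑ b, finrank κ (S' b c) + ∑ b, finrank κ (C b) := by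
      rw [← Finset.sum_add_distrib]
      exact Finset.sum_congr rfl fun b _ => hCdim b
    omega

/-- **Finite Vandermonde** with values in a module: if the `n` combinations
`∑ i, t j ^ i • y i` at `n` distinct nodes `t j` all lie in a subspace `U`, then every `y i`
lies in `U`. -/
theorem coeff_mem_of_distinct {V : Type*} [AddCommGroup V] [Module κ V] (U : Submodule κ V)
    {n : ℕ} (t : Fin n → κ) (ht : Function.Injective t) (y : Fin n → V)
    (h : ∀ j, ∑ i : Fin n, t j ^ (i : ℕ) • y i ∈ U) : ∀ i, y i ∈ U := by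
  classical
  set M : Matrix (Fin n) (Fin n) κ := Matrix.vandermonde t with hM
  have hdet : IsUnit M.det := isUnit_iff_ne_zero.2 (Matrix.det_vandermonde_ne_zero_iff.2 ht)
  have hinv : M⁻¹ * M = 1 := Matrix.nonsing_inv_mul M hdet
  intro i
  have key : y i = ∑ j, M⁻¹ i j • ∑ i' : Fin n, t j ^ (i' : ℕ) • y i' := by
    calc y i = ∑ i', (1 : Matrix (Fin n) (Fin n) κ) i i' • y i' := by
          simp [Matrix.one_apply, ite_smul]
      _ = ∑ i', (∑ j, M⁻¹ i j * M j i') • y i' := by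
          rw [← hinv]
          simp [Matrix.mul_apply]
      _ = ∑ i' : Fin n, ∑ j, M⁻¹ i j • (t j ^ (i' : ℕ) • y i') := by
          refine Finset.sum_congr rfl fun i' _ => ?_
          rw [Finset.sum_smul]
          refine Finset.sum_congr rfl fun j _ => ?_
          rw [mul_smul, hM, Matrix.vandermonde_apply]
      _ = ∑ j, M⁻¹ i j • ∑ i' : Fin n, t j ^ (i' : ℕ) • y i' := by
          rw [Finset.sum_comm]
          refine Finset.sum_congr rfl fun j _ => ?_
          rw [Finset.smul_sum]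
  rw [key]
  exact U.sum_mem fun j _ => U.smul_mem _ (h j)

end Count

section Coord

open Fermat.Agent.S18.Plan Fermat.Agent.S18

variable {κ : Type} [Field κ] {R : Type*} [AddCommGroup R] [Module κ R] {ι : Type*}

/-- The subspace cut out by the coordinatewise pole bounds `pr i x ∈ WJ (L i) (c * e i)`. -/
def Wcoord (pr : ι → R →ₗ[κ] LaurentSeries κ) (L : ι → IntermediateField κ (LaurentSeries κ))
    (e : ι → ℕ) (c : ℕ) : Submodule κ R :=
  ⨅ i, (WJ κ (L i) (c * e i)).comap (pr i)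

theorem mem_Wcoord {pr : ι → R →ₗ[κ] LaurentSeries κ}
    {L : ι → IntermediateField κ (LaurentSeries κ)} {e : ι → ℕ} {c : ℕ} {x : R} :
    x ∈ Wcoord pr L e c ↔ ∀ i, pr i x ∈ WJ κ (L i) (c * e i) := by
  simp [Wcoord, Submodule.mem_iInf]

theorem Wcoord_mono (pr : ι → R →ₗ[κ] LaurentSeries κ)
    (L : ι → IntermediateField κ (LaurentSeries κ)) (e : ι → ℕ) : Monotone (Wcoord pr L e) := by
  intro c c' h x hx
  rw [mem_Wcoord] at hx ⊢
  exact fun i => WJCalc.WJ_mono (Nat.mul_le_mul_right _ h) (hx i)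

/-- **[CR-GEN], coordinate form** (the shape of `hCR` in `S36/LiftGen.exists_mem_pullRR_gen`). -/
theorem cuspReg_coord {𝔅 : Type*} [Fintype 𝔅] {R' : Type*} [AddCommGroup R'] [Module κ R']
    (pr : ι → R →ₗ[κ] LaurentSeries κ) (L : ι → IntermediateField κ (LaurentSeries κ))
    (e : ι → ℕ) (Bb : ℕ → Submodule κ R) (hBmono : Monotone Bb)
    (hincl : ∀ c, ∀ x ∈ Bb c, ∀ i, pr i x ∈ WJ κ (L i) (c * e i))
    (hfin : ∀ c, Module.Finite κ (Bb c)) (c₁ : ℕ) (d : ℕ → ℕ)
    (hcount : ∀ c, c₁ ≤ c → finrank κ (Bb (c + 1)) ≤ finrank κ (Bb c) + d c)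
    (S S' : 𝔅 → ℕ → Submodule κ R') (hS' : ∀ b c, S' b c ≤ S b c)
    (hSfin : ∀ b c, Module.Finite κ (S b c))
    (φ : 𝔅 → ℕ → R' →ₗ[κ] R)
    (hφB : ∀ c, c₁ ≤ c → ∀ b, ∀ a ∈ S b c, φ b c a ∈ Bb (c + 1))
    (hφW : ∀ c, c₁ ≤ c → ∀ a : 𝔅 → R', (∀ b, a b ∈ S b c) →
      (∀ i, pr i (∑ b, φ b c (a b)) ∈ WJ κ (L i) (c * e i)) → ∀ b, a b ∈ S' b c)
    (hdim : ∀ c, c₁ ≤ c → d c + ∑ b, finrank κ (S' b c) ≤ ∑ b, finrank κ (S b c)) :
    ∀ c c', c₁ ≤ c → c ≤ c' → ∀ x ∈ Bb c', (∀ i, pr i x ∈ WJ κ (L i) (c * e i)) → x ∈ Bb c := by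
  intro c c' hc hcc' x hx hxW
  have key := inf_eq_of_blocks Bb (Wcoord pr L e) hBmono (Wcoord_mono pr L e)
    (fun c x hx => mem_Wcoord.2 (hincl c x hx)) hfin c₁ d hcount S S' hS' hSfin φ hφB
    (fun c hc a ha hW => hφW c hc a ha (mem_Wcoord.1 hW)) hdim c c' hc hcc'
  have : x ∈ Bb c' ⊓ Wcoord pr L e c := ⟨hx, mem_Wcoord.2 hxW⟩
  rw [key] at this
  exact this

end Coord

end Fermat.Agent.S36.CuspRegGen
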