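import Mathlib
import Fermat.Agent.S34.CuspReg
import Fermat.Agent.S36.CuspRegGen

/-!
# S36 (P8) — [CR-q²-INST], residue side: cusp regularity at level `q² M'` (helper86)

Frame-independent.  `k` a field, `L ∋ j̄` an intermediate field of `k((T))` (instantiation:
`k := kk A`, `L := Fk A M'`, `M'` the good level), `q ≥ 2`, and the residue ring in coordinates
`P3 k Ξ := k((T)) × k((T)) × (Ξ → k((T)))` (coordinates `∞`, `0`, and the middle cusps, indexed by a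
finite type `Ξ` with `q - 1` elements).  Exponents `e_∞ = e_0 = q² + q + 1`, `e_mid = q + 2` (`φ = j · j_q · j_{q²}`).

* `omI k q c := (j̄ - j̄^(q⁴)) (j̄ - j̄^(q²)) j̄^(q c + q² (c - q²))`
  (`= ρ_∞ (z_∞ · j_q^c · j_{q²}^(c - q²))`, pole order `c (q + q²) + q²`);
* `omM k q c m := (j̄ - j̄^(q²))² j̄^(q (c + 1) + (c - q² - m))`
  (`= ρ_mid (z_mid · j_q^(c+1) · j_{q²}^(c - q² - m))`, pole order `c (q + 1) + q² + q - m`);
* `cuspReg_q2_core` : from `(R)` (`dim WJ (i+1) = dim WJ i + ψ`), `[INCL]`, the count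
  `dim B̄(c+1) ≤ dim B̄(c) + 3 q (q+1) ψ`, Lemma U for `Θ = θ j̄`, and the three families
  `(ω a, 0, 0)`, `(0, ω a, 0)`, `(0, 0, ((t i Θ)^m ω_m a)_i)` in `B̄(c)`:
  `∃ c₀, ∀ c' ≥ c ≥ c₀, x ∈ B̄(c'), x ∈ W(c) ⟹ x ∈ B̄(c)`;
* `cuspReg_q2_of_embedding` : the same for any `k`-module `R` with an injective coordinate map
  `R →ₗ[k] P3 k Ξ`.

Proof: `S36/CuspRegGen.inf_eq_of_blocks` (helper51) with `q + 1` blocks.
-/

set_option autoImplicit false
set_option maxHeartbeats 400000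

noncomputable section

namespace Fermat.Agent.S36.CuspRegCore

open ModularCurve Fermat.Agent.S18.Plan Fermat.Agent.S18 Module Fermat.Agent.S34.CuspReg

variable {k : Type} [Field k]

/-- The residue ring in coordinates: `∞`, `0`, and the middle cusps (indexed by `Ξ`). -/
abbrev P3 (k : Type) [Field k] (Ξ : Type) : Type :=
  LaurentSeries k × LaurentSeries k × (Ξ → LaurentSeries k)

/-- `ω_∞(c) = (j̄ - j̄^(q⁴)) (j̄ - j̄^(q²)) j̄^(q c + q² (c - q²))`. -/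
def omI (k : Type) [Field k] (q c : ℕ) : LaurentSeries k :=
  (jqModC k - jqModC k ^ (q ^ 4)) * (jqModC k - jqModC k ^ (q ^ 2))
    * jqModC k ^ (q * c + q ^ 2 * (c - q ^ 2))

/-- `ω_mid(c, m) = (j̄ - j̄^(q²))² j̄^(q (c + 1) + (c - q² - m))`. -/
def omM (k : Type) [Field k] (q c m : ℕ) : LaurentSeries k :=
  (jqModC k - jqModC k ^ (q ^ 2)) ^ 2 * jqModC k ^ (q * (c + 1) + (c - q ^ 2 - m))

theorem omI_eq (q c : ℕ) (hq : 1 ≤ q) :
    omI k q c = omegaJ k (q ^ 4 - 1) 0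
      * omegaJ k (q ^ 2 - 1) (q * c + q ^ 2 * (c - q ^ 2)) := by
  have h4 : q ^ 4 - 1 + 1 = q ^ 4 := Nat.sub_add_cancel (Nat.one_le_pow _ _ hq)
  have h2 : q ^ 2 - 1 + 1 = q ^ 2 := Nat.sub_add_cancel (Nat.one_le_pow _ _ hq)
  unfold omI omegaJ
  rw [h4, h2, pow_zero, mul_one, mul_assoc]

theorem omM_eq (q c m : ℕ) (hq : 1 ≤ q) :
    omM k q c m = omegaJ k (q ^ 2 - 1) 0
      * omegaJ k (q ^ 2 - 1) (q * (c + 1) + (c - q ^ 2 - m)) := by
  have h2 : q ^ 2 - 1 + 1 = q ^ 2 := Nat.sub_add_cancel (Nat.one_le_pow _ _ hq)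
  unfold omM omegaJ
  rw [h2, pow_zero, mul_one, pow_two, mul_assoc]

theorem omI_mem_polyJ (q c : ℕ) : omI k q c ∈ polyJ k := by
  unfold omI
  exact (polyJ k).mul_mem ((polyJ k).mul_mem
    ((polyJ k).sub_mem WJCalc.j_mem_polyJ ((polyJ k).pow_mem WJCalc.j_mem_polyJ _))
    ((polyJ k).sub_mem WJCalc.j_mem_polyJ ((polyJ k).pow_mem WJCalc.j_mem_polyJ _)))
    ((polyJ k).pow_mem WJCalc.j_mem_polyJ _)

theorem omM_mem_polyJ (q c m : ℕ) : omM k q c m ∈ polyJ k := by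
  unfold omM
  exact (polyJ k).mul_mem ((polyJ k).pow_mem
    ((polyJ k).sub_mem WJCalc.j_mem_polyJ ((polyJ k).pow_mem WJCalc.j_mem_polyJ _)) _)
    ((polyJ k).pow_mem WJCalc.j_mem_polyJ _)

variable {L : IntermediateField k (LaurentSeries k)}

/-- Elements of `k[j̄]` lie in `L` and are integral over `k[j̄]`. -/
theorem mem_of_mem_polyJ (hj : jqModC k ∈ L) {x : LaurentSeries k} (hx : x ∈ polyJ k) :
    x ∈ L ∧ IsIntegral (polyJ k) x := by
  refine ⟨?_, ?_⟩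
  · have hle : polyJ k ≤ L.toSubalgebra := by
      unfold polyJ
      exact Algebra.adjoin_le (by
        intro y hy
        rw [Set.mem_singleton_iff] at hy
        rw [hy]
        exact hj)
    exact hle hx
  · exact isIntegral_algebraMap (R := polyJ k) (x := ⟨x, hx⟩)

/-- Change of the ambient field in `WJ`. -/
theorem mem_WJ_of_field {L' : IntermediateField k (LaurentSeries k)} {x : LaurentSeries k} {N : ℕ}
    (hxL : x ∈ L) (hxI : IsIntegral (polyJ k) x) (h : x ∈ WJ k L' N) : x ∈ WJ k L N :=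
  ⟨hxL, hxI, h.2.2⟩

/-- Cancelling a product of two `omegaJ`'s. -/
theorem mem_WJ_of_omegaJ_mul_mul (hj : jqModC k ∈ L) {r₁ r₂ : ℕ} (hr₁ : 0 < r₁) (hr₂ : 0 < r₂)
    (n₁ n₂ : ℕ) {t N : ℕ} (hN : N = t + (n₂ + r₂ + 1) + (n₁ + r₁ + 1))
    {L' : IntermediateField k (LaurentSeries k)} {a : LaurentSeries k}
    (haL : a ∈ L) (haI : IsIntegral (polyJ k) a)
    (h : omegaJ k r₁ n₁ * omegaJ k r₂ n₂ * a ∈ WJ k L' N) : a ∈ WJ k L t := by
  obtain ⟨h2L, h2I⟩ := mem_of_mem_polyJ hj (omegaJ_mem_polyJ (κ := k) r₂ n₂)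
  obtain ⟨h1L, h1I⟩ := mem_of_mem_polyJ hj (omegaJ_mem_polyJ (κ := k) r₁ n₁)
  have hb : omegaJ k r₂ n₂ * a ∈ L := L.mul_mem h2L haL
  have hbI : IsIntegral (polyJ k) (omegaJ k r₂ n₂ * a) := h2I.mul haI
  have h' : omegaJ k r₁ n₁ * (omegaJ k r₂ n₂ * a) ∈ WJ k L (t + (n₂ + r₂ + 1) + (n₁ + r₁ + 1)) := by
    rw [← mul_assoc, ← hN]
    exact mem_WJ_of_field (L.mul_mem (L.mul_mem h1L h2L) haL) ((h1I.mul h2I).mul haI) h
  have h1 := mem_WJ_of_omegaJ_mul hr₁ n₁ hb hbI h'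
  exact mem_WJ_of_omegaJ_mul hr₂ n₂ haL haI h1

/-- The three coordinatewise pole bounds, as a subspace of `P3 k Ξ`. -/
def W3 (Ξ : Type) (q : ℕ) (LI L0 LM : IntermediateField k (LaurentSeries k)) (c : ℕ) :
    Submodule k (P3 k Ξ) where
  carrier := {x | x.1 ∈ WJ k LI (c * (q ^ 2 + q + 1)) ∧ x.2.1 ∈ WJ k L0 (c * (q ^ 2 + q + 1)) ∧
    ∀ i, x.2.2 i ∈ WJ k LM (c * (q + 2))}
  add_mem' := by
    rintro x y ⟨h1, h2, h3⟩ ⟨h1', h2', h3'⟩
    exact ⟨Submodule.add_mem _ h1 h1', Submodule.add_mem _ h2 h2',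
      fun i => Submodule.add_mem _ (h3 i) (h3' i)⟩
  zero_mem' := ⟨Submodule.zero_mem _, Submodule.zero_mem _, fun _ => Submodule.zero_mem _⟩
  smul_mem' := by
    rintro a x ⟨h1, h2, h3⟩
    exact ⟨Submodule.smul_mem _ a h1, Submodule.smul_mem _ a h2,
      fun i => Submodule.smul_mem _ a (h3 i)⟩

theorem mem_W3 {Ξ : Type} {q : ℕ} {LI L0 LM : IntermediateField k (LaurentSeries k)} {c : ℕ}
    {x : P3 k Ξ} :
    x ∈ W3 Ξ q LI L0 LM c ↔ x.1 ∈ WJ k LI (c * (q ^ 2 + q + 1)) ∧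
      x.2.1 ∈ WJ k L0 (c * (q ^ 2 + q + 1)) ∧ ∀ i, x.2.2 i ∈ WJ k LM (c * (q + 2)) := Iff.rfl

theorem W3_mono (Ξ : Type) (q : ℕ) (LI L0 LM : IntermediateField k (LaurentSeries k)) :
    Monotone (W3 (k := k) Ξ q LI L0 LM) := by
  rintro c c' h x ⟨h1, h2, h3⟩
  exact ⟨WJCalc.WJ_mono (Nat.mul_le_mul_right _ h) h1,
    WJCalc.WJ_mono (Nat.mul_le_mul_right _ h) h2,
    fun i => WJCalc.WJ_mono (Nat.mul_le_mul_right _ h) (h3 i)⟩

/-- The block maps: `∞`, `0`, and the middle layer `m`. -/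
def blockMap {Ξ : Type} (n : ℕ) (ωI : LaurentSeries k) (ωM : Fin n → Ξ → LaurentSeries k) :
    Bool ⊕ Fin n → LaurentSeries k →ₗ[k] P3 k Ξ
  | Sum.inl true => (LinearMap.inl k _ _).comp (mulOmega ωI)
  | Sum.inl false => (LinearMap.inr k _ _).comp ((LinearMap.inl k _ _).comp (mulOmega ωI))
  | Sum.inr m => (LinearMap.inr k _ _).comp ((LinearMap.inr k _ _).comp
      (LinearMap.pi fun i => mulOmega (ωM m i)))

theorem sum_blockMap {Ξ : Type} (n : ℕ) (ωI : LaurentSeries k)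
    (ωM : Fin n → Ξ → LaurentSeries k)
    (a : Bool ⊕ Fin n → LaurentSeries k) :
    ∑ b, blockMap n ωI ωM b (a b)
      = (ωI * a (Sum.inl true), ωI * a (Sum.inl false),
          fun i => ∑ m, ωM m i * a (Sum.inr m)) := by
  rw [Fintype.sum_sum_type, Fintype.sum_bool]
  refine Prod.ext ?_ (Prod.ext ?_ ?_)
  · simp [blockMap, Prod.fst_sum]
  · simp [blockMap, Prod.fst_sum, Prod.snd_sum]
  · funext i
    simp [blockMap, Prod.snd_sum, Finset.sum_apply]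

/-- The dimension sum over the `q + 1` blocks. -/
theorem sum_finrank_sumElim {V : Type*} [AddCommGroup V] [Module k V] (n : ℕ)
    (X Y : Submodule k V) :
    ∑ b : Bool ⊕ Fin n, finrank k ↥(Sum.elim (fun _ : Bool => X) (fun _ : Fin n => Y) b)
      = 2 * finrank k X + n * finrank k Y := by
  have h : ∀ b : Bool ⊕ Fin n,
      finrank k ↥(Sum.elim (fun _ : Bool => X) (fun _ : Fin n => Y) b)
        = Sum.elim (fun _ : Bool => finrank k X) (fun _ : Fin n => finrank k Y) b := by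
    rintro (b | m) <;> rfl
  rw [Finset.sum_congr rfl (fun b _ => h b), Fintype.sum_sum_type, Fintype.sum_bool]
  simp only [Sum.elim_inl, Sum.elim_inr, Finset.sum_const, Finset.card_univ, Fintype.card_fin,
    smul_eq_mul]
  ring

theorem block_numerology (q : ℕ) (hq : 2 ≤ q) :
    2 * (q ^ 2 + q + 1) + (q - 1) * (q + 2) = 3 * (q * (q + 1)) := by
  obtain ⟨p, rfl⟩ : ∃ p, q = p + 2 := ⟨q - 2, by omega⟩
  have e3 : p + 2 - 1 = p + 1 := by omega
  rw [e3]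
  ring

/-- **[CR-q²-INST], residue side, core form.** -/
theorem cuspReg_q2_core (hj : jqModC k ∈ L) (q : ℕ) (hq : 2 ≤ q) (ψ m₀ : ℕ)
    {Ξ : Type} [Fintype Ξ] (hΞ : Fintype.card Ξ = q - 1)
    (hR : ∀ i, m₀ ≤ i → Module.Finite k (WJ k L i) ∧
      finrank k (WJ k L (i + 1)) = finrank k (WJ k L i) + ψ)
    (LI L0 LM : IntermediateField k (LaurentSeries k))
    (Bb : ℕ → Submodule k (P3 k Ξ)) (hBmono : Monotone Bb)
    (hfin : ∀ c, Module.Finite k (Bb c))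
    (hincl : ∀ c, ∀ x ∈ Bb c, x.1 ∈ WJ k LI (c * (q ^ 2 + q + 1)) ∧
      x.2.1 ∈ WJ k L0 (c * (q ^ 2 + q + 1)) ∧ ∀ i, x.2.2 i ∈ WJ k LM (c * (q + 2)))
    (c₁ : ℕ)
    (hcount : ∀ c, c₁ ≤ c →
      finrank k (Bb (c + 1)) ≤ finrank k (Bb c) + 3 * (q * (q + 1) * ψ))
    (Θ : LaurentSeries k) (t : Ξ → k) (ht : Function.Injective t)
    (hU : ∀ (i N : ℕ) (x : LaurentSeries k), x ∈ L → IsIntegral (polyJ k) x →
      Θ ^ i * x ∈ WJ k LM N → x ∈ WJ k L (N - i))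
    (hfamI : ∀ c, c₁ ≤ c → ∀ a ∈ WJ k L (c - q ^ 2),
      ((omI k q c * a, 0, 0) : P3 k Ξ) ∈ Bb c)
    (hfam0 : ∀ c, c₁ ≤ c → ∀ a ∈ WJ k L (c - q ^ 2),
      ((0, omI k q c * a, 0) : P3 k Ξ) ∈ Bb c)
    (hfamM : ∀ c, c₁ ≤ c → ∀ m : Fin (q - 1), ∀ a ∈ WJ k L (c - q ^ 2 - q),
      ((0, 0, fun i => (HahnSeries.C (t i) * Θ) ^ (m : ℕ) * (omM k q c m * a)) : P3 k Ξ)
        ∈ Bb c) :
    ∃ c₀ : ℕ, ∀ c c' : ℕ, c₀ ≤ c → c ≤ c' → ∀ x ∈ Bb c',
      (x.1 ∈ WJ k LI (c * (q ^ 2 + q + 1)) ∧ x.2.1 ∈ WJ k L0 (c * (q ^ 2 + q + 1)) ∧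
        ∀ i, x.2.2 i ∈ WJ k LM (c * (q + 2))) → x ∈ Bb c := by
  classical
  have hq1 : 1 ≤ q := by omega
  have hq2pos : 0 < q ^ 2 - 1 := by
    have : 2 ^ 2 ≤ q ^ 2 := Nat.pow_le_pow_left hq 2
    omega
  have hq4pos : 0 < q ^ 4 - 1 := by
    have : 2 ^ 4 ≤ q ^ 4 := Nat.pow_le_pow_left hq 4
    omega
  -- the threshold
  set c₂ : ℕ := max c₁ (m₀ + 2 * q ^ 2 + 2 * q + 1) with hc₂
  -- the blocks
  let S : Bool ⊕ Fin (q - 1) → ℕ → Submodule k (LaurentSeries k) := fun b c =>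
    Sum.elim (fun _ => WJ k L (c + 1 - q ^ 2)) (fun _ => WJ k L (c + 1 - q ^ 2 - q)) b
  let S' : Bool ⊕ Fin (q - 1) → ℕ → Submodule k (LaurentSeries k) := fun b c =>
    Sum.elim (fun _ => WJ k L (c - q - 2 * q ^ 2)) (fun _ => WJ k L (c - 2 * q - 1 - q ^ 2)) b
  let φ : Bool ⊕ Fin (q - 1) → ℕ → LaurentSeries k →ₗ[k] P3 k Ξ := fun b c =>
    blockMap (q - 1) (omI k q (c + 1))
      (fun m i => (HahnSeries.C (t i) * Θ) ^ (m : ℕ) * omM k q (c + 1) m) b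
  have key := Fermat.Agent.S36.CuspRegGen.inf_eq_of_blocks Bb (W3 Ξ q LI L0 LM) hBmono
    (W3_mono Ξ q LI L0 LM) (fun c x hx => hincl c x hx) hfin c₂ (fun _ => 3 * (q * (q + 1) * ψ))
    (fun c hc => hcount c ((le_max_left _ _).trans hc)) S S'
    (by
      rintro (b | m) c
      · exact WJCalc.WJ_mono (by omega)
      · exact WJCalc.WJ_mono (by omega))
    (by
      rintro (b | m) c
      · exact finite_WJ_of ψ m₀ hR _
      · exact finite_WJ_of ψ m₀ hR _)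
    φ
    (by
      -- the families lie in `B̄(c+1)`
      intro c hc b a ha
      have hc1 : c₁ ≤ c + 1 := ((le_max_left _ _).trans hc).trans (Nat.le_succ c)
      rcases b with (_ | _) | m
      · exact hfam0 (c + 1) hc1 a ha
      · exact hfamI (c + 1) hc1 a ha
      · have := hfamM (c + 1) hc1 m a ha
        have e : φ (Sum.inr m) c a
            = ((0, 0, fun i => (HahnSeries.C (t i) * Θ) ^ (m : ℕ) * (omM k q (c + 1) m * a)) :
              P3 k Ξ) := by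
          refine Prod.ext rfl (Prod.ext rfl (funext fun i => ?_))
          exact mul_assoc _ _ _
        rw [e]
        exact this)
    (by
      -- independence modulo `W(c)`
      intro c hc a ha hW
      have hcm : m₀ + 2 * q ^ 2 + 2 * q + 1 ≤ c := (le_max_right _ _).trans hc
      rw [sum_blockMap, mem_W3] at hW
      obtain ⟨hW1, hW2, hW3⟩ := hW
      -- arithmetic
      obtain ⟨d, rfl⟩ : ∃ d, c = d + (2 * q ^ 2 + 2 * q + 1) :=
        ⟨c - (2 * q ^ 2 + 2 * q + 1), by omega⟩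
      have eI : ∀ (a' : LaurentSeries k), a' ∈ L → IsIntegral (polyJ k) a' →
          ∀ L' : IntermediateField k (LaurentSeries k),
          omI k q (d + (2 * q ^ 2 + 2 * q + 1) + 1) * a'
            ∈ WJ k L' ((d + (2 * q ^ 2 + 2 * q + 1)) * (q ^ 2 + q + 1)) →
          a' ∈ WJ k L (d + (2 * q ^ 2 + 2 * q + 1) - q - 2 * q ^ 2) := by
        intro a' haL haI L' h
        rw [omI_eq _ _ hq1] at h
        refine mem_WJ_of_omegaJ_mul_mul hj hq4pos hq2pos 0 _ ?_ haL haI h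
        have h4 : q ^ 4 - 1 + 1 = q ^ 4 := Nat.sub_add_cancel (Nat.one_le_pow _ _ hq1)
        have h2 : q ^ 2 - 1 + 1 = q ^ 2 := Nat.sub_add_cancel (Nat.one_le_pow _ _ hq1)
        have e1 : d + (2 * q ^ 2 + 2 * q + 1) + 1 - q ^ 2 = d + q ^ 2 + 2 * q + 2 := by omega
        have e2 : d + (2 * q ^ 2 + 2 * q + 1) - q - 2 * q ^ 2 = d + q + 1 := by omega
        rw [e1, e2, zero_add, add_assoc (q * _ + _), h2, h4]
        ring
      have eM : ∀ (m : ℕ), m < q - 1 → ∀ (a' : LaurentSeries k), a' ∈ L →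
          IsIntegral (polyJ k) a' →
          omM k q (d + (2 * q ^ 2 + 2 * q + 1) + 1) m * a'
            ∈ WJ k L ((d + (2 * q ^ 2 + 2 * q + 1)) * (q + 2) - m) →
          a' ∈ WJ k L (d + (2 * q ^ 2 + 2 * q + 1) - 2 * q - 1 - q ^ 2) := by
        intro m hm a' haL haI h
        rw [omM_eq _ _ _ hq1] at h
        refine mem_WJ_of_omegaJ_mul_mul hj hq2pos hq2pos 0 _ ?_ haL haI h
        have h2 : q ^ 2 - 1 + 1 = q ^ 2 := Nat.sub_add_cancel (Nat.one_le_pow _ _ hq1)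
        have e1 : d + (2 * q ^ 2 + 2 * q + 1) + 1 - q ^ 2 - m = d + q ^ 2 + 2 * q + 2 - m := by
          omega
        have e2 : d + (2 * q ^ 2 + 2 * q + 1) - 2 * q - 1 - q ^ 2 = d + q ^ 2 := by omega
        rw [e1, e2, zero_add, add_assoc (q * _ + _), h2]
        have hm' : m ≤ d + q ^ 2 + 2 * q + 2 := by omega
        have hm'' : m ≤ (d + (2 * q ^ 2 + 2 * q + 1)) * (q + 2) := by
          have : d + (2 * q ^ 2 + 2 * q + 1) ≤ (d + (2 * q ^ 2 + 2 * q + 1)) * (q + 2) :=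
            Nat.le_mul_of_pos_right _ (by omega)
          omega
        zify [hm', hm'']
        ring
      rintro ((_ | _) | m)
      · -- the `0` block
        have haS : a (Sum.inl false) ∈ WJ k L (d + (2 * q ^ 2 + 2 * q + 1) + 1 - q ^ 2) :=
          ha (Sum.inl false)
        exact eI _ haS.1 haS.2.1 L0 hW2
      · -- the `∞` block
        have haS : a (Sum.inl true) ∈ WJ k L (d + (2 * q ^ 2 + 2 * q + 1) + 1 - q ^ 2) :=
          ha (Sum.inl true)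
        exact eI _ haS.1 haS.2.1 LI hW1
      · -- the middle blocks: Vandermonde, Lemma U, cancellation
        have haS : ∀ m' : Fin (q - 1),
            a (Sum.inr m') ∈ WJ k L (d + (2 * q ^ 2 + 2 * q + 1) + 1 - q ^ 2 - q) :=
          fun m' => ha (Sum.inr m')
        have hV := Fermat.Agent.S36.CuspRegGen.coeff_mem_of_distinct
          (WJ k LM ((d + (2 * q ^ 2 + 2 * q + 1)) * (q + 2)))
          (fun j : Fin (q - 1) => t ((Fintype.equivFinOfCardEq hΞ).symm j))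
          (ht.comp (Fintype.equivFinOfCardEq hΞ).symm.injective)
          (fun m' : Fin (q - 1) =>
            Θ ^ (m' : ℕ) * (omM k q (d + (2 * q ^ 2 + 2 * q + 1) + 1) m' * a (Sum.inr m')))
          (by
            intro j
            have := hW3 ((Fintype.equivFinOfCardEq hΞ).symm j)
            set i := (Fintype.equivFinOfCardEq hΞ).symm j with hi
            have e : (∑ m' : Fin (q - 1), t i ^ (m' : ℕ) •
                (Θ ^ (m' : ℕ) * (omM k q (d + (2 * q ^ 2 + 2 * q + 1) + 1) m' * a (Sum.inr m'))))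
                = ∑ m' : Fin (q - 1), (HahnSeries.C (t i) * Θ) ^ (m' : ℕ)
                    * omM k q (d + (2 * q ^ 2 + 2 * q + 1) + 1) m' * a (Sum.inr m') := by
              refine Finset.sum_congr rfl fun m' _ => ?_
              rw [mul_pow, ← map_pow, ← HahnSeries.C_mul_eq_smul]
              ring
            rw [e]
            exact this)
        have h1 := hV m
        obtain ⟨hoL, hoI⟩ := mem_of_mem_polyJ hj
          (omM_mem_polyJ (k := k) q (d + (2 * q ^ 2 + 2 * q + 1) + 1) m)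
        have h2 := hU (m : ℕ) _ _ (L.mul_mem hoL (haS m).1) (hoI.mul (haS m).2.1) h1
        exact eM (m : ℕ) m.2 _ (haS m).1 (haS m).2.1 h2)
    (by
      -- the dimension count
      intro c hc
      have hcm : m₀ + 2 * q ^ 2 + 2 * q + 1 ≤ c := (le_max_right _ _).trans hc
      have hS := sum_finrank_sumElim (k := k) (V := LaurentSeries k) (q - 1)
      show 3 * (q * (q + 1) * ψ) + ∑ b, finrank k ↥(S' b c) ≤ ∑ b, finrank k ↥(S b c)
      rw [show (∑ b, finrank k ↥(S' b c)) = _ from hS _ _,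
        show (∑ b, finrank k ↥(S b c)) = _ from hS _ _]
      have h1 := finrank_WJ_add ψ m₀ hR (c - q - 2 * q ^ 2) (by omega) (q ^ 2 + q + 1)
      have h2 := finrank_WJ_add ψ m₀ hR (c - 2 * q - 1 - q ^ 2) (by omega) (q + 2)
      have e1 : c - q - 2 * q ^ 2 + (q ^ 2 + q + 1) = c + 1 - q ^ 2 := by omega
      have e2 : c - 2 * q - 1 - q ^ 2 + (q + 2) = c + 1 - q ^ 2 - q := by omega
      rw [e1] at h1
      rw [e2] at h2
      rw [h1, h2]
      have hnum := block_numerology q hq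
      apply le_of_eq
      have e4 : 2 * (finrank k ↥(WJ k L (c - q - 2 * q ^ 2)) + (q ^ 2 + q + 1) * ψ)
          + (q - 1) * (finrank k ↥(WJ k L (c - 2 * q - 1 - q ^ 2)) + (q + 2) * ψ)
          = (2 * (q ^ 2 + q + 1) + (q - 1) * (q + 2)) * ψ
            + (2 * finrank k ↥(WJ k L (c - q - 2 * q ^ 2))
              + (q - 1) * finrank k ↥(WJ k L (c - 2 * q - 1 - q ^ 2))) := by ring
      rw [e4, hnum]
      ring)
  refine ⟨c₂, fun c c' hc hcc' x hx hxW => ?_⟩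
  have h1 : x ∈ Bb c' ⊓ W3 Ξ q LI L0 LM c := ⟨hx, hxW⟩
  rw [key c c' hc hcc'] at h1
  exact h1

/-- **[CR-q²-INST], residue side**, for a `k`-module `R` with an injective coordinate map. -/
theorem cuspReg_q2_of_embedding (hj : jqModC k ∈ L) (q : ℕ) (hq : 2 ≤ q) (ψ m₀ : ℕ)
    {Ξ : Type} [Fintype Ξ] (hΞ : Fintype.card Ξ = q - 1)
    (hR : ∀ i, m₀ ≤ i → Module.Finite k (WJ k L i) ∧
      finrank k (WJ k L (i + 1)) = finrank k (WJ k L i) + ψ)
    (LI L0 LM : IntermediateField k (LaurentSeries k))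
    {R : Type*} [AddCommGroup R] [Module k R] (Co : R →ₗ[k] P3 k Ξ) (hCo : Function.Injective Co)
    (Bc : ℕ → Submodule k R) (hBmono : Monotone Bc) (hfin : ∀ c, Module.Finite k (Bc c))
    (hincl : ∀ c, ∀ x ∈ Bc c, (Co x).1 ∈ WJ k LI (c * (q ^ 2 + q + 1)) ∧
      (Co x).2.1 ∈ WJ k L0 (c * (q ^ 2 + q + 1)) ∧ ∀ i, (Co x).2.2 i ∈ WJ k LM (c * (q + 2)))
    (c₁ : ℕ)
    (hcount : ∀ c, c₁ ≤ c →
      finrank k (Bc (c + 1)) ≤ finrank k (Bc c) + 3 * (q * (q + 1) * ψ))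
    (Θ : LaurentSeries k) (t : Ξ → k) (ht : Function.Injective t)
    (hU : ∀ (i N : ℕ) (x : LaurentSeries k), x ∈ L → IsIntegral (polyJ k) x →
      Θ ^ i * x ∈ WJ k LM N → x ∈ WJ k L (N - i))
    (hfamI : ∀ c, c₁ ≤ c → ∀ a ∈ WJ k L (c - q ^ 2),
      ∃ x ∈ Bc c, Co x = ((omI k q c * a, 0, 0) : P3 k Ξ))
    (hfam0 : ∀ c, c₁ ≤ c → ∀ a ∈ WJ k L (c - q ^ 2),
      ∃ x ∈ Bc c, Co x = ((0, omI k q c * a, 0) : P3 k Ξ))
    (hfamM : ∀ c, c₁ ≤ c → ∀ m : Fin (q - 1), ∀ a ∈ WJ k L (c - q ^ 2 - q),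
      ∃ x ∈ Bc c, Co x
        = ((0, 0, fun i => (HahnSeries.C (t i) * Θ) ^ (m : ℕ) * (omM k q c m * a)) : P3 k Ξ)) :
    ∃ c₀ : ℕ, ∀ c c' : ℕ, c₀ ≤ c → c ≤ c' → ∀ x ∈ Bc c',
      ((Co x).1 ∈ WJ k LI (c * (q ^ 2 + q + 1)) ∧ (Co x).2.1 ∈ WJ k L0 (c * (q ^ 2 + q + 1)) ∧
        ∀ i, (Co x).2.2 i ∈ WJ k LM (c * (q + 2))) → x ∈ Bc c := by
  have hfinmap : ∀ c, Module.Finite k ((Bc c).map Co) := fun c =>
    haveI := hfin c
    Module.Finite.map (Bc c) Co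
  have hrank : ∀ c, finrank k ((Bc c).map Co) = finrank k (Bc c) := fun c =>
    (Submodule.equivMapOfInjective Co hCo (Bc c)).symm.finrank_eq
  obtain ⟨c₀, h⟩ := cuspReg_q2_core hj q hq ψ m₀ hΞ hR LI L0 LM (fun c => (Bc c).map Co)
    (fun c c' hcc => Submodule.map_mono (hBmono hcc)) hfinmap
    (by
      rintro c _ ⟨x, hx, rfl⟩
      exact hincl c x hx)
    c₁
    (by
      intro c hc
      rw [hrank, hrank]
      exact hcount c hc)
    Θ t ht hU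
    (by
      intro c hc a ha
      obtain ⟨x, hx, hxe⟩ := hfamI c hc a ha
      exact ⟨x, hx, hxe⟩)
    (by
      intro c hc a ha
      obtain ⟨x, hx, hxe⟩ := hfam0 c hc a ha
      exact ⟨x, hx, hxe⟩)
    (by
      intro c hc m a ha
      obtain ⟨x, hx, hxe⟩ := hfamM c hc m a ha
      exact ⟨x, hx, hxe⟩)
  refine ⟨c₀, fun c c' hc hcc' x hx hxW => ?_⟩
  obtain ⟨y, hy, hye⟩ := h c c' hc hcc' (Co x) ⟨x, hx, rfl⟩ hxW
  rw [← hCo hye]
  exact hy

end Fermat.Agent.S36.CuspRegCore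

end
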