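import Mathlib
import Fermat.Prelude.Def_ModularCurve_GenusNumerics
import Fermat.Agent.Lib.Gamma0Count
import Fermat.Agent.S34.Num

/-!
# S36 / P8 — [NUM-q²]: `ψ(q²M) = q (q+1) ψ(M)` and `c(q²M) = (q+1) c(M)` for a prime `q ∤ M`

The level-`q²` twin of `Fermat.Agent.S34.Num` (owner: helper50).

* `divisors_mul_prime_sq` : the divisors of `M q²` are `d`, `d q`, `d q²` with `d ∣ M`;
* `dedekindPsi_mul_prime_sq` : `dedekindPsi (M * q * q) = q * (q + 1) * dedekindPsi M`;
* `cuspCount_mul_prime_sq` : `cuspCount (M * q * q) = (q + 1) * cuspCount M`;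
* the same in the spelling `M * q ^ 2`, and the relations to level `M * q`.
-/

set_option autoImplicit false

namespace Fermat.Agent.S36.NumQ2

open ModularCurve

/-- The divisors of `M * q * q` for a prime `q ∤ M`: the divisors `d` of `M`, and `d q`,
`d q²`. -/
theorem divisors_mul_prime_sq {q M : ℕ} (hq : q.Prime) (hM : M ≠ 0) :
    Nat.divisors (M * q * q) =
      (Nat.divisors M ∪ (Nat.divisors M).image (· * q)) ∪
        (Nat.divisors M).image (· * (q * q)) := by
  ext d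
  simp only [Nat.mem_divisors, Finset.mem_union, Finset.mem_image]
  constructor
  · rintro ⟨hd, -⟩
    rw [mul_assoc] at hd
    obtain ⟨d₁, d₂, hd₁, hd₂, rfl⟩ := Nat.dvd_mul.mp hd
    have hd₂' : d₂ ∣ q ^ 2 := by rwa [pow_two]
    obtain ⟨m, hm, rfl⟩ := (Nat.dvd_prime_pow hq).mp hd₂'
    interval_cases m
    · left; left
      exact ⟨by simpa using hd₁, hM⟩
    · left; right
      exact ⟨d₁, ⟨hd₁, hM⟩, by simp⟩
    · right
      exact ⟨d₁, ⟨hd₁, hM⟩, by rw [pow_two]⟩
  · have hne : M * q * q ≠ 0 := mul_ne_zero (mul_ne_zero hM hq.ne_zero) hq.ne_zero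
    rintro ((⟨hd, -⟩ | ⟨d', ⟨hd, -⟩, rfl⟩) | ⟨d', ⟨hd, -⟩, rfl⟩)
    · exact ⟨dvd_mul_of_dvd_left (dvd_mul_of_dvd_left hd q) q, hne⟩
    · exact ⟨dvd_mul_of_dvd_left (Nat.mul_dvd_mul_right hd q) q, hne⟩
    · refine ⟨?_, hne⟩
      rw [mul_assoc]
      exact Nat.mul_dvd_mul_right hd (q * q)

/-- `ψ(q²M) = q (q+1) ψ(M)` for a prime `q ∤ M`. -/
theorem dedekindPsi_mul_prime_sq {q M : ℕ} (hq : q.Prime) (h : ¬ q ∣ M) :
    dedekindPsi (M * q * q) = q * (q + 1) * dedekindPsi M := by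
  have hM : M ≠ 0 := by rintro rfl; exact h (dvd_zero q)
  have hMq : M * q ≠ 0 := mul_ne_zero hM hq.ne_zero
  rw [mul_comm (M * q) q,
    Fermat.Agent.Lib.Gamma0Count.dedekindPsi_mul_of_dvd hq hMq (dvd_mul_left q M),
    Fermat.Agent.S34.Num.dedekindPsi_mul_prime hq h, mul_assoc]

/-- `ψ(q · qM) = q ψ(qM)`: the degree of level `q²M` over level `qM` is `q`. -/
theorem dedekindPsi_mul_mul_eq {q M : ℕ} (hq : q.Prime) (hM : M ≠ 0) :
    dedekindPsi (M * q * q) = q * dedekindPsi (M * q) := by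
  have hMq : M * q ≠ 0 := mul_ne_zero hM hq.ne_zero
  rw [mul_comm (M * q) q,
    Fermat.Agent.Lib.Gamma0Count.dedekindPsi_mul_of_dvd hq hMq (dvd_mul_left q M)]

/-- `c(q²M) = (q+1) c(M)` for a prime `q ∤ M`. -/
theorem cuspCount_mul_prime_sq {q M : ℕ} (hq : q.Prime) (h : ¬ q ∣ M) :
    cuspCount (M * q * q) = (q + 1) * cuspCount M := by
  have hM : M ≠ 0 := by rintro rfl; exact h (dvd_zero q)
  have hq0 : 0 < q := hq.pos
  have hdisj₁ : Disjoint (Nat.divisors M) ((Nat.divisors M).image (· * q)) :=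
    Fermat.Agent.S34.Num.disjoint_divisors_image h
  have hdisj₂ : Disjoint (Nat.divisors M ∪ (Nat.divisors M).image (· * q))
      ((Nat.divisors M).image (· * (q * q))) := by
    rw [Finset.disjoint_left]
    intro d hd hd'
    obtain ⟨d', hd'M, rfl⟩ := Finset.mem_image.mp hd'
    rcases Finset.mem_union.mp hd with hd | hd
    · exact h (dvd_trans (dvd_mul_of_dvd_right (dvd_mul_left q q) d')
        (Nat.dvd_of_mem_divisors hd))
    · obtain ⟨d'', hd''M, hEq⟩ := Finset.mem_image.mp hd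
      have hEq' : d'' = d' * q := by
        have : d'' * q = d' * q * q := by rw [hEq]; ring
        exact Nat.eq_of_mul_eq_mul_right hq0 this
      exact h (dvd_trans (by rw [hEq']; exact dvd_mul_left q d') (Nat.dvd_of_mem_divisors hd''M))
  unfold cuspCount
  rw [divisors_mul_prime_sq hq hM, Finset.sum_union hdisj₂, Finset.sum_union hdisj₁,
    Finset.sum_image, Finset.sum_image]
  · have key : ∀ d ∈ Nat.divisors M,
        Nat.totient (Nat.gcd d (M * q * q / d)) + Nat.totient (Nat.gcd (d * q) (M * q * q / (d * q)))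
          + Nat.totient (Nat.gcd (d * (q * q)) (M * q * q / (d * (q * q))))
          = (q + 1) * Nat.totient (Nat.gcd d (M / d)) := by
      intro d hd
      obtain ⟨e, rfl⟩ := Nat.dvd_of_mem_divisors hd
      have hd0 : 0 < d := Nat.pos_of_ne_zero (fun h0 => hM (by rw [h0, zero_mul]))
      have hqd : Nat.Coprime q d :=
        (Nat.Prime.coprime_iff_not_dvd hq).mpr fun h' => h (dvd_trans h' (dvd_mul_right d e))
      have hqe : Nat.Coprime q e :=
        (Nat.Prime.coprime_iff_not_dvd hq).mpr fun h' => h (dvd_trans h' (dvd_mul_left e d))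
      have hqg : Nat.Coprime (Nat.gcd d e) q :=
        Nat.Coprime.coprime_dvd_left (Nat.gcd_dvd_left d e) hqd.symm
      have e1 : d * e * q * q / d = e * (q * q) := by
        rw [show d * e * q * q = d * (e * (q * q)) by ring, Nat.mul_div_cancel_left _ hd0]
      have e2 : d * e * q * q / (d * q) = e * q := by
        rw [show d * e * q * q = (d * q) * (e * q) by ring,
          Nat.mul_div_cancel_left _ (Nat.mul_pos hd0 hq0)]
      have e3 : d * e * q * q / (d * (q * q)) = e := by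
        rw [show d * e * q * q = (d * (q * q)) * e by ring,
          Nat.mul_div_cancel_left _ (Nat.mul_pos hd0 (Nat.mul_pos hq0 hq0))]
      have e0 : d * e / d = e := Nat.mul_div_cancel_left _ hd0
      have hqqd : Nat.Coprime (q * q) d := Nat.Coprime.mul_left hqd hqd
      have hqqe : Nat.Coprime (q * q) e := Nat.Coprime.mul_left hqe hqe
      have g1 : Nat.gcd d (e * (q * q)) = Nat.gcd d e :=
        Nat.Coprime.gcd_mul_right_cancel_right e hqqd
      have g2 : Nat.gcd (d * q) (e * q) = Nat.gcd d e * q := Nat.gcd_mul_right d q e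
      have g3 : Nat.gcd (d * (q * q)) e = Nat.gcd d e :=
        Nat.Coprime.gcd_mul_right_cancel d hqqe
      rw [e1, e2, e3, e0, g1, g2, g3, Nat.totient_mul hqg, Nat.totient_prime hq]
      have hq1 : 1 ≤ q := hq0
      obtain ⟨r, rfl⟩ : ∃ r, q = r + 1 := ⟨q - 1, by omega⟩
      simp only [Nat.add_sub_cancel]
      ring
    rw [← Finset.sum_add_distrib, ← Finset.sum_add_distrib, Finset.mul_sum]
    exact Finset.sum_congr rfl key
  · intro a _ b _ hab
    exact Nat.eq_of_mul_eq_mul_right (Nat.mul_pos hq0 hq0) hab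
  · intro a _ b _ hab
    exact Nat.eq_of_mul_eq_mul_right hq0 hab

/-- `c(q²M) = (q+1) c(M)` and `c(qM) = 2 c(M)`: hence `2 c(q²M) = (q+1) c(qM)`. -/
theorem two_mul_cuspCount_mul_mul {q M : ℕ} (hq : q.Prime) (h : ¬ q ∣ M) :
    2 * cuspCount (M * q * q) = (q + 1) * cuspCount (M * q) := by
  rw [cuspCount_mul_prime_sq hq h, Fermat.Agent.S34.Num.cuspCount_mul_prime hq h]
  ring

/-- The spelling `M * q ^ 2`. -/
theorem dedekindPsi_mul_sq {q M : ℕ} (hq : q.Prime) (h : ¬ q ∣ M) :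
    dedekindPsi (M * q ^ 2) = q * (q + 1) * dedekindPsi M := by
  rw [pow_two, ← mul_assoc]
  exact dedekindPsi_mul_prime_sq hq h

/-- The spelling `M * q ^ 2`. -/
theorem cuspCount_mul_sq {q M : ℕ} (hq : q.Prime) (h : ¬ q ∣ M) :
    cuspCount (M * q ^ 2) = (q + 1) * cuspCount M := by
  rw [pow_two, ← mul_assoc]
  exact cuspCount_mul_prime_sq hq h

/-- **[NUM-q²]** `ψ(q²M) = q (q+1) ψ(M)` and `c(q²M) = (q+1) c(M)` for a prime `q ∤ M`. -/
theorem numStmtSq (q M : ℕ) (hq : q.Prime) (h : ¬ q ∣ M) :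
    dedekindPsi (M * q * q) = q * (q + 1) * dedekindPsi M ∧
      cuspCount (M * q * q) = (q + 1) * cuspCount M :=
  ⟨dedekindPsi_mul_prime_sq hq h, cuspCount_mul_prime_sq hq h⟩

end Fermat.Agent.S36.NumQ2
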