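import Mathlib
import Fermat.Agent.S34.Plan
import Fermat.Agent.S34.PoleDeg
import Fermat.Agent.S34.PoleBound
import Fermat.Agent.S18.Char0
import Fermat.Agent.S18.PullStep
import Fermat.Agent.Lib.FFPoles

/-!
# S36 / P8 — [POLE-CHAIN]: the poles of `j`, `j_q`, `j_{q²}` on `F_N`, `q² ∣ N` (helper76)

`q` prime, `N` any level with `q ∣ N`, `q ^ 2 ∣ N` (no coprimality hypothesis, no auxiliary level),
`j = jBar N`, `j_q = jBarLevel N q _ = j(T^q)`, `j_{q²} = jBarLevel N (q^2) _ = j(T^(q²))`.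

* `kron_symm_Om`  : the Kronecker polynomial `χ` of level `q` (`PoleBound.exists_kronecker_poly`)
  satisfies `χ(j)(j_q) = 0` AND `χ(j_q)(j) = 0` in `Q̄((T))` (symmetry, by the landed level-`q`
  swap `PoleDeg.exists_jswap`);
* `kron_chain`    : in `F_N`: `χ(j)(j_q) = χ(j_q)(j) = χ(j_q)(j_{q²}) = χ(j_{q²})(j_q) = 0`;
* `ord_chain`     : `q min(0, ord_P j) ≤ ord_P j_q`, `q min(0, ord_P j_q) ≤ ord_P j`, and the same
  for the pair `(j_q, j_{q²})`, at every place `P` of `F_N`;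
* `ord_neg_iff`   : `j`, `j_q`, `j_{q²}` have the same poles;
* `finrank_adjoin_jq`, `finrank_adjoin_jqq` : `[F_N : Q̄(j_q)] = [F_N : Q̄(j_{q²})] = ψ(N)`
  (towers `Q̄(j_q) ⊆ F_q ⊆ F_N` and `Q̄(j_{q²}) ⊆ β(F_q) ⊆ F_N`, `β = (T ↦ T^q)`; no Atkin–Lehner
  involution at level `q²`);
* `degree_poleJq`, `degree_poleJqq` : `deg (j_q)_∞ = deg (j_{q²})_∞ = ψ(N)`;
* `IsE3`, `exists_isE3`, `isE3_split`, `isE3_phi` : the divisor
  `E = (j)_∞ + (j_q)_∞ + (j_{q²})_∞` is the polar divisor of `φ = j j_q j_{q²}`, of degree `3 ψ(N)`.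
-/

set_option autoImplicit false
set_option maxHeartbeats 400000

noncomputable section

namespace Fermat.Agent.S36.PoleChain

open AlgebraicCurve IntermediateField ModularCurve Polynomial
open Fermat.Agent.S24 Fermat.Agent.S18.Plan Fermat.Agent.S18 Fermat.Agent.S34

/-! ## The symmetric Kronecker relation in `Q̄((T))` -/

/-- `β = (T ↦ T^q)` as a `Q̄`-algebra endomorphism of `Q̄((T))`. -/
abbrev betaOm (q : ℕ) [NeZero q] : Om →ₐ[Kbar] Om := qExpandAlgHomC Kbar q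

theorem betaOm_apply (q : ℕ) [NeZero q] (f : Om) : betaOm q f = qExpand Kbar q f := rfl

/-- **Symmetric Kronecker relation** at a prime level `q`: one polynomial `χ` with the degree
bounds of `PoleBound.exists_kronecker_poly` and `χ(j)(j_q) = 0 = χ(j_q)(j)`. -/
theorem kron_symm_Om (q : ℕ) [NeZero q] (hq : q.Prime) :
    ∃ χ : Polynomial (Polynomial Kbar), χ.Monic ∧ χ.natDegree = dedekindPsi q ∧
      (∀ m, (χ.coeff m).natDegree ≤ q * (χ.natDegree - m)) ∧
      (χ.map ((aeval (jqModC Kbar) : Kbar[X] →ₐ[Kbar] Om) : Kbar[X] →+* Om)).eval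
        (qExpand Kbar q (jqModC Kbar)) = 0 ∧
      (χ.map ((aeval (qExpand Kbar q (jqModC Kbar)) : Kbar[X] →ₐ[Kbar] Om) :
        Kbar[X] →+* Om)).eval (jqModC Kbar) = 0 := by
  obtain ⟨χ, hχ, hdeg, hcr, -, hroot⟩ := PoleBound.exists_kronecker_poly q
  refine ⟨χ, hχ, hdeg, hcr, hroot, ?_⟩
  have hne : NeZero (1 * q) := ⟨by rw [one_mul]; exact NeZero.ne q⟩
  obtain ⟨w, hw1, hw2, -⟩ := PoleDeg.exists_jswap 1 q hq (Nat.coprime_one_left q)
  set v : FN (1 * q) →ₐ[Kbar] Om := (modularFunctionFieldBar (1 * q)).val with hv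
  have e1 : v (jBar (1 * q)) = jqModC Kbar := PoleBound.coe_jBar' (1 * q)
  have e2 : v (jBarLevel (1 * q) q (Dvd.intro_left 1 rfl)) = qExpand Kbar q (jqModC Kbar) :=
    PoleBound.coe_jBarLevel' (1 * q) q (Dvd.intro_left 1 rfl)
  -- the relation inside `F_q`
  have h1 : (χ.map ((aeval (jBar (1 * q)) : Kbar[X] →ₐ[Kbar] FN (1 * q)) :
      Kbar[X] →+* FN (1 * q))).eval (jBarLevel (1 * q) q (Dvd.intro_left 1 rfl)) = 0 := by
    apply Subtype.ext
    have h := PoleBound.map_eval_aeval v χ (jBar (1 * q))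
      (jBarLevel (1 * q) q (Dvd.intro_left 1 rfl))
    rw [e1, e2, hroot] at h
    exact h
  -- apply the swap
  have h2 := PoleBound.map_eval_aeval (w : FN (1 * q) →ₐ[Kbar] FN (1 * q)) χ (jBar (1 * q))
    (jBarLevel (1 * q) q (Dvd.intro_left 1 rfl))
  rw [h1, map_zero] at h2
  have hw1' : (w : FN (1 * q) →ₐ[Kbar] FN (1 * q)) (jBar (1 * q)) =
      jBarLevel (1 * q) q (Dvd.intro_left 1 rfl) := hw1
  have hw2' : (w : FN (1 * q) →ₐ[Kbar] FN (1 * q)) (jBarLevel (1 * q) q (Dvd.intro_left 1 rfl)) =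
      jBar (1 * q) := hw2
  rw [hw1', hw2'] at h2
  -- back to `Q̄((T))`
  have h3 := PoleBound.map_eval_aeval v χ (jBarLevel (1 * q) q (Dvd.intro_left 1 rfl))
    (jBar (1 * q))
  rw [← h2, map_zero, e1, e2] at h3
  exact h3.symm

/-! ## The chain `j, j_q, j_{q²}` at level `N`, `q² ∣ N` -/

section Chain

variable (N q : ℕ) [NeZero N] [NeZero q] (hq : q ∣ N) (hqq : q ^ 2 ∣ N)

theorem coe_jq : ((jBarLevel N q hq : FN N) : Om) = qExpand Kbar q (jqModC Kbar) :=
  PoleBound.coe_jBarLevel' N q hq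

theorem coe_jqq :
    ((jBarLevel N (q ^ 2) hqq : FN N) : Om) = qExpand Kbar q (qExpand Kbar q (jqModC Kbar)) := by
  rw [PoleBound.coe_jBarLevel' N (q ^ 2) hqq, qExpand_qExpand]
  exact qExpand_congr (sq q) _

/-- **The Kronecker chain in `F_N`**: one `χ` with
`χ(j)(j_q) = χ(j_q)(j) = χ(j_q)(j_{q²}) = χ(j_{q²})(j_q) = 0`. -/
theorem kron_chain (hqp : q.Prime) :
    ∃ χ : Polynomial (Polynomial Kbar), χ.Monic ∧ χ.natDegree = dedekindPsi q ∧
      (∀ m, (χ.coeff m).natDegree ≤ q * (χ.natDegree - m)) ∧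
      (χ.map ((aeval (jBar N) : Kbar[X] →ₐ[Kbar] FN N) : Kbar[X] →+* FN N)).eval
        (jBarLevel N q hq) = 0 ∧
      (χ.map ((aeval (jBarLevel N q hq) : Kbar[X] →ₐ[Kbar] FN N) : Kbar[X] →+* FN N)).eval
        (jBar N) = 0 ∧
      (χ.map ((aeval (jBarLevel N q hq) : Kbar[X] →ₐ[Kbar] FN N) : Kbar[X] →+* FN N)).eval
        (jBarLevel N (q ^ 2) hqq) = 0 ∧
      (χ.map ((aeval (jBarLevel N (q ^ 2) hqq) : Kbar[X] →ₐ[Kbar] FN N) :
        Kbar[X] →+* FN N)).eval (jBarLevel N q hq) = 0 := by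
  obtain ⟨χ, hχ, hdeg, hcr, hr1, hr2⟩ := kron_symm_Om q hqp
  -- the two shifted relations in `Q̄((T))`
  have hr3 := PoleBound.map_eval_aeval (betaOm q) χ (jqModC Kbar) (qExpand Kbar q (jqModC Kbar))
  rw [hr1, map_zero, betaOm_apply, betaOm_apply] at hr3
  have hr4 := PoleBound.map_eval_aeval (betaOm q) χ (qExpand Kbar q (jqModC Kbar)) (jqModC Kbar)
  rw [hr2, map_zero, betaOm_apply, betaOm_apply] at hr4
  set v : FN N →ₐ[Kbar] Om := (modularFunctionFieldBar N).val with hv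
  have e0 : v (jBar N) = jqModC Kbar := PoleBound.coe_jBar' N
  have e1 : v (jBarLevel N q hq) = qExpand Kbar q (jqModC Kbar) := coe_jq N q hq
  have e2 : v (jBarLevel N (q ^ 2) hqq) = qExpand Kbar q (qExpand Kbar q (jqModC Kbar)) :=
    coe_jqq N q hqq
  refine ⟨χ, hχ, hdeg, hcr, ?_, ?_, ?_, ?_⟩
  · apply Subtype.ext
    have h := PoleBound.map_eval_aeval v χ (jBar N) (jBarLevel N q hq)
    rw [e0, e1, hr1] at h
    exact h
  · apply Subtype.ext
    have h := PoleBound.map_eval_aeval v χ (jBarLevel N q hq) (jBar N)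
    rw [e0, e1, hr2] at h
    exact h
  · apply Subtype.ext
    have h := PoleBound.map_eval_aeval v χ (jBarLevel N q hq) (jBarLevel N (q ^ 2) hqq)
    rw [e1, e2, ← hr3] at h
    exact h
  · apply Subtype.ext
    have h := PoleBound.map_eval_aeval v χ (jBarLevel N (q ^ 2) hqq) (jBarLevel N q hq)
    rw [e1, e2, ← hr4] at h
    exact h

/-- **Pole comparison** at every place of `F_N`, in both directions, for the pairs `(j, j_q)` and
`(j_q, j_{q²})`. -/
theorem ord_chain (hqp : q.Prime) (P : Place Kbar (FN N)) :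
    (q : ℤ) * min 0 (P.ord (jBar N)) ≤ P.ord (jBarLevel N q hq) ∧
    (q : ℤ) * min 0 (P.ord (jBarLevel N q hq)) ≤ P.ord (jBar N) ∧
    (q : ℤ) * min 0 (P.ord (jBarLevel N q hq)) ≤ P.ord (jBarLevel N (q ^ 2) hqq) ∧
    (q : ℤ) * min 0 (P.ord (jBarLevel N (q ^ 2) hqq)) ≤ P.ord (jBarLevel N q hq) := by
  obtain ⟨χ, hχ, -, hcr, h1, h2, h3, h4⟩ := kron_chain N q hq hqq hqp
  exact ⟨PoleBound.ord_ge_of_root χ hχ q hcr _ _ h1 P, PoleBound.ord_ge_of_root χ hχ q hcr _ _ h2 P,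
    PoleBound.ord_ge_of_root χ hχ q hcr _ _ h3 P, PoleBound.ord_ge_of_root χ hχ q hcr _ _ h4 P⟩

/-- `j`, `j_q` and `j_{q²}` have the same poles. -/
theorem ord_neg_iff (hqp : q.Prime) (P : Place Kbar (FN N)) :
    (P.ord (jBar N) < 0 ↔ P.ord (jBarLevel N q hq) < 0) ∧
    (P.ord (jBar N) < 0 ↔ P.ord (jBarLevel N (q ^ 2) hqq) < 0) := by
  obtain ⟨h1, h2, h3, h4⟩ := ord_chain N q hq hqq hqp P
  have key : ∀ a b : ℤ, (q : ℤ) * min 0 a ≤ b → b < 0 → a < 0 := by
    intro a b hab hb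
    by_contra ha
    rw [not_lt] at ha
    rw [min_eq_left ha, mul_zero] at hab
    omega
  have hA : P.ord (jBar N) < 0 ↔ P.ord (jBarLevel N q hq) < 0 :=
    ⟨fun h => key _ _ h2 h, fun h => key _ _ h1 h⟩
  have hB : P.ord (jBarLevel N q hq) < 0 ↔ P.ord (jBarLevel N (q ^ 2) hqq) < 0 :=
    ⟨fun h => key _ _ h4 h, fun h => key _ _ h3 h⟩
  exact ⟨hA, hA.trans hB⟩

end Chain

/-! ## Degrees over `Q̄(j_q)` and `Q̄(j_{q²})` -/

section Rel

/-- The degree over a simple subextension of an intermediate field `L`, computed in the ambient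
field. -/
theorem finrank_adjoin_eq_relfinrank {K Ω : Type*} [Field K] [Field Ω] [Algebra K Ω]
    (L : IntermediateField K Ω) (x : L) :
    Module.finrank K⟮x⟯ L = relfinrank K⟮(x : Ω)⟯ L := by
  have h0 : (K⟮x⟯).map L.val = K⟮(x : Ω)⟯ := by
    rw [IntermediateField.adjoin_map, Set.image_singleton]
    rfl
  have h1 : (K⟮(x : Ω)⟯).comap L.val = K⟮x⟯ := by
    rw [← h0]
    exact IntermediateField.comap_map _ _
  rw [← h1, IntermediateField.finrank_comap, IntermediateField.fieldRange_val]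

end Rel

section Degree

variable (N q : ℕ) [NeZero N] [NeZero q]

/-- `[F_n : Q̄(j)] = ψ(n)` in the ambient field. -/
theorem relfinrank_j (n : ℕ) [NeZero n] :
    relfinrank Kbar⟮jqModC Kbar⟯ (modularFunctionFieldBar n) = dedekindPsi n := by
  rw [← PoleBound.coe_jBar' n, ← finrank_adjoin_eq_relfinrank, FibreCount.finrank_eq]

/-- `[F_q : Q̄(j_q)] = ψ(q)` in the ambient field (the landed level-`q` swap). -/
theorem relfinrank_jq_level (hqp : q.Prime) :
    relfinrank Kbar⟮qExpand Kbar q (jqModC Kbar)⟯ (modularFunctionFieldBar q) = dedekindPsi q := by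
  have hL : Plan.Levels q 1 q (Plan.aux q * 1) :=
    ⟨hqp, Nat.one_pos, hqp.one_lt.ne' ∘ Nat.dvd_one.mp, (one_mul q).symm, rfl⟩
  rw [← PoleBound.coe_jBarLevel' q q dvd_rfl, ← finrank_adjoin_eq_relfinrank,
    PoleDeg.finrank_adjoin_jBarLevel hL dvd_rfl]

/-- `β(F_q) ⊆ F_N` for `q² ∣ N`. -/
theorem map_beta_le (hqq : q ^ 2 ∣ N) :
    (modularFunctionFieldBar q).map (betaOm q) ≤ modularFunctionFieldBar N := by
  rintro _ ⟨x, hx, rfl⟩
  have h1 : ((heckeBetaBar Kbar q q ⟨x, hx⟩ : FN (q * q)) : Om) = qExpand Kbar q x :=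
    coe_heckeBetaBar (L := Kbar) (N := q) (ℓ := q) ⟨x, hx⟩
  have hle : modularFunctionFieldBar (q * q) ≤ modularFunctionFieldBar N :=
    PullStep.bar_le (by rw [← sq]; exact hqq)
  have h2 : qExpand Kbar q x ∈ modularFunctionFieldBar (q * q) := by
    rw [← h1]
    exact (heckeBetaBar Kbar q q ⟨x, hx⟩).2
  exact hle h2

/-- **`[F_N : Q̄(j_q)] = [F_N : Q̄(j_{q²})] = ψ(N)`**, in the ambient field. -/
theorem relfinrank_jq_jqq (hq : q ∣ N) (hqq : q ^ 2 ∣ N) (hqp : q.Prime) :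
    relfinrank Kbar⟮qExpand Kbar q (jqModC Kbar)⟯ (modularFunctionFieldBar N) = dedekindPsi N ∧
    relfinrank Kbar⟮qExpand Kbar q (qExpand Kbar q (jqModC Kbar))⟯ (modularFunctionFieldBar N)
      = dedekindPsi N := by
  have ha : jqModC Kbar ∈ modularFunctionFieldBar q := by
    rw [← PoleBound.coe_jBar' q]
    exact (jBar q).2
  have ha1 : qExpand Kbar q (jqModC Kbar) ∈ modularFunctionFieldBar q := by
    rw [← PoleBound.coe_jBarLevel' q q dvd_rfl]
    exact (jBarLevel q q dvd_rfl).2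
  have hA : Kbar⟮jqModC Kbar⟯ ≤ modularFunctionFieldBar q := adjoin_simple_le_iff.mpr ha
  have hA1 : Kbar⟮qExpand Kbar q (jqModC Kbar)⟯ ≤ modularFunctionFieldBar q :=
    adjoin_simple_le_iff.mpr ha1
  have hFq : modularFunctionFieldBar q ≤ modularFunctionFieldBar N := PullStep.bar_le hq
  have hG := map_beta_le N q hqq
  have hmapA : (Kbar⟮jqModC Kbar⟯).map (betaOm q) = Kbar⟮qExpand Kbar q (jqModC Kbar)⟯ := by
    rw [IntermediateField.adjoin_map, Set.image_singleton]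
    rfl
  have hmapA1 : (Kbar⟮qExpand Kbar q (jqModC Kbar)⟯).map (betaOm q)
      = Kbar⟮qExpand Kbar q (qExpand Kbar q (jqModC Kbar))⟯ := by
    rw [IntermediateField.adjoin_map, Set.image_singleton]
    rfl
  have hA1G : Kbar⟮qExpand Kbar q (jqModC Kbar)⟯ ≤ (modularFunctionFieldBar q).map (betaOm q) := by
    rw [← hmapA]
    exact IntermediateField.map_mono _ hA
  have hA2G : Kbar⟮qExpand Kbar q (qExpand Kbar q (jqModC Kbar))⟯
      ≤ (modularFunctionFieldBar q).map (betaOm q) := by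
    rw [← hmapA1]
    exact IntermediateField.map_mono _ hA1
  -- the towers through `F_q`
  have t1 := relfinrank_mul_relfinrank hA hFq
  rw [relfinrank_j q, relfinrank_j N] at t1
  have t2 := relfinrank_mul_relfinrank hA1 hFq
  rw [relfinrank_jq_level q hqp, t1] at t2
  -- the towers through `β(F_q)`
  have g1 : relfinrank Kbar⟮qExpand Kbar q (jqModC Kbar)⟯
      ((modularFunctionFieldBar q).map (betaOm q)) = dedekindPsi q := by
    rw [← hmapA, relfinrank_map_map, relfinrank_j q]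
  have g2 : relfinrank Kbar⟮qExpand Kbar q (qExpand Kbar q (jqModC Kbar))⟯
      ((modularFunctionFieldBar q).map (betaOm q)) = dedekindPsi q := by
    rw [← hmapA1, relfinrank_map_map, relfinrank_jq_level q hqp]
  have t3 := relfinrank_mul_relfinrank hA1G hG
  have t4 := relfinrank_mul_relfinrank hA2G hG
  rw [g1] at t3
  rw [g2] at t4
  exact ⟨t2.symm, by rw [← t4, t3, ← t2]⟩

end Degree

/-! ## The pole divisors of `j_q` and `j_{q²}` on `F_N` -/

section Poles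

variable (N q : ℕ) [NeZero N] [NeZero q]

/-- `[F_N : Q̄(j_q)] = ψ(N)`. -/
theorem finrank_adjoin_jq (hq : q ∣ N) (hqq : q ^ 2 ∣ N) (hqp : q.Prime) :
    Module.finrank Kbar⟮jBarLevel N q hq⟯ (FN N) = dedekindPsi N := by
  rw [finrank_adjoin_eq_relfinrank, coe_jq N q hq]
  exact (relfinrank_jq_jqq N q hq hqq hqp).1

/-- `[F_N : Q̄(j_{q²})] = ψ(N)`. -/
theorem finrank_adjoin_jqq (hq : q ∣ N) (hqq : q ^ 2 ∣ N) (hqp : q.Prime) :
    Module.finrank Kbar⟮jBarLevel N (q ^ 2) hqq⟯ (FN N) = dedekindPsi N := by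
  rw [finrank_adjoin_eq_relfinrank, coe_jqq N q hqq]
  exact (relfinrank_jq_jqq N q hq hqq hqp).2

/-- `j(T)` is transcendental over `Q̄` in `Q̄((T))`. -/
theorem transcendental_jqModC : Transcendental Kbar (jqModC Kbar) := by
  have h := FibreCount.transcendental_jBar 1
  intro halg
  apply h
  rw [← PoleBound.coe_jBar' 1] at halg
  exact (isAlgebraic_algHom_iff (modularFunctionFieldBar 1).val Subtype.val_injective).mp halg

/-- `β = (T ↦ T^q)` preserves transcendence. -/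
theorem transcendental_beta {f : Om} (hf : Transcendental Kbar f) :
    Transcendental Kbar (qExpand Kbar q f) := by
  intro halg
  apply hf
  have h : IsAlgebraic Kbar (betaOm q f) := halg
  exact (isAlgebraic_algHom_iff (betaOm q) (qExpand_injective q)).mp h

omit [NeZero N] in
/-- Transcendence descends from `Q̄((T))` to `F_N`. -/
theorem transcendental_of_coe {x : FN N} (hx : Transcendental Kbar (x : Om)) :
    Transcendental Kbar x := by
  intro halg
  apply hx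
  exact (isAlgebraic_algHom_iff (modularFunctionFieldBar N).val Subtype.val_injective).mpr halg

theorem transcendental_jq (hq : q ∣ N) : Transcendental Kbar (jBarLevel N q hq) := by
  apply transcendental_of_coe
  rw [coe_jq N q hq]
  exact transcendental_beta q transcendental_jqModC

theorem transcendental_jqq (hqq : q ^ 2 ∣ N) : Transcendental Kbar (jBarLevel N (q ^ 2) hqq) := by
  apply transcendental_of_coe
  rw [coe_jqq N q hqq]
  exact transcendental_beta q (transcendental_beta q transcendental_jqModC)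

/-- An element `x` of `F_N` with `[F_N : Q̄(x)] = ψ(N)` is a separating chart. -/
theorem chart_of_finrank (x : FN N) (h : Module.finrank Kbar⟮x⟯ (FN N) = dedekindPsi N) :
    FiniteDimensional Kbar⟮x⟯ (FN N) ∧ Algebra.IsSeparable Kbar⟮x⟯ (FN N) := by
  have hfin : FiniteDimensional Kbar⟮x⟯ (FN N) := by
    have : Module.Free Kbar⟮x⟯ (FN N) := Module.Free.of_divisionRing _ _
    apply Module.finite_of_finrank_pos
    rw [h]
    exact FibreCount.dedekindPsi_pos N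
  have : CharZero Kbar⟮x⟯ :=
    charZero_of_injective_algebraMap (algebraMap Kbar Kbar⟮x⟯).injective
  have : Algebra.IsAlgebraic Kbar⟮x⟯ (FN N) := Algebra.IsAlgebraic.of_finite _ _
  exact ⟨hfin, Algebra.IsAlgebraic.isSeparable_of_perfectField⟩

/-- `deg (j_q)_∞ = ψ(N)`. -/
theorem degree_poleJq (hq : q ∣ N) (hqq : q ^ 2 ∣ N) (hqp : q.Prime) (Cq : Divisor Kbar (FN N))
    (hCq : ∀ P : Place Kbar (FN N), Cq P = max 0 (-(P.ord (jBarLevel N q hq)))) :
    Divisor.degree Cq = (dedekindPsi N : ℤ) := by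
  have h := finrank_adjoin_jq N q hq hqq hqp
  obtain ⟨_, _⟩ := chart_of_finrank N _ h
  rw [Lib.FFPoles.degree_poleDivisor (transcendental_jq N q hq) Cq hCq, h]

/-- `deg (j_{q²})_∞ = ψ(N)`. -/
theorem degree_poleJqq (hq : q ∣ N) (hqq : q ^ 2 ∣ N) (hqp : q.Prime)
    (Cqq : Divisor Kbar (FN N))
    (hCqq : ∀ P : Place Kbar (FN N), Cqq P = max 0 (-(P.ord (jBarLevel N (q ^ 2) hqq)))) :
    Divisor.degree Cqq = (dedekindPsi N : ℤ) := by
  have h := finrank_adjoin_jqq N q hq hqq hqp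
  obtain ⟨_, _⟩ := chart_of_finrank N _ h
  rw [Lib.FFPoles.degree_poleDivisor (transcendental_jqq N q hqq) Cqq hCqq, h]

/-- The pole divisor of `j_q` exists. -/
theorem exists_poleJq (hq : q ∣ N) (hqq : q ^ 2 ∣ N) (hqp : q.Prime) :
    ∃ Cq : Divisor Kbar (FN N), ∀ P : Place Kbar (FN N),
      Cq P = max 0 (-(P.ord (jBarLevel N q hq))) := by
  obtain ⟨_, _⟩ := chart_of_finrank N _ (finrank_adjoin_jq N q hq hqq hqp)
  exact Lib.FFPoles.exists_poleDivisor (transcendental_jq N q hq)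

/-- The pole divisor of `j_{q²}` exists. -/
theorem exists_poleJqq (hq : q ∣ N) (hqq : q ^ 2 ∣ N) (hqp : q.Prime) :
    ∃ Cqq : Divisor Kbar (FN N), ∀ P : Place Kbar (FN N),
      Cqq P = max 0 (-(P.ord (jBarLevel N (q ^ 2) hqq))) := by
  obtain ⟨_, _⟩ := chart_of_finrank N _ (finrank_adjoin_jqq N q hq hqq hqp)
  exact Lib.FFPoles.exists_poleDivisor (transcendental_jqq N q hqq)

end Poles

/-! ## The divisor `E = (j)_∞ + (j_q)_∞ + (j_{q²})_∞` -/

section E3

variable (N q : ℕ) [NeZero N] [NeZero q] (hq : q ∣ N) (hqq : q ^ 2 ∣ N)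

/-- `E = (j)_∞ + (j_q)_∞ + (j_{q²})_∞` on `F_N`. -/
def IsE3 (E : Divisor Kbar (FN N)) : Prop :=
  ∀ P : Place Kbar (FN N),
    E P = max 0 (-(P.ord (jBar N))) + max 0 (-(P.ord (jBarLevel N q hq)))
      + max 0 (-(P.ord (jBarLevel N (q ^ 2) hqq)))

/-- `φ = j · j_q · j_{q²}`. -/
def phi3 : FN N := jBar N * jBarLevel N q hq * jBarLevel N (q ^ 2) hqq

theorem jBar_ne_zero : jBar N ≠ 0 := fun h =>
  FibreCount.transcendental_jBar N (h ▸ isAlgebraic_zero)

theorem jq_ne_zero : jBarLevel N q hq ≠ 0 := fun h =>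
  transcendental_jq N q hq (h ▸ isAlgebraic_zero)

theorem jqq_ne_zero : jBarLevel N (q ^ 2) hqq ≠ 0 := fun h =>
  transcendental_jqq N q hqq (h ▸ isAlgebraic_zero)

theorem phi3_ne_zero : phi3 N q hq hqq ≠ 0 :=
  mul_ne_zero (mul_ne_zero (jBar_ne_zero N) (jq_ne_zero N q hq)) (jqq_ne_zero N q hqq)

theorem ord_phi3 (P : Place Kbar (FN N)) :
    P.ord (phi3 N q hq hqq) = P.ord (jBar N) + P.ord (jBarLevel N q hq)
      + P.ord (jBarLevel N (q ^ 2) hqq) := by
  rw [phi3, P.ord_mul (mul_ne_zero (jBar_ne_zero N) (jq_ne_zero N q hq)) (jqq_ne_zero N q hqq),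
    P.ord_mul (jBar_ne_zero N) (jq_ne_zero N q hq)]

/-- A divisor `E = (j)_∞ + (j_q)_∞ + (j_{q²})_∞` exists. -/
theorem exists_isE3 (hqp : q.Prime) : ∃ E : Divisor Kbar (FN N), IsE3 N q hq hqq E := by
  obtain ⟨Cj, hCj, -⟩ := Char0.exists_poleDivisor_jBar N
  obtain ⟨Cq, hCq⟩ := exists_poleJq N q hq hqq hqp
  obtain ⟨Cqq, hCqq⟩ := exists_poleJqq N q hq hqq hqp
  refine ⟨Cj + Cq + Cqq, fun P => ?_⟩
  rw [Finsupp.add_apply, Finsupp.add_apply, hCj P, hCq P, hCqq P]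

/-- The splitting `E = (j)_∞ + C`, `C = (j_q)_∞ + (j_{q²})_∞ ≥ 0` of degree `2 ψ(N)`. -/
theorem isE3_split (hqp : q.Prime) (E : Divisor Kbar (FN N)) (hE : IsE3 N q hq hqq E) :
    ∃ Cj C : Divisor Kbar (FN N), Plan.IsPoleJ N Cj ∧ (∀ P, 0 ≤ C P) ∧
      Divisor.degree C = ((2 : ℕ) : ℤ) * (dedekindPsi N : ℤ) ∧ E = Cj + C := by
  obtain ⟨Cj, hCj, -⟩ := Char0.exists_poleDivisor_jBar N
  obtain ⟨Cq, hCq⟩ := exists_poleJq N q hq hqq hqp
  obtain ⟨Cqq, hCqq⟩ := exists_poleJqq N q hq hqq hqp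
  have hEeq : E = Cj + (Cq + Cqq) := by
    ext P
    rw [hE P, Finsupp.add_apply, Finsupp.add_apply, hCj P, hCq P, hCqq P]
    ring
  refine ⟨Cj, Cq + Cqq, hCj, fun P => ?_, ?_, hEeq⟩
  · rw [Finsupp.add_apply, hCq P, hCqq P]
    exact add_nonneg (le_max_left _ _) (le_max_left _ _)
  · rw [map_add, degree_poleJq N q hq hqq hqp Cq hCq, degree_poleJqq N q hq hqq hqp Cqq hCqq]
    push_cast
    ring

/-- **`E` is the polar divisor of `φ = j j_q j_{q²}`**, it is effective and `deg E = 3 ψ(N)`. -/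
theorem isE3_phi (hqp : q.Prime) (E : Divisor Kbar (FN N)) (hE : IsE3 N q hq hqq E) :
    (∀ P, 0 ≤ E P) ∧ (∀ P, -E P ≤ P.ord (phi3 N q hq hqq)) ∧
      (∀ P, E P = 0 ∨ P.ord (phi3 N q hq hqq) = -E P) ∧
      Divisor.degree E = 3 * (dedekindPsi N : ℤ) := by
  have hcase : ∀ P : Place Kbar (FN N),
      (0 ≤ P.ord (jBar N) ∧ 0 ≤ P.ord (jBarLevel N q hq) ∧
        0 ≤ P.ord (jBarLevel N (q ^ 2) hqq)) ∨
      (P.ord (jBar N) < 0 ∧ P.ord (jBarLevel N q hq) < 0 ∧
        P.ord (jBarLevel N (q ^ 2) hqq) < 0) := by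
    intro P
    obtain ⟨h1, h2⟩ := ord_neg_iff N q hq hqq hqp P
    by_cases h : P.ord (jBar N) < 0
    · exact Or.inr ⟨h, h1.mp h, h2.mp h⟩
    · exact Or.inl ⟨not_lt.mp h, not_lt.mp (fun h' => h (h1.mpr h')),
        not_lt.mp (fun h' => h (h2.mpr h'))⟩
  refine ⟨fun P => ?_, fun P => ?_, fun P => ?_, ?_⟩
  · rw [hE P]
    exact add_nonneg (add_nonneg (le_max_left _ _) (le_max_left _ _)) (le_max_left _ _)
  · rw [hE P, ord_phi3]
    rcases hcase P with ⟨a, b, c⟩ | ⟨a, b, c⟩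
    · rw [max_eq_left (by omega), max_eq_left (by omega), max_eq_left (by omega)]
      omega
    · rw [max_eq_right (by omega), max_eq_right (by omega), max_eq_right (by omega)]
      omega
  · rw [hE P, ord_phi3]
    rcases hcase P with ⟨a, b, c⟩ | ⟨a, b, c⟩
    · left
      rw [max_eq_left (by omega), max_eq_left (by omega), max_eq_left (by omega)]
      ring
    · right
      rw [max_eq_right (by omega), max_eq_right (by omega), max_eq_right (by omega)]
      ring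
  · obtain ⟨Cj, C, hCj, -, hdegC, hEeq⟩ := isE3_split N q hq hqq hqp E hE
    rw [hEeq, map_add, PoleDeg.degree_poleJ N Cj hCj, hdegC]
    push_cast
    ring

end E3

end Fermat.Agent.S36.PoleChain

end
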