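import Mathlib
import Fermat.Agent.S34.Plan
import Fermat.Agent.S34.PoleDeg
import Fermat.Agent.S34.RiemannE
import Fermat.Agent.S18.RR0
import Fermat.Agent.S18.PullStep
import Fermat.Agent.S18.Char0

/-!
# S36 / P8 — [RRE], generic form (helper76)

The exact dimension of `L(cE)` in the pull-back vocabulary `pullRR N N₂ B` of S18, for
`E = (j)_∞ + C` with `C ≥ 0` an effective divisor of `F_N` of degree `m ψ(N)`:

* `riemann_eff`        : `12 l(cE) = 12 (m+1) c ψ(N₂) + 6 cusps(N₂) - ψ(N₂)` for `c` large;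
* `finrank_le_add_eff` : `(RR-D)`  `l(cE) ≤ l(D + cE)` for `deg D = 0`, `c` large;
* `finrank_add_le_eff` : `l(B + E) ≤ l(B) + (m+1) ψ(N₂)` for every `B` (no threshold);
* `finrank_succ_nsmul_le_eff` : `l((c+1)E) ≤ l(cE) + (m+1) ψ(N₂)`.

`N ∣ N₂`, `N₂` torsion-free (`4 ∣ N₂ ∨ 9 ∣ N₂`).  Method = helper7's `S34/RiemannE.lean`
(`m = 1`, `C = (j_q)_∞`): Riemann's inequality `S18.RR0.rr0` from below, the exact count at
`c (j)_∞` (`S18.RR0.exists_gamma`, `RR0.pullRR_base`) plus "adding a point costs at most `d`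
dimensions" (`S18.PullStep.pullStep`) from above.
-/

set_option autoImplicit false
set_option maxHeartbeats 400000

noncomputable section

namespace Fermat.Agent.S36.RiemannEff

open ModularCurve AlgebraicCurve Fermat.Agent.S24 Fermat.Agent.S18.Content Fermat.Agent.S18.Plan
open Fermat.Agent.S18 Fermat.Agent.S34

variable (N N₂ : ℕ) [NeZero N] [NeZero N₂]

/-- Degree and sign of `E = (j)_∞ + C`. -/
theorem degree_eff (m : ℕ) (Cj C E : Divisor Kbar (FN N)) (hCj : Plan.IsPoleJ N Cj)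
    (hC0 : ∀ P, 0 ≤ C P) (hdegC : Divisor.degree C = (m : ℤ) * (dedekindPsi N : ℤ))
    (hE : E = Cj + C) :
    (∀ P, 0 ≤ E P) ∧ Divisor.degree E = ((m : ℤ) + 1) * (dedekindPsi N : ℤ) := by
  constructor
  · intro P
    rw [hE, Finsupp.add_apply, hCj P]
    exact add_nonneg (le_max_left _ _) (hC0 P)
  · rw [hE, map_add, PoleDeg.degree_poleJ N Cj hCj, hdegC]
    ring

/-- **One step of the filtration costs at most `deg π^*E = (m+1) ψ(N₂)`** (no threshold). -/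
theorem finrank_add_le_eff (hdiv : N ∣ N₂) (hTF : 4 ∣ N₂ ∨ 9 ∣ N₂)
    (m : ℕ) (Cj C E : Divisor Kbar (FN N)) (hCj : Plan.IsPoleJ N Cj)
    (hC0 : ∀ P, 0 ≤ C P) (hdegC : Divisor.degree C = (m : ℤ) * (dedekindPsi N : ℤ))
    (hE : E = Cj + C) (B : Divisor Kbar (FN N)) :
    Module.finrank Kbar (pullRR N N₂ (B + E))
      ≤ Module.finrank Kbar (pullRR N N₂ B) + (m + 1) * dedekindPsi N₂ := by
  obtain ⟨d, hd, hstep⟩ := PullStep.pullStep N N₂ hdiv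
  obtain ⟨hE0, hdegE⟩ := degree_eff N m Cj C E hCj hC0 hdegC hE
  have h := RiemannE.finrank_pullRR_add_le N N₂ (RiemannE.finite_pullRR N N₂ hdiv hTF) d hstep
    E hE0 B
  have hdZ : ((d : ℤ) * (dedekindPsi N : ℤ)) = (dedekindPsi N₂ : ℤ) := by exact_mod_cast hd
  have h' : (Module.finrank Kbar (pullRR N N₂ (B + E)) : ℤ)
      ≤ (Module.finrank Kbar (pullRR N N₂ B) : ℤ) + ((m : ℤ) + 1) * (dedekindPsi N₂ : ℤ) := by
    rw [hdegE] at h
    calc (Module.finrank Kbar (pullRR N N₂ (B + E)) : ℤ)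
        ≤ (Module.finrank Kbar (pullRR N N₂ B) : ℤ)
            + (d : ℤ) * (((m : ℤ) + 1) * (dedekindPsi N : ℤ)) := h
      _ = (Module.finrank Kbar (pullRR N N₂ B) : ℤ) + ((m : ℤ) + 1) * (dedekindPsi N₂ : ℤ) := by
          rw [← hdZ]; ring
  exact_mod_cast h'

/-- `l((c+1) E) ≤ l(c E) + (m+1) ψ(N₂)` for every `c`. -/
theorem finrank_succ_nsmul_le_eff (hdiv : N ∣ N₂) (hTF : 4 ∣ N₂ ∨ 9 ∣ N₂)
    (m : ℕ) (Cj C E : Divisor Kbar (FN N)) (hCj : Plan.IsPoleJ N Cj)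
    (hC0 : ∀ P, 0 ≤ C P) (hdegC : Divisor.degree C = (m : ℤ) * (dedekindPsi N : ℤ))
    (hE : E = Cj + C) (c : ℕ) :
    Module.finrank Kbar (pullRR N N₂ ((c + 1) • E))
      ≤ Module.finrank Kbar (pullRR N N₂ (c • E)) + (m + 1) * dedekindPsi N₂ := by
  rw [succ_nsmul]
  exact finrank_add_le_eff N N₂ hdiv hTF m Cj C E hCj hC0 hdegC hE (c • E)

/-- **[RRE], generic**: `12 l(cE) = 12 (m+1) c ψ(N₂) + 6 c(N₂) - ψ(N₂)` for `c` large, for
`E = (j)_∞ + C`, `C ≥ 0` of degree `m ψ(N)`. -/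
theorem riemann_eff (hdiv : N ∣ N₂) (hTF : 4 ∣ N₂ ∨ 9 ∣ N₂)
    (m : ℕ) (Cj C E : Divisor Kbar (FN N)) (hCj : Plan.IsPoleJ N Cj)
    (hC0 : ∀ P, 0 ≤ C P) (hdegC : Divisor.degree C = (m : ℤ) * (dedekindPsi N : ℤ))
    (hE : E = Cj + C) :
    ∃ c₀ : ℕ, ∀ c : ℕ, c₀ ≤ c →
      Module.Finite Kbar (pullRR N N₂ (c • E)) ∧
      12 * (Module.finrank Kbar (pullRR N N₂ (c • E)) : ℤ) =
        12 * ((m : ℤ) + 1) * (c : ℤ) * (dedekindPsi N₂ : ℤ) + 6 * (cuspCount N₂ : ℤ)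
          - (dedekindPsi N₂ : ℤ) := by
  classical
  obtain ⟨d, hd, hstep⟩ := PullStep.pullStep N N₂ hdiv
  obtain ⟨γ, c₀, hγ, hc₀⟩ := RR0.exists_gamma N₂ hTF
  obtain ⟨X', hX', -⟩ := Char0.exists_poleDivisor_jBar N₂
  obtain ⟨-, hdegE⟩ := degree_eff N m Cj C E hCj hC0 hdegC hE
  have hdZ : ((d : ℤ) * (dedekindPsi N : ℤ)) = (dedekindPsi N₂ : ℤ) := by exact_mod_cast hd
  have hψ : (0 : ℤ) < (dedekindPsi N : ℤ) := by exact_mod_cast FibreCount.dedekindPsi_pos N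
  refine ⟨c₀, fun c hc => ?_⟩
  obtain ⟨hfinE, hlow⟩ := RR0.rr0 N N₂ hdiv hTF (c • E)
  refine ⟨hfinE, ?_⟩
  -- the base count at `c (j)_∞`
  have hD : ∀ P : Place Kbar (FN N), (c • Cj) P = c * RR0.poleMult (jBar N) P := fun P => by
    rw [Finsupp.smul_apply, hCj P, nsmul_eq_mul, RR0.poleMult]
  have hD' : ∀ v : Place Kbar (FN N₂), (c • X') v = c * max 0 (-(v.ord (jBar N₂))) := fun v => by
    rw [Finsupp.smul_apply, hX', nsmul_eq_mul]
  obtain ⟨hfinX, hdimX⟩ := hc₀ c hc (c • X') hD'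
  have hEq := RR0.pullRR_base hdiv c (c • Cj) hD (c • X') hD'
  let e : riemannRochSpace (c • X') ≃ₗ[Kbar] (riemannRochSpace (c • X')).map (RR0.inclLin N₂) :=
    Submodule.equivMapOfInjective (RR0.inclLin N₂) (RR0.inclLin_injective (N' := N₂)) _
  have hbase : (Module.finrank Kbar (pullRR N N₂ (c • Cj)) : ℤ)
      = (c : ℤ) * dedekindPsi N₂ + γ := by
    rw [hEq, ← e.finrank_eq, hdimX]
  -- the upper bound
  have hcC : ∀ P, 0 ≤ (c • C) P := fun P => by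
    rw [Finsupp.smul_apply, nsmul_eq_mul]
    exact mul_nonneg (Nat.cast_nonneg c) (hC0 P)
  have hup := RiemannE.finrank_pullRR_add_le N N₂ (RiemannE.finite_pullRR N N₂ hdiv hTF) d hstep
    (c • C) hcC (c • Cj)
  have hsum : c • Cj + c • C = c • E := by rw [hE, nsmul_add]
  rw [hsum, hbase, map_nsmul, hdegC, nsmul_eq_mul] at hup
  have hup' : (Module.finrank Kbar (pullRR N N₂ (c • E)) : ℤ)
      ≤ ((m : ℤ) + 1) * (c : ℤ) * (dedekindPsi N₂ : ℤ) + γ := by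
    calc (Module.finrank Kbar (pullRR N N₂ (c • E)) : ℤ)
        ≤ (c : ℤ) * dedekindPsi N₂ + γ
            + (d : ℤ) * ((c : ℤ) * ((m : ℤ) * (dedekindPsi N : ℤ))) := hup
      _ = ((m : ℤ) + 1) * (c : ℤ) * (dedekindPsi N₂ : ℤ) + γ := by rw [← hdZ]; ring
  -- the lower bound
  rw [map_nsmul, hdegE, nsmul_eq_mul] at hlow
  have hlow' : (dedekindPsi N : ℤ) * (12 * ((m : ℤ) + 1) * (c : ℤ) * (dedekindPsi N₂ : ℤ)
        + 6 * (cuspCount N₂ : ℤ) - (dedekindPsi N₂ : ℤ))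
      ≤ (dedekindPsi N : ℤ) * (12 * (Module.finrank Kbar (pullRR N N₂ (c • E)) : ℤ)) := by
    calc (dedekindPsi N : ℤ) * (12 * ((m : ℤ) + 1) * (c : ℤ) * (dedekindPsi N₂ : ℤ)
          + 6 * (cuspCount N₂ : ℤ) - (dedekindPsi N₂ : ℤ))
        = 12 * (dedekindPsi N₂ : ℤ) * ((c : ℤ) * (((m : ℤ) + 1) * (dedekindPsi N : ℤ)))
          + (dedekindPsi N : ℤ) * (6 * (cuspCount N₂ : ℤ) - (dedekindPsi N₂ : ℤ)) := by ring
      _ ≤ 12 * (dedekindPsi N : ℤ) * (Module.finrank Kbar (pullRR N N₂ (c • E)) : ℤ) := hlow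
      _ = (dedekindPsi N : ℤ) * (12 * (Module.finrank Kbar (pullRR N N₂ (c • E)) : ℤ)) := by
          ring
  have hlow'' := le_of_mul_le_mul_left hlow' hψ
  linarith

/-- **(RR-D), generic**: `l(cE) ≤ l(D + cE)` for `deg D = 0` and `c` large. -/
theorem finrank_le_add_eff (hdiv : N ∣ N₂) (hTF : 4 ∣ N₂ ∨ 9 ∣ N₂)
    (m : ℕ) (Cj C E : Divisor Kbar (FN N)) (hCj : Plan.IsPoleJ N Cj)
    (hC0 : ∀ P, 0 ≤ C P) (hdegC : Divisor.degree C = (m : ℤ) * (dedekindPsi N : ℤ))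
    (hE : E = Cj + C) :
    ∃ c₀ : ℕ, ∀ c : ℕ, c₀ ≤ c → ∀ D : Divisor Kbar (FN N), Divisor.degree D = 0 →
      Module.finrank Kbar (pullRR N N₂ (c • E))
        ≤ Module.finrank Kbar (pullRR N N₂ (D + c • E)) := by
  obtain ⟨c₀, hc₀⟩ := riemann_eff N N₂ hdiv hTF m Cj C E hCj hC0 hdegC hE
  obtain ⟨-, hdegE⟩ := degree_eff N m Cj C E hCj hC0 hdegC hE
  have hψ : (0 : ℤ) < (dedekindPsi N : ℤ) := by exact_mod_cast FibreCount.dedekindPsi_pos N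
  refine ⟨c₀, fun c hc D hD => ?_⟩
  obtain ⟨-, heq⟩ := hc₀ c hc
  obtain ⟨-, hlow⟩ := RR0.rr0 N N₂ hdiv hTF (D + c • E)
  rw [map_add, hD, zero_add, map_nsmul, hdegE, nsmul_eq_mul] at hlow
  have h1 : (dedekindPsi N : ℤ) * (12 * (Module.finrank Kbar (pullRR N N₂ (c • E)) : ℤ))
      ≤ (dedekindPsi N : ℤ) * (12 * (Module.finrank Kbar (pullRR N N₂ (D + c • E)) : ℤ)) := by
    calc (dedekindPsi N : ℤ) * (12 * (Module.finrank Kbar (pullRR N N₂ (c • E)) : ℤ))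
        = 12 * (dedekindPsi N₂ : ℤ) * ((c : ℤ) * (((m : ℤ) + 1) * (dedekindPsi N : ℤ)))
          + (dedekindPsi N : ℤ) * (6 * (cuspCount N₂ : ℤ) - (dedekindPsi N₂ : ℤ)) := by
          rw [heq]; ring
      _ ≤ 12 * (dedekindPsi N : ℤ) * (Module.finrank Kbar (pullRR N N₂ (D + c • E)) : ℤ) := hlow
      _ = (dedekindPsi N : ℤ) * (12 * (Module.finrank Kbar (pullRR N N₂ (D + c • E)) : ℤ)) := by
          ring
  have h2 := le_of_mul_le_mul_left h1 hψ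
  have h3 : (Module.finrank Kbar (pullRR N N₂ (c • E)) : ℤ)
      ≤ (Module.finrank Kbar (pullRR N N₂ (D + c • E)) : ℤ) := by linarith
  exact_mod_cast h3

end Fermat.Agent.S36.RiemannEff

end
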