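import Mathlib
import Fermat.Agent.S36.RiemannEff
import Fermat.Agent.S36.PoleChain

/-!
# S36 / P8 — [RRE-q²]: the exact dimension of `L(cE)`, `E = (j)_∞ + (j_q)_∞ + (j_{q²})_∞` (helper76)

`q` prime, `q ∣ N`, `q ^ 2 ∣ N`, `N ∣ N₂`, `N₂` torsion-free (`4 ∣ N₂ ∨ 9 ∣ N₂`), and
`E` with `PoleChain.IsE3 N q hq hqq E` (the polar divisor of `φ = j j_q j_{q²}`, `deg E = 3 ψ(N)`):

* `riemannE3`            : `12 l(cE) = 36 c ψ(N₂) + 6 cusps(N₂) - ψ(N₂)` for `c` large;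
* `finrank_le_add`       : `(RR-D)` `l(cE) ≤ l(D + cE)` for `deg D = 0`, `c` large;
* `finrank_add_E_le`     : `l(B + E) ≤ l(B) + 3 ψ(N₂)` for every `B`;
* `finrank_succ_nsmul_le`: `l((c+1)E) ≤ l(cE) + 3 ψ(N₂)`;
* `finite_pullRR`        : all the spaces `pullRR N N₂ B` are finite-dimensional.

Instances of `S36/RiemannEff.lean` at `m = 2`, `C = (j_q)_∞ + (j_{q²})_∞` (`S36/PoleChain.lean`).
-/

set_option autoImplicit false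

noncomputable section

namespace Fermat.Agent.S36.RiemannE3

open ModularCurve AlgebraicCurve Fermat.Agent.S24 Fermat.Agent.S18.Content Fermat.Agent.S18.Plan
open Fermat.Agent.S18 Fermat.Agent.S34

variable (N q N₂ : ℕ) [NeZero N] [NeZero q] [NeZero N₂] (hq : q ∣ N) (hqq : q ^ 2 ∣ N)

/-- Finiteness of all the pull-back spaces. -/
theorem finite_pullRR (hdiv : N ∣ N₂) (hTF : 4 ∣ N₂ ∨ 9 ∣ N₂) (B : Divisor Kbar (FN N)) :
    Module.Finite Kbar (pullRR N N₂ B) :=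
  RiemannE.finite_pullRR N N₂ hdiv hTF B

/-- **[RRE-q²]**: `12 l(cE) = 36 c ψ(N₂) + 6 c(N₂) - ψ(N₂)` for `c` large. -/
theorem riemannE3 (hqp : q.Prime) (hdiv : N ∣ N₂) (hTF : 4 ∣ N₂ ∨ 9 ∣ N₂)
    (E : Divisor Kbar (FN N)) (hE : PoleChain.IsE3 N q hq hqq E) :
    ∃ c₀ : ℕ, ∀ c : ℕ, c₀ ≤ c →
      Module.Finite Kbar (pullRR N N₂ (c • E)) ∧
      12 * (Module.finrank Kbar (pullRR N N₂ (c • E)) : ℤ) =
        36 * (c : ℤ) * (dedekindPsi N₂ : ℤ) + 6 * (cuspCount N₂ : ℤ) - (dedekindPsi N₂ : ℤ) := by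
  obtain ⟨Cj, C, hCj, hC0, hdegC, hEeq⟩ := PoleChain.isE3_split N q hq hqq hqp E hE
  obtain ⟨c₀, hc₀⟩ := RiemannEff.riemann_eff N N₂ hdiv hTF 2 Cj C E hCj hC0 hdegC hEeq
  refine ⟨c₀, fun c hc => ?_⟩
  obtain ⟨hfin, h⟩ := hc₀ c hc
  refine ⟨hfin, ?_⟩
  rw [h]
  push_cast
  ring

/-- **(RR-D)**: `l(cE) ≤ l(D + cE)` for `deg D = 0` and `c` large. -/
theorem finrank_le_add (hqp : q.Prime) (hdiv : N ∣ N₂) (hTF : 4 ∣ N₂ ∨ 9 ∣ N₂)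
    (E : Divisor Kbar (FN N)) (hE : PoleChain.IsE3 N q hq hqq E) :
    ∃ c₀ : ℕ, ∀ c : ℕ, c₀ ≤ c → ∀ D : Divisor Kbar (FN N), Divisor.degree D = 0 →
      Module.finrank Kbar (pullRR N N₂ (c • E))
        ≤ Module.finrank Kbar (pullRR N N₂ (D + c • E)) := by
  obtain ⟨Cj, C, hCj, hC0, hdegC, hEeq⟩ := PoleChain.isE3_split N q hq hqq hqp E hE
  exact RiemannEff.finrank_le_add_eff N N₂ hdiv hTF 2 Cj C E hCj hC0 hdegC hEeq

/-- **One step of the filtration costs at most `3 ψ(N₂)`**: `l(B + E) ≤ l(B) + 3 ψ(N₂)`. -/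
theorem finrank_add_E_le (hqp : q.Prime) (hdiv : N ∣ N₂) (hTF : 4 ∣ N₂ ∨ 9 ∣ N₂)
    (E : Divisor Kbar (FN N)) (hE : PoleChain.IsE3 N q hq hqq E) (B : Divisor Kbar (FN N)) :
    Module.finrank Kbar (pullRR N N₂ (B + E))
      ≤ Module.finrank Kbar (pullRR N N₂ B) + 3 * dedekindPsi N₂ := by
  obtain ⟨Cj, C, hCj, hC0, hdegC, hEeq⟩ := PoleChain.isE3_split N q hq hqq hqp E hE
  exact RiemannEff.finrank_add_le_eff N N₂ hdiv hTF 2 Cj C E hCj hC0 hdegC hEeq B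

/-- `l((c+1) E) ≤ l(c E) + 3 ψ(N₂)` for every `c`. -/
theorem finrank_succ_nsmul_le (hqp : q.Prime) (hdiv : N ∣ N₂) (hTF : 4 ∣ N₂ ∨ 9 ∣ N₂)
    (E : Divisor Kbar (FN N)) (hE : PoleChain.IsE3 N q hq hqq E) (c : ℕ) :
    Module.finrank Kbar (pullRR N N₂ ((c + 1) • E))
      ≤ Module.finrank Kbar (pullRR N N₂ (c • E)) + 3 * dedekindPsi N₂ := by
  rw [succ_nsmul]
  exact finrank_add_E_le N q N₂ hq hqq hqp hdiv hTF E hE (c • E)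

end Fermat.Agent.S36.RiemannE3

end
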