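import Mathlib
import Fermat.Agent.S36.RiemannE3
import Fermat.Agent.S36.Plan

/-!
# S36 / P8 — [RRE-q²] in the `Plan` spelling (helper7, reviewer of [POLE-q²] / [RRE-q²])

`S36/PoleChain.lean` and `S36/RiemannE3.lean` (helper76) are stated for
`PoleChain.IsE3 N q hq (hqq : q ^ 2 ∣ N)`, i.e. with `jBarLevel N (q ^ 2) _`, while the frame
(`S36/Plan.lean`) and its consumers (`LiftOneInst`, `LiftInst`, the `[CR]` instance) use
`Plan.IsE3 N q hq (hqq : q * q ∣ N)`, i.e. `jBarLevel N (q * q) _`.  The two are not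
definitionally equal (`q ^ 2` does not reduce to `q * q` for a variable `q`), so `Iff.rfl` fails.
This file is the bridge, for every `N` with `q ∣ N`, `q * q ∣ N`, `q` prime (no coprimality):

* `jBarLevel_sq`, `isE3_iff`, `phi3_eq` : the transport `q ^ 2 ↔ q * q`;
* `riemannE3`             : `12 l(cE) = 36 c ψ(N₂) + 6 cusps(N₂) - ψ(N₂)` for `c` large;
* `finrank_le_add`        : `(RR-D)` `l(cE) ≤ l(D + cE)` for `deg D = 0`, `c` large
                            (the `hRiem` of `LiftOne` / `LiftInst`);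
* `finrank_add_E_le`, `finrank_succ_nsmul_le` : the step bound `3 ψ(N₂)` (the `hcount` of `[CR]`);
* `finite_pullRR`, `exists_isE3`, `degree_isE3`, `isE3_phi` (the polar divisor of `Plan.phiQ2`).
-/

set_option autoImplicit false

noncomputable section

namespace Fermat.Agent.S36.RiemannE3Plan

open ModularCurve AlgebraicCurve Fermat.Agent.S24 Fermat.Agent.S18.Content Fermat.Agent.S18.Plan
open Fermat.Agent.S18 Fermat.Agent.S34

/-- `q * q ∣ N → q ^ 2 ∣ N`. -/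
theorem sq_dvd (N q : ℕ) (hqq : q * q ∣ N) : q ^ 2 ∣ N := by
  rw [sq]
  exact hqq

/-- `jBarLevel` only depends on the value of the level divisor. -/
theorem jBarLevel_congr (N : ℕ) [NeZero N] {d d' : ℕ} [NeZero d] [NeZero d'] (hd : d ∣ N)
    (hd' : d' ∣ N) (h : d = d') : jBarLevel N d hd = jBarLevel N d' hd' := by
  subst h
  rfl

variable (N q N₂ : ℕ) [NeZero N] [NeZero q] [NeZero N₂] (hq : q ∣ N) (hqq : q * q ∣ N)

/-- `j_{q^2} = j_{q * q}`. -/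
theorem jBarLevel_sq :
    jBarLevel N (q ^ 2) (sq_dvd N q hqq) = jBarLevel N (q * q) hqq :=
  jBarLevel_congr N _ _ (sq q)

/-- The two spellings of `E = (j)_∞ + (j_q)_∞ + (j_{q²})_∞`. -/
theorem isE3_iff (E : Divisor Kbar (FN N)) :
    PoleChain.IsE3 N q hq (sq_dvd N q hqq) E ↔ Fermat.Agent.S36.Plan.IsE3 N q hq hqq E := by
  unfold PoleChain.IsE3 Fermat.Agent.S36.Plan.IsE3
  rw [jBarLevel_sq N q hqq]

/-- The two spellings of `φ = j j_q j_{q²}`. -/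
theorem phi3_eq :
    PoleChain.phi3 N q hq (sq_dvd N q hqq) = Fermat.Agent.S36.Plan.phiQ2 N q hq hqq := by
  unfold PoleChain.phi3 Fermat.Agent.S36.Plan.phiQ2
  rw [jBarLevel_sq N q hqq]

/-- A divisor `E` with `Plan.IsE3` exists (`q` prime; no coprimality). -/
theorem exists_isE3 (hqp : q.Prime) :
    ∃ E : Divisor Kbar (FN N), Fermat.Agent.S36.Plan.IsE3 N q hq hqq E := by
  obtain ⟨E, hE⟩ := PoleChain.exists_isE3 N q hq (sq_dvd N q hqq) hqp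
  exact ⟨E, (isE3_iff N q hq hqq E).1 hE⟩

/-- `E ≥ 0`, `(φ) ≥ -E`, `ord_P φ = -E P` on `supp E`, and `deg E = 3 ψ(N)`, Plan spelling. -/
theorem isE3_phi (hqp : q.Prime) (E : Divisor Kbar (FN N))
    (hE : Fermat.Agent.S36.Plan.IsE3 N q hq hqq E) :
    (∀ P, 0 ≤ E P) ∧
      (∀ P : Place Kbar (FN N), -E P ≤ P.ord (Fermat.Agent.S36.Plan.phiQ2 N q hq hqq)) ∧
      (∀ P : Place Kbar (FN N),
        E P = 0 ∨ P.ord (Fermat.Agent.S36.Plan.phiQ2 N q hq hqq) = -E P) ∧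
      Divisor.degree E = 3 * (dedekindPsi N : ℤ) := by
  have h := PoleChain.isE3_phi N q hq (sq_dvd N q hqq) hqp E ((isE3_iff N q hq hqq E).2 hE)
  rw [phi3_eq N q hq hqq] at h
  exact h

/-- `deg E = 3 ψ(N)`. -/
theorem degree_isE3 (hqp : q.Prime) (E : Divisor Kbar (FN N))
    (hE : Fermat.Agent.S36.Plan.IsE3 N q hq hqq E) :
    Divisor.degree E = 3 * (dedekindPsi N : ℤ) :=
  (isE3_phi N q hq hqq hqp E hE).2.2.2

/-- Finiteness of all the pull-back spaces. -/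
theorem finite_pullRR (hdiv : N ∣ N₂) (hTF : 4 ∣ N₂ ∨ 9 ∣ N₂) (B : Divisor Kbar (FN N)) :
    Module.Finite Kbar (pullRR N N₂ B) :=
  RiemannE.finite_pullRR N N₂ hdiv hTF B

/-- **[RRE-q²]**, Plan spelling: `12 l(cE) = 36 c ψ(N₂) + 6 cusps(N₂) - ψ(N₂)` for `c` large. -/
theorem riemannE3 (hqp : q.Prime) (hdiv : N ∣ N₂) (hTF : 4 ∣ N₂ ∨ 9 ∣ N₂)
    (E : Divisor Kbar (FN N)) (hE : Fermat.Agent.S36.Plan.IsE3 N q hq hqq E) :
    ∃ c₀ : ℕ, ∀ c : ℕ, c₀ ≤ c →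
      Module.Finite Kbar (pullRR N N₂ (c • E)) ∧
      12 * (Module.finrank Kbar (pullRR N N₂ (c • E)) : ℤ) =
        36 * (c : ℤ) * (dedekindPsi N₂ : ℤ) + 6 * (cuspCount N₂ : ℤ) - (dedekindPsi N₂ : ℤ) :=
  RiemannE3.riemannE3 N q N₂ hq (sq_dvd N q hqq) hqp hdiv hTF E ((isE3_iff N q hq hqq E).2 hE)

/-- **(RR-D)**, Plan spelling: `l(cE) ≤ l(D + cE)` for `deg D = 0` and `c` large. -/
theorem finrank_le_add (hqp : q.Prime) (hdiv : N ∣ N₂) (hTF : 4 ∣ N₂ ∨ 9 ∣ N₂)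
    (E : Divisor Kbar (FN N)) (hE : Fermat.Agent.S36.Plan.IsE3 N q hq hqq E) :
    ∃ c₀ : ℕ, ∀ c : ℕ, c₀ ≤ c → ∀ D : Divisor Kbar (FN N), Divisor.degree D = 0 →
      Module.finrank Kbar (pullRR N N₂ (c • E))
        ≤ Module.finrank Kbar (pullRR N N₂ (D + c • E)) :=
  RiemannE3.finrank_le_add N q N₂ hq (sq_dvd N q hqq) hqp hdiv hTF E
    ((isE3_iff N q hq hqq E).2 hE)

/-- `l(B + E) ≤ l(B) + 3 ψ(N₂)` for every `B`, Plan spelling. -/
theorem finrank_add_E_le (hqp : q.Prime) (hdiv : N ∣ N₂) (hTF : 4 ∣ N₂ ∨ 9 ∣ N₂)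
    (E : Divisor Kbar (FN N)) (hE : Fermat.Agent.S36.Plan.IsE3 N q hq hqq E)
    (B : Divisor Kbar (FN N)) :
    Module.finrank Kbar (pullRR N N₂ (B + E))
      ≤ Module.finrank Kbar (pullRR N N₂ B) + 3 * dedekindPsi N₂ :=
  RiemannE3.finrank_add_E_le N q N₂ hq (sq_dvd N q hqq) hqp hdiv hTF E
    ((isE3_iff N q hq hqq E).2 hE) B

/-- `l((c+1) E) ≤ l(c E) + 3 ψ(N₂)` for every `c`, Plan spelling. -/
theorem finrank_succ_nsmul_le (hqp : q.Prime) (hdiv : N ∣ N₂) (hTF : 4 ∣ N₂ ∨ 9 ∣ N₂)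
    (E : Divisor Kbar (FN N)) (hE : Fermat.Agent.S36.Plan.IsE3 N q hq hqq E) (c : ℕ) :
    Module.finrank Kbar (pullRR N N₂ ((c + 1) • E))
      ≤ Module.finrank Kbar (pullRR N N₂ (c • E)) + 3 * dedekindPsi N₂ :=
  RiemannE3.finrank_succ_nsmul_le N q N₂ hq (sq_dvd N q hqq) hqp hdiv hTF E
    ((isE3_iff N q hq hqq E).2 hE) c

end Fermat.Agent.S36.RiemannE3Plan

end
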