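import Mathlib
import Fermat.Agent.S28.Theta
import Fermat.Agent.S34.ValOne
import Fermat.Agent.S37.NormRed
import Fermat.Agent.S18.WJCalc
import Fermat.Agent.S18.Red

/-!
# S36 (P8) — [THETA-INF]: `θ j̄ / j̄` is a unit at infinity (helper34)

`k := kk A` the residue field of a valuation subring `A` of `Q̄` over the prime `q`,
`j̄ := jqModC k`, `θ := S28.theta k` (`θ = T d/dT`).

* `theta_pow_mem`          : `(θ j̄)^(q-1) ∈ k(j̄)`;
* `isIntegral_theta_div`   : `θ j̄ · j̄⁻¹` is integral over `OinfJ k`;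
* `isIntegral_div_theta`   : `j̄ · (θ j̄)⁻¹` is integral over `OinfJ k`;
* `mem_WJ_of_theta_pow_mul`: `(θ j̄)^i · x ∈ WJ L N`, `x ∈ L'` integral over `k[j̄]`
                             ⟹ `x ∈ WJ L' (N - i)`   (level shift);
* `theta_pow_mul_mem_WJ`   : the converse inclusion (given integrality over `k[j̄]`).

Proof.  `r := (j(T^q) - j^q)/q ∈ ℤ((T))`.
(1) `r̄ ∈ k(j̄)`: the characteristic polynomial `Φ` of `α j` over `β F_1` (`S37.Conj.conj 1 q`)
    factors as `(X - j(T^q)) · Φ_j`; evaluating at `j^q` shows `Φ(j^q)/q = -r · Φ_j(j^q)` lies in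
    `Q̄(j) ∩ Ocal`, so its reduction `-r̄ (j̄^(q²) - j̄)` lies in `k(j̄)` (`S18.Red.redStmt 1 q`).
(2) `θ(j(T^q)) = q (θ j)(T^q)` and `j(T^q) = j^q + q r` give `(θ j)(T^q) = j^(q-1) θ j + θ r`
    over `ℤ`; in characteristic `q`: `(θ j̄)^q = j̄^(q-1) θ j̄ + θ r̄`, and `θ r̄ ∈ k(j̄) · θ j̄`.
(3) `u := θ j̄ / j̄` has order `0` and `u^(q-1) ∈ k(j̄)`, so `u^(q-1)` and its inverse lie in
    `OinfJ k = k(j̄) ∩ k[[T]]`.
-/

set_option autoImplicit false
set_option maxHeartbeats 400000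

noncomputable section

namespace Fermat.Agent.S36.ThetaInf

open ModularCurve Polynomial Fermat.Agent.S28 Fermat.Agent.Lib.KroneckerCong

/-! ### The quotient `r = (j(T^q) - j^q)/q` over `ℤ` and the differential equation -/

section IntLevel

variable (q : ℕ) [NeZero q] [Fact q.Prime]

/-- `j(T^q) ≡ j^q mod q`, coefficientwise. -/
theorem exists_rZ : ∃ rZ : LaurentSeries ℤ,
    qExpand ℤ q (jqModC ℤ) - jqModC ℤ ^ q = HahnSeries.C (q : ℤ) * rZ := by
  obtain ⟨d, hd⟩ : ∃ d : LaurentSeries ℤ, d = qExpand ℤ q (jqModC ℤ) - jqModC ℤ ^ q := ⟨_, rfl⟩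
  have h0 : coeffMap (Int.castRingHom (ZMod q)) d = 0 := by
    rw [hd, map_sub, map_pow, coeffMap_comm_qExpand, coeffMap_jqModC, pow_char_eq q,
      coeffMap_jqModC, sub_self]
  have hdvd : ∀ n, (q : ℤ) ∣ d.coeff n := by
    intro n
    have h1 := congrArg (fun f : LaurentSeries (ZMod q) => f.coeff n) h0
    simp only [coeffMap_coeff, HahnSeries.coeff_zero] at h1
    exact (ZMod.intCast_zmod_eq_zero_iff_dvd _ _).mp h1
  refine ⟨⟨fun n => d.coeff n / q, d.isPWO_support.mono ?_⟩, ?_⟩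
  · intro n hn
    simp only [Function.mem_support, ne_eq, HahnSeries.mem_support] at hn ⊢
    intro h
    exact hn (by rw [h, Int.zero_ediv])
  · rw [← hd]
    ext n
    rw [HahnSeries.C_mul_eq_smul, HahnSeries.coeff_smul, smul_eq_mul]
    exact (Int.mul_ediv_cancel' (hdvd n)).symm

omit [Fact q.Prime] in
/-- The differential equation over `ℤ`: `(θ j)(T^q) = j^(q-1) θ j + θ r`. -/
theorem theta_ode_int (rZ : LaurentSeries ℤ)
    (h : qExpand ℤ q (jqModC ℤ) - jqModC ℤ ^ q = HahnSeries.C (q : ℤ) * rZ) :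
    qExpand ℤ q (theta ℤ (jqModC ℤ))
      = jqModC ℤ ^ (q - 1) * theta ℤ (jqModC ℤ) + theta ℤ rZ := by
  have hq0 : q ≠ 0 := NeZero.ne q
  have hC : (HahnSeries.C (q : ℤ) : LaurentSeries ℤ) = (q : LaurentSeries ℤ) := by
    rw [← map_natCast (HahnSeries.C (Γ := ℤ) (R := ℤ)) q]
  have h1 : theta ℤ (qExpand ℤ q (jqModC ℤ))
      = (q : LaurentSeries ℤ) * qExpand ℤ q (theta ℤ (jqModC ℤ)) := by
    have := theta_expand (R := ℤ) hq0 (jqModC ℤ)
    rwa [ThetaAux.expand_eq q hq0] at this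
  have h2 : theta ℤ (jqModC ℤ ^ q)
      = (q : LaurentSeries ℤ) * (jqModC ℤ ^ (q - 1) * theta ℤ (jqModC ℤ)) := by
    have := (ThetaAux.thetaDer ℤ).leibniz_pow (jqModC ℤ) q
    rw [ThetaAux.thetaDer_apply, ThetaAux.thetaDer_apply] at this
    rw [this, nsmul_eq_mul, smul_eq_mul]
  have h3 : theta ℤ (HahnSeries.C (q : ℤ) * rZ) = (q : LaurentSeries ℤ) * theta ℤ rZ := by
    rw [theta_mul, theta_C, zero_mul, zero_add, hC]
  have h4 := congrArg (theta ℤ) h
  rw [map_sub, h1, h2, h3] at h4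
  have hqne : (q : LaurentSeries ℤ) ≠ 0 := by
    rw [← hC]
    intro h0
    have h5 : (q : ℤ) = 0 := HahnSeries.C_injective (Γ := ℤ) (h0.trans (map_zero _).symm)
    exact hq0 (by exact_mod_cast h5)
  apply mul_left_cancel₀ hqne
  rw [mul_add]
  linear_combination h4

/-- The differential equation in characteristic `q`: `(θ j̄)^q = j̄^(q-1) θ j̄ + θ r̄`. -/
theorem theta_ode_char (k : Type*) [Field k] [CharP k q] (rZ : LaurentSeries ℤ)
    (h : qExpand ℤ q (jqModC ℤ) - jqModC ℤ ^ q = HahnSeries.C (q : ℤ) * rZ) :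
    theta k (jqModC k) ^ q
      = jqModC k ^ (q - 1) * theta k (jqModC k)
        + theta k (coeffMap (Int.castRingHom k) rZ) := by
  have h1 := congrArg (coeffMap (Int.castRingHom k)) (theta_ode_int q rZ h)
  rw [coeffMap_comm_qExpand, coeffMap_theta, coeffMap_jqModC, map_add, map_mul, map_pow,
    coeffMap_theta, coeffMap_jqModC, coeffMap_theta] at h1
  rw [← h1, pow_char_eq q, coeffMap_theta, coeffMap_jqModC]

end IntLevel

/-! ### `r̄ ∈ k(j̄)` -/

section Red

open Fermat.Agent.S24 Fermat.Agent.S18.Content Fermat.Agent.S18.Plan Fermat.Agent.S18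
open AlgebraicCurve

set_option synthInstance.maxHeartbeats 400000

variable (A : ValuationSubring Kbar) (q : ℕ) [NeZero q] [Fact q.Prime]

omit [NeZero q] in
/-- `j̄^(q²) ≠ j̄`. -/
theorem jk_pow_pow_sub_ne_zero (κ : Type) [Field κ] :
    (jqModC κ ^ q) ^ q - jqModC κ ≠ 0 := by
  have hq : q.Prime := Fact.out
  intro h
  have h1 : (jqModC κ ^ q) ^ q = jqModC κ := sub_eq_zero.mp h
  have h2 := congrArg HahnSeries.order h1
  rw [HahnSeries.order_pow, HahnSeries.order_pow, Fermat.Agent.S28.Tower.order_jqModC] at h2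
  have h3 : (q : ℤ) * (q : ℤ) = 1 := by
    simp only [nsmul_eq_mul] at h2
    linarith
  have h4 : (2 : ℤ) ≤ q := by exact_mod_cast hq.two_le
  nlinarith

/-- The reduction of `r = (j(T^q) - j^q)/q` lies in `k(j̄)`. -/
theorem rbar_mem (hA : A.LiesOverPrime q) (rZ : LaurentSeries ℤ)
    (h : qExpand ℤ q (jqModC ℤ) - jqModC ℤ ^ q = HahnSeries.C (q : ℤ) * rZ) :
    coeffMap (Int.castRingHom (kk A)) rZ ∈ IntermediateField.adjoin (kk A) {jqModC (kk A)} := by
  have hchar : CharP (kk A) q := charP_residueField_of_liesOverPrime A q hA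
  have hq : q.Prime := Fact.out
  have hq1 : ¬ q ∣ 1 := fun hd => hq.one_lt.ne' (Nat.dvd_one.mp hd)
  have hR : RedStmt A 1 := Red.redStmt 1 q hq1 A hA
  have hfin : FiniteAlong Kbar (heckeBetaBar Kbar 1 q) :=
    Fermat.Agent.S37.HeckeInputs.finiteAlong_beta 1 q
  obtain ⟨ζ, hζ⟩ := Fermat.Agent.S37.KronMain.exists_primitiveRoot_unit q
  have hconj := Fermat.Agent.S37.Conj.conj 1 q hq hq1
  let _ := algebraAlong (heckeBetaBar Kbar 1 q)
  have : Module.Finite (FN 1) (FN (1 * q)) := hfin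
  have hc := hconj hfin ζ hζ (jBar 1)
  obtain ⟨Pc, hPc⟩ : ∃ Pc : (FN 1)[X],
      Pc = LinearMap.charpoly (LinearMap.mulLeft (FN 1) (heckeAlphaBar Kbar 1 q (jBar 1))) :=
    ⟨_, rfl⟩
  rw [← hPc] at hc
  have hjcoe : ((jBar 1 : FN 1) : Om) = jK := Main.coe_jBar 1
  rw [hjcoe] at hc
  -- the factorisation in characteristic zero
  have h2 : Pc.map (algebraMap (FN 1) Om) = (X - C (qExpand Kbar q jK)) * phi hζ jK := by
    apply Polynomial.map_injective _ (qExpand_injective (R := Kbar) q)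
    rw [Polynomial.map_map, hc, Polynomial.map_mul, phi_map, Polynomial.map_sub, map_X, map_C,
      qExpand_qExpand, conjProd, qExpand_congr (sq q)]
    simp only [Fermat.Agent.S37.KronMain.twist_eq_scale]
  -- `Φ_j` over `Ocal`
  obtain ⟨Ψ, hΨ1, hΨ2⟩ := exists_phiO A hζ (Main.jO A)
  -- evaluation at `j^q`
  obtain ⟨W, hW⟩ : ∃ W : FN 1, W = Pc.eval (jBar 1 ^ q) := ⟨_, rfl⟩
  obtain ⟨Ξ, hΞ⟩ : ∃ Ξ : Ocal A, Ξ = Ψ.eval (Main.jO A ^ q) := ⟨_, rfl⟩
  have hWeq : (W : Om) = (jK ^ q - qExpand Kbar q jK) * (Ξ : Om) := by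
    have e1 : (W : Om) = (Pc.map (algebraMap (FN 1) Om)).eval (jK ^ q) := by
      rw [hW, Polynomial.eval_map, ← hjcoe]
      have : ((jBar 1 : FN 1) : Om) ^ q = algebraMap (FN 1) Om (jBar 1 ^ q) := by
        rw [map_pow]; rfl
      rw [this, Polynomial.eval₂_at_apply]
      rfl
    have e2 : (Ξ : Om) = (phi hζ jK).eval (jK ^ q) := by
      have : (phi hζ jK) = Ψ.map (Ocal A).subtype := hΨ1.symm
      rw [this, hΞ, Polynomial.eval_map]
      have h3 : jK ^ q = (Ocal A).subtype (Main.jO A ^ q) := by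
        rw [map_pow]; rfl
      rw [h3, Polynomial.eval₂_at_apply]
      rfl
    rw [e1, h2, eval_mul, eval_sub, eval_X, eval_C, e2]
  -- the series `r` over `A`, `Q̄`, `k`
  obtain ⟨rA, hrA⟩ : ∃ rA : LaurentSeries A, rA = coeffMap (Int.castRingHom A) rZ := ⟨_, rfl⟩
  have hrk : rho A rA = coeffMap (Int.castRingHom (kk A)) rZ := by
    rw [hrA, rho, coeffMap_coeffMap]
    exact coeffMap_congr (RingHom.ext_int _ _) _
  have hK : qExpand Kbar q jK - jK ^ q = HahnSeries.C ((q : ℕ) : Kbar) * iota A rA := by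
    have h3 := congrArg (coeffMap (Int.castRingHom Kbar)) h
    rw [map_sub, map_pow, coeffMap_comm_qExpand, coeffMap_jqModC, map_mul] at h3
    rw [h3, hrA, iota, coeffMap_coeffMap]
    congr 1
    ext n
    simp
  -- `V := W / q = - r Ξ`
  have hq0 : ((q : ℕ) : Kbar) ≠ 0 := by exact_mod_cast hq.ne_zero
  have hV : HahnSeries.C (((q : ℕ) : Kbar)⁻¹) * (W : Om) = -(iota A rA * (Ξ : Om)) := by
    have h4 : jK ^ q - qExpand Kbar q jK = -(HahnSeries.C ((q : ℕ) : Kbar) * iota A rA) := by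
      rw [← hK]; ring
    rw [hWeq, h4]
    have h5 : HahnSeries.C (((q : ℕ) : Kbar)⁻¹) * HahnSeries.C ((q : ℕ) : Kbar) = (1 : Om) := by
      rw [← map_mul, inv_mul_cancel₀ hq0, map_one]
    linear_combination (-(iota A rA * (Ξ : Om))) * h5
  have hVO : -(iota A rA * (Ξ : Om)) ∈ Ocal A :=
    (Ocal A).neg_mem ((Ocal A).mul_mem (iota_mem_Ocal A rA) Ξ.2)
  have hVF : -(iota A rA * (Ξ : Om)) ∈ modularFunctionFieldBar 1 := by
    rw [← hV, ← ThetaAux.algebraMap_eq_C]
    exact (modularFunctionFieldBar 1).mul_mem ((modularFunctionFieldBar 1).algebraMap_mem _) W.2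
  have hred : red A ⟨_, hVO⟩
      = -(coeffMap (Int.castRingHom (kk A)) rZ * ((jqModC (kk A) ^ q) ^ q - jqModC (kk A))) := by
    have e1 : (⟨_, hVO⟩ : Ocal A) = -(⟨iota A rA, iota_mem_Ocal A rA⟩ * Ξ) := rfl
    rw [e1, map_neg, map_mul, red_iota, hrk, hΞ, Fermat.Agent.S34.ValOne.red_eval, hΨ2, map_pow,
      Main.red_jO]
    simp only [eval_sub, eval_pow, eval_X, eval_C]
    rw [Fermat.Agent.S34.FrobCoeff.coeffMap_j]
  have hmem := Fermat.Agent.S37.NormRed.fk_one_le A (hR.2.1 ⟨_, hVO⟩ hVF)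
  rw [hred] at hmem
  have hD : (jqModC (kk A) ^ q) ^ q - jqModC (kk A) ∈
      IntermediateField.adjoin (kk A) {jqModC (kk A)} := by
    have hj : jqModC (kk A) ∈ IntermediateField.adjoin (kk A) {jqModC (kk A)} :=
      IntermediateField.mem_adjoin_simple_self _ _
    exact sub_mem (pow_mem (pow_mem hj q) q) hj
  have hD0 := jk_pow_pow_sub_ne_zero q (kk A)
  have e : coeffMap (Int.castRingHom (kk A)) rZ
      = -(-(coeffMap (Int.castRingHom (kk A)) rZ * ((jqModC (kk A) ^ q) ^ q - jqModC (kk A))))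
        * ((jqModC (kk A) ^ q) ^ q - jqModC (kk A))⁻¹ := by
    field_simp
  rw [e]
  exact mul_mem (neg_mem hmem) (inv_mem hD)

end Red

/-! ### `θ` on `k(j̄)` -/

section FieldPart

variable (k : Type) [Field k]

theorem aeval_mem_adjoin (P : k[X]) :
    aeval (jqModC k) P ∈ IntermediateField.adjoin k {jqModC k} :=
  IntermediateField.algebra_adjoin_le_adjoin k _ (Polynomial.aeval_mem_adjoin_singleton k _)

/-- `θ(k(j̄)) ⊆ k(j̄) · θ j̄`. -/
theorem exists_theta_eq {x : LaurentSeries k}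
    (hx : x ∈ IntermediateField.adjoin k {jqModC k}) :
    ∃ y ∈ IntermediateField.adjoin k {jqModC k}, theta k x = y * theta k (jqModC k) := by
  obtain ⟨N, D, rfl⟩ := (IntermediateField.mem_adjoin_simple_iff k _).mp hx
  by_cases hD : aeval (jqModC k) D = 0
  · refine ⟨0, zero_mem _, ?_⟩
    rw [hD, div_zero, map_zero, zero_mul]
  · obtain ⟨x, hxdef⟩ : ∃ x : LaurentSeries k,
        x = aeval (jqModC k) N / aeval (jqModC k) D := ⟨_, rfl⟩
    have hxm : x ∈ IntermediateField.adjoin k {jqModC k} := by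
      rw [hxdef]; exact div_mem (aeval_mem_adjoin k _) (aeval_mem_adjoin k _)
    have h1 : x * aeval (jqModC k) D = aeval (jqModC k) N := by
      rw [hxdef]; exact div_mul_cancel₀ _ hD
    have h2 := congrArg (theta k) h1
    rw [theta_mul, theta_aeval, theta_aeval] at h2
    rw [← hxdef]
    refine ⟨(aeval (jqModC k) (derivative N) - x * aeval (jqModC k) (derivative D))
          / aeval (jqModC k) D, ?_, ?_⟩
    · exact div_mem (sub_mem (aeval_mem_adjoin k _) (mul_mem hxm (aeval_mem_adjoin k _)))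
        (aeval_mem_adjoin k _)
    · apply mul_right_cancel₀ hD
      have e : (aeval (jqModC k) (derivative N) - x * aeval (jqModC k) (derivative D))
            / aeval (jqModC k) D * theta k (jqModC k) * aeval (jqModC k) D
          = (aeval (jqModC k) (derivative N) - x * aeval (jqModC k) (derivative D))
            * theta k (jqModC k) := by
        rw [mul_assoc, mul_comm (theta k (jqModC k)), ← mul_assoc, div_mul_cancel₀ _ hD]
      rw [e]
      linear_combination h2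

/-- `θ j̄` has order `-1`. -/
theorem order_theta_j : (theta k (jqModC k)).order = -1 := by
  have h0 := theta_jqModC_ne_zero k
  apply le_antisymm
  · apply HahnSeries.order_le_of_coeff_ne_zero
    rw [theta_coeff, coeff_jqModC_neg_one]
    simp
  · have h1 : (theta k (jqModC k)).coeff (theta k (jqModC k)).order ≠ 0 := fun h =>
      h0 (HahnSeries.coeff_order_eq_zero.mp h)
    rw [theta_coeff] at h1
    have h2 : (jqModC k).coeff (theta k (jqModC k)).order ≠ 0 := fun h => h1 (by rw [h, mul_zero])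
    have h3 := HahnSeries.order_le_of_coeff_ne_zero h2
    rwa [Fermat.Agent.S28.Tower.order_jqModC] at h3

/-- `θ j̄ · j̄⁻¹` has order `0`. -/
theorem order_theta_div : (theta k (jqModC k) * (jqModC k)⁻¹).order = 0 := by
  rw [HahnSeries.order_mul (theta_jqModC_ne_zero k)
    (inv_ne_zero Fermat.Agent.S18.WJCalc.j_ne_zero), order_theta_j,
    Fermat.Agent.S18.WJCalc.order_inv_j]
  norm_num

end FieldPart

/-! ### The unit at infinity -/

section Unit

open Fermat.Agent.S24 Fermat.Agent.S18.Content Fermat.Agent.S18.Plan Fermat.Agent.S18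

variable (q : ℕ) [NeZero q] [Fact q.Prime] (A : ValuationSubring Kbar)

/-- **`(θ j̄)^(q-1) ∈ k(j̄)`.** -/
theorem theta_pow_mem (hA : A.LiesOverPrime q) :
    theta (kk A) (jqModC (kk A)) ^ (q - 1)
      ∈ IntermediateField.adjoin (kk A) {jqModC (kk A)} := by
  have hchar : CharP (kk A) q := charP_residueField_of_liesOverPrime A q hA
  have hq : q.Prime := Fact.out
  obtain ⟨rZ, hrZ⟩ := exists_rZ q
  obtain ⟨y, hy, hθr⟩ := exists_theta_eq (kk A) (rbar_mem A q hA rZ hrZ)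
  have hode := theta_ode_char q (kk A) rZ hrZ
  rw [hθr] at hode
  have hθ0 : theta (kk A) (jqModC (kk A)) ≠ 0 := theta_jqModC_ne_zero (kk A)
  have e : theta (kk A) (jqModC (kk A)) ^ (q - 1) = jqModC (kk A) ^ (q - 1) + y := by
    apply mul_right_cancel₀ hθ0
    rw [← pow_succ, Nat.sub_add_cancel hq.one_le, hode]
    ring
  rw [e]
  exact add_mem (pow_mem (IntermediateField.mem_adjoin_simple_self _ _) _) hy

/-- `(θ j̄ / j̄)^(q-1)` lies in the valuation ring at infinity of `k(j̄)`. -/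
theorem theta_div_pow_mem_OinfJ (hA : A.LiesOverPrime q) :
    (theta (kk A) (jqModC (kk A)) * (jqModC (kk A))⁻¹) ^ (q - 1) ∈ OinfJ (kk A) := by
  refine ⟨?_, ?_⟩
  · show _ ∈ IntermediateField.adjoin (kk A) {jqModC (kk A)}
    rw [mul_pow]
    exact mul_mem (theta_pow_mem q A hA)
      (pow_mem (inv_mem (IntermediateField.mem_adjoin_simple_self _ _)) _)
  · apply WJCalc.mem_range_ofPowerSeries_of_order_nonneg
    rw [HahnSeries.order_pow, order_theta_div]
    simp

/-- `(j̄ / θ j̄)^(q-1)` lies in the valuation ring at infinity of `k(j̄)`. -/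
theorem div_theta_pow_mem_OinfJ (hA : A.LiesOverPrime q) :
    (jqModC (kk A) * (theta (kk A) (jqModC (kk A)))⁻¹) ^ (q - 1) ∈ OinfJ (kk A) := by
  have hj0 : jqModC (kk A) ≠ 0 := WJCalc.j_ne_zero
  have hθ0 : theta (kk A) (jqModC (kk A)) ≠ 0 := theta_jqModC_ne_zero (kk A)
  have e : jqModC (kk A) * (theta (kk A) (jqModC (kk A)))⁻¹
      = (theta (kk A) (jqModC (kk A)) * (jqModC (kk A))⁻¹)⁻¹ := by
    rw [mul_inv, inv_inv, mul_comm]
  refine ⟨?_, ?_⟩
  · show _ ∈ IntermediateField.adjoin (kk A) {jqModC (kk A)}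
    rw [e, inv_pow]
    exact inv_mem (theta_div_pow_mem_OinfJ q A hA).1
  · apply WJCalc.mem_range_ofPowerSeries_of_order_nonneg
    have hu0 : theta (kk A) (jqModC (kk A)) * (jqModC (kk A))⁻¹ ≠ 0 :=
      mul_ne_zero hθ0 (inv_ne_zero hj0)
    have h1 : ((theta (kk A) (jqModC (kk A)) * (jqModC (kk A))⁻¹)
        * (theta (kk A) (jqModC (kk A)) * (jqModC (kk A))⁻¹)⁻¹).order
        = (theta (kk A) (jqModC (kk A)) * (jqModC (kk A))⁻¹).order
          + ((theta (kk A) (jqModC (kk A)) * (jqModC (kk A))⁻¹)⁻¹).order :=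
      HahnSeries.order_mul hu0 (inv_ne_zero hu0)
    rw [mul_inv_cancel₀ hu0, HahnSeries.order_one, order_theta_div, zero_add] at h1
    rw [HahnSeries.order_pow, e, ← h1]
    simp

/-- **`θ j̄ / j̄` is integral at infinity.** -/
theorem isIntegral_theta_div (hA : A.LiesOverPrime q) :
    IsIntegral (OinfJ (kk A)) (theta (kk A) (jqModC (kk A)) * (jqModC (kk A))⁻¹) := by
  have hq : q.Prime := Fact.out
  exact IsIntegral.of_pow (Nat.sub_pos_of_lt hq.one_lt)
    (WJCalc.isIntegral_of_mem_OinfJ (theta_div_pow_mem_OinfJ q A hA))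

/-- **`j̄ / θ j̄` is integral at infinity.** -/
theorem isIntegral_div_theta (hA : A.LiesOverPrime q) :
    IsIntegral (OinfJ (kk A)) (jqModC (kk A) * (theta (kk A) (jqModC (kk A)))⁻¹) := by
  have hq : q.Prime := Fact.out
  exact IsIntegral.of_pow (Nat.sub_pos_of_lt hq.one_lt)
    (WJCalc.isIntegral_of_mem_OinfJ (div_theta_pow_mem_OinfJ q A hA))

/-- **Level shift ("Lemma U").**  If `(θ j̄)^i · x ∈ WJ L N` with `x ∈ L'` integral over `k[j̄]`,
then `x ∈ WJ L' (N - i)`. -/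
theorem mem_WJ_of_theta_pow_mul (hA : A.LiesOverPrime q)
    (L L' : IntermediateField (kk A) (Omk A)) (i N : ℕ) {x : Omk A} (hx : x ∈ L')
    (hxi : IsIntegral (polyJ (kk A)) x)
    (h : theta (kk A) (jqModC (kk A)) ^ i * x ∈ WJ (kk A) L N) : x ∈ WJ (kk A) L' (N - i) := by
  refine ⟨hx, hxi, ?_⟩
  have hj0 : jqModC (kk A) ≠ 0 := WJCalc.j_ne_zero
  have hθ0 : theta (kk A) (jqModC (kk A)) ≠ 0 := theta_jqModC_ne_zero (kk A)
  have h3 := h.2.2
  have hu := (isIntegral_div_theta q A hA).pow i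
  have hjc : IsIntegral (OinfJ (kk A)) ((jqModC (kk A))⁻¹ ^ (i - N)) :=
    WJCalc.isIntegral_of_mem_OinfJ (WJCalc.inv_j_pow_mem_OinfJ _)
  have e : (jqModC (kk A))⁻¹ ^ (N - i) * x
      = (jqModC (kk A) * (theta (kk A) (jqModC (kk A)))⁻¹) ^ i
        * ((jqModC (kk A))⁻¹ ^ (i - N)
          * ((jqModC (kk A))⁻¹ ^ N * (theta (kk A) (jqModC (kk A)) ^ i * x))) := by
    have hA : ∀ n : ℕ, (jqModC (kk A) * (jqModC (kk A))⁻¹) ^ n = 1 := fun n => by
      rw [mul_inv_cancel₀ hj0, one_pow]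
    have hB : ∀ n : ℕ, (theta (kk A) (jqModC (kk A))
        * (theta (kk A) (jqModC (kk A)))⁻¹) ^ n = 1 := fun n => by
      rw [mul_inv_cancel₀ hθ0, one_pow]
    rcases le_total i N with hle | hle
    · obtain ⟨d, rfl⟩ := Nat.exists_eq_add_of_le hle
      rw [Nat.add_sub_cancel_left, Nat.sub_eq_zero_of_le hle]
      linear_combination (-((jqModC (kk A))⁻¹ ^ d * x * (theta (kk A) (jqModC (kk A))
        * (theta (kk A) (jqModC (kk A)))⁻¹) ^ i)) * hA i
        - ((jqModC (kk A))⁻¹ ^ d * x) * hB i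
    · obtain ⟨d, rfl⟩ := Nat.exists_eq_add_of_le hle
      rw [Nat.add_sub_cancel_left, Nat.sub_eq_zero_of_le hle]
      linear_combination (-(x * (theta (kk A) (jqModC (kk A))
        * (theta (kk A) (jqModC (kk A)))⁻¹) ^ (N + d))) * hA (N + d)
        - x * hB (N + d)
  rw [e]
  exact hu.mul (hjc.mul h3)

/-- The converse inclusion: for `x ∈ WJ L' N`, if `(θ j̄)^i · x` is integral over `k[j̄]` then it
lies in `WJ L (N + i)` (`L ⊇ L'` any field containing `θ j̄`). -/
theorem theta_pow_mul_mem_WJ (hA : A.LiesOverPrime q)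
    (L L' : IntermediateField (kk A) (Omk A)) (hLL : L' ≤ L)
    (hθL : theta (kk A) (jqModC (kk A)) ∈ L) (i N : ℕ) {x : Omk A} (hx : x ∈ WJ (kk A) L' N)
    (hint : IsIntegral (polyJ (kk A)) (theta (kk A) (jqModC (kk A)) ^ i * x)) :
    theta (kk A) (jqModC (kk A)) ^ i * x ∈ WJ (kk A) L (N + i) := by
  refine ⟨L.mul_mem (L.pow_mem hθL i) (hLL hx.1), hint, ?_⟩
  have hu := (isIntegral_theta_div q A hA).pow i
  have e : (jqModC (kk A))⁻¹ ^ (N + i) * (theta (kk A) (jqModC (kk A)) ^ i * x)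
      = (theta (kk A) (jqModC (kk A)) * (jqModC (kk A))⁻¹) ^ i
        * ((jqModC (kk A))⁻¹ ^ N * x) := by
    ring
  rw [e]
  exact hu.mul hx.2.2

end Unit

end Fermat.Agent.S36.ThetaInf
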