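import Mathlib
import Fermat.Agent.S34.CuspRegOnto
import Fermat.Agent.S34.CuspRegRK
import Fermat.Agent.S36.CuspRegCore
import Fermat.Agent.S36.Plan
import Fermat.Agent.S36.CoordFin
import Fermat.Agent.S36.RiemannE3Plan
import Fermat.Agent.S36.NumQ2
import Fermat.Agent.S36.ThetaInf

/-!
# S36 (P8) — [CR-q²-INST]: the contract `Plan.CuspRegStmt` (helper86)

The junction: `Plan.CuspRegStmt A N M q hq hqq O ρ` (cusp regularity at level `q²`, the `hCR` of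
`S36/LiftGen`) from

* `Plan.RedStmt`, `Plan.DimStmt`, `Plan.InclStmt` (the frame contracts),
* `S34.Plan.RiemannK A M` (`(R)` at the good level `M`; `S34.CuspReg.riemannK`),
* `RiemannE3Plan.finrank_succ_nsmul_le` + `NumQ2.dedekindPsi_mul_prime_sq`
  (the count `l((c+1)E) ≤ l(cE) + 3 q (q+1) ψ(M)`; used inside, no hypothesis),
* Lemma U for `Θ` (`cuspRegStmt_of_theta`: `Θ = θ j̄`, `ThetaInf.mem_WJ_of_theta_pow_mul`),
* an injective node function `t : MidIdx q → k`,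
* the three families of `S36/CuspFam` (`fam_inf`, `fam_zero`, `fam_mid`: their conclusions,
  verbatim, for every `E` with `Plan.IsE3`).

Proof: `CuspRegCore.cuspReg_q2_of_embedding` with `Ξ := Plan.MidIdx q`
(`CoordFin.fintype_card_midIdx`), `R := Plan.Rq A q`, `B̄(c) := ρ (L(cE) ∩ O)`.
-/

set_option autoImplicit false
set_option maxHeartbeats 400000

noncomputable section

namespace Fermat.Agent.S36.CuspRegQ2Inst

open ModularCurve AlgebraicCurve Fermat.Agent.S24 Fermat.Agent.S18.Content Fermat.Agent.S18.Plan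
  Fermat.Agent.S18 Module Fermat.Agent.S34 Fermat.Agent.S36.Plan

variable {A : ValuationSubring Kbar} {N M q : ℕ} [NeZero N] [NeZero M] [NeZero q]
variable {hq : q ∣ N} {hqq : q * q ∣ N}
variable {O : Subring Om} {ρ : O →+* Rq A q}

/-! ## Coordinates -/

/-- The coordinate map `k((T))^(Coord q) → k((T)) × k((T)) × (MidIdx q → k((T)))`. -/
def coP (A : ValuationSubring Kbar) (q : ℕ) :
    (Coord q → LaurentSeries (kk A)) →ₗ[kk A] CuspRegCore.P3 (kk A) (MidIdx q) :=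
  LinearMap.prod (LinearMap.proj Coord.inf)
    (LinearMap.prod (LinearMap.proj Coord.zero)
      (LinearMap.pi fun ξ => LinearMap.proj (Coord.mid ξ)))

theorem coP_apply (x : Coord q → LaurentSeries (kk A)) :
    coP A q x = (x .inf, x .zero, fun ξ => x (.mid ξ)) := rfl

theorem coP_injective : Function.Injective (coP A q) := by
  intro x y h
  rw [coP_apply, coP_apply] at h
  funext i
  cases i with
  | inf => exact congrArg Prod.fst h
  | zero => exact congrArg (fun z => z.2.1) h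
  | mid ξ => exact congrFun (congrArg (fun z => z.2.2) h) ξ

/-! ## The spaces `B̄(c)` -/

/-- `B̄(c) = ρ (L(cE) ∩ O)` as a `k`-subspace of `k((T))^(Coord q)`. -/
def Bc3 (hRed : RedStmt A q O ρ) (N M : ℕ) [NeZero N] (E : Divisor Kbar (FN N)) (c : ℕ) :
    Submodule (kk A) (Coord q → LaurentSeries (kk A)) :=
  LiftGen.BcG (algR A q) hRed N (M * q * q) E c

theorem mem_Bc3 (hRed : RedStmt A q O ρ) (E : Divisor Kbar (FN N)) (c : ℕ)
    {x : Coord q → LaurentSeries (kk A)} :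
    x ∈ Bc3 hRed N M E c ↔ ∃ g : O, (g : Om) ∈ pullRR N (M * q * q) (c • E) ∧ ρ g = x := Iff.rfl

/-- **(Dim)** for `B̄(c)`. -/
theorem finrank_Bc3 (hRed : RedStmt A q O ρ) (hDim : DimStmt A M q O ρ)
    (E : Divisor Kbar (FN N)) (c : ℕ) [Module.Finite Kbar (pullRR N (M * q * q) (c • E))] :
    Module.Finite (kk A) (Bc3 hRed N M E c) ∧
      finrank (kk A) (Bc3 hRed N M E c) = finrank Kbar (pullRR N (M * q * q) (c • E)) :=
  @LiftCore2.RedData.finrank_redSp Kbar Om (kk A) (Rq A q) _ _ HahnSeries.instAlgebra _ _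
    (algR A q) A (IsLocalRing.residue A) O ρ hRed (Main.fieldSub (M * q * q))
    hDim (pullRR N (M * q * q) (c • E)) (fun w hw => hw.1) _

/-! ## The junction -/

/-- **[CR]** `Plan.CuspRegStmt`, hypothesis form (any `Θ` with Lemma U). -/
theorem cuspRegStmt_of (hqp : q.Prime) (hqM : ¬ q ∣ M) (hNdvd : N ∣ M * q * q)
    (hTF : 4 ∣ M * q * q ∨ 9 ∣ M * q * q)
    (hRed : RedStmt A q O ρ) (hDim : DimStmt A M q O ρ) (hIncl : InclStmt A N M q hq hqq O ρ)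
    (hRK : S34.Plan.RiemannK A M)
    (Θ : Omk A) (t : MidIdx q → kk A) (ht : Function.Injective t)
    (hU : ∀ (i n : ℕ) (x : Omk A), x ∈ Fk A M → IsIntegral (polyJ (kk A)) x →
      Θ ^ i * x ∈ WJ (kk A) (⊤ : IntermediateField (kk A) (Omk A)) n →
        x ∈ WJ (kk A) (Fk A M) (n - i))
    (hI : ∀ E : Divisor Kbar (FN N), IsE3 N q hq hqq E →
      ∃ c₁ : ℕ, ∀ c : ℕ, c₁ ≤ c → ∀ a : Omk A, a ∈ WJ (kk A) (Fk A M) (c - q ^ 2) →
        ∃ F : O, (F : Om) ∈ pullRR N (M * q * q) (c • E) ∧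
          ρ F .inf = (jk A - jk A ^ (q ^ 4)) * (jk A - jk A ^ (q ^ 2))
            * jk A ^ (q * c + q ^ 2 * (c - q ^ 2)) * a ∧
          ρ F .zero = 0 ∧ ∀ ξ, ρ F (.mid ξ) = 0)
    (h0 : ∀ E : Divisor Kbar (FN N), IsE3 N q hq hqq E →
      ∃ c₁ : ℕ, ∀ c : ℕ, c₁ ≤ c → ∀ a : Omk A, a ∈ WJ (kk A) (Fk A M) (c - q ^ 2) →
        ∃ F : O, (F : Om) ∈ pullRR N (M * q * q) (c • E) ∧
          ρ F .inf = 0 ∧
          ρ F .zero = (jk A - jk A ^ (q ^ 4)) * (jk A - jk A ^ (q ^ 2))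
            * jk A ^ (q * c + q ^ 2 * (c - q ^ 2)) * a ∧
          ∀ ξ, ρ F (.mid ξ) = 0)
    (hm : ∀ E : Divisor Kbar (FN N), IsE3 N q hq hqq E →
      ∃ c₁ : ℕ, ∀ c : ℕ, c₁ ≤ c → ∀ m : ℕ, m ≤ q - 2 → ∀ a : Omk A,
        a ∈ WJ (kk A) (Fk A M) (c - q ^ 2 - q) →
        ∃ F : O, (F : Om) ∈ pullRR N (M * q * q) (c • E) ∧ ρ F .inf = 0 ∧ ρ F .zero = 0 ∧
          ∀ ξ, ρ F (.mid ξ) = (HahnSeries.C (t ξ) * Θ) ^ m
            * ((jk A - jk A ^ (q ^ 2)) ^ 2 * jk A ^ (q * (c + 1) + (c - q ^ 2 - m)) * a)) :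
    CuspRegStmt A N M q hq hqq O ρ := by
  intro E hE
  haveI : NeZero (M * q * q) := ⟨mul_ne_zero (mul_ne_zero (NeZero.ne M) (NeZero.ne q)) (NeZero.ne q)⟩
  letI : Fintype (MidIdx q) := CoordFin.fintypeMidIdx q
  have hcard : Fintype.card (MidIdx q) = q - 1 := CoordFin.fintype_card_midIdx hqp
  have hfinRR : ∀ B : Divisor Kbar (FN N), Module.Finite Kbar (pullRR N (M * q * q) B) :=
    fun B => RiemannE3Plan.finite_pullRR N (M * q * q) hNdvd hTF B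
  have hE0 : ∀ P, 0 ≤ E P := (RiemannE3Plan.isE3_phi N q hq hqq hqp E hE).1
  have hsmul : ∀ (c : ℕ) (P : Place Kbar (FN N)), (c • E) P = (c : ℤ) * E P := by
    intro c P
    rw [Finsupp.smul_apply, nsmul_eq_mul]
  have hmonoE : ∀ c c' : ℕ, c ≤ c' → ∀ P, (c • E) P ≤ (c' • E) P := by
    intro c c' hcc P
    rw [hsmul, hsmul]
    exact mul_le_mul_of_nonneg_right (by exact_mod_cast hcc) (hE0 P)
  obtain ⟨m₀, hR⟩ := S34.CuspReg.hR_of_riemannK hRK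
  obtain ⟨cI, hI⟩ := hI E hE
  obtain ⟨c0, h0⟩ := h0 E hE
  obtain ⟨cM, hm⟩ := hm E hE
  have hψ : dedekindPsi (M * q * q) = q * (q + 1) * dedekindPsi M :=
    NumQ2.dedekindPsi_mul_prime_sq hqp hqM
  have e1 : q ^ 2 + q + 1 = q * q + q + 1 := by ring
  obtain ⟨c₀, hc₀⟩ := CuspRegCore.cuspReg_q2_of_embedding (k := kk A) (L := Fk A M)
    (jqModC_mem_full (kk A) M) q hqp.two_le (dedekindPsi M) m₀ hcard hR ⊤ ⊤ ⊤
    (coP A q) coP_injective (fun c => Bc3 hRed N M E c)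
    (by
      intro c c' hcc x hx
      obtain ⟨g, hg, rfl⟩ := hx
      exact ⟨g, Main.pullRR_mono (hmonoE c c' hcc) hg, rfl⟩)
    (fun c => haveI := hfinRR (c • E); (finrank_Bc3 hRed hDim E c).1)
    (by
      intro c x hx
      obtain ⟨g, hg, rfl⟩ := hx
      have h := hIncl E hE c g hg
      rw [coP_apply, e1]
      exact ⟨h .inf, h .zero, fun ξ => h (.mid ξ)⟩)
    (max (max cI c0) cM)
    (by
      intro c _
      haveI := hfinRR (c • E)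
      haveI := hfinRR ((c + 1) • E)
      rw [(finrank_Bc3 hRed hDim E c).2, (finrank_Bc3 hRed hDim E (c + 1)).2, ← hψ]
      exact RiemannE3Plan.finrank_succ_nsmul_le N q (M * q * q) hq hqq hqp hNdvd hTF E hE c)
    Θ t ht hU
    (by
      intro c hc a ha
      have hc1 : cI ≤ c := (le_max_left _ _).trans ((le_max_left _ _).trans hc)
      obtain ⟨F, hF, h1, h2, h3⟩ := hI c hc1 a ha
      refine ⟨ρ F, ⟨F, hF, rfl⟩, ?_⟩
      rw [coP_apply]
      refine Prod.ext h1 (Prod.ext h2 ?_)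
      funext ξ
      exact h3 ξ)
    (by
      intro c hc a ha
      have hc1 : c0 ≤ c := (le_max_right _ _).trans ((le_max_left _ _).trans hc)
      obtain ⟨F, hF, h1, h2, h3⟩ := h0 c hc1 a ha
      refine ⟨ρ F, ⟨F, hF, rfl⟩, ?_⟩
      rw [coP_apply]
      refine Prod.ext h1 (Prod.ext h2 ?_)
      funext ξ
      exact h3 ξ)
    (by
      intro c hc m a ha
      have hc1 : cM ≤ c := (le_max_right _ _).trans hc
      have hm2 : (m : ℕ) ≤ q - 2 := by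
        have := m.2
        omega
      obtain ⟨F, hF, h1, h2, h3⟩ := hm c hc1 m hm2 a ha
      refine ⟨ρ F, ⟨F, hF, rfl⟩, ?_⟩
      rw [coP_apply]
      refine Prod.ext h1 (Prod.ext h2 ?_)
      funext ξ
      exact h3 ξ)
  refine ⟨c₀, fun c hc c' hcc g hg hW => ?_⟩
  have hx : ρ g ∈ Bc3 hRed N M E c := by
    refine hc₀ c c' hc hcc (ρ g) ⟨g, hg, rfl⟩ ?_
    rw [coP_apply, e1]
    exact ⟨hW .inf, hW .zero, fun ξ => hW (.mid ξ)⟩
  exact hx

/-- **[CR]** `Plan.CuspRegStmt` with `Θ = θ j̄` (Lemma U = `ThetaInf.mem_WJ_of_theta_pow_mul`). -/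
theorem cuspRegStmt_of_theta (hqp : q.Prime) (hA : A.LiesOverPrime q) (hqM : ¬ q ∣ M)
    (hNdvd : N ∣ M * q * q) (hTF : 4 ∣ M * q * q ∨ 9 ∣ M * q * q)
    (hRed : RedStmt A q O ρ) (hDim : DimStmt A M q O ρ) (hIncl : InclStmt A N M q hq hqq O ρ)
    (hRK : S34.Plan.RiemannK A M)
    (t : MidIdx q → kk A) (ht : Function.Injective t)
    (hI : ∀ E : Divisor Kbar (FN N), IsE3 N q hq hqq E →
      ∃ c₁ : ℕ, ∀ c : ℕ, c₁ ≤ c → ∀ a : Omk A, a ∈ WJ (kk A) (Fk A M) (c - q ^ 2) →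
        ∃ F : O, (F : Om) ∈ pullRR N (M * q * q) (c • E) ∧
          ρ F .inf = (jk A - jk A ^ (q ^ 4)) * (jk A - jk A ^ (q ^ 2))
            * jk A ^ (q * c + q ^ 2 * (c - q ^ 2)) * a ∧
          ρ F .zero = 0 ∧ ∀ ξ, ρ F (.mid ξ) = 0)
    (h0 : ∀ E : Divisor Kbar (FN N), IsE3 N q hq hqq E →
      ∃ c₁ : ℕ, ∀ c : ℕ, c₁ ≤ c → ∀ a : Omk A, a ∈ WJ (kk A) (Fk A M) (c - q ^ 2) →
        ∃ F : O, (F : Om) ∈ pullRR N (M * q * q) (c • E) ∧
          ρ F .inf = 0 ∧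
          ρ F .zero = (jk A - jk A ^ (q ^ 4)) * (jk A - jk A ^ (q ^ 2))
            * jk A ^ (q * c + q ^ 2 * (c - q ^ 2)) * a ∧
          ∀ ξ, ρ F (.mid ξ) = 0)
    (hm : ∀ E : Divisor Kbar (FN N), IsE3 N q hq hqq E →
      ∃ c₁ : ℕ, ∀ c : ℕ, c₁ ≤ c → ∀ m : ℕ, m ≤ q - 2 → ∀ a : Omk A,
        a ∈ WJ (kk A) (Fk A M) (c - q ^ 2 - q) →
        ∃ F : O, (F : Om) ∈ pullRR N (M * q * q) (c • E) ∧ ρ F .inf = 0 ∧ ρ F .zero = 0 ∧
          ∀ ξ, ρ F (.mid ξ)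
            = (HahnSeries.C (t ξ) * Fermat.Agent.S28.theta (kk A) (jqModC (kk A))) ^ m
              * ((jk A - jk A ^ (q ^ 2)) ^ 2 * jk A ^ (q * (c + 1) + (c - q ^ 2 - m)) * a)) :
    CuspRegStmt A N M q hq hqq O ρ := by
  haveI : Fact q.Prime := ⟨hqp⟩
  exact cuspRegStmt_of hqp hqM hNdvd hTF hRed hDim hIncl hRK
    (Fermat.Agent.S28.theta (kk A) (jqModC (kk A))) t ht
    (fun i n x hx hxi h => ThetaInf.mem_WJ_of_theta_pow_mul q A hA ⊤ (Fk A M) i n hx hxi h)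
    hI h0 hm

/-! ## The level datum of `Plan.LiftAllStmt` -/

/-- The arithmetic of the level datum of `S36/PlanAll`: `q` prime, `N₀` prime to `q`,
`N' = N₀ * q`, `M = aux q * N₀`. -/
theorem level_arith {N₀ N' M q : ℕ} (hqp : q.Prime) (hcop : Nat.Coprime N₀ q)
    (hN' : N' = N₀ * q) (hM : M = S34.Plan.aux q * N₀) (hN₀ : N₀ ≠ 0) :
    ¬ q ∣ M ∧ N' * q ∣ M * q * q ∧ (4 ∣ M * q * q ∨ 9 ∣ M * q * q) ∧
      S34.Plan.Levels q N₀ N' M := by
  have hnd : ¬ q ∣ N₀ := fun hd =>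
    hqp.one_lt.ne' (Nat.Coprime.eq_one_of_dvd hcop.symm hd)
  refine ⟨?_, ?_, ?_, ⟨hqp, Nat.pos_of_ne_zero hN₀, hnd, hN', hM⟩⟩
  · rw [hM]
    intro hd
    rcases (Nat.Prime.dvd_mul hqp).mp hd with h | h
    · unfold S34.Plan.aux at h
      by_cases h2 : q = 2
      · rw [if_pos h2, h2] at h
        omega
      · rw [if_neg h2] at h
        have h4 : q ∣ 2 := Nat.Prime.dvd_of_dvd_pow hqp (show q ∣ 2 ^ 2 from h)
        exact h2 ((Nat.prime_dvd_prime_iff_eq hqp Nat.prime_two).mp h4)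
    · exact hnd h
  · rw [hN', hM]
    exact Nat.mul_dvd_mul_right (Nat.mul_dvd_mul_right (Dvd.intro_left _ rfl) q) q
  · rw [hM]
    unfold S34.Plan.aux
    by_cases h2 : q = 2
    · rw [if_pos h2]
      exact Or.inr ⟨N₀ * q * q, by ring⟩
    · rw [if_neg h2]
      exact Or.inl ⟨N₀ * q * q, by ring⟩

/-- **[CR]** `Plan.CuspRegStmt` at the level datum of `Plan.LiftAllStmt` (`N := N' * q`,
`N' = N₀ * q`, `M = aux q * N₀`), from the frame contracts `[RED]`, `[DIM]`, `[INCL]` and the three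
families with `Θ = θ j̄` (`S36/CuspFam`, `S36/CuspZW`). -/
theorem cuspRegStmt_levels {N₀ N' : ℕ} [NeZero N'] (hq' : q ∣ N') (hqp : q.Prime)
    (hcop : Nat.Coprime N₀ q) (hN' : N' = N₀ * q) (hM : M = S34.Plan.aux q * N₀)
    (hA : A.LiesOverPrime q)
    (hRed : RedStmt A q O ρ) (hDim : DimStmt A M q O ρ)
    (hIncl : InclStmt A (N' * q) M q (Dvd.intro_left N' rfl) (Nat.mul_dvd_mul_right hq' q) O ρ)
    (t : MidIdx q → kk A) (ht : Function.Injective t)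
    (hI : ∀ E : Divisor Kbar (FN (N' * q)),
      IsE3 (N' * q) q (Dvd.intro_left N' rfl) (Nat.mul_dvd_mul_right hq' q) E →
      ∃ c₁ : ℕ, ∀ c : ℕ, c₁ ≤ c → ∀ a : Omk A, a ∈ WJ (kk A) (Fk A M) (c - q ^ 2) →
        ∃ F : O, (F : Om) ∈ pullRR (N' * q) (M * q * q) (c • E) ∧
          ρ F .inf = (jk A - jk A ^ (q ^ 4)) * (jk A - jk A ^ (q ^ 2))
            * jk A ^ (q * c + q ^ 2 * (c - q ^ 2)) * a ∧
          ρ F .zero = 0 ∧ ∀ ξ, ρ F (.mid ξ) = 0)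
    (h0 : ∀ E : Divisor Kbar (FN (N' * q)),
      IsE3 (N' * q) q (Dvd.intro_left N' rfl) (Nat.mul_dvd_mul_right hq' q) E →
      ∃ c₁ : ℕ, ∀ c : ℕ, c₁ ≤ c → ∀ a : Omk A, a ∈ WJ (kk A) (Fk A M) (c - q ^ 2) →
        ∃ F : O, (F : Om) ∈ pullRR (N' * q) (M * q * q) (c • E) ∧
          ρ F .inf = 0 ∧
          ρ F .zero = (jk A - jk A ^ (q ^ 4)) * (jk A - jk A ^ (q ^ 2))
            * jk A ^ (q * c + q ^ 2 * (c - q ^ 2)) * a ∧
          ∀ ξ, ρ F (.mid ξ) = 0)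
    (hm : ∀ E : Divisor Kbar (FN (N' * q)),
      IsE3 (N' * q) q (Dvd.intro_left N' rfl) (Nat.mul_dvd_mul_right hq' q) E →
      ∃ c₁ : ℕ, ∀ c : ℕ, c₁ ≤ c → ∀ m : ℕ, m ≤ q - 2 → ∀ a : Omk A,
        a ∈ WJ (kk A) (Fk A M) (c - q ^ 2 - q) →
        ∃ F : O, (F : Om) ∈ pullRR (N' * q) (M * q * q) (c • E) ∧ ρ F .inf = 0 ∧
          ρ F .zero = 0 ∧
          ∀ ξ, ρ F (.mid ξ)
            = (HahnSeries.C (t ξ) * Fermat.Agent.S28.theta (kk A) (jqModC (kk A))) ^ m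
              * ((jk A - jk A ^ (q ^ 2)) ^ 2 * jk A ^ (q * (c + 1) + (c - q ^ 2 - m)) * a)) :
    CuspRegStmt A (N' * q) M q (Dvd.intro_left N' rfl) (Nat.mul_dvd_mul_right hq' q) O ρ := by
  have hN₀ : N₀ ≠ 0 := by
    rintro rfl
    rw [zero_mul] at hN'
    exact NeZero.ne N' hN'
  obtain ⟨hqM, hNdvd, hTF, hL⟩ := level_arith hqp hcop hN' hM hN₀
  exact cuspRegStmt_of_theta hqp hA hqM hNdvd hTF hRed hDim hIncl
    (S34.CuspReg.riemannK hL A hA) t ht hI h0 hm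

end Fermat.Agent.S36.CuspRegQ2Inst

end
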