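import Mathlib
import Fermat.Agent.S36.LiftGen

/-!
# [LIFT-TW], the twisted lifting step (helper77)

`S36/LiftGen.exists_mem_pullRR_gen` with a twist `ξ ∈ R`: if `M(D)(c) = ξ · B̄(c)` for `c` large
(in the form `ξ * x ∈ M(D)(c) ↔ x ∈ B̄(c)`), `ρ(w) · ξ ^ n = 1` for the Kummer function `w`
(`div w = n D`) and every lift of `ξ` to `O` is a unit of `O`, then `L(D) ≠ 0`.

Proof: take `g₀ ∈ L(D + cE) ∩ O` with `ρ g₀ = ξ` and run `S34.LiftAbs.exists_ne_zero_mem` for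
`V'(c) = g₀⁻¹ L(D + cE)` and `w' = w g₀ ^ n`.
-/

set_option autoImplicit false

noncomputable section

namespace Fermat.Agent.S36.LiftTw

open ModularCurve AlgebraicCurve Fermat.Agent.S24 Fermat.Agent.S18 Fermat.Agent.S18.Content
  Fermat.Agent.S18.Plan Fermat.Agent.S34 Fermat.Agent.S34.Lift Fermat.Agent.S36.LiftGen

variable {A : ValuationSubring Kbar} {N Mt : ℕ} [NeZero N]
variable {R : Type} [CommRing R] [Nontrivial R] (algR : Algebra (kk A) R)
variable {O : Subring Om} {ρ : O →+* R}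

/-- **The twisted lifting step.**  Frame hypotheses as in `LiftGen.exists_mem_pullRR_gen`; the
twist `ξ` enters through `hρw`, `hinv`, `hMD`. -/
theorem exists_mem_pullRR_tw {ι : Type}
    (hle : modularFunctionFieldBar N ≤ modularFunctionFieldBar Mt)
    (hfin : ∀ B : Divisor Kbar (FN N), Module.Finite Kbar (pullRR N Mt B))
    (h : RDG algR O ρ)
    (hdim : @LiftCore2.HasDim Kbar Om R _ _ HahnSeries.instAlgebra _ (kk A) _ algR O ρ
      (Main.fieldSub Mt))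
    (E : Divisor Kbar (FN N)) (hE0 : ∀ P : Place Kbar (FN N), 0 ≤ E P)
    (φN : FN N) (hφN0 : φN ≠ 0)
    (hφE : ∀ P : Place Kbar (FN N), -E P ≤ P.ord φN)
    (hφE' : ∀ P : Place Kbar (FN N), E P = 0 ∨ P.ord φN = -E P)
    (hφO : ((φN : FN N) : Om) ∈ O) (hφiO : (((φN : FN N) : Om))⁻¹ ∈ O)
    (pr : ι → R →+* Omk A) (L : ι → IntermediateField (kk A) (Omk A))
    (hjL : ∀ i, jk A ∈ L i) (e : ι → ℕ)
    (hρφ : ∀ i, pr i (ρ ⟨_, hφO⟩) = jk A ^ e i)
    (hincl : ∀ (c : ℕ) (x : R), x ∈ BcG algR h N Mt E c →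
      ∀ i, pr i x ∈ WJ (kk A) (L i) (c * e i))
    (hCR : ∃ c₀ : ℕ, ∀ c : ℕ, c₀ ≤ c → ∀ c' : ℕ, c ≤ c' → ∀ x : R,
      x ∈ BcG algR h N Mt E c' → (∀ i, pr i x ∈ WJ (kk A) (L i) (c * e i)) →
        x ∈ BcG algR h N Mt E c)
    (hdiag : ∀ (c : ℕ) (x : R), x ∈ BcG algR h N Mt E c →
      (∀ i, ∃ κ : kk A, pr i x = HahnSeries.C κ) →
        ∃ κ : kk A, x = @algebraMap (kk A) R _ _ algR κ)
    (D : Divisor Kbar (FN N)) (n : ℕ) (hnk : ((n : ℕ) : kk A) ≠ 0)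
    (w : FN N) (hw0 : w ≠ 0) (hwD : ∀ P : Place Kbar (FN N), P.ord w = n * D P)
    (hw : (w : Om) ∈ O) (ξ : R) (hρw : ρ ⟨_, hw⟩ * ξ ^ n = 1)
    (hinv : ∀ g : O, ρ g = ξ → ((g : Om))⁻¹ ∈ O)
    (hMD : ∃ c₀ : ℕ, ∀ c : ℕ, c₀ ≤ c → ∀ x : R,
      ξ * x ∈ MDG algR h N Mt E D c ↔ x ∈ BcG algR h N Mt E c) :
    ∃ g : Om, g ∈ pullRR N Mt D ∧ g ≠ 0 := by
  classical
  obtain ⟨c₁, hCR⟩ := hCR
  obtain ⟨c₂, hMD⟩ := hMD
  obtain ⟨c, hc1, hc2⟩ : ∃ c : ℕ, c₁ ≤ c ∧ c₂ ≤ c := ⟨max c₁ c₂, le_max_left _ _, le_max_right _ _⟩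
  -- `φ` and its inverse as elements of `O`
  set φ : O := ⟨_, hφO⟩ with hφdef
  have hφcoe : (φ : Om) = ((φN : FN N) : Om) := rfl
  have hφ0 : (φ : Om) ≠ 0 := by
    rw [hφcoe]
    intro h0
    exact hφN0 (Subtype.ext h0)
  have hφφi : (φ : Om) * (((⟨_, hφiO⟩ : O) : O) : Om) = 1 := mul_inv_cancel₀ hφ0
  have hφF : (φ : Om) ∈ modularFunctionFieldBar Mt := hle φN.2
  -- multiplication by `φ^m`
  have hmul : ∀ (B B' : Divisor Kbar (FN N)) (m : ℕ), (∀ P, B P + (m : ℤ) * E P ≤ B' P) →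
      ∀ g : Om, g ∈ pullRR N Mt B → (φ : Om) ^ m * g ∈ pullRR N Mt B' := by
    intro B B' m hB g hg
    have h1 := mul_mem_pullRR_of_le hle (h := φN ^ m) (pow_ne_zero m hφN0)
      (B := B) (B' := B') (fun P => by
        rw [Main.ord_pow]
        have h2 := hφE P
        have h3 : (m : ℤ) * (-E P) ≤ (m : ℤ) * P.ord φN :=
          mul_le_mul_of_nonneg_left h2 (Nat.cast_nonneg m)
        have h4 := hB P
        linarith) hg
    have e' : ((φN ^ m : FN N) : Om) = (φ : Om) ^ m := by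
      push_cast
      rw [hφcoe]
    rw [e'] at h1
    exact h1
  have hU1 : ∀ m : ℕ, (1 : Om) ∈ pullRR N Mt (m • E) := fun m =>
    Main.one_mem_pullRR (fun P => by
      rw [smul_E_apply]
      exact mul_nonneg (Nat.cast_nonneg m) (hE0 P))
  have hUφ : ∀ m : ℕ, (φ : Om) ^ m ∈ pullRR N Mt (m • E) := by
    intro m
    have h1 := hmul 0 (m • E) m (fun P => by
      rw [smul_E_apply, Finsupp.zero_apply, zero_add]) 1
      (Main.one_mem_pullRR (fun P => by rw [Finsupp.zero_apply]))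
    rwa [mul_one] at h1
  have hUmono : ∀ a b : ℕ, a ≤ b → pullRR N Mt (a • E) ≤ pullRR N Mt (b • E) := by
    intro a b hab
    refine Main.pullRR_mono (fun P => ?_)
    rw [smul_E_apply, smul_E_apply]
    exact mul_le_mul_of_nonneg_right (by exact_mod_cast hab) (hE0 P)
  have hVmono : ∀ a b : ℕ, a ≤ b →
      pullRR N Mt (D + a • E) ≤ pullRR N Mt (D + b • E) := by
    intro a b hab
    refine Main.pullRR_mono (fun P => ?_)
    rw [add_smul_E_apply, add_smul_E_apply]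
    have : (a : ℤ) * E P ≤ (b : ℤ) * E P :=
      mul_le_mul_of_nonneg_right (by exact_mod_cast hab) (hE0 P)
    linarith
  -- `B̄(c)`: monotone, stable under `ρφ^m` (with shift)
  have hBmono : ∀ a b : ℕ, a ≤ b → BcG algR h N Mt E a ≤ BcG algR h N Mt E b := by
    rintro a b hab x ⟨y, hy, rfl⟩
    exact ⟨y, hUmono a b hab hy, rfl⟩
  have hBmul : ∀ (C m : ℕ) (x : R), x ∈ BcG algR h N Mt E C →
      ρ φ ^ m * x ∈ BcG algR h N Mt E (C + m) := by
    rintro C m x ⟨y, hy, rfl⟩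
    refine ⟨φ ^ m * y, ?_, ?_⟩
    · rw [Subring.coe_mul, Subring.coe_pow]
      refine hmul (C • E) ((C + m) • E) m (fun P => ?_) _ hy
      rw [smul_E_apply, smul_E_apply]
      push_cast
      linarith
    · rw [map_mul, map_pow]
  have hprφ : ∀ (i : ι) (m : ℕ) (x : R), pr i (ρ φ ^ m * x) = jk A ^ (m * e i) * pr i x := by
    intro i m x
    rw [map_mul, map_pow, hρφ i, ← pow_mul, mul_comm (e i) m]
  -- `(C1)`
  have C1 : ∀ (c' : ℕ) (x : R), x ∈ BcG algR h N Mt E c' →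
      ρ φ ^ c' * x ∈ BcG algR h N Mt E c' →
      ∃ κ : kk A, x = @algebraMap (kk A) R _ _ algR κ := by
    intro c' x hx hx'
    refine hdiag c' x hx (fun i => ?_)
    have h1 := hincl c' x hx i
    have h1' := hincl c' _ hx' i
    rw [hprφ] at h1'
    exact ConstWPlan.eq_C_of_mem_WJ_zero _ _ (WJCalc.mem_WJ_zero_of_mem h1 h1')
  -- cusp regularity, both directions
  have hcr : ∀ (c' : ℕ) (x : R), x ∈ BcG algR h N Mt E c' →
      (∀ i, pr i x ∈ WJ (kk A) (L i) (c * e i)) → x ∈ BcG algR h N Mt E c := by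
    intro c' x hx hxW
    rcases le_total c c' with hcc | hcc
    · exact hCR c hc1 c' hcc x hx hxW
    · exact hBmono c' c hcc hx
  -- `(C4)`
  have C4 : ∀ (C : ℕ) (x₁ x₂ : R), x₁ ∈ BcG algR h N Mt E C →
      ρ φ ^ C * x₂ ∈ BcG algR h N Mt E C → ρ φ ^ c * (x₁ + x₂) ∈ BcG algR h N Mt E (2 * c) →
      x₁ ∈ BcG algR h N Mt E c ∧ ρ φ ^ c * x₂ ∈ BcG algR h N Mt E c := by
    intro C x₁ x₂ hx₁ hx₂ hx₁₂
    have hsplit : ∀ i, pr i x₁ ∈ WJ (kk A) (L i) (c * e i) ∧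
        jk A ^ (c * e i) * pr i x₂ ∈ WJ (kk A) (L i) (c * e i) := by
      intro i
      have hW₁ := hincl C x₁ hx₁ i
      have hW₂ := hincl C _ hx₂ i
      have hW₁₂ := hincl (2 * c) _ hx₁₂ i
      rw [hprφ] at hW₂ hW₁₂
      rw [map_add] at hW₁₂
      have e2 : 2 * c * e i = 2 * (c * e i) := Nat.mul_assoc 2 c (e i)
      rw [e2] at hW₁₂
      exact WJCalc.split_mem_WJ (hjL i) (c := c * e i) (C := C * e i) hW₁ hW₂ hW₁₂
    have hx₁W : ∀ i, pr i x₁ ∈ WJ (kk A) (L i) (c * e i) := fun i => (hsplit i).1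
    have hx₂W : ∀ i, pr i (ρ φ ^ c * x₂) ∈ WJ (kk A) (L i) (c * e i) := by
      intro i
      rw [hprφ]
      exact (hsplit i).2
    refine ⟨hcr C x₁ hx₁ hx₁W, ?_⟩
    have e' : ρ φ ^ c * x₂ = ρ φ ^ c * (x₁ + x₂) - ρ φ ^ c * x₁ := by ring
    have hmem : ρ φ ^ c * x₂ ∈ BcG algR h N Mt E (max (2 * c) (C + c)) := by
      rw [e']
      exact Submodule.sub_mem _ (hBmono _ _ (le_max_left _ _) hx₁₂)
        (hBmono _ _ (le_max_right _ _) (hBmul C c x₁ hx₁))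
    exact hcr _ _ hmem hx₂W
  -- the lift `g₀` of the twist `ξ`
  have hn0 : n ≠ 0 := by
    rintro rfl
    exact hnk Nat.cast_zero
  have h1B : (1 : R) ∈ BcG algR h N Mt E c :=
    ⟨1, by rw [Subring.coe_one]; exact hU1 c, map_one ρ⟩
  have hξM : ξ ∈ MDG algR h N Mt E D c := by
    have h1 := (hMD c hc2 1).2 h1B
    rwa [mul_one] at h1
  obtain ⟨g₀, hg₀V, hg₀ρ⟩ := hξM
  have hg₀i : ((g₀ : Om))⁻¹ ∈ O := hinv g₀ hg₀ρ
  obtain ⟨ξi, hξi⟩ : ∃ ξi : R, ξ * ξi = 1 := by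
    refine ⟨ξ ^ (n - 1) * ρ ⟨_, hw⟩, ?_⟩
    rw [← mul_assoc, ← pow_succ', Nat.sub_add_cancel (Nat.one_le_iff_ne_zero.2 hn0), mul_comm]
    exact hρw
  have hg₀0 : (g₀ : Om) ≠ 0 := by
    intro h0
    have h1 : g₀ = 0 := Subtype.ext h0
    rw [h1, map_zero] at hg₀ρ
    rw [← hg₀ρ, zero_mul] at hξi
    exact zero_ne_one hξi
  set g₀i : O := ⟨_, hg₀i⟩ with hg₀idef
  have hgg : (g₀ : Om) * (g₀i : Om) = 1 := mul_inv_cancel₀ hg₀0
  have hgg' : g₀ * g₀i = 1 := Subtype.ext hgg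
  have hρg₀i : ρ g₀i = ξi := by
    have h1 : ξ * ρ g₀i = 1 := by rw [← hg₀ρ, ← map_mul, hgg', map_one]
    calc ρ g₀i = (ξ * ξi) * ρ g₀i := by rw [hξi, one_mul]
      _ = ξi * (ξ * ρ g₀i) := by ring
      _ = ξi := by rw [h1, mul_one]
  have hg₀F : (g₀ : Om) ∈ modularFunctionFieldBar Mt := hg₀V.1
  -- the twisted Kummer function
  set w' : O := ⟨_, hw⟩ * g₀ ^ n with hw'def
  have hw'coe : (w' : Om) = (w : Om) * (g₀ : Om) ^ n := rfl
  have hρw' : ρ w' = 1 := by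
    rw [hw'def, map_mul, map_pow, hg₀ρ]
    exact hρw
  -- the application of `LiftAbs.exists_ne_zero_mem` to `V' c = g₀⁻¹ L(D + cE)`
  obtain ⟨s, hs0, hsV, hφs⟩ := @LiftAbs.exists_ne_zero_mem Kbar Om (kk A) R _ _
    HahnSeries.instAlgebra _ _ algR A (IsLocalRing.residue A) O ρ _ h
    (Main.fieldSub Mt) hdim
    (fun c => @LiftAbs.shift Kbar Om _ _ HahnSeries.instAlgebra (g₀ : Om)
      (pullRR N Mt (D + c • E)))
    (fun c => pullRR N Mt (c • E))
    (fun c => BcG algR h N Mt E c)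
    (fun c => by
      have hf := hfin (D + c • E)
      exact @LiftAbs.finite_shift Kbar Om _ _ HahnSeries.instAlgebra _ hg₀0 _ hf)
    (fun c => hfin _)
    (fun a b hab => @LiftAbs.shift_mono Kbar Om _ _ HahnSeries.instAlgebra _ _ _ (hVmono a b hab))
    φ ⟨_, hφiO⟩ hφφi w' hρw' n hnk c
    (fun s hs => by
      have hs' : (g₀ : Om) * s ∈ pullRR N Mt (D + c • E) := hs
      have e' : s = ((g₀ : Om))⁻¹ * ((g₀ : Om) * s) := by
        field_simp
      show s ∈ modularFunctionFieldBar Mt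
      rw [e']
      exact mul_mem (inv_mem hg₀F) hs'.1)
    (fun s hs => by
      have hs' : (g₀ : Om) * ((φ : Om) ^ c * s) ∈ pullRR N Mt (D + c • E) := hs
      have e' : s = ((g₀ : Om) * (φ : Om) ^ c)⁻¹ * ((g₀ : Om) * ((φ : Om) ^ c * s)) := by
        field_simp
      show s ∈ modularFunctionFieldBar Mt
      rw [e']
      exact mul_mem (inv_mem (mul_mem hg₀F (pow_mem hφF c))) hs'.1)
    (fun s hs => hs.1)
    (fun s hs => by
      have hs' : (φ : Om) ^ (n * c) * s ∈ pullRR N Mt ((n * c) • E) := hs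
      have e' : s = ((φ : Om) ^ (n * c))⁻¹ * ((φ : Om) ^ (n * c) * s) := by
        field_simp
      show s ∈ modularFunctionFieldBar Mt
      rw [e']
      exact mul_mem (inv_mem (pow_mem hφF (n * c))) hs'.1)
    (fun s hs => by
      have hs' : (g₀ : Om) * s ∈ pullRR N Mt (D + c • E) := hs
      show (g₀ : Om) * ((φ : Om) ^ c * s) ∈ pullRR N Mt (D + (2 * c) • E)
      rw [mul_left_comm]
      exact hmul (D + c • E) (D + (2 * c) • E) c (fun P => by
        rw [add_smul_E_apply, add_smul_E_apply]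
        push_cast
        linarith) _ hs')
    (fun s hs => by
      have hs' : (g₀ : Om) * s ∈ pullRR N Mt (D + c • E) := hs
      have h1 : ((g₀ : Om) * s) ^ n ∈ pullRR N Mt (n • (D + c • E)) :=
        Main.pow_mem_pullRR n (fun P => smul_E_apply _ n P) hs'
      have h2 := mul_mem_pullRR_of_le hle (h := w) hw0 (B := n • (D + c • E))
        (B' := (n * c) • E) (fun P => by
          rw [smul_E_apply, add_smul_E_apply, smul_E_apply, hwD P]
          push_cast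
          linarith) h1
      have e' : s ^ n * (w' : Om) = (w : Om) * ((g₀ : Om) * s) ^ n := by
        rw [hw'coe, mul_pow]
        ring
      rw [e']
      exact h2)
    (hU1 (n * c)) (hUφ (n * c))
    (fun x hx => by
      obtain ⟨y, hy, rfl⟩ := hx
      refine (hMD c hc2 (ρ y)).1 ⟨g₀ * y, ?_, ?_⟩
      · rw [Subring.coe_mul]
        exact hy
      · rw [map_mul, hg₀ρ])
    (fun x hx => by
      obtain ⟨y, hy, rfl⟩ := hx
      refine (hMD (2 * c) (by omega) (ρ y)).1 ⟨g₀ * y, ?_, ?_⟩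
      · rw [Subring.coe_mul]
        exact hy
      · rw [map_mul, hg₀ρ])
    (fun x hx => hx)
    (fun x hx => by
      obtain ⟨y, hy, hρy⟩ := (hMD c hc2 x).2 hx
      refine ⟨g₀i * y, ?_, ?_⟩
      · show (g₀ : Om) * (((g₀i * y : O) : O) : Om) ∈ pullRR N Mt (D + c • E)
        rw [Subring.coe_mul, ← mul_assoc, hgg, one_mul]
        exact hy
      · rw [map_mul, hρg₀i, hρy, ← mul_assoc, mul_comm ξi ξ, hξi, one_mul])
    h1B
    ⟨φ ^ c, by rw [Subring.coe_pow]; exact hUφ c, map_pow ρ φ c⟩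
    C1 C4
  -- the last divisor step, for `g₀ * s`
  have hsV' : (g₀ : Om) * s ∈ pullRR N Mt (D + c • E) := hsV
  have hφs' : (φ : Om) ^ c * ((g₀ : Om) * s) ∈ pullRR N Mt (D + c • E) := by
    have h1 : (g₀ : Om) * ((φ : Om) ^ c * s) ∈ pullRR N Mt (D + c • E) := hφs
    rwa [mul_left_comm] at h1
  refine ⟨(g₀ : Om) * s, ⟨hsV'.1, fun P t ht hBt => ?_⟩, mul_ne_zero hg₀0 hs0⟩
  rcases hφE' P with h0 | h0
  · refine hsV'.2 P t ht ?_
    rw [add_smul_E_apply, h0, mul_zero, add_zero]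
    exact hBt
  · have hpow0 : φN ^ c ≠ 0 := pow_ne_zero c hφN0
    have h1 := hφs'.2 P (t * (φN ^ c)⁻¹) (mul_ne_zero ht (inv_ne_zero hpow0)) (by
      rw [P.ord_mul ht (inv_ne_zero hpow0), P.ord_inv, Main.ord_pow, h0, add_smul_E_apply]
      linarith)
    have e' : ((t * (φN ^ c)⁻¹ : FN N) : Om) * ((φ : Om) ^ c * ((g₀ : Om) * s))
        = (t : Om) * ((g₀ : Om) * s) := by
      push_cast
      rw [← hφcoe]
      field_simp
    rw [← e']
    exact h1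

end Fermat.Agent.S36.LiftTw

end
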