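import Mathlib
import Fermat.Agent.S36.LiftGen
import Fermat.Agent.S34.TauAdapt

/-!
# S36 / P8 — [TWIST-GR]: the graded twist statement from the ungraded inclusion (owner: helper91)

In the vocabulary of `S36/LiftGen.lean` (`RDG`, `BcG`, `MDG`, coordinates `pr i`, fields `L i`,
exponents `e i`):

* `twist_iff_abs` : abstract count (`LiftCore2.RedData`, `HasDim`): if `ξ'·redSp (V c)` lies in
  `⋃ redSp (U c')` and satisfies the pole bound `Wp c`, cusp regularity holds for `U`, and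
  `dim U c ≤ dim V c` for `c` large, then `ξ x ∈ redSp (V c) ↔ x ∈ redSp (U c)` for `c` large
  (`ξ ξ' = 1`);
* `hMD_of_le`     : the same for `V c = L(D + cE)`, `U c = L(cE)`:
  **`ξ x ∈ M(D)(c) ↔ x ∈ B̄(c)` for `c` large** from the UNGRADED inclusion `M(D) ⊆ ξ·B̄`,
  the pole bounds for `ξ⁻¹·M(D)`, cusp regularity, `(Dim)` and Riemann's inequality;
* `incl_of_pow`   : the pole bounds for `ξ⁻¹·M(D)` by the power trick (`w` with `div w = nD`,
  `ρ w · ξⁿ = 1`);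
* `hMD_of_le_of_pow` : the combination.
-/

set_option autoImplicit false

noncomputable section

namespace Fermat.Agent.S36.TwistGraded

open Module

/-! ## The abstract count -/

section Abs

open Fermat.Agent.S34.LiftCore2

variable {K Ω k R : Type*} [Field K] [Field Ω] [Algebra K Ω] [Field k] [CommRing R] [Algebra k R]
variable {A : ValuationSubring K} {π : A →+* k} {O : Subring Ω} {ρ : O →+* R}

/-- **Abstract graded twist statement.** -/
theorem twist_iff_abs (h : RedData A π O ρ) (S : Submodule K Ω) (hS : HasDim k O ρ S)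
    (U V : ℕ → Submodule K Ω) (hUS : ∀ c, U c ≤ S) (hVS : ∀ c, V c ≤ S)
    (hUfin : ∀ c, Module.Finite K (U c)) (hVfin : ∀ c, Module.Finite K (V c))
    (hUmono : Monotone U) (Wp : ℕ → R → Prop)
    (c₁ : ℕ) (hCR : ∀ c : ℕ, c₁ ≤ c → ∀ c' : ℕ, c ≤ c' → ∀ x : R,
      x ∈ h.redSp (U c') → Wp c x → x ∈ h.redSp (U c))
    (c₂ : ℕ) (hR : ∀ c : ℕ, c₂ ≤ c → finrank K (U c) ≤ finrank K (V c))
    (ξ ξ' : R) (hξ : ξ * ξ' = 1)
    (hincl : ∀ (c : ℕ) (y : R), y ∈ h.redSp (V c) → Wp c (ξ' * y))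
    (hle : ∀ (c : ℕ) (y : R), y ∈ h.redSp (V c) → ∃ c' : ℕ, ξ' * y ∈ h.redSp (U c'))
    (c : ℕ) (hc₁ : c₁ ≤ c) (hc₂ : c₂ ≤ c) (x : R) :
    ξ * x ∈ h.redSp (V c) ↔ x ∈ h.redSp (U c) := by
  classical
  have := hUfin c
  have := hVfin c
  -- Step 1: `ξ'·redSp (V c) ⊆ redSp (U c)`
  have step1 : ∀ y : R, y ∈ h.redSp (V c) → ξ' * y ∈ h.redSp (U c) := by
    intro y hy
    obtain ⟨c', hc'⟩ := hle c y hy
    have hmono : h.redSp (U c') ≤ h.redSp (U (max c c')) :=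
      h.redSp_mono (hUmono (le_max_right c c'))
    exact hCR c hc₁ (max c c') (le_max_left c c') _ (hmono hc') (hincl c y hy)
  -- the linear map `y ↦ ξ' y`
  let f : h.redSp (V c) →ₗ[k] h.redSp (U c) :=
    { toFun := fun y => ⟨ξ' * (y : R), step1 _ y.2⟩
      map_add' := fun y y' => Subtype.ext (by
        show ξ' * ((y : R) + (y' : R)) = ξ' * (y : R) + ξ' * (y' : R)
        ring)
      map_smul' := fun a y => Subtype.ext (by
        show ξ' * (a • (y : R)) = a • (ξ' * (y : R))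
        rw [mul_smul_comm]) }
  have hf_apply : ∀ y : h.redSp (V c), ((f y : h.redSp (U c)) : R) = ξ' * (y : R) := fun _ => rfl
  have hinj : Function.Injective f := by
    intro y y' hyy'
    have h1 : ξ' * (y : R) = ξ' * (y' : R) := by
      rw [← hf_apply, ← hf_apply, hyy']
    apply Subtype.ext
    calc (y : R) = ξ * (ξ' * (y : R)) := by rw [← mul_assoc, hξ, one_mul]
      _ = ξ * (ξ' * (y' : R)) := by rw [h1]
      _ = (y' : R) := by rw [← mul_assoc, hξ, one_mul]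
  obtain ⟨hfinV, hdV⟩ := h.finrank_redSp hS (hVS c)
  obtain ⟨hfinU, hdU⟩ := h.finrank_redSp hS (hUS c)
  have hle1 : finrank k (h.redSp (V c)) ≤ finrank k (h.redSp (U c)) :=
    LinearMap.finrank_le_finrank_of_injective hinj
  have heq : finrank k (h.redSp (V c)) = finrank k (h.redSp (U c)) := by
    refine le_antisymm hle1 ?_
    rw [hdV, hdU]
    exact hR c hc₂
  have hsurj : Function.Surjective f :=
    (LinearMap.injective_iff_surjective_of_finrank_eq_finrank heq).1 hinj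
  constructor
  · intro hx
    have := step1 _ hx
    rwa [← mul_assoc, mul_comm ξ' ξ, hξ, one_mul] at this
  · intro hx
    obtain ⟨y, hy⟩ := hsurj ⟨x, hx⟩
    have h1 : ξ' * (y : R) = x := by
      rw [← hf_apply, hy]
    rw [← h1, ← mul_assoc, hξ, one_mul]
    exact y.2

end Abs

/-! ## The `LiftGen` vocabulary -/

section Gen

open ModularCurve AlgebraicCurve Fermat.Agent.S24 Fermat.Agent.S18 Fermat.Agent.S18.Content
  Fermat.Agent.S18.Plan Fermat.Agent.S34 Fermat.Agent.S34.Lift Fermat.Agent.S36.LiftGen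

variable {A : ValuationSubring Kbar} {N Mt : ℕ} [NeZero N]
variable {R : Type} [CommRing R] (algR : Algebra (kk A) R)
variable {O : Subring Om} {ρ : O →+* R}

/-- **[TWIST-GR]** `ξ x ∈ M(D)(c) ↔ x ∈ B̄(c)` for `c` large, from the ungraded inclusion
`M(D) ⊆ ξ·B̄` (`hle`), the pole bounds for `ξ⁻¹·M(D)` (`hinclD`), cusp regularity (`hCR`),
`(Dim)` and Riemann's inequality (`hRiem`). -/
theorem hMD_of_le {ι : Type}
    (hfin : ∀ B : Divisor Kbar (FN N), Module.Finite Kbar (pullRR N Mt B))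
    (h : RDG algR O ρ)
    (hdim : @LiftCore2.HasDim Kbar Om R _ _ HahnSeries.instAlgebra _ (kk A) _ algR O ρ
      (Main.fieldSub Mt))
    (E : Divisor Kbar (FN N)) (hE0 : ∀ P : Place Kbar (FN N), 0 ≤ E P)
    (pr : ι → R →+* Omk A) (L : ι → IntermediateField (kk A) (Omk A)) (e : ι → ℕ)
    (hCR : ∃ c₀ : ℕ, ∀ c : ℕ, c₀ ≤ c → ∀ c' : ℕ, c ≤ c' → ∀ x : R,
      x ∈ BcG algR h N Mt E c' → (∀ i, pr i x ∈ WJ (kk A) (L i) (c * e i)) →
        x ∈ BcG algR h N Mt E c)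
    (D : Divisor Kbar (FN N))
    (hRiem : ∃ c₁ : ℕ, ∀ c : ℕ, c₁ ≤ c →
      finrank Kbar (pullRR N Mt (c • E)) ≤ finrank Kbar (pullRR N Mt (D + c • E)))
    (ξ ξ' : R) (hξ : ξ * ξ' = 1)
    (hinclD : ∀ (c : ℕ) (y : R), y ∈ MDG algR h N Mt E D c →
      ∀ i, pr i (ξ' * y) ∈ WJ (kk A) (L i) (c * e i))
    (hle : ∀ (c : ℕ) (y : R), y ∈ MDG algR h N Mt E D c →
      ∃ c' : ℕ, ξ' * y ∈ BcG algR h N Mt E c') :
    ∃ c₀ : ℕ, ∀ c : ℕ, c₀ ≤ c → ∀ x : R,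
      ξ * x ∈ MDG algR h N Mt E D c ↔ x ∈ BcG algR h N Mt E c := by
  obtain ⟨c₁, hCR⟩ := hCR
  obtain ⟨c₂, hR⟩ := hRiem
  have hUmono : Monotone fun c : ℕ => pullRR N Mt (c • E) := by
    intro a b hab
    refine Main.pullRR_mono (fun P => ?_)
    rw [smul_E_apply, smul_E_apply]
    exact mul_le_mul_of_nonneg_right (by exact_mod_cast hab) (hE0 P)
  refine ⟨max c₁ c₂, fun c hc x => ?_⟩
  exact @twist_iff_abs Kbar Om (kk A) R _ _ HahnSeries.instAlgebra _ _ algR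
    A (IsLocalRing.residue A) O ρ h (Main.fieldSub Mt) hdim
    (fun c => pullRR N Mt (c • E)) (fun c => pullRR N Mt (D + c • E))
    (fun c s hs => hs.1) (fun c s hs => hs.1) (fun c => hfin _) (fun c => hfin _) hUmono
    (fun c x => ∀ i, pr i x ∈ WJ (kk A) (L i) (c * e i))
    c₁ hCR c₂ hR ξ ξ' hξ hinclD hle c ((le_max_left _ _).trans hc) ((le_max_right _ _).trans hc) x

/-- **The power trick**: the pole bounds for `ξ⁻¹·M(D)` from `div w = nD`, `ρ w · ξⁿ = 1`. -/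
theorem incl_of_pow {ι : Type}
    (hle : modularFunctionFieldBar N ≤ modularFunctionFieldBar Mt)
    (h : RDG algR O ρ)
    (E : Divisor Kbar (FN N))
    (pr : ι → R →+* Omk A) (L : ι → IntermediateField (kk A) (Omk A)) (e : ι → ℕ)
    (hinclB : ∀ (c : ℕ) (x : R), x ∈ BcG algR h N Mt E c →
      ∀ i, pr i x ∈ WJ (kk A) (L i) (c * e i))
    (hrange : ∀ (y : O) (i : ι), pr i (ρ y) ∈ L i)
    (D : Divisor Kbar (FN N)) (n : ℕ) (hn : 0 < n)
    (w : FN N) (hw0 : w ≠ 0) (hwD : ∀ P : Place Kbar (FN N), P.ord w = n * D P)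
    (hw : (w : Om) ∈ O)
    (ξ ξ' : R) (hξ : ξ * ξ' = 1) (hξ'L : ∀ i, pr i ξ' ∈ L i) (hρw : ρ ⟨_, hw⟩ * ξ ^ n = 1)
    (c : ℕ) (y : R) (hy : y ∈ MDG algR h N Mt E D c) (i : ι) :
    pr i (ξ' * y) ∈ WJ (kk A) (L i) (c * e i) := by
  obtain ⟨s, hs, rfl⟩ := hy
  set wO : O := ⟨(w : Om), hw⟩ with hwO
  -- `sⁿ w ∈ L(ncE)`
  have h1 : (s : Om) ^ n ∈ pullRR N Mt (n • (D + c • E)) :=
    Main.pow_mem_pullRR n (fun P => smul_E_apply _ n P) hs
  have h2 : (w : Om) * (s : Om) ^ n ∈ pullRR N Mt ((n * c) • E) :=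
    mul_mem_pullRR_of_le hle (h := w) hw0 (B := n • (D + c • E))
      (B' := (n * c) • E) (fun P => by
        rw [smul_E_apply, add_smul_E_apply, smul_E_apply, hwD P]
        push_cast
        linarith) h1
  have hcoe : ((wO * s ^ n : O) : Om) = (w : Om) * (s : Om) ^ n := rfl
  have hmem : ρ (wO * s ^ n) ∈ BcG algR h N Mt E (n * c) :=
    ⟨wO * s ^ n, hcoe ▸ h2, rfl⟩
  have h3 : pr i (ρ (wO * s ^ n)) ∈ WJ (kk A) (L i) (n * c * e i) :=
    hinclB (n * c) _ hmem i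
  -- `ξ'ⁿ = ρ w`
  have hξ'n : ξ' ^ n = ρ wO := by
    calc ξ' ^ n = (ρ wO * ξ ^ n) * ξ' ^ n := by rw [hρw, one_mul]
      _ = ρ wO * (ξ * ξ') ^ n := by rw [mul_pow]; ring
      _ = ρ wO := by rw [hξ, one_pow, mul_one]
  have a2 : (ξ' * ρ s) ^ n = ρ (wO * s ^ n) := by
    rw [mul_pow, hξ'n, map_mul ρ wO (s ^ n), map_pow ρ s n]
  have e1 : (pr i (ξ' * ρ s)) ^ n = pr i (ρ (wO * s ^ n)) := by
    rw [← a2]
    exact (map_pow (pr i) (ξ' * ρ s) n).symm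
  have e2 : n * c * e i = n * (c * e i) := Nat.mul_assoc _ _ _
  rw [e2, ← e1] at h3
  refine Fermat.Agent.S34.TauAdapt.mem_WJ_of_pow ?_ hn h3
  rw [map_mul (pr i) ξ' (ρ s)]
  exact mul_mem (hξ'L i) (hrange s i)

/-- **[TWIST-GR] with the power trick.** -/
theorem hMD_of_le_of_pow {ι : Type}
    (hle : modularFunctionFieldBar N ≤ modularFunctionFieldBar Mt)
    (hfin : ∀ B : Divisor Kbar (FN N), Module.Finite Kbar (pullRR N Mt B))
    (h : RDG algR O ρ)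
    (hdim : @LiftCore2.HasDim Kbar Om R _ _ HahnSeries.instAlgebra _ (kk A) _ algR O ρ
      (Main.fieldSub Mt))
    (E : Divisor Kbar (FN N)) (hE0 : ∀ P : Place Kbar (FN N), 0 ≤ E P)
    (pr : ι → R →+* Omk A) (L : ι → IntermediateField (kk A) (Omk A)) (e : ι → ℕ)
    (hinclB : ∀ (c : ℕ) (x : R), x ∈ BcG algR h N Mt E c →
      ∀ i, pr i x ∈ WJ (kk A) (L i) (c * e i))
    (hCR : ∃ c₀ : ℕ, ∀ c : ℕ, c₀ ≤ c → ∀ c' : ℕ, c ≤ c' → ∀ x : R,
      x ∈ BcG algR h N Mt E c' → (∀ i, pr i x ∈ WJ (kk A) (L i) (c * e i)) →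
        x ∈ BcG algR h N Mt E c)
    (hrange : ∀ (y : O) (i : ι), pr i (ρ y) ∈ L i)
    (D : Divisor Kbar (FN N))
    (hRiem : ∃ c₁ : ℕ, ∀ c : ℕ, c₁ ≤ c →
      finrank Kbar (pullRR N Mt (c • E)) ≤ finrank Kbar (pullRR N Mt (D + c • E)))
    (n : ℕ) (hn : 0 < n)
    (w : FN N) (hw0 : w ≠ 0) (hwD : ∀ P : Place Kbar (FN N), P.ord w = n * D P)
    (hw : (w : Om) ∈ O)
    (ξ ξ' : R) (hξ : ξ * ξ' = 1) (hξ'L : ∀ i, pr i ξ' ∈ L i) (hρw : ρ ⟨_, hw⟩ * ξ ^ n = 1)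
    (hleM : ∀ (c : ℕ) (y : R), y ∈ MDG algR h N Mt E D c →
      ∃ c' : ℕ, ξ' * y ∈ BcG algR h N Mt E c') :
    ∃ c₀ : ℕ, ∀ c : ℕ, c₀ ≤ c → ∀ x : R,
      ξ * x ∈ MDG algR h N Mt E D c ↔ x ∈ BcG algR h N Mt E c :=
  hMD_of_le algR hfin h hdim E hE0 pr L e hCR D hRiem ξ ξ' hξ
    (fun c y hy i => incl_of_pow algR hle h E pr L e hinclB hrange D n hn w hw0 hwD hw ξ ξ' hξ
      hξ'L hρw c y hy i) hleM

end Gen

end Fermat.Agent.S36.TwistGraded

end
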