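import Mathlib
import Fermat.Agent.S36.TwistGraded
import Fermat.Agent.S36.LiftTw

/-!
# S36 / P8 — [TWIST-LIFT]: ungraded inclusion `M(D) ⊆ ξ·B̄` ⟹ `L(D) ≠ 0` (owner: helper91)

The one-step junction of `TwistGraded.hMD_of_le_of_pow` (helper91) with
`LiftTw.exists_mem_pullRR_tw` (helper77), in the `LiftGen` vocabulary: all frame hypotheses are
those of `LiftTw.exists_mem_pullRR_tw` plus `hrange` (the coordinates of `ρ` lie in the fields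
`L i`) and Riemann's inequality `hRiem`; the geometric input is ONLY

* `hρw  : ρ w · ξⁿ = 1`, `ξ ξ' = 1`, `pr i ξ' ∈ L i`, `hinv` (lifts of `ξ` are units of `O`);
* `hleM : ∀ c, ∀ y ∈ M(D)(c), ∃ c', ξ' y ∈ B̄(c')`  — the UNGRADED inclusion `M(D) ⊆ ξ·B̄`.
-/

set_option autoImplicit false
noncomputable section
namespace Fermat.Agent.S36.TwistLift

open ModularCurve AlgebraicCurve Module Fermat.Agent.S24 Fermat.Agent.S18 Fermat.Agent.S18.Content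
  Fermat.Agent.S18.Plan Fermat.Agent.S34 Fermat.Agent.S34.Lift Fermat.Agent.S36.LiftGen

variable {A : ValuationSubring Kbar} {N Mt : ℕ} [NeZero N]
variable {R : Type} [CommRing R] [Nontrivial R] (algR : Algebra (kk A) R)
variable {O : Subring Om} {ρ : O →+* R}

/-- **[TWIST-LIFT]**: the ungraded inclusion `M(D) ⊆ ξ·B̄` (with `ρ w · ξⁿ = 1`) gives a nonzero
element of `L(D)`. -/
theorem exists_mem_pullRR_of_le {ι : Type}
    (hle : modularFunctionFieldBar N ≤ modularFunctionFieldBar Mt)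
    (hfin : ∀ B : Divisor Kbar (FN N), Module.Finite Kbar (pullRR N Mt B))
    (h : RDG algR O ρ)
    (hdim : @LiftCore2.HasDim Kbar Om R _ _ HahnSeries.instAlgebra _ (kk A) _ algR O ρ
      (Main.fieldSub Mt))
    (E : Divisor Kbar (FN N)) (hE0 : ∀ P : Place Kbar (FN N), 0 ≤ E P)
    (φN : FN N) (hφN0 : φN ≠ 0)
    (hφE : ∀ P : Place Kbar (FN N), -E P ≤ P.ord φN)
    (hφE' : ∀ P : Place Kbar (FN N), E P = 0 ∨ P.ord φN = -E P)
    (hφO : ((φN : FN N) : Om) ∈ O) (hφiO : (((φN : FN N) : Om))⁻¹ ∈ O)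
    (pr : ι → R →+* Omk A) (L : ι → IntermediateField (kk A) (Omk A))
    (hjL : ∀ i, jk A ∈ L i) (e : ι → ℕ)
    (hρφ : ∀ i, pr i (ρ ⟨_, hφO⟩) = jk A ^ e i)
    (hincl : ∀ (c : ℕ) (x : R), x ∈ BcG algR h N Mt E c →
      ∀ i, pr i x ∈ WJ (kk A) (L i) (c * e i))
    (hCR : ∃ c₀ : ℕ, ∀ c : ℕ, c₀ ≤ c → ∀ c' : ℕ, c ≤ c' → ∀ x : R,
      x ∈ BcG algR h N Mt E c' → (∀ i, pr i x ∈ WJ (kk A) (L i) (c * e i)) →
        x ∈ BcG algR h N Mt E c)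
    (hdiag : ∀ (c : ℕ) (x : R), x ∈ BcG algR h N Mt E c →
      (∀ i, ∃ κ : kk A, pr i x = HahnSeries.C κ) →
        ∃ κ : kk A, x = @algebraMap (kk A) R _ _ algR κ)
    (hrange : ∀ (y : O) (i : ι), pr i (ρ y) ∈ L i)
    (D : Divisor Kbar (FN N))
    (hRiem : ∃ c₁ : ℕ, ∀ c : ℕ, c₁ ≤ c →
      finrank Kbar (pullRR N Mt (c • E)) ≤ finrank Kbar (pullRR N Mt (D + c • E)))
    (n : ℕ) (hnk : ((n : ℕ) : kk A) ≠ 0)
    (w : FN N) (hw0 : w ≠ 0) (hwD : ∀ P : Place Kbar (FN N), P.ord w = n * D P)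
    (hw : (w : Om) ∈ O)
    (ξ ξ' : R) (hξ : ξ * ξ' = 1) (hξ'L : ∀ i, pr i ξ' ∈ L i) (hρw : ρ ⟨_, hw⟩ * ξ ^ n = 1)
    (hinv : ∀ g : O, ρ g = ξ → ((g : Om))⁻¹ ∈ O)
    (hleM : ∀ (c : ℕ) (y : R), y ∈ MDG algR h N Mt E D c →
      ∃ c' : ℕ, ξ' * y ∈ BcG algR h N Mt E c') :
    ∃ g : Om, g ∈ pullRR N Mt D ∧ g ≠ 0 := by
  have hn : 0 < n := by
    rcases Nat.eq_zero_or_pos n with h0 | h0
    · subst h0
      exact absurd Nat.cast_zero hnk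
    · exact h0
  exact LiftTw.exists_mem_pullRR_tw algR hle hfin h hdim E hE0 φN hφN0 hφE hφE' hφO hφiO pr L hjL e
    hρφ hincl hCR hdiag D n hnk w hw0 hwD hw ξ hρw hinv
    (TwistGraded.hMD_of_le_of_pow algR hle hfin h hdim E hE0 pr L e hincl hCR hrange D hRiem n hn
      w hw0 hwD hw ξ ξ' hξ hξ'L hρw hleM)

end Fermat.Agent.S36.TwistLift
end
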