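import Mathlib

set_option autoImplicit false

namespace Fermat.Agent.S36.Vdm

open Polynomial

variable {k V : Type*} [Field k] [Infinite k] [AddCommGroup V] [Module k V]

/-- **Vandermonde for vector-valued polynomials.** If `∑_{i<d} t^i • c i ∈ W` for all `t ∈ k`
(`k` an infinite field), then every coefficient `c i` lies in `W`. -/
theorem coeff_mem_of_forall (W : Submodule k V) (d : ℕ) (c : ℕ → V)
    (h : ∀ t : k, ∑ i ∈ Finset.range d, t ^ i • c i ∈ W) : ∀ i < d, c i ∈ W := by
  intro i hi
  rw [← Submodule.Quotient.mk_eq_zero W, ← Module.forall_dual_apply_eq_zero_iff k]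
  intro φ
  set p : k[X] := ∑ j ∈ Finset.range d, Polynomial.C (φ (Submodule.Quotient.mk (c j))) * X ^ j
    with hp
  have hp0 : p = 0 := by
    apply Polynomial.funext
    intro t
    rw [hp, eval_finsetSum, eval_zero]
    have h1 : ∀ j ∈ Finset.range d,
        eval t (Polynomial.C (φ (Submodule.Quotient.mk (c j))) * X ^ j) =
          φ (Submodule.Quotient.mk (p := W) (t ^ j • c j)) := by
      intro j _
      rw [eval_mul, eval_C, eval_pow, eval_X, Submodule.Quotient.mk_smul, map_smul, smul_eq_mul,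
        mul_comm]
    have h2 : ∑ j ∈ Finset.range d, Submodule.Quotient.mk (p := W) (t ^ j • c j) =
        Submodule.Quotient.mk (∑ j ∈ Finset.range d, t ^ j • c j) :=
      (map_sum (Submodule.mkQ W) _ _).symm
    rw [Finset.sum_congr rfl h1, ← map_sum, h2,
      (Submodule.Quotient.mk_eq_zero W).2 (h t), map_zero]
  have hcoef : p.coeff i = φ (Submodule.Quotient.mk (c i)) := by
    rw [hp, finsetSum_coeff]
    simp only [coeff_C_mul, coeff_X_pow]
    rw [Finset.sum_eq_single i]
    · simp
    · intro j _ hji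
      simp [hji.symm]
    · intro hni
      exact absurd (Finset.mem_range.2 hi) hni
  rw [← hcoef, hp0, coeff_zero]

variable {B : Type*} [CommRing B] [Algebra k B]

/-- **The `λ`-trick** (`n`-th power lemma).  `S ⊆ B` a `k`-subalgebra, `M ⊆ B` a `k`-subspace,
`u ∈ B` with `m^n u ∈ S` for all `m ∈ M`, `n` invertible in `k`.  Then
`m₀^(n-1) m u ∈ S` for all `m₀, m ∈ M`. -/
theorem pow_pred_mul_mem (S : Subalgebra k B) (M : Submodule k B) (u : B) (n : ℕ)
    (hn : (n : k) ≠ 0) (h : ∀ m ∈ M, m ^ n * u ∈ S) (m₀ m : B) (hm₀ : m₀ ∈ M) (hm : m ∈ M) :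
    m₀ ^ (n - 1) * m * u ∈ S := by
  have hn0 : n ≠ 0 := by
    rintro rfl
    exact hn (by simp)
  -- coefficients of `(m₀ + t m)^n u`
  set c : ℕ → B := fun i => (n.choose i : B) * (m ^ i * m₀ ^ (n - i)) * u with hc
  have hall : ∀ t : k, ∑ i ∈ Finset.range (n + 1), t ^ i • c i ∈ Subalgebra.toSubmodule S := by
    intro t
    have h1 := h (m₀ + t • m) (M.add_mem hm₀ (M.smul_mem t hm))
    have h2 : (m₀ + t • m) ^ n * u = ∑ i ∈ Finset.range (n + 1), t ^ i • c i := by
      rw [add_comm, add_pow, Finset.sum_mul]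
      refine Finset.sum_congr rfl fun i _ => ?_
      rw [hc]
      simp only [Algebra.smul_def, mul_pow, map_pow]
      ring
    rw [← h2]
    exact h1
  have h1 := coeff_mem_of_forall (Subalgebra.toSubmodule S) (n + 1) c hall 1 (by omega)
  have h2 : c 1 = (n : B) * (m₀ ^ (n - 1) * m * u) := by
    rw [hc]
    simp only [Nat.choose_one_right, pow_one]
    ring
  rw [h2] at h1
  have h3 : m₀ ^ (n - 1) * m * u =
      algebraMap k B (n : k)⁻¹ * ((n : B) * (m₀ ^ (n - 1) * m * u)) := by
    rw [← mul_assoc, ← map_natCast (algebraMap k B), ← map_mul, inv_mul_cancel₀ hn, map_one,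
      one_mul]
  rw [h3]
  exact S.mul_mem (S.algebraMap_mem _) h1

end Fermat.Agent.S36.Vdm
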