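import Mathlib
import Fermat.Agent.S36.TwistLift
import Fermat.Agent.S36.Vdm
import Fermat.Agent.S18.MainSteps

/-!
# [LIFT-ONE]: one section with unit reduction gives `L(D) ≠ 0` (helper77)

The junction between the geometric blocks and the lifting step, in the vocabulary of
`S36/LiftGen` (`RDG`, `BcG`, `MDG`, coordinates `pr i`).

* `mul_mem_BcG_of_one`: the ungraded inclusion `ρ(g₀)⁻¹ · M(D)(c) ⊆ B̄(n · max c c₁)` from ONE
  section `g₀ ∈ L(D + c₁E) ∩ O` with `ρ(w) ρ(g₀)ⁿ = 1` (`λ`-trick, `S36/Vdm`).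
* `exists_mem_pullRR_of_one`: `L(D) ≠ 0` from such a `g₀` whose lifts are units of `O`
  (`S36/TwistLift.exists_mem_pullRR_of_le`).
* `exists_mem_pullRR_of_one_const`: the same when `ρ(w) ρ(g₀)ⁿ` is only known to be nonzero with
  constant coordinates (it is then a nonzero scalar by `hdiag`; `w` is renormalised).
-/

set_option autoImplicit false

noncomputable section

namespace Fermat.Agent.S36.LiftOne

open ModularCurve AlgebraicCurve Fermat.Agent.S24 Fermat.Agent.S18 Fermat.Agent.S18.Content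
  Fermat.Agent.S18.Plan Fermat.Agent.S34 Fermat.Agent.S34.Lift Fermat.Agent.S36.LiftGen

variable {A : ValuationSubring Kbar} {N Mt : ℕ} [NeZero N]
variable {R : Type} [CommRing R] [Nontrivial R] (algR : Algebra (kk A) R)
variable {O : Subring Om} {ρ : O →+* R}

omit [Nontrivial R] in
/-- `M(D)(c)` is increasing in `c` (`E ≥ 0`). -/
theorem MDG_mono (h : RDG algR O ρ) (E : Divisor Kbar (FN N))
    (hE0 : ∀ P : Place Kbar (FN N), 0 ≤ E P) (D : Divisor Kbar (FN N)) {a b : ℕ} (hab : a ≤ b) :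
    MDG algR h N Mt E D a ≤ MDG algR h N Mt E D b := by
  rintro x ⟨y, hy, rfl⟩
  refine ⟨y, Main.pullRR_mono (fun P => ?_) hy, rfl⟩
  rw [add_smul_E_apply, add_smul_E_apply]
  have h1 : (a : ℤ) * E P ≤ (b : ℤ) * E P :=
    mul_le_mul_of_nonneg_right (by exact_mod_cast hab) (hE0 P)
  linarith

omit [Nontrivial R] in
/-- **The ungraded inclusion from ONE section.**  If `g₀ ∈ L(D + c₁E) ∩ O` has `ρ g₀ · ξ' = 1`
and `ρ(w) · ρ(g₀)ⁿ = 1` (`div w = n D`), then `ξ' · M(D)(c) ⊆ B̄(n · max c c₁)`. -/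
theorem mul_mem_BcG_of_one [Infinite (kk A)]
    (hle : modularFunctionFieldBar N ≤ modularFunctionFieldBar Mt)
    (h : RDG algR O ρ)
    (E : Divisor Kbar (FN N)) (hE0 : ∀ P : Place Kbar (FN N), 0 ≤ E P)
    (D : Divisor Kbar (FN N)) (n : ℕ) (hnk : ((n : ℕ) : kk A) ≠ 0)
    (w : FN N) (hw0 : w ≠ 0) (hwD : ∀ P : Place Kbar (FN N), P.ord w = n * D P)
    (hw : (w : Om) ∈ O)
    (g₀ : O) (c₁ : ℕ) (hg₀ : (g₀ : Om) ∈ pullRR N Mt (D + c₁ • E))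
    (ξ' : R) (hξ' : ρ g₀ * ξ' = 1) (hρw : ρ ⟨_, hw⟩ * ρ g₀ ^ n = 1)
    (c : ℕ) (y : R) (hy : y ∈ MDG algR h N Mt E D c) :
    ξ' * y ∈ BcG algR h N Mt E (n * max c c₁) := by
  classical
  let _ : Algebra (kk A) R := algR
  have hn0 : n ≠ 0 := by
    rintro rfl
    exact hnk Nat.cast_zero
  set C : ℕ := max c c₁ with hC
  set ξ : R := ρ g₀ with hξ
  have hyC : y ∈ MDG algR h N Mt E D C := MDG_mono algR h E hE0 D (le_max_left c c₁) hy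
  have hξC : ξ ∈ MDG algR h N Mt E D C :=
    MDG_mono algR h E hE0 D (le_max_right c c₁) ⟨g₀, hg₀, rfl⟩
  -- `ρ(w) (ξ + t y)ⁿ ∈ B̄(nC)` for all `t`
  have hpow : ∀ x : R, x ∈ MDG algR h N Mt E D C →
      ρ ⟨_, hw⟩ * x ^ n ∈ BcG algR h N Mt E (n * C) := by
    rintro x ⟨f, hf, rfl⟩
    have h1 : ((f : O) : Om) ^ n ∈ pullRR N Mt (n • (D + C • E)) :=
      Main.pow_mem_pullRR n (fun P => smul_E_apply _ n P) hf
    have h2 := mul_mem_pullRR_of_le hle (h := w) hw0 (B := n • (D + C • E))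
      (B' := (n * C) • E) (fun P => by
        rw [smul_E_apply, add_smul_E_apply, smul_E_apply, hwD P]
        push_cast
        linarith) h1
    refine ⟨⟨_, hw⟩ * f ^ n, ?_, ?_⟩
    · rw [Subring.coe_mul, Subring.coe_pow]
      exact h2
    · rw [map_mul, map_pow]
  set cf : ℕ → R := fun i => ((n.choose i : ℕ) : R) * (y ^ i * ξ ^ (n - i)) * ρ ⟨_, hw⟩ with hcf
  have hall : ∀ t : kk A, ∑ i ∈ Finset.range (n + 1), t ^ i • cf i ∈ BcG algR h N Mt E (n * C) := by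
    intro t
    have h1 := hpow (ξ + t • y) (Submodule.add_mem _ hξC (Submodule.smul_mem _ t hyC))
    have h2 : ρ ⟨_, hw⟩ * (ξ + t • y) ^ n = ∑ i ∈ Finset.range (n + 1), t ^ i • cf i := by
      rw [add_comm, add_pow, Finset.mul_sum]
      refine Finset.sum_congr rfl fun i _ => ?_
      rw [hcf]
      simp only [Algebra.smul_def, mul_pow, map_pow]
      ring
    rw [← h2]
    exact h1
  have h1 := Vdm.coeff_mem_of_forall (BcG algR h N Mt E (n * C)) (n + 1) cf hall 1 (by omega)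
  have h2 : cf 1 = ((n : ℕ) : R) * (ξ' * y) := by
    rw [hcf]
    simp only [Nat.choose_one_right, pow_one]
    have e1 : ξ ^ (n - 1) * ρ ⟨_, hw⟩ = ξ' := by
      calc ξ ^ (n - 1) * ρ ⟨_, hw⟩ = ξ ^ (n - 1) * ρ ⟨_, hw⟩ * (ξ * ξ') := by
            rw [hξ']; ring
        _ = (ρ ⟨_, hw⟩ * ξ ^ (n - 1 + 1)) * ξ' := by ring
        _ = ξ' := by rw [Nat.sub_add_cancel (Nat.one_le_iff_ne_zero.2 hn0), hρw, one_mul]
    calc ((n : ℕ) : R) * (y * ξ ^ (n - 1)) * ρ ⟨_, hw⟩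
        = ((n : ℕ) : R) * (ξ ^ (n - 1) * ρ ⟨_, hw⟩ * y) := by ring
      _ = ((n : ℕ) : R) * (ξ' * y) := by rw [e1]
  rw [h2] at h1
  have h3 : ξ' * y = ((n : ℕ) : kk A)⁻¹ • (((n : ℕ) : R) * (ξ' * y)) := by
    rw [Algebra.smul_def, ← mul_assoc, ← map_natCast (algebraMap (kk A) R), ← map_mul,
      inv_mul_cancel₀ hnk, map_one, one_mul]
  rw [h3]
  exact Submodule.smul_mem _ _ h1

/-- **[LIFT-ONE]**: one section `g₀ ∈ L(D + c₁E) ∩ O^×` with `ρ(w) · ρ(g₀)ⁿ = 1` gives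
`L(D) ≠ 0`.  Frame hypotheses as in `LiftGen.exists_mem_pullRR_gen`, plus `hrange`. -/
theorem exists_mem_pullRR_of_one [Infinite (kk A)] {ι : Type}
    (hle : modularFunctionFieldBar N ≤ modularFunctionFieldBar Mt)
    (hfin : ∀ B : Divisor Kbar (FN N), Module.Finite Kbar (pullRR N Mt B))
    (h : RDG algR O ρ)
    (hdim : @LiftCore2.HasDim Kbar Om R _ _ HahnSeries.instAlgebra _ (kk A) _ algR O ρ
      (Main.fieldSub Mt))
    (E : Divisor Kbar (FN N)) (hE0 : ∀ P : Place Kbar (FN N), 0 ≤ E P)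
    (φN : FN N) (hφN0 : φN ≠ 0)
    (hφE : ∀ P : Place Kbar (FN N), -E P ≤ P.ord φN)
    (hφE' : ∀ P : Place Kbar (FN N), E P = 0 ∨ P.ord φN = -E P)
    (hφO : ((φN : FN N) : Om) ∈ O) (hφiO : (((φN : FN N) : Om))⁻¹ ∈ O)
    (pr : ι → R →+* Omk A) (L : ι → IntermediateField (kk A) (Omk A))
    (hjL : ∀ i, jk A ∈ L i) (e : ι → ℕ)
    (hρφ : ∀ i, pr i (ρ ⟨_, hφO⟩) = jk A ^ e i)
    (hincl : ∀ (c : ℕ) (x : R), x ∈ BcG algR h N Mt E c →
      ∀ i, pr i x ∈ WJ (kk A) (L i) (c * e i))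
    (hCR : ∃ c₀ : ℕ, ∀ c : ℕ, c₀ ≤ c → ∀ c' : ℕ, c ≤ c' → ∀ x : R,
      x ∈ BcG algR h N Mt E c' → (∀ i, pr i x ∈ WJ (kk A) (L i) (c * e i)) →
        x ∈ BcG algR h N Mt E c)
    (hdiag : ∀ (c : ℕ) (x : R), x ∈ BcG algR h N Mt E c →
      (∀ i, ∃ κ : kk A, pr i x = HahnSeries.C κ) →
        ∃ κ : kk A, x = @algebraMap (kk A) R _ _ algR κ)
    (hrange : ∀ (y : O) (i : ι), pr i (ρ y) ∈ L i)
    (D : Divisor Kbar (FN N)) (n : ℕ) (hnk : ((n : ℕ) : kk A) ≠ 0)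
    (w : FN N) (hw0 : w ≠ 0) (hwD : ∀ P : Place Kbar (FN N), P.ord w = n * D P)
    (hw : (w : Om) ∈ O)
    (hRiem : ∃ c₁ : ℕ, ∀ c : ℕ, c₁ ≤ c → Module.finrank Kbar (pullRR N Mt (c • E)) ≤
      Module.finrank Kbar (pullRR N Mt (D + c • E)))
    (g₀ : O) (c₁ : ℕ) (hg₀ : (g₀ : Om) ∈ pullRR N Mt (D + c₁ • E))
    (hinv : ∀ g : O, ρ g = ρ g₀ → ((g : Om))⁻¹ ∈ O)
    (hρw : ρ ⟨_, hw⟩ * ρ g₀ ^ n = 1) :
    ∃ g : Om, g ∈ pullRR N Mt D ∧ g ≠ 0 := by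
  classical
  have hn0 : n ≠ 0 := by
    rintro rfl
    exact hnk Nat.cast_zero
  have hg₀i : ((g₀ : Om))⁻¹ ∈ O := hinv g₀ rfl
  have hg₀0 : (g₀ : Om) ≠ 0 := by
    intro h0
    have h1 : g₀ = 0 := Subtype.ext h0
    rw [h1, map_zero, zero_pow hn0, mul_zero] at hρw
    exact zero_ne_one hρw
  set g₀i : O := ⟨_, hg₀i⟩ with hg₀idef
  have hgg : g₀ * g₀i = 1 := Subtype.ext (mul_inv_cancel₀ hg₀0)
  have hξ' : ρ g₀ * ρ g₀i = 1 := by rw [← map_mul, hgg, map_one]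
  exact TwistLift.exists_mem_pullRR_of_le algR hle hfin h hdim E hE0 φN hφN0 hφE hφE' hφO hφiO pr L
    hjL e hρφ hincl hCR hdiag hrange D hRiem n hnk w hw0 hwD hw (ρ g₀) (ρ g₀i) hξ'
    (fun i => hrange g₀i i) hρw hinv
    (fun c y hy => ⟨_, mul_mem_BcG_of_one algR hle h E hE0 D n hnk w hw0 hwD hw g₀ c₁ hg₀
      (ρ g₀i) hξ' hρw c y hy⟩)

/-- **[LIFT-ONE], scalar-normalised form.**  It suffices that `ρ(w) · ρ(g₀)ⁿ` is nonzero with
constant coordinates: it is then a nonzero scalar by `hdiag`, and `w` is renormalised. -/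
theorem exists_mem_pullRR_of_one_const [Infinite (kk A)] {ι : Type}
    (hle : modularFunctionFieldBar N ≤ modularFunctionFieldBar Mt)
    (hfin : ∀ B : Divisor Kbar (FN N), Module.Finite Kbar (pullRR N Mt B))
    (h : RDG algR O ρ)
    (hdim : @LiftCore2.HasDim Kbar Om R _ _ HahnSeries.instAlgebra _ (kk A) _ algR O ρ
      (Main.fieldSub Mt))
    (E : Divisor Kbar (FN N)) (hE0 : ∀ P : Place Kbar (FN N), 0 ≤ E P)
    (φN : FN N) (hφN0 : φN ≠ 0)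
    (hφE : ∀ P : Place Kbar (FN N), -E P ≤ P.ord φN)
    (hφE' : ∀ P : Place Kbar (FN N), E P = 0 ∨ P.ord φN = -E P)
    (hφO : ((φN : FN N) : Om) ∈ O) (hφiO : (((φN : FN N) : Om))⁻¹ ∈ O)
    (pr : ι → R →+* Omk A) (L : ι → IntermediateField (kk A) (Omk A))
    (hjL : ∀ i, jk A ∈ L i) (e : ι → ℕ)
    (hρφ : ∀ i, pr i (ρ ⟨_, hφO⟩) = jk A ^ e i)
    (hincl : ∀ (c : ℕ) (x : R), x ∈ BcG algR h N Mt E c →
      ∀ i, pr i x ∈ WJ (kk A) (L i) (c * e i))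
    (hCR : ∃ c₀ : ℕ, ∀ c : ℕ, c₀ ≤ c → ∀ c' : ℕ, c ≤ c' → ∀ x : R,
      x ∈ BcG algR h N Mt E c' → (∀ i, pr i x ∈ WJ (kk A) (L i) (c * e i)) →
        x ∈ BcG algR h N Mt E c)
    (hdiag : ∀ (c : ℕ) (x : R), x ∈ BcG algR h N Mt E c →
      (∀ i, ∃ κ : kk A, pr i x = HahnSeries.C κ) →
        ∃ κ : kk A, x = @algebraMap (kk A) R _ _ algR κ)
    (hrange : ∀ (y : O) (i : ι), pr i (ρ y) ∈ L i)
    (D : Divisor Kbar (FN N)) (n : ℕ) (hnk : ((n : ℕ) : kk A) ≠ 0)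
    (w : FN N) (hw0 : w ≠ 0) (hwD : ∀ P : Place Kbar (FN N), P.ord w = n * D P)
    (hw : (w : Om) ∈ O)
    (hRiem : ∃ c₁ : ℕ, ∀ c : ℕ, c₁ ≤ c → Module.finrank Kbar (pullRR N Mt (c • E)) ≤
      Module.finrank Kbar (pullRR N Mt (D + c • E)))
    (g₀ : O) (c₁ : ℕ) (hg₀ : (g₀ : Om) ∈ pullRR N Mt (D + c₁ • E))
    (hinv : ∀ g : O, ρ g = ρ g₀ → ((g : Om))⁻¹ ∈ O)
    (hconst : ∀ i, ∃ κ : kk A, pr i (ρ ⟨_, hw⟩ * ρ g₀ ^ n) = HahnSeries.C κ)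
    (hne : ρ ⟨_, hw⟩ * ρ g₀ ^ n ≠ 0) :
    ∃ g : Om, g ∈ pullRR N Mt D ∧ g ≠ 0 := by
  classical
  -- `ρ(w g₀ⁿ) ∈ B̄(n c₁)`
  have hx : ρ ⟨_, hw⟩ * ρ g₀ ^ n ∈ BcG algR h N Mt E (n * c₁) := by
    have h1 : ((g₀ : O) : Om) ^ n ∈ pullRR N Mt (n • (D + c₁ • E)) :=
      Main.pow_mem_pullRR n (fun P => smul_E_apply _ n P) hg₀
    have h2 := mul_mem_pullRR_of_le hle (h := w) hw0 (B := n • (D + c₁ • E))
      (B' := (n * c₁) • E) (fun P => by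
        rw [smul_E_apply, add_smul_E_apply, smul_E_apply, hwD P]
        push_cast
        linarith) h1
    refine ⟨⟨_, hw⟩ * g₀ ^ n, ?_, ?_⟩
    · rw [Subring.coe_mul, Subring.coe_pow]
      exact h2
    · rw [map_mul, map_pow]
  obtain ⟨κ₀, hκ₀⟩ := hdiag (n * c₁) _ hx hconst
  have hκ0 : κ₀ ≠ 0 := by
    rintro rfl
    rw [map_zero] at hκ₀
    exact hne hκ₀
  have hmem : ∀ c : Kbar, (HahnSeries.C c : Om) ∈ O ↔ c ∈ A :=
    @LiftCore2.RedData.mem_iff Kbar Om (kk A) R _ _ HahnSeries.instAlgebra _ _ algR A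
      (IsLocalRing.residue A) O ρ h
  have hρalg : ∀ (a : A) (h' : (HahnSeries.C (a : Kbar) : Om) ∈ O),
      ρ ⟨_, h'⟩ = @algebraMap (kk A) R _ _ algR (IsLocalRing.residue A a) :=
    @LiftCore2.RedData.ρ_alg Kbar Om (kk A) R _ _ HahnSeries.instAlgebra _ _ algR A
      (IsLocalRing.residue A) O ρ h
  obtain ⟨a, ha⟩ := IsLocalRing.residue_surjective (R := A) κ₀
  have hau : IsUnit a := by
    by_contra hc
    refine hκ0 ?_
    rw [← ha]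
    exact (IsLocalRing.residue_eq_zero_iff a).2 hc
  obtain ⟨u, rfl⟩ := hau
  set b : A := ((u⁻¹ : Aˣ) : A) with hb
  have hbu : b * (u : A) = 1 := by rw [hb, ← Units.val_mul, inv_mul_cancel, Units.val_one]
  have hb0 : (b : Kbar) ≠ 0 := by
    intro h0
    have h1 : b = 0 := Subtype.ext h0
    rw [h1, zero_mul] at hbu
    exact zero_ne_one hbu
  set w' : FN N := Main.cmul (b : Kbar) w with hw'def
  have hw'0 : w' ≠ 0 := Main.cmul_ne_zero hb0 hw0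
  have hw'D : ∀ P : Place Kbar (FN N), P.ord w' = n * D P := fun P => by
    rw [hw'def, Main.ord_cmul P hb0 hw0, hwD P]
  have hbO : (HahnSeries.C (b : Kbar) : Om) ∈ O := (hmem _).2 b.2
  have hw' : (w' : Om) ∈ O := O.mul_mem hbO hw
  have hρb : ρ ⟨_, hbO⟩ = @algebraMap (kk A) R _ _ algR (IsLocalRing.residue A b) := hρalg b _
  have hρw' : ρ ⟨_, hw'⟩ * ρ g₀ ^ n = 1 := by
    have e1 : (⟨_, hw'⟩ : O) = ⟨_, hbO⟩ * ⟨_, hw⟩ := Subtype.ext rfl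
    rw [e1, map_mul, mul_assoc, hκ₀, hρb, ← map_mul, ← ha, ← map_mul, hbu, map_one, map_one]
  exact exists_mem_pullRR_of_one algR hle hfin h hdim E hE0 φN hφN0 hφE hφE' hφO hφiO pr L hjL e
    hρφ hincl hCR hdiag hrange D n hnk w' hw'0 hw'D hw' hRiem g₀ c₁ hg₀ hinv hρw'

end Fermat.Agent.S36.LiftOne

end
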