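import Mathlib
import Fermat.Agent.S36.Plan
import Fermat.Agent.S36.LiftOne
import Fermat.Agent.S18.Main
import Fermat.Agent.S18.RR0
import Fermat.Agent.S18.ContentMain
import Fermat.Agent.S18.PlacesModL

/-!
# S36 / P8 — [LIFT-ONE-INST]: the lifting step from ONE section at the Plan frame (helper77)

* `liftTwStmt` : `Plan.LiftTwStmt` from the frame contracts `[RED] [DIM] [PHI-DIV] [PHI] [INCL] [CR]
  [CONN]` (`S36/LiftTw.exists_mem_pullRR_tw`).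
* `exists_mem_pullRR_of_one` : ONE section `g₀ ∈ L(D + c₁E) ∩ O` with nonzero constant coordinates
  and a Kummer function `w` (`div w = n D`) with nonzero constant coordinates give `L(π^* D) ≠ 0`
  (`S36/LiftOne.exists_mem_pullRR_of_one_const`; needs `[INV]` and Riemann's inequality in addition).
-/

set_option autoImplicit false

noncomputable section

namespace Fermat.Agent.S36.LiftOneInst

open ModularCurve AlgebraicCurve Fermat.Agent.S24 Fermat.Agent.S18 Fermat.Agent.S18.Content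
  Fermat.Agent.S18.Plan Fermat.Agent.S34 Fermat.Agent.S36.Plan Fermat.Agent.S36.LiftGen

variable (A : ValuationSubring Kbar) (N M q : ℕ) [NeZero N] [NeZero M] [NeZero q]
variable (hq : q ∣ N) (hqq : q * q ∣ N)
variable {O : Subring Om} {ρ : O →+* Rq A q}

/-- The frame hypotheses of `LiftGen`, packaged: what the Plan contracts give for one `E`. -/
structure FrameHyps (E : Divisor Kbar (FN N)) : Prop where
  hle : modularFunctionFieldBar N ≤ modularFunctionFieldBar (M * q * q)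
  hfin : ∀ B : Divisor Kbar (FN N), Module.Finite Kbar (pullRR N (M * q * q) B)
  h : RDG (algR A q) O ρ
  hdim : @LiftCore2.HasDim Kbar Om (Rq A q) _ _ HahnSeries.instAlgebra _ (kk A) _ (algR A q) O ρ
    (Main.fieldSub (M * q * q))
  hE0 : ∀ P : Place Kbar (FN N), 0 ≤ E P
  hφN0 : phiQ2 N q hq hqq ≠ 0
  hφE : ∀ P : Place Kbar (FN N), -E P ≤ P.ord (phiQ2 N q hq hqq)
  hφE' : ∀ P : Place Kbar (FN N), E P = 0 ∨ P.ord (phiQ2 N q hq hqq) = -E P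
  hφO : ((phiQ2 N q hq hqq : FN N) : Om) ∈ O
  hφiO : (((phiQ2 N q hq hqq : FN N) : Om))⁻¹ ∈ O
  hρφ : ∀ i : Coord q, pr A q i (ρ ⟨_, hφO⟩) = jk A ^ eCoord q i
  hincl : ∀ (c : ℕ) (x : Rq A q), x ∈ BcG (algR A q) h N (M * q * q) E c →
    ∀ i, pr A q i x ∈ WJ (kk A) (Lq A q i) (c * eCoord q i)
  hCR : ∃ c₀ : ℕ, ∀ c : ℕ, c₀ ≤ c → ∀ c' : ℕ, c ≤ c' → ∀ x : Rq A q,
    x ∈ BcG (algR A q) h N (M * q * q) E c' →
      (∀ i, pr A q i x ∈ WJ (kk A) (Lq A q i) (c * eCoord q i)) →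
        x ∈ BcG (algR A q) h N (M * q * q) E c
  hdiag : ∀ (c : ℕ) (x : Rq A q), x ∈ BcG (algR A q) h N (M * q * q) E c →
    (∀ i, ∃ κ : kk A, pr A q i x = HahnSeries.C κ) →
      ∃ κ : kk A, x = @algebraMap (kk A) (Rq A q) _ _ (algR A q) κ

variable {A N M q hq hqq}

/-- The Plan contracts give the frame hypotheses of `LiftGen` for every `E` with `IsE3`. -/
theorem frameHyps (hNM : N ∣ M * q * q) (hTF : 4 ∣ M * q * q ∨ 9 ∣ M * q * q)
    (hRed : RedStmt A q O ρ) (hDim : DimStmt A M q O ρ)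
    (hPD : PhiDivStmt N q hq hqq) (hPhi : PhiStmt A N q hq hqq O ρ)
    (hIncl : InclStmt A N M q hq hqq O ρ) (hCR : CuspRegStmt A N M q hq hqq O ρ)
    (hConn : ConnStmt A N M q hq hqq O ρ)
    (E : Divisor Kbar (FN N)) (hE : IsE3 N q hq hqq E) :
    FrameHyps A N M q hq hqq (O := O) (ρ := ρ) E := by
  have hpos : 0 < M * q * q :=
    Nat.mul_pos (Nat.mul_pos (Nat.pos_of_ne_zero (NeZero.ne M)) (Nat.pos_of_ne_zero (NeZero.ne q)))
      (Nat.pos_of_ne_zero (NeZero.ne q))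
  have : NeZero (M * q * q) := ⟨hpos.ne'⟩
  obtain ⟨hE0, hφ0, hφE, hφE'⟩ := hPD E hE
  obtain ⟨hφO, hφiO, hρφ⟩ := hPhi
  obtain ⟨c₀, hCR⟩ := hCR E hE
  refine
    { hle := Main.fieldBar_le hNM
      hfin := fun B => (RR0.rr0 N (M * q * q) hNM hTF B).1
      h := hRed
      hdim := hDim
      hE0 := hE0
      hφN0 := hφ0
      hφE := hφE
      hφE' := hφE'
      hφO := hφO
      hφiO := hφiO
      hρφ := fun i => hρφ i
      hincl := ?_
      hCR := ⟨c₀, ?_⟩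
      hdiag := ?_ }
  · rintro c x ⟨g, hg, rfl⟩ i
    exact hIncl E hE c g hg i
  · rintro c hc c' hcc' x ⟨g, hg, rfl⟩ hx
    obtain ⟨g', hg', hgg'⟩ := hCR c hc c' hcc' g hg hx
    exact ⟨g', hg', hgg'⟩
  · rintro c x ⟨g, hg, rfl⟩ hx
    obtain ⟨κ, hκ⟩ := hConn E hE c g hg hx
    refine ⟨κ, ?_⟩
    funext i
    rw [hκ i]
    rfl

omit [NeZero q] in
/-- `(n : k) ≠ 0` from `q ∤ n`. -/
theorem natCast_ne_zero (hA : A.LiesOverPrime q) (hqp : q.Prime) {n : ℕ} (hn : ¬ q ∣ n) :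
    ((n : ℕ) : kk A) ≠ 0 := by
  have : Fact q.Prime := ⟨hqp⟩
  have : CharP (kk A) q := charP_residueField_of_liesOverPrime A q hA
  intro h0
  exact hn ((CharP.cast_eq_zero_iff (kk A) q n).1 h0)

/-- **[LIFT-INST]** `Plan.LiftTwStmt` from the frame contracts. -/
theorem liftTwStmt (hA : A.LiesOverPrime q) (hqp : q.Prime) (hNM : N ∣ M * q * q)
    (hTF : 4 ∣ M * q * q ∨ 9 ∣ M * q * q)
    (hRed : RedStmt A q O ρ) (hDim : DimStmt A M q O ρ)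
    (hPD : PhiDivStmt N q hq hqq) (hPhi : PhiStmt A N q hq hqq O ρ)
    (hIncl : InclStmt A N M q hq hqq O ρ) (hCR : CuspRegStmt A N M q hq hqq O ρ)
    (hConn : ConnStmt A N M q hq hqq O ρ) :
    LiftTwStmt A N M q hq hqq O ρ := by
  intro E hE D n hn w hw0 hwD hw ξ hρw hinv hMD
  have : Nonempty (Coord q) := ⟨Coord.inf⟩
  have F := frameHyps hNM hTF hRed hDim hPD hPhi hIncl hCR hConn E hE
  have hnk := natCast_ne_zero hA hqp hn
  have hn0 : n ≠ 0 := by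
    rintro rfl
    exact hnk Nat.cast_zero
  -- `ξ` is a unit
  obtain ⟨ξi, hξi⟩ : ∃ ξi : Rq A q, ξi * ξ = 1 := by
    refine ⟨ρ ⟨_, hw⟩ * ξ ^ (n - 1), ?_⟩
    rw [mul_assoc, ← pow_succ, Nat.sub_add_cancel (Nat.one_le_iff_ne_zero.2 hn0)]
    exact hρw
  obtain ⟨c₀, hMD⟩ := hMD
  refine LiftTw.exists_mem_pullRR_tw (algR A q) F.hle F.hfin F.h F.hdim E F.hE0 _ F.hφN0 F.hφE F.hφE'
    F.hφO F.hφiO (pr A q) (Lq A q) (fun i => IntermediateField.mem_top) (eCoord q) F.hρφ F.hincl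
    F.hCR F.hdiag D n hnk w hw0 hwD hw ξ hρw hinv ⟨c₀, fun c hc x => ?_⟩
  obtain ⟨h1, h2⟩ := hMD c hc
  constructor
  · rintro ⟨g, hg, hgx⟩
    obtain ⟨g', hg', hgg'⟩ := h1 g hg
    refine ⟨g', hg', ?_⟩
    have h3 : ξ * ρ g' = ξ * x := by rw [← hgg', hgx]
    calc ρ g' = ξi * (ξ * ρ g') := by rw [← mul_assoc, hξi, one_mul]
      _ = ξi * (ξ * x) := by rw [h3]
      _ = x := by rw [← mul_assoc, hξi, one_mul]
  · rintro ⟨g', hg', rfl⟩
    obtain ⟨g, hg, hgg'⟩ := h2 g' hg'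
    exact ⟨g, hg, hgg'⟩

/-- **[LIFT-ONE] at the Plan frame.**  A Kummer function `w` (`div w = n D`, `q ∤ n`) and ONE
section `g₀ ∈ L(D + c₁E) ∩ O`, both with nonzero constant coordinates, give `L(π^* D) ≠ 0`. -/
theorem exists_mem_pullRR_of_one (hA : A.LiesOverPrime q) (hqp : q.Prime) (hNM : N ∣ M * q * q)
    (hTF : 4 ∣ M * q * q ∨ 9 ∣ M * q * q)
    (hRed : RedStmt A q O ρ) (hDim : DimStmt A M q O ρ)
    (hPD : PhiDivStmt N q hq hqq) (hPhi : PhiStmt A N q hq hqq O ρ)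
    (hIncl : InclStmt A N M q hq hqq O ρ) (hCR : CuspRegStmt A N M q hq hqq O ρ)
    (hConn : ConnStmt A N M q hq hqq O ρ) (hInv : InvStmt A q O ρ)
    (E : Divisor Kbar (FN N)) (hE : IsE3 N q hq hqq E)
    (D : Divisor Kbar (FN N)) (n : ℕ) (hn : ¬ q ∣ n)
    (w : FN N) (hw0 : w ≠ 0) (hwD : ∀ P : Place Kbar (FN N), P.ord w = n * D P)
    (hw : (w : Om) ∈ O)
    (hRiem : ∃ c₁ : ℕ, ∀ c : ℕ, c₁ ≤ c →
      Module.finrank Kbar (pullRR N (M * q * q) (c • E)) ≤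
        Module.finrank Kbar (pullRR N (M * q * q) (D + c • E)))
    (hwc : ∀ i : Coord q, ∃ κ : kk A, κ ≠ 0 ∧ ρ ⟨_, hw⟩ i = HahnSeries.C κ)
    (g₀ : O) (c₁ : ℕ) (hg₀ : (g₀ : Om) ∈ pullRR N (M * q * q) (D + c₁ • E))
    (hg₀c : ∀ i : Coord q, ∃ κ : kk A, κ ≠ 0 ∧ ρ g₀ i = HahnSeries.C κ) :
    ∃ g : Om, g ∈ pullRR N (M * q * q) D ∧ g ≠ 0 := by
  have : Nonempty (Coord q) := ⟨Coord.inf⟩
  have F := frameHyps hNM hTF hRed hDim hPD hPhi hIncl hCR hConn E hE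
  have hnk := natCast_ne_zero hA hqp hn
  have : IsAlgClosed (kk A) := PlacesModL.isAlgClosed_kk A
  have : Infinite (kk A) := inferInstance
  have hC0 : ∀ κ : kk A, κ ≠ 0 → (HahnSeries.C κ : Omk A) ≠ 0 := by
    intro κ hκ h0
    exact hκ (HahnSeries.C_injective (by rw [h0, map_zero]))
  -- coordinates of `ρ(w) ρ(g₀)ⁿ`
  have hcoord : ∀ i : Coord q, ∃ κ : kk A, κ ≠ 0 ∧
      (ρ ⟨_, hw⟩ * ρ g₀ ^ n) i = HahnSeries.C κ := by
    intro i
    obtain ⟨κw, hκw, hw'⟩ := hwc i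
    obtain ⟨κg, hκg, hg'⟩ := hg₀c i
    refine ⟨κw * κg ^ n, mul_ne_zero hκw (pow_ne_zero n hκg), ?_⟩
    rw [Pi.mul_apply, Pi.pow_apply, hw', hg', map_mul, map_pow]
  refine LiftOne.exists_mem_pullRR_of_one_const (algR A q) F.hle F.hfin F.h F.hdim E F.hE0 _ F.hφN0
    F.hφE F.hφE' F.hφO F.hφiO (pr A q) (Lq A q) (fun i => IntermediateField.mem_top) (eCoord q)
    F.hρφ F.hincl F.hCR F.hdiag (fun y i => IntermediateField.mem_top) D n hnk w hw0 hwD hw hRiem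
    g₀ c₁ hg₀ ?_ ?_ ?_
  · intro g hg
    refine hInv g (fun i => ?_)
    obtain ⟨κg, hκg, hg'⟩ := hg₀c i
    rw [hg, hg']
    exact hC0 κg hκg
  · intro i
    obtain ⟨κ, -, hκ⟩ := hcoord i
    exact ⟨κ, hκ⟩
  · intro h0
    obtain ⟨κ, hκ0, hκ⟩ := hcoord Coord.inf
    rw [h0] at hκ
    exact hC0 κ hκ0 hκ.symm

end Fermat.Agent.S36.LiftOneInst

end
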