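import Mathlib
import Fermat.Agent.S36.Plan2
import Fermat.Agent.S36.LiftOneInst
import Fermat.Agent.S36.RiemannE3
import Fermat.Agent.S18.PlacesModL

/-!
# S36 / P8 — [LIFT-ONE]: `Plan.LiftOneStmt` from the frame contracts (helper77)

* `isE3_poleChain` : `Plan.IsE3` (spelled with `q * q`) gives `PoleChain.IsE3` (spelled `q ^ 2`);
* `riemann`        : Riemann's inequality `l(cE) ≤ l(D + cE)` (`deg D = 0`, `c` large) in the
                     vocabulary of `Plan.IsE3` (`S36/RiemannE3.finrank_le_add`);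
* `liftOneStmt_of` : `Plan.LiftOneStmt` from the frame contracts `[RED] [DIM] [PHI-DIV] [PHI]
                     [INCL] [CR] [CONN] [INV]` and Riemann's inequality as a hypothesis;
* `liftOneStmt`    : the same with Riemann's inequality discharged.

The proof is `S36/LiftOne.exists_mem_pullRR_of_one` at the Plan frame
(`S36/LiftOneInst.frameHyps`): ONE section `g₀ ∈ L(D + cE) ∩ O` with nonzero reductions and
`ρ(w) ρ(g₀)ⁿ = 1` gives `L(π^* D) ≠ 0`.
-/

set_option autoImplicit false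

noncomputable section

namespace Fermat.Agent.S36.LiftOneStmt

open ModularCurve AlgebraicCurve Fermat.Agent.S24 Fermat.Agent.S18 Fermat.Agent.S18.Content
  Fermat.Agent.S18.Plan Fermat.Agent.S34 Fermat.Agent.S36.Plan Fermat.Agent.S36.LiftGen

section Bridge

variable {N q : ℕ} [NeZero N] [NeZero q]

/-- `jBarLevel` does not depend on the spelling of the level. -/
theorem jBarLevel_congr {a b : ℕ} [NeZero a] [NeZero b] (hab : a = b) (ha : a ∣ N) (hb : b ∣ N) :
    jBarLevel N a ha = jBarLevel N b hb := by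
  subst hab
  rfl

/-- `Plan.IsE3` (spelled with `q * q`) gives `PoleChain.IsE3` (spelled with `q ^ 2`). -/
theorem isE3_poleChain {hq : q ∣ N} {hqq : q * q ∣ N} (hqq' : q ^ 2 ∣ N)
    {E : Divisor Kbar (FN N)} (hE : IsE3 N q hq hqq E) :
    PoleChain.IsE3 N q hq hqq' E := by
  intro P
  rw [hE P, jBarLevel_congr (sq q).symm hqq hqq']

/-- **Riemann's inequality** `l(cE) ≤ l(D + cE)` for `deg D = 0` and `c` large, in the vocabulary
of `Plan.IsE3`. -/
theorem riemann (N₂ : ℕ) [NeZero N₂] {hq : q ∣ N} {hqq : q * q ∣ N} (hqp : q.Prime)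
    (hdiv : N ∣ N₂) (hTF : 4 ∣ N₂ ∨ 9 ∣ N₂)
    (E : Divisor Kbar (FN N)) (hE : IsE3 N q hq hqq E) :
    ∃ c₀ : ℕ, ∀ c : ℕ, c₀ ≤ c → ∀ D : Divisor Kbar (FN N), Divisor.degree D = 0 →
      Module.finrank Kbar (pullRR N N₂ (c • E))
        ≤ Module.finrank Kbar (pullRR N N₂ (D + c • E)) :=
  RiemannE3.finrank_le_add N q N₂ hq (by rw [sq]; exact hqq) hqp hdiv hTF E
    (isE3_poleChain _ hE)

end Bridge

variable {A : ValuationSubring Kbar} {N' M q : ℕ} [NeZero N'] [NeZero M] [NeZero q]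
variable {hq' : q ∣ N'} {O : Subring Om} {ρ : O →+* Rq A q}

/-- **[LIFT-ONE]** `Plan.LiftOneStmt` from the frame contracts, Riemann's inequality being a
hypothesis. -/
theorem liftOneStmt_of (hA : A.LiesOverPrime q) (hqp : q.Prime) (hNM : N' * q ∣ M * q * q)
    (hTF : 4 ∣ M * q * q ∨ 9 ∣ M * q * q)
    (hRed : RedStmt A q O ρ) (hDim : DimStmt A M q O ρ)
    (hPD : PhiDivStmt (N' * q) q (Dvd.intro_left N' rfl) (Nat.mul_dvd_mul_right hq' q))
    (hPhi : PhiStmt A (N' * q) q (Dvd.intro_left N' rfl) (Nat.mul_dvd_mul_right hq' q) O ρ)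
    (hIncl : InclStmt A (N' * q) M q (Dvd.intro_left N' rfl) (Nat.mul_dvd_mul_right hq' q) O ρ)
    (hCR : CuspRegStmt A (N' * q) M q (Dvd.intro_left N' rfl) (Nat.mul_dvd_mul_right hq' q) O ρ)
    (hConn : ConnStmt A (N' * q) M q (Dvd.intro_left N' rfl) (Nat.mul_dvd_mul_right hq' q) O ρ)
    (hInv : InvStmt A q O ρ)
    (hRiem : ∀ E : Divisor Kbar (FN (N' * q)),
      IsE3 (N' * q) q (Dvd.intro_left N' rfl) (Nat.mul_dvd_mul_right hq' q) E →
      ∃ c₁ : ℕ, ∀ c : ℕ, c₁ ≤ c → ∀ D : Divisor Kbar (FN (N' * q)), Divisor.degree D = 0 →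
        Module.finrank Kbar (pullRR (N' * q) (M * q * q) (c • E)) ≤
          Module.finrank Kbar (pullRR (N' * q) (M * q * q) (D + c • E))) :
    LiftOneStmt A N' M q hq' O ρ := by
  intro E hE D n hdeg _ hqn w hw0 hwD hw g₀ c hg₀ hunit hρw
  have : Nonempty (Coord q) := ⟨Coord.inf⟩
  have F := LiftOneInst.frameHyps hNM hTF hRed hDim hPD hPhi hIncl hCR hConn E hE
  have hnk := LiftOneInst.natCast_ne_zero hA hqp hqn
  have : IsAlgClosed (kk A) := PlacesModL.isAlgClosed_kk A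
  have : Infinite (kk A) := inferInstance
  obtain ⟨c₁, hc₁⟩ := hRiem E hE
  exact LiftOne.exists_mem_pullRR_of_one (algR A q) F.hle F.hfin F.h F.hdim E F.hE0 _ F.hφN0 F.hφE
    F.hφE' F.hφO F.hφiO (pr A q) (Lq A q) (fun i => IntermediateField.mem_top) (eCoord q) F.hρφ
    F.hincl F.hCR F.hdiag (fun y i => IntermediateField.mem_top) D n hnk w hw0 hwD hw
    ⟨c₁, fun c hc => hc₁ c hc D hdeg⟩ g₀ c hg₀
    (fun g hg => hInv g (fun i => by rw [hg]; exact hunit i)) hρw

/-- **[LIFT-ONE]** `Plan.LiftOneStmt` from the frame contracts (Riemann's inequality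
discharged). -/
theorem liftOneStmt (hA : A.LiesOverPrime q) (hqp : q.Prime) (hNM : N' * q ∣ M * q * q)
    (hTF : 4 ∣ M * q * q ∨ 9 ∣ M * q * q)
    (hRed : RedStmt A q O ρ) (hDim : DimStmt A M q O ρ)
    (hPD : PhiDivStmt (N' * q) q (Dvd.intro_left N' rfl) (Nat.mul_dvd_mul_right hq' q))
    (hPhi : PhiStmt A (N' * q) q (Dvd.intro_left N' rfl) (Nat.mul_dvd_mul_right hq' q) O ρ)
    (hIncl : InclStmt A (N' * q) M q (Dvd.intro_left N' rfl) (Nat.mul_dvd_mul_right hq' q) O ρ)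
    (hCR : CuspRegStmt A (N' * q) M q (Dvd.intro_left N' rfl) (Nat.mul_dvd_mul_right hq' q) O ρ)
    (hConn : ConnStmt A (N' * q) M q (Dvd.intro_left N' rfl) (Nat.mul_dvd_mul_right hq' q) O ρ)
    (hInv : InvStmt A q O ρ) :
    LiftOneStmt A N' M q hq' O ρ := by
  have hpos : 0 < M * q * q :=
    Nat.mul_pos (Nat.mul_pos (Nat.pos_of_ne_zero (NeZero.ne M)) (Nat.pos_of_ne_zero (NeZero.ne q)))
      (Nat.pos_of_ne_zero (NeZero.ne q))
  have : NeZero (M * q * q) := ⟨hpos.ne'⟩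
  exact liftOneStmt_of hA hqp hNM hTF hRed hDim hPD hPhi hIncl hCR hConn hInv
    (fun E hE => riemann (M * q * q) hqp hNM hTF E hE)

end Fermat.Agent.S36.LiftOneStmt

end
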