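import Mathlib
import Fermat.Agent.S37.Conj.Degree
import Fermat.Agent.S35.Transfer
import Fermat.Agent.Lib.Gamma0Count
import Fermat.Agent.Lib.HeckeHomReps

/-!
# S36 / [DEGEN′], leaf (D1) (helper21): degrees and indices at a prime `ℓ ∣ N`

For a prime `ℓ` dividing the level `N` (the non-coprime case of the degeneracy maps
`α, β : F_N → F_{Nℓ}`):

* `finrankAlong_alpha_of_dvd` : `[F_{Nℓ} : α F_N] = ℓ` (tower law over `Q̄(j)`, `ψ(Nℓ) = ℓ ψ(N)`);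
* `finrankAlong_beta_of_dvd`  : `[F_{Nℓ} : β F_N] = ℓ` (strong induction on `N` from
  `β_{N₁ℓ} ∘ α_{N₁} = α_{N₁ℓ} ∘ β_{N₁}`, multiplicativity of the degree, and the coprime values
  `ℓ + 1` of `S37/Conj/Degree.lean`);
* `index_subA_of_dvd`         : `[Γ₀(N) : Γ₀(Nℓ)] = ℓ`;
* `index_subB_of_dvd`         : `[Γ₀(N) : Γ₀(N) ∩ Γ⁰(ℓ)] = ℓ` (the cosets are classified by
  `b / d ∈ 𝔽_ℓ`, represented by the unipotents `[[1, k], [0, 1]]`).
-/

set_option autoImplicit false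
set_option linter.style.haveILetI false
set_option linter.unusedSectionVars false

noncomputable section

namespace Fermat.Agent.S36.DegNCDeg

open ModularCurve AlgebraicCurve IntermediateField CongruenceSubgroup
open Fermat.Agent.S24 Fermat.Agent.S37.Conj Fermat.Agent.S35 Fermat.Agent.Lib.HeckeHomGL
open scoped MatrixGroups

/-! ### Degrees -/

section Generic

variable {K F F' F'' : Type*} [Field K] [Field F] [Field F'] [Field F''] [Algebra K F]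
  [Algebra K F'] [Algebra K F'']

/-- Multiplicativity of the degree along a composite. -/
theorem finrankAlong_comp (φ : F →ₐ[K] F') (ψ : F' →ₐ[K] F'') :
    finrankAlong K (ψ.comp φ) = finrankAlong K φ * finrankAlong K ψ := by
  letI i1 : Algebra F F' := algebraAlong φ
  letI i2 : Algebra F' F'' := algebraAlong ψ
  letI i3 : Algebra F F'' := algebraAlong (ψ.comp φ)
  haveI : IsScalarTower F F' F'' := IsScalarTower.of_algebraMap_eq (fun x => rfl)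
  exact (Module.finrank_mul_finrank F F' F'').symm

end Generic

section Modular

variable (N ℓ : ℕ) [NeZero N] [NeZero ℓ]

/-- `[F_{Nℓ} : α F_N] = ℓ` for a prime `ℓ ∣ N`. -/
theorem finrankAlong_alpha_of_dvd (hℓ : ℓ.Prime) (hℓN : ℓ ∣ N) :
    finrankAlong Kbar (heckeAlphaBar Kbar N ℓ) = ℓ := by
  have h := finrank_mul_finrankAlong (heckeAlphaBar Kbar N ℓ) (jBar N)
  have hψ : dedekindPsi (N * ℓ) = ℓ * dedekindPsi N := by
    rw [mul_comm N ℓ]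
    exact Fermat.Agent.Lib.Gamma0Count.dedekindPsi_mul_of_dvd hℓ (NeZero.ne N) hℓN
  rw [alpha_jBar, Fermat.Agent.S18.FibreCount.finrank_eq N,
    Fermat.Agent.S18.FibreCount.finrank_eq (N * ℓ), hψ] at h
  have hpos := Fermat.Agent.S18.FibreCount.dedekindPsi_pos N
  have h' : dedekindPsi N * finrankAlong Kbar (heckeAlphaBar Kbar N ℓ) =
      dedekindPsi N * ℓ := by
    rw [h]; ring
  exact Nat.eq_of_mul_eq_mul_left hpos h'

/-- The two degeneracy maps commute: `β_{Nℓ} ∘ α_N = α_{Nℓ} ∘ β_N : F_N → F_{Nℓℓ}`. -/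
theorem beta_comp_alpha [NeZero (N * ℓ)] :
    (heckeBetaBar Kbar (N * ℓ) ℓ).comp (heckeAlphaBar Kbar N ℓ) =
      (heckeAlphaBar Kbar (N * ℓ) ℓ).comp (heckeBetaBar Kbar N ℓ) := by
  refine AlgHom.ext fun x => Subtype.ext ?_
  rw [AlgHom.comp_apply, AlgHom.comp_apply, coe_heckeBetaBar, coe_heckeAlphaBar,
    coe_heckeAlphaBar, coe_heckeBetaBar]

end Modular

/-- `[F_{Nℓ} : β F_N] = ℓ` for a prime `ℓ ∣ N`. -/
theorem finrankAlong_beta_of_dvd (ℓ : ℕ) [NeZero ℓ] (hℓ : ℓ.Prime) :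
    ∀ (N : ℕ) [NeZero N], ℓ ∣ N → finrankAlong Kbar (heckeBetaBar Kbar N ℓ) = ℓ := by
  intro N
  induction N using Nat.strong_induction_on with
  | _ N ih =>
    intro hN hℓN
    obtain ⟨N₁, rfl⟩ : ∃ N₁, N = N₁ * ℓ := ⟨N / ℓ, (Nat.div_mul_cancel hℓN).symm⟩
    have hN₁ : N₁ ≠ 0 := fun h => by
      apply NeZero.ne (N₁ * ℓ)
      rw [h, zero_mul]
    haveI : NeZero N₁ := ⟨hN₁⟩
    have hlt : N₁ < N₁ * ℓ := by
      have := hℓ.one_lt
      nlinarith [Nat.pos_of_ne_zero hN₁]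
    have hcomp := congrArg (finrankAlong Kbar) (beta_comp_alpha N₁ ℓ)
    rw [finrankAlong_comp, finrankAlong_comp,
      finrankAlong_alpha_of_dvd (N₁ * ℓ) ℓ hℓ (Dvd.intro_left N₁ rfl)] at hcomp
    by_cases h1 : ℓ ∣ N₁
    · rw [finrankAlong_alpha_of_dvd N₁ ℓ hℓ h1, ih N₁ hlt h1] at hcomp
      exact Nat.eq_of_mul_eq_mul_left hℓ.pos hcomp
    · rw [finrankAlong_alpha N₁ ℓ hℓ h1, finrankAlong_beta N₁ ℓ hℓ h1] at hcomp
      exact Nat.eq_of_mul_eq_mul_left (Nat.succ_pos ℓ) hcomp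

/-! ### Indices -/

section Index

variable (N ℓ : ℕ) [NeZero N] [NeZero ℓ]

/-- `[Γ₀(N) : Γ₀(Nℓ)] = ℓ` for a prime `ℓ ∣ N`. -/
theorem index_subA_of_dvd (hℓ : ℓ.Prime) (hℓN : ℓ ∣ N) : (Transfer.subA N ℓ).index = ℓ := by
  haveI : Fact ℓ.Prime := ⟨hℓ⟩
  have h := Fermat.Agent.Lib.Gamma0Count.relIndex_of_dvd (NeZero.ne N) hℓN
  rw [mul_comm ℓ N] at h
  exact h

/-- The invariant `b / d ∈ 𝔽_ℓ` of a left coset of `Γ₀(N) ∩ Γ⁰(ℓ)`. -/
def slope (γ : ↥(Gamma0 N)) : ZMod ℓ :=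
  (((γ : SL(2, ℤ)) 0 1 : ℤ) : ZMod ℓ) * ((((γ : SL(2, ℤ)) 1 1 : ℤ) : ZMod ℓ))⁻¹

variable {N ℓ}

theorem d_ne_zero [Fact ℓ.Prime] (hℓN : ℓ ∣ N) (γ : ↥(Gamma0 N)) :
    ((((γ : SL(2, ℤ)) 1 1 : ℤ) : ZMod ℓ)) ≠ 0 := by
  intro h0
  have hc : (ℓ : ℤ) ∣ (γ : SL(2, ℤ)) 1 0 := by
    have h1 : (N : ℤ) ∣ (γ : SL(2, ℤ)) 1 0 :=
      (ZMod.intCast_zmod_eq_zero_iff_dvd _ _).mp (Gamma0_mem.mp γ.2)
    exact dvd_trans (by exact_mod_cast hℓN) h1
  have hd : (ℓ : ℤ) ∣ (γ : SL(2, ℤ)) 1 1 := (ZMod.intCast_zmod_eq_zero_iff_dvd _ _).mp h0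
  have hdet := (γ : SL(2, ℤ)).det_coe
  rw [Matrix.det_fin_two] at hdet
  have h1 : (ℓ : ℤ) ∣ 1 := by
    rw [← hdet]
    exact dvd_sub (Dvd.dvd.mul_left hd _) (Dvd.dvd.mul_left hc _)
  have h2 : (ℓ : ℤ) = 1 ∨ (ℓ : ℤ) = -1 := Int.isUnit_iff.mp (isUnit_of_dvd_one h1)
  have h3 := (Fact.out : ℓ.Prime).one_lt
  omega

theorem slope_eq_iff [Fact ℓ.Prime] (hℓN : ℓ ∣ N) (γ γ' : ↥(Gamma0 N)) :
    slope N ℓ γ = slope N ℓ γ' ↔ γ⁻¹ * γ' ∈ Transfer.subB N ℓ := by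
  have hd := d_ne_zero hℓN γ
  have hd' := d_ne_zero hℓN γ'
  have key : ((γ⁻¹ * γ' : ↥(Gamma0 N)) : SL(2, ℤ)) 0 1 =
      (γ : SL(2, ℤ)) 1 1 * (γ' : SL(2, ℤ)) 0 1 - (γ : SL(2, ℤ)) 0 1 * (γ' : SL(2, ℤ)) 1 1 := by
    rw [Subgroup.coe_mul, Subgroup.coe_inv, Transfer.mul_zero_one,
      Matrix.SpecialLinearGroup.SL2_inv_expl]
    simp
    ring
  rw [Transfer.mem_subB, key, ← ZMod.intCast_zmod_eq_zero_iff_dvd, slope, slope,
    ← div_eq_mul_inv, ← div_eq_mul_inv]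
  push_cast
  rw [div_eq_div_iff hd hd']
  constructor
  · intro h
    linear_combination -h
  · intro h
    linear_combination -h

theorem slope_unipG [Fact ℓ.Prime] (k : ℤ) : slope N ℓ (unipG N k) = (k : ZMod ℓ) := by
  have h01 : ((unipG N k : ↥(Gamma0 N)) : SL(2, ℤ)) 0 1 = k := rfl
  have h11 : ((unipG N k : ↥(Gamma0 N)) : SL(2, ℤ)) 1 1 = 1 := rfl
  rw [slope, h01, h11]
  simp

/-- `[Γ₀(N) : Γ₀(N) ∩ Γ⁰(ℓ)] = ℓ` for a prime `ℓ ∣ N`. -/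
theorem index_subB_of_dvd (hℓ : ℓ.Prime) (hℓN : ℓ ∣ N) : (Transfer.subB N ℓ).index = ℓ := by
  haveI : Fact ℓ.Prime := ⟨hℓ⟩
  let f : ↥(Gamma0 N) ⧸ Transfer.subB N ℓ → ZMod ℓ :=
    Quotient.lift (slope N ℓ) (fun a b hab => by
      rw [slope_eq_iff hℓN]
      exact QuotientGroup.leftRel_apply.mp hab)
  have hinj : Function.Injective f := by
    intro x y
    refine Quotient.inductionOn₂ x y fun a b hab => ?_
    have h1 : slope N ℓ a = slope N ℓ b := hab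
    rw [slope_eq_iff hℓN] at h1
    exact Quotient.sound (QuotientGroup.leftRel_apply.mpr h1)
  have hsurj : Function.Surjective f := by
    intro k
    refine ⟨QuotientGroup.mk (unipG N (k.val : ℤ)), ?_⟩
    show slope N ℓ (unipG N (k.val : ℤ)) = k
    rw [slope_unipG]
    simp
  rw [Subgroup.index_eq_card, Nat.card_congr (Equiv.ofBijective f ⟨hinj, hsurj⟩), Nat.card_zmod]

end Index

end Fermat.Agent.S36.DegNCDeg
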