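import Mathlib
import Fermat.Agent.S34.PoleBound
import Fermat.Agent.S34.PoleDeg
import Fermat.Agent.S36.DegNCDeg
import Fermat.Agent.S36.NumQ2

/-!
# S36 / [POLE-q²] (helper50): the poles of `j`, `j_q`, `j_{q²}` on `F_L`, `L = M q²`

Level `L = M * q * q`, `q` prime, `q ∤ M`; `j = jBar L`, `j_q = jBarLevel L q _ = j(T^q)`,
`j_{q²} = jBarLevel L (q * q) _ = j(T^{q²})` in the Prelude function field `F_L` over `Q̄`.

* `exists_jswap_level` : the Atkin–Lehner involution `w_{q²}` of `F_L`, `j ↔ j_{q²}`, `j_q ↦ j_q`;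
* the six crude pole inequalities at every place `P` of `F_L` (min-form), `ord_jq_ge`,
  `ord_j_ge_jq`, `ord_jqq_ge_jq`, `ord_jq_ge_jqq`, `ord_jqq_ge`, `ord_j_ge_jqq`, and the
  "same poles" statements `ord_neg_iff_jq`, `ord_neg_iff_jqq`;
* `degree_poleJq`, `degree_poleJqq` : `deg (j_q)_∞ = deg (j_{q²})_∞ = ψ(L)`;
* the divisor `E = (j)_∞ + (j_q)_∞ + (j_{q²})_∞` (`IsE3`) with the unit candidate
  `φ = j j_q j_{q²}` in the shape consumed by `S36.LiftGen.exists_mem_pullRR_gen`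
  (`phi_ne_zero`, `isE3_nonneg`, `neg_E_le_ord_phi`, `E_eq_zero_or`), and `degree_isE3 = 3 ψ(L)`;
  the two-term variant `E = (j)_∞ + (j_{q²})_∞` (`IsE2`) with `φ = j j_{q²}`.
-/

set_option autoImplicit false
set_option linter.style.haveILetI false
set_option linter.unusedSectionVars false

noncomputable section

namespace Fermat.Agent.S36.PoleQ2

open ModularCurve AlgebraicCurve IntermediateField Polynomial
open Fermat.Agent.S24 Fermat.Agent.Lib Fermat.Agent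

/-! ### Elementary arithmetic of `min`/`max` forms -/

/-- The `min`-form pole inequality in `max` form. -/
theorem max_le_of_min_le {d : ℕ} {a b : ℤ} (h : (d : ℤ) * min 0 a ≤ b) :
    max 0 (-b) ≤ (d : ℤ) * max 0 (-a) := by
  have hd0 : (0 : ℤ) ≤ (d : ℤ) := Int.natCast_nonneg d
  rcases le_total 0 a with h0 | h0
  · rw [min_eq_left h0, mul_zero] at h
    rw [max_eq_left (by omega), max_eq_left (by omega)]
    simp
  · rw [min_eq_right h0] at h
    rw [max_eq_right (a := (0 : ℤ)) (b := -a) (by omega)]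
    have h2 : (0 : ℤ) ≤ (d : ℤ) * -a := mul_nonneg hd0 (by omega)
    have h3 : (d : ℤ) * -a = -((d : ℤ) * a) := by ring
    exact max_le h2 (by rw [h3]; omega)

/-- No pole of `a` ⟹ no pole of `b`. -/
theorem nonneg_of_min_le {d : ℕ} {a b : ℤ} (h : (d : ℤ) * min 0 a ≤ b) (ha : 0 ≤ a) : 0 ≤ b := by
  rwa [min_eq_left ha, mul_zero] at h

/-! ### The involution `w_{q²}` of `F_{M q²}` -/

section Invol

variable (M q : ℕ) [NeZero M] [NeZero q]

/-- **The swap at level `M (q q)`.**  For `q` coprime to `M` there is an involution `w` of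
`F_{M q²}` over `Q̄` exchanging `j` and `j_{q²} = j(T^{q²})` and fixing `j_q = j(T^q)`. -/
theorem exists_jswap_sq (h : Nat.Coprime M q) (hq1 : q ∣ M * (q * q)) :
    ∃ w : FN (M * (q * q)) ≃ₐ[Kbar] FN (M * (q * q)),
      w (jBar (M * (q * q))) = jBarLevel (M * (q * q)) (q * q) (Dvd.intro_left M rfl) ∧
      w (jBarLevel (M * (q * q)) (q * q) (Dvd.intro_left M rfl)) = jBar (M * (q * q)) ∧
      w (jBarLevel (M * (q * q)) q hq1) = jBarLevel (M * (q * q)) q hq1 ∧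
      ∀ x, w (w x) = x := by
  have hc : Nat.Coprime M (q * q) := Nat.Coprime.mul_right h h
  obtain ⟨u, v, huv⟩ := Nat.isCoprime_iff_coprime.mpr hc
  have hab : v * ((q * q : ℕ) : ℤ) - (-u) * (M : ℤ) = 1 := by linarith
  obtain ⟨w, hwc, hwg⟩ := S37.Kron.AtkinLehner.exists_wHom (N := M) (ℓ := q * q) v (-u) hab
  -- `w ∘ w = id`
  have h3 : w.comp w = RingHom.id _ := by
    refine FFBridge.ringHom_ext (M * (q * q)) _ _ (fun c => ?_) (fun e _ he => ?_)
    · show w (w (algebraMap _ _ c)) = algebraMap _ _ c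
      rw [hwc, hwc]
    · show w (w ⟨FFBridge.gen e, FFBridge.gen_mem he⟩) = ⟨FFBridge.gen e, FFBridge.gen_mem he⟩
      obtain ⟨d, m, hd, hm, rfl⟩ := Nat.dvd_mul.mp he
      have hd' : d * (M / d) = M := Nat.mul_div_cancel' hd
      have hm' : m * (q * q / m) = q * q := Nat.mul_div_cancel' hm
      have hm'' : (q * q / m) * m = q * q := by rw [mul_comm]; exact hm'
      have : NeZero (d * (q * q / m)) :=
        ⟨Nat.mul_ne_zero (S37.Kron.AtkinLehner.neZero_of_mul_eq hd' (NeZero.ne M)).1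
          (S37.Kron.AtkinLehner.neZero_of_mul_eq hm' (NeZero.ne (q * q))).2⟩
      have hdvd : d * (q * q / m) ∣ M * (q * q) := Nat.mul_dvd_mul hd (Dvd.intro_left _ hm')
      have e1 : w ⟨FFBridge.gen (d * m), FFBridge.gen_mem he⟩ =
          ⟨FFBridge.gen (d * (q * q / m)), FFBridge.gen_mem hdvd⟩ :=
        Subtype.ext (hwg (d * m) (d * (q * q / m)) he
          ⟨d, M / d, m, q * q / m, hd', hm', rfl, rfl⟩)
      rw [e1]
      exact Subtype.ext (hwg (d * (q * q / m)) (d * m) hdvd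
        ⟨d, M / d, q * q / m, m, hd', hm'', rfl, rfl⟩)
  let W : FN (M * (q * q)) ≃ₐ[Kbar] FN (M * (q * q)) :=
    AlgEquiv.ofRingEquiv (f := RingEquiv.ofRingHom w w h3 h3) hwc
  have hW : ∀ x, W x = w x := fun x => rfl
  -- the three generators
  have ej : (jBar (M * (q * q)) : FN (M * (q * q))) =
      ⟨FFBridge.gen 1, FFBridge.gen_mem (one_dvd _)⟩ := by
    apply Subtype.ext
    show coeffEmb Kbar jq = FFBridge.gen 1
    rw [FFBridge.gen, qExpand_one_apply]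
  have ejqq : (jBarLevel (M * (q * q)) (q * q) (Dvd.intro_left M rfl) : FN (M * (q * q))) =
      ⟨FFBridge.gen (q * q), FFBridge.gen_mem (Dvd.intro_left M rfl)⟩ := rfl
  have ejq : (jBarLevel (M * (q * q)) q hq1 : FN (M * (q * q))) =
      ⟨FFBridge.gen q, FFBridge.gen_mem hq1⟩ := rfl
  have h1 : w ⟨FFBridge.gen 1, FFBridge.gen_mem (one_dvd _)⟩ =
      ⟨FFBridge.gen (q * q), FFBridge.gen_mem (Dvd.intro_left M rfl)⟩ :=
    Subtype.ext (hwg 1 (q * q) (one_dvd _) ⟨1, M, 1, q * q, one_mul M, one_mul (q * q),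
      (one_mul 1).symm, (one_mul (q * q)).symm⟩)
  have h2 : w ⟨FFBridge.gen (q * q), FFBridge.gen_mem (Dvd.intro_left M rfl)⟩ =
      ⟨FFBridge.gen 1, FFBridge.gen_mem (one_dvd _)⟩ :=
    Subtype.ext (hwg (q * q) 1 (Dvd.intro_left M rfl) ⟨1, M, q * q, 1, one_mul M,
      mul_one (q * q), (one_mul (q * q)).symm, (one_mul 1).symm⟩)
  have h4 : w ⟨FFBridge.gen q, FFBridge.gen_mem hq1⟩ = ⟨FFBridge.gen q, FFBridge.gen_mem hq1⟩ :=
    Subtype.ext (hwg q q hq1 ⟨1, M, q, q, one_mul M, rfl, (one_mul q).symm, (one_mul q).symm⟩)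
  refine ⟨W, ?_, ?_, ?_, fun x => ?_⟩
  · rw [hW, ej, h1]
    rfl
  · rw [hW, ejqq, h2, ej]
  · rw [hW, ejq, h4]
  · rw [hW, hW]
    exact congrArg (fun φ : _ →+* _ => φ x) h3

end Invol

/-! ### Level `L = M * q * q` -/

section Level

variable {L M q : ℕ} [NeZero L] [NeZero q]

/-- The swap `w_{q²}` at a level `L = M * q * q`, `q` coprime to `M`. -/
theorem exists_jswap_level (hM : Nat.Coprime M q) (hL : L = M * q * q) (hqL : q ∣ L)
    (hqqL : q * q ∣ L) :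
    ∃ w : FN L ≃ₐ[Kbar] FN L,
      w (jBar L) = jBarLevel L (q * q) hqqL ∧ w (jBarLevel L (q * q) hqqL) = jBar L ∧
      w (jBarLevel L q hqL) = jBarLevel L q hqL ∧ ∀ x, w (w x) = x := by
  have hL' : L = M * (q * q) := by rw [hL, mul_assoc]
  subst hL'
  have : NeZero M := ⟨fun h0 => NeZero.ne (M * (q * q)) (by rw [h0, zero_mul])⟩
  exact exists_jswap_sq M q hM hqL

/-- **Place swap.**  Every place `P` of `F_L` has a partner `P'` with the orders of `j` and
`j_{q²}` exchanged and the order of `j_q` unchanged. -/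
theorem exists_place_swap (hM : Nat.Coprime M q) (hL : L = M * q * q) (hqL : q ∣ L)
    (hqqL : q * q ∣ L) (P : Place Kbar (FN L)) :
    ∃ P' : Place Kbar (FN L), P'.ord (jBar L) = P.ord (jBarLevel L (q * q) hqqL) ∧
      P'.ord (jBarLevel L (q * q) hqqL) = P.ord (jBar L) ∧
      P'.ord (jBarLevel L q hqL) = P.ord (jBarLevel L q hqL) := by
  obtain ⟨w, h1, h2, h3, -⟩ := exists_jswap_level hM hL hqL hqqL
  refine ⟨w • P, ?_, ?_, ?_⟩
  · have := Place.ord_smul w P (jBarLevel L (q * q) hqqL)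
    rwa [h2] at this
  · have := Place.ord_smul w P (jBar L)
    rwa [h1] at this
  · have := Place.ord_smul w P (jBarLevel L q hqL)
    rwa [h3] at this

/-! ### The six pole inequalities -/

/-- (1) `(j_q)_∞ ≤ q (j)_∞`. -/
theorem ord_jq_ge (hqL : q ∣ L) (P : Place Kbar (FN L)) :
    (q : ℤ) * min 0 (P.ord (jBar L)) ≤ P.ord (jBarLevel L q hqL) :=
  S34.PoleBound.ord_jBarLevel_ge L q hqL P

/-- (5) `(j_{q²})_∞ ≤ q² (j)_∞`. -/
theorem ord_jqq_ge (hqqL : q * q ∣ L) (P : Place Kbar (FN L)) :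
    ((q * q : ℕ) : ℤ) * min 0 (P.ord (jBar L)) ≤ P.ord (jBarLevel L (q * q) hqqL) :=
  S34.PoleBound.ord_jBarLevel_ge L (q * q) hqqL P

/-- `qExpand` commutes with evaluation of `χ(a)(X)` at `b`. -/
theorem qExpand_eval_aeval (χ : Polynomial (Polynomial Kbar)) (a b : S18.Plan.Om) :
    qExpand Kbar q ((χ.map ((aeval a : Kbar[X] →ₐ[Kbar] S18.Plan.Om) :
        Kbar[X] →+* S18.Plan.Om)).eval b) =
      (χ.map ((aeval (qExpand Kbar q a) : Kbar[X] →ₐ[Kbar] S18.Plan.Om) :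
        Kbar[X] →+* S18.Plan.Om)).eval (qExpand Kbar q b) := by
  have e : (qExpand Kbar q).comp ((aeval a : Kbar[X] →ₐ[Kbar] S18.Plan.Om) :
      Kbar[X] →+* S18.Plan.Om) =
      ((aeval (qExpand Kbar q a) : Kbar[X] →ₐ[Kbar] S18.Plan.Om) : Kbar[X] →+* S18.Plan.Om) := by
    refine Polynomial.ringHom_ext (fun c => ?_) ?_
    · exact S34.PoleBound.qExpand_aeval q a (C c)
    · exact S34.PoleBound.qExpand_aeval q a X
  rw [← e, ← Polynomial.map_map]
  exact ((eval_map _ _).trans (eval₂_at_apply (qExpand Kbar q) b)).symm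

/-- **The Kronecker relation between `j_q` and `j_{q²}`** in `F_L`: `j_{q²}` is a root of
`χ(j_q)(X)`. -/
theorem exists_kronecker_poly_jq (hqL : q ∣ L) (hqqL : q * q ∣ L) :
    ∃ χ : Polynomial (Polynomial Kbar), χ.Monic ∧ χ.natDegree = dedekindPsi q ∧
      (∀ m, (χ.coeff m).natDegree ≤ q * (χ.natDegree - m)) ∧
      (χ.map ((aeval (jBarLevel L q hqL) : Kbar[X] →ₐ[Kbar] FN L) :
        Kbar[X] →+* FN L)).eval (jBarLevel L (q * q) hqqL) = 0 := by
  obtain ⟨χ, hχ, hdeg, hcr, -, hroot⟩ := S34.PoleBound.exists_kronecker_poly q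
  refine ⟨χ, hχ, hdeg, hcr, ?_⟩
  apply Subtype.ext
  have h1 := S34.PoleBound.map_eval_aeval (modularFunctionFieldBar L).val χ
    (jBarLevel L q hqL) (jBarLevel L (q * q) hqqL)
  have e1 : (modularFunctionFieldBar L).val (jBarLevel L q hqL) =
      qExpand Kbar q (jqModC Kbar) := S34.PoleBound.coe_jBarLevel' L q hqL
  have e2 : (modularFunctionFieldBar L).val (jBarLevel L (q * q) hqqL) =
      qExpand Kbar q (qExpand Kbar q (jqModC Kbar)) := by
    rw [qExpand_qExpand]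
    exact S34.PoleBound.coe_jBarLevel' L (q * q) hqqL
  have h2 := congrArg (qExpand Kbar q) hroot
  rw [qExpand_eval_aeval, map_zero] at h2
  rw [e1, e2, h2] at h1
  exact h1

/-- (3) `(j_{q²})_∞ ≤ q (j_q)_∞`. -/
theorem ord_jqq_ge_jq (hqL : q ∣ L) (hqqL : q * q ∣ L) (P : Place Kbar (FN L)) :
    (q : ℤ) * min 0 (P.ord (jBarLevel L q hqL)) ≤ P.ord (jBarLevel L (q * q) hqqL) := by
  obtain ⟨χ, hχ, -, hcr, h1⟩ := exists_kronecker_poly_jq (L := L) hqL hqqL
  exact S34.PoleBound.ord_ge_of_root χ hχ q hcr _ _ h1 P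

/-- (2) `(j)_∞ ≤ q (j_q)_∞`. -/
theorem ord_j_ge_jq (hM : Nat.Coprime M q) (hL : L = M * q * q) (hqL : q ∣ L)
    (hqqL : q * q ∣ L) (P : Place Kbar (FN L)) :
    (q : ℤ) * min 0 (P.ord (jBarLevel L q hqL)) ≤ P.ord (jBar L) := by
  obtain ⟨P', e1, e2, e3⟩ := exists_place_swap hM hL hqL hqqL P
  have := ord_jqq_ge_jq hqL hqqL P'
  rwa [e2, e3] at this

/-- (4) `(j_q)_∞ ≤ q (j_{q²})_∞`. -/
theorem ord_jq_ge_jqq (hM : Nat.Coprime M q) (hL : L = M * q * q) (hqL : q ∣ L)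
    (hqqL : q * q ∣ L) (P : Place Kbar (FN L)) :
    (q : ℤ) * min 0 (P.ord (jBarLevel L (q * q) hqqL)) ≤ P.ord (jBarLevel L q hqL) := by
  obtain ⟨P', e1, e2, e3⟩ := exists_place_swap hM hL hqL hqqL P
  have := ord_jq_ge hqL P'
  rwa [e1, e3] at this

/-- (6) `(j)_∞ ≤ q² (j_{q²})_∞`. -/
theorem ord_j_ge_jqq (hM : Nat.Coprime M q) (hL : L = M * q * q) (hqL : q ∣ L)
    (hqqL : q * q ∣ L) (P : Place Kbar (FN L)) :
    ((q * q : ℕ) : ℤ) * min 0 (P.ord (jBarLevel L (q * q) hqqL)) ≤ P.ord (jBar L) := by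
  obtain ⟨P', e1, e2, e3⟩ := exists_place_swap hM hL hqL hqqL P
  have := ord_jqq_ge hqqL P'
  rwa [e1, e2] at this

/-- `j` and `j_q` have the same poles. -/
theorem ord_neg_iff_jq (hM : Nat.Coprime M q) (hL : L = M * q * q) (hqL : q ∣ L)
    (hqqL : q * q ∣ L) (P : Place Kbar (FN L)) :
    P.ord (jBar L) < 0 ↔ P.ord (jBarLevel L q hqL) < 0 := by
  constructor
  · intro hj
    by_contra h'
    rw [not_lt] at h'
    have := nonneg_of_min_le (ord_j_ge_jq hM hL hqL hqqL P) h'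
    omega
  · intro hj
    by_contra h'
    rw [not_lt] at h'
    have := nonneg_of_min_le (ord_jq_ge hqL P) h'
    omega

/-- `j` and `j_{q²}` have the same poles. -/
theorem ord_neg_iff_jqq (hM : Nat.Coprime M q) (hL : L = M * q * q) (hqL : q ∣ L)
    (hqqL : q * q ∣ L) (P : Place Kbar (FN L)) :
    P.ord (jBar L) < 0 ↔ P.ord (jBarLevel L (q * q) hqqL) < 0 := by
  constructor
  · intro hj
    by_contra h'
    rw [not_lt] at h'
    have := nonneg_of_min_le (ord_j_ge_jqq hM hL hqL hqqL P) h'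
    omega
  · intro hj
    by_contra h'
    rw [not_lt] at h'
    have := nonneg_of_min_le (ord_jqq_ge hqqL P) h'
    omega

/-! ### Degrees of the pole divisors -/

/-- The degree of the pole divisor of a chart `x` of `F_L` with `[F_L : Q̄(x)] = ψ(L)`. -/
theorem degree_of_finrank {x : FN L} (hx : Transcendental Kbar x)
    (hfr : Module.finrank Kbar⟮x⟯ (FN L) = dedekindPsi L) (C : Divisor Kbar (FN L))
    (hC : ∀ P : Place Kbar (FN L), C P = max 0 (-(P.ord x))) :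
    Divisor.degree C = (dedekindPsi L : ℤ) := by
  have hfin : FiniteDimensional Kbar⟮x⟯ (FN L) := by
    apply Module.finite_of_finrank_pos
    rw [hfr]
    exact S18.FibreCount.dedekindPsi_pos L
  have : CharZero Kbar⟮x⟯ := charZero_of_injective_algebraMap (algebraMap Kbar Kbar⟮x⟯).injective
  have : Algebra.IsAlgebraic Kbar⟮x⟯ (FN L) := Algebra.IsAlgebraic.of_finite _ _
  have : Algebra.IsSeparable Kbar⟮x⟯ (FN L) := Algebra.IsAlgebraic.isSeparable_of_perfectField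
  rw [Lib.FFPoles.degree_poleDivisor hx C hC, hfr]

/-- The pole divisor of a chart `x` of `F_L` with `[F_L : Q̄(x)] = ψ(L)` exists. -/
theorem exists_pole_of_finrank {x : FN L} (hx : Transcendental Kbar x)
    (hfr : Module.finrank Kbar⟮x⟯ (FN L) = dedekindPsi L) :
    ∃ C : Divisor Kbar (FN L), ∀ P : Place Kbar (FN L), C P = max 0 (-(P.ord x)) := by
  have hfin : FiniteDimensional Kbar⟮x⟯ (FN L) := by
    apply Module.finite_of_finrank_pos
    rw [hfr]
    exact S18.FibreCount.dedekindPsi_pos L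
  have : CharZero Kbar⟮x⟯ := charZero_of_injective_algebraMap (algebraMap Kbar Kbar⟮x⟯).injective
  have : Algebra.IsAlgebraic Kbar⟮x⟯ (FN L) := Algebra.IsAlgebraic.of_finite _ _
  have : Algebra.IsSeparable Kbar⟮x⟯ (FN L) := Algebra.IsAlgebraic.isSeparable_of_perfectField
  exact Lib.FFPoles.exists_poleDivisor hx

/-- `j_q` is transcendental over `Q̄` (level `L = M q q`). -/
theorem transcendental_jq (hL : L = M * q * q) (hqL : q ∣ L) :
    Transcendental Kbar (jBarLevel L q hqL) := by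
  subst hL
  have hM0 : M ≠ 0 := fun h0 => NeZero.ne (M * q * q) (by rw [h0, zero_mul, zero_mul])
  haveI : NeZero M := ⟨hM0⟩
  haveI : NeZero (M * q) := ⟨Nat.mul_ne_zero hM0 (NeZero.ne q)⟩
  have e : jBarLevel (M * q * q) q hqL = heckeBetaBar Kbar (M * q) q (jBar (M * q)) :=
    (S34.PoleBound.beta_jBar (M * q) q).symm
  rw [e]
  intro h
  exact S18.FibreCount.transcendental_jBar (M * q)
    ((isAlgebraic_algHom_iff (heckeBetaBar Kbar (M * q) q)
      (heckeBetaBar Kbar (M * q) q).injective).1 h)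

/-- `[F_L : Q̄(j_q)] = ψ(L)` for `L = M q q` (tower through `β^* F_{Mq}`). -/
theorem finrank_adjoin_jq (hq : q.Prime) (hL : L = M * q * q) (hqL : q ∣ L) :
    Module.finrank Kbar⟮jBarLevel L q hqL⟯ (FN L) = dedekindPsi L := by
  subst hL
  have hM0 : M ≠ 0 := fun h0 => NeZero.ne (M * q * q) (by rw [h0, zero_mul, zero_mul])
  haveI : NeZero M := ⟨hM0⟩
  haveI : NeZero (M * q) := ⟨Nat.mul_ne_zero hM0 (NeZero.ne q)⟩
  have h := S37.Conj.finrank_mul_finrankAlong (heckeBetaBar Kbar (M * q) q) (jBar (M * q))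
  rw [S34.PoleBound.beta_jBar (M * q) q, S18.FibreCount.finrank_eq (M * q),
    DegNCDeg.finrankAlong_beta_of_dvd q hq (M * q) (Dvd.intro_left M rfl)] at h
  rw [← h, NumQ2.dedekindPsi_mul_mul_eq hq hM0, mul_comm]

/-- `j_{q²}` is transcendental over `Q̄`. -/
theorem transcendental_jqq (hM : Nat.Coprime M q) (hL : L = M * q * q) (hqL : q ∣ L)
    (hqqL : q * q ∣ L) : Transcendental Kbar (jBarLevel L (q * q) hqqL) := by
  obtain ⟨w, h1, -, -, -⟩ := exists_jswap_level hM hL hqL hqqL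
  rw [← h1]
  exact S34.PoleDeg.transcendental_algEquiv w (S18.FibreCount.transcendental_jBar L)

/-- `[F_L : Q̄(j_{q²})] = ψ(L)`. -/
theorem finrank_adjoin_jqq (hM : Nat.Coprime M q) (hL : L = M * q * q) (hqL : q ∣ L)
    (hqqL : q * q ∣ L) :
    Module.finrank Kbar⟮jBarLevel L (q * q) hqqL⟯ (FN L) = dedekindPsi L := by
  obtain ⟨w, h1, -, -, -⟩ := exists_jswap_level hM hL hqL hqqL
  rw [← h1, S34.PoleDeg.finrank_adjoin_algEquiv, S18.FibreCount.finrank_eq]

/-- **`deg (j_q)_∞ = ψ(L)`** at level `L = M q q`. -/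
theorem degree_poleJq (hq : q.Prime) (hL : L = M * q * q) (hqL : q ∣ L)
    (Cq : Divisor Kbar (FN L)) (hCq : S34.Plan.IsPoleJq L q hqL Cq) :
    Divisor.degree Cq = (dedekindPsi L : ℤ) :=
  degree_of_finrank (transcendental_jq hL hqL) (finrank_adjoin_jq hq hL hqL) Cq hCq

/-- **`deg (j_{q²})_∞ = ψ(L)`** at level `L = M q q`, `q` coprime to `M`. -/
theorem degree_poleJqq (hM : Nat.Coprime M q) (hL : L = M * q * q) (hqL : q ∣ L)
    (hqqL : q * q ∣ L) (Cqq : Divisor Kbar (FN L))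
    (hCqq : S34.Plan.IsPoleJq L (q * q) hqqL Cqq) :
    Divisor.degree Cqq = (dedekindPsi L : ℤ) :=
  degree_of_finrank (transcendental_jqq hM hL hqL hqqL) (finrank_adjoin_jqq hM hL hqL hqqL)
    Cqq hCqq

/-- The pole divisor of `j_q` exists. -/
theorem exists_poleJq (hq : q.Prime) (hL : L = M * q * q) (hqL : q ∣ L) :
    ∃ Cq : Divisor Kbar (FN L), S34.Plan.IsPoleJq L q hqL Cq :=
  exists_pole_of_finrank (transcendental_jq hL hqL) (finrank_adjoin_jq hq hL hqL)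

/-- The pole divisor of `j_{q²}` exists. -/
theorem exists_poleJqq (hM : Nat.Coprime M q) (hL : L = M * q * q) (hqL : q ∣ L)
    (hqqL : q * q ∣ L) :
    ∃ Cqq : Divisor Kbar (FN L), S34.Plan.IsPoleJq L (q * q) hqqL Cqq :=
  exists_pole_of_finrank (transcendental_jqq hM hL hqL hqqL)
    (finrank_adjoin_jqq hM hL hqL hqqL)

/-! ### The divisor `E = (j)_∞ + (j_q)_∞ + (j_{q²})_∞` and the unit candidate `φ = j j_q j_{q²}` -/

/-- `E = (j)_∞ + (j_q)_∞ + (j_{q²})_∞` on `F_L`. -/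
def IsE3 (L q : ℕ) [NeZero L] [NeZero q] (hqL : q ∣ L) (hqqL : q * q ∣ L)
    (E : Divisor Kbar (FN L)) : Prop :=
  ∀ P : Place Kbar (FN L),
    E P = max 0 (-(P.ord (jBar L))) + max 0 (-(P.ord (jBarLevel L q hqL))) +
      max 0 (-(P.ord (jBarLevel L (q * q) hqqL)))

/-- `E = (j)_∞ + (j_{q²})_∞` on `F_L`. -/
def IsE2 (L q : ℕ) [NeZero L] [NeZero q] (hqqL : q * q ∣ L) (E : Divisor Kbar (FN L)) : Prop :=
  ∀ P : Place Kbar (FN L),
    E P = max 0 (-(P.ord (jBar L))) + max 0 (-(P.ord (jBarLevel L (q * q) hqqL)))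

theorem jBar_ne_zero : jBar L ≠ 0 := fun h0 =>
  S18.FibreCount.transcendental_jBar L (by rw [h0]; exact isAlgebraic_zero)

theorem jq_ne_zero (hL : L = M * q * q) (hqL : q ∣ L) : jBarLevel L q hqL ≠ 0 := fun h0 =>
  transcendental_jq hL hqL (by rw [h0]; exact isAlgebraic_zero)

theorem jqq_ne_zero (hM : Nat.Coprime M q) (hL : L = M * q * q) (hqL : q ∣ L)
    (hqqL : q * q ∣ L) : jBarLevel L (q * q) hqqL ≠ 0 := fun h0 =>
  transcendental_jqq hM hL hqL hqqL (by rw [h0]; exact isAlgebraic_zero)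

/-- `φ = j j_q j_{q²} ≠ 0`. -/
theorem phi_ne_zero (hM : Nat.Coprime M q) (hL : L = M * q * q) (hqL : q ∣ L)
    (hqqL : q * q ∣ L) : jBar L * jBarLevel L q hqL * jBarLevel L (q * q) hqqL ≠ 0 :=
  mul_ne_zero (mul_ne_zero jBar_ne_zero (jq_ne_zero hL hqL)) (jqq_ne_zero hM hL hqL hqqL)

/-- `ord_P φ = ord_P j + ord_P j_q + ord_P j_{q²}`. -/
theorem ord_phi (hM : Nat.Coprime M q) (hL : L = M * q * q) (hqL : q ∣ L)
    (hqqL : q * q ∣ L) (P : Place Kbar (FN L)) :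
    P.ord (jBar L * jBarLevel L q hqL * jBarLevel L (q * q) hqqL) =
      P.ord (jBar L) + P.ord (jBarLevel L q hqL) + P.ord (jBarLevel L (q * q) hqqL) := by
  rw [P.ord_mul (mul_ne_zero jBar_ne_zero (jq_ne_zero hL hqL)) (jqq_ne_zero hM hL hqL hqqL),
    P.ord_mul jBar_ne_zero (jq_ne_zero hL hqL)]

theorem isE3_nonneg (hqL : q ∣ L) (hqqL : q * q ∣ L) {E : Divisor Kbar (FN L)}
    (hE : IsE3 L q hqL hqqL E) (P : Place Kbar (FN L)) : 0 ≤ E P := by
  rw [hE P]
  have h1 := le_max_left (0 : ℤ) (-(P.ord (jBar L)))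
  have h2 := le_max_left (0 : ℤ) (-(P.ord (jBarLevel L q hqL)))
  have h3 := le_max_left (0 : ℤ) (-(P.ord (jBarLevel L (q * q) hqqL)))
  omega

/-- `(φ) ≥ -E`. -/
theorem neg_E_le_ord_phi (hM : Nat.Coprime M q) (hL : L = M * q * q) (hqL : q ∣ L)
    (hqqL : q * q ∣ L) {E : Divisor Kbar (FN L)} (hE : IsE3 L q hqL hqqL E)
    (P : Place Kbar (FN L)) :
    -E P ≤ P.ord (jBar L * jBarLevel L q hqL * jBarLevel L (q * q) hqqL) := by
  rw [hE P, ord_phi hM hL hqL hqqL P]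
  have h1 := le_max_right (0 : ℤ) (-(P.ord (jBar L)))
  have h2 := le_max_right (0 : ℤ) (-(P.ord (jBarLevel L q hqL)))
  have h3 := le_max_right (0 : ℤ) (-(P.ord (jBarLevel L (q * q) hqqL)))
  omega

/-- On the support of `E` the order of `φ` is exactly `-E`. -/
theorem E_eq_zero_or (hM : Nat.Coprime M q) (hL : L = M * q * q) (hqL : q ∣ L)
    (hqqL : q * q ∣ L) {E : Divisor Kbar (FN L)} (hE : IsE3 L q hqL hqqL E)
    (P : Place Kbar (FN L)) :
    E P = 0 ∨ P.ord (jBar L * jBarLevel L q hqL * jBarLevel L (q * q) hqqL) = -E P := by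
  have i1 := ord_neg_iff_jq hM hL hqL hqqL P
  have i2 := ord_neg_iff_jqq hM hL hqL hqqL P
  rw [hE P, ord_phi hM hL hqL hqqL P]
  by_cases hj : P.ord (jBar L) < 0
  · right
    have hjq := i1.1 hj
    have hjqq := i2.1 hj
    rw [max_eq_right (by omega), max_eq_right (by omega), max_eq_right (by omega)]
    ring
  · left
    have hjq : ¬ P.ord (jBarLevel L q hqL) < 0 := fun h => hj (i1.2 h)
    have hjqq : ¬ P.ord (jBarLevel L (q * q) hqqL) < 0 := fun h => hj (i2.2 h)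
    rw [max_eq_left (by omega), max_eq_left (by omega), max_eq_left (by omega)]
    ring

/-- A divisor `E = (j)_∞ + (j_q)_∞ + (j_{q²})_∞` exists. -/
theorem exists_isE3 (hq : q.Prime) (hM : Nat.Coprime M q) (hL : L = M * q * q) (hqL : q ∣ L)
    (hqqL : q * q ∣ L) : ∃ E : Divisor Kbar (FN L), IsE3 L q hqL hqqL E := by
  obtain ⟨Cj, hCj⟩ := S34.PoleDeg.exists_poleJ L
  obtain ⟨Cq, hCq⟩ := exists_poleJq hq hL hqL
  obtain ⟨Cqq, hCqq⟩ := exists_poleJqq hM hL hqL hqqL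
  refine ⟨Cj + Cq + Cqq, fun P => ?_⟩
  rw [Finsupp.add_apply, Finsupp.add_apply, hCj P, hCq P, hCqq P]

/-- **`deg E = 3 ψ(L)`.** -/
theorem degree_isE3 (hq : q.Prime) (hM : Nat.Coprime M q) (hL : L = M * q * q) (hqL : q ∣ L)
    (hqqL : q * q ∣ L) (E : Divisor Kbar (FN L)) (hE : IsE3 L q hqL hqqL E) :
    Divisor.degree E = 3 * (dedekindPsi L : ℤ) := by
  obtain ⟨Cj, hCj⟩ := S34.PoleDeg.exists_poleJ L
  obtain ⟨Cq, hCq⟩ := exists_poleJq hq hL hqL
  obtain ⟨Cqq, hCqq⟩ := exists_poleJqq hM hL hqL hqqL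
  have e : E = Cj + Cq + Cqq := by
    ext P
    rw [Finsupp.add_apply, Finsupp.add_apply, hCj P, hCq P, hCqq P, hE P]
  rw [e, map_add, map_add, S34.PoleDeg.degree_poleJ L Cj hCj, degree_poleJq hq hL hqL Cq hCq,
    degree_poleJqq hM hL hqL hqqL Cqq hCqq]
  ring

/-! ### The two-term variant `E = (j)_∞ + (j_{q²})_∞`, `φ = j j_{q²}` -/

theorem isE2_nonneg (hqqL : q * q ∣ L) {E : Divisor Kbar (FN L)}
    (hE : IsE2 L q hqqL E) (P : Place Kbar (FN L)) : 0 ≤ E P := by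
  rw [hE P]
  have h1 := le_max_left (0 : ℤ) (-(P.ord (jBar L)))
  have h3 := le_max_left (0 : ℤ) (-(P.ord (jBarLevel L (q * q) hqqL)))
  omega

theorem phi2_ne_zero (hM : Nat.Coprime M q) (hL : L = M * q * q) (hqL : q ∣ L)
    (hqqL : q * q ∣ L) : jBar L * jBarLevel L (q * q) hqqL ≠ 0 :=
  mul_ne_zero jBar_ne_zero (jqq_ne_zero hM hL hqL hqqL)

theorem neg_E2_le_ord_phi2 (hM : Nat.Coprime M q) (hL : L = M * q * q) (hqL : q ∣ L)
    (hqqL : q * q ∣ L) {E : Divisor Kbar (FN L)} (hE : IsE2 L q hqqL E)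
    (P : Place Kbar (FN L)) : -E P ≤ P.ord (jBar L * jBarLevel L (q * q) hqqL) := by
  rw [hE P, P.ord_mul jBar_ne_zero (jqq_ne_zero hM hL hqL hqqL)]
  have h1 := le_max_right (0 : ℤ) (-(P.ord (jBar L)))
  have h3 := le_max_right (0 : ℤ) (-(P.ord (jBarLevel L (q * q) hqqL)))
  omega

theorem E2_eq_zero_or (hM : Nat.Coprime M q) (hL : L = M * q * q) (hqL : q ∣ L)
    (hqqL : q * q ∣ L) {E : Divisor Kbar (FN L)} (hE : IsE2 L q hqqL E)
    (P : Place Kbar (FN L)) :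
    E P = 0 ∨ P.ord (jBar L * jBarLevel L (q * q) hqqL) = -E P := by
  have i2 := ord_neg_iff_jqq hM hL hqL hqqL P
  rw [hE P, P.ord_mul jBar_ne_zero (jqq_ne_zero hM hL hqL hqqL)]
  by_cases hj : P.ord (jBar L) < 0
  · right
    have hjqq := i2.1 hj
    rw [max_eq_right (by omega), max_eq_right (by omega)]
    ring
  · left
    have hjqq : ¬ P.ord (jBarLevel L (q * q) hqqL) < 0 := fun h => hj (i2.2 h)
    rw [max_eq_left (by omega), max_eq_left (by omega)]
    ring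

theorem exists_isE2 (hM : Nat.Coprime M q) (hL : L = M * q * q) (hqL : q ∣ L)
    (hqqL : q * q ∣ L) : ∃ E : Divisor Kbar (FN L), IsE2 L q hqqL E := by
  obtain ⟨Cj, hCj⟩ := S34.PoleDeg.exists_poleJ L
  obtain ⟨Cqq, hCqq⟩ := exists_poleJqq hM hL hqL hqqL
  refine ⟨Cj + Cqq, fun P => ?_⟩
  rw [Finsupp.add_apply, hCj P, hCqq P]

/-- **`deg E = 2 ψ(L)`** for the two-term `E`. -/
theorem degree_isE2 (hM : Nat.Coprime M q) (hL : L = M * q * q) (hqL : q ∣ L)
    (hqqL : q * q ∣ L) (E : Divisor Kbar (FN L)) (hE : IsE2 L q hqqL E) :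
    Divisor.degree E = 2 * (dedekindPsi L : ℤ) := by
  obtain ⟨Cj, hCj⟩ := S34.PoleDeg.exists_poleJ L
  obtain ⟨Cqq, hCqq⟩ := exists_poleJqq hM hL hqL hqqL
  have e : E = Cj + Cqq := by
    ext P
    rw [Finsupp.add_apply, hCj P, hCqq P, hE P]
  rw [e, map_add, S34.PoleDeg.degree_poleJ L Cj hCj, degree_poleJqq hM hL hqL hqqL Cqq hCqq]
  ring

end Level

end Fermat.Agent.S36.PoleQ2

end
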