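import Mathlib
import Fermat.Agent.S36.Plan2
import Fermat.Agent.S36.PoleQ2

/-!
# S36 / [PHI-DIV] + [E3] (helper50): the contracts `Plan.PhiDivStmt` and `Plan.ExistsE3Stmt`

Level `N = N₀ * q * q` with `q` coprime to `N₀` (the application: `q² ∥ N`), on top of
`S36/PoleQ2`.

* `phiDivStmt`   : `Plan.PhiDivStmt N q hq hqq` (`E ≥ 0`, `φ ≠ 0`, `(φ) ≥ -E`, `ord_P φ = -E P` on
  `supp E`, for `E = (j)_∞ + (j_q)_∞ + (j_{q²})_∞`, `φ = j j_q j_{q²}`);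
* `existsE3Stmt` : `Plan.ExistsE3Stmt N' q hq'` for `N' = N₀ * q`;
* `degree_isE3`  : `deg E = 3 ψ(N)` in the vocabulary of `Plan.IsE3`;
* conjunction forms `ord_chain`, `ord_neg_iff`, `isE3_phi`.
-/

set_option autoImplicit false

noncomputable section

namespace Fermat.Agent.S36.PhiDiv

open ModularCurve AlgebraicCurve Fermat.Agent.S24 Fermat.Agent

section Level

variable {N N₀ q : ℕ} [NeZero N] [NeZero q]

/-- `Plan.IsE3` and `PoleQ2.IsE3` are the same predicate. -/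
theorem isE3_iff (hq : q ∣ N) (hqq : q * q ∣ N) (E : Divisor Kbar (FN N)) :
    Plan.IsE3 N q hq hqq E ↔ PoleQ2.IsE3 N q hq hqq E := Iff.rfl

/-- **[PHI-DIV]** at a level `N = N₀ * q * q`, `q` coprime to `N₀`. -/
theorem phiDivStmt (hM : Nat.Coprime N₀ q) (hN : N = N₀ * q * q) (hq : q ∣ N)
    (hqq : q * q ∣ N) : Plan.PhiDivStmt N q hq hqq := by
  intro E hE
  have hE' : PoleQ2.IsE3 N q hq hqq E := hE
  exact ⟨PoleQ2.isE3_nonneg hq hqq hE', PoleQ2.phi_ne_zero hM hN hq hqq,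
    PoleQ2.neg_E_le_ord_phi hM hN hq hqq hE', PoleQ2.E_eq_zero_or hM hN hq hqq hE'⟩

/-- A divisor `E` with `Plan.IsE3` exists at a level `N = N₀ * q * q`. -/
theorem exists_isE3 (hqp : q.Prime) (hM : Nat.Coprime N₀ q) (hN : N = N₀ * q * q) (hq : q ∣ N)
    (hqq : q * q ∣ N) : ∃ E : Divisor Kbar (FN N), Plan.IsE3 N q hq hqq E :=
  PoleQ2.exists_isE3 hqp hM hN hq hqq

/-- **`deg E = 3 ψ(N)`** in the vocabulary of `Plan.IsE3`. -/
theorem degree_isE3 (hqp : q.Prime) (hM : Nat.Coprime N₀ q) (hN : N = N₀ * q * q) (hq : q ∣ N)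
    (hqq : q * q ∣ N) (E : Divisor Kbar (FN N)) (hE : Plan.IsE3 N q hq hqq E) :
    Divisor.degree E = 3 * (dedekindPsi N : ℤ) :=
  PoleQ2.degree_isE3 hqp hM hN hq hqq E hE

/-- The four neighbour inequalities between the orders of `j`, `j_q`, `j_{q²}` at a place. -/
theorem ord_chain (hM : Nat.Coprime N₀ q) (hN : N = N₀ * q * q) (hq : q ∣ N) (hqq : q * q ∣ N)
    (P : Place Kbar (FN N)) :
    (q : ℤ) * min 0 (P.ord (jBar N)) ≤ P.ord (jBarLevel N q hq) ∧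
    (q : ℤ) * min 0 (P.ord (jBarLevel N q hq)) ≤ P.ord (jBar N) ∧
    (q : ℤ) * min 0 (P.ord (jBarLevel N q hq)) ≤ P.ord (jBarLevel N (q * q) hqq) ∧
    (q : ℤ) * min 0 (P.ord (jBarLevel N (q * q) hqq)) ≤ P.ord (jBarLevel N q hq) :=
  ⟨PoleQ2.ord_jq_ge hq P, PoleQ2.ord_j_ge_jq hM hN hq hqq P, PoleQ2.ord_jqq_ge_jq hq hqq P,
    PoleQ2.ord_jq_ge_jqq hM hN hq hqq P⟩

/-- `j`, `j_q`, `j_{q²}` have the same poles. -/
theorem ord_neg_iff (hM : Nat.Coprime N₀ q) (hN : N = N₀ * q * q) (hq : q ∣ N) (hqq : q * q ∣ N)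
    (P : Place Kbar (FN N)) :
    (P.ord (jBar N) < 0 ↔ P.ord (jBarLevel N q hq) < 0) ∧
    (P.ord (jBar N) < 0 ↔ P.ord (jBarLevel N (q * q) hqq) < 0) :=
  ⟨PoleQ2.ord_neg_iff_jq hM hN hq hqq P, PoleQ2.ord_neg_iff_jqq hM hN hq hqq P⟩

/-- The bundle consumed by the lifting step, with the degree. -/
theorem isE3_phi (hqp : q.Prime) (hM : Nat.Coprime N₀ q) (hN : N = N₀ * q * q) (hq : q ∣ N)
    (hqq : q * q ∣ N) (E : Divisor Kbar (FN N)) (hE : Plan.IsE3 N q hq hqq E) :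
    (∀ P : Place Kbar (FN N), 0 ≤ E P) ∧ Plan.phiQ2 N q hq hqq ≠ 0 ∧
    (∀ P : Place Kbar (FN N), -E P ≤ P.ord (Plan.phiQ2 N q hq hqq)) ∧
    (∀ P : Place Kbar (FN N), E P = 0 ∨ P.ord (Plan.phiQ2 N q hq hqq) = -E P) ∧
    Divisor.degree E = 3 * (dedekindPsi N : ℤ) := by
  obtain ⟨h1, h2, h3, h4⟩ := phiDivStmt hM hN hq hqq E hE
  exact ⟨h1, h2, h3, h4, degree_isE3 hqp hM hN hq hqq E hE⟩

end Level

/-! ### The spine spelling: level `N' * q`, `N' = N₀ * q` -/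

section Spine

variable {N' N₀ q : ℕ} [NeZero N'] [NeZero q]

/-- **[E3]** `Plan.ExistsE3Stmt N' q hq'` for `N' = N₀ * q`, `q` prime and coprime to `N₀`. -/
theorem existsE3Stmt (hqp : q.Prime) (hM : Nat.Coprime N₀ q) (hN' : N' = N₀ * q)
    (hq' : q ∣ N') : Plan.ExistsE3Stmt N' q hq' :=
  exists_isE3 (N := N' * q) hqp hM (by rw [hN']) (Dvd.intro_left N' rfl)
    (Nat.mul_dvd_mul_right hq' q)

/-- **[PHI-DIV]** in the spine spelling (level `N' * q`, `N' = N₀ * q`). -/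
theorem phiDivStmt_spine (hM : Nat.Coprime N₀ q) (hN' : N' = N₀ * q) (hq' : q ∣ N') :
    Plan.PhiDivStmt (N' * q) q (Dvd.intro_left N' rfl) (Nat.mul_dvd_mul_right hq' q) :=
  phiDivStmt (N := N' * q) hM (by rw [hN']) (Dvd.intro_left N' rfl)
    (Nat.mul_dvd_mul_right hq' q)

/-- `deg E = 3 ψ(N' q)` in the spine spelling. -/
theorem degree_isE3_spine (hqp : q.Prime) (hM : Nat.Coprime N₀ q) (hN' : N' = N₀ * q)
    (hq' : q ∣ N') (E : Divisor Kbar (FN (N' * q)))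
    (hE : Plan.IsE3 (N' * q) q (Dvd.intro_left N' rfl) (Nat.mul_dvd_mul_right hq' q) E) :
    Divisor.degree E = 3 * (dedekindPsi (N' * q) : ℤ) :=
  degree_isE3 (N := N' * q) hqp hM (by rw [hN']) (Dvd.intro_left N' rfl)
    (Nat.mul_dvd_mul_right hq' q) E hE

end Spine

end Fermat.Agent.S36.PhiDiv

end
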