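import Mathlib
import Fermat.Agent.S36.Plan
import Fermat.Agent.S34.InclInst
import Fermat.Agent.S37.EvalBasic
import Fermat.Agent.Lib.KroneckerCongOcal
import Fermat.Agent.S28.Subst

/-!
# S36 / P8 — block [PHI]: `φ = j · j_q · j_{q²}` in the level-`q²` frame (helper59)

Provider of `Plan.PhiStmt`.  For a frame `F : Plan.Frame M q h` and a pair `(O, ρ)` with
`Plan.IsSetup A F O ρ`, `A` a valuation subring of `Q̄` over the prime `q`:

* `g0 M q`, `g1 M q`, `g2 M q` : the elements `j`, `j_q = j(T^q)`, `j_{q²} = j(T^{q²})` of `F_{Mq²}`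
  (as images of `α`, `β`), with their expansions (`coe_g0`, `coe_g1`, `coe_g2`);
* `w_g0`, `w_g1`, `w_g2`, `r_g0`, `r_g1`, `r_g2` : the values of the Atkin–Lehner involution and of
  the middle embeddings on them: `w` swaps `j ↔ j_{q²}` and fixes `j_q`; `r ξ` fixes `j`, `j_q` and
  sends `j_{q²}` to `j(ξ T)`;
* `exists_red_scale` : `u(ξ T)` is Gauss-integral with the reduction of `u`, for `ξ^q = 1`;
* `emb_g0`, `emb_g1`, `emb_g2` : the table of the reductions of the `q + 1` expansions: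
  `∞ : (j̄, j̄^q, j̄^(q²))`, `0 : (j̄^(q²), j̄^q, j̄)`, `mid ξ : (j̄, j̄^q, j̄)`;
* `emb_prod` : `ε_i (j j_q j_{q²})` is integral with reduction `j̄ ^ eCoord q i`;
* `mem_O_g0/g1/g2`, `rho_g0/g1/g2` : `j`, `j_q`, `j_{q²} ∈ O` and their reductions;
* `phiStmt` : **`Plan.PhiStmt A N M q _ hqq O ρ`** for every `N` with `q * q ∣ N`.
-/

set_option autoImplicit false

noncomputable section

namespace Fermat.Agent.S36.PhiQ2

open ModularCurve AlgebraicCurve Fermat.Agent.S24 Fermat.Agent.S18 Fermat.Agent.S18.Content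
  Fermat.Agent.S18.Plan Fermat.Agent.S34 Fermat.Agent.S36.Plan

/-! ### Scaling by a root of unity and reduction -/

section Scale

variable (A : ValuationSubring Kbar)

/-- A root of unity of `Q̄` has valuation one. -/
theorem valuation_eq_one_of_pow {ξ : Kbar} {n : ℕ} (hn : n ≠ 0) (hξ : ξ ^ n = 1) :
    A.valuation ξ = 1 := by
  have h1 : A.valuation ξ ^ n = 1 := by rw [← map_pow, hξ, map_one]
  exact (pow_eq_one_iff.mp h1).resolve_right hn

/-- `u(ξ T)` is Gauss-integral with the same reduction as `u`, for `u` with coefficients in `A`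
and `ξ` a `q`-th root of unity (`A` over `q`). -/
theorem exists_red_scale {q : ℕ} (hq : q.Prime) (hA : A.LiesOverPrime q) (ξ : Kbarˣ)
    (hξ : ξ ^ q = 1) (u : LaurentSeries A) :
    ∃ hc : Fermat.Agent.S28.scale ξ (iota A u) ∈ Ocal A, red A ⟨_, hc⟩ = rho A u := by
  have : Fact q.Prime := ⟨hq⟩
  have : CharP (kk A) q := charP_residueField_of_liesOverPrime A q hA
  have hξK : (ξ : Kbar) ^ q = 1 := by
    have := congrArg (fun x : Kbarˣ => (x : Kbar)) hξ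
    simpa using this
  have hξiK : ((ξ⁻¹ : Kbarˣ) : Kbar) ^ q = 1 := by
    have h2 : (ξ⁻¹ : Kbarˣ) ^ q = 1 := by rw [inv_pow, hξ, inv_one]
    have := congrArg (fun x : Kbarˣ => (x : Kbar)) h2
    simpa using this
  have hmem : (ξ : Kbar) ∈ A :=
    (A.valuation_le_one_iff _).mp (valuation_eq_one_of_pow A hq.ne_zero hξK).le
  have hmem' : ((ξ⁻¹ : Kbarˣ) : Kbar) ∈ A :=
    (A.valuation_le_one_iff _).mp (valuation_eq_one_of_pow A hq.ne_zero hξiK).le
  let ξA : (↥A)ˣ := ⟨⟨(ξ : Kbar), hmem⟩, ⟨((ξ⁻¹ : Kbarˣ) : Kbar), hmem'⟩,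
    Subtype.ext (by simp), Subtype.ext (by simp)⟩
  have hmap : Units.map ((A.subtype : ↥A →+* Kbar) : ↥A →* Kbar) ξA = ξ := Units.ext rfl
  have e1 : Fermat.Agent.S28.scale ξ (iota A u) = iota A (Fermat.Agent.S28.scale ξA u) := by
    rw [iota, Fermat.Agent.S28.coeffMap_scale, hmap]
  -- the residue of `ξ` is `1`
  have hres : IsLocalRing.residue ↥A (ξA : ↥A) = 1 := by
    have h3 : (IsLocalRing.residue ↥A (ξA : ↥A)) ^ q = 1 := by
      rw [← map_pow]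
      have h4 : (ξA : ↥A) ^ q = 1 := Subtype.ext (by simpa using hξK)
      rw [h4, map_one]
    have h5 : (IsLocalRing.residue ↥A (ξA : ↥A) - 1) ^ q = 0 := by
      rw [sub_pow_char, h3, one_pow, sub_self]
    exact sub_eq_zero.mp (pow_eq_zero_iff hq.ne_zero |>.mp h5)
  have hmapres : Units.map ((IsLocalRing.residue ↥A : ↥A →+* kk A) : ↥A →* kk A) ξA = 1 :=
    Units.ext hres
  have hc : Fermat.Agent.S28.scale ξ (iota A u) ∈ Ocal A := by
    rw [e1]; exact iota_mem_Ocal A _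
  refine ⟨hc, ?_⟩
  rw [red_congr A e1 hc (iota_mem_Ocal A _), red_iota, rho, Fermat.Agent.S28.coeffMap_scale,
    hmapres, Fermat.Agent.S28.scale_one]

/-- Products of three elements of `Ocal`. -/
theorem exists_red_mul3 {a b c : Om} (ha : a ∈ Ocal A) (hb : b ∈ Ocal A) (hc : c ∈ Ocal A) :
    ∃ h : a * b * c ∈ Ocal A,
      red A ⟨_, h⟩ = red A ⟨a, ha⟩ * red A ⟨b, hb⟩ * red A ⟨c, hc⟩ := by
  refine ⟨(Ocal A).mul_mem ((Ocal A).mul_mem ha hb) hc, ?_⟩
  have e : (⟨a * b * c, (Ocal A).mul_mem ((Ocal A).mul_mem ha hb) hc⟩ : Ocal A) =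
      ⟨a, ha⟩ * ⟨b, hb⟩ * ⟨c, hc⟩ := rfl
  rw [e, map_mul, map_mul]

end Scale

/-! ### The elements `j`, `j_q`, `j_{q²}` of `F_{Mq²}` -/

section Elements

variable (M q : ℕ) [NeZero M] [NeZero q]

/-- `j` as an element of `F_{Mq²}`. -/
def g0 : FN (M * q * q) := heckeAlphaBar Kbar (M * q) q (jBar (M * q))

/-- `j_q = j(T^q)` as an element of `F_{Mq²}`. -/
def g1 : FN (M * q * q) := heckeAlphaBar Kbar (M * q) q (Sigma.jQ M q)

/-- `j_{q²} = j(T^{q²})` as an element of `F_{Mq²}`. -/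
def g2 : FN (M * q * q) := heckeBetaBar Kbar (M * q) q (Sigma.jQ M q)

theorem coe_jQ : ((Sigma.jQ M q : FN (M * q)) : Om) = qExpand Kbar q jK := by
  rw [Sigma.jQ, Sigma.coe_beta, Main.coe_jBar]

theorem coe_g0 : ((g0 M q : FN (M * q * q)) : Om) = jK := by
  rw [g0, Sigma.coe_alpha, Main.coe_jBar]

theorem coe_g1 : ((g1 M q : FN (M * q * q)) : Om) = qExpand Kbar q jK := by
  rw [g1, Sigma.coe_alpha, coe_jQ]

theorem coe_g2 : ((g2 M q : FN (M * q * q)) : Om) = qExpand Kbar q (qExpand Kbar q jK) := by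
  rw [g2, Sigma.coe_beta, coe_jQ]

/-- `j_q` is also `β(j)`. -/
theorem g1_eq_beta : g1 M q = heckeBetaBar Kbar (M * q) q (jBar (M * q)) := by
  apply Subtype.ext
  rw [coe_g1, Sigma.coe_beta, Main.coe_jBar]

variable {M q} {h : Nat.Coprime M q} (F : Frame M q h)

/-- `w j = j_{q²}`. -/
theorem w_g0 : F.w (g0 M q) = g2 M q := by
  rw [g0, F.w_alpha, Sigma.sigma_jBar, g2]

/-- `w j_q = j_q`. -/
theorem w_g1 : F.w (g1 M q) = g1 M q :=
  calc F.w (g1 M q)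
      = heckeBetaBar Kbar (M * q) q (Sigma.sigma M q h (Sigma.jQ M q)) := F.w_alpha _
    _ = heckeBetaBar Kbar (M * q) q (jBar (M * q)) := by rw [Sigma.sigma_jQ]
    _ = g1 M q := (g1_eq_beta M q).symm

/-- `w j_{q²} = j`. -/
theorem w_g2 : F.w (g2 M q) = g0 M q := by
  rw [g2, F.w_beta, Sigma.sigma_jQ, g0]

/-- `r ξ j = j`. -/
theorem r_g0 (ξ : MidIdx q) : F.r ξ (g0 M q) = jK := by
  rw [g0, F.r_alpha, Main.coe_jBar]

/-- `r ξ j_q = j(T^q)`. -/
theorem r_g1 (ξ : MidIdx q) : F.r ξ (g1 M q) = qExpand Kbar q jK := by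
  rw [g1, F.r_alpha, coe_jQ]

/-- `r ξ j_{q²} = j(ξ T)`. -/
theorem r_g2 (ξ : MidIdx q) : F.r ξ (g2 M q) = Fermat.Agent.S28.scale ξ.1 jK := by
  rw [g2, Sigma.jQ, F.r_beta, Main.coe_jBar]

end Elements

/-! ### The table of reductions -/

section Table

variable (A : ValuationSubring Kbar)

/-- Transport of "integral with reduction `r`" along an equality. -/
theorem exists_red_congr {x y : Om} (e : x = y) {r : Omk A}
    (hy : ∃ hc : y ∈ Ocal A, red A ⟨_, hc⟩ = r) : ∃ hc : x ∈ Ocal A, red A ⟨_, hc⟩ = r := by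
  subst e
  exact hy

/-- `j` is Gauss-integral with reduction `j̄`. -/
theorem exists_red_J : ∃ hc : (jK : Om) ∈ Ocal A, red A ⟨_, hc⟩ = jk A ^ 1 :=
  ⟨Main.jK_mem_Ocal A, by rw [Main.red_jK, pow_one]⟩

variable {q : ℕ} [NeZero q]

/-- `j(T^q)` is Gauss-integral with reduction `j̄^q`. -/
theorem exists_red_E (hq : q.Prime) (hA : A.LiesOverPrime q) :
    ∃ hc : qExpand Kbar q jK ∈ Ocal A, red A ⟨_, hc⟩ = jk A ^ q := by
  have : Fact q.Prime := ⟨hq⟩
  have : CharP (kk A) q := charP_residueField_of_liesOverPrime A q hA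
  refine ⟨Fermat.Agent.Lib.KroneckerCong.qExpand_mem_Ocal A q (Main.jK_mem_Ocal A), ?_⟩
  rw [Fermat.Agent.Lib.KroneckerCong.red_qExpand A q ⟨jK, Main.jK_mem_Ocal A⟩, Main.red_jK,
    Sigma.qExpand_jqModC (kk A) hq]

/-- `j(T^{q²})` is Gauss-integral with reduction `j̄^(q²)`. -/
theorem exists_red_EE (hq : q.Prime) (hA : A.LiesOverPrime q) :
    ∃ hc : qExpand Kbar q (qExpand Kbar q jK) ∈ Ocal A, red A ⟨_, hc⟩ = jk A ^ (q * q) := by
  have : Fact q.Prime := ⟨hq⟩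
  have : CharP (kk A) q := charP_residueField_of_liesOverPrime A q hA
  obtain ⟨hc, hred⟩ := exists_red_E A hq hA
  refine ⟨Fermat.Agent.Lib.KroneckerCong.qExpand_mem_Ocal A q hc, ?_⟩
  rw [Fermat.Agent.Lib.KroneckerCong.red_qExpand A q ⟨_, hc⟩, hred, map_pow,
    Sigma.qExpand_jqModC (kk A) hq, ← pow_mul]

omit [NeZero q] in
/-- `j(ξ T)` is Gauss-integral with reduction `j̄` (`ξ` a primitive `q`-th root of unity). -/
theorem exists_red_S (hq : q.Prime) (hA : A.LiesOverPrime q) (ξ : MidIdx q) :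
    ∃ hc : Fermat.Agent.S28.scale ξ.1 jK ∈ Ocal A, red A ⟨_, hc⟩ = jk A ^ 1 := by
  have hξ : ξ.1 ^ q = 1 := ξ.2.pow_eq_one
  obtain ⟨hc, hred⟩ := exists_red_scale A hq hA ξ.1 hξ (jqModC ↥A)
  have key : ∀ y : Om, y = iota A (jqModC ↥A) →
      ∃ hc : Fermat.Agent.S28.scale ξ.1 y ∈ Ocal A, red A ⟨_, hc⟩ = jk A ^ 1 := by
    rintro y rfl
    exact ⟨hc, by rw [hred, pow_one]; exact rho_jA A⟩
  exact key jK (Main.jK_eq_iota A)

variable {M : ℕ} [NeZero M] {h : Nat.Coprime M q} (F : Frame M q h)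

/-- The exponents of the reductions of the expansions of `j`. -/
def e0 (q : ℕ) : Coord q → ℕ
  | .inf => 1
  | .zero => q * q
  | .mid _ => 1

/-- The exponents of the reductions of the expansions of `j_{q²}`. -/
def e2 (q : ℕ) : Coord q → ℕ
  | .inf => q * q
  | .zero => 1
  | .mid _ => 1

omit [NeZero q] in
theorem e0_add_e2 (i : Coord q) : e0 q i + q + e2 q i = eCoord q i := by
  cases i <;> simp only [e0, e2, eCoord] <;> ring

/-- The expansions of `j`: integral, with reductions `j̄`, `j̄^(q²)`, `j̄` at `∞`, `0`, `mid`. -/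
theorem emb_g0 (hq : q.Prime) (hA : A.LiesOverPrime q) (i : Coord q) :
    ∃ hc : F.emb i (g0 M q) ∈ Ocal A, red A ⟨_, hc⟩ = jk A ^ e0 q i := by
  cases i with
  | inf => exact exists_red_congr A (by rw [Frame.emb_inf, coe_g0]) (exists_red_J A)
  | zero => exact exists_red_congr A (by rw [Frame.emb_zero, w_g0, coe_g2]) (exists_red_EE A hq hA)
  | mid ξ => exact exists_red_congr A (by rw [Frame.emb_mid, r_g0]) (exists_red_J A)

/-- The expansions of `j_q`: integral, with reduction `j̄^q` at every coordinate. -/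
theorem emb_g1 (hq : q.Prime) (hA : A.LiesOverPrime q) (i : Coord q) :
    ∃ hc : F.emb i (g1 M q) ∈ Ocal A, red A ⟨_, hc⟩ = jk A ^ q := by
  cases i with
  | inf => exact exists_red_congr A (by rw [Frame.emb_inf, coe_g1]) (exists_red_E A hq hA)
  | zero => exact exists_red_congr A (by rw [Frame.emb_zero, w_g1, coe_g1]) (exists_red_E A hq hA)
  | mid ξ => exact exists_red_congr A (by rw [Frame.emb_mid, r_g1]) (exists_red_E A hq hA)

/-- The expansions of `j_{q²}`: integral, with reductions `j̄^(q²)`, `j̄`, `j̄` at `∞`, `0`,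
`mid`. -/
theorem emb_g2 (hq : q.Prime) (hA : A.LiesOverPrime q) (i : Coord q) :
    ∃ hc : F.emb i (g2 M q) ∈ Ocal A, red A ⟨_, hc⟩ = jk A ^ e2 q i := by
  cases i with
  | inf => exact exists_red_congr A (by rw [Frame.emb_inf, coe_g2]) (exists_red_EE A hq hA)
  | zero => exact exists_red_congr A (by rw [Frame.emb_zero, w_g2, coe_g0]) (exists_red_J A)
  | mid ξ => exact exists_red_congr A (by rw [Frame.emb_mid, r_g2]) (exists_red_S A hq hA ξ)

/-- The expansions of `j · j_q · j_{q²}`: integral, with reduction `j̄ ^ eCoord q i`. -/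
theorem emb_prod (hq : q.Prime) (hA : A.LiesOverPrime q) (i : Coord q) :
    ∃ hc : F.emb i (g0 M q * g1 M q * g2 M q) ∈ Ocal A, red A ⟨_, hc⟩ = jk A ^ eCoord q i := by
  obtain ⟨h0, r0⟩ := emb_g0 A F hq hA i
  obtain ⟨h1, r1⟩ := emb_g1 A F hq hA i
  obtain ⟨h2, r2⟩ := emb_g2 A F hq hA i
  obtain ⟨hc, hr⟩ := exists_red_mul3 A h0 h1 h2
  refine exists_red_congr A (by rw [map_mul, map_mul]) ⟨hc, ?_⟩
  rw [hr, r0, r1, r2, ← pow_add, ← pow_add, e0_add_e2]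

end Table

/-! ### `j`, `j_q`, `j_{q²}` and `φ` in `O` -/

section Setup

variable {M q : ℕ} [NeZero M] [NeZero q] {h : Nat.Coprime M q} (A : ValuationSubring Kbar)
  {F : Frame M q h} {O : Subring Om} {ρ : O →+* Rq A q}

/-- An element of `F_{Mq²}` all of whose expansions are integral with nonzero reductions `s i`
lies in `O`, is a unit of `O`, and `ρ` takes the values `s i`. -/
theorem mem_O_of_emb (hS : IsSetup A F O ρ) (x : FN (M * q * q)) (s : Coord q → Omk A)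
    (hx : ∀ i, ∃ hc : F.emb i x ∈ Ocal A, red A ⟨_, hc⟩ = s i) :
    ∃ hxO : (x : Om) ∈ O, ∀ i, ρ ⟨_, hxO⟩ i = s i := by
  have hxO : (x : Om) ∈ O := (hS.mem_iff x).2 fun i => (hx i).1
  refine ⟨hxO, fun i => ?_⟩
  obtain ⟨hc, hr⟩ := hx i
  rw [hS.ρ_apply x hxO i hc, hr]

/-- The inverse of an element of `F_{Mq²}` all of whose expansions are integral with nonzero
reductions lies in `O`. -/
theorem inv_mem_O_of_emb (hS : IsSetup A F O ρ) (x : FN (M * q * q)) (s : Coord q → Omk A)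
    (hs : ∀ i, s i ≠ 0) (hx : ∀ i, ∃ hc : F.emb i x ∈ Ocal A, red A ⟨_, hc⟩ = s i) :
    ((x : Om))⁻¹ ∈ O := by
  have e : ((x⁻¹ : FN (M * q * q)) : Om) = ((x : Om))⁻¹ := rfl
  rw [← e]
  refine (hS.mem_iff x⁻¹).2 fun i => ?_
  obtain ⟨hc, hr⟩ := hx i
  rw [map_inv₀]
  exact inv_mem_Ocal A ⟨_, hc⟩ (by rw [hr]; exact hs i)

theorem jk_pow_ne_zero (n : ℕ) : jk A ^ n ≠ 0 :=
  pow_ne_zero n (Main.jqModC_ne_zero' (kk A))

variable (M) in
/-- `j ∈ O`, with `ρ(j) = (j̄, j̄^(q²), j̄)`. -/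
theorem mem_O_g0 (hq : q.Prime) (hA : A.LiesOverPrime q) (hS : IsSetup A F O ρ) :
    ∃ hxO : ((g0 M q : FN (M * q * q)) : Om) ∈ O, ∀ i, ρ ⟨_, hxO⟩ i = jk A ^ e0 q i :=
  mem_O_of_emb A hS _ _ (emb_g0 A F hq hA)

variable (M) in
/-- `j_q ∈ O`, with `ρ(j_q) = (j̄^q, j̄^q, j̄^q)`. -/
theorem mem_O_g1 (hq : q.Prime) (hA : A.LiesOverPrime q) (hS : IsSetup A F O ρ) :
    ∃ hxO : ((g1 M q : FN (M * q * q)) : Om) ∈ O, ∀ i, ρ ⟨_, hxO⟩ i = jk A ^ q :=
  mem_O_of_emb A hS _ _ (emb_g1 A F hq hA)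

variable (M) in
/-- `j_{q²} ∈ O`, with `ρ(j_{q²}) = (j̄^(q²), j̄, j̄)`. -/
theorem mem_O_g2 (hq : q.Prime) (hA : A.LiesOverPrime q) (hS : IsSetup A F O ρ) :
    ∃ hxO : ((g2 M q : FN (M * q * q)) : Om) ∈ O, ∀ i, ρ ⟨_, hxO⟩ i = jk A ^ e2 q i :=
  mem_O_of_emb A hS _ _ (emb_g2 A F hq hA)

/-- `φ = j · j_q · j_{q²}` of `F_N` (`q² ∣ N`) is the product `g0 · g1 · g2` of `F_{Mq²}` inside
`Q̄((T))`. -/
theorem coe_phiQ2 (M : ℕ) [NeZero M] (N : ℕ) [NeZero N] (hq' : q ∣ N) (hqq : q * q ∣ N) :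
    ((phiQ2 N q hq' hqq : FN N) : Om) = ((g0 M q * g1 M q * g2 M q : FN (M * q * q)) : Om) := by
  have e2' : qExpand Kbar (q * q) jK = qExpand Kbar q (qExpand Kbar q jK) := by
    rw [← Fermat.Agent.S28.expand_eq_qExpand, ← Fermat.Agent.S28.expand_eq_qExpand,
      Fermat.Agent.S28.expand_expand (NeZero.ne q) (NeZero.ne q)]
  show ((jBar N : FN N) : Om) * ((jBarLevel N q hq' : FN N) : Om) *
      ((jBarLevel N (q * q) hqq : FN N) : Om) =
    ((g0 M q : FN (M * q * q)) : Om) * ((g1 M q : FN (M * q * q)) : Om) *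
      ((g2 M q : FN (M * q * q)) : Om)
  rw [Main.coe_jBar, InclInst.coe_jBarLevel_eq, InclInst.coe_jBarLevel_eq, coe_g0, coe_g1,
    coe_g2, e2']

/-- **[PHI]** `φ = j · j_q · j_{q²}` is a unit of `O` with `ρ(φ)_i = j̄ ^ eCoord q i`. -/
theorem phiStmt (hq : q.Prime) (hA : A.LiesOverPrime q) (N : ℕ) [NeZero N] (hq' : q ∣ N)
    (hqq : q * q ∣ N) (hS : IsSetup A F O ρ) : PhiStmt A N q hq' hqq O ρ := by
  have hcoe := coe_phiQ2 (q := q) M N hq' hqq
  obtain ⟨hxO, hρ⟩ := mem_O_of_emb A hS (g0 M q * g1 M q * g2 M q) (fun i => jk A ^ eCoord q i)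
    (emb_prod A F hq hA)
  have hinv := inv_mem_O_of_emb A hS (g0 M q * g1 M q * g2 M q) (fun i => jk A ^ eCoord q i)
    (fun i => jk_pow_ne_zero A _) (emb_prod A F hq hA)
  have hφO : ((phiQ2 N q hq' hqq : FN N) : Om) ∈ O := by rw [hcoe]; exact hxO
  refine ⟨hφO, by rw [hcoe]; exact hinv, fun i => ?_⟩
  have e : (⟨((phiQ2 N q hq' hqq : FN N) : Om), hφO⟩ : O) =
      ⟨((g0 M q * g1 M q * g2 M q : FN (M * q * q)) : Om), hxO⟩ := Subtype.ext hcoe
  rw [e]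
  exact hρ i

/-! ### The same in terms of the series `j`, `j(T^q)`, `j(T^{q²})` of `Q̄((T))` -/

omit [NeZero M] [NeZero q] in
/-- Transport of "`x ∈ O` with `ρ x = s`" along an equality in `Q̄((T))`. -/
theorem exists_rho_congr {x y : Om} (e : x = y) {s : Coord q → Omk A}
    (hy : ∃ hO : y ∈ O, ∀ i, ρ ⟨_, hO⟩ i = s i) : ∃ hO : x ∈ O, ∀ i, ρ ⟨_, hO⟩ i = s i := by
  subst e
  exact hy

include F in
/-- `j ∈ O`, with `ρ(j) = (j̄, j̄^(q²), j̄)` at `(∞, 0, mid)`. -/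
theorem rho_j (hq : q.Prime) (hA : A.LiesOverPrime q) (hS : IsSetup A F O ρ) :
    ∃ hO : (jK : Om) ∈ O, ∀ i, ρ ⟨_, hO⟩ i = jk A ^ e0 q i :=
  exists_rho_congr A (coe_g0 M q).symm (mem_O_g0 M A hq hA hS)

include F in
/-- `j_q = j(T^q) ∈ O`, with `ρ(j_q) = (j̄^q, j̄^q, j̄^q)`. -/
theorem rho_jq (hq : q.Prime) (hA : A.LiesOverPrime q) (hS : IsSetup A F O ρ) :
    ∃ hO : (qExpand Kbar q jK : Om) ∈ O, ∀ i, ρ ⟨_, hO⟩ i = jk A ^ q :=
  exists_rho_congr A (coe_g1 M q).symm (mem_O_g1 M A hq hA hS)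

omit [NeZero M] in
/-- `j(T^{q·q}) = (j(T^q))(T^q)`. -/
theorem qExpand_mul_self : qExpand Kbar (q * q) jK = qExpand Kbar q (qExpand Kbar q jK) := by
  rw [← Fermat.Agent.S28.expand_eq_qExpand, ← Fermat.Agent.S28.expand_eq_qExpand,
    Fermat.Agent.S28.expand_expand (NeZero.ne q) (NeZero.ne q)]

include F in
/-- `j_{q²} = j(T^{q²}) ∈ O`, with `ρ(j_{q²}) = (j̄^(q²), j̄, j̄)` at `(∞, 0, mid)`. -/
theorem rho_jqq (hq : q.Prime) (hA : A.LiesOverPrime q) (hS : IsSetup A F O ρ) :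
    ∃ hO : (qExpand Kbar (q * q) jK : Om) ∈ O, ∀ i, ρ ⟨_, hO⟩ i = jk A ^ e2 q i :=
  exists_rho_congr A (qExpand_mul_self.trans (coe_g2 M q).symm) (mem_O_g2 M A hq hA hS)

include F in
/-- `j⁻¹ ∈ O`. -/
theorem inv_j_mem (hq : q.Prime) (hA : A.LiesOverPrime q) (hS : IsSetup A F O ρ) :
    ((jK : Om))⁻¹ ∈ O := by
  rw [← coe_g0 M q]
  exact inv_mem_O_of_emb A hS (g0 M q) _ (fun i => jk_pow_ne_zero A _) (emb_g0 A F hq hA)

include F in
/-- `j_q⁻¹ ∈ O`. -/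
theorem inv_jq_mem (hq : q.Prime) (hA : A.LiesOverPrime q) (hS : IsSetup A F O ρ) :
    ((qExpand Kbar q jK : Om))⁻¹ ∈ O := by
  rw [← coe_g1 M q]
  exact inv_mem_O_of_emb A hS (g1 M q) _ (fun i => jk_pow_ne_zero A _) (emb_g1 A F hq hA)

include F in
/-- `j_{q²}⁻¹ ∈ O`. -/
theorem inv_jqq_mem (hq : q.Prime) (hA : A.LiesOverPrime q) (hS : IsSetup A F O ρ) :
    ((qExpand Kbar (q * q) jK : Om))⁻¹ ∈ O := by
  rw [qExpand_mul_self, ← coe_g2 M q]
  exact inv_mem_O_of_emb A hS (g2 M q) _ (fun i => jk_pow_ne_zero A _) (emb_g2 A F hq hA)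

omit [NeZero q] in
@[simp] theorem e0_inf : e0 q .inf = 1 := rfl
omit [NeZero q] in
@[simp] theorem e0_zero : e0 q .zero = q * q := rfl
omit [NeZero q] in
@[simp] theorem e0_mid (ξ : MidIdx q) : e0 q (.mid ξ) = 1 := rfl
omit [NeZero q] in
@[simp] theorem e2_inf : e2 q .inf = q * q := rfl
omit [NeZero q] in
@[simp] theorem e2_zero : e2 q .zero = 1 := rfl
omit [NeZero q] in
@[simp] theorem e2_mid (ξ : MidIdx q) : e2 q (.mid ξ) = 1 := rfl

end Setup

end Fermat.Agent.S36.PhiQ2
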