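import Mathlib
import Fermat.Agent.S36.PlanAll
import Fermat.Agent.S36.LiftOneStmt
import Fermat.Agent.S36.SetupQ2
import Fermat.Agent.S36.PhiDiv
import Fermat.Agent.S36.PhiQ2

/-!
# S36 / P8 — [LIFT-ALL], hypothesis form (helper77)

`Plan.LiftAllStmt` (the second of the two inputs of `S36/Assemble.b2Stmt_of_all`) from the four
frame contracts that are not yet instantiated, each at all levels (the binders of
`Plan.LiftAllStmt`):

* `DimAllStmt`     : **[DIM]**  `Plan.DimStmt A M q O ρ`;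
* `InclAllStmt`    : **[INCL]** `Plan.InclStmt A (N' * q) M q _ _ O ρ`;
* `CuspRegAllStmt` : **[CR]**   `Plan.CuspRegStmt A (N' * q) M q _ _ O ρ`;
* `ConnAllStmt`    : **[CONN]** `Plan.ConnStmt A (N' * q) M q _ _ O ρ`.

Discharged inside: [RED] + [INV] (`SetupQ2.redStmt`, `SetupQ2.invStmt`), [PHI-DIV]
(`PhiDiv.phiDivStmt_spine`), [PHI] (`PhiQ2.phiStmt`), Riemann's inequality
(`LiftOneStmt.liftOneStmt`), the arithmetic of the levels.
-/

set_option autoImplicit false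

noncomputable section

namespace Fermat.Agent.S36.LiftAllOf

open ModularCurve AlgebraicCurve Fermat.Agent.S24 Fermat.Agent.S18 Fermat.Agent.S18.Content
  Fermat.Agent.S18.Plan Fermat.Agent.S34 Fermat.Agent.S36.Plan

/-- **[DIM] at all levels.** -/
def DimAllStmt : Prop :=
  ∀ (N₀ N' M q : ℕ) [NeZero N'] [NeZero M] [NeZero q] (_ : q ∣ N') (h : Nat.Coprime M q),
    q.Prime → Nat.Coprime N₀ q → N' = N₀ * q → M = S34.Plan.aux q * N₀ →
    ∀ A : ValuationSubring Kbar, A.LiesOverPrime q →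
    ∀ (F : Frame M q h) (O : Subring Om) (ρ : O →+* Rq A q), IsSetup A F O ρ →
      DimStmt A M q O ρ

/-- **[INCL] at all levels.** -/
def InclAllStmt : Prop :=
  ∀ (N₀ N' M q : ℕ) [NeZero N'] [NeZero M] [NeZero q] (hq' : q ∣ N') (h : Nat.Coprime M q),
    q.Prime → Nat.Coprime N₀ q → N' = N₀ * q → M = S34.Plan.aux q * N₀ →
    ∀ A : ValuationSubring Kbar, A.LiesOverPrime q →
    ∀ (F : Frame M q h) (O : Subring Om) (ρ : O →+* Rq A q), IsSetup A F O ρ →
      InclStmt A (N' * q) M q (Dvd.intro_left N' rfl) (Nat.mul_dvd_mul_right hq' q) O ρ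

/-- **[CR] at all levels.** -/
def CuspRegAllStmt : Prop :=
  ∀ (N₀ N' M q : ℕ) [NeZero N'] [NeZero M] [NeZero q] (hq' : q ∣ N') (h : Nat.Coprime M q),
    q.Prime → Nat.Coprime N₀ q → N' = N₀ * q → M = S34.Plan.aux q * N₀ →
    ∀ A : ValuationSubring Kbar, A.LiesOverPrime q →
    ∀ (F : Frame M q h) (O : Subring Om) (ρ : O →+* Rq A q), IsSetup A F O ρ →
      CuspRegStmt A (N' * q) M q (Dvd.intro_left N' rfl) (Nat.mul_dvd_mul_right hq' q) O ρ

/-- **[CONN] at all levels.** -/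
def ConnAllStmt : Prop :=
  ∀ (N₀ N' M q : ℕ) [NeZero N'] [NeZero M] [NeZero q] (hq' : q ∣ N') (h : Nat.Coprime M q),
    q.Prime → Nat.Coprime N₀ q → N' = N₀ * q → M = S34.Plan.aux q * N₀ →
    ∀ A : ValuationSubring Kbar, A.LiesOverPrime q →
    ∀ (F : Frame M q h) (O : Subring Om) (ρ : O →+* Rq A q), IsSetup A F O ρ →
      ConnStmt A (N' * q) M q (Dvd.intro_left N' rfl) (Nat.mul_dvd_mul_right hq' q) O ρ

/-- The divisor level divides the top level. -/
theorem level_dvd {N₀ N' M q : ℕ} (hN' : N' = N₀ * q) (hM : M = S34.Plan.aux q * N₀) :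
    N' * q ∣ M * q * q :=
  ⟨S34.Plan.aux q, by rw [hN', hM]; ring⟩

/-- The top level is divisible by `4` or by `9`. -/
theorem level_four_or_nine {N₀ M q : ℕ} (hM : M = S34.Plan.aux q * N₀) :
    4 ∣ M * q * q ∨ 9 ∣ M * q * q := by
  by_cases h2 : q = 2
  · right
    refine ⟨N₀ * q * q, ?_⟩
    rw [hM, S34.Plan.aux, if_pos h2]
    ring
  · left
    refine ⟨N₀ * q * q, ?_⟩
    rw [hM, S34.Plan.aux, if_neg h2]
    ring

/-- **[LIFT-ALL]**, hypothesis form: `Plan.LiftAllStmt` from [DIM], [INCL], [CR], [CONN] at all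
levels. -/
theorem liftAllStmt_of (hDim : DimAllStmt) (hIncl : InclAllStmt) (hCR : CuspRegAllStmt)
    (hConn : ConnAllStmt) : LiftAllStmt := by
  intro N₀ N' M q _ _ _ hq' h hqp hcop hN' hM A hA F O ρ hS
  exact LiftOneStmt.liftOneStmt hA hqp (level_dvd hN' hM) (level_four_or_nine hM)
    (SetupQ2.redStmt hS)
    (hDim N₀ N' M q hq' h hqp hcop hN' hM A hA F O ρ hS)
    (PhiDiv.phiDivStmt_spine hcop hN' hq')
    (PhiQ2.phiStmt A hqp hA (N' * q) (Dvd.intro_left N' rfl) (Nat.mul_dvd_mul_right hq' q) hS)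
    (hIncl N₀ N' M q hq' h hqp hcop hN' hM A hA F O ρ hS)
    (hCR N₀ N' M q hq' h hqp hcop hN' hM A hA F O ρ hS)
    (hConn N₀ N' M q hq' h hqp hcop hN' hM A hA F O ρ hS)
    (SetupQ2.invStmt hS)

end Fermat.Agent.S36.LiftAllOf

end
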