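import Mathlib
import Fermat.Agent.S36.CuspRegQ2Inst
import Fermat.Agent.S36.LiftAllOf

/-!
# S36 (P8) — [CR] at all levels, hypothesis form (helper86)

`LiftAllOf.CuspRegAllStmt` (the `[CR]` input of `LiftAllOf.liftAllStmt_of`) from `[DIM]`, `[INCL]`
at all levels and the three families of cusp regularity at all levels:

* `FamAllStmt` : for every level datum of `Plan.LiftAllStmt`, every place `A` over `q`, every frame
  and every setup `(O, ρ)`, there are an injective node function `t : MidIdx q → k` and, for every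
  `E` with `Plan.IsE3`, the three families of `S36/CuspFam` (`fam_inf`, `fam_zero`, `fam_mid` with
  `Θ = θ j̄`), verbatim;
* `cuspRegAllStmt_of : DimAllStmt → InclAllStmt → FamAllStmt → CuspRegAllStmt`.

Inside: `CuspRegQ2Inst.cuspRegStmt_levels` and `SetupQ2.redStmt`.
-/

set_option autoImplicit false

noncomputable section

namespace Fermat.Agent.S36.CuspRegAll

open ModularCurve AlgebraicCurve Fermat.Agent.S24 Fermat.Agent.S18 Fermat.Agent.S18.Content
  Fermat.Agent.S18.Plan Fermat.Agent.S34 Fermat.Agent.S36.Plan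

/-- The three families of cusp regularity for one setup, with the node function `t` and
`Θ = θ j̄` (the conclusions of `CuspFam.fam_inf`, `fam_zero`, `fam_mid`, for every `E`). -/
def FamStmt (A : ValuationSubring Kbar) (N M q : ℕ) [NeZero N] [NeZero M] [NeZero q]
    (hq : q ∣ N) (hqq : q * q ∣ N) (O : Subring Om) (ρ : O →+* Rq A q) : Prop :=
  ∃ t : MidIdx q → kk A, Function.Injective t ∧
    (∀ E : Divisor Kbar (FN N), IsE3 N q hq hqq E →
      ∃ c₁ : ℕ, ∀ c : ℕ, c₁ ≤ c → ∀ a : Omk A, a ∈ WJ (kk A) (Fk A M) (c - q ^ 2) →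
        ∃ F : O, (F : Om) ∈ pullRR N (M * q * q) (c • E) ∧
          ρ F .inf = (jk A - jk A ^ (q ^ 4)) * (jk A - jk A ^ (q ^ 2))
            * jk A ^ (q * c + q ^ 2 * (c - q ^ 2)) * a ∧
          ρ F .zero = 0 ∧ ∀ ξ, ρ F (.mid ξ) = 0) ∧
    (∀ E : Divisor Kbar (FN N), IsE3 N q hq hqq E →
      ∃ c₁ : ℕ, ∀ c : ℕ, c₁ ≤ c → ∀ a : Omk A, a ∈ WJ (kk A) (Fk A M) (c - q ^ 2) →
        ∃ F : O, (F : Om) ∈ pullRR N (M * q * q) (c • E) ∧
          ρ F .inf = 0 ∧
          ρ F .zero = (jk A - jk A ^ (q ^ 4)) * (jk A - jk A ^ (q ^ 2))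
            * jk A ^ (q * c + q ^ 2 * (c - q ^ 2)) * a ∧
          ∀ ξ, ρ F (.mid ξ) = 0) ∧
    (∀ E : Divisor Kbar (FN N), IsE3 N q hq hqq E →
      ∃ c₁ : ℕ, ∀ c : ℕ, c₁ ≤ c → ∀ m : ℕ, m ≤ q - 2 → ∀ a : Omk A,
        a ∈ WJ (kk A) (Fk A M) (c - q ^ 2 - q) →
        ∃ F : O, (F : Om) ∈ pullRR N (M * q * q) (c • E) ∧ ρ F .inf = 0 ∧ ρ F .zero = 0 ∧
          ∀ ξ, ρ F (.mid ξ)
            = (HahnSeries.C (t ξ) * Fermat.Agent.S28.theta (kk A) (jqModC (kk A))) ^ m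
              * ((jk A - jk A ^ (q ^ 2)) ^ 2 * jk A ^ (q * (c + 1) + (c - q ^ 2 - m)) * a))

/-- **The families at all levels** (binders of `Plan.LiftAllStmt`). -/
def FamAllStmt : Prop :=
  ∀ (N₀ N' M q : ℕ) [NeZero N'] [NeZero M] [NeZero q] (hq' : q ∣ N') (h : Nat.Coprime M q),
    q.Prime → Nat.Coprime N₀ q → N' = N₀ * q → M = S34.Plan.aux q * N₀ →
    ∀ A : ValuationSubring Kbar, A.LiesOverPrime q →
    ∀ (F : Frame M q h) (O : Subring Om) (ρ : O →+* Rq A q), IsSetup A F O ρ →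
      FamStmt A (N' * q) M q (Dvd.intro_left N' rfl) (Nat.mul_dvd_mul_right hq' q) O ρ

/-- **[CR]** for one setup at the level datum of `Plan.LiftAllStmt`, from `[RED]`, `[DIM]`,
`[INCL]` and the families. -/
theorem cuspRegStmt_of_fam {A : ValuationSubring Kbar} {N₀ N' M q : ℕ} [NeZero N'] [NeZero M]
    [NeZero q] (hq' : q ∣ N') (hqp : q.Prime) (hcop : Nat.Coprime N₀ q) (hN' : N' = N₀ * q)
    (hM : M = S34.Plan.aux q * N₀) (hA : A.LiesOverPrime q)
    {O : Subring Om} {ρ : O →+* Rq A q}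
    (hRed : RedStmt A q O ρ) (hDim : DimStmt A M q O ρ)
    (hIncl : InclStmt A (N' * q) M q (Dvd.intro_left N' rfl) (Nat.mul_dvd_mul_right hq' q) O ρ)
    (hFam : FamStmt A (N' * q) M q (Dvd.intro_left N' rfl) (Nat.mul_dvd_mul_right hq' q) O ρ) :
    CuspRegStmt A (N' * q) M q (Dvd.intro_left N' rfl) (Nat.mul_dvd_mul_right hq' q) O ρ := by
  obtain ⟨t, ht, hI, h0, hm⟩ := hFam
  exact CuspRegQ2Inst.cuspRegStmt_levels hq' hqp hcop hN' hM hA hRed hDim hIncl t ht hI h0 hm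

/-- **[CR] at all levels**, hypothesis form. -/
theorem cuspRegAllStmt_of (hDim : LiftAllOf.DimAllStmt) (hIncl : LiftAllOf.InclAllStmt)
    (hFam : FamAllStmt) : LiftAllOf.CuspRegAllStmt := by
  intro N₀ N' M q _ _ _ hq' h hqp hcop hN' hM A hA F O ρ hS
  exact cuspRegStmt_of_fam hq' hqp hcop hN' hM hA (SetupQ2.redStmt hS)
    (hDim N₀ N' M q hq' h hqp hcop hN' hM A hA F O ρ hS)
    (hIncl N₀ N' M q hq' h hqp hcop hN' hM A hA F O ρ hS)
    (hFam N₀ N' M q hq' h hqp hcop hN' hM A hA F O ρ hS)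

end Fermat.Agent.S36.CuspRegAll

end
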