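import Mathlib
import Fermat.Agent.S36.CuspFam
import Fermat.Agent.S36.CuspLift
import Fermat.Agent.S36.PhiQ2
import Fermat.Agent.S36.PoleChain
import Fermat.Agent.S36.RiemannE3Plan
import Fermat.Agent.S36.CuspRegAll

/-!
# S36 (P8) — [CR-FAM-INST]: the families of cusp regularity on the Plan frame (helper86)

The instance plumbing between `S36/CuspFam` (helper60: `fam_inf`, `fam_zero`, `fam_mid` in
hypothesis form) and `CuspRegAll.FamStmt` (the input of `[CR]`):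

* `ZWStmt A q O ρ` : the statement of `(ZW)` — an injective node function `t : MidIdx q → k` and,
  for `m ≤ q - 2`, an element `y = κ · z_M · (j - j_{q²})^m ∈ O` with
  `ρ y = (0; 0; ((t_ξ θ j̄)^m (j̄ - j̄^(q²))²)_ξ)`;
* `exists_poleData` : `CuspFam.PoleData` from `Plan.IsE3` (`PoleChain.ord_chain`);
* `famStmt_of_ZW`   : `ZWStmt → CuspRegAll.FamStmt` on any frame / setup, any divisor level `N`
  with `q * q ∣ N ∣ M * q * q`, `4 ∣ M ∨ 9 ∣ M`;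
* `famAllStmt_of_ZW` : `ZWAllStmt → CuspRegAll.FamAllStmt`.

Inputs: `PhiQ2.rho_j/rho_jq/rho_jqq` (helper59), `CuspLift.lift_alpha'/lift_beta'` (helper60),
`PoleChain.exists_poleJq/exists_poleJqq/ord_chain` (helper76), `Char0.exists_poleDivisor_jBar`.
-/

set_option autoImplicit false

noncomputable section

namespace Fermat.Agent.S36.CuspFamInst

open ModularCurve AlgebraicCurve Fermat.Agent.S24 Fermat.Agent.S18.Content Fermat.Agent.S18.Plan
  Fermat.Agent.S18 Fermat.Agent.S34 Fermat.Agent.S36.Plan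

/-- **(ZW)**: the node function and the elements `y_m = κ · z_M · (j - j_{q²})^m` of `O` with
reduction concentrated in the middle coordinates. -/
def ZWStmt (A : ValuationSubring Kbar) (q : ℕ) [NeZero q] (O : Subring Om)
    (ρ : O →+* Rq A q) : Prop :=
  ∃ t : MidIdx q → kk A, Function.Injective t ∧ ∀ m : ℕ, m ≤ q - 2 → ∃ (y : O) (κ : Kbar),
    (y : Om) = HahnSeries.C κ * ((qExpand Kbar (q * q) jK - (jK : Om) ^ (q * q))
      * ((jK : Om) - qExpand Kbar (q * q) jK ^ (q * q))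
      * ((jK : Om) - qExpand Kbar (q * q) jK) ^ m) ∧
    ρ y .inf = 0 ∧ ρ y .zero = 0 ∧
    ∀ ξ, ρ y (.mid ξ)
      = (HahnSeries.C (t ξ) * Fermat.Agent.S28.theta (kk A) (jqModC (kk A))) ^ m
        * (jk A - jk A ^ (q ^ 2)) ^ 2

/-- **(ZW) at all levels** (binders of `Plan.LiftAllStmt`). -/
def ZWAllStmt : Prop :=
  ∀ (N₀ N' M q : ℕ) [NeZero N'] [NeZero M] [NeZero q] (_ : q ∣ N') (h : Nat.Coprime M q),
    q.Prime → Nat.Coprime N₀ q → N' = N₀ * q → M = S34.Plan.aux q * N₀ →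
    ∀ A : ValuationSubring Kbar, A.LiesOverPrime q →
    ∀ (F : Frame M q h) (O : Subring Om) (ρ : O →+* Rq A q), IsSetup A F O ρ →
      ZWStmt A q O ρ

/-- `max 0 (-b) ≤ q · max 0 (-a)` from `q · min 0 a ≤ b`. -/
theorem max_le_of_chain {q : ℕ} {a b : ℤ} (h : (q : ℤ) * min 0 a ≤ b) :
    max 0 (-b) ≤ (q : ℤ) * max 0 (-a) := by
  have h1 : max 0 (-a) = -(min 0 a) := by
    rcases le_total 0 a with h0 | h0
    · rw [min_eq_left h0, max_eq_left (by omega)]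
      simp
    · rw [min_eq_right h0, max_eq_right (by omega)]
  rw [h1]
  have h3 : min 0 a ≤ 0 := min_le_left 0 a
  have h2 : (0 : ℤ) ≤ (q : ℤ) * -(min 0 a) :=
    mul_nonneg (by positivity) (by omega)
  refine max_le h2 ?_
  have e : (q : ℤ) * -(min 0 a) = -((q : ℤ) * min 0 a) := by ring
  rw [e]
  omega

variable {A : ValuationSubring Kbar} {M q : ℕ} [NeZero M] [NeZero q]
variable {O : Subring Om} {ρ : O →+* Rq A q}

/-- The pole data of `j`, `j_q`, `j_{q²}` on `F_N` for `E` with `Plan.IsE3`. -/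
theorem exists_poleData {N : ℕ} [NeZero N] (hqp : q.Prime) (hq : q ∣ N) (hqq : q * q ∣ N)
    (E : Divisor Kbar (FN N)) (hE : IsE3 N q hq hqq E) :
    ∃ Cj Cq Cqq : Divisor Kbar (FN N), CuspFam.PoleData N q hq hqq E Cj Cq Cqq := by
  obtain ⟨Cj, hCj, -⟩ := Char0.exists_poleDivisor_jBar N
  have hqq2 : q ^ 2 ∣ N := RiemannE3Plan.sq_dvd N q hqq
  obtain ⟨Cq, hCq⟩ := PoleChain.exists_poleJq N q hq hqq2 hqp
  obtain ⟨Cqq, hCqq⟩ := PoleChain.exists_poleJqq N q hq hqq2 hqp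
  have hCqq' : ∀ P : Place Kbar (FN N),
      Cqq P = max 0 (-(P.ord (jBarLevel N (q * q) hqq))) := by
    intro P
    rw [hCqq P, RiemannE3Plan.jBarLevel_sq N q hqq]
  have hch : ∀ P : Place Kbar (FN N),
      (q : ℤ) * min 0 (P.ord (jBar N)) ≤ P.ord (jBarLevel N q hq) ∧
      (q : ℤ) * min 0 (P.ord (jBarLevel N q hq)) ≤ P.ord (jBar N) ∧
      (q : ℤ) * min 0 (P.ord (jBarLevel N q hq)) ≤ P.ord (jBarLevel N (q * q) hqq) ∧
      (q : ℤ) * min 0 (P.ord (jBarLevel N (q * q) hqq)) ≤ P.ord (jBarLevel N q hq) := by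
    intro P
    have h := PoleChain.ord_chain N q hq hqq2 hqp P
    rw [RiemannE3Plan.jBarLevel_sq N q hqq] at h
    exact h
  refine ⟨Cj, Cq, Cqq, hE, hCj, hCq, hCqq', fun P => ?_, fun P => ?_, fun P => ?_, fun P => ?_⟩
  · rw [hCq P, hCj P]
    exact max_le_of_chain (hch P).1
  · rw [hCq P, hCj P]
    exact max_le_of_chain (hch P).2.1
  · rw [hCq P, hCqq' P]
    exact max_le_of_chain (hch P).2.2.2
  · rw [hCq P, hCqq' P]
    exact max_le_of_chain (hch P).2.2.1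

/-- **[CR-FAM-INST]** the three families on the Plan frame, from `(ZW)`. -/
theorem famStmt_of_ZW {h : Nat.Coprime M q} {F : Frame M q h} (hS : IsSetup A F O ρ)
    (hqp : q.Prime) (hA : A.LiesOverPrime q) (hTF : 4 ∣ M ∨ 9 ∣ M)
    {N : ℕ} [NeZero N] (hq : q ∣ N) (hqq : q * q ∣ N) (hN : N ∣ M * q * q)
    (hZW : ZWStmt A q O ρ) : CuspRegAll.FamStmt A N M q hq hqq O ρ := by
  obtain ⟨t, ht, hZ⟩ := hZW
  have hρj : ∃ h : (jK : Om) ∈ O, ρ ⟨_, h⟩ .inf = jk A ∧ ρ ⟨_, h⟩ .zero = jk A ^ (q ^ 2) ∧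
      ∀ ξ, ρ ⟨_, h⟩ (.mid ξ) = jk A := by
    obtain ⟨hO, hr⟩ := PhiQ2.rho_j A hqp hA hS
    refine ⟨hO, ?_, ?_, fun ξ => ?_⟩
    · rw [hr .inf, PhiQ2.e0_inf, pow_one]
    · rw [hr .zero, PhiQ2.e0_zero, sq]
    · rw [hr (.mid ξ), PhiQ2.e0_mid, pow_one]
  have hρjq : ∃ h : (qExpand Kbar q jK : Om) ∈ O, ∀ i, ρ ⟨_, h⟩ i = jk A ^ q :=
    PhiQ2.rho_jq A hqp hA hS
  have hρj2 : ∃ h : (qExpand Kbar (q * q) jK : Om) ∈ O, ρ ⟨_, h⟩ .inf = jk A ^ (q ^ 2) ∧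
      ρ ⟨_, h⟩ .zero = jk A ∧ ∀ ξ, ρ ⟨_, h⟩ (.mid ξ) = jk A := by
    obtain ⟨hO, hr⟩ := PhiQ2.rho_jqq A hqp hA hS
    refine ⟨hO, ?_, ?_, fun ξ => ?_⟩
    · rw [hr .inf, PhiQ2.e2_inf, sq]
    · rw [hr .zero, PhiQ2.e2_zero, pow_one]
    · rw [hr (.mid ξ), PhiQ2.e2_mid, pow_one]
  refine ⟨t, ht, fun E hE => ?_, fun E hE => ?_, fun E hE => ?_⟩
  · obtain ⟨Cj, Cq, Cqq, hD⟩ := exists_poleData hqp hq hqq E hE
    exact CuspFam.fam_inf hN hD hρj hρjq hρj2 (CuspLift.lift_alpha' hS hqp hTF hA hN hD.isJ)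
  · obtain ⟨Cj, Cq, Cqq, hD⟩ := exists_poleData hqp hq hqq E hE
    exact CuspFam.fam_zero hN hD hρj hρjq hρj2 (CuspLift.lift_beta' hS hqp hTF hA hqq hD.isJqq)
  · obtain ⟨Cj, Cq, Cqq, hD⟩ := exists_poleData hqp hq hqq E hE
    exact CuspFam.fam_mid hN hD hρjq hρj2 (CuspLift.lift_alpha' hS hqp hTF hA hN hD.isJ)
      (Fermat.Agent.S28.theta (kk A) (jqModC (kk A))) t hZ

/-- The good level is divisible by `4` or by `9`. -/
theorem four_or_nine_dvd {N₀ M q : ℕ} (hM : M = S34.Plan.aux q * N₀) : 4 ∣ M ∨ 9 ∣ M := by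
  by_cases h2 : q = 2
  · right
    refine ⟨N₀, ?_⟩
    rw [hM, S34.Plan.aux, if_pos h2]
  · left
    refine ⟨N₀, ?_⟩
    rw [hM, S34.Plan.aux, if_neg h2]

/-- **The families at all levels**, from `(ZW)` at all levels. -/
theorem famAllStmt_of_ZW (hZW : ZWAllStmt) : CuspRegAll.FamAllStmt := by
  intro N₀ N' M q _ _ _ hq' h hqp hcop hN' hM A hA F O ρ hS
  exact famStmt_of_ZW hS hqp hA (four_or_nine_dvd hM) (Dvd.intro_left N' rfl)
    (Nat.mul_dvd_mul_right hq' q) (LiftAllOf.level_dvd hN' hM)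
    (hZW N₀ N' M q hq' h hqp hcop hN' hM A hA F O ρ hS)

end Fermat.Agent.S36.CuspFamInst

end
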