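import Mathlib
import Fermat.Agent.Lib.KroneckerCong
import Fermat.Agent.S18.ContentBase

/-!
# S36 / P8 — [VAL-FAM(q²)] series facts (helper39)

Frame-independent facts on Laurent series used by the level-`q²` orthonormal family
(`S36/FamQ2`):

* `exists_qExpand_sub_pow`, `exists_qExpand_sq_sub_pow` : `f(T^p) - f^p` and
  `f(T^(p²)) - f^(p²)` are divisible by `p` in `ℤ((T))` (Frobenius congruence);
* `exists_iota_qExpand_sq_sub_pow` : the same over a field `K` with a valuation subring `A`, for
  series with integer coefficients: the quotient is `A`-integral;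
* `one_sub_pow_dvd_prime` : `(1 - ζ)^(q-1) ∣ q` for a primitive `q`-th root of unity `ζ`.
-/

set_option autoImplicit false

noncomputable section

namespace Fermat.Agent.S36.Q2Series

open ModularCurve Fermat.Agent.Lib.KroneckerCong Fermat.Agent.S18.Content

/-! ### Frobenius congruence on integral Laurent series -/

/-- A Laurent series all of whose coefficients are divisible by `c` is divisible by `C c`. -/
theorem exists_eq_C_mul_of_forall_dvd (c : ℤ) (d : LaurentSeries ℤ) (h : ∀ n, c ∣ d.coeff n) :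
    ∃ g : LaurentSeries ℤ, d = HahnSeries.C c * g := by
  refine ⟨⟨fun n => d.coeff n / c, d.isPWO_support.mono ?_⟩, ?_⟩
  · intro n hn
    simp only [Function.mem_support, ne_eq] at hn ⊢
    intro h0
    exact hn (by rw [h0, Int.zero_ediv])
  · ext n
    rw [coeff_C_mul]
    exact (Int.mul_ediv_cancel' (h n)).symm

section Frob

variable (p : ℕ) [NeZero p] [Fact p.Prime]

/-- `f(T^p) ≡ f^p mod p` in `ℤ((T))`. -/
theorem exists_qExpand_sub_pow (f : LaurentSeries ℤ) :
    ∃ g : LaurentSeries ℤ, qExpand ℤ p f - f ^ p = HahnSeries.C (p : ℤ) * g := by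
  apply exists_eq_C_mul_of_forall_dvd
  intro n
  have h0 : coeffMap (Int.castRingHom (ZMod p)) (qExpand ℤ p f - f ^ p) = 0 := by
    rw [map_sub, map_pow, coeffMap_comm_qExpand, pow_char_eq p, ZMod.frobenius_zmod, coeffMap_id,
      sub_self]
  have h1 := congrArg (fun x : LaurentSeries (ZMod p) => x.coeff n) h0
  simp only [coeffMap_coeff, HahnSeries.coeff_zero, eq_intCast] at h1
  exact (ZMod.intCast_zmod_eq_zero_iff_dvd _ p).mp h1

/-- `f(T^(p²)) ≡ f^(p²) mod p` in `ℤ((T))`. -/
theorem exists_qExpand_sq_sub_pow (f : LaurentSeries ℤ) :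
    ∃ g : LaurentSeries ℤ, qExpand ℤ (p * p) f - f ^ (p * p) = HahnSeries.C (p : ℤ) * g := by
  obtain ⟨g1, h1⟩ := exists_qExpand_sub_pow p f
  obtain ⟨g2, h2⟩ := exists_qExpand_sub_pow p (qExpand ℤ p f)
  obtain ⟨h3, hh3⟩ := sub_dvd_pow_sub_pow (qExpand ℤ p f) (f ^ p) p
  refine ⟨g2 + g1 * h3, ?_⟩
  rw [← qExpand_qExpand, pow_mul]
  rw [h1] at hh3
  linear_combination h2 + hh3

/-- Over a field `K` with a valuation subring `A`: for a series `f` with integer coefficients,
`f(T^(p²)) - f^(p²) = p · y` with `y` an `A`-integral series. -/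
theorem exists_iota_qExpand_sq_sub_pow {K : Type*} [Field K] (A : ValuationSubring K)
    (f : LaurentSeries ℤ) :
    ∃ g : LaurentSeries A,
      qExpand K (p * p) (coeffMap (Int.castRingHom K) f) - coeffMap (Int.castRingHom K) f ^ (p * p)
        = HahnSeries.C (p : K) * iota A g := by
  obtain ⟨g, hg⟩ := exists_qExpand_sq_sub_pow p f
  refine ⟨coeffMap (Int.castRingHom A) g, ?_⟩
  have h := congrArg (coeffMap (Int.castRingHom K)) hg
  rw [map_sub, map_pow, coeffMap_comm_qExpand, map_mul] at h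
  have e1 : coeffMap (Int.castRingHom K) (HahnSeries.C ((p : ℕ) : ℤ)) = HahnSeries.C (p : K) := by
    rw [HahnSeries.C_apply, coeffMap_single, HahnSeries.C_apply]
    simp
  have e2 : iota A (coeffMap (Int.castRingHom A) g) = coeffMap (Int.castRingHom K) g := by
    rw [iota, coeffMap_coeffMap]
    exact coeffMap_congr (RingHom.ext_int _ _) g
  rw [e1] at h
  rw [h, e2]

end Frob

/-! ### `(1 - ζ)^(q-1) ∣ q` -/

theorem one_sub_pow_dvd_prime {R : Type*} [CommRing R] [IsDomain R] (q : ℕ) [Fact q.Prime]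
    (ζ : R) (hζ : IsPrimitiveRoot ζ q) : (1 - ζ) ^ (q - 1) ∣ (q : R) := by
  have hq : q.Prime := Fact.out
  have : NeZero q := ⟨hq.ne_zero⟩
  have h1 : Polynomial.eval 1 (Polynomial.cyclotomic q R) = q :=
    Polynomial.eval_one_cyclotomic_prime
  rw [Polynomial.cyclotomic_eq_prod_X_sub_primitiveRoots hζ, Polynomial.eval_prod] at h1
  simp only [Polynomial.eval_sub, Polynomial.eval_X, Polynomial.eval_C] at h1
  rw [← h1]
  have hcard : (primitiveRoots q R).card = q - 1 := by
    rw [hζ.card_primitiveRoots, Nat.totient_prime hq]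
  rw [← hcard, ← Finset.prod_const]
  apply Finset.prod_dvd_prod_of_dvd
  intro μ hμ
  have hμ' := (mem_primitiveRoots hq.pos).mp hμ
  obtain ⟨i, -, rfl⟩ := hζ.eq_pow_of_pow_eq_one hμ'.pow_eq_one
  exact one_sub_dvd_one_sub_pow ζ i

end Fermat.Agent.S36.Q2Series
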