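import Mathlib
import Fermat.Agent.S36.CuspFam
import Fermat.Agent.S36.CuspLift
import Fermat.Agent.S36.PhiQ2
import Fermat.Agent.S36.MidRed
import Fermat.Agent.S36.Q2Series
import Fermat.Agent.S36.CoordFin
import Fermat.Agent.S36.PoleChain
import Fermat.Agent.S36.SetupQ2

/-!
# S36 (P8) — [CR-ZW] + [CR-FAM-INST]: the middle one-component elements `z_M · W^m` on the Plan
frame, and the three families of cusp regularity as theorems (helper60)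

For a frame `F : Plan.Frame M q h` and `(O, ρ)` with `Plan.IsSetup A F O ρ`, `A` over `q`:

* `exists_ZW` : there is an INJECTIVE `t : Plan.MidIdx q → k` (`t ξ = a` for `ξ = ξ₀^a`,
  `0 < a < q`) such that for `m ≤ q - 2` the element
  `y_m = (1 - ξ₀)^(-m) · (j_{q²} - j^{q²}) (j - j_{q²}^{q²}) (j - j_{q²})^m` lies in `O` with
  `ρ y_m = (0; 0; ((t ξ · θ j̄)^m (j̄ - j̄^{q²})²)_ξ)`;
* `exists_poleData` : the pole data of `S36/CuspFam` on any level `N` with `q * q ∣ N`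
  (from `S36/PoleChain`);
* `fam_inf_inst`, `fam_zero_inst`, `fam_mid_inst` : the conclusions of `CuspFam.fam_inf`,
  `fam_zero`, `fam_mid` with every hypothesis discharged.
-/

set_option autoImplicit false

noncomputable section

namespace Fermat.Agent.S36.CuspZW

open ModularCurve AlgebraicCurve Fermat.Agent.S24 Fermat.Agent.S18.Content Fermat.Agent.S18.Plan
  Fermat.Agent.S18 Fermat.Agent.S34

/-! ## "Integral with reduction `r`" -/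

section Rd

variable (A : ValuationSubring Kbar)

/-- `x ∈ Ocal A` with reduction `r`. -/
def Rd (x : Om) (r : Omk A) : Prop := ∃ h : x ∈ Ocal A, red A ⟨x, h⟩ = r

variable {A}

theorem Rd.of_mem {x : Om} (h : x ∈ Ocal A) : Rd A x (red A ⟨x, h⟩) := ⟨h, rfl⟩

theorem Rd.mul {x y : Om} {r s : Omk A} (hx : Rd A x r) (hy : Rd A y s) :
    Rd A (x * y) (r * s) := by
  obtain ⟨h1, e1⟩ := hx
  obtain ⟨h2, e2⟩ := hy
  refine ⟨mul_mem h1 h2, ?_⟩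
  have e : (⟨x * y, mul_mem h1 h2⟩ : Ocal A) = ⟨x, h1⟩ * ⟨y, h2⟩ := Subtype.ext rfl
  rw [e, map_mul, e1, e2]

theorem Rd.sub {x y : Om} {r s : Omk A} (hx : Rd A x r) (hy : Rd A y s) :
    Rd A (x - y) (r - s) := by
  obtain ⟨h1, e1⟩ := hx
  obtain ⟨h2, e2⟩ := hy
  refine ⟨sub_mem h1 h2, ?_⟩
  have e : (⟨x - y, sub_mem h1 h2⟩ : Ocal A) = ⟨x, h1⟩ - ⟨y, h2⟩ := Subtype.ext rfl
  rw [e, map_sub, e1, e2]

theorem Rd.pow {x : Om} {r : Omk A} (hx : Rd A x r) (n : ℕ) : Rd A (x ^ n) (r ^ n) := by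
  obtain ⟨h1, e1⟩ := hx
  refine ⟨pow_mem h1 n, ?_⟩
  have e : (⟨x ^ n, pow_mem h1 n⟩ : Ocal A) = ⟨x, h1⟩ ^ n := Subtype.ext rfl
  rw [e, map_pow, e1]

theorem Rd.congr {x y : Om} {r : Omk A} (e : x = y) (h : Rd A y r) : Rd A x r := by
  subst e
  exact h

theorem Rd.congr_right {x : Om} {r s : Omk A} (e : r = s) (h : Rd A x r) : Rd A x s := by
  subst e
  exact h

theorem Rd.const (a : ↥A) :
    Rd A (HahnSeries.C ((a : ↥A) : Kbar)) (HahnSeries.C (IsLocalRing.residue ↥A a)) :=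
  ⟨C_mem_Ocal A a.2, red_C A a.2⟩

theorem rd_jK : Rd A (jK : Om) (jk A) := ⟨Main.jK_mem_Ocal A, Main.red_jK A⟩

end Rd

/-! ## The two local computations -/

section Local

variable {A : ValuationSubring Kbar} {q : ℕ}

/-- A primitive `q`-th root of unity (`q` prime) is not `1`. -/
theorem one_sub_ne_zero (hq : q.Prime) (ξ₀ : Kbarˣ) (hξ₀ : IsPrimitiveRoot ξ₀ q) :
    (1 - (ξ₀ : Kbar)) ≠ 0 := by
  intro h0
  have h1 : (ξ₀ : Kbar) = 1 := (sub_eq_zero.mp h0).symm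
  have h2 : ξ₀ = 1 := Units.ext h1
  rw [h2] at hξ₀
  exact hq.ne_one (hξ₀.unique IsPrimitiveRoot.one)

/-- The unit of `A` underlying a `q`-th root of unity of `Q̄`. -/
theorem exists_unit_root (hq : q.Prime) (ξ₀ : Kbarˣ) (hξ₀ : ξ₀ ^ q = 1) :
    ∃ ζ : (↥A)ˣ, (((ζ : (↥A)ˣ) : ↥A) : Kbar) = (ξ₀ : Kbar) ∧ ζ ^ q = 1 := by
  have : Fact q.Prime := ⟨hq⟩
  obtain ⟨ζ, hζ⟩ := MidRed.exists_unit_eq A hq.ne_zero hξ₀
  have hζK : ((ζ : ↥A) : Kbar) = (ξ₀ : Kbar) := by rw [← hζ]; rfl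
  refine ⟨ζ, hζK, ?_⟩
  apply Units.ext
  apply Subtype.val_injective
  have h1 := congrArg (fun u : Kbarˣ => (u : Kbar)) hξ₀
  simp only [Units.val_pow_eq_pow_val, Units.val_one] at h1
  rw [← hζK] at h1
  show (((ζ ^ q : (↥A)ˣ) : ↥A) : Kbar) = ((1 : (↥A)ˣ) : ↥A)
  rw [Units.val_pow_eq_pow_val, Units.val_one]
  exact h1

/-- `(1 - ξ₀)^(-m) · q · x` is integral with reduction `0` for `m ≤ q - 2`. -/
theorem rd_zero (hq : q.Prime) (hA : A.LiesOverPrime q) (ξ₀ : Kbarˣ)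
    (hξ₀ : IsPrimitiveRoot ξ₀ q) {m : ℕ} (hm : m ≤ q - 2) {x : Om} (hx : x ∈ Ocal A) :
    Rd A (HahnSeries.C (((1 - (ξ₀ : Kbar)) ^ m)⁻¹) * (HahnSeries.C (q : Kbar) * x)) 0 := by
  have : Fact q.Prime := ⟨hq⟩
  have hκ : CharP (kk A) q := charP_residueField_of_liesOverPrime A q hA
  obtain ⟨c, hc, -⟩ := MidRed.exists_cyclo_const A q hκ ξ₀ hξ₀
  obtain ⟨ζ, hζK, hζq⟩ := exists_unit_root (A := A) hq ξ₀ hξ₀.pow_eq_one
  have hmem : (ζ : ↥A) - 1 ∈ IsLocalRing.maximalIdeal ↥A := MidRed.sub_one_mem A q hκ ζ hζq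
  have h1 : (1 - (ξ₀ : Kbar)) ≠ 0 := one_sub_ne_zero hq ξ₀ hξ₀
  have hq2 : 2 ≤ q := hq.two_le
  set a : ↥A := (c : ↥A) * (1 - (ζ : ↥A)) ^ (q - 1 - m) with ha
  have haK : ((1 - (ξ₀ : Kbar)) ^ m)⁻¹ * (q : Kbar) = ((a : ↥A) : Kbar) := by
    rw [hc, ha]
    push_cast
    rw [hζK]
    have e : q - 1 = m + (q - 1 - m) := by omega
    conv_lhs => rw [e, pow_add]
    field_simp
  have ham : a ∈ IsLocalRing.maximalIdeal ↥A := by
    refine Ideal.mul_mem_left _ _ (Ideal.pow_mem_of_mem _ ?_ _ (by omega))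
    have e : (1 : ↥A) - ζ = -((ζ : ↥A) - 1) := by ring
    rw [e]
    exact neg_mem hmem
  have hres : IsLocalRing.residue ↥A a = 0 := (IsLocalRing.residue_eq_zero_iff a).mpr ham
  have e : HahnSeries.C (((1 - (ξ₀ : Kbar)) ^ m)⁻¹) * (HahnSeries.C (q : Kbar) * x)
      = HahnSeries.C ((a : ↥A) : Kbar) * x := by
    rw [← mul_assoc, ← map_mul, haK]
  refine Rd.congr e ?_
  have h2 := (Rd.const (A := A) a).mul (Rd.of_mem hx)
  rw [hres, map_zero, zero_mul] at h2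
  exact h2

/-- `((j - j(ξ₀^a T)) / (1 - ξ₀))^m` is integral with reduction `(a · θ j̄)^m`. -/
theorem rd_mid (hq : q.Prime) (hA : A.LiesOverPrime q) (ξ₀ : Kbarˣ)
    (hξ₀ : IsPrimitiveRoot ξ₀ q) (a m : ℕ) :
    Rd A (HahnSeries.C (((1 - (ξ₀ : Kbar)) ^ m)⁻¹)
        * ((jK : Om) - Fermat.Agent.S28.scale (ξ₀ ^ a) (jK : Om)) ^ m)
      ((HahnSeries.C ((a : ℕ) : kk A) * Fermat.Agent.S28.theta (kk A) (jk A)) ^ m) := by
  have : Fact q.Prime := ⟨hq⟩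
  have hκ : CharP (kk A) q := charP_residueField_of_liesOverPrime A q hA
  obtain ⟨ζ, hζK, hζq⟩ := exists_unit_root (A := A) hq ξ₀ hξ₀.pow_eq_one
  have hres : IsLocalRing.residue ↥A (ζ : ↥A) = 1 := MidRed.residue_eq_one A q hκ ζ hζq
  have hpow : (ξ₀ ^ a) ^ q = 1 := by
    rw [← pow_mul, mul_comm, pow_mul, hξ₀.pow_eq_one, one_pow]
  obtain ⟨w, hw, hwred⟩ := MidRed.exists_scale_sub_xi A q hκ (ξ₀ ^ a) hpow
    ⟨jK, Main.jK_mem_Ocal A⟩
  set s : ↥A := ∑ i ∈ Finset.range a, (ζ : ↥A) ^ i with hs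
  have hsres : IsLocalRing.residue ↥A s = ((a : ℕ) : kk A) := by
    rw [hs, map_sum]
    simp [hres]
  have hsK : (1 - (ξ₀ : Kbar)) * ((s : ↥A) : Kbar) = 1 - (ξ₀ : Kbar) ^ a := by
    rw [hs]
    push_cast
    rw [hζK]
    exact mul_neg_geom_sum _ _
  have h1 : (1 - (ξ₀ : Kbar)) ≠ 0 := one_sub_ne_zero hq ξ₀ hξ₀
  have e1 : (jK : Om) - Fermat.Agent.S28.scale (ξ₀ ^ a) (jK : Om)
      = HahnSeries.C (1 - (ξ₀ : Kbar)) * (HahnSeries.C ((s : ↥A) : Kbar) * (w : Om)) := by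
    have hw' : Fermat.Agent.S28.scale (ξ₀ ^ a) (jK : Om) - (jK : Om)
        = HahnSeries.C ((ξ₀ : Kbar) ^ a - 1) * (w : Om) := by
      rw [← Units.val_pow_eq_pow_val]
      exact hw
    have h2 : (HahnSeries.C (1 - (ξ₀ : Kbar) ^ a) : Om)
        = -(HahnSeries.C ((ξ₀ : Kbar) ^ a - 1) : Om) := by
      rw [show (1 - (ξ₀ : Kbar) ^ a) = -((ξ₀ : Kbar) ^ a - 1) by ring, map_neg]
    rw [← mul_assoc, ← map_mul, hsK, h2, neg_mul, ← hw']
    ring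
  have e : HahnSeries.C (((1 - (ξ₀ : Kbar)) ^ m)⁻¹)
        * ((jK : Om) - Fermat.Agent.S28.scale (ξ₀ ^ a) (jK : Om)) ^ m
      = (HahnSeries.C ((s : ↥A) : Kbar) * (w : Om)) ^ m := by
    rw [e1, mul_pow, ← mul_assoc, ← map_pow, ← map_mul, inv_mul_cancel₀ (pow_ne_zero m h1),
      map_one, one_mul]
  refine Rd.congr e ?_
  refine Rd.pow ?_ m
  have hw2 : Rd A (w : Om) (Fermat.Agent.S28.theta (kk A) (jk A)) :=
    ⟨w.2, by rw [Subtype.coe_eta, hwred, Main.red_jK]⟩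
  have h3 := (Rd.const (A := A) s).mul hw2
  rw [hsres] at h3
  exact h3

end Local

/-! ## `z_M · W^m` on the Plan frame -/

section ZW

variable {A : ValuationSubring Kbar} {M q : ℕ} [NeZero M] [NeZero q] {h : Nat.Coprime M q}
variable {F : Plan.Frame M q h} {O : Subring Om} {ρ : O →+* Plan.Rq A q}

/-- The reductions of `y_m`. -/
def sZW (A : ValuationSubring Kbar) (q m : ℕ) (t : Plan.MidIdx q → kk A) :
    Plan.Coord q → Omk A
  | .inf => 0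
  | .zero => 0
  | .mid ξ => (HahnSeries.C (t ξ) * Fermat.Agent.S28.theta (kk A) (jk A)) ^ m
      * (jk A - jk A ^ (q ^ 2)) ^ 2

/-- **[CR-ZW]** the middle one-component elements `y_m = κ · z_M · (j - j_{q²})^m`, `m ≤ q - 2`,
with an injective node function `t`. -/
theorem exists_ZW (hS : Plan.IsSetup A F O ρ) (hq : q.Prime) (hA : A.LiesOverPrime q) :
    ∃ t : Plan.MidIdx q → kk A, Function.Injective t ∧ ∀ m : ℕ, m ≤ q - 2 →
      ∃ (y : O) (κ : Kbar),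
        (y : Om) = HahnSeries.C κ * ((qExpand Kbar (q * q) jK - (jK : Om) ^ (q * q))
          * ((jK : Om) - qExpand Kbar (q * q) jK ^ (q * q))
          * ((jK : Om) - qExpand Kbar (q * q) jK) ^ m) ∧
        ρ y .inf = 0 ∧ ρ y .zero = 0 ∧
        ∀ ξ, ρ y (.mid ξ) = (HahnSeries.C (t ξ) * Fermat.Agent.S28.theta (kk A) (jk A)) ^ m
          * (jk A - jk A ^ (q ^ 2)) ^ 2 := by
  have : Fact q.Prime := ⟨hq⟩
  have hκ : CharP (kk A) q := charP_residueField_of_liesOverPrime A q hA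
  obtain ⟨ξ₀, hξ₀⟩ := CoordFin.exists_primitiveRoot q
  refine ⟨fun ξ => ((((CoordFin.midEquiv hq ξ₀ hξ₀).symm ξ : ℕ) + 1 : ℕ) : kk A), ?_, ?_⟩
  · intro ξ ξ' hξξ
    have h1 : (((CoordFin.midEquiv hq ξ₀ hξ₀).symm ξ : ℕ) + 1)
        ≡ (((CoordFin.midEquiv hq ξ₀ hξ₀).symm ξ' : ℕ) + 1) [MOD q] :=
      (CharP.natCast_eq_natCast (kk A) q).mp hξξ
    have hlt : ((CoordFin.midEquiv hq ξ₀ hξ₀).symm ξ : ℕ) + 1 < q := by
      have := ((CoordFin.midEquiv hq ξ₀ hξ₀).symm ξ).2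
      omega
    have hlt' : ((CoordFin.midEquiv hq ξ₀ hξ₀).symm ξ' : ℕ) + 1 < q := by
      have := ((CoordFin.midEquiv hq ξ₀ hξ₀).symm ξ').2
      omega
    have h2 := Nat.ModEq.eq_of_lt_of_lt h1 hlt hlt'
    have h3 : (CoordFin.midEquiv hq ξ₀ hξ₀).symm ξ = (CoordFin.midEquiv hq ξ₀ hξ₀).symm ξ' :=
      Fin.ext (by omega)
    exact (CoordFin.midEquiv hq ξ₀ hξ₀).symm.injective h3
  · intro m hm
    -- the element of `F_{Mq²}`
    have hj2 : qExpand Kbar (q * q) jK = qExpand Kbar q (qExpand Kbar q jK) :=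
      PhiQ2.qExpand_mul_self
    have hemb : ∀ i, F.emb i (algebraMap Kbar (FN (M * q * q)) (((1 - (ξ₀ : Kbar)) ^ m)⁻¹)
          * ((PhiQ2.g2 M q - PhiQ2.g0 M q ^ (q * q)) * (PhiQ2.g0 M q - PhiQ2.g2 M q ^ (q * q))
            * (PhiQ2.g0 M q - PhiQ2.g2 M q) ^ m))
        = HahnSeries.C (((1 - (ξ₀ : Kbar)) ^ m)⁻¹)
          * ((F.emb i (PhiQ2.g2 M q) - F.emb i (PhiQ2.g0 M q) ^ (q * q))
            * (F.emb i (PhiQ2.g0 M q) - F.emb i (PhiQ2.g2 M q) ^ (q * q))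
            * (F.emb i (PhiQ2.g0 M q) - F.emb i (PhiQ2.g2 M q)) ^ m) := by
      intro i
      simp only [map_mul, map_sub, map_pow, SetupQ2.emb_algebraMap]
    -- Kronecker congruence
    obtain ⟨G, hG⟩ := Q2Series.exists_iota_qExpand_sq_sub_pow q A (jqModC ℤ)
    rw [coeffMap_jqModC] at hG
    have hG' : qExpand Kbar (q * q) (jK : Om) - (jK : Om) ^ (q * q)
        = HahnSeries.C (q : Kbar) * iota A G := hG
    have hJ : (jK : Om) ∈ Ocal A := Main.jK_mem_Ocal A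
    have hJ2 : qExpand Kbar (q * q) (jK : Om) ∈ Ocal A :=
      Lib.KroneckerCong.qExpand_mem_Ocal A (q * q) hJ
    -- the coordinates
    have hinf : Rd A (HahnSeries.C (((1 - (ξ₀ : Kbar)) ^ m)⁻¹)
        * ((qExpand Kbar (q * q) jK - (jK : Om) ^ (q * q))
          * ((jK : Om) - qExpand Kbar (q * q) jK ^ (q * q))
          * ((jK : Om) - qExpand Kbar (q * q) jK) ^ m)) 0 := by
      rw [hG']
      have e1 : HahnSeries.C (((1 - (ξ₀ : Kbar)) ^ m)⁻¹)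
          * (HahnSeries.C (q : Kbar) * iota A G
            * ((jK : Om) - qExpand Kbar (q * q) jK ^ (q * q))
            * ((jK : Om) - qExpand Kbar (q * q) jK) ^ m)
          = HahnSeries.C (((1 - (ξ₀ : Kbar)) ^ m)⁻¹)
            * (HahnSeries.C (q : Kbar) * (iota A G
              * ((jK : Om) - qExpand Kbar (q * q) jK ^ (q * q))
              * ((jK : Om) - qExpand Kbar (q * q) jK) ^ m)) := by ring
      rw [e1]
      exact rd_zero hq hA ξ₀ hξ₀ hm (mul_mem (mul_mem (iota_mem_Ocal A G)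
        (sub_mem hJ (pow_mem hJ2 _))) (pow_mem (sub_mem hJ hJ2) _))
    have hzero : Rd A (HahnSeries.C (((1 - (ξ₀ : Kbar)) ^ m)⁻¹)
        * (((jK : Om) - qExpand Kbar (q * q) jK ^ (q * q))
          * (qExpand Kbar (q * q) jK - (jK : Om) ^ (q * q))
          * (qExpand Kbar (q * q) jK - (jK : Om)) ^ m)) 0 := by
      rw [hG']
      have e1 : HahnSeries.C (((1 - (ξ₀ : Kbar)) ^ m)⁻¹)
          * (((jK : Om) - qExpand Kbar (q * q) jK ^ (q * q))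
            * (HahnSeries.C (q : Kbar) * iota A G)
            * (qExpand Kbar (q * q) jK - (jK : Om)) ^ m)
          = HahnSeries.C (((1 - (ξ₀ : Kbar)) ^ m)⁻¹)
            * (HahnSeries.C (q : Kbar) * (iota A G
              * ((jK : Om) - qExpand Kbar (q * q) jK ^ (q * q))
              * (qExpand Kbar (q * q) jK - (jK : Om)) ^ m)) := by ring
      rw [e1]
      exact rd_zero hq hA ξ₀ hξ₀ hm (mul_mem (mul_mem (iota_mem_Ocal A G)
        (sub_mem hJ (pow_mem hJ2 _))) (pow_mem (sub_mem hJ2 hJ) _))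
    have hmid : ∀ a : ℕ, Rd A (HahnSeries.C (((1 - (ξ₀ : Kbar)) ^ m)⁻¹)
        * ((Fermat.Agent.S28.scale (ξ₀ ^ a) (jK : Om) - (jK : Om) ^ (q * q))
          * ((jK : Om) - Fermat.Agent.S28.scale (ξ₀ ^ a) (jK : Om) ^ (q * q))
          * ((jK : Om) - Fermat.Agent.S28.scale (ξ₀ ^ a) (jK : Om)) ^ m))
        ((HahnSeries.C ((a : ℕ) : kk A) * Fermat.Agent.S28.theta (kk A) (jk A)) ^ m
          * (jk A - jk A ^ (q ^ 2)) ^ 2) := by
      intro a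
      have hpow : (ξ₀ ^ a) ^ q = 1 := by
        rw [← pow_mul, mul_comm, pow_mul, hξ₀.pow_eq_one, one_pow]
      have hSm : Fermat.Agent.S28.scale (ξ₀ ^ a) (jK : Om) ∈ Ocal A :=
        MidRed.scale_xi_mem_Ocal A (ξ₀ ^ a) hq.ne_zero hpow hJ
      have hS' : Rd A (Fermat.Agent.S28.scale (ξ₀ ^ a) (jK : Om)) (jk A) :=
        ⟨hSm, by
          rw [MidRed.red_scale_xi A q hκ (ξ₀ ^ a) hpow ⟨jK, hJ⟩ hSm]
          exact Main.red_jK A⟩
      have e1 : HahnSeries.C (((1 - (ξ₀ : Kbar)) ^ m)⁻¹)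
          * ((Fermat.Agent.S28.scale (ξ₀ ^ a) (jK : Om) - (jK : Om) ^ (q * q))
            * ((jK : Om) - Fermat.Agent.S28.scale (ξ₀ ^ a) (jK : Om) ^ (q * q))
            * ((jK : Om) - Fermat.Agent.S28.scale (ξ₀ ^ a) (jK : Om)) ^ m)
          = (HahnSeries.C (((1 - (ξ₀ : Kbar)) ^ m)⁻¹)
              * ((jK : Om) - Fermat.Agent.S28.scale (ξ₀ ^ a) (jK : Om)) ^ m)
            * ((Fermat.Agent.S28.scale (ξ₀ ^ a) (jK : Om) - (jK : Om) ^ (q * q))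
              * ((jK : Om) - Fermat.Agent.S28.scale (ξ₀ ^ a) (jK : Om) ^ (q * q))) := by ring
      rw [e1]
      have h1 := rd_mid (A := A) hq hA ξ₀ hξ₀ a m
      have h2 : Rd A ((Fermat.Agent.S28.scale (ξ₀ ^ a) (jK : Om) - (jK : Om) ^ (q * q))
          * ((jK : Om) - Fermat.Agent.S28.scale (ξ₀ ^ a) (jK : Om) ^ (q * q)))
          ((jk A - jk A ^ (q * q)) * (jk A - jk A ^ (q * q))) :=
        (hS'.sub (rd_jK.pow _)).mul (rd_jK.sub (hS'.pow _))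
      refine Rd.congr_right ?_ (h1.mul h2)
      ring
    -- assembly
    obtain ⟨hO, hρ⟩ := PhiQ2.mem_O_of_emb A hS
      (algebraMap Kbar (FN (M * q * q)) (((1 - (ξ₀ : Kbar)) ^ m)⁻¹)
        * ((PhiQ2.g2 M q - PhiQ2.g0 M q ^ (q * q)) * (PhiQ2.g0 M q - PhiQ2.g2 M q ^ (q * q))
          * (PhiQ2.g0 M q - PhiQ2.g2 M q) ^ m))
      (sZW A q m fun ξ => ((((CoordFin.midEquiv hq ξ₀ hξ₀).symm ξ : ℕ) + 1 : ℕ) : kk A))
      (by
        intro i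
        cases i with
        | inf =>
          refine Rd.congr ?_ hinf
          rw [hemb]
          simp only [Plan.Frame.emb_inf, PhiQ2.coe_g0, PhiQ2.coe_g2, ← hj2]
        | zero =>
          refine Rd.congr ?_ hzero
          rw [hemb]
          simp only [Plan.Frame.emb_zero, PhiQ2.w_g0, PhiQ2.w_g2, PhiQ2.coe_g0, PhiQ2.coe_g2,
            ← hj2]
        | mid ξ =>
          have hξ : ξ.1 = ξ₀ ^ (((CoordFin.midEquiv hq ξ₀ hξ₀).symm ξ : ℕ) + 1) := by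
            have h1 := CoordFin.coe_midEquiv hq ξ₀ hξ₀ ((CoordFin.midEquiv hq ξ₀ hξ₀).symm ξ)
            rw [Equiv.apply_symm_apply] at h1
            exact h1
          refine Rd.congr ?_ (hmid (((CoordFin.midEquiv hq ξ₀ hξ₀).symm ξ : ℕ) + 1))
          rw [hemb]
          simp only [Plan.Frame.emb_mid, PhiQ2.r_g0, PhiQ2.r_g2]
          rw [← hξ])
    refine ⟨⟨_, hO⟩, ((1 - (ξ₀ : Kbar)) ^ m)⁻¹, ?_, hρ .inf, hρ .zero, fun ξ => hρ (.mid ξ)⟩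
    have h1 := hemb .inf
    simp only [Plan.Frame.emb_inf, PhiQ2.coe_g0, PhiQ2.coe_g2, ← hj2] at h1
    exact h1

end ZW

/-! ## The pole data -/

section Pole

variable {N q : ℕ} [NeZero N] [NeZero q]

theorem jBarLevel_congr {d d' : ℕ} [NeZero d] [NeZero d'] (e : d = d') (hd : d ∣ N)
    (hd' : d' ∣ N) : jBarLevel N d hd = jBarLevel N d' hd' := by
  subst e
  rfl

/-- The pole data of `S36/CuspFam` on any level `N` with `q * q ∣ N`, `q` prime. -/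
theorem exists_poleData (hqp : q.Prime) (hq : q ∣ N) (hqq : q * q ∣ N)
    {E : Divisor Kbar (FN N)} (hE : Plan.IsE3 N q hq hqq E) :
    ∃ Cj Cq Cqq : Divisor Kbar (FN N), CuspFam.PoleData N q hq hqq E Cj Cq Cqq := by
  have hqq2 : q ^ 2 ∣ N := by rw [sq]; exact hqq
  have e2 : jBarLevel N (q ^ 2) hqq2 = jBarLevel N (q * q) hqq :=
    jBarLevel_congr (sq q) hqq2 hqq
  obtain ⟨Cj, hCj, -⟩ := Char0.exists_poleDivisor_jBar N
  obtain ⟨Cq, hCq⟩ := PullWJ.exists_poleDivisor (jBarLevel N q hq)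
    (PullWJ.jBarLevel_ne_zero q N hq)
  obtain ⟨Cqq, hCqq⟩ := PullWJ.exists_poleDivisor (jBarLevel N (q * q) hqq)
    (PullWJ.jBarLevel_ne_zero (q * q) N hqq)
  have hch : ∀ P : Place Kbar (FN N),
      (q : ℤ) * min 0 (P.ord (jBar N)) ≤ P.ord (jBarLevel N q hq) ∧
      (q : ℤ) * min 0 (P.ord (jBarLevel N q hq)) ≤ P.ord (jBar N) ∧
      (q : ℤ) * min 0 (P.ord (jBarLevel N q hq)) ≤ P.ord (jBarLevel N (q * q) hqq) ∧
      (q : ℤ) * min 0 (P.ord (jBarLevel N (q * q) hqq)) ≤ P.ord (jBarLevel N q hq) := by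
    intro P
    have h := PoleChain.ord_chain N q hq hqq2 hqp P
    rw [e2] at h
    exact h
  exact ⟨Cj, Cq, Cqq, hE, hCj, hCq, hCqq,
    CuspFam.pole_le_of_ord q hCj hCq fun P => (hch P).1,
    CuspFam.pole_le_of_ord q hCq hCj fun P => (hch P).2.1,
    CuspFam.pole_le_of_ord q hCqq hCq fun P => (hch P).2.2.2,
    CuspFam.pole_le_of_ord q hCq hCqq fun P => (hch P).2.2.1⟩

end Pole

/-! ## The three families, all hypotheses discharged -/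

section Inst

variable {A : ValuationSubring Kbar} {M q : ℕ} [NeZero M] [NeZero q] {h : Nat.Coprime M q}
variable {F : Plan.Frame M q h} {O : Subring Om} {ρ : O →+* Plan.Rq A q}
variable {N : ℕ} [NeZero N]

theorem rho_j' (hS : Plan.IsSetup A F O ρ) (hq : q.Prime) (hA : A.LiesOverPrime q) :
    ∃ hO : (jK : Om) ∈ O, ρ ⟨_, hO⟩ .inf = jk A ∧ ρ ⟨_, hO⟩ .zero = jk A ^ (q ^ 2) ∧
      ∀ ξ, ρ ⟨_, hO⟩ (.mid ξ) = jk A := by
  obtain ⟨hO, hρ⟩ := PhiQ2.rho_j A hq hA hS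
  refine ⟨hO, ?_, ?_, fun ξ => ?_⟩
  · rw [hρ .inf]
    exact pow_one _
  · rw [hρ .zero, sq]
    rfl
  · rw [hρ (.mid ξ)]
    exact pow_one _

theorem rho_jqq' (hS : Plan.IsSetup A F O ρ) (hq : q.Prime) (hA : A.LiesOverPrime q) :
    ∃ hO : (qExpand Kbar (q * q) jK : Om) ∈ O, ρ ⟨_, hO⟩ .inf = jk A ^ (q ^ 2) ∧
      ρ ⟨_, hO⟩ .zero = jk A ∧ ∀ ξ, ρ ⟨_, hO⟩ (.mid ξ) = jk A := by
  obtain ⟨hO, hρ⟩ := PhiQ2.rho_jqq A hq hA hS
  refine ⟨hO, ?_, ?_, fun ξ => ?_⟩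
  · rw [hρ .inf, sq]
    rfl
  · rw [hρ .zero]
    exact pow_one _
  · rw [hρ (.mid ξ)]
    exact pow_one _

/-- **The `∞`-family on the Plan frame.** -/
theorem fam_inf_inst (hS : Plan.IsSetup A F O ρ) (hq : q.Prime) (hTF : 4 ∣ M ∨ 9 ∣ M)
    (hA : A.LiesOverPrime q) (hqN : q ∣ N) (hqq : q * q ∣ N) (hN : N ∣ M * q * q) :
    ∀ E : Divisor Kbar (FN N), Plan.IsE3 N q hqN hqq E →
      ∃ c₁ : ℕ, ∀ c : ℕ, c₁ ≤ c → ∀ a : Omk A, a ∈ WJ (kk A) (Fk A M) (c - q ^ 2) →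
        ∃ G : O, (G : Om) ∈ pullRR N (M * q * q) (c • E) ∧
          ρ G .inf = (jk A - jk A ^ (q ^ 4)) * (jk A - jk A ^ (q ^ 2))
            * jk A ^ (q * c + q ^ 2 * (c - q ^ 2)) * a ∧
          ρ G .zero = 0 ∧ ∀ ξ, ρ G (.mid ξ) = 0 := by
  intro E hE
  obtain ⟨Cj, Cq, Cqq, hD⟩ := exists_poleData hq hqN hqq hE
  exact CuspFam.fam_inf hN hD (rho_j' hS hq hA) (PhiQ2.rho_jq A hq hA hS) (rho_jqq' hS hq hA)
    (CuspLift.lift_alpha' hS hq hTF hA hN hD.isJ)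

/-- **The `0`-family on the Plan frame.** -/
theorem fam_zero_inst (hS : Plan.IsSetup A F O ρ) (hq : q.Prime) (hTF : 4 ∣ M ∨ 9 ∣ M)
    (hA : A.LiesOverPrime q) (hqN : q ∣ N) (hqq : q * q ∣ N) (hN : N ∣ M * q * q) :
    ∀ E : Divisor Kbar (FN N), Plan.IsE3 N q hqN hqq E →
      ∃ c₁ : ℕ, ∀ c : ℕ, c₁ ≤ c → ∀ a : Omk A, a ∈ WJ (kk A) (Fk A M) (c - q ^ 2) →
        ∃ G : O, (G : Om) ∈ pullRR N (M * q * q) (c • E) ∧
          ρ G .inf = 0 ∧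
          ρ G .zero = (jk A - jk A ^ (q ^ 4)) * (jk A - jk A ^ (q ^ 2))
            * jk A ^ (q * c + q ^ 2 * (c - q ^ 2)) * a ∧
          ∀ ξ, ρ G (.mid ξ) = 0 := by
  intro E hE
  obtain ⟨Cj, Cq, Cqq, hD⟩ := exists_poleData hq hqN hqq hE
  exact CuspFam.fam_zero hN hD (rho_j' hS hq hA) (PhiQ2.rho_jq A hq hA hS) (rho_jqq' hS hq hA)
    (CuspLift.lift_beta' hS hq hTF hA hqq hD.isJqq)

/-- **The middle families on the Plan frame**, with an injective node function `t` and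
`Θ = θ j̄`. -/
theorem fam_mid_inst (hS : Plan.IsSetup A F O ρ) (hq : q.Prime) (hTF : 4 ∣ M ∨ 9 ∣ M)
    (hA : A.LiesOverPrime q) (hqN : q ∣ N) (hqq : q * q ∣ N) (hN : N ∣ M * q * q) :
    ∃ t : Plan.MidIdx q → kk A, Function.Injective t ∧
      ∀ E : Divisor Kbar (FN N), Plan.IsE3 N q hqN hqq E →
        ∃ c₁ : ℕ, ∀ c : ℕ, c₁ ≤ c → ∀ m : ℕ, m ≤ q - 2 → ∀ a : Omk A,
          a ∈ WJ (kk A) (Fk A M) (c - q ^ 2 - q) →
          ∃ G : O, (G : Om) ∈ pullRR N (M * q * q) (c • E) ∧ ρ G .inf = 0 ∧ ρ G .zero = 0 ∧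
            ∀ ξ, ρ G (.mid ξ) = (HahnSeries.C (t ξ) * Fermat.Agent.S28.theta (kk A) (jk A)) ^ m
              * ((jk A - jk A ^ (q ^ 2)) ^ 2 * jk A ^ (q * (c + 1) + (c - q ^ 2 - m)) * a) := by
  obtain ⟨t, ht, hZW⟩ := exists_ZW hS hq hA
  refine ⟨t, ht, fun E hE => ?_⟩
  obtain ⟨Cj, Cq, Cqq, hD⟩ := exists_poleData hq hqN hqq hE
  exact CuspFam.fam_mid hN hD (PhiQ2.rho_jq A hq hA hS) (rho_jqq' hS hq hA)
    (CuspLift.lift_alpha' hS hq hTF hA hN hD.isJ) (Fermat.Agent.S28.theta (kk A) (jk A)) t hZW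

end Inst

end Fermat.Agent.S36.CuspZW

end
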