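/-
P8 / S36 [EMB] (helper58): **`Plan.FrameStmt`** — the frame of level `M q²` exists — and the
symmetries of an arbitrary frame `F : Plan.Frame M q h`:

* `frame`, `frameStmt` : `w := Emb.w2` (helper49), `r ξ := MidFam.midEmb`;
* `w_eq_w2`     : the Atkin–Lehner involution of a frame is `Emb.w2` (frames are unique);
* `w_w`, `w_galois` : `w² = id`, `w` commutes with the coefficientwise Galois action;
* `galCoord`, `emb_galois` : `σ (ε_i x) = ε_{σ i} (σ x)` for `σ ∈ Gal(ℚ̄/ℚ)` (the coordinates `∞`, `0`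
  are fixed, the middle ones are permuted through `ξ ↦ σ ξ`);
* `emb_inf_w`, `emb_zero_w`, `emb_mid_w` : the action of `w` on the coordinates
  (`∞ ↔ 0`, `mid ξ ↔ mid ξ⁻¹` up to `T ↦ ξ T`).
-/
import Mathlib
import Fermat.Agent.S36.Emb
import Fermat.Agent.S36.FrameInst

set_option autoImplicit false
set_option linter.unusedSectionVars false

noncomputable section

namespace Fermat.Agent.S36.FrameFinal

open ModularCurve AlgebraicCurve Fermat.Agent.S24 Fermat.Agent.S18.Plan Fermat.Agent.S34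
open Fermat.Agent.Lib Fermat.Agent.S36.MidEmb

variable {M q : ℕ} [NeZero M] [NeZero q]

/-- **The frame of level `M q²`.** -/
def frame (hq : q.Prime) (h : Nat.Coprime M q) : Plan.Frame M q h :=
  FrameInst.frameOfW hq h (Emb.w2 M q h) (Emb.w2_alpha h hq) (Emb.w2_beta h hq)

/-- **[EMB]** the frame exists. -/
theorem frameStmt (hq : q.Prime) (h : Nat.Coprime M q) : Plan.FrameStmt M q h :=
  ⟨frame hq h⟩

variable {h : Nat.Coprime M q}

/-- Two ring homs out of `F_{M q²}` that agree on `α F_{Mq}` and on `β F_{Mq}` (and on the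
constants) are equal. -/
theorem ringHom_ext_alpha_beta (hq : q.Prime) {S : Type*} [DivisionRing S]
    (Θ₁ Θ₂ : FN (M * q * q) →+* S)
    (hc : ∀ c : Kbar, Θ₁ (algebraMap Kbar (FN (M * q * q)) c) =
      Θ₂ (algebraMap Kbar (FN (M * q * q)) c))
    (hα : ∀ x : FN (M * q), Θ₁ (heckeAlphaBar Kbar (M * q) q x) =
      Θ₂ (heckeAlphaBar Kbar (M * q) q x))
    (hβ : ∀ x : FN (M * q), Θ₁ (heckeBetaBar Kbar (M * q) q x) =
      Θ₂ (heckeBetaBar Kbar (M * q) q x)) : Θ₁ = Θ₂ := by
  refine FFBridge.ringHom_ext (M * q * q) Θ₁ Θ₂ hc (fun e _ he => ?_)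
  rcases gen_cases hq he with ⟨h1, e1⟩ | ⟨d, _, hd, e1⟩
  · rw [e1, hα]
  · rw [e1, hβ]

/-- The Atkin–Lehner involution of a frame is `Emb.w2`. -/
theorem w_eq_w2 (hq : q.Prime) (F : Plan.Frame M q h) : F.w = Emb.w2 M q h := by
  have key : ((F.w : FN (M * q * q) ≃+* FN (M * q * q)) : FN (M * q * q) →+* FN (M * q * q)) =
      ((Emb.w2 M q h : FN (M * q * q) ≃+* FN (M * q * q)) :
        FN (M * q * q) →+* FN (M * q * q)) := by
    refine ringHom_ext_alpha_beta hq _ _ (fun c => ?_) (fun x => ?_) (fun x => ?_)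
    · show F.w (algebraMap Kbar (FN (M * q * q)) c) =
        Emb.w2 M q h (algebraMap Kbar (FN (M * q * q)) c)
      rw [AlgEquiv.commutes, AlgEquiv.commutes]
    · show F.w (heckeAlphaBar Kbar (M * q) q x) = Emb.w2 M q h (heckeAlphaBar Kbar (M * q) q x)
      rw [F.w_alpha, Emb.w2_alpha h hq]
    · show F.w (heckeBetaBar Kbar (M * q) q x) = Emb.w2 M q h (heckeBetaBar Kbar (M * q) q x)
      rw [F.w_beta, Emb.w2_beta h hq]
  exact AlgEquiv.ext fun x => RingHom.congr_fun key x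

/-- `w² = id`. -/
theorem w_w (hq : q.Prime) (F : Plan.Frame M q h) (x : FN (M * q * q)) : F.w (F.w x) = x := by
  rw [w_eq_w2 hq F]
  exact Emb.w2_w2 h x

/-- `w` commutes with the coefficientwise Galois action. -/
theorem w_galois (hq : q.Prime) (F : Plan.Frame M q h) (σ : Kbar ≃ₐ[ℚ] Kbar)
    (x : FN (M * q * q)) :
    arithmeticRingAut (modularFunctionFieldFull (M * q * q)) σ (F.w x) =
      F.w (arithmeticRingAut (modularFunctionFieldFull (M * q * q)) σ x) := by
  rw [w_eq_w2 hq F]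
  exact Emb.galois_smul_w2 h σ x

/-- The Galois action on the coordinates: `∞`, `0` are fixed, `mid ξ ↦ mid (σ ξ)`. -/
def galCoord (σ : Kbar ≃ₐ[ℚ] Kbar) : Plan.Coord q → Plan.Coord q
  | .inf => .inf
  | .zero => .zero
  | .mid ξ => .mid (FrameInst.galMid σ ξ)

/-- **Galois equivariance of the `q + 1` expansions**: `σ (ε_i x) = ε_{σ i} (σ x)`. -/
theorem emb_galois (hq : q.Prime) (F : Plan.Frame M q h) (σ : Kbar ≃ₐ[ℚ] Kbar)
    (i : Plan.Coord q) (x : FN (M * q * q)) :
    coeffMap (σ : Kbar →+* Kbar) (F.emb i x) =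
      F.emb (galCoord σ i) (arithmeticRingAut (modularFunctionFieldFull (M * q * q)) σ x) := by
  cases i with
  | inf => rfl
  | zero =>
      show coeffMap (σ : Kbar →+* Kbar) ((F.w x : FN (M * q * q)) : Om) =
        ((F.w (arithmeticRingAut (modularFunctionFieldFull (M * q * q)) σ x) :
          FN (M * q * q)) : Om)
      rw [← w_galois hq F σ x]
      rfl
  | mid ξ => exact FrameInst.r_galois hq F σ ξ x

/-- The inverse of a middle index. -/
def invMid (ξ : Plan.MidIdx q) : Plan.MidIdx q := ⟨ξ.1⁻¹, ξ.2.inv⟩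

theorem emb_inf_w (F : Plan.Frame M q h) (x : FN (M * q * q)) :
    F.emb .inf (F.w x) = F.emb .zero x := rfl

theorem emb_zero_w (hq : q.Prime) (F : Plan.Frame M q h) (x : FN (M * q * q)) :
    F.emb .zero (F.w x) = F.emb .inf x := by
  show ((F.w (F.w x) : FN (M * q * q)) : Om) = (x : Om)
  rw [w_w hq F x]

/-- **`w` on the middle coordinates**: `r_ξ (w x) = (r_{ξ⁻¹} x)(ξ T)`. -/
theorem emb_mid_w (hq : q.Prime) (F : Plan.Frame M q h) (ξ : Plan.MidIdx q)
    (x : FN (M * q * q)) :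
    F.emb (.mid ξ) (F.w x) = Fermat.Agent.S28.scale ξ.1 (F.emb (.mid (invMid ξ)) x) := by
  have key : ((F.r ξ : FN (M * q * q) →ₐ[Kbar] Om) : FN (M * q * q) →+* Om).comp
        ((F.w : FN (M * q * q) ≃+* FN (M * q * q)) : FN (M * q * q) →+* FN (M * q * q)) =
      (Fermat.Agent.S28.scale ξ.1).comp
        ((F.r (invMid ξ) : FN (M * q * q) →ₐ[Kbar] Om) : FN (M * q * q) →+* Om) := by
    refine ringHom_ext_alpha_beta hq _ _ (fun c => ?_) (fun y => ?_) (fun y => ?_)
    · show F.r ξ (F.w (algebraMap Kbar (FN (M * q * q)) c)) =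
        Fermat.Agent.S28.scale ξ.1 (F.r (invMid ξ) (algebraMap Kbar (FN (M * q * q)) c))
      rw [AlgEquiv.commutes, AlgHom.commutes, AlgHom.commutes,
        Fermat.Agent.S28.scale_algebraMap]
    · show F.r ξ (F.w (heckeAlphaBar Kbar (M * q) q y)) =
        Fermat.Agent.S28.scale ξ.1 (F.r (invMid ξ) (heckeAlphaBar Kbar (M * q) q y))
      rw [F.w_alpha, FrameInst.r_beta_sigma hq F ξ, Sigma.sigma_sigma h hq, F.r_alpha]
    · show F.r ξ (F.w (heckeBetaBar Kbar (M * q) q y)) =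
        Fermat.Agent.S28.scale ξ.1 (F.r (invMid ξ) (heckeBetaBar Kbar (M * q) q y))
      rw [F.w_beta, F.r_alpha, FrameInst.r_beta_sigma hq F (invMid ξ),
        Fermat.Agent.S28.scale_scale]
      have h1 : ξ.1 * (invMid ξ).1 = 1 := mul_inv_cancel ξ.1
      rw [h1, Fermat.Agent.S28.scale_one]
  exact RingHom.congr_fun key x

end Fermat.Agent.S36.FrameFinal
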