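import Mathlib
import Fermat.Agent.S34.InclPull

/-!
# P8 / S36 — [INCL-GEN]: the inclusion `red (ψ g) ∈ WJ` through an ARBITRARY embedding
(owner: helper23)

`S34/Incl.lean` / `S34/InclPull.lean` treat elements of a modular function field `F_{N₂}` (first
component) and their images under an ENDOMORPHISM of `F_{N₂}` (second component).  At level `q²`
the middle cusps give embeddings `ψ : F_{N₂} → Q̄((T))` whose image is NOT a modular function
field (`j_{q²} ↦ j(ζ T)`).  This file removes every hypothesis on the ambient field: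

* `isIntegral_coeff_minpoly` : the coefficients of the minimal polynomial over a subfield `E ⊆ Ω`
  of an element integral over a subring `R ⊆ E` are integral over `R`;
* `isIntegral_AX_gen`   : **no-defect integrality descent for ANY `z ∈ Q̄((T))`**: if `z` is
  integral over `O_M = F_M ∩ Ocal` (`M` a good level) and over `Q̄[x]`, then `z` is integral over
  `A[x]`  (`x = j` or `x = j⁻¹`);
* `isIntegral_AJ_gen`, `isIntegral_AJinv_gen` : the two charts;
* `red_mem_WJ_gen`      : [INCL] core: `z ∈ Ocal` integral over `O_M`, over `Q̄[j]`, with `j⁻ᵐ z`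
  integral over `Q̄[j⁻¹]`, and `red z ∈ L`  ⟹  `red z ∈ WJ k L m`;
* `isIntegral_OM_hom`   : integrality over `O_M` is preserved by an algebra hom fixing `O_M`;
* `red_hom_mem_WJ_of_mem_pullRR` : for an algebra hom `ψ : F_{N₂} → Q̄((T))` sending a coordinate
  `x ∈ F_N` to `j` and `g ∈ pullRR N N₂ B`, `B ≤ m (x)_∞`, with `ψ g ∈ Ocal` integral over `O_M`
  and `red (ψ g) ∈ L`:  `red (ψ g) ∈ WJ k L m`;
* `red_hom_mem_WJ_of_fix` : the same with the integrality of `ψ g` over `O_M` deduced from that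
  of `g` when `ψ` fixes `O_M`.
-/

set_option autoImplicit false

noncomputable section

namespace Fermat.Agent.S36.InclGen

open ModularCurve AlgebraicCurve Fermat.Agent.S24 Fermat.Agent.S18.Content Fermat.Agent.S18.Plan
open Fermat.Agent.S37.Plan2 Fermat.Agent.S18 Fermat.Agent.S37 Fermat.Agent.Lib Polynomial
open IntermediateField Fermat.Agent.S34.Incl Fermat.Agent.S34.InclPull

set_option synthInstance.maxHeartbeats 400000
set_option maxHeartbeats 1600000

/-! ## Coefficients of a minimal polynomial -/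

section Generic

variable {Ω K₀ : Type*} [Field Ω] [Field K₀] [Algebra K₀ Ω]

/-- The coefficients of the minimal polynomial over a subfield `E ⊆ Ω` of an element integral over
a subring `R ⊆ E` are integral over `R`. -/
theorem isIntegral_coeff_minpoly (E : IntermediateField K₀ Ω) (R : Subring Ω)
    (hRE : ∀ r ∈ R, r ∈ E) {z : Ω} (hz : IsIntegral R z) (i : ℕ) :
    IsIntegral R ((((minpoly E z).coeff i : E)) : Ω) := by
  obtain ⟨Q, hQm, hQ⟩ := hz
  let φ : R →+* E := Rad.inclR R E hRE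
  have hφ : (algebraMap E Ω).comp φ = algebraMap R Ω := RingHom.ext fun r => rfl
  have hroot : aeval z (Q.map φ) = 0 := by
    rw [aeval_def, eval₂_map, hφ]
    exact hQ
  have hzE : IsIntegral E z := ⟨Q.map φ, hQm.map φ, by rw [← aeval_def]; exact hroot⟩
  have hdvd : minpoly E z ∣ Q.map φ := minpoly.dvd E z hroot
  letI : Algebra R E := φ.toAlgebra
  have hl := integralClosure.mem_lifts_of_monic_of_dvd_map (R := R) E hQm (minpoly.monic hzE)
    hdvd
  rw [lifts_iff_coeff_lifts] at hl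
  obtain ⟨c, hc⟩ := hl i
  obtain ⟨P, hPm, hP⟩ := c.2
  refine ⟨P, hPm, ?_⟩
  have h := hom_eval₂ P φ (algebraMap E Ω) ((minpoly E z).coeff i)
  rw [hφ] at h
  rw [← hc]
  have hP' : eval₂ φ (algebraMap (integralClosure R E) E c) P = 0 := hP
  have h2 := hom_eval₂ P φ (algebraMap E Ω) (algebraMap (integralClosure R E) E c)
  rw [hφ, hP', map_zero] at h2
  exact h2.symm

end Generic

variable (A : ValuationSubring Kbar)

/-! ## Integrality descent for an arbitrary element of `Q̄((T))` -/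

/-- **No-defect integrality descent, arbitrary element.**  Let `ℓ ∤ M` and `x ∈ Ocal ∩ F_1` a
coordinate with `F_1 ⊆ Q̄(x)` and `x̄` transcendental over `k`.  If `z ∈ Q̄((T))` is integral over
`O_M = F_M ∩ Ocal` and over `Q̄[x]`, then `z` is integral over `A[x]`. -/
theorem isIntegral_AX_gen (M : ℕ) [NeZero M] (ℓ : ℕ) [Fact ℓ.Prime] (hℓ : ¬ ℓ ∣ M)
    (hA : A.LiesOverPrime ℓ) (x : Ocal A) (hx1 : (x : Om) ∈ modularFunctionFieldBar 1)
    (hgen : modularFunctionFieldBar 1 ≤ IntermediateField.adjoin Kbar {(x : Om)})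
    (htr : Transcendental (kk A) (red A x))
    {z : Om} (hzM : IsIntegral (OM A M) z)
    (hint : IsIntegral (Algebra.adjoin Kbar {(x : Om)}) z) :
    IsIntegral (IntDescent.AX A (x : Om)) z := by
  classical
  have hRM : RedStmt A M := Red.redStmt M ℓ hℓ A hA
  have hle1 : modularFunctionFieldBar 1 ≤ modularFunctionFieldBar M :=
    CharStmt.bar_le (one_dvd M)
  have hOME : ∀ r ∈ OM A M, r ∈ modularFunctionFieldBar M := fun r hr => ((mem_OM A).mp hr).2
  -- `z` is integral over `F_M`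
  have hzF : IsIntegral (FN M) z := by
    obtain ⟨Q, hQm, hQ⟩ := hzM
    let φ : OM A M →+* FN M := Rad.inclR (OM A M) (modularFunctionFieldBar M) hOME
    have hφ : (algebraMap (FN M) Om).comp φ = algebraMap (OM A M) Om := RingHom.ext fun r => rfl
    refine ⟨Q.map φ, hQm.map φ, ?_⟩
    rw [eval₂_map, hφ]
    exact hQ
  set p : (FN M)[X] := minpoly (FN M) z with hp
  -- the coefficients are integral over `Q̄[x]`
  set R : Subring Om := (Algebra.adjoin Kbar {(x : Om)}).toSubring with hRdef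
  have hRE : ∀ r ∈ R, r ∈ modularFunctionFieldBar M := by
    intro r hr
    have hle' : Algebra.adjoin Kbar {(x : Om)} ≤ (modularFunctionFieldBar M).toSubalgebra :=
      Algebra.adjoin_le (by rintro _ rfl; exact hle1 hx1)
    exact hle' hr
  have hintR : IsIntegral R z := IntDescent.isIntegral_toSubring _ hint
  have hci : ∀ i : ℕ, IsIntegral R (((p.coeff i : FN M)) : Om) := fun i =>
    isIntegral_coeff_minpoly (modularFunctionFieldBar M) R hRE hintR i
  -- the coefficients lie in `Ocal`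
  have hcO : ∀ i : ℕ, (((p.coeff i : FN M)) : Om) ∈ Ocal A := by
    intro i
    have h1 : IsIntegral (OM A M) (((p.coeff i : FN M)) : Om) :=
      isIntegral_coeff_minpoly (modularFunctionFieldBar M) (OM A M) hOME hzM i
    exact mem_Ocal_of_isIntegral_OM A hRM (p.coeff i).2 h1
  -- descent at the good level `M`
  have hcA : ∀ i : ℕ, IsIntegral (IntDescent.AX A (x : Om)) (((p.coeff i : FN M)) : Om) := by
    intro i
    have h2 : IsIntegral (Algebra.adjoin Kbar {(x : Om)}) (((p.coeff i : FN M)) : Om) := hci i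
    exact IntDescent.isIntegral_closure A M ℓ hℓ hA x hx1 hgen htr (p.coeff i).2 (hcO i) h2
  -- conclusion
  refine OrthoDesc.isIntegral_of_monic_root (p.map (algebraMap (FN M) Om))
    ((minpoly.monic hzF).map _) (fun k => ?_) z ?_
  · rw [coeff_map]
    exact hcA k
  · rw [eval_map, ← aeval_def]
    exact minpoly.aeval (FN M) z

/-- **Finite chart**: `z` integral over `O_M` and over `Q̄[j]` is integral over `A[j]`. -/
theorem isIntegral_AJ_gen (M : ℕ) [NeZero M] (ℓ : ℕ) [Fact ℓ.Prime] (hℓ : ¬ ℓ ∣ M)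
    (hA : A.LiesOverPrime ℓ) {z : Om} (hzM : IsIntegral (OM A M) z)
    (hint : IsIntegral (polyJ Kbar) z) : IsIntegral (AJ A) z :=
  isIntegral_AX_gen A M ℓ hℓ hA (Main.jO A) IntDescent.jK_mem_bar_one IntDescent.bar_one_le
    (by rw [Main.red_jO]; exact IntDescent.transcendental_jk A) hzM hint

/-- **Chart at infinity**: `z` integral over `O_M` and over `Q̄[j⁻¹]` is integral over
`A[j⁻¹]`. -/
theorem isIntegral_AJinv_gen (M : ℕ) [NeZero M] (ℓ : ℕ) [Fact ℓ.Prime] (hℓ : ¬ ℓ ∣ M)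
    (hA : A.LiesOverPrime ℓ) {z : Om} (hzM : IsIntegral (OM A M) z)
    (hint : IsIntegral (polyJinv Kbar) z) : IsIntegral (AJinv A) z :=
  isIntegral_AX_gen A M ℓ hℓ hA (Main.jInvO A)
    ((modularFunctionFieldBar 1).inv_mem IntDescent.jK_mem_bar_one) IntDescent.bar_one_le_inv
    (by rw [Main.red_jInvO]; exact IntDescent.transcendental_jk_inv A) hzM hint

/-! ## The inclusion, arbitrary element -/

/-- **[INCL] core, arbitrary element**: let `ℓ ∤ M` and `z ∈ Ocal` integral over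
`O_M = F_M ∩ Ocal`, integral over `Q̄[j]`, with `j⁻ᵐ z` integral over `Q̄[j⁻¹]`.  If `red z ∈ L`,
then `red z ∈ WJ k L m`.  (No hypothesis on the field containing `z`.) -/
theorem red_mem_WJ_gen (M : ℕ) [NeZero M] (ℓ : ℕ) [Fact ℓ.Prime] (hℓ : ¬ ℓ ∣ M)
    (hA : A.LiesOverPrime ℓ) (m : ℕ) {z : Om} (hzO : z ∈ Ocal A)
    (hzM : IsIntegral (OM A M) z) (hW1 : IsIntegral (polyJ Kbar) z)
    (hW2 : IsIntegral (polyJinv Kbar) (jK⁻¹ ^ m * z))
    (L : IntermediateField (kk A) (Omk A)) (hκ : red A ⟨z, hzO⟩ ∈ L) :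
    red A ⟨z, hzO⟩ ∈ WJ (kk A) L m := by
  -- finite chart
  have h1 : IsIntegral (AJ A) z := isIntegral_AJ_gen A M ℓ hℓ hA hzM hW1
  have hfin : IsIntegral (polyJ (kk A)) (red A ⟨z, hzO⟩) :=
    ChartRedOf.isIntegral_polyJ_red A hzO h1
  -- chart at infinity
  have hjm : IsIntegral (OM A M) ((jK⁻¹ : Om) ^ m) :=
    IntDescent.isIntegral_of_mem_subring (OM A M) (Subring.pow_mem _ (jInv_mem_OM A M) m)
  have h3 : IsIntegral (OM A M) (jK⁻¹ ^ m * z) := hjm.mul hzM
  have h4 : IsIntegral (AJinv A) (jK⁻¹ ^ m * z) := isIntegral_AJinv_gen A M ℓ hℓ hA h3 hW2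
  have hO' : jK⁻¹ ^ m * z ∈ Ocal A :=
    (Ocal A).mul_mem (Subring.pow_mem _ (Main.jInvO A).2 m) hzO
  have hinf := ChartRedOf.isIntegral_OinfJ_red A hO' h4
  have e : red A ⟨jK⁻¹ ^ m * z, hO'⟩ = (jqModC (kk A))⁻¹ ^ m * red A ⟨z, hzO⟩ := by
    have e' : (⟨jK⁻¹ ^ m * z, hO'⟩ : Ocal A) = Main.jInvO A ^ m * ⟨z, hzO⟩ :=
      Subtype.ext rfl
    rw [e', map_mul, map_pow, Main.red_jInvO]
  rw [e] at hinf
  exact ⟨hκ, hfin, hinf⟩

/-! ## Transport along an embedding `F_{N₂} → Q̄((T))` -/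

/-- Integrality over `O_M` is preserved by an algebra homomorphism `ψ : F_{N₂} → Q̄((T))` that
fixes the elements of `O_M`. -/
theorem isIntegral_OM_hom (M N₂ : ℕ) (hle : modularFunctionFieldBar M ≤ modularFunctionFieldBar N₂)
    (ψ : FN N₂ →ₐ[Kbar] Om) (hfix : ∀ y : FN N₂, (y : Om) ∈ OM A M → ψ y = (y : Om))
    (g : FN N₂) (hg : IsIntegral (OM A M) (g : Om)) : IsIntegral (OM A M) (ψ g) := by
  obtain ⟨P, hPm, hP⟩ := hg
  have hOME : ∀ r ∈ OM A M, r ∈ modularFunctionFieldBar N₂ :=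
    fun r hr => hle ((mem_OM A).mp hr).2
  let ι : OM A M →+* FN N₂ := Rad.inclR (OM A M) (modularFunctionFieldBar N₂) hOME
  have hι : (algebraMap (FN N₂) Om).comp ι = algebraMap (OM A M) Om := RingHom.ext fun r => rfl
  have h0 : eval₂ ι g P = 0 := by
    apply Subtype.ext
    have h := hom_eval₂ P ι (algebraMap (FN N₂) Om) g
    rw [hι] at h
    exact h.trans hP
  have hψι : (ψ : FN N₂ →+* Om).comp ι = algebraMap (OM A M) Om := by
    refine RingHom.ext fun r => ?_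
    show ψ (ι r) = (r : Om)
    exact hfix (ι r) r.2
  refine ⟨P, hPm, ?_⟩
  have h := hom_eval₂ P ι (ψ : FN N₂ →+* Om) g
  rw [h0, map_zero, hψι] at h
  exact h.symm

/-- **[INCL] through an embedding**: let `ψ : F_{N₂} → Q̄((T))` be a `Q̄`-algebra homomorphism
sending the coordinate `x ∈ F_N` to `j`.  For `g ∈ pullRR N N₂ B` with `B ≤ m (x)_∞`, `ψ g ∈ Ocal`
integral over `O_M` (`ℓ ∤ M`), with `red (ψ g) ∈ L`:  `red (ψ g) ∈ WJ k L m`. -/
theorem red_hom_mem_WJ_of_mem_pullRR (M N N₂ : ℕ) [NeZero M] [NeZero N] [NeZero N₂]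
    (hdiv : N ∣ N₂) (ℓ : ℕ) [Fact ℓ.Prime] (hℓ : ¬ ℓ ∣ M) (hA : A.LiesOverPrime ℓ) (m : ℕ)
    {x : FN N} (hxt : Transcendental Kbar x)
    (ψ : FN N₂ →ₐ[Kbar] Om) (x₂ : FN N₂) (hx₂ : (x₂ : Om) = (x : Om)) (hψ : ψ x₂ = jK)
    (B : Divisor Kbar (FN N))
    (hB : ∀ v : Place Kbar (FN N), B v ≤ m * max 0 (-(v.ord x)))
    (g : FN N₂) (hg : (g : Om) ∈ pullRR N N₂ B) (hgO : ψ g ∈ Ocal A)
    (hgM : IsIntegral (OM A M) (ψ g))
    (L : IntermediateField (kk A) (Omk A)) (hκ : red A ⟨ψ g, hgO⟩ ∈ L) :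
    red A ⟨ψ g, hgO⟩ ∈ WJ (kk A) L m := by
  obtain ⟨h1, h2⟩ := isIntegral_adjoin_of_mem_pullRR N N₂ hdiv hxt m B hB hg
  rw [← hx₂] at h1 h2
  have h1a : IsIntegral (Algebra.adjoin Kbar {x₂}) g :=
    isIntegral_adjoin_of_algHom (modularFunctionFieldBar N₂).val Subtype.val_injective x₂ g h1
  have h1' := isIntegral_adjoin_algHom ψ x₂ g h1a
  rw [hψ] at h1'
  have h2a : IsIntegral (Algebra.adjoin Kbar {((x₂⁻¹ : FN N₂) : Om)})
      (((x₂⁻¹ ^ m * g : FN N₂)) : Om) := h2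
  have h2b : IsIntegral (Algebra.adjoin Kbar {x₂⁻¹}) (x₂⁻¹ ^ m * g) :=
    isIntegral_adjoin_of_algHom (modularFunctionFieldBar N₂).val Subtype.val_injective x₂⁻¹
      (x₂⁻¹ ^ m * g) h2a
  have h2' := isIntegral_adjoin_algHom ψ x₂⁻¹ (x₂⁻¹ ^ m * g) h2b
  have e4 : ψ x₂⁻¹ = jK⁻¹ := by rw [map_inv₀, hψ]
  have e5 : ψ (x₂⁻¹ ^ m * g) = jK⁻¹ ^ m * ψ g := by rw [map_mul, map_pow, e4]
  rw [e4, e5] at h2'
  exact red_mem_WJ_gen A M ℓ hℓ hA m hgO hgM h1' h2' L hκ

/-- **[INCL] through an embedding fixing `O_M`**: as `red_hom_mem_WJ_of_mem_pullRR`, with the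
integrality of `ψ g` over `O_M` deduced from that of `g`. -/
theorem red_hom_mem_WJ_of_fix (M N N₂ : ℕ) [NeZero M] [NeZero N] [NeZero N₂]
    (hdiv : N ∣ N₂) (hle : modularFunctionFieldBar M ≤ modularFunctionFieldBar N₂)
    (ℓ : ℕ) [Fact ℓ.Prime] (hℓ : ¬ ℓ ∣ M) (hA : A.LiesOverPrime ℓ) (m : ℕ)
    {x : FN N} (hxt : Transcendental Kbar x)
    (ψ : FN N₂ →ₐ[Kbar] Om) (hfix : ∀ y : FN N₂, (y : Om) ∈ OM A M → ψ y = (y : Om))
    (x₂ : FN N₂) (hx₂ : (x₂ : Om) = (x : Om)) (hψ : ψ x₂ = jK)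
    (B : Divisor Kbar (FN N))
    (hB : ∀ v : Place Kbar (FN N), B v ≤ m * max 0 (-(v.ord x)))
    (g : FN N₂) (hg : (g : Om) ∈ pullRR N N₂ B) (hgO : ψ g ∈ Ocal A)
    (hgM : IsIntegral (OM A M) (g : Om))
    (L : IntermediateField (kk A) (Omk A)) (hκ : red A ⟨ψ g, hgO⟩ ∈ L) :
    red A ⟨ψ g, hgO⟩ ∈ WJ (kk A) L m :=
  red_hom_mem_WJ_of_mem_pullRR A M N N₂ hdiv ℓ hℓ hA m hxt ψ x₂ hx₂ hψ B hB g hg hgO
    (isIntegral_OM_hom A M N₂ hle ψ hfix g hgM) L hκ

end Fermat.Agent.S36.InclGen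

end
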