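import Mathlib
import Fermat.Agent.S36.InclGen
import Fermat.Agent.S36.PhiQ2
import Fermat.Agent.S36.PhiDiv
import Fermat.Agent.S36.FrameFinal
import Fermat.Agent.S36.SetupQ2
import Fermat.Agent.S36.MidRed
import Fermat.Agent.S37.PoleClear
import Fermat.Agent.S37.ChartHecke
import Fermat.Agent.S37.ChartRedOf
import Fermat.Agent.S37.Rad
import Fermat.Agent.Lib.RationalFF

/-!
# P8 / S36 — [INCL]: `Plan.InclStmt` for the level-`q²` frame (owner: helper23)

`ρ (L(c E) ∩ O) ⊆ W(c)` coordinatewise, for `E = (j)_∞ + (j_q)_∞ + (j_{q²})_∞` on `F_N`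
(`q² ∣ N ∣ M q²`, `q ∤ M`) and the exponents `eCoord q = (q² + q + 1, q² + q + 1, q + 2)`.

* coordinates `∞`, `0`: the crude global bounds `E ≤ (q² + q + 1) (j)_∞` and
  `E ≤ (q² + q + 1) (j_{q²})_∞` are sharp there, and `S36/InclGen` applies (`ε_∞ j = j`,
  `ε_0 j_{q²} = j`);
* the middle coordinates, finite chart: the same crude bound gives the integrality over `k[j̄]`;
* the middle coordinates, chart at infinity (sharp exponent `q + 2`, not reachable by a global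
  bound in terms of `(j)_∞`): with `φ = j j_q j_{q²}` one has `(φ)_∞ = E`, so `φ⁻ᶜ g` is integral
  over `Q̄[φ⁻¹]`; the zeros of `φ` are places of finite type (`j(P) ∈ A`: modular equation with
  integral coefficients, `S37/ChartHecke`), so `s φ⁻¹` is integral over `Q̄[j⁻¹]` for some
  `s ∈ A[j⁻¹]` with `s̄(0) = 1` (`S37/PoleClear`), hence `s^D φ⁻ᶜ g` is integral over `Q̄[j⁻¹]`;
  transport along `r ξ` (which fixes `F_{Mq} ∋ j, s`), descent to `A[j⁻¹]` (`InclGen`), reduction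
  (`red (r ξ φ) = j̄^(q+2)`, `S36/PhiQ2`), and `s̄` is a unit of `O_∞`.

The only hypothesis beyond the frame is `hint`: `O` is integral over `O_M = F_M ∩ Ocal`
(a by-product of [DIM]).
-/

set_option autoImplicit false

noncomputable section

namespace Fermat.Agent.S36.InclInst

open ModularCurve AlgebraicCurve Fermat.Agent.S24 Fermat.Agent.S18.Content Fermat.Agent.S18.Plan
open Fermat.Agent.S37.Plan2 Fermat.Agent.S18 Fermat.Agent.S37 Fermat.Agent.Lib Polynomial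
open IntermediateField Fermat.Agent.S34.Incl Fermat.Agent.S34.InclPull

set_option synthInstance.maxHeartbeats 400000
set_option maxHeartbeats 1600000

/-! ## Clearing denominators in an integrality statement -/

section Generic

variable {K Ω : Type*} [Field K] [Field Ω] [Algebra K Ω]

/-- If `s` and `s t` lie in a subalgebra `R'`, every element of `K[t]` is carried into `R'` by a
power of `s`. -/
theorem exists_pow_mul_mem (R' : Subalgebra K Ω) {s t : Ω} (hs : s ∈ R') (hst : s * t ∈ R')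
    {a : Ω} (ha : a ∈ Algebra.adjoin K {t}) :
    ∃ D : ℕ, ∀ D' : ℕ, D ≤ D' → s ^ D' * a ∈ R' := by
  induction ha using Algebra.adjoin_induction with
  | mem x hx =>
    rw [Set.mem_singleton_iff] at hx
    subst hx
    refine ⟨1, fun D' hD' => ?_⟩
    obtain ⟨e, rfl⟩ := Nat.exists_eq_add_of_le hD'
    have e1 : s ^ (1 + e) * x = s ^ e * (s * x) := by ring
    rw [e1]
    exact R'.mul_mem (R'.pow_mem hs e) hst
  | algebraMap c => exact ⟨0, fun D' _ => R'.mul_mem (R'.pow_mem hs D') (R'.algebraMap_mem c)⟩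
  | add x y _ _ hx hy =>
    obtain ⟨D1, h1⟩ := hx
    obtain ⟨D2, h2⟩ := hy
    refine ⟨max D1 D2, fun D' hD' => ?_⟩
    rw [mul_add]
    exact R'.add_mem (h1 D' (le_trans (le_max_left _ _) hD'))
      (h2 D' (le_trans (le_max_right _ _) hD'))
  | mul x y _ _ hx hy =>
    obtain ⟨D1, h1⟩ := hx
    obtain ⟨D2, h2⟩ := hy
    refine ⟨D1 + D2, fun D' hD' => ?_⟩
    obtain ⟨e, rfl⟩ := Nat.exists_eq_add_of_le hD'
    have e1 : s ^ (D1 + D2 + e) * (x * y) = (s ^ (D1 + e) * x) * (s ^ D2 * y) := by ring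
    rw [e1]
    exact R'.mul_mem (h1 _ (Nat.le_add_right _ _)) (h2 _ le_rfl)

/-- **Clearing denominators**: if `Y` is integral over `K[t]` and `s t` is integral over the
subalgebra `R ∋ s`, then `s ^ D * Y` is integral over `R` for some `D`. -/
theorem exists_pow_mul_isIntegral (R : Subalgebra K Ω) {s t Y : Ω} (hs : s ∈ R)
    (hst : IsIntegral R (s * t)) (hY : IsIntegral (Algebra.adjoin K {t}) Y) :
    ∃ D : ℕ, IsIntegral R (s ^ D * Y) := by
  classical
  let R' : Subalgebra K Ω := (integralClosure R Ω).restrictScalars K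
  have hmem : ∀ x : Ω, x ∈ R' ↔ IsIntegral R x := fun x => Iff.rfl
  have hs' : s ∈ R' := (hmem s).mpr (isIntegral_algebraMap (R := R) (x := ⟨s, hs⟩))
  have hst' : s * t ∈ R' := (hmem _).mpr hst
  obtain ⟨P, hPm, hP⟩ := hY
  have hex : ∀ k : ℕ, ∃ D : ℕ, ∀ D' : ℕ, D ≤ D' →
      s ^ D' * ((P.coeff k : Algebra.adjoin K {t}) : Ω) ∈ R' :=
    fun k => exists_pow_mul_mem R' hs' hst' (P.coeff k).2
  choose Dk hDk using hex
  set D : ℕ := ∑ k ∈ Finset.range (P.natDegree + 1), Dk k with hD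
  have hDle : ∀ k, k ≤ P.natDegree → Dk k ≤ D := fun k hk =>
    Finset.single_le_sum (f := Dk) (fun _ _ => Nat.zero_le _)
      (Finset.mem_range.mpr (Nat.lt_succ_of_le hk))
  refine ⟨D, ?_⟩
  set Q : Polynomial Ω := P.map (algebraMap (Algebra.adjoin K {t}) Ω) with hQ
  have hQm : Q.Monic := hPm.map _
  have hQd : Q.natDegree = P.natDegree := hPm.natDegree_map _
  refine OrthoDesc.isIntegral_mul_of_monic_root Q hQm (s ^ D) (fun k => ?_) Y ?_
  · rw [hQd, hQ, coeff_map]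
    rcases lt_trichotomy k P.natDegree with hk | hk | hk
    · have h1 : D ≤ D * (P.natDegree - k) := Nat.le_mul_of_pos_right _ (Nat.sub_pos_of_lt hk)
      have h2 := hDk k _ (le_trans (hDle k hk.le) h1)
      rw [← pow_mul, mul_comm]
      exact (hmem _).mp h2
    · subst hk
      rw [Nat.sub_self, pow_zero, mul_one, hPm.coeff_natDegree, map_one]
      exact isIntegral_one
    · rw [coeff_eq_zero_of_natDegree_lt hk, map_zero, zero_mul]
      exact isIntegral_zero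
  · rw [hQ, eval_map]
    exact hP

end Generic

/-! ## The zeros of `φ = j j_q j_{q²}` are places of finite type -/

section FT

variable (A : ValuationSubring Kbar) (N q : ℕ) [NeZero N] [NeZero q]

/-- `Φ_q(j, j_q) = 0` in `F_N`: `j` is a root of `Φ_q(X, j_q)`. -/
theorem modEq_j_jq (hqp : q.Prime) (hq : q ∣ N) (ζ : Kbarˣ)
    (Mq : Fermat.Agent.S28.ModEq Kbar q ζ) :
    (Mq.Φ.map (Polynomial.aeval (jBarLevel N q hq) :
        Polynomial Kbar →ₐ[Kbar] FN N).toRingHom).eval (jBar N) = 0 := by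
  refine Subtype.val_injective ?_
  show (((Mq.Φ.map (Polynomial.aeval (jBarLevel N q hq) :
        Polynomial Kbar →ₐ[Kbar] FN N).toRingHom).eval (jBar N) : FN N) : Om) = 0
  rw [ChartHecke.coe_eval_map_aeval, Main.coe_jBar, Fermat.Agent.S34.InclInst.coe_jBarLevel_eq]
  have h := Mq.aeval_eq_zero hqp 1 one_ne_zero
  rw [one_pow, mul_one, Fermat.Agent.S28.yS_one_left, Fermat.Agent.S28.yS_one_left,
    Fermat.Agent.S28.expand_one, Fermat.Agent.S28.expand_eq_qExpand] at h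
  exact h

/-- `Φ_q(j_q, j_{q²}) = 0` in `F_N`: `j_q` is a root of `Φ_q(X, j_{q²})`. -/
theorem modEq_jq_jqq (hqp : q.Prime) (hq : q ∣ N) (hqq : q * q ∣ N) (ζ : Kbarˣ)
    (Mq : Fermat.Agent.S28.ModEq Kbar q ζ) :
    (Mq.Φ.map (Polynomial.aeval (jBarLevel N (q * q) hqq) :
        Polynomial Kbar →ₐ[Kbar] FN N).toRingHom).eval (jBarLevel N q hq) = 0 := by
  refine Subtype.val_injective ?_
  show (((Mq.Φ.map (Polynomial.aeval (jBarLevel N (q * q) hqq) :
        Polynomial Kbar →ₐ[Kbar] FN N).toRingHom).eval (jBarLevel N q hq) : FN N) : Om) = 0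
  rw [ChartHecke.coe_eval_map_aeval, Fermat.Agent.S34.InclInst.coe_jBarLevel_eq,
    Fermat.Agent.S34.InclInst.coe_jBarLevel_eq]
  have h := Mq.aeval_eq_zero hqp 1 (NeZero.ne q)
  rw [one_pow, Fermat.Agent.S28.yS_one_left, Fermat.Agent.S28.yS_one_left,
    Fermat.Agent.S28.expand_eq_qExpand, Fermat.Agent.S28.expand_eq_qExpand] at h
  exact h

/-- **The zeros of `φ = j j_q j_{q²}` are of finite type**: if `φ ∈ 𝔪_P` then `j(P) ∈ A`. -/
theorem finPl_of_phi_mem_nonunits (hqp : q.Prime) (hq : q ∣ N) (hqq : q * q ∣ N)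
    (P : Place Kbar (FN N)) (hφ : Plan.phiQ2 N q hq hqq ∈ P.toValuationSubring.nonunits) :
    FinPl A N P := by
  obtain ⟨ζ₀, hζ₀⟩ := HasEnoughRootsOfUnity.exists_primitiveRoot Kbar q
  obtain ⟨ζ, rfl⟩ : ∃ ζ : Kbarˣ, (ζ : Kbar) = ζ₀ := (hζ₀.isUnit hqp.ne_zero)
  have hζ : IsPrimitiveRoot ζ q := IsPrimitiveRoot.coe_units_iff.mp hζ₀
  obtain ⟨Mq, hMq⟩ := ChartHecke.exists_modEq_isIntegral Kbar q hqp ζ hζ
  have hcoef : ∀ i j, (Mq.Φ.coeff i).coeff j ∈ A := fun i j =>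
    ChartHecke.mem_of_isIntegral_int A (hMq i j)
  have R1 := modEq_j_jq N q hqp hq ζ Mq
  have R2 := modEq_jq_jqq N q hqp hq hqq ζ Mq
  have hWc : ∀ c : Kbar, algebraMap Kbar (FN N) c ∈ P.toValuationSubring := P.algebraMap_mem'
  have h0 : ∀ x : FN N, x ∈ P.toValuationSubring.nonunits →
      x - algebraMap Kbar (FN N) (0 : Kbar) ∈ P.toValuationSubring.nonunits := by
    intro x hx
    rwa [map_zero, sub_zero]
  have hstep : ∀ a : Kbar, a ∈ A →
      jBarLevel N q hq - algebraMap Kbar (FN N) a ∈ P.toValuationSubring.nonunits →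
      FinPl A N P := by
    intro a ha hxa
    obtain ⟨b, hb, hjb⟩ := ChartHecke.exists_sub_mem_nonunits A P.toValuationSubring hWc Mq.Φ
      Mq.monic hcoef (jBarLevel N q hq) (jBar N) R1 a ha hxa
    exact ⟨⟨b, hb⟩, hjb⟩
  have hv : P.toValuationSubring.valuation
      (jBar N * jBarLevel N q hq * jBarLevel N (q * q) hqq) < 1 := hφ
  rw [map_mul, map_mul] at hv
  have h3 : P.toValuationSubring.valuation (jBar N) < 1 ∨
      P.toValuationSubring.valuation (jBarLevel N q hq) < 1 ∨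
      P.toValuationSubring.valuation (jBarLevel N (q * q) hqq) < 1 := by
    by_contra hcon
    simp only [not_or, not_lt] at hcon
    obtain ⟨h1, h2, h3⟩ := hcon
    have : (1 : P.toValuationSubring.ValueGroup) ≤
        P.toValuationSubring.valuation (jBar N) *
          P.toValuationSubring.valuation (jBarLevel N q hq) *
          P.toValuationSubring.valuation (jBarLevel N (q * q) hqq) := by
      calc (1 : P.toValuationSubring.ValueGroup) = 1 * 1 * 1 := by rw [one_mul, one_mul]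
        _ ≤ _ := mul_le_mul' (mul_le_mul' h1 h2) h3
    exact absurd hv (not_lt.mpr this)
  rcases h3 with h | h | h
  · exact ⟨0, h0 _ h⟩
  · exact hstep 0 A.zero_mem (h0 _ h)
  · obtain ⟨b, hb, hjb⟩ := ChartHecke.exists_sub_mem_nonunits A P.toValuationSubring hWc Mq.Φ
      Mq.monic hcoef (jBarLevel N (q * q) hqq) (jBarLevel N q hq) R2 0 A.zero_mem (h0 _ h)
    exact hstep b hb hjb

end FT

/-! ## The frame -/

section Frame

variable {M q : ℕ} [NeZero M] [NeZero q] {h : Nat.Coprime M q} (A : ValuationSubring Kbar)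
  {F : Plan.Frame M q h} {O : Subring Om} {ρ : O →+* Plan.Rq A q}

/-- `O` is stable under the Atkin–Lehner involution `w`. -/
theorem w_mem_O (hqp : q.Prime) (hS : Plan.IsSetup A F O ρ) (x : FN (M * q * q))
    (hx : (x : Om) ∈ O) : ((F.w x : FN (M * q * q)) : Om) ∈ O := by
  rw [hS.mem_iff] at hx ⊢
  intro i
  cases i with
  | inf => exact hx .zero
  | zero =>
    rw [FrameFinal.emb_zero_w hqp]
    exact hx .inf
  | mid ξ =>
    rw [FrameFinal.emb_mid_w hqp]
    obtain ⟨ζA, hζA⟩ := KroneckerCong.exists_unit_of_pow_eq_one A (ζ := ξ.1) (NeZero.ne q)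
      ξ.2.pow_eq_one
    have e : MidRed.uK A ζA = ξ.1 := hζA
    rw [← e]
    exact MidRed.scale_mem_Ocal A ζA (hx (.mid (FrameFinal.invMid ξ)))

/-- `r ξ` is the identity on `F_{Mq} ⊆ F_{Mq²}`. -/
theorem r_eq_coe (F : Plan.Frame M q h) (ξ : Plan.MidIdx q) (y : FN (M * q * q))
    (hy : (y : Om) ∈ modularFunctionFieldBar (M * q)) : F.r ξ y = (y : Om) := by
  have e : heckeAlphaBar Kbar (M * q) q ⟨(y : Om), hy⟩ = y := by
    apply Subtype.ext
    rw [coe_heckeAlphaBar]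
  have h1 := F.r_alpha ξ ⟨(y : Om), hy⟩
  rwa [e] at h1

/-- `A[j⁻¹] ⊆ Q̄[j⁻¹]`. -/
theorem mem_polyJinv_of_mem_AJinv {r : Om} (hr : r ∈ AJinv A) : r ∈ polyJinv Kbar := by
  have hle : AJinv A ≤ (polyJinv Kbar).toSubring := by
    refine Subring.closure_le.mpr ?_
    rintro x (⟨a, rfl⟩ | hx)
    · show (HahnSeries.C (a : Kbar) : Om) ∈ polyJinv Kbar
      rw [← algebraMap_LS_eq_C]
      exact (polyJinv Kbar).algebraMap_mem _
    · rw [Set.mem_singleton_iff] at hx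
      subst hx
      exact Algebra.subset_adjoin (Set.mem_singleton _)
  exact hle hr

/-! ## The pole bounds -/

/-- `c E ≤ c (q² + q + 1) (x)_∞` when the other two pole divisors are `≤ q (x)_∞`,
`≤ q² (x)_∞`. -/
theorem smul_le_of_three {c q : ℕ} {e a b d : ℤ} (he : e = a + b + d) (_ha : 0 ≤ a)
    (hb : b ≤ (q : ℤ) * a) (hd : d ≤ ((q * q : ℕ) : ℤ) * a) :
    (c : ℤ) * e ≤ ((c * (q * q + q + 1) : ℕ) : ℤ) * a := by
  have hc : (0 : ℤ) ≤ (c : ℤ) := Int.natCast_nonneg c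
  have h1 : e ≤ ((q * q + q + 1 : ℕ) : ℤ) * a := by
    rw [he]
    push_cast at hd ⊢
    nlinarith
  calc (c : ℤ) * e ≤ (c : ℤ) * (((q * q + q + 1 : ℕ) : ℤ) * a) := mul_le_mul_of_nonneg_left h1 hc
    _ = ((c * (q * q + q + 1) : ℕ) : ℤ) * a := by push_cast; ring

/-! ## [INCL] -/

/-- **[INCL]** `Plan.InclStmt`: for the level-`q²` frame, `ρ (L(c E) ∩ O) ⊆ W(c)` coordinatewise
with the exponents `eCoord q`, provided `O` is integral over `O_M = F_M ∩ Ocal`. -/
theorem inclStmt {N : ℕ} [NeZero N] (hqp : q.Prime) (hA : A.LiesOverPrime q)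
    (hq : q ∣ N) (hqq : q * q ∣ N) (hNdvd : N ∣ M * q * q)
    (hS : Plan.IsSetup A F O ρ) (hint : ∀ g : O, IsIntegral (OM A M) (g : Om)) :
    Plan.InclStmt A N M q hq hqq O ρ := by
  classical
  have : Fact q.Prime := ⟨hqp⟩
  have hqM : ¬ q ∣ M := (Nat.Prime.coprime_iff_not_dvd hqp).mp h.symm
  -- `N = N₀ q q` with `N₀ ∣ M`
  have hqq' := hqq
  obtain ⟨N₀, hN₀⟩ := hqq'
  have hN : N = N₀ * q * q := by rw [hN₀]; ring
  have hq0 : 0 < q * q := Nat.mul_pos hqp.pos hqp.pos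
  have hN₀M : N₀ ∣ M := by
    have h1 : N₀ * (q * q) ∣ M * (q * q) := by
      rw [← mul_assoc, ← mul_assoc, ← hN]
      exact hNdvd
    exact Nat.dvd_of_mul_dvd_mul_right hq0 h1
  have hcop : Nat.Coprime N₀ q := Nat.Coprime.coprime_dvd_left hN₀M h
  have hle : modularFunctionFieldBar N ≤ modularFunctionFieldBar (M * q * q) :=
    CharStmt.bar_le hNdvd
  have hleM : modularFunctionFieldBar M ≤ modularFunctionFieldBar (M * q * q) :=
    CharStmt.bar_le ⟨q * q, by ring⟩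
  have hleMq : modularFunctionFieldBar M ≤ modularFunctionFieldBar (M * q) :=
    CharStmt.bar_le (Dvd.intro _ rfl)
  intro E hE c g hg i
  obtain ⟨hE0, hφ0, hφE, hφE'⟩ := PhiDiv.phiDivStmt hcop hN hq hqq E hE
  set g₂ : FN (M * q * q) := SetupQ2.IsSetup.toField hS g with hg₂
  have hg' : ((g₂ : FN (M * q * q)) : Om) ∈ pullRR N (M * q * q) (c • E) := hg
  have hgO : ∀ i, F.emb i g₂ ∈ Ocal A := SetupQ2.IsSetup.emb_mem hS g
  rw [SetupQ2.IsSetup.rho_coe hS g i]
  -- integrality over `O_M` of all the expansions of an element of `O`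
  have hfix : ∀ ξ : Plan.MidIdx q, ∀ y : FN (M * q * q), (y : Om) ∈ OM A M →
      F.r ξ y = (y : Om) := fun ξ y hy => r_eq_coe F ξ y (hleMq ((mem_OM A).mp hy).2)
  have hintE : ∀ x : FN (M * q * q), (x : Om) ∈ O → ∀ i, IsIntegral (OM A M) (F.emb i x) := by
    intro x hx i
    cases i with
    | inf => exact hint ⟨_, hx⟩
    | zero => exact hint ⟨_, w_mem_O A hqp hS x hx⟩
    | mid ξ =>
      exact InclGen.isIntegral_OM_hom A M (M * q * q) hleM (F.r ξ) (hfix ξ) x (hint ⟨_, hx⟩)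
  -- the three pole bounds
  have hEv : ∀ v : Place Kbar (FN N), E v = max 0 (-(v.ord (jBar N)))
      + max 0 (-(v.ord (jBarLevel N q hq))) + max 0 (-(v.ord (jBarLevel N (q * q) hqq))) := hE
  have hBj : ∀ v : Place Kbar (FN N),
      (c • E) v ≤ ((c * (q * q + q + 1) : ℕ) : ℤ) * max 0 (-(v.ord (jBar N))) := by
    intro v
    rw [Finsupp.smul_apply, nsmul_eq_mul]
    exact smul_le_of_three (hEv v) (le_max_left _ _)
      (PoleQ2.max_le_of_min_le (PoleQ2.ord_jq_ge hq v))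
      (PoleQ2.max_le_of_min_le (PoleQ2.ord_jqq_ge hqq v))
  have hBjqq : ∀ v : Place Kbar (FN N), (c • E) v ≤
      ((c * (q * q + q + 1) : ℕ) : ℤ) * max 0 (-(v.ord (jBarLevel N (q * q) hqq))) := by
    intro v
    rw [Finsupp.smul_apply, nsmul_eq_mul]
    refine smul_le_of_three (a := max 0 (-(v.ord (jBarLevel N (q * q) hqq))))
      (b := max 0 (-(v.ord (jBarLevel N q hq)))) (d := max 0 (-(v.ord (jBar N)))) ?_
      (le_max_left _ _)
      (PoleQ2.max_le_of_min_le (PoleQ2.ord_jq_ge_jqq hcop hN hq hqq v))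
      (PoleQ2.max_le_of_min_le (PoleQ2.ord_j_ge_jqq hcop hN hq hqq v))
    rw [hEv v]
    ring
  have hBφ : ∀ v : Place Kbar (FN N),
      (c • E) v ≤ ((c : ℕ) : ℤ) * max 0 (-(v.ord (Plan.phiQ2 N q hq hqq))) := by
    intro v
    rw [Finsupp.smul_apply, nsmul_eq_mul]
    refine mul_le_mul_of_nonneg_left ?_ (Int.natCast_nonneg c)
    rcases hφE' v with h0 | h1
    · rw [h0]
      exact le_max_left _ _
    · rw [h1, neg_neg]
      exact le_max_right _ _
  -- the coordinates `j`, `j_{q²}` at the top level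
  have hx0 : ((PhiQ2.g0 M q : FN (M * q * q)) : Om) = ((jBar N : FN N) : Om) := by
    rw [PhiQ2.coe_g0, Main.coe_jBar]
  have hx2 : ((PhiQ2.g2 M q : FN (M * q * q)) : Om) = ((jBarLevel N (q * q) hqq : FN N) : Om) := by
    rw [PhiQ2.coe_g2, Fermat.Agent.S34.InclInst.coe_jBarLevel_eq,
      ← Fermat.Agent.S28.expand_eq_qExpand, ← Fermat.Agent.S28.expand_eq_qExpand,
      Fermat.Agent.S28.expand_expand (NeZero.ne q) (NeZero.ne q)]
  -- the crude membership at every coordinate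
  have hcrude : ∀ i, red A ⟨F.emb i g₂, hgO i⟩ ∈ WJ (kk A) ⊤ (c * (q * q + q + 1)) := by
    intro i
    cases i with
    | inf =>
      exact InclGen.red_hom_mem_WJ_of_mem_pullRR A M N (M * q * q) hNdvd q hqM hA
        (c * (q * q + q + 1)) (FibreCount.transcendental_jBar N) (F.emb .inf) (PhiQ2.g0 M q) hx0
        (by rw [Plan.Frame.emb_inf, PhiQ2.coe_g0]) (c • E) hBj g₂ hg' (hgO .inf)
        (hintE g₂ g.2 .inf) ⊤ trivial
    | zero =>
      exact InclGen.red_hom_mem_WJ_of_mem_pullRR A M N (M * q * q) hNdvd q hqM hA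
        (c * (q * q + q + 1)) (transcendental_jBarLevel N (q * q) hqq) (F.emb .zero)
        (PhiQ2.g2 M q) hx2 (by rw [Plan.Frame.emb_zero, PhiQ2.w_g2, PhiQ2.coe_g0]) (c • E) hBjqq
        g₂ hg' (hgO .zero) (hintE g₂ g.2 .zero) ⊤ trivial
    | mid ξ =>
      exact InclGen.red_hom_mem_WJ_of_mem_pullRR A M N (M * q * q) hNdvd q hqM hA
        (c * (q * q + q + 1)) (FibreCount.transcendental_jBar N) (F.emb (.mid ξ)) (PhiQ2.g0 M q)
        hx0 (by rw [Plan.Frame.emb_mid, PhiQ2.r_g0]) (c • E) hBj g₂ hg' (hgO (.mid ξ))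
        (hintE g₂ g.2 (.mid ξ)) ⊤ trivial
  cases i with
  | inf => exact hcrude .inf
  | zero => exact hcrude .zero
  | mid ξ =>
    obtain ⟨-, hfin, -⟩ := mem_WJ.mp (hcrude (.mid ξ))
    refine mem_WJ.mpr ⟨trivial, hfin, ?_⟩
    show IsIntegral (OinfJ (kk A))
      ((jqModC (kk A))⁻¹ ^ (c * (q + 2)) * red A ⟨F.r ξ g₂, hgO (.mid ξ)⟩)
    -- `φ` is transcendental and `(φ)_∞ = E`: `φ⁻ᶜ g` is integral over `Q̄[φ⁻¹]`
    have hφt : Transcendental Kbar (Plan.phiQ2 N q hq hqq) := by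
      have := FibreCount.finiteDimensional N
      have := Char0.isSeparable_jBar N
      obtain ⟨v, hv⟩ := FFPoles.exists_pole_of_transcendental (jBar N)
        (FibreCount.transcendental_jBar N)
      refine RationalFF.transcendental_of_ord_neg v ?_
      have h1 : 0 < E v := by
        rw [hEv v]
        have h2 : 0 < max 0 (-(v.ord (jBar N))) := lt_max_of_lt_right (by omega)
        have h3 : (0 : ℤ) ≤ max 0 (-(v.ord (jBarLevel N q hq))) := le_max_left _ _
        have h4 : (0 : ℤ) ≤ max 0 (-(v.ord (jBarLevel N (q * q) hqq))) := le_max_left _ _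
        omega
      rcases hφE' v with h0 | h5
      · omega
      · omega
    have hY := (isIntegral_adjoin_of_mem_pullRR N (M * q * q) hNdvd hφt c (c • E) hBφ hg).2
    -- the zeros of `φ` are of finite type: clear the poles of `φ⁻¹`
    have hFT : ∀ P : Place Kbar (FN N), ¬ FinPl A N P →
        (Plan.phiQ2 N q hq hqq)⁻¹ ∈ P.toValuationSubring := by
      intro P hP
      by_contra hcon
      apply hP
      apply finPl_of_phi_mem_nonunits A N q hqp hq hqq P
      show P.toValuationSubring.valuation (Plan.phiQ2 N q hq hqq) < 1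
      have h1 : ¬ P.toValuationSubring.valuation (Plan.phiQ2 N q hq hqq)⁻¹ ≤ 1 := fun hle' =>
        hcon ((P.toValuationSubring.valuation_le_one_iff _).mp hle')
      rw [map_inv₀, not_le] at h1
      have hv0 : P.toValuationSubring.valuation (Plan.phiQ2 N q hq hqq) ≠ 0 :=
        (_root_.map_ne_zero _).mpr hφ0
      exact (one_lt_inv₀ (zero_lt_iff.mpr hv0)).mp h1
    obtain ⟨s, hsAJ, ⟨hsO, hs0⟩, hsint⟩ :=
      PoleClear.exists_clear_inf A N (Plan.phiQ2 N q hq hqq)⁻¹ hFT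
    have hsint' : IsIntegral (polyJinv Kbar)
        ((s : Om) * ((Plan.phiQ2 N q hq hqq : FN N) : Om)⁻¹) := hsint
    obtain ⟨D, hD⟩ := exists_pow_mul_isIntegral (polyJinv Kbar)
      (mem_polyJinv_of_mem_AJinv A hsAJ) hsint' hY
    -- the same elements at the top level
    set φ₂ : FN (M * q * q) := PhiQ2.g0 M q * PhiQ2.g1 M q * PhiQ2.g2 M q with hφ₂
    have hφcoe : ((Plan.phiQ2 N q hq hqq : FN N) : Om) = (φ₂ : Om) := PhiQ2.coe_phiQ2 M N hq hqq
    set s₂ : FN (M * q * q) := ⟨(s : Om), hle s.2⟩ with hs₂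
    set Z₂ : FN (M * q * q) := s₂ ^ D * (φ₂⁻¹ ^ c * g₂) with hZ₂
    have hZint : IsIntegral (polyJinv Kbar) (Z₂ : Om) := by
      have e : (Z₂ : Om) = (s : Om) ^ D *
          (((Plan.phiQ2 N q hq hqq : FN N) : Om)⁻¹ ^ c * (g : Om)) := by
        rw [hφcoe]
        rfl
      rw [e]
      exact hD
    -- transport along `r ξ`
    have h1 : IsIntegral (Algebra.adjoin Kbar {(PhiQ2.g0 M q)⁻¹}) Z₂ := by
      refine isIntegral_adjoin_of_algHom (modularFunctionFieldBar (M * q * q)).val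
        Subtype.val_injective (PhiQ2.g0 M q)⁻¹ Z₂ ?_
      have e : (modularFunctionFieldBar (M * q * q)).val (PhiQ2.g0 M q)⁻¹ =
          (jqModC Kbar)⁻¹ := by
        show ((PhiQ2.g0 M q : FN (M * q * q)) : Om)⁻¹ = _
        rw [PhiQ2.coe_g0]
      rw [e]
      exact hZint
    have h2 := isIntegral_adjoin_algHom (F.r ξ) (PhiQ2.g0 M q)⁻¹ Z₂ h1
    have e4 : F.r ξ (PhiQ2.g0 M q)⁻¹ = jK⁻¹ := by rw [map_inv₀, PhiQ2.r_g0]
    rw [e4] at h2
    have hrs : F.r ξ s₂ = (s : Om) := r_eq_coe F ξ s₂ (Rad.AJinv_le A (M * q) _ hsAJ)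
    have hrZ : F.r ξ Z₂ = (s : Om) ^ D * ((F.r ξ φ₂)⁻¹ ^ c * F.r ξ g₂) := by
      rw [hZ₂, map_mul, map_pow, map_mul, map_pow, map_inv₀, hrs]
    -- integrality of the factors
    have hjne : ∀ n : ℕ, jk A ^ n ≠ 0 := fun n => pow_ne_zero n (Main.jqModC_ne_zero' (kk A))
    obtain ⟨hφO, hφred⟩ : ∃ hc : F.r ξ φ₂ ∈ Ocal A, red A ⟨F.r ξ φ₂, hc⟩ = jk A ^ (q + 2) :=
      PhiQ2.emb_prod A F hqp hA (.mid ξ)
    have hφne : red A ⟨F.r ξ φ₂, hφO⟩ ≠ 0 := by
      rw [hφred]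
      exact hjne _
    have hφinvO : (F.r ξ φ₂)⁻¹ ∈ Ocal A := inv_mem_Ocal A ⟨_, hφO⟩ hφne
    have hφinvred : red A ⟨(F.r ξ φ₂)⁻¹, hφinvO⟩ = (jk A ^ (q + 2))⁻¹ := by
      rw [red_inv A ⟨_, hφO⟩ hφne, hφred]
    have hgOm : F.r ξ g₂ ∈ Ocal A := hgO (.mid ξ)
    have hZO : F.r ξ Z₂ ∈ Ocal A := by
      rw [hrZ]
      exact (Ocal A).mul_mem (Subring.pow_mem _ hsO D)
        ((Ocal A).mul_mem (Subring.pow_mem _ hφinvO c) hgOm)
    have hsM : IsIntegral (OM A M) (s : Om) :=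
      IntDescent.isIntegral_of_mem_subring (OM A M)
        ((mem_OM A).mpr ⟨hsO, Rad.AJinv_le A M _ hsAJ⟩)
    have hφinvM : IsIntegral (OM A M) ((F.r ξ φ₂)⁻¹) := by
      have hmem : ((φ₂⁻¹ : FN (M * q * q)) : Om) ∈ O := by
        refine (hS.mem_iff φ₂⁻¹).2 fun i => ?_
        obtain ⟨hc, hr⟩ := PhiQ2.emb_prod A F hqp hA i
        rw [map_inv₀]
        exact inv_mem_Ocal A ⟨_, hc⟩ (by rw [hr]; exact hjne _)
      have h3 := hintE φ₂⁻¹ hmem (.mid ξ)
      rwa [Plan.Frame.emb_mid, map_inv₀] at h3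
    have hgM : IsIntegral (OM A M) (F.r ξ g₂) := hintE g₂ g.2 (.mid ξ)
    have hZM : IsIntegral (OM A M) (F.r ξ Z₂) := by
      rw [hrZ]
      exact (hsM.pow D).mul ((hφinvM.pow c).mul hgM)
    have h4 : IsIntegral (AJinv A) (F.r ξ Z₂) :=
      InclGen.isIntegral_AJinv_gen A M q hqM hA hZM h2
    have h5 := ChartRedOf.isIntegral_OinfJ_red A hZO h4
    -- the reduction
    have hred : red A ⟨F.r ξ Z₂, hZO⟩ = red A ⟨(s : Om), hsO⟩ ^ D *
        (((jk A) ^ (q + 2))⁻¹ ^ c * red A ⟨F.r ξ g₂, hgOm⟩) := by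
      have e' : (⟨F.r ξ Z₂, hZO⟩ : Ocal A) = ⟨(s : Om), hsO⟩ ^ D *
          (⟨(F.r ξ φ₂)⁻¹, hφinvO⟩ ^ c * ⟨F.r ξ g₂, hgOm⟩) := Subtype.ext hrZ
      rw [e', map_mul, map_pow, map_mul, map_pow, hφinvred]
    -- `s̄` is a unit of `O_∞`
    obtain ⟨hs', hsinv⟩ := ChartRedOf.red_mem_polyJinv_of_mem_AJinv A hsAJ
    have hsOinf : red A ⟨(s : Om), hsO⟩ ∈ OinfJ (kk A) := ChartRedOf.polyJinv_le_OinfJ (kk A) hsinv
    have hsOinv : (red A ⟨(s : Om), hsO⟩)⁻¹ ∈ OinfJ (kk A) :=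
      ChartRedOf.inv_mem_OinfJ (kk A) hsOinf (by rw [hs0]; exact one_ne_zero)
    have hsne : red A ⟨(s : Om), hsO⟩ ≠ 0 := by
      intro h0
      rw [h0] at hs0
      simp at hs0
    have hfinal : (jqModC (kk A))⁻¹ ^ (c * (q + 2)) * red A ⟨F.r ξ g₂, hgO (.mid ξ)⟩ =
        ((red A ⟨(s : Om), hsO⟩)⁻¹) ^ D * red A ⟨F.r ξ Z₂, hZO⟩ := by
      rw [hred, ← mul_assoc, ← mul_pow, inv_mul_cancel₀ hsne, one_pow, one_mul, ← inv_pow,
        ← pow_mul, mul_comm (q + 2) c]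
    rw [hfinal]
    exact ((IntDescent.isIntegral_of_mem_subring (OinfJ (kk A)) hsOinv).pow D).mul h5

end Frame

end Fermat.Agent.S36.InclInst

end
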