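import Mathlib
import Fermat.Agent.S36.InclInst
import Fermat.Agent.S36.LiftAllOf

/-!
# P8 / S36 — [INCL] at all levels (owner: helper23)

`LiftAllOf.InclAllStmt` (the [INCL] input of `LiftAllOf.liftAllStmt_of`) from the single remaining
input of `InclInst.inclStmt`: `O` is integral over `O_M = F_M ∩ Ocal` (a by-product of [DIM]).

* `IntAllStmt`      : "`O` is integral over `O_M`" with the binders of `Plan.LiftAllStmt`;
* `inclAllStmt_of`  : `IntAllStmt → LiftAllOf.InclAllStmt`.
-/

set_option autoImplicit false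

noncomputable section

namespace Fermat.Agent.S36.InclAll

open ModularCurve AlgebraicCurve Fermat.Agent.S24 Fermat.Agent.S18 Fermat.Agent.S18.Content
  Fermat.Agent.S18.Plan Fermat.Agent.S34 Fermat.Agent.S36.Plan

/-- **"`O` is integral over `O_M = F_M ∩ Ocal`" at all levels** (binders of `Plan.LiftAllStmt`). -/
def IntAllStmt : Prop :=
  ∀ (N₀ N' M q : ℕ) [NeZero N'] [NeZero M] [NeZero q] (_ : q ∣ N') (h : Nat.Coprime M q),
    q.Prime → Nat.Coprime N₀ q → N' = N₀ * q → M = S34.Plan.aux q * N₀ →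
    ∀ A : ValuationSubring Kbar, A.LiesOverPrime q →
    ∀ (F : Frame M q h) (O : Subring Om) (ρ : O →+* Rq A q), IsSetup A F O ρ →
      ∀ g : O, IsIntegral (Incl.OM A M) (g : Om)

/-- **[INCL] at all levels**, from the integrality of `O` over `O_M`. -/
theorem inclAllStmt_of (hInt : IntAllStmt) : LiftAllOf.InclAllStmt := by
  intro N₀ N' M q _ _ _ hq' h hqp hcop hN' hM A hA F O ρ hS
  exact InclInst.inclStmt A hqp hA (Dvd.intro_left N' rfl) (Nat.mul_dvd_mul_right hq' q)
    (LiftAllOf.level_dvd hN' hM) hS (hInt N₀ N' M q hq' h hqp hcop hN' hM A hA F O ρ hS)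

end Fermat.Agent.S36.InclAll

end
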