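import Mathlib
import Fermat.Agent.S36.CuspZW
import Fermat.Agent.S36.CuspFamInst
import Fermat.Agent.S36.InclAll

/-!
# S36 (P8) — [CR]: the families at all levels, unconditional (helper86)

* `zwAllStmt`  : `CuspFamInst.ZWAllStmt` (= helper60's `CuspZW.exists_ZW` at all levels);
* `famAllStmt` : `CuspRegAll.FamAllStmt` — the third input of `LiftAllOf3.liftAllStmt_of3`,
  with NO hypothesis;
* `cuspRegAllStmt_of : DimAllStmt → IntAllStmt → LiftAllOf.CuspRegAllStmt` — `[CR]` at all levels
  from `[DIM]` and "`O` integral over `O_M`" only.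
-/

set_option autoImplicit false

noncomputable section

namespace Fermat.Agent.S36.CuspRegFinal

open ModularCurve AlgebraicCurve Fermat.Agent.S24 Fermat.Agent.S18 Fermat.Agent.S18.Content
  Fermat.Agent.S18.Plan Fermat.Agent.S34 Fermat.Agent.S36.Plan

/-- **(ZW) at all levels.** -/
theorem zwAllStmt : CuspFamInst.ZWAllStmt := by
  intro N₀ N' M q _ _ _ _ h hqp _ _ _ A hA F O ρ hS
  exact CuspZW.exists_ZW hS hqp hA

/-- **The three families of cusp regularity at all levels.** -/
theorem famAllStmt : CuspRegAll.FamAllStmt :=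
  CuspFamInst.famAllStmt_of_ZW zwAllStmt

/-- **[CR] at all levels**, from `[DIM]` and the integrality of `O` over `O_M`. -/
theorem cuspRegAllStmt_of (hDim : LiftAllOf.DimAllStmt) (hInt : InclAll.IntAllStmt) :
    LiftAllOf.CuspRegAllStmt :=
  CuspRegAll.cuspRegAllStmt_of hDim (InclAll.inclAllStmt_of hInt) famAllStmt

end Fermat.Agent.S36.CuspRegFinal

end
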