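import Mathlib
import Fermat.Agent.S36.Plan
import Fermat.Agent.S36.NumQ2
import Fermat.Agent.S34.ValOrtho

/-!
# S36 / P8 — [DIM] + [SCALE] at level `q²`, family-hypothesis form (helper5)

The twin of `S34/ValOrtho.setup`, `S34/ValInt.IsAL.dim`, `S34/ValOrtho.IsAL.scale` for the
`q + 1` coordinates of the level-`q²` frame (`S36/Plan`).

`κ = F_{M,k}` acts on `Rq A q = Coord q → k((T))` by
`a ↦ (∞ : a ; 0 : a(T^(q*q)) ; mid ξ : a)` (`twQ2`).  Given ONE finite family
`w : ι → F_{Mq²}` of elements of `O` with `card ι = q*q + q` whose reductions are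
`κ`-independent (`IsFam`), we get:

* `setup`          : the `Ortho2.Setup` for `F_M ⊆ F_{Mq²}`, `O_M ⊆ O`;
* `finrank_top2`   : `[F_{Mq²} : F_M] = q*q + q`;
* `dimStmt_of_fam` : `Plan.DimStmt`   (from `(Dim)` at the good level `M`, `S18.Plan.RedStmt`);
* `scaleStmt_of_fam` : `Plan.ScaleStmt`.
-/

set_option autoImplicit false
set_option maxHeartbeats 400000
set_option linter.unusedSectionVars false

noncomputable section

namespace Fermat.Agent.S36.DimAbs

open ModularCurve AlgebraicCurve Fermat.Agent.S24 Fermat.Agent.S18.Content Fermat.Agent.S18.Plan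
open Fermat.Agent.S18 Fermat.Agent.S34

/-! ## The twisted `κ`-algebra structure on `Rq` -/

section Tw

variable (A : ValuationSubring Kbar) (M q : ℕ) [NeZero q]

/-- `Rq A q`, to be given the `F_{M,k}`-algebra structure `a ↦ (a ; a(T^(q*q)) ; a, …, a)`. -/
def RtwQ (_A : ValuationSubring Kbar) (_q : ℕ) : Type := Plan.Rq _A _q

instance : CommRing (RtwQ A q) := inferInstanceAs (CommRing (Plan.Rq A q))

/-- The coordinate homs of `twQ2`. -/
def twCoord : Plan.Coord q → (↥(Fk A M) →+* Omk A)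
  | .inf => algebraMap ↥(Fk A M) (Omk A)
  | .zero => (qExpand (kk A) (q * q)).comp (algebraMap ↥(Fk A M) (Omk A))
  | .mid _ => algebraMap ↥(Fk A M) (Omk A)

/-- `a ↦ (∞ : a ; 0 : a(T^(q*q)) ; mid ξ : a)`. -/
def twQ2 : ↥(Fk A M) →+* Plan.Rq A q := RingHom.pi (twCoord A M q)

instance algTwQ : Algebra ↥(Fk A M) (RtwQ A q) := (twQ2 A M q).toAlgebra

theorem twQ2_inf (a : ↥(Fk A M)) : twQ2 A M q a .inf = (a : Omk A) := rfl

theorem twQ2_zero (a : ↥(Fk A M)) :
    twQ2 A M q a .zero = qExpand (kk A) (q * q) (a : Omk A) := rfl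

theorem twQ2_mid (a : ↥(Fk A M)) (ξ : Plan.MidIdx q) : twQ2 A M q a (.mid ξ) = (a : Omk A) := rfl

theorem algebraMap_tw (a : ↥(Fk A M)) :
    algebraMap ↥(Fk A M) (RtwQ A q) a = (show RtwQ A q from twQ2 A M q a) := rfl

theorem tw_smul_def (a : ↥(Fk A M)) (x : RtwQ A q) :
    a • x = (show RtwQ A q from twQ2 A M q a * (show Plan.Rq A q from x)) := rfl

end Tw

/-! ## The `Ortho2` setup for `F_M ⊆ F_{Mq²}` -/

section Ortho

variable {A : ValuationSubring Kbar} {M q : ℕ} [NeZero M] [NeZero q]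

/-- `F_{Mq²}` as an algebra over `F_M` (inclusion `α ∘ α`). -/
@[reducible] def algTop2 (M q : ℕ) [NeZero M] [NeZero q] : Algebra (FN M) (FN (M * q * q)) :=
  ((heckeAlphaBar Kbar (M * q) q).comp (heckeAlphaBar Kbar M q)).toRingHom.toAlgebra

attribute [local instance] algTop2

theorem algebraMap_top2 (x : FN M) :
    algebraMap (FN M) (FN (M * q * q)) x =
      heckeAlphaBar Kbar (M * q) q (heckeAlphaBar Kbar M q x) := rfl

theorem coe_algebraMap_top2 (x : FN M) :
    ((algebraMap (FN M) (FN (M * q * q)) x : FN (M * q * q)) : Om) = (x : Om) := by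
  rw [algebraMap_top2, coe_heckeAlphaBar, coe_heckeAlphaBar]

variable {h : Nat.Coprime M q} (F : Plan.Frame M q h) {O : Subring Om} {ρ : O →+* Plan.Rq A q}

/-- The three kinds of coordinates of an element of `F_M`. -/
theorem emb_alpha_alpha (x : FN M) (i : Plan.Coord q) :
    F.emb i (heckeAlphaBar Kbar (M * q) q (heckeAlphaBar Kbar M q x)) =
      match i with
      | .inf => (x : Om)
      | .zero => qExpand Kbar (q * q) (x : Om)
      | .mid _ => (x : Om) := by
  cases i with
  | inf => rw [Plan.Frame.emb_inf, coe_heckeAlphaBar, coe_heckeAlphaBar]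
  | zero =>
    rw [Plan.Frame.emb_zero, F.w_alpha, Sigma.sigma_alpha, coe_heckeBetaBar, coe_heckeBetaBar,
      qExpand_qExpand]
  | mid ξ => rw [Plan.Frame.emb_mid, F.r_alpha, coe_heckeAlphaBar]

/-- `O` as a subring of `F_{Mq²}`. -/
def OF (M q : ℕ) [NeZero M] [NeZero q] (O : Subring Om) : Subring (FN (M * q * q)) :=
  O.comap (algebraMap (FN (M * q * q)) Om)

theorem mem_OF {x : FN (M * q * q)} : x ∈ OF M q O ↔ (x : Om) ∈ O := Iff.rfl

/-- `OF → O`. -/
def toO (M q : ℕ) [NeZero M] [NeZero q] (O : Subring Om) : OF M q O →+* O where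
  toFun := fun x => ⟨((x : FN (M * q * q)) : Om), x.2⟩
  map_one' := rfl
  map_mul' := fun _ _ => rfl
  map_zero' := rfl
  map_add' := fun _ _ => rfl

theorem coe_toO (x : OF M q O) : ((toO M q O x : O) : Om) = ((x : FN (M * q * q)) : Om) :=
  rfl

/-- The reduction on `OF`, with values in the twisted algebra. -/
def redF (M : ℕ) [NeZero M] (ρ : O →+* Plan.Rq A q) : OF M q O →+* RtwQ A q :=
  ρ.comp (toO M q O)

theorem redF_apply (x : OF M q O) :
    redF M ρ x = (show Plan.Rq A q from ρ (toO M q O x)) := rfl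

/-- **(V5)** elements of `F_M ∩ Ocal` lie in `O`, with `ρ = twQ2 (red)`. -/
theorem rho_level (hS : Plan.IsSetup A F O ρ) (hRed : RedStmt A M) {x : Om}
    (hM : x ∈ modularFunctionFieldBar M) (hO : x ∈ Ocal A) :
    ∃ hx : x ∈ O, ρ ⟨x, hx⟩ = twQ2 A M q ⟨red A ⟨x, hO⟩, hRed.2.1 ⟨x, hO⟩ hM⟩ := by
  let y : FN (M * q * q) := heckeAlphaBar Kbar (M * q) q (heckeAlphaBar Kbar M q ⟨x, hM⟩)
  have hy : (y : Om) = x := by
    show ((heckeAlphaBar Kbar (M * q) q (heckeAlphaBar Kbar M q ⟨x, hM⟩) : FN (M * q * q)) : Om) = x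
    rw [coe_heckeAlphaBar, coe_heckeAlphaBar]
  have hq2 : qExpand Kbar (q * q) x ∈ Ocal A :=
    Fermat.Agent.Lib.KroneckerCong.qExpand_mem_Ocal A (q * q) hO
  have hemb : ∀ i : Plan.Coord q, F.emb i y ∈ Ocal A := by
    intro i
    have e := emb_alpha_alpha F (⟨x, hM⟩ : FN M) i
    cases i with
    | inf => rw [show F.emb .inf y = x from e]; exact hO
    | zero => rw [show F.emb .zero y = qExpand Kbar (q * q) x from e]; exact hq2
    | mid ξ => rw [show F.emb (.mid ξ) y = x from e]; exact hO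
  have hyO : (y : Om) ∈ O := (hS.mem_iff y).mpr hemb
  have hx : x ∈ O := hy ▸ hyO
  refine ⟨hx, ?_⟩
  have e1 : (⟨x, hx⟩ : O) = ⟨(y : Om), hyO⟩ := Subtype.ext hy.symm
  rw [e1]
  funext i
  rw [hS.ρ_apply y hyO i (hemb i)]
  have e := emb_alpha_alpha F (⟨x, hM⟩ : FN M) i
  cases i with
  | inf =>
    rw [twQ2_inf]
    exact red_congr A (show F.emb .inf y = x from e) _ _
  | zero =>
    rw [twQ2_zero]
    rw [red_congr A (show F.emb .zero y = qExpand Kbar (q * q) x from e) _ hq2]
    exact Fermat.Agent.Lib.KroneckerCong.red_qExpand A (q * q) ⟨x, hO⟩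
  | mid ξ =>
    rw [twQ2_mid]
    exact red_congr A (show F.emb (.mid ξ) y = x from e) _ _

/-- Constants of `A` lie in `O`. -/
theorem C_mem (hS : Plan.IsSetup A F O ρ) (hRed : RedStmt A M) (a : A) :
    (HahnSeries.C (a : Kbar) : Om) ∈ O :=
  (rho_level F hS hRed (Val.C_mem_field M (a : Kbar)) (C_mem_Ocal A a.2)).1

/-- `ρ` on constants is the residue map, coordinatewise. -/
theorem rho_C (hS : Plan.IsSetup A F O ρ) (hRed : RedStmt A M) (a : A)
    (ha : (HahnSeries.C (a : Kbar) : Om) ∈ O) (i : Plan.Coord q) :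
    ρ ⟨_, ha⟩ i = HahnSeries.C (IsLocalRing.residue A a) := by
  obtain ⟨hx, e⟩ := rho_level F hS hRed (Val.C_mem_field M (a : Kbar)) (C_mem_Ocal A a.2)
  rw [e]
  cases i with
  | inf => rw [twQ2_inf]; exact red_C A a.2
  | zero =>
    rw [twQ2_zero]
    show qExpand (kk A) (q * q) (red A ⟨_, _⟩) = _
    rw [red_C A a.2, qExpand_C]
  | mid ξ => rw [twQ2_mid]; exact red_C A a.2

/-- `F_M ∩ Ocal ⊆ O`. -/
theorem incl_top (hS : Plan.IsSetup A F O ρ) (hRed : RedStmt A M) (x : Val.OMv hRed) :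
    algebraMap (FN M) (FN (M * q * q)) (x : FN M) ∈ OF M q O := by
  rw [mem_OF, coe_algebraMap_top2]
  exact (rho_level F hS hRed (x : FN M).2 x.2).1

theorem compat_top (hS : Plan.IsSetup A F O ρ) (hRed : RedStmt A M) (x : Val.OMv hRed) :
    redF M ρ ⟨algebraMap (FN M) (FN (M * q * q)) (x : FN M), incl_top F hS hRed x⟩ =
      algebraMap ↥(Fk A M) (RtwQ A q) (Val.redM hRed x) := by
  obtain ⟨hx, e⟩ := rho_level F hS hRed (x : FN M).2 x.2
  have e1 : toO M q O ⟨algebraMap (FN M) (FN (M * q * q)) (x : FN M), incl_top F hS hRed x⟩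
      = ⟨((x : FN M) : Om), hx⟩ := by
    apply Subtype.ext
    rw [coe_toO]
    exact coe_algebraMap_top2 (x : FN M)
  rw [redF_apply, e1, e, algebraMap_tw]
  exact congrArg (twQ2 A M q) (Subtype.ext rfl)

/-- The `Ortho2` setup. -/
theorem setup (hS : Plan.IsSetup A F O ρ) (hRed : RedStmt A M) :
    Ortho2.Setup (Val.OMv hRed) (OF M q O) (Val.redM hRed) (redF M ρ) where
  incl := incl_top F hS hRed
  red_nonunit := fun x hx =>
    CharStmt.redO_nonunit (Ocal A) (red A) (modularFunctionFieldBar M) (Fk A M)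
      (fun y hy => inv_mem_Ocal A y hy) _ _ x hx
  compat := compat_top F hS hRed

end Ortho

/-! ## The degree -/

section Degree

variable {M q : ℕ} [NeZero M] [NeZero q]

attribute [local instance] algTop2

/-- `[F_{Mq²} : F_M] = q² + q`. -/
theorem finrank_top2 [Fact q.Prime] (hqM : ¬ q ∣ M) :
    Module.finrank (FN M) (FN (M * q * q)) = q * q + q := by
  have hdvd : M ∣ M * q * q := ⟨q * q, by ring⟩
  have hle : modularFunctionFieldBar M ≤ modularFunctionFieldBar (M * q * q) :=
    CharStmt.bar_le hdvd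
  have h1 := CharStmt.psi_mul_finrank hle
  let e : FN (M * q * q) ≃ₗ[FN M] ↥(IntermediateField.extendScalars hle) :=
    { toFun := fun x => ⟨(x : Om), x.2⟩
      invFun := fun y => ⟨(y : Om), y.2⟩
      map_add' := fun _ _ => rfl
      map_smul' := fun c x => Subtype.ext (by
        show ((c • x : FN (M * q * q)) : Om) = _
        rw [Algebra.smul_def, MulMemClass.coe_mul, coe_algebraMap_top2]
        rfl)
      left_inv := fun _ => rfl
      right_inv := fun _ => rfl }
  rw [← e.finrank_eq] at h1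
  have h2 : dedekindPsi (M * q * q) = q * (q + 1) * dedekindPsi M :=
    NumQ2.dedekindPsi_mul_prime_sq (Fact.out) hqM
  have h3 := FibreCount.dedekindPsi_pos M
  rw [h2, mul_comm] at h1
  have h4 := Nat.eq_of_mul_eq_mul_right h3 h1
  rw [h4]; ring

end Degree

/-! ## The family hypothesis and its consequences -/

section Family

variable {A : ValuationSubring Kbar} {M q : ℕ} [NeZero M] [NeZero q]
variable {O : Subring Om} {ρ : O →+* Plan.Rq A q}

attribute [local instance] algTop2

/-- **The family hypothesis**: `w : ι → F_{Mq²}` lies in `O`, has `q*q + q` members, and its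
reductions are `κ`-linearly independent for the twisted action `twQ2`. -/
structure IsFam (ρ : O →+* Plan.Rq A q) {ι : Type} [Fintype ι] (w : ι → FN (M * q * q)) :
    Prop where
  mem : ∀ i, ((w i : FN (M * q * q)) : Om) ∈ O
  card : Fintype.card ι = q * q + q
  ind : ∀ a : ι → ↥(Fk A M),
    ∑ i, twQ2 A M q (a i) * ρ ⟨((w i : FN (M * q * q)) : Om), mem i⟩ = 0 → ∀ i, a i = 0

variable {ι : Type} [Fintype ι] {w : ι → FN (M * q * q)}

/-- The family as elements of `OF`. -/
def IsFam.wO (hw : IsFam ρ w) : ι → OF M q O := fun i => ⟨w i, hw.mem i⟩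

theorem IsFam.coe_wO (hw : IsFam ρ w) (i : ι) : ((hw.wO i : OF M q O) : FN (M * q * q)) = w i :=
  rfl

theorem IsFam.redF_wO (hw : IsFam ρ w) (i : ι) :
    redF M ρ (hw.wO i) = (show Plan.Rq A q from ρ ⟨((w i : FN (M * q * q)) : Om), hw.mem i⟩) :=
  rfl

theorem IsFam.nonempty (hw : IsFam ρ w) : Nonempty ι := by
  have h1 : 0 < Fintype.card ι := by
    rw [hw.card]
    have := Nat.pos_of_ne_zero (NeZero.ne q)
    positivity
  exact Fintype.card_pos_iff.mp h1

/-- `κ`-linear independence of the reductions, for the twisted algebra structure. -/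
theorem IsFam.linearIndependent (hw : IsFam ρ w) :
    LinearIndependent ↥(Fk A M) (fun i => redF M ρ (hw.wO i)) := by
  rw [Fintype.linearIndependent_iff]
  intro a ha
  exact hw.ind a ha

theorem IsFam.card_eq [Fact q.Prime] (hw : IsFam ρ w) (hqM : ¬ q ∣ M) :
    Fintype.card ι = Module.finrank (FN M) (FN (M * q * q)) := by
  rw [hw.card, finrank_top2 hqM]

end Family

/-! ## `(Dim)` and scaling -/

section Main

variable {A : ValuationSubring Kbar} {M q : ℕ} [NeZero M] [NeZero q]
variable {h : Nat.Coprime M q} (F : Plan.Frame M q h) {O : Subring Om} {ρ : O →+* Plan.Rq A q}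
variable {ι : Type} [Fintype ι] {w : ι → FN (M * q * q)}

attribute [local instance] algTop2

/-- Constants as elements of `F_{M,k}`. -/
def cF (A : ValuationSubring Kbar) (M : ℕ) (c : kk A) : ↥(Fk A M) :=
  ⟨HahnSeries.C c, by
    rw [← algebraMap_LS_eq_C]; exact (Fk A M).algebraMap_mem c⟩

theorem coe_cF (c : kk A) : ((cF A M c : ↥(Fk A M)) : Omk A) = HahnSeries.C c := rfl

theorem twCoord_cF (i : Plan.Coord q) (c : kk A) :
    twCoord A M q i (cF A M c) = HahnSeries.C c := by
  cases i with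
  | inf => rfl
  | zero =>
    show qExpand (kk A) (q * q) (HahnSeries.C c) = _
    rw [qExpand_C]
  | mid ξ => rfl

theorem twCoord_ne_zero (i : Plan.Coord q) {a : ↥(Fk A M)} (ha : a ≠ 0) :
    twCoord A M q i a ≠ 0 := by
  intro h0
  exact ha ((twCoord A M q i).injective (h0.trans (map_zero _).symm))

/-- Linear independence over `k` for the Pi-algebra structure `Plan.algR`, coordinatewise. -/
theorem linearIndependent_algR {κ : Type} [Fintype κ] (f : κ → Plan.Rq A q)
    (hf : ∀ lam : κ → kk A, (∀ i : Plan.Coord q, ∑ p, HahnSeries.C (lam p) * f p i = 0) →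
      ∀ p, lam p = 0) :
    @LinearIndependent κ (kk A) (Plan.Rq A q) f _ _ (Plan.algR A q).toModule := by
  let _ := Plan.algR A q
  rw [Fintype.linearIndependent_iff]
  intro lam hlam
  refine hf lam fun i => ?_
  have h1 : (∑ p, lam p • f p) i = 0 := congrFun hlam i
  rw [Finset.sum_apply] at h1
  rw [← h1]
  refine Finset.sum_congr rfl fun p _ => ?_
  rw [HahnSeries.C_mul_eq_smul]
  rfl

set_option maxHeartbeats 1600000 in
/-- **[DIM]** from a family. -/
theorem dimStmt_of_fam [Fact q.Prime] (hqM : ¬ q ∣ M) (hRed : RedStmt A M)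
    (hS : Plan.IsSetup A F O ρ) (hw : IsFam ρ w) : Plan.DimStmt A M q O ρ := by
  classical
  intro W hWF hfin
  have hWF' : ∀ g ∈ W, g ∈ modularFunctionFieldBar (M * q * q) := fun g hg =>
    Main.mem_fieldSub.mp (hWF hg)
  have S := setup F hS hRed
  have := hw.nonempty
  have hli := hw.linearIndependent
  have hcard := hw.card_eq hqM
  -- coordinates in the basis `w`
  let coord : Om → ι → Om := fun g i =>
    if hg : g ∈ modularFunctionFieldBar (M * q * q) then
      (((S.basisOf hw.wO hli hcard).repr ⟨g, hg⟩ i : FN M) : Om) else 0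
  have hcoordM : ∀ g i, coord g i ∈ modularFunctionFieldBar M := by
    intro g i
    by_cases hg : g ∈ modularFunctionFieldBar (M * q * q)
    · simp only [coord, dif_pos hg]
      exact ((S.basisOf hw.wO hli hcard).repr ⟨g, hg⟩ i).2
    · simp only [coord, dif_neg hg]
      exact zero_mem _
  have hexp : ∀ g, g ∈ modularFunctionFieldBar (M * q * q) →
      g = ∑ i, coord g i * ((w i : FN (M * q * q)) : Om) := by
    intro g hg
    have h1 := (S.basisOf hw.wO hli hcard).sum_repr ⟨g, hg⟩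
    have h2 : (((∑ i, (S.basisOf hw.wO hli hcard).repr ⟨g, hg⟩ i • (S.basisOf hw.wO hli hcard) i :
        FN (M * q * q))) : Om) = g := by rw [h1]
    rw [AddSubmonoidClass.coe_finsetSum] at h2
    conv_lhs => rw [← h2]
    refine Finset.sum_congr rfl fun i _ => ?_
    simp only [coord, dif_pos hg]
    rw [Ortho2.Setup.basisOf_apply, Algebra.smul_def, MulMemClass.coe_mul, coe_algebraMap_top2]
    rfl
  obtain ⟨s, hs⟩ : W.FG := (Submodule.fg_top W).mp (Module.finite_def.mp hfin)
  obtain ⟨V, hVdef⟩ : ∃ V : Submodule Kbar Om, V = Submodule.span Kbar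
      (((s ×ˢ (Finset.univ : Finset ι)).image fun p => coord p.1 p.2 : Finset Om) :
        Set Om) := ⟨_, rfl⟩
  have hVfin : Module.Finite Kbar V := by rw [hVdef]; exact Module.Finite.span_finset Kbar _
  have hVM : ∀ v ∈ V, v ∈ modularFunctionFieldBar M := by
    intro v hv
    have hle : V ≤ RedGlue.levelSub M := by
      rw [hVdef, Submodule.span_le]
      intro x hx
      rw [Finset.coe_image] at hx
      obtain ⟨p, -, rfl⟩ := hx
      exact hcoordM p.1 p.2
    exact RedGlue.mem_levelSub.mp (hle hv)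
  obtain ⟨m, v, hvspan, hvli⟩ := hRed.2.2.2.1 V hVM hVfin
  have hvM : ∀ l, ((v l : Ocal A) : Om) ∈ modularFunctionFieldBar M := fun l =>
    hVM _ (by rw [← hvspan]; exact Submodule.subset_span ⟨l, rfl⟩)
  choose hvO hvRed using fun l => rho_level F hS hRed (hvM l) (v l).2
  -- the reductions of the `v l` as elements of `F_{M,k}`
  let rF : Fin m → ↥(Fk A M) := fun l => ⟨red A (v l), hRed.2.1 (v l) (hvM l)⟩
  let u : ι × Fin m → O := fun p => ⟨_, hvO p.2⟩ * ⟨_, hw.mem p.1⟩
  have hu_coe : ∀ p, ((u p : O) : Om) =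
      ((v p.2 : Ocal A) : Om) * ((w p.1 : FN (M * q * q)) : Om) := fun p => rfl
  have hu_red : ∀ p, ρ (u p) = twQ2 A M q (rF p.2) * ρ ⟨_, hw.mem p.1⟩ := by
    intro p
    show ρ (⟨_, hvO p.2⟩ * ⟨_, hw.mem p.1⟩) = _
    rw [map_mul, hvRed]
  have hu : @LinearIndependent (ι × Fin m) (kk A) (Plan.Rq A q) (fun p => ρ (u p)) _ _
      (Plan.algR A q).toModule := by
    refine linearIndependent_algR _ fun lam hlam => ?_
    -- the coefficients `a i = Σ_l lam (i,l) · red (v l) ∈ F_{M,k}`
    let a : ι → ↥(Fk A M) := fun i => ∑ l, cF A M (lam (i, l)) * rF l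
    have ha : ∑ i, twQ2 A M q (a i) * ρ ⟨((w i : FN (M * q * q)) : Om), hw.mem i⟩ = 0 := by
      refine funext fun j => ?_
      rw [Finset.sum_apply, Pi.zero_apply]
      have h1 := hlam j
      rw [Fintype.sum_prod_type] at h1
      rw [← h1]
      refine Finset.sum_congr rfl fun i _ => ?_
      show twCoord A M q j (a i) * ρ ⟨_, hw.mem i⟩ j = _
      rw [map_sum, Finset.sum_mul]
      refine Finset.sum_congr rfl fun l _ => ?_
      rw [map_mul, twCoord_cF, hu_red, mul_assoc]
      rfl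
    have ha0 := hw.ind a ha
    rintro ⟨i, l⟩
    have h2 : ∑ l, lam (i, l) • red A (v l) = 0 := by
      have h3 : ((∑ l, cF A M (lam (i, l)) * rF l : ↥(Fk A M)) : Omk A) = 0 := by
        have h4 : (∑ l, cF A M (lam (i, l)) * rF l : ↥(Fk A M)) = 0 := ha0 i
        rw [h4]; rfl
      rw [AddSubmonoidClass.coe_finsetSum] at h3
      rw [← h3]
      refine Finset.sum_congr rfl fun l _ => ?_
      rw [MulMemClass.coe_mul, coe_cF, HahnSeries.C_mul_eq_smul]
    exact Fintype.linearIndependent_iff.mp hvli (fun l => lam (i, l)) h2 l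
  have hW : W ≤ Submodule.span Kbar (Set.range fun p => ((u p : O) : Om)) := by
    rw [← hs, Submodule.span_le]
    intro g hg
    have hgW : g ∈ W := by rw [← hs]; exact Submodule.subset_span hg
    have hgF := hWF' g hgW
    rw [SetLike.mem_coe, hexp g hgF]
    refine Submodule.sum_mem _ fun i _ => ?_
    have hci : coord g i ∈ Submodule.span Kbar (Set.range fun l => ((v l : Ocal A) : Om)) := by
      rw [hvspan, hVdef]
      refine Submodule.subset_span ?_
      rw [Finset.coe_image]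
      exact ⟨(g, i), by simp [hg], rfl⟩
    obtain ⟨γ, hγ⟩ := (Submodule.mem_span_range_iff_exists_fun Kbar).1 hci
    rw [← hγ, Finset.sum_mul]
    refine Submodule.sum_mem _ fun l _ => ?_
    have e1 : γ l • ((v l : Ocal A) : Om) * ((w i : FN (M * q * q)) : Om) =
        γ l • ((u (i, l) : O) : Om) := by
      rw [hu_coe, ← HahnSeries.C_mul_eq_smul, ← HahnSeries.C_mul_eq_smul, mul_assoc]
    rw [e1]
    exact Submodule.smul_mem _ _ (Submodule.subset_span ⟨(i, l), rfl⟩)
  exact @DimTransfer.exists_orthonormal_of_le_span Kbar Om (kk A) (Plan.Rq A q) (ι × Fin m)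
    _ _ HahnSeries.instAlgebra _ _ (Plan.algR A q) _
    A (IsLocalRing.residue A) O ρ
    (fun a => C_mem F hS hRed a) IsLocalRing.residue_surjective
    (fun a => by
      rw [IsLocalRing.residue_eq_zero_iff, IsLocalRing.mem_maximalIdeal, mem_nonunits_iff])
    (fun a => funext fun i => rho_C F hS hRed a _ i) u hu W hW

set_option maxHeartbeats 800000 in
/-- **[SCALE]** from a family. -/
theorem scaleStmt_of_fam [Fact q.Prime] (hqM : ¬ q ∣ M) (hRed : RedStmt A M)
    (hS : Plan.IsSetup A F O ρ) (hw : IsFam ρ w) : Plan.ScaleStmt A M q O ρ := by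
  classical
  intro g hgF hg0
  have S := setup F hS hRed
  have := hw.nonempty
  have hli := hw.linearIndependent
  have hcard := hw.card_eq hqM
  have hg0' : (⟨g, hgF⟩ : FN (M * q * q)) ≠ 0 := fun h0 => hg0 (congrArg Subtype.val h0)
  obtain ⟨c, hc0, hmem, hne⟩ := S.exists_normalize hw.wO hli hcard ⟨g, hgF⟩ hg0'
  have hcM : ((c : FN M) : Om)⁻¹ ∈ modularFunctionFieldBar M :=
    (modularFunctionFieldBar M).inv_mem c.2
  have hc0' : ((c : FN M) : Om) ≠ 0 := fun h0 => hc0 (Subtype.ext h0)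
  obtain ⟨d, hd0, hu, hured⟩ := hRed.1 _ hcM (inv_ne_zero hc0')
  have huM : HahnSeries.C d * ((c : FN M) : Om)⁻¹ ∈ modularFunctionFieldBar M :=
    mul_mem (Val.C_mem_field M d) hcM
  obtain ⟨hx, ex⟩ := rho_level F hS hRed huM hu
  have hcg : ((c • (⟨g, hgF⟩ : FN (M * q * q)) : FN (M * q * q)) : Om) =
      ((c : FN M) : Om) * g := by
    rw [Algebra.smul_def, MulMemClass.coe_mul, coe_algebraMap_top2]
  have hcgO : ((c : FN M) : Om) * g ∈ O := by rw [← hcg]; exact hmem
  have e1 : HahnSeries.C d * g =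
      (HahnSeries.C d * ((c : FN M) : Om)⁻¹) * (((c : FN M) : Om) * g) := by
    field_simp
  have hP : HahnSeries.C d * g ∈ O := by rw [e1]; exact O.mul_mem hx hcgO
  refine ⟨d, hd0, hP, ?_⟩
  have e2 : (⟨_, hP⟩ : O) = ⟨_, hx⟩ * ⟨_, hcgO⟩ := Subtype.ext e1
  rw [e2, map_mul, ex]
  intro h0
  apply hne
  have e3 : redF M ρ ⟨c • (⟨g, hgF⟩ : FN (M * q * q)), hmem⟩ =
      (show Plan.Rq A q from ρ ⟨_, hcgO⟩) := by
    rw [redF_apply]
    exact congrArg ρ (Subtype.ext hcg)
  rw [e3]
  refine funext fun i => ?_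
  have h1 : twCoord A M q i ⟨red A ⟨_, hu⟩, hRed.2.1 ⟨_, hu⟩ huM⟩ * ρ ⟨_, hcgO⟩ i = 0 :=
    congrFun h0 i
  exact (mul_eq_zero.mp h1).resolve_left
    (twCoord_ne_zero i (fun h => hured (congrArg Subtype.val h)))

end Main
end Fermat.Agent.S36.DimAbs
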