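import Mathlib
import Fermat.Agent.S18.MainLemmas
import Fermat.Agent.S18.ContentMain
import Fermat.Agent.S28.Theta
import Fermat.Agent.S28.CruxDescent
import Fermat.Agent.S34.ValIndep
import Fermat.Agent.Lib.KroneckerCongOcal
import Fermat.Agent.S36.ScaleThetaRed
import Fermat.Agent.S36.Q2Series

/-!
# S36 / P8 — [VAL-FAM(q²)]: the explicit orthonormal family at level `q²` (helper39)

Frame-independent hypothesis form.  `F` is a field over `Q̄` with `q + 1` `Q̄`-algebra expansions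
into `Q̄((T))`: `εI` (infinity), `ε0` (zero), `εM i` (`i : Fin (q - 1)`, the middle cusps), and two
elements `j`, `j2` whose expansions are (`Coords`)

* `εI : (j, j2) ↦ (j(T), j(T^(q²)))`,
* `ε0 : (j, j2) ↦ (j(T^(q²)), j(T))`,
* `εM i : (j, j2) ↦ (j(T), j(ζ^(i+1) T))`, `ζ` a primitive `q`-th root of unity.

With `zI = (j - j2^(q²))(j - j2)`, `z0 = (j2 - j^(q²))(j2 - j)`, `zM = (j2 - j^(q²))(j - j2^(q²))`,
`s = zI + z0 + zM`, `e_* = z_*/s` and `W = (j - j2)/(1 - ζ)` the family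

  `famI = eI`,  `fam0 l = e0 · j2^l` (`l < q²`),  `famM m = eM · W^m` (`m < q - 1`)

consists of elements integral at all `q + 1` expansions, with reductions (`redEq_fam`)

  `(1; 0; 0)`,  `(0; j̄^l; 0)`,  `(0; 0; ((i+1) · θ j̄)^m)_i`,

and these are independent over `κ` acting by `c ↦ (c; c(T^(q²)); c, …, c)` (`hind`).
-/

set_option autoImplicit false

noncomputable section

namespace Fermat.Agent.S36.FamQ2

open ModularCurve Fermat.Agent.S24 Fermat.Agent.S18 Fermat.Agent.S18.Content Fermat.Agent.S18.Plan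
open Fermat.Agent.S28
open Fermat.Agent.Lib.KroneckerCong

/-! ## `RedEq`: integrality with prescribed reduction -/

/-- `x ∈ Ocal A` with reduction `y`. -/
def RedEq (A : ValuationSubring Kbar) (x : Om) (y : Omk A) : Prop :=
  ∃ h : x ∈ Ocal A, red A ⟨x, h⟩ = y

namespace RedEq

variable {A : ValuationSubring Kbar} {x x' : Om} {y y' : Omk A}

theorem mem (h : RedEq A x y) : x ∈ Ocal A := h.1

theorem of_mem (h : x ∈ Ocal A) : RedEq A x (red A ⟨x, h⟩) := ⟨h, rfl⟩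

theorem congr_left (h : RedEq A x y) (e : x = x') : RedEq A x' y := e ▸ h

theorem congr_right (h : RedEq A x y) (e : y = y') : RedEq A x y' := e ▸ h

theorem add (h : RedEq A x y) (h' : RedEq A x' y') : RedEq A (x + x') (y + y') := by
  obtain ⟨hx, e⟩ := h
  obtain ⟨hx', e'⟩ := h'
  refine ⟨(Ocal A).add_mem hx hx', ?_⟩
  rw [← e, ← e', ← map_add]
  exact red_congr A rfl _ _

theorem sub (h : RedEq A x y) (h' : RedEq A x' y') : RedEq A (x - x') (y - y') := by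
  obtain ⟨hx, e⟩ := h
  obtain ⟨hx', e'⟩ := h'
  refine ⟨(Ocal A).sub_mem hx hx', ?_⟩
  rw [← e, ← e', ← map_sub]
  exact red_congr A rfl _ _

theorem mul (h : RedEq A x y) (h' : RedEq A x' y') : RedEq A (x * x') (y * y') := by
  obtain ⟨hx, e⟩ := h
  obtain ⟨hx', e'⟩ := h'
  refine ⟨(Ocal A).mul_mem hx hx', ?_⟩
  rw [← e, ← e', ← map_mul]
  exact red_congr A rfl _ _

theorem one : RedEq A (1 : Om) 1 := ⟨(Ocal A).one_mem, map_one (red A)⟩

theorem zero : RedEq A (0 : Om) 0 := ⟨(Ocal A).zero_mem, map_zero (red A)⟩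

theorem pow (h : RedEq A x y) (n : ℕ) : RedEq A (x ^ n) (y ^ n) := by
  induction n with
  | zero => simpa using (one : RedEq A (1 : Om) 1)
  | succ n ih => rw [pow_succ, pow_succ]; exact ih.mul h

theorem inv (h : RedEq A x y) (hy : y ≠ 0) : RedEq A x⁻¹ y⁻¹ := by
  obtain ⟨hx, e⟩ := h
  rw [← e] at hy ⊢
  exact ⟨inv_mem_Ocal A ⟨x, hx⟩ hy, red_inv A ⟨x, hx⟩ hy⟩

theorem div (h : RedEq A x y) (h' : RedEq A x' y') (hy : y' ≠ 0) : RedEq A (x / x') (y / y') := by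
  rw [div_eq_mul_inv, div_eq_mul_inv]
  exact h.mul (h'.inv hy)

/-- Constants of `A`. -/
theorem const (a : A) : RedEq A (HahnSeries.C (a : Kbar)) (HahnSeries.C (IsLocalRing.residue A a)) :=
  ⟨C_mem_Ocal A a.2, red_C A a.2⟩

/-- `A`-integral series. -/
theorem iota (u : LaurentSeries A) : RedEq A (Fermat.Agent.S18.Content.iota A u) (rho A u) :=
  ⟨iota_mem_Ocal A u, red_iota A u⟩

/-- A non-unit constant times an integral element reduces to `0`. -/
theorem small_mul (a : A) (ha : IsLocalRing.residue A a = 0) (hx : x ∈ Ocal A) :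
    RedEq A (HahnSeries.C (a : Kbar) * x) 0 := by
  have h := (const (A := A) a).mul (of_mem hx)
  rw [ha, map_zero, zero_mul] at h
  exact h

end RedEq

/-! ## The elements -/

section Elements

variable {F : Type*} [Field F] (q : ℕ) (j j2 : F)

/-- `zI = (j - j2^(q²)) (j - j2)`: nonzero reduction at infinity only. -/
def zI : F := (j - j2 ^ (q * q)) * (j - j2)

/-- `z0 = (j2 - j^(q²)) (j2 - j)`: nonzero reduction at zero only. -/
def z0 : F := (j2 - j ^ (q * q)) * (j2 - j)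

/-- `zM = (j2 - j^(q²)) (j - j2^(q²))`: nonzero reduction at the middle cusps only. -/
def zM : F := (j2 - j ^ (q * q)) * (j - j2 ^ (q * q))

/-- `s = zI + z0 + zM`, a unit at all `q + 1` expansions. -/
def sEl : F := zI q j j2 + z0 q j j2 + zM q j j2

/-- The lifted component idempotent at infinity. -/
def eI : F := zI q j j2 / sEl q j j2

/-- The lifted component idempotent at zero. -/
def e0 : F := z0 q j j2 / sEl q j j2

/-- The lifted idempotent of the middle components. -/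
def eM : F := zM q j j2 / sEl q j j2

/-- The family, part at infinity: `eI`. -/
def famI : F := eI q j j2

/-- The family, part at zero: `e0 · j2^l`, `l < q²`. -/
def fam0 (l : Fin (q * q)) : F := e0 q j j2 * j2 ^ (l : ℕ)

end Elements

/-- `W = (j - j2) / (1 - ζ)`. -/
def wEl {F : Type*} [Field F] [Algebra Kbar F] (ζ : Kbarˣ) (j j2 : F) : F :=
  algebraMap Kbar F ((1 - (ζ : Kbar))⁻¹) * (j - j2)

/-- The family, middle part: `eM · W^m`, `m < q - 1`. -/
def famM {F : Type*} [Field F] [Algebra Kbar F] (q : ℕ) (ζ : Kbarˣ) (j j2 : F) (m : Fin (q - 1)) :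
    F :=
  eM q j j2 * wEl ζ j j2 ^ (m : ℕ)

/-- `zM · W^m` (the middle family before division by the unit `s`). -/
def zW {F : Type*} [Field F] [Algebra Kbar F] (q : ℕ) (ζ : Kbarˣ) (j j2 : F) (m : ℕ) : F :=
  zM q j j2 * wEl ζ j j2 ^ m

/-- `zM · W^m = (1 - ζ)^(-m) · (j2 - j^(q²)) (j - j2^(q²)) (j - j2)^m`. -/
theorem zW_eq {F : Type*} [Field F] [Algebra Kbar F] (q : ℕ) (ζ : Kbarˣ) (j j2 : F) (m : ℕ) :
    zW q ζ j j2 m = algebraMap Kbar F (((1 - (ζ : Kbar))⁻¹) ^ m) *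
      ((j2 - j ^ (q * q)) * (j - j2 ^ (q * q)) * (j - j2) ^ m) := by
  rw [zW, zM, wEl, mul_pow, map_pow]
  ring

/-- `famM m = zM · W^m / s`. -/
theorem famM_eq {F : Type*} [Field F] [Algebra Kbar F] (q : ℕ) (ζ : Kbarˣ) (j j2 : F)
    (m : Fin (q - 1)) : famM q ζ j j2 m = zW q ζ j j2 (m : ℕ) * (sEl q j j2)⁻¹ := by
  rw [famM, eM, zW]
  ring

/-! ## Functoriality of the elements -/

section Map

variable {F F' G : Type*} [Field F] [Field F'] [FunLike G F F'] [RingHomClass G F F'] (q : ℕ)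
  (f : G) (j j2 : F)

theorem map_zI : f (zI q j j2) = zI q (f j) (f j2) := by
  simp only [zI, map_mul, map_sub, map_pow]

theorem map_z0 : f (z0 q j j2) = z0 q (f j) (f j2) := by
  simp only [z0, map_mul, map_sub, map_pow]

theorem map_zM : f (zM q j j2) = zM q (f j) (f j2) := by
  simp only [zM, map_mul, map_sub, map_pow]

theorem map_sEl : f (sEl q j j2) = sEl q (f j) (f j2) := by
  simp only [sEl, map_add, map_zI, map_z0, map_zM]

theorem map_eI : f (eI q j j2) = eI q (f j) (f j2) := by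
  simp only [eI, map_div₀, map_zI, map_sEl]

theorem map_e0 : f (e0 q j j2) = e0 q (f j) (f j2) := by
  simp only [e0, map_div₀, map_z0, map_sEl]

theorem map_eM : f (eM q j j2) = eM q (f j) (f j2) := by
  simp only [eM, map_div₀, map_zM, map_sEl]

theorem map_famI : f (famI q j j2) = famI q (f j) (f j2) := map_eI q f j j2

theorem map_fam0 (l : Fin (q * q)) : f (fam0 q j j2 l) = fam0 q (f j) (f j2) l := by
  simp only [fam0, map_mul, map_pow, map_e0]

end Map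

theorem map_wEl {F F' : Type*} [Field F] [Field F'] [Algebra Kbar F] [Algebra Kbar F']
    (ε : F →ₐ[Kbar] F') (ζ : Kbarˣ) (j j2 : F) : ε (wEl ζ j j2) = wEl ζ (ε j) (ε j2) := by
  simp only [wEl, map_mul, map_sub, AlgHom.commutes]

theorem map_famM {F F' : Type*} [Field F] [Field F'] [Algebra Kbar F] [Algebra Kbar F']
    (ε : F →ₐ[Kbar] F') (q : ℕ) (ζ : Kbarˣ) (j j2 : F) (m : Fin (q - 1)) :
    ε (famM q ζ j j2 m) = famM q ζ (ε j) (ε j2) m := by
  simp only [famM, map_mul, map_pow, map_eM, map_wEl]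

theorem map_zW {F F' : Type*} [Field F] [Field F'] [Algebra Kbar F] [Algebra Kbar F']
    (ε : F →ₐ[Kbar] F') (q : ℕ) (ζ : Kbarˣ) (j j2 : F) (m : ℕ) :
    ε (zW q ζ j j2 m) = zW q ζ (ε j) (ε j2) m := by
  simp only [zW, map_mul, map_pow, map_zM, map_wEl]

/-! ## The coordinates -/

/-- The six value equations of the `q + 1` expansions on `j`, `j2`. -/
structure Coords (q : ℕ) [NeZero q] (ζ : Kbarˣ) {F : Type*} [Field F] [Algebra Kbar F]
    (εI ε0 : F →ₐ[Kbar] Om) (εM : Fin (q - 1) → F →ₐ[Kbar] Om) (j j2 : F) : Prop where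
  jI : εI j = jK
  j2I : εI j2 = qExpand Kbar (q * q) jK
  j0 : ε0 j = qExpand Kbar (q * q) jK
  j20 : ε0 j2 = jK
  jM : ∀ i, εM i j = jK
  j2M : ∀ i, εM i j2 = scale (ζ ^ ((i : ℕ) + 1)) jK

/-! ## Values of the elements in the three residue configurations -/

section Values

variable {K' : Type*} [Field K'] (q : ℕ) (a : K')

theorem z0_inf : z0 q a (a ^ (q * q)) = 0 := by rw [z0, sub_self, zero_mul]

theorem zM_inf : zM q a (a ^ (q * q)) = 0 := by rw [zM, sub_self, zero_mul]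

theorem sEl_inf : sEl q a (a ^ (q * q)) = zI q a (a ^ (q * q)) := by
  rw [sEl, z0_inf, zM_inf, add_zero, add_zero]

theorem zI_zero : zI q (a ^ (q * q)) a = 0 := by rw [zI, sub_self, zero_mul]

theorem zM_zero : zM q (a ^ (q * q)) a = 0 := by rw [zM, sub_self, mul_zero]

theorem sEl_zero : sEl q (a ^ (q * q)) a = z0 q (a ^ (q * q)) a := by
  rw [sEl, zI_zero, zM_zero, zero_add, add_zero]

theorem zI_mid : zI q a a = 0 := by rw [zI, sub_self, mul_zero]

theorem z0_mid : z0 q a a = 0 := by rw [z0, sub_self, mul_zero]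

theorem sEl_mid : sEl q a a = zM q a a := by
  rw [sEl, zI_mid, z0_mid, zero_add, zero_add]

end Values

/-! ## One coordinate, abstractly -/

section OneCoord

variable {A : ValuationSubring Kbar} (q : ℕ) {x y : Om} {xb yb : Omk A}

theorem redEq_zI (hx : RedEq A x xb) (hy : RedEq A y yb) : RedEq A (zI q x y) (zI q xb yb) :=
  (hx.sub (hy.pow _)).mul (hx.sub hy)

theorem redEq_z0 (hx : RedEq A x xb) (hy : RedEq A y yb) : RedEq A (z0 q x y) (z0 q xb yb) :=
  (hy.sub (hx.pow _)).mul (hy.sub hx)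

theorem redEq_zM (hx : RedEq A x xb) (hy : RedEq A y yb) : RedEq A (zM q x y) (zM q xb yb) :=
  (hy.sub (hx.pow _)).mul (hx.sub (hy.pow _))

theorem redEq_sEl (hx : RedEq A x xb) (hy : RedEq A y yb) : RedEq A (sEl q x y) (sEl q xb yb) :=
  ((redEq_zI q hx hy).add (redEq_z0 q hx hy)).add (redEq_zM q hx hy)

theorem redEq_eI (hx : RedEq A x xb) (hy : RedEq A y yb) (hs : sEl q xb yb ≠ 0) :
    RedEq A (eI q x y) (eI q xb yb) :=
  (redEq_zI q hx hy).div (redEq_sEl q hx hy) hs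

theorem redEq_e0 (hx : RedEq A x xb) (hy : RedEq A y yb) (hs : sEl q xb yb ≠ 0) :
    RedEq A (e0 q x y) (e0 q xb yb) :=
  (redEq_z0 q hx hy).div (redEq_sEl q hx hy) hs

theorem redEq_eM (hx : RedEq A x xb) (hy : RedEq A y yb) (hs : sEl q xb yb ≠ 0) :
    RedEq A (eM q x y) (eM q xb yb) :=
  (redEq_zM q hx hy).div (redEq_sEl q hx hy) hs

/-- Configuration "infinity": `(x̄, ȳ) = (a, a^(q²))`. -/
theorem redEq_e_inf {a : Omk A} (hx : RedEq A x a) (hy : RedEq A y (a ^ (q * q)))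
    (h1 : a - a ^ (q * q) ≠ 0) (h2 : a - (a ^ (q * q)) ^ (q * q) ≠ 0) :
    sEl q a (a ^ (q * q)) ≠ 0 ∧
      RedEq A (eI q x y) 1 ∧ RedEq A (e0 q x y) 0 ∧ RedEq A (eM q x y) 0 := by
  have hz : zI q a (a ^ (q * q)) ≠ 0 := mul_ne_zero h2 h1
  have hs : sEl q a (a ^ (q * q)) = zI q a (a ^ (q * q)) := sEl_inf q a
  have hs0 : sEl q a (a ^ (q * q)) ≠ 0 := by rw [hs]; exact hz
  refine ⟨hs0, (redEq_eI q hx hy hs0).congr_right ?_, (redEq_e0 q hx hy hs0).congr_right ?_,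
    (redEq_eM q hx hy hs0).congr_right ?_⟩
  · rw [eI, hs, div_self hz]
  · rw [e0, z0_inf, zero_div]
  · rw [eM, zM_inf, zero_div]

/-- Configuration "zero": `(x̄, ȳ) = (a^(q²), a)`. -/
theorem redEq_e_zero {a : Omk A} (hx : RedEq A x (a ^ (q * q))) (hy : RedEq A y a)
    (h1 : a - a ^ (q * q) ≠ 0) (h2 : a - (a ^ (q * q)) ^ (q * q) ≠ 0) :
    sEl q (a ^ (q * q)) a ≠ 0 ∧
      RedEq A (eI q x y) 0 ∧ RedEq A (e0 q x y) 1 ∧ RedEq A (eM q x y) 0 := by
  have hz : z0 q (a ^ (q * q)) a ≠ 0 := mul_ne_zero h2 h1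
  have hs : sEl q (a ^ (q * q)) a = z0 q (a ^ (q * q)) a := sEl_zero q a
  have hs0 : sEl q (a ^ (q * q)) a ≠ 0 := by rw [hs]; exact hz
  refine ⟨hs0, (redEq_eI q hx hy hs0).congr_right ?_, (redEq_e0 q hx hy hs0).congr_right ?_,
    (redEq_eM q hx hy hs0).congr_right ?_⟩
  · rw [eI, zI_zero, zero_div]
  · rw [e0, hs, div_self hz]
  · rw [eM, zM_zero, zero_div]

/-- Configuration "middle": `(x̄, ȳ) = (a, a)`. -/
theorem redEq_e_mid {a : Omk A} (hx : RedEq A x a) (hy : RedEq A y a)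
    (h1 : a - a ^ (q * q) ≠ 0) :
    sEl q a a ≠ 0 ∧
      RedEq A (eI q x y) 0 ∧ RedEq A (e0 q x y) 0 ∧ RedEq A (eM q x y) 1 := by
  have hz : zM q a a ≠ 0 := mul_ne_zero h1 h1
  have hs : sEl q a a = zM q a a := sEl_mid q a
  have hs0 : sEl q a a ≠ 0 := by rw [hs]; exact hz
  refine ⟨hs0, (redEq_eI q hx hy hs0).congr_right ?_, (redEq_e0 q hx hy hs0).congr_right ?_,
    (redEq_eM q hx hy hs0).congr_right ?_⟩
  · rw [eI, zI_mid, zero_div]
  · rw [e0, z0_mid, zero_div]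
  · rw [eM, hs, div_self hz]

/-- `zM · W^m` at a coordinate where `zM` is divisible by `q`: still integral for `m < q - 1`,
with reduction `0`. -/
theorem redEq_zW_small (hx : RedEq A x xb) (hy : RedEq A y yb)
    (ζ : Kbarˣ) (m : ℕ) (c : A) (hc : IsLocalRing.residue A c = 0)
    (hcm : (c : Kbar) = (q : Kbar) * ((1 - (ζ : Kbar))⁻¹) ^ m)
    (g : Om) (hg : g ∈ Ocal A) (h : zM q x y = HahnSeries.C (q : Kbar) * g) :
    RedEq A (zW q ζ x y m) 0 := by
  have ht : g * (x - y) ^ m ∈ Ocal A :=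
    (Ocal A).mul_mem hg ((Ocal A).pow_mem ((Ocal A).sub_mem hx.mem hy.mem) _)
  refine (RedEq.small_mul c hc ht).congr_left ?_
  rw [zW, h, wEl, algebraMap_LS_eq_C, hcm, mul_pow, map_mul, map_pow]
  ring

/-- The middle family at a coordinate where `zM · W^m` reduces to `0`. -/
theorem redEq_famM_small (hx : RedEq A x xb) (hy : RedEq A y yb) (hs : sEl q xb yb ≠ 0)
    (ζ : Kbarˣ) (m : Fin (q - 1)) (h : RedEq A (zW q ζ x y (m : ℕ)) 0) :
    RedEq A (famM q ζ x y m) 0 :=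
  ((h.mul ((redEq_sEl q hx hy).inv hs)).congr_left (famM_eq q ζ x y m).symm).congr_right
    (zero_mul _)

end OneCoord

/-! ## Series inputs -/

section Series

/-- `j̄ - j̄^n ≠ 0` for `n > 1`. -/
theorem u_ne_zero (k : Type) [Field k] {n : ℕ} (hn : 1 < n) : jqModC k - jqModC k ^ n ≠ 0 := by
  intro h0
  have ht := Fermat.Agent.S28.CruxDescent.transcendental_jqModC k
  have hP : (Polynomial.X - Polynomial.X ^ n : Polynomial k) ≠ 0 := by
    intro hP
    have := congrArg (fun p : Polynomial k => p.coeff 1) hP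
    simp only [Polynomial.coeff_sub, Polynomial.coeff_X_one, Polynomial.coeff_X_pow,
      Polynomial.coeff_zero] at this
    rw [if_neg (by omega)] at this
    simp at this
  apply ht
  refine ⟨_, hP, ?_⟩
  simpa using h0

variable (A : ValuationSubring Kbar) (q : ℕ) [NeZero q] [Fact q.Prime] [CharP (kk A) q]

/-- `j̄(T^q) = j̄^q` in characteristic `q`. -/
theorem qExpand_jk : qExpand (kk A) q (jk A) = jk A ^ q := by
  rw [pow_char_eq q (jk A), coeffMap_jqModC]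

/-- `j̄(T^(q²)) = j̄^(q²)` in characteristic `q`. -/
theorem qExpand_sq_jk : qExpand (kk A) (q * q) (jk A) = jk A ^ (q * q) := by
  rw [← qExpand_qExpand, qExpand_jk, map_pow, qExpand_jk, ← pow_mul]

omit [NeZero q] [Fact q.Prime] [CharP (kk A) q] in
theorem redEq_jK : RedEq A jK (jk A) := ⟨Main.jK_mem_Ocal A, Main.red_jK A⟩

/-- `j(T^(q²))` is integral with reduction `j̄^(q²)`. -/
theorem redEq_qExpand_jK : RedEq A (qExpand Kbar (q * q) jK) (jk A ^ (q * q)) := by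
  refine ⟨qExpand_mem_Ocal A (q * q) (Main.jK_mem_Ocal A), ?_⟩
  rw [red_qExpand A (q * q) ⟨jK, Main.jK_mem_Ocal A⟩, Main.red_jK, qExpand_sq_jk]

omit [CharP (kk A) q] in
/-- `j(T^(q²)) - j^(q²) = q · (integral)`. -/
theorem exists_qExpand_jK_sub_pow :
    ∃ g : LaurentSeries A,
      qExpand Kbar (q * q) jK - jK ^ (q * q) = HahnSeries.C (q : Kbar) * iota A g := by
  obtain ⟨g, hg⟩ := Q2Series.exists_iota_qExpand_sq_sub_pow q A (jqModC ℤ)
  rw [coeffMap_jqModC] at hg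
  exact ⟨g, hg⟩

omit [NeZero q] in
/-- The root of unity as a unit of `A`, with its properties. -/
theorem exists_zetaA (ζ : Kbarˣ) (hζ : IsPrimitiveRoot ζ q) :
    ∃ ζA : Aˣ, unitK A ζA = ζ ∧ ((ζA : A) : Kbar) = (ζ : Kbar) ∧ IsPrimitiveRoot (ζA : A) q ∧
      IsLocalRing.residue A ((ζA : A) - 1) = 0 ∧ (1 - (ζ : Kbar)) ≠ 0 := by
  have hq : q.Prime := Fact.out
  obtain ⟨ζA, hζA⟩ := exists_unit_of_pow_eq_one A hq.ne_zero hζ.pow_eq_one
  have hval : ((ζA : A) : Kbar) = (ζ : Kbar) := congrArg Units.val hζA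
  have hK : IsPrimitiveRoot (ζ : Kbar) q := IsPrimitiveRoot.coe_units_iff.mpr hζ
  have hprim : IsPrimitiveRoot (ζA : A) q := by
    refine IsPrimitiveRoot.of_map_of_injective (f := A.subtype) ?_ Subtype.val_injective
    show IsPrimitiveRoot ((ζA : A) : Kbar) q
    rw [hval]
    exact hK
  have hpow : ζA ^ q = 1 := by
    apply Units.ext
    rw [Units.val_pow_eq_pow_val, Units.val_one]
    exact hprim.pow_eq_one
  have h2 := unitk_eq_one_of_pow_eq_one A ζA hpow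
  have h3 : IsLocalRing.residue A (ζA : A) = 1 := congrArg Units.val h2
  refine ⟨ζA, hζA, hval, hprim, ?_, ?_⟩
  · rw [map_sub, map_one, h3, sub_self]
  · intro h0
    exact hK.ne_one hq.one_lt (sub_eq_zero.mp h0).symm

omit [NeZero q] in
/-- `q / (1 - ζ)^m` lies in the maximal ideal of `A` for `m < q - 1`. -/
theorem exists_small (ζ : Kbarˣ) (hζ : IsPrimitiveRoot ζ q) (m : ℕ) (hm : m < q - 1) :
    ∃ c : A, IsLocalRing.residue A c = 0 ∧
      (c : Kbar) = (q : Kbar) * ((1 - (ζ : Kbar))⁻¹) ^ m := by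
  obtain ⟨ζA, -, hval, hprim, hres, hne⟩ := exists_zetaA A q ζ hζ
  obtain ⟨v, hv⟩ := Q2Series.one_sub_pow_dvd_prime q (ζA : A) hprim
  have hres' : IsLocalRing.residue A (1 - (ζA : A)) = 0 := by
    rw [← neg_sub, map_neg, hres, neg_zero]
  refine ⟨(1 - (ζA : A)) ^ (q - 1 - m) * v, ?_, ?_⟩
  · rw [map_mul, map_pow, hres', zero_pow (by omega), zero_mul]
  · have hv' : (q : Kbar) = (1 - (ζ : Kbar)) ^ (q - 1) * (v : Kbar) := by
      have h1 := congrArg (fun t : A => (t : Kbar)) hv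
      push_cast at h1
      rw [hval] at h1
      exact h1
    have hsplit : q - 1 = (q - 1 - m) + m := by omega
    have hcancel : (1 - (ζ : Kbar)) ^ m * ((1 - (ζ : Kbar))⁻¹) ^ m = 1 := by
      rw [← mul_pow, mul_inv_cancel₀ hne, one_pow]
    push_cast
    rw [hval, hv']
    conv_rhs => rw [hsplit, pow_add]
    linear_combination (-(1 - (ζ : Kbar)) ^ (q - 1 - m) * (v : Kbar)) * hcancel

omit [NeZero q] in
/-- The middle coordinate `a`: `j(ζ^a T)` is integral with reduction `j̄`, and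
`W = (j(T) - j(ζ^a T)) / (1 - ζ)` is integral with reduction `a · θ j̄`. -/
theorem redEq_mid (ζ : Kbarˣ) (hζ : IsPrimitiveRoot ζ q) (a : ℕ) :
    RedEq A (scale (ζ ^ a) jK) (jk A) ∧
      RedEq A (wEl ζ jK (scale (ζ ^ a) jK))
        (HahnSeries.C ((a : ℕ) : kk A) * theta (kk A) (jk A)) := by
  obtain ⟨ζA, hζA, hval, -, hres, hne⟩ := exists_zetaA A q ζ hζ
  have hmem : ((ζA : A) - 1) ∈ IsLocalRing.maximalIdeal A :=
    (IsLocalRing.residue_eq_zero_iff _).mp hres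
  obtain ⟨w, hw, hρ⟩ := Fermat.Agent.S36.ScaleThetaRed.exists_iota_scale_sub_eq_mul A ζA hmem
    ((a : ℕ) : ℤ) (jqModC A)
  have hw' : scale (ζ ^ a) jK - jK = HahnSeries.C ((ζ : Kbar) - 1) * iota A w := by
    rw [Main.jK_eq_iota A, ← hval, ← hζA, ← zpow_natCast]
    exact hw
  rw [rho_jA, Int.cast_natCast] at hρ
  constructor
  · have h1 : RedEq A (jK + HahnSeries.C (((ζA : A) - 1 : A) : Kbar) * iota A w) (jk A + 0) :=
      (redEq_jK A).add (RedEq.small_mul _ hres (iota_mem_Ocal A w))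
    refine (h1.congr_left ?_).congr_right (add_zero _)
    push_cast
    rw [hval, ← hw']
    ring
  · refine ((RedEq.iota w).congr_left ?_).congr_right hρ
    have h2 : jK - scale (ζ ^ a) jK = HahnSeries.C (1 - (ζ : Kbar)) * iota A w := by
      rw [← neg_sub, hw', ← neg_mul, ← map_neg, neg_sub]
    rw [wEl, h2, algebraMap_LS_eq_C, ← mul_assoc, ← map_mul, inv_mul_cancel₀ hne, map_one, one_mul]

end Series

/-! ## The reductions of the family, one expansion at a time -/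

section PerEmbedding

variable (A : ValuationSubring Kbar) (q : ℕ) [NeZero q] (hq : q.Prime) (hA : A.LiesOverPrime q)
  (ζ : Kbarˣ) (hζ : IsPrimitiveRoot ζ q) {F : Type*} [Field F] [Algebra Kbar F]
  (ε : F →ₐ[Kbar] Om) {j j2 : F}

omit [NeZero q] in
include hq in
theorem u_sq_ne_zero : jk A - jk A ^ (q * q) ≠ 0 ∧ jk A - (jk A ^ (q * q)) ^ (q * q) ≠ 0 := by
  have hqq : 1 < q * q := by nlinarith [hq.two_le]
  refine ⟨u_ne_zero (kk A) hqq, ?_⟩
  rw [← pow_mul]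
  exact u_ne_zero (kk A) (by nlinarith)

include hq hA hζ

/-- **An expansion of type "infinity"**, `(j, j2) ↦ (j(T), j(T^(q²)))`: reductions
`famI ↦ 1`, `fam0 l ↦ 0`, `famM m ↦ 0`, `zM · W^m ↦ 0` (`m < q - 1`). -/
theorem redEq_fam_inf (hj : ε j = jK) (hj2 : ε j2 = qExpand Kbar (q * q) jK) :
    RedEq A (ε (famI q j j2)) 1 ∧ (∀ l : Fin (q * q), RedEq A (ε (fam0 q j j2 l)) 0) ∧
      (∀ m : Fin (q - 1), RedEq A (ε (famM q ζ j j2 m)) 0) ∧
      ∀ m : ℕ, m < q - 1 → RedEq A (ε (zW q ζ j j2 m)) 0 := by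
  have : Fact q.Prime := ⟨hq⟩
  have : CharP (kk A) q := charP_residueField_of_liesOverPrime A q hA
  have hJ : RedEq A jK (jk A) := redEq_jK A
  have hJQ : RedEq A (qExpand Kbar (q * q) jK) (jk A ^ (q * q)) := redEq_qExpand_jK A q
  obtain ⟨hu1, hu2⟩ := u_sq_ne_zero A q hq
  obtain ⟨hsI, hI1, hI2, -⟩ := redEq_e_inf q hJ hJQ hu1 hu2
  obtain ⟨g, hg⟩ := exists_qExpand_jK_sub_pow A q
  have hZW : ∀ m : ℕ, m < q - 1 →
      RedEq A (zW q ζ jK (qExpand Kbar (q * q) jK) m) 0 := by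
    intro m hm
    obtain ⟨c, hc, hcm⟩ := exists_small A q ζ hζ m hm
    refine redEq_zW_small q hJ hJQ ζ m c hc hcm
      (iota A g * (jK - qExpand Kbar (q * q) jK ^ (q * q)))
      ((Ocal A).mul_mem (iota_mem_Ocal A g) ((Ocal A).sub_mem hJ.mem (hJQ.pow _).mem)) ?_
    rw [zM, hg]
    ring
  refine ⟨?_, fun l => ?_, fun m => ?_, fun m hm => ?_⟩
  · rw [map_famI, hj, hj2]
    exact hI1
  · rw [map_fam0, hj, hj2]
    exact (hI2.mul (hJQ.pow _)).congr_right (zero_mul _)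
  · rw [map_famM, hj, hj2]
    exact redEq_famM_small q hJ hJQ hsI ζ m (hZW m m.2)
  · rw [map_zW, hj, hj2]
    exact hZW m hm

/-- **An expansion of type "zero"**, `(j, j2) ↦ (j(T^(q²)), j(T))`: reductions
`famI ↦ 0`, `fam0 l ↦ j̄^l`, `famM m ↦ 0`, `zM · W^m ↦ 0` (`m < q - 1`). -/
theorem redEq_fam_zero (hj : ε j = qExpand Kbar (q * q) jK) (hj2 : ε j2 = jK) :
    RedEq A (ε (famI q j j2)) 0 ∧
      (∀ l : Fin (q * q), RedEq A (ε (fam0 q j j2 l)) (jk A ^ (l : ℕ))) ∧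
      (∀ m : Fin (q - 1), RedEq A (ε (famM q ζ j j2 m)) 0) ∧
      ∀ m : ℕ, m < q - 1 → RedEq A (ε (zW q ζ j j2 m)) 0 := by
  have : Fact q.Prime := ⟨hq⟩
  have : CharP (kk A) q := charP_residueField_of_liesOverPrime A q hA
  have hJ : RedEq A jK (jk A) := redEq_jK A
  have hJQ : RedEq A (qExpand Kbar (q * q) jK) (jk A ^ (q * q)) := redEq_qExpand_jK A q
  obtain ⟨hu1, hu2⟩ := u_sq_ne_zero A q hq
  obtain ⟨hs0, h01, h02, -⟩ := redEq_e_zero q hJQ hJ hu1 hu2
  obtain ⟨g, hg⟩ := exists_qExpand_jK_sub_pow A q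
  have hZW : ∀ m : ℕ, m < q - 1 →
      RedEq A (zW q ζ (qExpand Kbar (q * q) jK) jK m) 0 := by
    intro m hm
    obtain ⟨c, hc, hcm⟩ := exists_small A q ζ hζ m hm
    refine redEq_zW_small q hJQ hJ ζ m c hc hcm
      ((jK - qExpand Kbar (q * q) jK ^ (q * q)) * iota A g)
      ((Ocal A).mul_mem ((Ocal A).sub_mem hJ.mem (hJQ.pow _).mem) (iota_mem_Ocal A g)) ?_
    rw [zM, hg]
    ring
  refine ⟨?_, fun l => ?_, fun m => ?_, fun m hm => ?_⟩
  · rw [map_famI, hj, hj2]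
    exact h01
  · rw [map_fam0, hj, hj2]
    exact (h02.mul (hJ.pow _)).congr_right (one_mul _)
  · rw [map_famM, hj, hj2]
    exact redEq_famM_small q hJQ hJ hs0 ζ m (hZW m m.2)
  · rw [map_zW, hj, hj2]
    exact hZW m hm

omit [NeZero q] in
/-- **An expansion of type "middle"**, `(j, j2) ↦ (j(T), j(ζ^a T))`: reductions
`famI ↦ 0`, `fam0 l ↦ 0`, `famM m ↦ (a θ j̄)^m`, `zM · W^m ↦ (a θ j̄)^m (j̄ - j̄^(q²))²`. -/
theorem redEq_fam_mid (a : ℕ) (hj : ε j = jK) (hj2 : ε j2 = scale (ζ ^ a) jK) :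
    RedEq A (ε (famI q j j2)) 0 ∧ (∀ l : Fin (q * q), RedEq A (ε (fam0 q j j2 l)) 0) ∧
      (∀ m : Fin (q - 1), RedEq A (ε (famM q ζ j j2 m))
        ((HahnSeries.C ((a : ℕ) : kk A) * theta (kk A) (jk A)) ^ (m : ℕ))) ∧
      ∀ m : ℕ, RedEq A (ε (zW q ζ j j2 m))
        ((HahnSeries.C ((a : ℕ) : kk A) * theta (kk A) (jk A)) ^ m *
          (jk A - jk A ^ (q ^ 2)) ^ 2) := by
  have : Fact q.Prime := ⟨hq⟩
  have : CharP (kk A) q := charP_residueField_of_liesOverPrime A q hA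
  have hJ : RedEq A jK (jk A) := redEq_jK A
  obtain ⟨hu1, -⟩ := u_sq_ne_zero A q hq
  obtain ⟨hY, hW⟩ := redEq_mid A q ζ hζ a
  obtain ⟨-, hM1, hM2, hM3⟩ := redEq_e_mid q hJ hY hu1
  refine ⟨?_, fun l => ?_, fun m => ?_, fun m => ?_⟩
  · rw [map_famI, hj, hj2]
    exact hM1
  · rw [map_fam0, hj, hj2]
    exact (hM2.mul (hY.pow _)).congr_right (zero_mul _)
  · rw [map_famM, hj, hj2]
    exact (hM3.mul (hW.pow _)).congr_right (one_mul _)
  · rw [map_zW, hj, hj2]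
    refine ((redEq_zM q hJ hY).mul (hW.pow m)).congr_right ?_
    rw [zM, pow_two q]
    ring

end PerEmbedding

/-! ## The reductions of the family -/

/-- **The reductions of the family**: `(1; 0; 0)`, `(0; j̄^l; 0)`, `(0; 0; ((i+1) θ j̄)^m)`. -/
theorem redEq_fam (A : ValuationSubring Kbar) (q : ℕ) [NeZero q] (hq : q.Prime)
    (hA : A.LiesOverPrime q) (ζ : Kbarˣ) (hζ : IsPrimitiveRoot ζ q) {F : Type*} [Field F]
    [Algebra Kbar F] {εI ε0 : F →ₐ[Kbar] Om} {εM : Fin (q - 1) → F →ₐ[Kbar] Om} {j j2 : F}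
    (hC : Coords q ζ εI ε0 εM j j2) :
    (RedEq A (εI (famI q j j2)) 1 ∧ RedEq A (ε0 (famI q j j2)) 0 ∧
        ∀ i, RedEq A (εM i (famI q j j2)) 0) ∧
    (∀ l : Fin (q * q), RedEq A (εI (fam0 q j j2 l)) 0 ∧
        RedEq A (ε0 (fam0 q j j2 l)) (jk A ^ (l : ℕ)) ∧
        ∀ i, RedEq A (εM i (fam0 q j j2 l)) 0) ∧
    (∀ m : Fin (q - 1), RedEq A (εI (famM q ζ j j2 m)) 0 ∧ RedEq A (ε0 (famM q ζ j j2 m)) 0 ∧
        ∀ i : Fin (q - 1), RedEq A (εM i (famM q ζ j j2 m))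
          ((HahnSeries.C ((((i : ℕ) + 1 : ℕ)) : kk A) * theta (kk A) (jk A)) ^ (m : ℕ))) := by
  have hI := redEq_fam_inf A q hq hA ζ hζ εI hC.jI hC.j2I
  have h0 := redEq_fam_zero A q hq hA ζ hζ ε0 hC.j0 hC.j20
  have hM := fun i : Fin (q - 1) =>
    redEq_fam_mid A q hq hA ζ hζ (εM i) ((i : ℕ) + 1) (hC.jM i) (hC.j2M i)
  exact ⟨⟨hI.1, h0.1, fun i => (hM i).1⟩, fun l => ⟨hI.2.1 l, h0.2.1 l, fun i => (hM i).2.1 l⟩,
    fun m => ⟨hI.2.2.1 m, h0.2.2.1 m, fun i => (hM i).2.2.1 m⟩⟩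

/-! ## Independence of the reductions -/

/-- **(hind)**: the `κ`-independence of the reductions of the family, in coordinates. -/
theorem hind (A : ValuationSubring Kbar) (q : ℕ) [NeZero q] (hq : q.Prime)
    (hA : A.LiesOverPrime q) (c0 : Fin (q * q) → Omk A) (cM : Fin (q - 1) → Omk A)
    (h0 : ∑ l, qExpand (kk A) (q * q) (c0 l) * jk A ^ (l : ℕ) = 0)
    (hM : ∀ i : Fin (q - 1),
      ∑ m, cM m * (HahnSeries.C ((((i : ℕ) + 1 : ℕ)) : kk A) * theta (kk A) (jk A)) ^ (m : ℕ)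
        = 0) :
    (∀ l, c0 l = 0) ∧ ∀ m, cM m = 0 := by
  have : Fact q.Prime := ⟨hq⟩
  have : CharP (kk A) q := charP_residueField_of_liesOverPrime A q hA
  refine ⟨Fermat.Agent.S34.ValIndep.sum_qExpand_mul_pow_eq_zero (q * q) c0 h0, ?_⟩
  have hθ : theta (kk A) (jk A) ≠ 0 := theta_jqModC_ne_zero (kk A)
  let p : Fin (q - 1) → Omk A := fun i => HahnSeries.C ((((i : ℕ) + 1 : ℕ)) : kk A)
  have hp : Function.Injective p := by
    intro i i' h
    have h1 : ((((i : ℕ) + 1 : ℕ)) : kk A) = ((((i' : ℕ) + 1 : ℕ)) : kk A) :=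
      HahnSeries.C_injective h
    have h2 := (CharP.natCast_eq_natCast (kk A) q).mp h1
    have hi := i.2
    have hi' := i'.2
    have h3 : (i : ℕ) + 1 = (i' : ℕ) + 1 := Nat.ModEq.eq_of_lt_of_lt h2 (by omega) (by omega)
    exact Fin.ext (by omega)
  have hv : (fun m : Fin (q - 1) => cM m * theta (kk A) (jk A) ^ (m : ℕ)) = 0 := by
    apply Matrix.eq_zero_of_forall_index_sum_pow_mul_eq_zero hp
    intro i
    rw [← hM i]
    refine Finset.sum_congr rfl fun m _ => ?_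
    show HahnSeries.C ((((i : ℕ) + 1 : ℕ)) : kk A) ^ (m : ℕ) *
      (cM m * theta (kk A) (jk A) ^ (m : ℕ)) = _
    rw [mul_pow]
    ring
  intro m
  have h1 := congrFun hv m
  simp only [Pi.zero_apply] at h1
  rcases mul_eq_zero.mp h1 with h2 | h2
  · exact h2
  · exact absurd h2 (pow_ne_zero _ hθ)

end Fermat.Agent.S36.FamQ2
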