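/-
P8 / S36, block [DIM] glue (helper49): **helper39's explicit family (`S36/FamQ2`) on an arbitrary
frame** — its `Coords`, its reduction `Table` (`S36/DimCore`), membership in `O`, the count
`q² + q` and the `κ`-independence of its reductions.

`j := jBar (M q²)`, `j₂ := Emb.jQQ M q = j(T^(q²))`; the family is
`famI`, `fam0 l` (`l < q²`), `famM m` (`m < q - 1`) of `FamQ2`, indexed by
`Option (Fin (q²) ⊕ Fin (q - 1))` (`DimCore.fam`).
-/
import Mathlib
import Fermat.Agent.S36.DimCore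
import Fermat.Agent.S36.EmbFrame
import Fermat.Agent.S36.FamQ2

set_option autoImplicit false
set_option linter.style.haveILetI false
set_option linter.unusedSectionVars false

noncomputable section

namespace Fermat.Agent.S36.DimFam

open ModularCurve AlgebraicCurve Fermat.Agent.S24 Fermat.Agent.S18 Fermat.Agent.S18.Content
  Fermat.Agent.S18.Plan Fermat.Agent.S34 Fermat.Agent.S36.Plan

set_option synthInstance.maxHeartbeats 400000
set_option maxHeartbeats 1600000

variable {M q : ℕ} [NeZero M] [NeZero q] {h : Nat.Coprime M q}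
variable {A : ValuationSubring Kbar} {F : Frame M q h} {O : Subring Om} {ρ : O →+* Rq A q}

/-- **The six value equations** of `FamQ2.Coords` for an arbitrary frame, with `j = jBar`,
`j₂ = j(T^(q²))` and the middle coordinates `ξ = ζ^(u+1)`. -/
theorem coords (hq : q.Prime) (F : Frame M q h) (ζ : Kbarˣ) (hζ : IsPrimitiveRoot ζ q) :
    FamQ2.Coords q ζ (F.emb .inf) (F.emb .zero)
      (fun u => F.emb (.mid (CoordFin.midEquiv hq ζ hζ u))) (jBar (M * q * q)) (Emb.jQQ M q) where
  jI := EmbFrame.emb_inf_jBar F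
  j2I := EmbFrame.emb_inf_jQQ F
  j0 := EmbFrame.emb_zero_jBar hq F
  j20 := EmbFrame.emb_zero_jQQ hq F
  jM := fun _ => EmbFrame.emb_mid_jBar F _
  j2M := fun _ => EmbFrame.emb_mid_jQQ F _

variable (M q) in
/-- The member `famI` of the family. -/
def wI : FN (M * q * q) := FamQ2.famI q (jBar (M * q * q)) (Emb.jQQ M q)

variable (M q) in
/-- The members `fam0 l`, `l < q²`. -/
def w0 (l : Fin (q * q)) : FN (M * q * q) := FamQ2.fam0 q (jBar (M * q * q)) (Emb.jQQ M q) l

variable (M q) in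
/-- The members `famM m`, `m < q - 1`. -/
def wM (ζ : Kbarˣ) (m : Fin (q - 1)) : FN (M * q * q) :=
  FamQ2.famM q ζ (jBar (M * q * q)) (Emb.jQQ M q) m

/-- The reduction of `famM m` at the middle coordinate `ζ^(u+1)`: `((u+1) θ j̄)^m`. -/
def yM (A : ValuationSubring Kbar) (q : ℕ) (u m : Fin (q - 1)) : Omk A :=
  (HahnSeries.C ((((u : ℕ) + 1 : ℕ)) : kk A) * Fermat.Agent.S28.theta (kk A) (jk A)) ^ (m : ℕ)

/-- **The reduction table** of the family on an arbitrary frame. -/
theorem table (hq : q.Prime) (hA : A.LiesOverPrime q) (F : Frame M q h) (ζ : Kbarˣ)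
    (hζ : IsPrimitiveRoot ζ q) :
    DimCore.Table (A := A) (F := F) hq ζ hζ (wI M q) (w0 M q) (wM M q ζ) (yM A q) := by
  obtain ⟨⟨hI1, hI2, hI3⟩, hZ, hMm⟩ := FamQ2.redEq_fam A q hq hA ζ hζ (coords hq F ζ hζ)
  exact
    { I_inf := hI1
      I_zero := hI2
      I_mid := hI3
      Z_inf := fun l => (hZ l).1
      Z_zero := fun l => (hZ l).2.1
      Z_mid := fun l u => (hZ l).2.2 u
      M_inf := fun m => (hMm m).1
      M_zero := fun m => (hMm m).2.1
      M_mid := fun m u => (hMm m).2.2 u }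

variable (M q) in
/-- **The family** `famI`, `fam0 l`, `famM m`, indexed by `Option (Fin (q²) ⊕ Fin (q - 1))`. -/
def fam (ζ : Kbarˣ) : Option (Fin (q * q) ⊕ Fin (q - 1)) → FN (M * q * q) :=
  DimCore.fam (wI M q) (w0 M q) (wM M q ζ)

/-- The family has `q² + q` members. -/
theorem card_fam (hq : q.Prime) :
    Fintype.card (Option (Fin (q * q) ⊕ Fin (q - 1))) = q * q + q :=
  DimCore.card_index hq

/-- **The family lies in `O`.** -/
theorem fam_mem (hq : q.Prime) (hA : A.LiesOverPrime q) (hS : IsSetup A F O ρ) (ζ : Kbarˣ)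
    (hζ : IsPrimitiveRoot ζ q) (i : Option (Fin (q * q) ⊕ Fin (q - 1))) :
    ((fam M q ζ i : FN (M * q * q)) : Om) ∈ O :=
  (table hq hA F ζ hζ).mem hS i

/-- **`κ`-independence of the reductions of the family**, for any `κ` acting through
`a ↦ (a ; a(T^(q²)) ; a, …, a)`. -/
theorem fam_ind (hq : q.Prime) (hA : A.LiesOverPrime q) (hS : IsSetup A F O ρ) (ζ : Kbarˣ)
    (hζ : IsPrimitiveRoot ζ q) {κ : Type*} [Zero κ] (tw : κ → Rq A q) (val : κ → Omk A)
    (hval : ∀ a, val a = 0 → a = 0)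
    (htwI : ∀ a, tw a .inf = val a)
    (htw0 : ∀ a, tw a .zero = qExpand (kk A) (q * q) (val a))
    (htwM : ∀ a ξ, tw a (.mid ξ) = val a)
    (a : Option (Fin (q * q) ⊕ Fin (q - 1)) → κ)
    (hsum : ∑ i, tw (a i) * ρ ⟨_, fam_mem hq hA hS ζ hζ i⟩ = 0) : ∀ i, a i = 0 :=
  (table hq hA F ζ hζ).ind hS
    (fun c0 cM h0 hMm => FamQ2.hind A q hq hA c0 cM h0 hMm) tw val hval htwI htw0 htwM a hsum

end Fermat.Agent.S36.DimFam

end
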