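import Mathlib
import Fermat.Agent.S36.DimAbs
import Fermat.Agent.S36.DimFam
import Fermat.Agent.S36.CoordFin
import Fermat.Agent.S34.ValInt
import Fermat.Agent.S34.Ortho2Char
import Fermat.Agent.S36.InclAll

/-!
# P8 / S36 — [INCL] at all levels, unconditional (owner: helper23)

`LiftAllOf.InclAllStmt` with no hypothesis left: the one input of `InclAll.inclAllStmt_of`,
"`O` is integral over `O_M = F_M ∩ Ocal`", is proved here from the `q² + q` family of
`DimFam` (its reductions are `κ`-independent), the `Ortho2` setup of `DimAbs` and the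
characteristic polynomial over `O_M` (`Ortho2Char`).

* `isFam`         : `DimFam.fam` satisfies `DimAbs.IsFam`;
* `isIntegral_OM` : every element of `O` is integral over `Incl.OM A M`;
* `intAllStmt`    : `InclAll.IntAllStmt`;
* `inclAllStmt`   : `LiftAllOf.InclAllStmt`.
-/

set_option autoImplicit false
set_option maxHeartbeats 400000

noncomputable section

namespace Fermat.Agent.S36.InclFinal

open ModularCurve AlgebraicCurve Fermat.Agent.S24 Fermat.Agent.S18.Content Fermat.Agent.S18.Plan
open Fermat.Agent.S18 Fermat.Agent.S34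

variable {A : ValuationSubring Kbar} {M q : ℕ} [NeZero M] [NeZero q]
variable {h : Nat.Coprime M q} {F : Plan.Frame M q h} {O : Subring Om} {ρ : O →+* Plan.Rq A q}

attribute [local instance] DimAbs.algTop2

/-- The `q² + q` family of `DimFam` satisfies the family hypothesis of `DimAbs`. -/
theorem isFam (hq : q.Prime) (hA : A.LiesOverPrime q) (hS : Plan.IsSetup A F O ρ) (ζ : Kbarˣ)
    (hζ : IsPrimitiveRoot ζ q) : DimAbs.IsFam (M := M) ρ (DimFam.fam M q ζ) where
  mem := DimFam.fam_mem hq hA hS ζ hζ
  card := DimFam.card_fam hq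
  ind := fun a ha =>
    DimFam.fam_ind hq hA hS ζ hζ (fun b : ↥(Fk A M) => DimAbs.twQ2 A M q b)
      (fun b : ↥(Fk A M) => (b : Omk A)) (fun _ hb => Subtype.ext hb) (fun _ => rfl)
      (fun _ => rfl) (fun _ _ => rfl) a ha

/-- `F_M ∩ Ocal → F_{Mq²} → Om` is the inclusion of `Incl.OM A M`. -/
theorem comp_toOM2 (hRed : RedStmt A M) :
    (algebraMap (FN (M * q * q)) Om).comp
      ((algebraMap (FN M) (FN (M * q * q))).comp (Val.OMv hRed).subtype) =
      (algebraMap (Incl.OM A M) Om).comp (Val.toOM hRed) := by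
  refine RingHom.ext fun x => ?_
  rw [RingHom.comp_apply, RingHom.comp_apply, RingHom.comp_apply,
    IntermediateField.algebraMap_apply, Algebra.algebraMap_ofSubsemiring_apply, Val.coe_toOM]
  exact DimAbs.coe_algebraMap_top2 (M := M) (q := q) ((Val.OMv hRed).subtype x)

/-- **`O` is integral over `O_M = F_M ∩ Ocal`.** -/
theorem isIntegral_OM (hq : q.Prime) (hA : A.LiesOverPrime q) (hS : Plan.IsSetup A F O ρ)
    (g : O) : IsIntegral (Incl.OM A M) (g : Om) := by
  classical
  have : Fact q.Prime := ⟨hq⟩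
  have hqM : ¬ q ∣ M := fun hd => hq.one_lt.ne' (Nat.eq_one_of_dvd_coprimes h hd dvd_rfl)
  have hRed : RedStmt A M := Red.redStmt M q hqM A hA
  obtain ⟨ζ, hζ⟩ := CoordFin.exists_primitiveRoot q
  have hw := isFam (M := M) hq hA hS ζ hζ
  have S := DimAbs.setup F hS hRed
  have := hw.nonempty
  have hfin : Module.Finite (FN M) (FN (M * q * q)) :=
    Module.finite_of_finrank_pos (by
      rw [DimAbs.finrank_top2 hqM]
      have := hq.pos
      positivity)
  obtain ⟨P, hP, -, hev⟩ := S.exists_monic_eval₂_eq_zero hw.wO hw.linearIndependent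
    (hw.card_eq hqM) ⟨⟨(g : Om), hS.mem_field g⟩, g.2⟩
  refine ⟨P.map (Val.toOM hRed), hP.map (Val.toOM hRed), ?_⟩
  rw [Polynomial.eval₂_map, ← comp_toOM2 (q := q) hRed]
  have h2 := congrArg (algebraMap (FN (M * q * q)) Om) hev
  rw [Polynomial.hom_eval₂, map_zero, IntermediateField.algebraMap_apply] at h2
  exact h2

/-- **`InclAll.IntAllStmt`**: "`O` is integral over `O_M`" at all levels. -/
theorem intAllStmt : InclAll.IntAllStmt := by
  intro N₀ N' M q _ _ _ hq' h hqp hcop hN' hM A hA F O ρ hS
  exact isIntegral_OM hqp hA hS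

/-- **[INCL] at all levels** — no hypothesis left. -/
theorem inclAllStmt : LiftAllOf.InclAllStmt := InclAll.inclAllStmt_of intAllStmt

end Fermat.Agent.S36.InclFinal

end
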