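import Mathlib
import Fermat.Agent.S36.InclFinal

/-!
# P8 / S36 — [DIM] at all levels, unconditional (helper23; insurance twin of helper5's `DimInst`)

`LiftAllOf.DimAllStmt` from helper5's `DimAbs.dimStmt_of_fam` and the family instance
`InclFinal.isFam` (helper49's `DimFam` family): six lines of glue.

* `dimStmt`    : `Plan.DimStmt A M q O ρ` for any frame and any setup;
* `dimAllStmt` : `LiftAllOf.DimAllStmt`.
-/

set_option autoImplicit false
set_option maxHeartbeats 400000

noncomputable section

namespace Fermat.Agent.S36.DimFinal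

open ModularCurve AlgebraicCurve Fermat.Agent.S24 Fermat.Agent.S18.Content Fermat.Agent.S18.Plan
open Fermat.Agent.S18 Fermat.Agent.S34

/-- **[DIM]** for any frame and any setup. -/
theorem dimStmt {A : ValuationSubring Kbar} {M q : ℕ} [NeZero M] [NeZero q]
    {h : Nat.Coprime M q} {F : Plan.Frame M q h} {O : Subring Om} {ρ : O →+* Plan.Rq A q}
    (hq : q.Prime) (hA : A.LiesOverPrime q) (hS : Plan.IsSetup A F O ρ) :
    Plan.DimStmt A M q O ρ := by
  have : Fact q.Prime := ⟨hq⟩
  have hqM : ¬ q ∣ M := fun hd => hq.one_lt.ne' (Nat.eq_one_of_dvd_coprimes h hd dvd_rfl)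
  obtain ⟨ζ, hζ⟩ := CoordFin.exists_primitiveRoot q
  exact DimAbs.dimStmt_of_fam F hqM (Red.redStmt M q hqM A hA) hS
    (InclFinal.isFam hq hA hS ζ hζ)

/-- **[DIM] at all levels** — no hypothesis left. -/
theorem dimAllStmt : LiftAllOf.DimAllStmt := by
  intro N₀ N' M q _ _ _ hq' h hqp hcop hN' hM A hA F O ρ hS
  exact dimStmt hqp hA hS

end Fermat.Agent.S36.DimFinal

end
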