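import Mathlib
import Fermat.Agent.S36.Plan2
import Fermat.Agent.S18.PullPlan
import Fermat.Agent.S18.CharStmt
import Fermat.Agent.S18.Char0
import Fermat.Agent.S18.FibreCount
import Fermat.Agent.Lib.FFPoles

/-!
# S36 — [DESC-NORM]: descent by the norm from the top level (helper94)

Characteristic `0` only (no valuation, no frame).  For two levels `N ∣ N₂` put
`d = [F_{N₂} : F_N]`.  If `D` is a divisor of degree `0` of `F_N` and `L(π^* D) = pullRR N N₂ D`
contains a nonzero `g`, then the constant coefficient `a` of the characteristic polynomial of `g`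
over `F_N` (`± N(g)`, nonzero) lies in `L_{F_N}(d • D)`; as `deg (d • D) = 0`, `div a = -d • D`
and `d • D` is principal.

* `nsmul_mem_principal_of_pullRR` : the generic statement;
* `degTop N' M q`                : `ψ(M q q) / ψ(N' q)` (`= [F_{M q q} : F_{N' q}]`);
* `descNormStmt`                 : **`Plan.DescNormStmt N' M q (degTop N' M q)`** (spine contract
                                    of `S36/Plan2`), with `degTop_pos`;
* `exists_descNormStmt`          : `∃ d, 0 < d ∧ Plan.DescNormStmt N' M q d`.
-/

set_option autoImplicit false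
set_option maxHeartbeats 400000

noncomputable section

namespace Fermat.Agent.S36.DescNorm

open ModularCurve AlgebraicCurve Fermat.Agent.S24 Fermat.Agent.S18.Content Fermat.Agent.S18.Plan
open Fermat.Agent.S18 Fermat.Agent.Lib

set_option synthInstance.maxHeartbeats 400000

section Generic

variable (N N₂ : ℕ) [NeZero N] [NeZero N₂]

/-- `[F_{N₂} : F_N] > 0` for `F_N ≤ F_{N₂}`. -/
theorem finrank_ext_pos (hle : modularFunctionFieldBar N ≤ modularFunctionFieldBar N₂) :
    0 < Module.finrank (FN N) (IntermediateField.extendScalars hle) := by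
  have h0 := CharStmt.psi_mul_finrank hle
  have hψ' : 0 < dedekindPsi N₂ := FibreCount.dedekindPsi_pos N₂
  rcases Nat.eq_zero_or_pos (Module.finrank (FN N) (IntermediateField.extendScalars hle))
    with h | h
  · rw [h, mul_zero] at h0; omega
  · exact h

/-- **[DESC-NORM]**, generic in the two levels: a nonzero element of `pullRR N N₂ D` with
`deg D = 0` makes `[F_{N₂} : F_N] • D` principal. -/
theorem nsmul_mem_principal_of_pullRR
    (hle : modularFunctionFieldBar N ≤ modularFunctionFieldBar N₂)
    (D : Divisor Kbar (FN N)) (hdeg : Divisor.degree D = 0) (g : Om) (hg : g ∈ pullRR N N₂ D)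
    (hg0 : g ≠ 0) :
    (Module.finrank (FN N) (IntermediateField.extendScalars hle)) • D ∈
      Divisor.principal (K := Kbar) (F := FN N) := by
  obtain ⟨hdeg1, hdiv0, -⟩ := Char0.char0Stmt N
  have hpos := finrank_ext_pos N N₂ hle
  have : Module.Finite (FN N) (IntermediateField.extendScalars hle) :=
    Module.finite_of_finrank_pos hpos
  set d := Module.finrank (FN N) (IntermediateField.extendScalars hle) with hd
  have hgN : g ∈ modularFunctionFieldBar N₂ := (mem_pullRR.mp hg).1
  obtain ⟨g', hg'⟩ : ∃ g' : IntermediateField.extendScalars hle, (g' : Om) = g :=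
    ⟨⟨g, (IntermediateField.mem_extendScalars hle).mpr hgN⟩, rfl⟩
  have hg'0 : g' ≠ 0 := by
    rintro rfl
    exact hg0 hg'.symm
  have hmem := PullPlan.coeff_charpoly_mem hle g' (by rw [hg']; exact hg) d le_rfl
  rw [Nat.sub_self] at hmem
  -- the constant coefficient is `± N(g) ≠ 0`
  have ha0 : (LinearMap.charpoly (Algebra.lmul (FN N) (IntermediateField.extendScalars hle) g')).coeff
      0 ≠ 0 := by
    intro h0
    have hdet := LinearMap.det_eq_sign_charpoly_coeff
      (Algebra.lmul (FN N) (IntermediateField.extendScalars hle) g')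
    rw [h0, mul_zero] at hdet
    have hnorm : Algebra.norm (FN N) g' = 0 := hdet
    exact hg'0 (Algebra.norm_eq_zero_iff.mp hnorm)
  obtain ⟨Da, hDa, hDadeg⟩ := hdiv0 _ ha0
  have hE : Da + d • D = 0 := by
    apply FFPoles.eq_zero_of_nonneg_of_degree_eq_zero
    · intro P
      rw [Finsupp.add_apply, hDa]
      have h1 := (mem_riemannRochSpace_iff.mp hmem P).resolve_left ha0
      linarith
    · intro P
      rw [hdeg1]
      exact one_pos
    · rw [map_add, map_nsmul, hDadeg, hdeg, smul_zero, add_zero]
  have h3 : d • D = -Da := eq_neg_of_add_eq_zero_right hE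
  rw [h3]
  exact neg_mem ⟨_, ha0, hDa⟩

end Generic

section PlanForm

variable (N' M q : ℕ)

/-- `ψ(M q q) / ψ(N' q)`: the degree `[F_{M q q} : F_{N' q}]` of the top level over the divisor
level (when `N' q ∣ M q q`). -/
def degTop : ℕ := dedekindPsi (M * q * q) / dedekindPsi (N' * q)

variable [NeZero N'] [NeZero M] [NeZero q]

theorem neZero_top : NeZero (M * q * q) :=
  ⟨Nat.mul_ne_zero (Nat.mul_ne_zero (NeZero.ne M) (NeZero.ne q)) (NeZero.ne q)⟩

theorem neZero_bot : NeZero (N' * q) :=
  ⟨Nat.mul_ne_zero (NeZero.ne N') (NeZero.ne q)⟩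

omit [NeZero N'] [NeZero M] [NeZero q] in
/-- `degTop` is the field degree. -/
theorem degTop_eq_finrank [NeZero (N' * q)] [NeZero (M * q * q)]
    (hle : modularFunctionFieldBar (N' * q) ≤ modularFunctionFieldBar (M * q * q)) :
    degTop N' M q = Module.finrank (FN (N' * q)) (IntermediateField.extendScalars hle) := by
  have h0 := CharStmt.psi_mul_finrank hle
  have hψ : 0 < dedekindPsi (N' * q) := FibreCount.dedekindPsi_pos (N' * q)
  unfold degTop
  rw [← h0, Nat.mul_div_cancel_left _ hψ]

theorem degTop_pos (hN : N' * q ∣ M * q * q) : 0 < degTop N' M q := by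
  have := neZero_top M q
  have := neZero_bot N' q
  rw [degTop_eq_finrank N' M q (CharStmt.bar_le hN)]
  exact finrank_ext_pos _ _ _

/-- `ψ(N' q) · degTop = ψ(M q q)`. -/
theorem psi_mul_degTop (hN : N' * q ∣ M * q * q) :
    dedekindPsi (N' * q) * degTop N' M q = dedekindPsi (M * q * q) := by
  have := neZero_top M q
  have := neZero_bot N' q
  rw [degTop_eq_finrank N' M q (CharStmt.bar_le hN)]
  exact CharStmt.psi_mul_finrank _

/-- **[DESC-NORM]** the spine contract `Plan.DescNormStmt` of `S36/Plan2`. -/
theorem descNormStmt (hN : N' * q ∣ M * q * q) :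
    Fermat.Agent.S36.Plan.DescNormStmt N' M q (degTop N' M q) := by
  intro D hdeg hg
  obtain ⟨g, hg, hg0⟩ := hg
  have := neZero_top M q
  have h := nsmul_mem_principal_of_pullRR (N' * q) (M * q * q) (CharStmt.bar_le hN) D hdeg g hg hg0
  rwa [← degTop_eq_finrank N' M q (CharStmt.bar_le hN)] at h

/-- **[DESC-NORM]**, existential form. -/
theorem exists_descNormStmt (hN : N' * q ∣ M * q * q) :
    ∃ d : ℕ, 0 < d ∧ Fermat.Agent.S36.Plan.DescNormStmt N' M q d :=
  ⟨degTop N' M q, degTop_pos N' M q hN, descNormStmt N' M q hN⟩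

end PlanForm

end Fermat.Agent.S36.DescNorm

end
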