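import Mathlib
import Fermat.Agent.S36.Plan2
import Fermat.Agent.S36.B2Plan

/-!
# S36 / P8 — Spine: (B2) from the spine contracts (owner: helper74)

`[E3] + [ONE] + [LIFT-ONE] + [DESC-NORM]  ⟹  B2Plan.B2Stable A N' q (d * c₁)  ⟹  B2Plan.B2Stmt`
(with [I-DESC] = `S36/IDesc`, through helper16's `B2Plan.b2Stmt_of_stable`).
-/

set_option autoImplicit false

noncomputable section

namespace Fermat.Agent.S36.Spine

open ModularCurve AlgebraicCurve Fermat.Agent.S24 Fermat.Agent.S18 Fermat.Agent.S18.Content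
  Fermat.Agent.S18.Plan Fermat.Agent.S34 Fermat.Agent.S36.Plan

variable {A : ValuationSubring Kbar} {N' M q : ℕ} [NeZero N'] [NeZero M] [NeZero q]
variable {hq' : q ∣ N'} {O : Subring Om} {ρ : O →+* Rq A q}

omit [NeZero M] in
/-- The stable-divisor form of (B2) from the spine contracts. -/
theorem b2Stable_of_spine {c₁ d : ℕ} (hE : ExistsE3Stmt N' q hq')
    (hOne : OneStmt A N' M q hq' O ρ c₁) (hLift : LiftOneStmt A N' M q hq' O ρ)
    (hDesc : DescNormStmt N' M q d) : B2Plan.B2Stable A N' q (d * c₁) := by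
  intro D n hdeg hn hqn hprin hα hβ hst
  exact principal_of_spine hE hOne hLift hDesc D n
    { deg := hdeg, pos := hn, not_dvd := hqn, tors := hprin, pushA := hα, pushB := hβ,
      stable := hst }

omit [NeZero M] in
/-- **(B2) on `J₀(N' q)`** from the spine contracts at one place `A` over `q`. -/
theorem b2Stmt_of_spine (p : ℕ) (hq : q.Prime) (hqp : ¬ q ∣ p) (hA : A.LiesOverPrime q)
    {c₁ d : ℕ} (hc₁ : c₁ ≠ 0) (hd : d ≠ 0) (hE : ExistsE3Stmt N' q hq')
    (hOne : OneStmt A N' M q hq' O ρ c₁) (hLift : LiftOneStmt A N' M q hq' O ρ)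
    (hDesc : DescNormStmt N' M q d) : B2Plan.B2Stmt N' q p :=
  B2Plan.b2Stmt_of_stable p hq hqp A hA (d * c₁) (Nat.mul_ne_zero hd hc₁)
    (fun D₀ h => Fermat.Agent.S36.IDesc.iDesc (N' * q) A D₀ h)
    (b2Stable_of_spine hE hOne hLift hDesc)

end Fermat.Agent.S36.Spine

end
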