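import Mathlib
import Fermat.Agent.Lib.FrobExists
import Fermat.Agent.S35.FDivInst
import Fermat.Agent.S36.PlanAll
import Fermat.Agent.S36.Spine
import Fermat.Agent.S36.PhiDiv
import Fermat.Agent.S36.DescNorm
import Fermat.Agent.S36.FrameFinal
import Fermat.Agent.S36.SetupQ2

/-!
# S36 / P8 — Assemble: (B2) on `J₀(N' q)` from the two all-level contracts (owner: helper74)

`Plan.OneAllStmt + Plan.LiftAllStmt ⟹ B2Plan.B2Stmt N' q p` for every prime `q` with
`q² ∥ N' q` and every `p` prime to `q`.  Everything else on the spine is landed: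
[E3] `PhiDiv.existsE3Stmt`, [DESC-NORM] `DescNorm.descNormStmt`, [EMB] `FrameFinal.frame`,
[SETUP] `SetupQ2.isSetup`, [I-DESC] + [B2-TOP] inside `Spine.b2Stmt_of_spine`.
-/

set_option autoImplicit false

noncomputable section

namespace Fermat.Agent.S36.Assemble

open ModularCurve AlgebraicCurve Fermat.Agent.S24 Fermat.Agent.S18 Fermat.Agent.S18.Content
  Fermat.Agent.S18.Plan Fermat.Agent.S34 Fermat.Agent.S36

/-- `q² ∥ N' q` gives `N' = N₀ q` with `N₀` prime to `q`. -/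
theorem exists_level (N' q : ℕ) [NeZero N'] (hq : q.Prime)
    (hfac : (N' * q).factorization q = 2) :
    ∃ N₀ : ℕ, N₀ ≠ 0 ∧ N' = N₀ * q ∧ Nat.Coprime N₀ q := by
  have h1 : N'.factorization q = 1 := by
    rw [Nat.factorization_mul (NeZero.ne N') hq.ne_zero, Finsupp.add_apply,
      hq.factorization_self] at hfac
    omega
  have hdvd : q ∣ N' := Nat.dvd_of_factorization_pos (by omega)
  obtain ⟨N₀, hN₀⟩ := hdvd
  have hN₀0 : N₀ ≠ 0 := by
    rintro rfl
    exact NeZero.ne N' (by rw [hN₀, mul_zero])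
  refine ⟨N₀, hN₀0, by rw [hN₀, mul_comm], ?_⟩
  rw [Nat.coprime_comm, hq.coprime_iff_not_dvd]
  intro hd
  have h2 : N₀.factorization q = 0 := by
    rw [hN₀, Nat.factorization_mul hq.ne_zero hN₀0, Finsupp.add_apply,
      hq.factorization_self] at h1
    omega
  rcases (Nat.factorization_eq_zero_iff N₀ q).1 h2 with h | h | h
  · exact h hq
  · exact h hd
  · exact hN₀0 h

/-- **(B2) on `J₀(N' q)`, `q² ∥ N' q`**, from [ONE] and [LIFT-ONE] at all levels. -/
theorem b2Stmt_of_all (hOne : Plan.OneAllStmt) (hLift : Plan.LiftAllStmt)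
    (N' q p : ℕ) [NeZero N'] [NeZero q] (hq : q.Prime) (hqp : ¬ q ∣ p)
    (hfac : (N' * q).factorization q = 2) : B2Plan.B2Stmt N' q p := by
  obtain ⟨N₀, hN₀0, hN', hcop⟩ := exists_level N' q hq hfac
  have : NeZero N₀ := ⟨hN₀0⟩
  have hqN₀ : ¬ q ∣ N₀ := fun hd => by
    have := Nat.Coprime.eq_one_of_dvd hcop.symm hd
    exact hq.one_lt.ne' this
  have hL := Fermat.Agent.S35.FDivInst.levels N₀ q hq hqN₀
  have : NeZero (S34.Plan.aux q * N₀) := ValAsm.neZero_M hL
  have h : Nat.Coprime (S34.Plan.aux q * N₀) q := ValAsm.coprime_of_levels hL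
  have hq' : q ∣ N' := ⟨N₀, by rw [hN', mul_comm]⟩
  obtain ⟨A, hA⟩ := Fermat.Agent.Lib.FrobExists.exists_liesOverPrime q hq
  have hS := SetupQ2.isSetup A (FrameFinal.frame hq h)
  obtain ⟨c₁, hc₁, hOne'⟩ := hOne N₀ N' (S34.Plan.aux q * N₀) q hq' h hq hcop hN' rfl A hA
    (FrameFinal.frame hq h) _ _ hS
  have hLift' := hLift N₀ N' (S34.Plan.aux q * N₀) q hq' h hq hcop hN' rfl A hA
    (FrameFinal.frame hq h) _ _ hS
  have hdvd : N' * q ∣ S34.Plan.aux q * N₀ * q * q := ⟨S34.Plan.aux q, by rw [hN']; ring⟩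
  exact Spine.b2Stmt_of_spine p hq hqp hA hc₁ (DescNorm.degTop_pos N' _ q hdvd).ne'
    (PhiDiv.existsE3Stmt hq hcop hN' hq') hOne' hLift' (DescNorm.descNormStmt N' _ q hdvd)

end Fermat.Agent.S36.Assemble

end
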