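import Mathlib
import Fermat.Agent.S35.CohDegenB
import Fermat.Agent.S35.Transfer
import Fermat.Agent.P5.Per.Action

/-!
# S36 / [DEGEN′], leaf (H-β) (helper37): the direct `β`-transfer commutes with `T^coh_ℓ`

`N, q ≥ 1` arbitrary, `ℓ` a prime with `ℓ ∤ N q`.  helper21's `Transfer.corB N q`
(`S35/Transfer.lean`) is the transfer along `subB N q = Γ₀(N) ∩ Γ⁰(q) ≤ Γ₀(N)` of
`φ ∘ conjB`, `conjB : subB N q → Γ₀(Nq)`, `γ ↦ δ⁻¹ γ δ`, `δ = diag(q, 1)`.  We prove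

  `corB N q (T^coh_ℓ φ) = T^coh_ℓ (corB N q φ)`        (`corB_tcoh`),

with no coprimality between `q` and `N` (so it covers `q ∣ N`, the case of S36).

Proof: `PairFamily.trHom_heckeHom` for `H = subB N q ≤ Γ = Γ₀(N)`, the *twisted* embedding
`e₂ γ = δ⁻¹ · γ · δ` of `Γ₀(N)` into `GL₂(ℝ)` and the standard family `heckeRep ℓ`:

* on `subB`, `e₂ = eG (N q) ∘ conjB` and `conjB` is an isomorphism, so `heckeRep ℓ` is a coset
  family with operator `T_ℓ` of level `N q` transported by `conjB`;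
* on `Γ₀(N)`, `δ R_x = n_x R_{σ x} δ` (`n_x` unipotent, `σ = (x ↦ q x)` a permutation of
  `ℙ¹(𝔽_ℓ)`), so `heckeRep ℓ` is a coset family for `e₂` with the same operator as for `eG N`
  (`heckeHom_conj_eq`);
* reflection: `R_i e₂(u) = e₂(η) R_k` with `η ∈ subB` forces `q ∣ u₀₁`.
-/

set_option autoImplicit false
set_option linter.style.haveILetI false

noncomputable section

namespace Fermat.Agent.S36.CohDegenD

open CongruenceSubgroup Matrix.SpecialLinearGroup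
open Fermat.Agent.Lib.HeckeHom Fermat.Agent.Lib.HeckePeriod Fermat.Agent.Lib.HeckeHomGL
open Fermat.Agent.Lib.HeckeHomComm
open Fermat.Agent.S35.PairFamily Fermat.Agent.S35.CohDegenB Fermat.Agent.S35
open Fermat.Agent.P5
open P2MW.S_ModularForm_heckeT_slash_eq_self_of_mem_Gamma0.ModularForm.HeckeSlashInvariance
open scoped MatrixGroups

/-! ### Generic: a coset family seen through a conjugated embedding -/

section Generic

variable {Γ G : Type*} [Group Γ] [Group G] {ι : Type*} {e : Γ →* G} {δ : ι → G}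

/-- The embedding `γ ↦ g⁻¹ · e γ · g`. -/
def conjEmb (e : Γ →* G) (g : G) : Γ →* G := (MulAut.conj g⁻¹).toMonoidHom.comp e

theorem conjEmb_apply (e : Γ →* G) (g : G) (γ : Γ) : conjEmb e g γ = g⁻¹ * e γ * g := by
  show MulAut.conj g⁻¹ (e γ) = _
  rw [MulAut.conj_apply, inv_inv]

/-- The basic relation: if `g δ_i = e(n_i) δ_{σ i} g` then
`δ_i · (g⁻¹ e(γ) g) = (g⁻¹ e(n_i · cof γ (σ i) · n_j⁻¹) g) · δ_j` whenever `σ j = nxt γ (σ i)`. -/
theorem conj_rel (h : IsCosetFamily e δ) (g : G) (σ : ι → ι) (n : ι → Γ)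
    (hg : ∀ i, g * δ i = e (n i) * (δ (σ i) * g)) (γ : Γ) (i j : ι)
    (hj : σ j = h.nxt γ (σ i)) :
    δ i * conjEmb e g γ = conjEmb e g (n i * h.cof γ (σ i) * (n j)⁻¹) * δ j := by
  rw [conjEmb_apply, conjEmb_apply]
  have h1 : δ i = g⁻¹ * (e (n i) * (δ (σ i) * g)) := by rw [← hg i, inv_mul_cancel_left]
  have h2 : g * δ j = e (n j) * (δ (h.nxt γ (σ i)) * g) := by rw [hg j, hj]
  have h3 : δ (h.nxt γ (σ i)) * g = e (n j)⁻¹ * (g * δ j) := by
    rw [h2, map_inv, inv_mul_cancel_left]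
  have h4 := h.spec γ (σ i)
  calc δ i * (g⁻¹ * e γ * g)
      = g⁻¹ * (e (n i) * (δ (σ i) * e γ * g)) := by
        rw [h1]; simp only [mul_assoc, mul_inv_cancel_left]
    _ = g⁻¹ * (e (n i) * (e (h.cof γ (σ i)) * (δ (h.nxt γ (σ i)) * g))) := by
        rw [h4]; simp only [mul_assoc]
    _ = g⁻¹ * e (n i * h.cof γ (σ i) * (n j)⁻¹) * g * δ j := by
        rw [h3, map_mul, map_mul]; simp only [mul_assoc]

/-- A coset family for `e` is a coset family for the conjugated embedding `g⁻¹ e g`, as soon as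
`g δ_i = e(n_i) δ_{σ i} g` for a bijection `σ`. -/
theorem isCosetFamily_conjEmb (h : IsCosetFamily e δ) (g : G) (σ : ι → ι)
    (hσ : Function.Bijective σ) (n : ι → Γ)
    (hg : ∀ i, g * δ i = e (n i) * (δ (σ i) * g)) : IsCosetFamily (conjEmb e g) δ where
  inj_e := by
    intro a b hab
    rw [conjEmb_apply, conjEmb_apply] at hab
    exact h.inj_e (mul_left_cancel (mul_right_cancel hab))
  perm := by
    intro γ i
    obtain ⟨j, hj⟩ := hσ.2 (h.nxt γ (σ i))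
    exact ⟨j, _, conj_rel h g σ n hg γ i j hj⟩
  distinct := by
    intro i j γ hγ
    rw [conjEmb_apply] at hγ
    apply hσ.1
    refine h.distinct (σ i) (σ j) ((n i)⁻¹ * γ * n j) ?_
    have h1 : g * δ i = e γ * (g * δ j) := by
      rw [hγ]; simp only [mul_assoc, mul_inv_cancel_left]
    rw [hg i, hg j] at h1
    have h2 : e (n i) * δ (σ i) = e γ * (e (n j) * δ (σ j)) := by
      have h3 : e (n i) * δ (σ i) * g = e γ * (e (n j) * δ (σ j)) * g := by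
        simp only [mul_assoc]; exact h1
      exact mul_right_cancel h3
    rw [map_mul, map_mul, map_inv, mul_assoc, mul_assoc, ← h2, inv_mul_cancel_left]

variable [Fintype ι] {A : Type*} [AddCommGroup A]

/-- The conjugated embedding has the same Hecke operator. -/
theorem heckeHom_conjEmb (h : IsCosetFamily e δ) (g : G) (σ : ι → ι)
    (hσ : Function.Bijective σ) (n : ι → Γ)
    (hg : ∀ i, g * δ i = e (n i) * (δ (σ i) * g)) (h' : IsCosetFamily (conjEmb e g) δ)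
    (φ : Additive Γ →+ A) : h'.heckeHom φ = h.heckeHom φ := by
  refine AddMonoidHom.ext fun γa => ?_
  obtain ⟨γ, rfl⟩ : ∃ γ : Γ, Additive.ofMul γ = γa := ⟨Additive.toMul γa, rfl⟩
  let σe : ι ≃ ι := Equiv.ofBijective σ hσ
  -- `j i = σ⁻¹ (nxt γ (σ i))`
  let jf : ι ≃ ι := (σe.trans (h.nxtPerm γ)).trans σe.symm
  have hjf : ∀ i, σ (jf i) = h.nxt γ (σ i) := fun i => σe.apply_symm_apply _
  have hc : ∀ i, h'.cof γ i = n i * h.cof γ (σ i) * (n (jf i))⁻¹ :=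
    fun i => h'.cof_eq (conj_rel h g σ n hg γ i (jf i) (hjf i))
  show ∑ i, φ (Additive.ofMul (h'.cof γ i)) = ∑ i, φ (Additive.ofMul (h.cof γ i))
  simp only [hc, ofMul_mul, ofMul_inv, map_add, map_neg, Finset.sum_add_distrib,
    Finset.sum_neg_distrib]
  have h1 : ∑ i, φ (Additive.ofMul (n (jf i))) = ∑ i, φ (Additive.ofMul (n i)) :=
    Equiv.sum_comp jf (fun i => φ (Additive.ofMul (n i)))
  have h2 : ∑ i, φ (Additive.ofMul (h.cof γ (σ i))) = ∑ i, φ (Additive.ofMul (h.cof γ i)) :=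
    Equiv.sum_comp σe (fun i => φ (Additive.ofMul (h.cof γ i)))
  rw [h1, h2]
  abel

end Generic

/-! ### `diag(q, 1)` and the groups `Γ₀(N) ∩ Γ⁰(q)`, `Γ₀(N q)` -/

section Levels

variable (N q : ℕ) [NeZero q]

theorem val_dG : ((dG q : GL (Fin 2) ℝ) : Matrix (Fin 2) (Fin 2) ℝ) = !![(q : ℝ), 0; 0, 1] := rfl

/-- `γ · δ = δ · conjB γ` for `γ ∈ Γ₀(N) ∩ Γ⁰(q)`, `δ = diag(q, 1)`. -/
theorem eG_mul_dG (η : ↥(Transfer.subB N q)) :
    eG N (η : ↥(Gamma0 N)) * dG q = dG q * eG (N * q) (Transfer.conjB N q η) := by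
  apply Units.ext
  rw [Units.val_mul, Units.val_mul, eG_apply, eG_apply, coe_mapGL, coe_mapGL, val_dG,
    Transfer.coe_conjB]
  have h01 := Transfer.conjMat_zero_one (ℓ := q) ((η : ↥(Gamma0 N)) : SL(2, ℤ))
    ((Transfer.mem_subB N q).1 η.2)
  have h01' : (q : ℝ) * ((Transfer.conjMat q ((η : ↥(Gamma0 N)) : SL(2, ℤ))
      ((Transfer.mem_subB N q).1 η.2) 0 1 : ℤ) : ℝ) =
      ((((η : ↥(Gamma0 N)) : SL(2, ℤ)) 0 1 : ℤ) : ℝ) := by exact_mod_cast h01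
  ext i j
  fin_cases i <;> fin_cases j
  · simp [Matrix.mul_apply, Fin.sum_univ_two, Transfer.conjMat_zero_zero, mul_comm]
  · simp [Matrix.mul_apply, Fin.sum_univ_two, h01']
  · simp [Matrix.mul_apply, Fin.sum_univ_two, Transfer.conjMat_one_zero]
  · simp [Matrix.mul_apply, Fin.sum_univ_two, Transfer.conjMat_one_one]

/-- The twisted embedding `γ ↦ δ⁻¹ γ δ` of `Γ₀(N)` into `GL₂(ℝ)`. -/
def e2 : ↥(Gamma0 N) →* GL (Fin 2) ℝ := conjEmb (eG N) (dG q)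

theorem e2_apply (γ : ↥(Gamma0 N)) : e2 N q γ = (dG q)⁻¹ * eG N γ * dG q := conjEmb_apply _ _ _

/-- On `Γ₀(N) ∩ Γ⁰(q)` the twisted embedding is `eG (N q) ∘ conjB`. -/
theorem e2_subB (η : ↥(Transfer.subB N q)) :
    (e2 N q).comp (Transfer.subB N q).subtype η = eG (N * q) (Transfer.conjB N q η) := by
  show e2 N q (η : ↥(Gamma0 N)) = _
  rw [e2_apply, mul_assoc, eG_mul_dG, inv_mul_cancel_left]

theorem conjB_injective : Function.Injective (Transfer.conjB N q) := by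
  intro η η' h
  have h1 := eG_mul_dG N q η
  rw [h, ← eG_mul_dG N q η'] at h1
  exact Subtype.ext (eG_injective N (mul_right_cancel h1))

theorem conjB_surjective : Function.Surjective (Transfer.conjB N q) := by
  intro g
  have hq : (q : ℤ) ≠ 0 := by exact_mod_cast NeZero.ne q
  have hg := g.2
  rw [Gamma0_mem, ZMod.intCast_zmod_eq_zero_iff_dvd] at hg
  obtain ⟨k, hk⟩ := hg
  have hk' : (g : SL(2, ℤ)) 1 0 = (N : ℤ) * k * q := by rw [hk]; push_cast; ring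
  have hdet := (g : SL(2, ℤ)).det_coe
  rw [Matrix.det_fin_two] at hdet
  let γ₀ : SL(2, ℤ) :=
    ⟨!![(g : SL(2, ℤ)) 0 0, (q : ℤ) * (g : SL(2, ℤ)) 0 1; (N : ℤ) * k, (g : SL(2, ℤ)) 1 1], by
      rw [Matrix.det_fin_two_of]
      linear_combination hdet + (g : SL(2, ℤ)) 0 1 * hk'⟩
  have h00 : γ₀ 0 0 = (g : SL(2, ℤ)) 0 0 := rfl
  have h01 : γ₀ 0 1 = (q : ℤ) * (g : SL(2, ℤ)) 0 1 := rfl
  have h10 : γ₀ 1 0 = (N : ℤ) * k := rfl
  have h11 : γ₀ 1 1 = (g : SL(2, ℤ)) 1 1 := rfl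
  have hγN : γ₀ ∈ Gamma0 N := by
    rw [Gamma0_mem, ZMod.intCast_zmod_eq_zero_iff_dvd, h10]
    exact dvd_mul_right _ _
  have hγB : (⟨γ₀, hγN⟩ : ↥(Gamma0 N)) ∈ Transfer.subB N q := by
    rw [Transfer.mem_subB]
    show (q : ℤ) ∣ γ₀ 0 1
    rw [h01]
    exact dvd_mul_right _ _
  refine ⟨⟨⟨γ₀, hγN⟩, hγB⟩, Subtype.ext ?_⟩
  rw [Transfer.coe_conjB]
  have hb : (q : ℤ) ∣ γ₀ 0 1 := by rw [h01]; exact dvd_mul_right _ _
  show Transfer.conjMat q γ₀ hb = (g : SL(2, ℤ))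
  ext i j
  fin_cases i <;> fin_cases j
  · exact (Transfer.conjMat_zero_zero γ₀ hb).trans h00
  · have e := Transfer.conjMat_zero_one γ₀ hb
    rw [h01] at e
    exact mul_left_cancel₀ hq e
  · show Transfer.conjMat q γ₀ hb 1 0 = (g : SL(2, ℤ)) 1 0
    rw [Transfer.conjMat_one_zero, h10, hk']
  · exact (Transfer.conjMat_one_one γ₀ hb).trans h11

/-- `conjB` as an isomorphism `Γ₀(N) ∩ Γ⁰(q) ≃* Γ₀(N q)`. -/
def conjBEquiv : ↥(Transfer.subB N q) ≃* ↥(Gamma0 (N * q)) :=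
  MulEquiv.ofBijective (Transfer.conjB N q) ⟨conjB_injective N q, conjB_surjective N q⟩

theorem conjBEquiv_apply (η : ↥(Transfer.subB N q)) :
    conjBEquiv N q η = Transfer.conjB N q η := rfl

variable {ℓ : ℕ} [Fact ℓ.Prime]

/-- `heckeRep ℓ` is a coset family for the twisted embedding of `Γ₀(N)`. -/
theorem exists_dG_mul (x : OnePoint (ZMod ℓ)) :
    ∃ n : ↥(Gamma0 N), dG q * heckeRep ℓ x = eG N n * (heckeRep ℓ (sig q x) * dG q) := by
  obtain ⟨m, hm⟩ := dG_mul_heckeRep N q x (sig q x) (aT_sig q x) (dvd_sig q x)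
  exact ⟨unipG N m, hm⟩

theorem isCosetFamily_e2 (hℓN : ¬ ℓ ∣ N) (hℓq : ¬ ℓ ∣ q) :
    IsCosetFamily (e2 N q) (heckeRep ℓ) :=
  isCosetFamily_conjEmb (isCosetFamily_heckeRep N ℓ hℓN) (dG q) (sig q) (sig_bijective q hℓq)
    (fun x => (exists_dG_mul N q x).choose) (fun x => (exists_dG_mul N q x).choose_spec)

/-- The operator of `heckeRep ℓ` for the twisted embedding is the standard `T_ℓ`. -/
theorem heckeHom_e2 (hℓN : ¬ ℓ ∣ N) (hℓq : ¬ ℓ ∣ q) {A : Type*} [AddCommGroup A]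
    (φ : Additive ↥(Gamma0 N) →+ A) :
    (isCosetFamily_e2 N q hℓN hℓq).heckeHom φ = (isCosetFamily_heckeRep N ℓ hℓN).heckeHom φ :=
  heckeHom_conjEmb (isCosetFamily_heckeRep N ℓ hℓN) (dG q) (sig q) (sig_bijective q hℓq)
    (fun x => (exists_dG_mul N q x).choose) (fun x => (exists_dG_mul N q x).choose_spec) _ φ

end Levels

/-! ### Reflection -/

section Reflection

variable (N q : ℕ) [NeZero q] {ℓ : ℕ} [Fact ℓ.Prime]

/-- **Reflection.**  If `R_i · e₂(u) = e₂(η) · R_k` with `η ∈ Γ₀(N) ∩ Γ⁰(q)`, `u ∈ Γ₀(N)` and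
`ℓ ∤ q`, then `u ∈ Γ₀(N) ∩ Γ⁰(q)`. -/
theorem reflection (hℓq : ¬ ℓ ∣ q) (u : ↥(Gamma0 N)) (i k : OnePoint (ZMod ℓ))
    (η : ↥(Transfer.subB N q))
    (h : heckeRep ℓ i * e2 N q u = e2 N q (η : ↥(Gamma0 N)) * heckeRep ℓ k) :
    u ∈ Transfer.subB N q := by
  rw [e2_apply, e2_apply] at h
  -- `X = δ R_i δ⁻¹`, `Y = δ R_k δ⁻¹`
  have hXY : dG q * heckeRep ℓ i * (dG q)⁻¹ * eG N u =
      eG N (η : ↥(Gamma0 N)) * (dG q * heckeRep ℓ k * (dG q)⁻¹) := by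
    have h1 : dG q * heckeRep ℓ i * (dG q)⁻¹ * eG N u =
        dG q * (heckeRep ℓ i * ((dG q)⁻¹ * eG N u * dG q)) * (dG q)⁻¹ := by
      simp only [mul_assoc, mul_inv_cancel, mul_one]
    rw [h1, h]
    simp only [mul_assoc, mul_inv_cancel_left]
  have hX : dG q * heckeRep ℓ i * (dG q)⁻¹ * dG q = dG q * heckeRep ℓ i := by
    rw [inv_mul_cancel_right]
  have hY : dG q * heckeRep ℓ k * (dG q)⁻¹ * dG q = dG q * heckeRep ℓ k := by
    rw [inv_mul_cancel_right]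
  -- matrices
  set X : GL (Fin 2) ℝ := dG q * heckeRep ℓ i * (dG q)⁻¹ with hXdef
  set Y : GL (Fin 2) ℝ := dG q * heckeRep ℓ k * (dG q)⁻¹ with hYdef
  have mX := congrArg (fun g : GL (Fin 2) ℝ => (g : Matrix (Fin 2) (Fin 2) ℝ)) hX
  have mY := congrArg (fun g : GL (Fin 2) ℝ => (g : Matrix (Fin 2) (Fin 2) ℝ)) hY
  have mXY := congrArg (fun g : GL (Fin 2) ℝ => (g : Matrix (Fin 2) (Fin 2) ℝ)) hXY
  simp only [Units.val_mul] at mX mY mXY
  rw [val_dG, (isUT_heckeRep ℓ i).val] at mX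
  rw [val_dG, (isUT_heckeRep ℓ k).val] at mY
  rw [eG_apply, eG_apply, coe_mapGL, coe_mapGL] at mXY
  have hq0 : (q : ℝ) ≠ 0 := Nat.cast_ne_zero.mpr (NeZero.ne q)
  -- entries of `X`
  have x00 := congrFun (congrFun mX 0) 0
  have x01 := congrFun (congrFun mX 0) 1
  simp [Matrix.mul_apply, Fin.sum_univ_two] at x00 x01
  -- entries of `Y`
  have y01 := congrFun (congrFun mY 0) 1
  have y11 := congrFun (congrFun mY 1) 1
  simp [Matrix.mul_apply, Fin.sum_univ_two] at y01 y11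
  -- the `(0, 1)` entry of `X U = H Y`
  have e01 := congrFun (congrFun mXY 0) 1
  simp [Matrix.mul_apply, Fin.sum_univ_two] at e01
  have x00' : (X : Matrix (Fin 2) (Fin 2) ℝ) 0 0 = (aT ℓ i : ℝ) := by
    have h2 : (X : Matrix (Fin 2) (Fin 2) ℝ) 0 0 * (q : ℝ) = (aT ℓ i : ℝ) * (q : ℝ) := by
      rw [x00]; ring
    exact mul_right_cancel₀ hq0 h2
  rw [x00', x01, y01, y11] at e01
  -- integer relation
  have hint : aT ℓ i * ((u : SL(2, ℤ)) 0 1) + (q : ℤ) * bT ℓ i * ((u : SL(2, ℤ)) 1 1) =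
      (((η : ↥(Gamma0 N)) : SL(2, ℤ)) 0 0) * ((q : ℤ) * bT ℓ k) +
        (((η : ↥(Gamma0 N)) : SL(2, ℤ)) 0 1) * dT ℓ k := by
    exact_mod_cast e01
  have hη : (q : ℤ) ∣ ((η : ↥(Gamma0 N)) : SL(2, ℤ)) 0 1 := (Transfer.mem_subB N q).1 η.2
  obtain ⟨w, hw⟩ := hη
  have hdvd : (q : ℤ) ∣ aT ℓ i * ((u : SL(2, ℤ)) 0 1) :=
    ⟨(((η : ↥(Gamma0 N)) : SL(2, ℤ)) 0 0) * bT ℓ k + w * dT ℓ k -
      bT ℓ i * ((u : SL(2, ℤ)) 1 1), by rw [hw] at hint; linear_combination hint⟩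
  have hcop : IsCoprime (q : ℤ) (aT ℓ i) := by
    have h5 : IsCoprime (q : ℤ) (ℓ : ℤ) := by
      rw [Nat.isCoprime_iff_coprime]
      exact ((Nat.Prime.coprime_iff_not_dvd Fact.out).mpr hℓq).symm
    exact h5.of_isCoprime_of_dvd_right (aT_dvd ℓ i)
  rw [Transfer.mem_subB]
  exact hcop.dvd_of_dvd_mul_left hdvd

end Reflection

/-! ### The theorem -/

section Final

variable (N q : ℕ) [NeZero N] [NeZero q]

/-- **(H-β), family form.**  The direct `β`-transfer `corB N q` intertwines the operators of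
the family `heckeRep ℓ` at levels `N q` and `N` (`ℓ ∤ N q`). -/
theorem corB_heckeHom {ℓ : ℕ} [Fact ℓ.Prime] (hℓNq : ¬ ℓ ∣ N * q) (hℓN : ¬ ℓ ∣ N) {A : Type*}
    [AddCommGroup A] (φ : Additive ↥(Gamma0 (N * q)) →+ A) :
    Transfer.corB N q ((isCosetFamily_heckeRep (N * q) ℓ hℓNq).heckeHom φ) =
      (isCosetFamily_heckeRep N ℓ hℓN).heckeHom (Transfer.corB N q φ) := by
  have hℓq : ¬ ℓ ∣ q := fun h => hℓNq (Dvd.dvd.mul_left h N)
  have hH : IsCosetFamily ((e2 N q).comp (Transfer.subB N q).subtype) (heckeRep ℓ) :=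
    isCosetFamily_of_equiv (isCosetFamily_heckeRep (N * q) ℓ hℓNq) (conjBEquiv N q) _
      (fun η => e2_subB N q η)
  have key := trHom_heckeHom (Transfer.subB N q) (isCosetFamily_e2 N q hℓN hℓq) hH
    (reflection N q hℓq) (φ.comp (MonoidHom.toAdditive (conjBEquiv N q).toMonoidHom))
  rw [heckeHom_of_equiv (isCosetFamily_heckeRep (N * q) ℓ hℓNq) (conjBEquiv N q) _
    (fun η => e2_subB N q η) hH φ, heckeHom_e2 N q hℓN hℓq] at key
  exact key

/-- **(H-β)**: `corB N q (T^coh_ℓ φ) = T^coh_ℓ (corB N q φ)` for every prime `ℓ ∤ N q`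
(no condition on `gcd(q, N)`). -/
theorem corB_tcoh {ℓ : ℕ} (hℓ : ℓ.Prime) (hℓNq : ¬ ℓ ∣ N * q) (hℓN : ¬ ℓ ∣ N) {A : Type*}
    [AddCommGroup A] (φ : Additive ↥(Gamma0 (N * q)) →+ A) :
    Transfer.corB N q (Per.tcoh (N * q) hℓ hℓNq A φ) =
      Per.tcoh N hℓ hℓN A (Transfer.corB N q φ) := by
  haveI : Fact ℓ.Prime := ⟨hℓ⟩
  exact corB_heckeHom N q hℓNq hℓN φ

/-- **(H-β) on the parabolic lattices**: `Transfer.cB N q` commutes with `T^coh_ℓ`. -/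
theorem cB_tcohL {ℓ : ℕ} (hℓ : ℓ.Prime) (hℓNq : ¬ ℓ ∣ N * q) (hℓN : ¬ ℓ ∣ N)
    (φ : Per.Lat (N * q)) :
    Transfer.cB N q (Per.tcohL (N * q) hℓ hℓNq φ) = Per.tcohL N hℓ hℓN (Transfer.cB N q φ) := by
  apply Subtype.ext
  show Transfer.corB N q (Per.tcoh (N * q) hℓ hℓNq ℤ (φ : Additive ↥(Gamma0 (N * q)) →+ ℤ)) =
    Per.tcoh N hℓ hℓN ℤ (Transfer.corB N q (φ : Additive ↥(Gamma0 (N * q)) →+ ℤ))
  exact corB_tcoh N q hℓ hℓNq hℓN _

end Final

end Fermat.Agent.S36.CohDegenD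

end
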