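import Mathlib
import Fermat.Agent.S35.KPush
import Fermat.Agent.S35.Transfer
import Fermat.Agent.S35.Push
import Fermat.Agent.S36.DegNCDeg

/-!
# S36 / [DEGEN′], leaf (K-α′) (helper21): the Kummer relation and `α_*` at a prime `q ∣ M`

`q` prime, `q ∣ M`; `α = heckeAlphaBar Kbar M q : F_M → F_{Mq}` (the inclusion).  The twin of
helper97's `Lib/NormOnH.norm_on_H` and `S35/KPush.isKummerDatum_pushA` (there: `q ∤ M`, degree and
index `q + 1`) with degree and index `q` (`DegNCDeg.finrankAlong_alpha_of_dvd`,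
`DegNCDeg.index_subA_of_dvd`), in the spelling `Transfer.subA`, `Transfer.trA` of
`S35/Transfer.lean`.

Main results: `E_norm_alpha`, `isKummerDatum_pushA`, `kummerRel_pushA`.
-/

set_option autoImplicit false
set_option linter.style.haveILetI false
set_option linter.unusedSectionVars false

noncomputable section

namespace Fermat.Agent.S36.DegNCKummerA

open UpperHalfPlane CongruenceSubgroup ModularCurve AlgebraicCurve
open Fermat.Agent.Lib Fermat.Agent.Lib.HolVal Fermat.Agent.S24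
open Fermat.Agent.P5.HeckeKappa Fermat.Agent.P5
open Fermat.Agent.S37.HeckeInputs Fermat.Agent.S35 Fermat.Agent.S35.KPush
open scoped MatrixGroups Manifold

variable (M q : ℕ) [NeZero M] [NeZero q]

/-- The root of the norm along `α`: the product of the translates of `G` over a left transversal
of `Γ₀(Mq)` in `Γ₀(M)`. -/
def rootA' (G : MerH) (T : (Transfer.subA M q).LeftTransversal) : MerH :=
  prodT (preM M) G T

/-- **The transfer of a semi-invariant.** -/
theorem pre_rootA' (G : MerH) (ψ : ↥(Gamma0 (M * q)) →* ℂˣ)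
    (hG : ∀ γ : ↥(Gamma0 (M * q)), pre (slp (γ : SL(2, ℤ))) G = cstM ((ψ γ : ℂˣ) : ℂ) * G)
    (T : (Transfer.subA M q).LeftTransversal) (γ : ↥(Gamma0 M)) :
    pre (slp (γ : SL(2, ℤ))) (rootA' M q G T) =
      cstM ((Transfer.trA M q ψ γ : ℂˣ) : ℂ) * rootA' M q G T :=
  map_prodT_eq_transfer (preM M) (preM_mul M) cstU (preM_cstU M) (ψ.comp (Transfer.inclA M q)) G
    (fun h => hG (Transfer.inclA M q h)) γ T

/-- **The norm along `α` on `ℍ`, over a left transversal (`q ∣ M`).** -/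
theorem E_norm_alpha (hq : q.Prime) (hqM : q ∣ M) (T : (Transfer.subA M q).LeftTransversal)
    (f : FN (M * q)) :
    letI := algebraAlong (heckeAlphaBar Kbar M q)
    E M (Algebra.norm (FN M) f) = rootA' M q (E (M * q) f) T := by
  letI := algebraAlong (heckeAlphaBar Kbar M q)
  letI := (Transfer.subA M q).fintypeQuotientOfFiniteIndex
  have hcard : Fintype.card (↥(Gamma0 M) ⧸ Transfer.subA M q) = q := by
    rw [← Nat.card_eq_fintype_card, ← Subgroup.index_eq_card,
      DegNCDeg.index_subA_of_dvd M q hq hqM]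
  have hfr : Module.finrank (FN M) (FN (M * q)) = q :=
    DegNCDeg.finrankAlong_alpha_of_dvd M q hq hqM
  haveI : FiniteDimensional (FN M) (FN (M * q)) :=
    Module.finite_of_finrank_pos (by rw [hfr]; exact hq.pos)
  refine Fermat.Agent.S37.Conj.map_norm_eq_prod_of_card (K := FN M) (L := FN (M * q))
    (Ω := MerH) (E M)
    (fun x : ↥(Gamma0 M) ⧸ Transfer.subA M q =>
      (pre (slp ((((T.2.leftQuotientEquiv x : ↥(Gamma0 M))⁻¹ : ↥(Gamma0 M)) :
        SL(2, ℤ))))).toRingHom.comp (E (M * q))) ?_ ?_ ?_ f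
  · intro x y
    show pre (slp _) (E (M * q) (heckeAlphaBar Kbar M q y)) = E M y
    rw [E_alpha, pre_sl_E M (SetLike.coe_mem _)]
  · intro x y hxy
    have h := RingHom.congr_fun hxy ⟨FFBridge.gen (M * q), FFBridge.gen_mem dvd_rfl⟩
    have h' : pre (slp ((((T.2.leftQuotientEquiv x : ↥(Gamma0 M))⁻¹ : ↥(Gamma0 M)) : SL(2, ℤ))))
        (E (M * q) ⟨FFBridge.gen (M * q), FFBridge.gen_mem dvd_rfl⟩) =
        pre (slp ((((T.2.leftQuotientEquiv y : ↥(Gamma0 M))⁻¹ : ↥(Gamma0 M)) : SL(2, ℤ))))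
          (E (M * q) ⟨FFBridge.gen (M * q), FFBridge.gen_mem dvd_rfl⟩) := h
    have hmem := mem_Gamma0_of_pre_sl_E (M * q)
      ((((T.2.leftQuotientEquiv x : ↥(Gamma0 M))⁻¹ : ↥(Gamma0 M)) : SL(2, ℤ)) *
        (((T.2.leftQuotientEquiv y : ↥(Gamma0 M))⁻¹ : ↥(Gamma0 M)) : SL(2, ℤ))⁻¹)
      (by rw [map_mul, pre_mul, h', ← pre_mul, ← map_mul, mul_inv_cancel, map_one, pre_one])
    have h1 : ((T.2.leftQuotientEquiv x : ↥(Gamma0 M)))⁻¹ * (T.2.leftQuotientEquiv y : ↥(Gamma0 M))
        ∈ Transfer.subA M q := by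
      show _ ∈ (Gamma0 (M * q)).subgroupOf (Gamma0 M)
      rw [Subgroup.mem_subgroupOf]
      simpa using hmem
    have h2 : ((T.2.leftQuotientEquiv x : ↥(Gamma0 M)) : ↥(Gamma0 M) ⧸ Transfer.subA M q) =
        ((T.2.leftQuotientEquiv y : ↥(Gamma0 M)) : ↥(Gamma0 M) ⧸ Transfer.subA M q) :=
      QuotientGroup.eq.mpr h1
    have hx := T.2.quotientGroupMk_leftQuotientEquiv x
    have hy := T.2.quotientGroupMk_leftQuotientEquiv y
    exact hx.symm.trans (h2.trans hy)
  · rw [hcard, hfr]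

/-- **[KPUSH] α at `q ∣ M`, datum level.** -/
theorem isKummerDatum_pushA (hq : q.Prime) (hqM : q ∣ M) {n : ℕ}
    {D : Divisor Kbar (FN (M * q))} {f : FN (M * q)} {G : Kappa.Mer}
    {ψ : ↥(Gamma0 (M * q)) →* ℂˣ}
    (hD : Kappa.IsKummerDatum (Kappa.realQ (M * q)) n D f G ψ)
    (T : (Transfer.subA M q).LeftTransversal) :
    Kappa.IsKummerDatum (Kappa.realQ M) n
      (Divisor.pushforwardAlong (heckeAlphaBar Kbar M q) (heckeAlphaBarIntegral M q) D)
      (letI := algebraAlong (heckeAlphaBar Kbar M q); Algebra.norm (FN M) f)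
      (rootA' M q G T) (Transfer.trA M q ψ) := by
  letI := (Transfer.subA M q).fintypeQuotientOfFiniteIndex
  refine Kappa.isKummerDatum_realQ_of_pre M ?_ ?_ ?_ ?_
  · exact norm_along_ne_zero _ (finiteAlong_alpha M q) hD.ne_zero
  · intro v
    letI := algebraAlong (heckeAlphaBar Kbar M q)
    haveI := isScalarTower_along (heckeAlphaBar Kbar M q)
    haveI := isIntegral_along (heckeAlphaBar Kbar M q) (heckeAlphaBarIntegral M q)
    haveI : Module.Finite (FN M) (FN (M * q)) := finiteAlong_alpha M q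
    have hN' : Divisor.PushforwardNormFormula Kbar (FN M) (FN (M * q)) :=
      normFormulaAlong_alpha M q
    have h1 : ∀ w : Place Kbar (FN (M * q)), (n • D) w = w.ord f := by
      intro w
      rw [Finsupp.smul_apply, nsmul_eq_mul]
      exact hD.div_eq w
    have h2 := hN' f hD.ne_zero (n • D) h1 v
    rw [map_nsmul, Finsupp.smul_apply, nsmul_eq_mul] at h2
    rw [← h2]
    rfl
  · rw [E_norm_alpha M q hq hqM T f, ← hD.root_E]
    show (∏ x : ↥(Gamma0 M) ⧸ Transfer.subA M q, preM M _ G) ^ n =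
      ∏ x : ↥(Gamma0 M) ⧸ Transfer.subA M q, preM M _ (G ^ n)
    rw [← Finset.prod_pow]
    refine Finset.prod_congr rfl fun x _ => ?_
    rw [map_pow]
  · intro γ
    exact pre_rootA' M q G ψ hD.pre_char T γ

/-- **(K-α′)**: the Kummer relation and `α_* = Push.pushA M q` at a prime `q ∣ M`. -/
theorem kummerRel_pushA (hq : q.Prime) (hqM : q ∣ M) {n : ℕ} {x : JZero (M * q)}
    {ψ : ↥(Gamma0 (M * q)) →* ℂˣ} (hx : Kappa.KummerRel (Kappa.realQ (M * q)) n x ψ) :
    Kappa.KummerRel (Kappa.realQ M) n (Push.pushA M q x) (Transfer.trA M q ψ) := by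
  obtain ⟨D, f, G, rfl, hD⟩ := hx
  exact ⟨⟨_, Divisor.pushforwardAlong_mem_degZero _ _ D.2⟩, _, _, (Push.pushA_mk M q D).symm,
    isKummerDatum_pushA M q hq hqM hD default⟩

end Fermat.Agent.S36.DegNCKummerA
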