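import Mathlib
import Fermat.Agent.S35.KPush
import Fermat.Agent.S35.Transfer
import Fermat.Agent.S35.Push
import Fermat.Agent.S36.DegNCDeg
import Fermat.Agent.Lib.HeckeHomInt

/-!
# S36 / [DEGEN′], leaf (K-β′) (helper21): the Kummer relation and `β_*` at a prime `q ∣ M`

`q` prime, `q ∣ M`; `β = heckeBetaBar Kbar M q : F_M → F_{Mq}` (`f(τ) ↦ f(qτ)`), `δ = diag(q, 1)`.
No Atkin–Lehner involution exchanges `α` and `β` here; the norm along `β` is computed directly: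

* the `q` ring homs `x ↦ (E_{Mq} x) ∘ (δ⁻¹ t⁻¹)`, `t` over a left transversal of
  `Γ₀(M) ∩ Γ⁰(q)` (`Transfer.subB M q`) in `Γ₀(M)`, are pairwise distinct embeddings of `F_{Mq}`
  into `Mer(ℍ)` extending `E_M` along `β`, and `[F_{Mq} : β F_M] = q` (`DegNCDeg`);
* `G ∘ δ⁻¹` is semi-invariant under `Γ₀(M) ∩ Γ⁰(q)` with character `ψ ∘ conjB`
  (`h δ = δ conjB(h)`), so the product of its translates has character `Transfer.trB M q ψ`.

Main results: `E_norm_beta`, `isKummerDatum_pushB`, `kummerRel_pushB`.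
-/

set_option autoImplicit false
set_option linter.style.haveILetI false
set_option linter.unusedSectionVars false

noncomputable section

namespace Fermat.Agent.S36.DegNCKummerB

open UpperHalfPlane CongruenceSubgroup ModularCurve AlgebraicCurve
open Fermat.Agent.Lib Fermat.Agent.Lib.HolVal Fermat.Agent.Lib.JStab Fermat.Agent.S24
open Fermat.Agent.P5.HeckeKappa Fermat.Agent.P5
open Fermat.Agent.S37.HeckeInputs Fermat.Agent.S35 Fermat.Agent.S35.KPush
open Fermat.Agent.Lib.HeckeHomGL (coe_mapGL_eq_map)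
open Matrix.SpecialLinearGroup (mapGL)
open scoped MatrixGroups Manifold

/-! ### `δ⁻¹ = diag(q, 1)⁻¹` -/

section Dinv

variable (q : ℕ) [NeZero q]

/-- `δ⁻¹`, `δ = diag(q, 1)`, in `GL₂(ℝ)⁺`. -/
def dinv : GLp := (dilG q)⁻¹

theorem dilG_mul_dinv : dilG q * dinv q = 1 := mul_inv_cancel _

theorem dinv_mul_dilG : dinv q * dilG q = 1 := inv_mul_cancel _

theorem coe_dilG_val :
    (((dilG q : GLp) : GL (Fin 2) ℝ) : Matrix (Fin 2) (Fin 2) ℝ) = !![(q : ℝ), 0; 0, 1] := rfl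

/-- `δ · (δ⁻¹ z) = z`. -/
theorem dilG_smul_dinv_smul (z : ℍ) :
    ((dilG q : GLp) : GL (Fin 2) ℝ) • (((dinv q : GLp) : GL (Fin 2) ℝ) • z) = z := by
  rw [← mul_smul, ← Subgroup.coe_mul, dilG_mul_dinv, Subgroup.coe_one, one_smul]

/-- `q · (δ⁻¹ z) = z` in `ℂ`. -/
theorem coe_dinv_smul (z : ℍ) :
    (q : ℂ) * ((((dinv q : GLp) : GL (Fin 2) ℝ) • z : ℍ) : ℂ) = (z : ℂ) := by
  have h : ((((dilG q : GLp) : GL (Fin 2) ℝ) • (((dinv q : GLp) : GL (Fin 2) ℝ) • z) : ℍ) : ℂ) =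
      (z : ℂ) := congrArg UpperHalfPlane.coe (dilG_smul_dinv_smul q z)
  rw [coe_dilG_smul, Fermat.Agent.S37.Kron.AtkinLehner.coe_dil (NeZero.ne q)] at h
  exact h

/-- **`j(z / q) = j(q · S z)`.** -/
theorem jN_one_dinv_smul (z : ℍ) :
    jN 1 (((dinv q : GLp) : GL (Fin 2) ℝ) • z) = jN q (ModularGroup.S • z) := by
  have hS : ModularGroup.S ∈ Gamma0 1 := by
    rw [Gamma0_mem]
    exact Subsingleton.elim _ _
  rw [← jN_smul_of_mem (N := 1) (d := 1) dvd_rfl hS, jN_def, jN_def]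
  congr 2
  have h1 := coe_dinv_smul q z
  have hq : (q : ℂ) ≠ 0 := Nat.cast_ne_zero.mpr (NeZero.ne q)
  have hz : (z : ℂ) ≠ 0 := UpperHalfPlane.ne_zero z
  have hv : ((((dinv q : GLp) : GL (Fin 2) ℝ) • z : ℍ) : ℂ) ≠ 0 := UpperHalfPlane.ne_zero _
  rw [UpperHalfPlane.modular_S_smul, UpperHalfPlane.modular_S_smul]
  show ((1 : ℕ) : ℂ) * (-((((dinv q : GLp) : GL (Fin 2) ℝ) • z : ℍ) : ℂ))⁻¹ =
    (q : ℂ) * (-(z : ℂ))⁻¹
  rw [← h1]
  field_simp
  norm_num

end Dinv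

/-! ### Semi-invariance of `G ∘ δ⁻¹` -/

section Semi

variable (M q : ℕ) [NeZero M] [NeZero q]

/-- `h δ = δ conjB(h)` for `h ∈ Γ₀(M) ∩ Γ⁰(q)`. -/
theorem slp_mul_dilG (h : ↥(Transfer.subB M q)) :
    slp ((h : ↥(Gamma0 M)) : SL(2, ℤ)) * dilG q =
      dilG q * slp ((Transfer.conjB M q h : ↥(Gamma0 (M * q))) : SL(2, ℤ)) := by
  apply Subtype.ext
  apply Units.ext
  show ((mapGL ℝ ((h : ↥(Gamma0 M)) : SL(2, ℤ)) : GL (Fin 2) ℝ) : Matrix (Fin 2) (Fin 2) ℝ) *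
      (((dilG q : GLp) : GL (Fin 2) ℝ) : Matrix (Fin 2) (Fin 2) ℝ) =
    (((dilG q : GLp) : GL (Fin 2) ℝ) : Matrix (Fin 2) (Fin 2) ℝ) *
      ((mapGL ℝ ((Transfer.conjB M q h : ↥(Gamma0 (M * q))) : SL(2, ℤ)) : GL (Fin 2) ℝ) :
        Matrix (Fin 2) (Fin 2) ℝ)
  rw [coe_dilG_val, coe_mapGL_eq_map, coe_mapGL_eq_map, Transfer.coe_conjB]
  have e := Transfer.conjMat_zero_one (ℓ := q) ((h : ↥(Gamma0 M)) : SL(2, ℤ))
    ((Transfer.mem_subB M q).1 h.2)
  have eR : (q : ℝ) * ((Transfer.conjMat q ((h : ↥(Gamma0 M)) : SL(2, ℤ))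
      ((Transfer.mem_subB M q).1 h.2) 0 1 : ℤ) : ℝ) =
      ((((h : ↥(Gamma0 M)) : SL(2, ℤ)) 0 1 : ℤ) : ℝ) := by exact_mod_cast e
  have e00 := Transfer.conjMat_zero_zero (ℓ := q) ((h : ↥(Gamma0 M)) : SL(2, ℤ))
    ((Transfer.mem_subB M q).1 h.2)
  have e10 := Transfer.conjMat_one_zero (ℓ := q) ((h : ↥(Gamma0 M)) : SL(2, ℤ))
    ((Transfer.mem_subB M q).1 h.2)
  have e11 := Transfer.conjMat_one_one (ℓ := q) ((h : ↥(Gamma0 M)) : SL(2, ℤ))
    ((Transfer.mem_subB M q).1 h.2)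
  ext i j
  fin_cases i <;> fin_cases j
  · simp [Matrix.mul_apply, Fin.sum_univ_two, e00]
    ring
  · simp [Matrix.mul_apply, Fin.sum_univ_two]
    linarith
  · simp [Matrix.mul_apply, Fin.sum_univ_two, e10]
  · simp [Matrix.mul_apply, Fin.sum_univ_two, e11]

/-- `δ⁻¹ h = conjB(h) δ⁻¹`. -/
theorem dinv_mul_slp (h : ↥(Transfer.subB M q)) :
    dinv q * slp ((h : ↥(Gamma0 M)) : SL(2, ℤ)) =
      slp ((Transfer.conjB M q h : ↥(Gamma0 (M * q))) : SL(2, ℤ)) * dinv q := by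
  have h1 := slp_mul_dilG M q h
  unfold dinv
  rw [inv_mul_eq_iff_eq_mul, ← mul_assoc, eq_mul_inv_iff_mul_eq]
  exact h1

/-- The semi-invariance of `G ∘ δ⁻¹` under `Γ₀(M) ∩ Γ⁰(q)`, with character `ψ ∘ conjB`. -/
theorem pre_dinv_semi (G : MerH) (ψ : ↥(Gamma0 (M * q)) →* ℂˣ)
    (hG : ∀ γ : ↥(Gamma0 (M * q)), pre (slp (γ : SL(2, ℤ))) G = cstM ((ψ γ : ℂˣ) : ℂ) * G)
    (h : ↥(Transfer.subB M q)) :
    preM M (h : ↥(Gamma0 M)) (pre (dinv q) G) =
      cstU ((ψ.comp (Transfer.conjB M q)) h) * pre (dinv q) G := by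
  rw [preM_apply, ← pre_mul, dinv_mul_slp, pre_mul, hG, map_mul, pre_cstM]
  rfl

/-- The root of the norm along `β`: the product of the translates of `G ∘ δ⁻¹` over a left
transversal of `Γ₀(M) ∩ Γ⁰(q)` in `Γ₀(M)`. -/
def rootB (G : MerH) (T : (Transfer.subB M q).LeftTransversal) : MerH :=
  prodT (preM M) (pre (dinv q) G) T

/-- **The transfer of a semi-invariant, `β`-form.** -/
theorem pre_rootB (G : MerH) (ψ : ↥(Gamma0 (M * q)) →* ℂˣ)
    (hG : ∀ γ : ↥(Gamma0 (M * q)), pre (slp (γ : SL(2, ℤ))) G = cstM ((ψ γ : ℂˣ) : ℂ) * G)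
    (T : (Transfer.subB M q).LeftTransversal) (γ : ↥(Gamma0 M)) :
    pre (slp (γ : SL(2, ℤ))) (rootB M q G T) =
      cstM ((Transfer.trB M q ψ γ : ℂˣ) : ℂ) * rootB M q G T :=
  map_prodT_eq_transfer (preM M) (preM_mul M) cstU (preM_cstU M) (ψ.comp (Transfer.conjB M q))
    (pre (dinv q) G) (pre_dinv_semi M q G ψ hG) γ T

theorem rootB_pow (G : MerH) (T : (Transfer.subB M q).LeftTransversal) (n : ℕ) :
    rootB M q G T ^ n = rootB M q (G ^ n) T := by
  letI := (Transfer.subB M q).fintypeQuotientOfFiniteIndex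
  show (∏ x : ↥(Gamma0 M) ⧸ Transfer.subB M q, preM M _ (pre (dinv q) G)) ^ n =
    ∏ x : ↥(Gamma0 M) ⧸ Transfer.subB M q, preM M _ (pre (dinv q) (G ^ n))
  rw [← Finset.prod_pow]
  refine Finset.prod_congr rfl fun x _ => ?_
  rw [map_pow, map_pow]

end Semi

/-! ### The norm along `β` on `ℍ` -/

section Beta

variable (M q : ℕ) [NeZero M] [NeZero q]

/-- The generator `j` of `F_{Mq}` (`d = 1`). -/
def jEl : FN (M * q) := ⟨FFBridge.gen 1, FFBridge.gen_mem (one_dvd _)⟩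

theorem E_jEl : E (M * q) (jEl M q) = algebraMap Hol MerH (jHol 1) :=
  E_gen (M * q) 1 (one_dvd _)

/-- The lower left entry of `S u S⁻¹` is minus the upper right entry of `u`. -/
theorem S_conj_one_zero (u : SL(2, ℤ)) :
    (ModularGroup.S * u * ModularGroup.S⁻¹) 1 0 = -(u 0 1) := by
  have hS10 : (ModularGroup.S : SL(2, ℤ)) 1 0 = 1 := rfl
  have hS11 : (ModularGroup.S : SL(2, ℤ)) 1 1 = 0 := rfl
  have hI00 : (ModularGroup.S⁻¹ : SL(2, ℤ)) 0 0 = 0 := by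
    rw [Matrix.SpecialLinearGroup.SL2_inv_expl]; rfl
  have hI10 : (ModularGroup.S⁻¹ : SL(2, ℤ)) 1 0 = -1 := by
    rw [Matrix.SpecialLinearGroup.SL2_inv_expl]; rfl
  rw [Transfer.mul_one_zero, Transfer.mul_one_zero, Transfer.mul_one_one, hS10, hS11, hI00, hI10]
  ring

/-- **Distinctness.**  If `j ∘ (δ⁻¹ t) = j ∘ (δ⁻¹ s)` on `ℍ` for `t, s ∈ SL₂(ℤ)`, then the upper
right entry of `t s⁻¹` is divisible by `q`. -/
theorem dvd_of_pre_dinv_eq (t s : SL(2, ℤ))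
    (h : pre (slp t) (pre (dinv q) (algebraMap Hol MerH (jHol 1))) =
      pre (slp s) (pre (dinv q) (algebraMap Hol MerH (jHol 1)))) :
    (q : ℤ) ∣ (t * s⁻¹) 0 1 := by
  simp only [pre_algebraMap] at h
  have h2 := IsFractionRing.injective Hol MerH h
  have hpt : ∀ z : ℍ, jN q (ModularGroup.S • t • z) = jN q (ModularGroup.S • s • z) := by
    intro z
    have h3 := congrFun (congrArg Subtype.val h2) z
    have h4 : jN 1 (((dinv q : GLp) : GL (Fin 2) ℝ) • (t • z)) =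
        jN 1 (((dinv q : GLp) : GL (Fin 2) ℝ) • (s • z)) := h3
    rw [jN_one_dinv_smul, jN_one_dinv_smul] at h4
    exact h4
  have hmem : ModularGroup.S * (t * s⁻¹) * ModularGroup.S⁻¹ ∈ Gamma0 q := by
    apply mem_Gamma0_of_jN_smul q
    intro w
    have h5 := hpt (s⁻¹ • ModularGroup.S⁻¹ • w)
    rw [← mul_smul, ← mul_smul, ← mul_smul, ← mul_smul, ← mul_smul, ← mul_smul] at h5
    have e1 : ModularGroup.S * t * s⁻¹ * ModularGroup.S⁻¹ =
        ModularGroup.S * (t * s⁻¹) * ModularGroup.S⁻¹ := by group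
    have e2 : ModularGroup.S * s * s⁻¹ * ModularGroup.S⁻¹ = 1 := by group
    rw [e1, e2, one_smul] at h5
    exact h5
  rw [Gamma0_mem, ZMod.intCast_zmod_eq_zero_iff_dvd] at hmem
  rw [S_conj_one_zero] at hmem
  exact (dvd_neg.mp hmem)

/-- **The norm along `β` on `ℍ`, over a left transversal of `Γ₀(M) ∩ Γ⁰(q)`.** -/
theorem E_norm_beta (hq : q.Prime) (hqM : q ∣ M) (T : (Transfer.subB M q).LeftTransversal)
    (f : FN (M * q)) :
    letI := algebraAlong (heckeBetaBar Kbar M q)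
    E M (Algebra.norm (FN M) f) = rootB M q (E (M * q) f) T := by
  letI := algebraAlong (heckeBetaBar Kbar M q)
  letI := (Transfer.subB M q).fintypeQuotientOfFiniteIndex
  have hcard : Fintype.card (↥(Gamma0 M) ⧸ Transfer.subB M q) = q := by
    rw [← Nat.card_eq_fintype_card, ← Subgroup.index_eq_card,
      DegNCDeg.index_subB_of_dvd hq hqM]
  have hfr : Module.finrank (FN M) (FN (M * q)) = q :=
    DegNCDeg.finrankAlong_beta_of_dvd q hq M hqM
  haveI : FiniteDimensional (FN M) (FN (M * q)) :=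
    Module.finite_of_finrank_pos (by rw [hfr]; exact hq.pos)
  refine Fermat.Agent.S37.Conj.map_norm_eq_prod_of_card (K := FN M) (L := FN (M * q))
    (Ω := MerH) (E M)
    (fun x : ↥(Gamma0 M) ⧸ Transfer.subB M q =>
      ((pre (slp ((((T.2.leftQuotientEquiv x : ↥(Gamma0 M))⁻¹ : ↥(Gamma0 M)) :
        SL(2, ℤ))))).toRingHom.comp (pre (dinv q)).toRingHom).comp (E (M * q))) ?_ ?_ ?_ f
  · intro x y
    show pre (slp _) (pre (dinv q) (E (M * q) (heckeBetaBar Kbar M q y))) = E M y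
    rw [E_beta, ← pre_mul (dilG q) (dinv q), dilG_mul_dinv, pre_one,
      pre_sl_E M (SetLike.coe_mem _)]
  · intro x y hxy
    have h := RingHom.congr_fun hxy (jEl M q)
    have h' : pre (slp ((((T.2.leftQuotientEquiv x : ↥(Gamma0 M))⁻¹ : ↥(Gamma0 M)) : SL(2, ℤ))))
        (pre (dinv q) (E (M * q) (jEl M q))) =
        pre (slp ((((T.2.leftQuotientEquiv y : ↥(Gamma0 M))⁻¹ : ↥(Gamma0 M)) : SL(2, ℤ))))
          (pre (dinv q) (E (M * q) (jEl M q))) := h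
    rw [E_jEl] at h'
    have hdvd := dvd_of_pre_dinv_eq q _ _ h'
    have h1 : ((T.2.leftQuotientEquiv x : ↥(Gamma0 M)))⁻¹ * (T.2.leftQuotientEquiv y : ↥(Gamma0 M))
        ∈ Transfer.subB M q := by
      rw [Transfer.mem_subB]
      simpa using hdvd
    have h2 : ((T.2.leftQuotientEquiv x : ↥(Gamma0 M)) : ↥(Gamma0 M) ⧸ Transfer.subB M q) =
        ((T.2.leftQuotientEquiv y : ↥(Gamma0 M)) : ↥(Gamma0 M) ⧸ Transfer.subB M q) :=
      QuotientGroup.eq.mpr h1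
    have hx := T.2.quotientGroupMk_leftQuotientEquiv x
    have hy := T.2.quotientGroupMk_leftQuotientEquiv y
    exact hx.symm.trans (h2.trans hy)
  · rw [hcard, hfr]

/-- **[KPUSH] β at `q ∣ M`, datum level.**  A Kummer datum `(D, f, G, ψ)` of level `Mq` gives the
Kummer datum `(β_* D, Norm_β f, ∏_T (G ∘ δ⁻¹) ∘ t⁻¹, trB ψ)` of level `M`. -/
theorem isKummerDatum_pushB (hq : q.Prime) (hqM : q ∣ M) {n : ℕ}
    {D : Divisor Kbar (FN (M * q))} {f : FN (M * q)} {G : Kappa.Mer}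
    {ψ : ↥(Gamma0 (M * q)) →* ℂˣ}
    (hD : Kappa.IsKummerDatum (Kappa.realQ (M * q)) n D f G ψ)
    (T : (Transfer.subB M q).LeftTransversal) :
    Kappa.IsKummerDatum (Kappa.realQ M) n
      (Divisor.pushforwardAlong (heckeBetaBar Kbar M q) (heckeBetaBarIntegral M q) D)
      (letI := algebraAlong (heckeBetaBar Kbar M q); Algebra.norm (FN M) f)
      (rootB M q G T) (Transfer.trB M q ψ) := by
  refine Kappa.isKummerDatum_realQ_of_pre M ?_ ?_ ?_ ?_
  · exact norm_along_ne_zero _ (finiteAlong_beta M q) hD.ne_zero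
  · intro v
    letI := algebraAlong (heckeBetaBar Kbar M q)
    haveI := isScalarTower_along (heckeBetaBar Kbar M q)
    haveI := isIntegral_along (heckeBetaBar Kbar M q) (heckeBetaBarIntegral M q)
    haveI : Module.Finite (FN M) (FN (M * q)) := finiteAlong_beta M q
    have hN' : Divisor.PushforwardNormFormula Kbar (FN M) (FN (M * q)) :=
      normFormulaAlong_beta M q
    have h1 : ∀ w : Place Kbar (FN (M * q)), (n • D) w = w.ord f := by
      intro w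
      rw [Finsupp.smul_apply, nsmul_eq_mul]
      exact hD.div_eq w
    have h2 := hN' f hD.ne_zero (n • D) h1 v
    rw [map_nsmul, Finsupp.smul_apply, nsmul_eq_mul] at h2
    rw [← h2]
    rfl
  · rw [E_norm_beta M q hq hqM T f, ← hD.root_E, rootB_pow]
  · intro γ
    exact pre_rootB M q G ψ hD.pre_char T γ

/-- **[KPUSH] β at `q ∣ M`, class level.**  For any map `pB` on classes with the `mk`-formula of
`β_*`: if `ψ` is the Kummer character of `x ∈ J₀(Mq)` then `Transfer.trB M q ψ` is the Kummer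
character of `pB x ∈ J₀(M)`. -/
theorem kummerRel_pushB_of (hq : q.Prime) (hqM : q ∣ M) (pB : JZero (M * q) → JZero M)
    (hpB : ∀ D : Divisor.degZero (K := Kbar) (F := FN (M * q)),
      pB (Pic0.mk D) = Pic0.mk ⟨Divisor.pushforwardAlong (heckeBetaBar Kbar M q)
        (heckeBetaBarIntegral M q) (D : Divisor Kbar (FN (M * q))),
        Divisor.pushforwardAlong_mem_degZero _ _ D.2⟩)
    {n : ℕ} {x : JZero (M * q)} {ψ : ↥(Gamma0 (M * q)) →* ℂˣ}
    (hx : Kappa.KummerRel (Kappa.realQ (M * q)) n x ψ) :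
    Kappa.KummerRel (Kappa.realQ M) n (pB x) (Transfer.trB M q ψ) := by
  obtain ⟨D, f, G, rfl, hD⟩ := hx
  exact ⟨⟨_, Divisor.pushforwardAlong_mem_degZero _ _ D.2⟩, _, _, (hpB D).symm,
    isKummerDatum_pushB M q hq hqM hD default⟩

/-- **(K-β′)**: the Kummer relation and `β_* = Push.pushB M q` at a prime `q ∣ M`. -/
theorem kummerRel_pushB (hq : q.Prime) (hqM : q ∣ M) {n : ℕ} {x : JZero (M * q)}
    {ψ : ↥(Gamma0 (M * q)) →* ℂˣ} (hx : Kappa.KummerRel (Kappa.realQ (M * q)) n x ψ) :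
    Kappa.KummerRel (Kappa.realQ M) n (Push.pushB M q x) (Transfer.trB M q ψ) :=
  kummerRel_pushB_of M q hq hqM (Push.pushB M q) (Push.pushB_mk M q) hx

end Beta

end Fermat.Agent.S36.DegNCKummerB
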