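import Mathlib
import Fermat.Agent.S35.Degen
import Fermat.Agent.S36.DegNCKummerA
import Fermat.Agent.S36.DegNCKummerB
import Fermat.Agent.S36.CohDegenD

/-!
# S36 — the junction [DEGEN′] (helper21): `Plan.DegenStmt` at a prime `q ∣ N'`

`degenStmt N' q hq hqN : Plan.DegenStmt N' q (Push.pushA N' q) (Push.pushB N' q)` for every level
`N' ≥ 1` and every prime `q ∣ N'` (the case excluded by `S35/DegenInst.degenStmt`, where `q ∤ N'`).

Witnesses: `cA := Transfer.cA N' q`, `cB := Transfer.cB N' q` (the transfers along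
`Γ₀(N' q) ≤ Γ₀(N')` and along `Γ₀(N') ∩ Γ⁰(q) ≤ Γ₀(N')` twisted by `diag(q, 1)`), general in the
level; no Bezout pair and no Atkin–Lehner involution.

* Hecke half: `S35.Degen.cA_tcohL` (helper37's `CohDegen.trHom_tcoh`) and helper37's
  `S36.CohDegenD.cB_tcohL`;
* Kummer half: `DegNCKummerA.kummerRel_pushA`, `DegNCKummerB.kummerRel_pushB`, through
  `chi_cA`, `chi_cB` (the characters `e(cA φ / n)`, `e(cB φ / n)` are the transfers of
  `e(φ / n)`).
-/

set_option autoImplicit false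

noncomputable section

namespace Fermat.Agent.S36.DegNC

open CongruenceSubgroup ModularCurve ModularCurve.Period
open Fermat.Agent.S35
open Fermat.Agent.P5.Per (Lat tcohL tcoh)
open Fermat.Agent.P5.Kappa (KummerRel realQ)
open Fermat.Agent.P5.Lambda (chi)
open Fermat.Agent.Lib.EisChar (expChar expChar_apply)
open scoped MatrixGroups

variable (M q : ℕ) [NeZero M] [NeZero q]

/-- `e(cA φ / n) = trA (e(φ / n))`, at every level. -/
theorem chi_cA (φ : Lat (M * q)) (n : ℕ) :
    chi M (Transfer.cA M q φ) n = Transfer.trA M q (chi (M * q) φ n) := by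
  show expChar (Gamma0 M) (Transfer.corA M q (φ : Additive ↥(Gamma0 (M * q)) →+ ℤ)) n =
    Transfer.trA M q (expChar (Gamma0 (M * q)) (φ : Additive ↥(Gamma0 (M * q)) →+ ℤ) n)
  rw [Degen.expChar_eq_comp, Degen.expChar_eq_comp, Transfer.trA_comp_toMul]

/-- `e(cB φ / n) = trB (e(φ / n))`, at every level. -/
theorem chi_cB (φ : Lat (M * q)) (n : ℕ) :
    chi M (Transfer.cB M q φ) n = Transfer.trB M q (chi (M * q) φ n) := by
  show expChar (Gamma0 M) (Transfer.corB M q (φ : Additive ↥(Gamma0 (M * q)) →+ ℤ)) n =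
    Transfer.trB M q (expChar (Gamma0 (M * q)) (φ : Additive ↥(Gamma0 (M * q)) →+ ℤ) n)
  rw [Degen.expChar_eq_comp, Degen.expChar_eq_comp, Transfer.trB_comp_toMul]

/-- **The Kummer half of [DEGEN′].** -/
theorem kummer (hq : q.Prime) (hqM : q ∣ M) (n : ℕ) (φ : Lat (M * q)) (x : JZero (M * q))
    (hx : KummerRel (realQ (M * q)) n x (chi (M * q) φ n)) :
    KummerRel (realQ M) n (Push.pushA M q x) (chi M (Transfer.cA M q φ) n) ∧
      KummerRel (realQ M) n (Push.pushB M q x) (chi M (Transfer.cB M q φ) n) := by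
  refine ⟨?_, ?_⟩
  · rw [chi_cA]
    exact DegNCKummerA.kummerRel_pushA M q hq hqM hx
  · rw [chi_cB]
    exact DegNCKummerB.kummerRel_pushB M q hq hqM hx

/-- **[DEGEN′]**: the junction contract `Plan.DegenStmt` for the two degeneracy push-forwards
`α_*`, `β_* : J₀(N' q) → J₀(N')`, `q` a prime dividing `N'`. -/
theorem degenStmt (N' q : ℕ) [NeZero N'] [NeZero q] (hq : q.Prime) (hqN : q ∣ N') :
    Plan.DegenStmt N' q (Push.pushA N' q) (Push.pushB N' q) :=
  ⟨Transfer.cA N' q, Transfer.cB N' q,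
    fun _ hℓ hℓN hℓN' φ =>
      ⟨Degen.cA_tcohL N' q hℓ hℓN hℓN' φ, CohDegenD.cB_tcohL N' q hℓ hℓN hℓN' φ⟩,
    fun n _ φ x hx => kummer N' q hq hqN n φ x hx⟩

/-- `q² ∥ N' q` forces `q ∣ N'`. -/
theorem dvd_of_factorization_eq_two {M N' q : ℕ} [NeZero N'] (hq : q.Prime) (hM : M = N' * q)
    (h2 : M.factorization q = 2) : q ∣ N' := by
  have h := hM ▸ h2
  rw [Nat.factorization_mul (NeZero.ne N') hq.ne_zero, Finsupp.add_apply,
    hq.factorization_self] at h
  exact Nat.dvd_of_factorization_pos (by omega)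

/-- **[DEGEN′]** in the shape consumed at the top of S36: `M = N' q` with `q² ∥ M`. -/
theorem degenStmt_of_factorization (M N' q : ℕ) [NeZero N'] [NeZero q] (hq : q.Prime)
    (hM : M = N' * q) (h2 : M.factorization q = 2) :
    Plan.DegenStmt N' q (Push.pushA N' q) (Push.pushB N' q) :=
  degenStmt N' q hq (dvd_of_factorization_eq_two hq hM h2)

end Fermat.Agent.S36.DegNC
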