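import Mathlib

/-!
# S36 / P8 — `UnipInv`: the abstract core of the top (helper38)

Pure algebra over Mathlib (steps 4 and 5 of the P8 top, board #2986):

* `triple_eq_zero` : a group acting additively on `W` (`2` injective on `W`) with
  `(ρ h - 1)² = 0` for all `h` satisfies `(ρ g - 1)(ρ h - 1)(ρ k - 1) = 0` for all `g h k`;
* `smul_eq_zero_of_sq` : if moreover `c` kills the invariants of `W`, then `c ^ 3` kills every
  `w` with `(ρ h - 1)² w = 0` for all `h` (no hypothesis on the other vectors);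
* `baseChange_inv` : a bound `c` on the invariants of a finite abelian group `P` survives the
  flat base change `O ⊗[ℤ] P`;
* `smul_eq_zero_of_sq_baseChange` : the two combined on `O ⊗[ℤ] P`, `P` killed by an odd `m`;
* `smul_eq_zero_of_add_inv`, `smul_eq_zero_of_add_inv_baseChange` : the same with the hypothesis
  in the form `(h + h⁻¹ - 2) w = 0`.
-/

set_option autoImplicit false

namespace Fermat.Agent.S36.UnipInv

open TensorProduct

section Ring

variable {W : Type*} [AddCommGroup W] {H : Type*} [Group H]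

/-- If `(ρ h - 1)² = 0` for every `h` and `2` is injective on `W`, then all triple products
`(ρ g - 1)(ρ h - 1)(ρ k - 1)` vanish. -/
theorem triple_eq_zero (ρ : H →* AddMonoid.End W) (h2 : ∀ w : W, 2 • w = 0 → w = 0)
    (hsq : ∀ h, (ρ h - 1) * (ρ h - 1) = 0) (g h k : H) :
    (ρ g - 1) * (ρ h - 1) * (ρ k - 1) = 0 := by
  have h2E : ∀ f : AddMonoid.End W, f + f = 0 → f = 0 := by
    intro f hf
    ext w
    apply h2
    have h := DFunLike.congr_fun hf w
    rw [two_smul]
    exact h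
  have hρ : ∀ x, ρ x = 1 + (ρ x - 1) := fun x => by abel
  have hinv : ∀ x, ρ x⁻¹ - 1 = -(ρ x - 1) := by
    intro x
    have h1 : ρ x⁻¹ * ρ x = 1 := by rw [← map_mul, inv_mul_cancel, map_one]
    have h3 : ρ x * (1 - (ρ x - 1)) = 1 := by
      have e : ρ x * (1 - (ρ x - 1)) = 1 - (ρ x - 1) * (ρ x - 1) := by noncomm_ring
      rw [e, hsq x, sub_zero]
    have h4 : ρ x⁻¹ = 1 - (ρ x - 1) := by
      calc ρ x⁻¹ = ρ x⁻¹ * (ρ x * (1 - (ρ x - 1))) := by rw [h3, mul_one]
        _ = (ρ x⁻¹ * ρ x) * (1 - (ρ x - 1)) := by rw [mul_assoc]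
        _ = 1 - (ρ x - 1) := by rw [h1, one_mul]
    rw [h4]
    abel
  have hmul : ∀ x y, ρ (x * y) - 1 = (ρ x - 1) + (ρ y - 1) + (ρ x - 1) * (ρ y - 1) := by
    intro x y
    rw [map_mul]
    noncomm_ring
  -- the relation `E1` for two nilpotents `a`, `b` whose "product" is again nilpotent
  have E1 : ∀ a b : AddMonoid.End W, a * a = 0 → b * b = 0 →
      (a + b + a * b) * (a + b + a * b) = 0 →
      a * b + b * a + b * a * b + a * b * a + a * b * a * b = 0 := by
    intro a b ha hb hab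
    have e : (a + b + a * b) * (a + b + a * b)
        = a * b + b * a + b * a * b + a * b * a + a * b * a * b
          + (a * a + b * b + a * a * b + a * (b * b)) := by noncomm_ring
    rw [e, ha, hb] at hab
    simpa using hab
  -- `a b a = 0`
  have haba : ∀ x y, (ρ x - 1) * (ρ y - 1) * (ρ x - 1) = 0 := by
    intro x y
    have e1 := E1 (ρ x - 1) (ρ y - 1) (hsq x) (hsq y) (by rw [← hmul]; exact hsq _)
    have e2 := E1 (ρ x⁻¹ - 1) (ρ y - 1) (hsq _) (hsq y) (by rw [← hmul]; exact hsq _)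
    rw [hinv x] at e2
    have e3 : ((ρ x - 1) * (ρ y - 1) * (ρ x - 1) * ρ y)
        + ((ρ x - 1) * (ρ y - 1) * (ρ x - 1) * ρ y) = 0 := by
      have e : ((ρ x - 1) * (ρ y - 1) * (ρ x - 1) * ρ y)
          + ((ρ x - 1) * (ρ y - 1) * (ρ x - 1) * ρ y)
          = ((ρ x - 1) * (ρ y - 1) + (ρ y - 1) * (ρ x - 1) + (ρ y - 1) * (ρ x - 1) * (ρ y - 1)
              + (ρ x - 1) * (ρ y - 1) * (ρ x - 1)
              + (ρ x - 1) * (ρ y - 1) * (ρ x - 1) * (ρ y - 1))
            + (-(ρ x - 1) * (ρ y - 1) + (ρ y - 1) * -(ρ x - 1)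
              + (ρ y - 1) * -(ρ x - 1) * (ρ y - 1)
              + -(ρ x - 1) * (ρ y - 1) * -(ρ x - 1)
              + -(ρ x - 1) * (ρ y - 1) * -(ρ x - 1) * (ρ y - 1)) := by noncomm_ring
      rw [e, e1, e2, add_zero]
    have e4 := h2E _ e3
    have h1 : ρ y * ρ y⁻¹ = 1 := by rw [← map_mul, mul_inv_cancel, map_one]
    calc (ρ x - 1) * (ρ y - 1) * (ρ x - 1)
        = ((ρ x - 1) * (ρ y - 1) * (ρ x - 1) * ρ y) * ρ y⁻¹ := by rw [mul_assoc _ (ρ y), h1, mul_one]
      _ = 0 := by rw [e4, zero_mul]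
  -- anticommutation
  have hanti : ∀ x y, (ρ x - 1) * (ρ y - 1) + (ρ y - 1) * (ρ x - 1) = 0 := by
    intro x y
    have e1 := E1 (ρ x - 1) (ρ y - 1) (hsq x) (hsq y) (by rw [← hmul]; exact hsq _)
    have e : (ρ x - 1) * (ρ y - 1) + (ρ y - 1) * (ρ x - 1)
        = ((ρ x - 1) * (ρ y - 1) + (ρ y - 1) * (ρ x - 1) + (ρ y - 1) * (ρ x - 1) * (ρ y - 1)
              + (ρ x - 1) * (ρ y - 1) * (ρ x - 1)
              + (ρ x - 1) * (ρ y - 1) * (ρ x - 1) * (ρ y - 1))
          - (ρ y - 1) * (ρ x - 1) * (ρ y - 1)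
          - (ρ x - 1) * (ρ y - 1) * (ρ x - 1) * (1 + (ρ y - 1)) := by noncomm_ring
    rw [e, e1, haba y x, haba x y]
    simp
  -- the triple product
  have hT := hanti (g * h) k
  rw [hmul] at hT
  have e : ((ρ g - 1) * (ρ h - 1) * (ρ k - 1)) + ((ρ g - 1) * (ρ h - 1) * (ρ k - 1))
      = (((ρ g - 1) + (ρ h - 1) + (ρ g - 1) * (ρ h - 1)) * (ρ k - 1)
          + (ρ k - 1) * ((ρ g - 1) + (ρ h - 1) + (ρ g - 1) * (ρ h - 1)))
        - ((ρ g - 1) * (ρ k - 1) + (ρ k - 1) * (ρ g - 1))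
        - ((ρ h - 1) * (ρ k - 1) + (ρ k - 1) * (ρ h - 1))
        + (ρ g - 1) * ((ρ h - 1) * (ρ k - 1) + (ρ k - 1) * (ρ h - 1))
        - ((ρ g - 1) * (ρ k - 1) + (ρ k - 1) * (ρ g - 1)) * (ρ h - 1) := by noncomm_ring
  apply h2E
  rw [e, hT, hanti g k, hanti h k]
  simp

/-- The subgroup of the vectors killed by every `(ρ h - 1)²`. -/
def sqKer (ρ : H →* AddMonoid.End W) : AddSubgroup W where
  carrier := {w | ∀ h, (ρ h - 1) ((ρ h - 1) w) = 0}
  zero_mem' := fun h => by simp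
  add_mem' := fun {a b} ha hb h => by
    rw [map_add, map_add, ha h, hb h, add_zero]
  neg_mem' := fun {a} ha h => by
    rw [map_neg, map_neg, ha h, neg_zero]

theorem mem_sqKer {ρ : H →* AddMonoid.End W} {w : W} :
    w ∈ sqKer ρ ↔ ∀ h, (ρ h - 1) ((ρ h - 1) w) = 0 := Iff.rfl

theorem map_mem_sqKer (ρ : H →* AddMonoid.End W) (g : H) {w : W} (hw : w ∈ sqKer ρ) :
    ρ g w ∈ sqKer ρ := by
  intro h
  have e : (ρ h - 1) * (ρ h - 1) * ρ g = ρ g * ((ρ (g⁻¹ * h * g) - 1) * (ρ (g⁻¹ * h * g) - 1)) := by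
    have e1 : ρ h * ρ g = ρ g * ρ (g⁻¹ * h * g) := by
      rw [← map_mul, ← map_mul]
      congr 1
      group
    have e2 : (ρ h - 1) * ρ g = ρ g * (ρ (g⁻¹ * h * g) - 1) := by
      rw [sub_mul, mul_sub, e1, one_mul, mul_one]
    rw [mul_assoc, e2, ← mul_assoc, e2, mul_assoc]
  have h1 : (ρ h - 1) ((ρ h - 1) (ρ g w))
      = ρ g ((ρ (g⁻¹ * h * g) - 1) ((ρ (g⁻¹ * h * g) - 1) w)) := DFunLike.congr_fun e w
  rw [h1, hw (g⁻¹ * h * g), map_zero]

/-- The action restricted to `sqKer ρ`. -/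
def resRep (ρ : H →* AddMonoid.End W) : H →* AddMonoid.End (sqKer ρ) where
  toFun g := ((ρ g).comp (sqKer ρ).subtype).codRestrict (sqKer ρ)
    (fun w => map_mem_sqKer ρ g w.2)
  map_one' := by
    ext w
    show ρ 1 (w : W) = (w : W)
    rw [map_one]
    rfl
  map_mul' g h := by
    ext w
    show ρ (g * h) (w : W) = ρ g (ρ h (w : W))
    rw [map_mul]
    rfl

theorem coe_resRep (ρ : H →* AddMonoid.End W) (g : H) (w : sqKer ρ) :
    ((resRep ρ g w : sqKer ρ) : W) = ρ g (w : W) := rfl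

theorem coe_resRep_sub_one (ρ : H →* AddMonoid.End W) (g : H) (w : sqKer ρ) :
    (((resRep ρ g - 1) w : sqKer ρ) : W) = (ρ g - 1) (w : W) := rfl

/-- **Steps 4 + 5 (abstract).**  `2` injective on `W`, `c` kills the invariants of `W`; then
`c ^ 3` kills every `w` with `(ρ h - 1)² w = 0` for all `h`. -/
theorem smul_eq_zero_of_sq (ρ : H →* AddMonoid.End W) (c : ℕ)
    (h2 : ∀ w : W, 2 • w = 0 → w = 0) (hinv : ∀ w : W, (∀ h, ρ h w = w) → c • w = 0)
    (w : W) (hw : ∀ h, ρ h (ρ h w) - 2 • ρ h w + w = 0) : c ^ 3 • w = 0 := by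
  have hwK : w ∈ sqKer ρ := by
    intro h
    have e : (ρ h - 1) ((ρ h - 1) w) = ρ h (ρ h w) - 2 • ρ h w + w := by
      show ρ h (ρ h w - w) - (ρ h w - w) = _
      rw [map_sub, two_smul]
      abel
    rw [e, hw h]
  -- triple products vanish on `sqKer ρ`
  have h2K : ∀ v : sqKer ρ, 2 • v = 0 → v = 0 := by
    intro v hv
    apply Subtype.ext
    apply h2
    have h := congrArg (fun x : sqKer ρ => (x : W)) hv
    exact h
  have hsqK : ∀ h, (resRep ρ h - 1) * (resRep ρ h - 1) = 0 := by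
    intro h
    ext v
    exact v.2 h
  have htri : ∀ g h k : H, ∀ v : W, v ∈ sqKer ρ →
      (ρ g - 1) ((ρ h - 1) ((ρ k - 1) v)) = 0 := by
    intro g h k v hv
    have h0 := triple_eq_zero (resRep ρ) h2K hsqK g h k
    have h1 := congrArg (fun x : sqKer ρ => (x : W)) (DFunLike.congr_fun h0 ⟨v, hv⟩)
    exact h1
  have hfix : ∀ v : W, (∀ g, (ρ g - 1) v = 0) → c • v = 0 := by
    intro v hv
    apply hinv
    intro g
    have h : ρ g v - v = 0 := hv g
    exact sub_eq_zero.1 h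
  have s1 : ∀ h k, c • ((ρ h - 1) ((ρ k - 1) w)) = 0 := fun h k =>
    hfix _ fun g => htri g h k w hwK
  have s2 : ∀ k, c • (c • ((ρ k - 1) w)) = 0 := fun k =>
    hfix _ fun h => by rw [map_nsmul, s1 h k]
  have s3 : c • (c • (c • w)) = 0 :=
    hfix _ fun k => by rw [map_nsmul, map_nsmul, s2 k]
  rw [pow_succ, pow_succ, pow_one, mul_smul, mul_smul]
  exact s3

/-- Variant of `smul_eq_zero_of_sq` with the hypothesis in the form `(h + h⁻¹ - 2) w = 0`. -/
theorem smul_eq_zero_of_add_inv (ρ : H →* AddMonoid.End W) (c : ℕ)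
    (h2 : ∀ w : W, 2 • w = 0 → w = 0) (hinv : ∀ w : W, (∀ h, ρ h w = w) → c • w = 0)
    (w : W) (hw : ∀ h, ρ h w + ρ h⁻¹ w = 2 • w) : c ^ 3 • w = 0 := by
  refine smul_eq_zero_of_sq ρ c h2 hinv w fun h => ?_
  have h1 : ρ h (ρ h⁻¹ w) = w := by
    have e : ρ h * ρ h⁻¹ = 1 := by rw [← map_mul, mul_inv_cancel, map_one]
    exact DFunLike.congr_fun e w
  have h3 := congrArg (ρ h) (hw h)
  rw [map_add, h1, map_nsmul] at h3
  rw [← h3]
  abel

end Ring

section Flat

variable {P : Type*} [AddCommGroup P] {H : Type*}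

/-- **Step 5 (flat base change).**  If `c` kills the invariants of the finite abelian group `P`,
then `c` kills the invariants of `O ⊗[ℤ] P` for every flat `O`. -/
theorem baseChange_inv [Finite P] (r : H → AddMonoid.End P) (c : ℕ)
    (hc : ∀ x : P, (∀ h, r h x = x) → c • x = 0) (O : Type*) [CommRing O] [Module.Flat ℤ O]
    (w : O ⊗[ℤ] P) (hw : ∀ h, LinearMap.lTensor O (r h).toIntLinearMap w = w) : c • w = 0 := by
  classical
  -- finitely many elements of `H` cut out the invariants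
  let ι := {x : P // ¬ ∀ h, r h x = x}
  have : Fintype ι := Fintype.ofFinite ι
  have hsel : ∀ i : ι, ∃ h, r h i.1 ≠ i.1 := fun i => not_forall.1 i.2
  choose sel hselspec using hsel
  let φ : P →ₗ[ℤ] (ι → P) :=
    LinearMap.pi fun i => (r (sel i)).toIntLinearMap - LinearMap.id
  have hφ : φ = ∑ i, (LinearMap.single ℤ (fun _ : ι => P) i) ∘ₗ
      ((r (sel i)).toIntLinearMap - LinearMap.id) := by
    ext x j
    simp [φ, LinearMap.sum_apply, Finset.sum_apply, Pi.single_apply]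
    rw [Finset.sum_ite_eq, if_pos (Finset.mem_univ j)]
  have hker : ∀ x : P, φ x = 0 → ∀ h, r h x = x := by
    intro x hx
    by_contra hcon
    have h1 := congrFun hx ⟨x, hcon⟩
    simp only [φ, LinearMap.pi_apply, LinearMap.sub_apply, LinearMap.id_coe, id_eq,
      Pi.zero_apply] at h1
    exact hselspec ⟨x, hcon⟩ (sub_eq_zero.1 h1)
  have hw0 : LinearMap.lTensor O φ w = 0 := by
    rw [hφ, ← LinearMap.coe_lTensorHom (R := ℤ) (M := O), map_sum, LinearMap.sum_apply]
    refine Finset.sum_eq_zero fun i _ => ?_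
    rw [LinearMap.coe_lTensorHom, LinearMap.lTensor_comp, LinearMap.comp_apply,
      LinearMap.lTensor_sub, LinearMap.sub_apply, LinearMap.lTensor_id, LinearMap.id_apply,
      hw (sel i), sub_self, map_zero]
  have hmem : w ∈ LinearMap.ker (TensorProduct.AlgebraTensorModule.lTensor ℤ O φ) := hw0
  rw [Module.Flat.ker_lTensor_eq] at hmem
  obtain ⟨y, rfl⟩ := hmem
  have h0 : ((c : ℤ) • (LinearMap.id : P →ₗ[ℤ] P)) ∘ₗ (LinearMap.ker φ).subtype = 0 := by
    ext x
    simp only [LinearMap.comp_apply, Submodule.subtype_apply, LinearMap.smul_apply,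
      LinearMap.id_apply, LinearMap.zero_apply]
    rw [natCast_zsmul]
    exact hc x (hker x x.2)
  have h1 : (c : ℤ) • (LinearMap.lTensor O (LinearMap.ker φ).subtype y)
      = LinearMap.lTensor O (((c : ℤ) • (LinearMap.id : P →ₗ[ℤ] P)) ∘ₗ
          (LinearMap.ker φ).subtype) y := by
    rw [LinearMap.lTensor_comp, LinearMap.comp_apply, LinearMap.lTensor_smul, LinearMap.lTensor_id,
      LinearMap.smul_apply, LinearMap.id_apply]
  show c • (LinearMap.lTensor O (LinearMap.ker φ).subtype y) = 0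
  rw [← natCast_zsmul, h1, h0, LinearMap.lTensor_zero, LinearMap.zero_apply]

variable [Group H]

/-- The action on `O ⊗[ℤ] P` induced by an action on `P`. -/
def tensorRep (r : H →* AddMonoid.End P) (O : Type*) [CommRing O] :
    H →* AddMonoid.End (O ⊗[ℤ] P) where
  toFun h := (LinearMap.lTensor O (r h).toIntLinearMap).toAddMonoidHom
  map_one' := by
    ext w
    show LinearMap.lTensor O (r 1).toIntLinearMap w = w
    rw [map_one, show ((1 : AddMonoid.End P)).toIntLinearMap = LinearMap.id from rfl,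
      LinearMap.lTensor_id]
    rfl
  map_mul' g h := by
    ext w
    show LinearMap.lTensor O (r (g * h)).toIntLinearMap w
      = LinearMap.lTensor O (r g).toIntLinearMap (LinearMap.lTensor O (r h).toIntLinearMap w)
    rw [map_mul, show ((r g * r h : AddMonoid.End P)).toIntLinearMap
      = (r g).toIntLinearMap ∘ₗ (r h).toIntLinearMap from rfl, LinearMap.lTensor_comp]
    rfl

theorem tensorRep_apply (r : H →* AddMonoid.End P) (O : Type*) [CommRing O] (h : H)
    (w : O ⊗[ℤ] P) : tensorRep r O h w = LinearMap.lTensor O (r h).toIntLinearMap w := rfl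

/-- **Steps 4 + 5 on `O ⊗[ℤ] P`.**  `P` a finite abelian group killed by an odd `m`, `c` kills the
invariants of `P`, `O` flat over `ℤ`: then `c ^ 3` kills every `w : O ⊗[ℤ] P` with
`(1 ⊗ r h - 1)² w = 0` for all `h`. -/
theorem smul_eq_zero_of_sq_baseChange [Finite P] (r : H →* AddMonoid.End P) (c m : ℕ) (hm : Odd m)
    (hmP : ∀ x : P, m • x = 0) (hc : ∀ x : P, (∀ h, r h x = x) → c • x = 0)
    (O : Type*) [CommRing O] [Module.Flat ℤ O] (w : O ⊗[ℤ] P)
    (hw : ∀ h, LinearMap.lTensor O (r h).toIntLinearMap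
        (LinearMap.lTensor O (r h).toIntLinearMap w)
          - 2 • LinearMap.lTensor O (r h).toIntLinearMap w + w = 0) :
    c ^ 3 • w = 0 := by
  have hmW : ∀ v : O ⊗[ℤ] P, m • v = 0 := by
    intro v
    induction v using TensorProduct.induction_on with
    | zero => simp
    | tmul a x => rw [← TensorProduct.tmul_smul, hmP, TensorProduct.tmul_zero]
    | add a b ha hb => rw [smul_add, ha, hb, add_zero]
  have h2 : ∀ v : O ⊗[ℤ] P, 2 • v = 0 → v = 0 := by
    intro v hv
    obtain ⟨t, ht⟩ := hm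
    have h1 := hmW v
    rw [ht, add_smul, mul_comm, mul_smul, hv, smul_zero, zero_add, one_smul] at h1
    exact h1
  refine smul_eq_zero_of_sq (tensorRep r O) c h2 ?_ w hw
  intro v hv
  exact baseChange_inv (fun h => r h) c hc O v hv

/-- Variant of `smul_eq_zero_of_sq_baseChange` with the hypothesis in the form
`(1 ⊗ (h + h⁻¹ - 2)) w = 0`. -/
theorem smul_eq_zero_of_add_inv_baseChange [Finite P] (r : H →* AddMonoid.End P) (c m : ℕ)
    (hm : Odd m) (hmP : ∀ x : P, m • x = 0) (hc : ∀ x : P, (∀ h, r h x = x) → c • x = 0)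
    (O : Type*) [CommRing O] [Module.Flat ℤ O] (w : O ⊗[ℤ] P)
    (hw : ∀ h, LinearMap.lTensor O (r h).toIntLinearMap w
        + LinearMap.lTensor O (r h⁻¹).toIntLinearMap w = 2 • w) :
    c ^ 3 • w = 0 := by
  refine smul_eq_zero_of_sq_baseChange r c m hm hmP hc O w fun h => ?_
  have h1 : LinearMap.lTensor O (r h).toIntLinearMap
      (LinearMap.lTensor O (r h⁻¹).toIntLinearMap w) = w := by
    have e : tensorRep r O h * tensorRep r O h⁻¹ = 1 := by
      rw [← map_mul, mul_inv_cancel, map_one]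
    exact DFunLike.congr_fun e w
  have h3 := congrArg (LinearMap.lTensor O (r h).toIntLinearMap) (hw h)
  rw [map_add, h1, map_nsmul] at h3
  rw [← h3]
  abel

end Flat

end Fermat.Agent.S36.UnipInv
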