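import Mathlib
import Fermat.Agent.S29
import Fermat.Agent.S30
import Fermat.Agent.P5.CoreTFinal
import Fermat.Agent.P5.Assembly
import Fermat.Agent.Lib.WeakCheb.Final
import Fermat.Agent.S35.Asm
import Fermat.Agent.S35.NoOldInst
import Fermat.Agent.S36.UnipInv
import Fermat.Agent.S36.B2Plan
import Fermat.Agent.S36.DegNC

/-!
# S36 / P8 — [TOP]: the frozen conclusion of S36 from (B2) (owner: helper79)

Let `g` be a newform of level `M`, `ρ` the attached `lam`-adic representation (S30), `q ≠ lam` a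
prime with `q² ∥ M = N' q`.  Then `ρ` is **not** unipotent on inertia at `q`, given

* `B2Plan.B2Stmt N' q lam` — **(B2)**: there are a place `A` over `q` and `c₀ ≠ 0` such that every
  `lam`-power torsion point of `J₀(N' q)(ℚ̄)` which is killed by both degeneracy push-forwards to
  level `N'` and fixed by the inertia group of `A` is killed by `c₀`;
* `Plan.DegenStmt N' q` at `q ∣ N'` — **[DEGEN′]** (`S36/DegNC.lean`, discharged here).

No Tate module, no structure theory of `ρ(I_q)`, and the hypothesis `hres` of the frozen statement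
is not used; `lam ≠ 2` is.

Proof.  Suppose `charpoly ρ(τ) = (X - 1)²` for all `τ` in the inertia group `I` of `A`.  Let
`v ≠ 0` be the eigenvector of the newform in `O'' ⊗ Lat M` (`P5/EigVec`).  It is killed by the two
transfers `c = (cA, cB)` of [DEGEN′] (no oldforms with the eigenvalues of a newform:
`S35/NoOldInst`), so `v = (1 ⊗ incl) v₀` with `v₀ ∈ O'' ⊗ K`, `K = ker c` (flatness).  Fix `k`, let
`P` be the group of new `lam^k`-torsion points (finite, Galois stable) and `λ_k : K → P` the Kummer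
map, `w = (1 ⊗ λ_k) v₀`.

* `sq_relation`: for `τ ∈ I`, weak Chebotarev gives a good prime `ℓ`, a Frobenius `σ` at `ℓ` and `j`
  with `σ^j = τ` on a level field; then `V_j(T_ℓ) = τ + ℓ^j τ⁻¹ = τ + τ⁻¹` on `P` (Eichler–Shimura;
  inertia at `q ≠ lam` fixes `μ_{lam^k}`), while `V_j(a_ℓ) = tr ρ(σ^j) ≡ tr ρ(τ) = 2` modulo
  `lam^k`.  Hence `(1 ⊗ (τ + τ⁻¹ - 2)) w = 0`.
* `S36/UnipInv` (helper38): a group acting with `(g - 1)² = 0` on a module without `2`-torsion has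
  `(g - 1)(h - 1)(k - 1) = 0`; with (B2), base changed along the flat `ℤ → O''`: `c₀³ w = 0`.
* So `c₀³ v₀ ∈ lam^k (O'' ⊗ K)` for every `k` (`K` is saturated), hence `v₀ = 0`: contradiction.

Main results:

* `not_unipotent` : `¬ ρ.IsUnipotentOnInertiaAt q` at level `N' * q` from (B2) and [DEGEN′];
* `result_of`     : the frozen conclusion of S36 in hypothesis form (S30, core, Chebotarev,
                    [DEGEN′], (B2));
* `result_of_b2`  : the frozen conclusion of S36 from (B2) alone.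
-/

set_option autoImplicit false

namespace Fermat.Agent.S36.Top

open TensorProduct Polynomial ModularCurve CuspForm AlgebraicCurve
open Fermat.Agent.P5.Per (Lat tcohL heckeAct heckeAct_injective lat_free lat_finite)
open Fermat.Agent.P5.Kappa (KummerRel realQ)
open Fermat.Agent.P5.Lambda (chi)
open Fermat.Agent.S35

local notation "Qb" => AlgebraicClosure ℚ

local instance isAlgebraicQbar_s36top : Algebra.IsAlgebraic ℚ (AlgebraicClosure ℚ) :=
  AlgebraicClosure.isAlgebraic ℚ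
local instance isAlgClosureQbar_s36top : IsAlgClosure ℚ (AlgebraicClosure ℚ) :=
  ⟨inferInstance, inferInstance⟩
local instance normalQbar_s36top : Normal ℚ (AlgebraicClosure ℚ) :=
  IsAlgClosure.normal ℚ (AlgebraicClosure ℚ)

/-! ## Algebra -/

/-- `c • (a ⊗ x) = a ⊗ (c • x)` for natural `c`. -/
theorem nsmul_tmul_eq {E : Type*} [CommRing E] {P : Type*} [AddCommGroup P] (c : ℕ) (a : E)
    (x : P) : c • (a ⊗ₜ[ℤ] x) = a ⊗ₜ[ℤ] (c • x) := by
  rw [← natCast_zsmul, ← natCast_zsmul, TensorProduct.tmul_smul]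

/-- **Separation.**  In `E ⊗ K` (`K` finite free over `ℤ`, `E` a domain of characteristic zero,
Hausdorff for an ideal containing `l`), a vector `v` with `c v ∈ l^k (E ⊗ K)` for all `k`
(`c ≠ 0`) is zero. -/
theorem eq_zero_of_forall_exists_nsmul {E : Type*} [CommRing E] [IsDomain E] [CharZero E]
    (I : Ideal E) [IsHausdorff I E] (l : ℕ) (hl : (l : E) ∈ I)
    {K : Type*} [AddCommGroup K] [Module.Free ℤ K] [Module.Finite ℤ K]
    (c : ℕ) (hc : c ≠ 0) (v : E ⊗[ℤ] K)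
    (h : ∀ k : ℕ, ∃ u : E ⊗[ℤ] K, c • v = (l ^ k) • u) : v = 0 := by
  let b := Module.Free.chooseBasis ℤ K
  let bE := Module.Basis.baseChange E b
  apply bE.repr.injective
  rw [map_zero]
  ext i
  rw [Finsupp.zero_apply]
  have hci : (c : E) * bE.repr v i = 0 := by
    refine IsHausdorff.haus ‹IsHausdorff I E› _ fun k => ?_
    rw [SModEq.zero, smul_eq_mul, Ideal.mul_top]
    obtain ⟨u, hu⟩ := h k
    have h1 : (c : E) * bE.repr v i = ((l : E)) ^ k * bE.repr u i := by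
      have h2 := congrArg (fun z => bE.repr z i) hu
      simp only [← Nat.cast_smul_eq_nsmul E, map_smul, Finsupp.smul_apply, smul_eq_mul,
        Nat.cast_pow] at h2
      exact h2
    rw [h1]
    exact Ideal.mul_mem_right _ _ (Ideal.pow_mem_pow hl k)
  exact (mul_eq_zero.1 hci).resolve_left (Nat.cast_ne_zero.2 hc)

/-- The trace of an endomorphism of a free module of rank `2` with characteristic polynomial
`(X - 1)²` is `2`. -/
theorem trace_eq_two_of_charpoly {T : Type*} [CommRing T] {V : Type*} [AddCommGroup V]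
    [Module T V] [Module.Free T V] [Module.Finite T V] (f : Module.End T V)
    (hrank : Module.finrank T V = 2) (h : f.charpoly = (X - 1) ^ 2) :
    LinearMap.trace T V f = 2 := by
  have h1 := (TraceTop.charpoly_trace_det f hrank).1
  rw [h] at h1
  have h2 : ((X - 1 : T[X]) ^ 2).coeff 1
      = (X ^ 2 - C (LinearMap.trace T V f) * X + C (LinearMap.det f) : T[X]).coeff 1 :=
    congrArg (fun P : T[X] => P.coeff 1) h1
  have e1 : ((X - 1 : T[X]) ^ 2).coeff 1 = -2 := by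
    have : (X - 1 : T[X]) ^ 2 = X ^ 2 - C 2 * X + C 1 := by
      rw [map_ofNat, map_one]; ring
    rw [this]
    simp [coeff_X, coeff_one]
  have e2 : (X ^ 2 - C (LinearMap.trace T V f) * X + C (LinearMap.det f) : T[X]).coeff 1
      = -(LinearMap.trace T V f) := by
    simp [coeff_X, coeff_one]
  rw [e1, e2] at h2
  exact (neg_injective h2).symm

set_option maxHeartbeats 1600000 in
/-- **The Hecke polynomial of an inertia element.**  Let `τ` be an inertia element at `q ≠ lam`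
with `tr ρ(τ) = 2` and `Y` a finite set of `lam^k`-torsion points of `J₀(M)(ℚ̄)`.  There are a good
prime `ℓ` and `Q ∈ ℤ[X]` (`Q = V_j(·, ℓ) - 2`) such that `Q(T_ℓ) = τ + τ⁻¹ - 2` on `Y`, while
`Q(a_ℓ)` is divisible by `lam^k` in `O''`. -/
theorem exists_hecke_poly {M : ℕ} [NeZero M] [HasPrincipalDivisors Qb (modularFunctionFieldBar M)]
    (lam : ℕ) [Fact lam.Prime] {q : ℕ} (hq : q.Prime) (hqlam : q ≠ lam)
    (S : Finset ℕ) (hlamS : lam ∈ S) (hMS : ∀ r : ℕ, r.Prime → r ∣ M → r ∈ S)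
    {O'' : Type} [CommRing O''] [IsDomain O''] [IsDiscreteValuationRing O'']
    [IsAdicComplete (IsLocalRing.maximalIdeal O'') O''] [CharZero O'']
    (e : ℕ) (he : Ideal.span {(lam : O'')} = IsLocalRing.maximalIdeal O'' ^ e)
    (ρ : GaloisRepAdic O'')
    (χ : CuspForm.heckeAlgebra M 2 (↑S : Set ℕ) →+* O'')
    (hgood : ∀ (ℓ : ℕ) (hℓ : ℓ.Prime) (hℓM : ¬ ℓ ∣ M) (hℓS : ℓ ∉ (↑S : Set ℕ)),
      ∀ A : ValuationSubring Qb, A.LiesOverPrime ℓ → ∀ σ : Qb ≃ₐ[ℚ] Qb, A.IsFrobeniusAt σ ℓ →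
        LinearMap.charpoly (ρ.ρ σ) =
          X ^ 2 - C (χ (CuspForm.heckeAlgebra.T hℓ hℓM hℓS)) * X + C ((ℓ : O'')))
    (hcore : S37.Core.CoreAll M lam) (hcheb : P5.WeakChebLift.WeakChebStmt)
    (A : ValuationSubring Qb) (hA : A.LiesOverPrime q) (τ : Qb ≃ₐ[ℚ] Qb)
    (hτ : τ ∈ A.inertiaSubgroupIn ℚ) (htτ : ρ.trace τ = 2) (k : ℕ)
    (Y : Set (JZero M)) (hYtors : ∀ x ∈ Y, lam ^ k • x = 0) (hYfin : Y.Finite) :
    ∃ (ℓ : ℕ) (hℓ : ℓ.Prime) (hℓM : ¬ ℓ ∣ M) (hℓS : ℓ ∉ (↑S : Set ℕ)) (Q : ℤ[X]) (u : O''),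
      (∀ x ∈ Y, aeval (heckeOperatorBar M ⟨ℓ, hℓ⟩) Q x = τ • x + τ⁻¹ • x - (2 : ℤ) • x) ∧
      aeval (χ (CuspForm.heckeAlgebra.T hℓ hℓM hℓS)) Q = (lam : O'') ^ k * u := by
  classical
  have hlam : lam.Prime := Fact.out
  obtain ⟨L₁, hL₁fin, hL₁⟩ := ρ.isAdicContinuous (e * k)
  obtain ⟨L₂, hL₂fin, hL₂normal, hL₂⟩ :=
    P5.OpenStab.exists_normal_fixing_jzero_finite M hYfin
  -- the common finite Galois level
  let M₀ : IntermediateField ℚ Qb := L₁ ⊔ L₂ ⊔ P5.CycloDelta.level lam k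
  have : FiniteDimensional ℚ ↥(L₁ ⊔ L₂) := IntermediateField.finiteDimensional_sup L₁ L₂
  have : FiniteDimensional ℚ M₀ :=
    IntermediateField.finiteDimensional_sup (L₁ ⊔ L₂) (P5.CycloDelta.level lam k)
  let Mf : IntermediateField ℚ Qb := IntermediateField.normalClosure ℚ M₀ Qb
  have : FiniteDimensional ℚ Mf := normalClosure.is_finiteDimensional ℚ M₀ Qb
  have : Normal ℚ Mf := normalClosure.normal ℚ M₀ Qb
  have : IsGalois ℚ Mf := ⟨⟩
  have hM₀ : M₀ ≤ Mf := IntermediateField.le_normalClosure M₀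
  have hL₁M : L₁ ≤ Mf := le_trans (le_trans le_sup_left le_sup_left) hM₀
  have hL₂M : L₂ ≤ Mf := le_trans (le_trans le_sup_right le_sup_left) hM₀
  have hL₃M : P5.CycloDelta.level lam k ≤ Mf := le_trans le_sup_right hM₀
  -- weak Chebotarev
  obtain ⟨ℓ, hℓ, hℓS, A', hA', σ, hσ, j, hj⟩ := hcheb Mf τ S
  have hℓS' : ℓ ∉ (↑S : Set ℕ) := fun h => hℓS (Finset.mem_coe.1 h)
  have hℓlam : ℓ ≠ lam := fun h => hℓS (h ▸ hlamS)
  have hℓM : ¬ ℓ ∣ M := fun h => hℓS (hMS ℓ hℓ h)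
  have hℓMlam : ¬ ℓ ∣ M * lam := fun h => (hℓ.dvd_mul.1 h).elim hℓM
    (fun h' => hℓlam ((Nat.prime_dvd_prime_iff_eq hℓ hlam).1 h'))
  -- `ℓ^j ≡ 1 mod lam^k`
  have hm0 : lam ^ k ≠ 0 := pow_ne_zero _ hlam.ne_zero
  have : NeZero (lam ^ k : ℕ) := ⟨hm0⟩
  obtain ⟨ζ, hζ⟩ := HasEnoughRootsOfUnity.exists_primitiveRoot Qb (lam ^ k)
  have hζ1 : ζ ^ lam ^ k = 1 := hζ.pow_eq_one
  have hζM : ζ ∈ Mf := hL₃M (P5.CycloDelta.mem_level lam hζ1)
  have hpow : ζ ^ (ℓ ^ j) = ζ ^ 1 := by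
    rw [← S31.Top.frob_pow_apply lam hℓ hℓlam A' hA' σ hσ k j ζ hζ1, hj ζ hζM, pow_one]
    exact P5.CycloDelta.inertia_apply_rootOfUnity lam hq hqlam A hA τ hτ k ζ hζ1
  refine ⟨ℓ, hℓ, hℓM, hℓS', S31.Alg.lucas ℓ j - C 2, ?_⟩
  -- the eigenvalue of `Q(T_ℓ)` is divisible by `lam^k`
  have hchar : LinearMap.charpoly (ρ.ρ σ)
      = X ^ 2 - C (χ (CuspForm.heckeAlgebra.T hℓ hℓM hℓS')) * X + C (((ℓ : ℤ) : O'')) := by
    rw [hgood ℓ hℓ hℓM hℓS' A' hA' σ hσ]
    simp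
  have htr : ρ.trace (σ ^ j)
      = aeval (χ (CuspForm.heckeAlgebra.T hℓ hℓM hℓS')) (S31.Alg.lucas ℓ j) := by
    have h := S31.Alg.trace_pow_eq_aeval_lucas (ρ.ρ σ) (χ (CuspForm.heckeAlgebra.T hℓ hℓM hℓS'))
      (ℓ : ℤ) ρ.finrank_eq hchar j
    rw [GaloisRepAdic.trace, map_pow, h]
  have ht : ρ.trace τ - ρ.trace (σ ^ j) ∈ IsLocalRing.maximalIdeal O'' ^ (e * k) :=
    S31.Top.trace_sub_mem_of_agree ρ (e * k) L₁ hL₁ τ (σ ^ j)
      fun x hx => (hj x (hL₁M hx)).symm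
  have hQval : aeval (χ (CuspForm.heckeAlgebra.T hℓ hℓM hℓS')) (S31.Alg.lucas ℓ j - C 2)
      = ρ.trace (σ ^ j) - 2 := by
    rw [map_sub, htr, aeval_C]
    simp
  have hmem : aeval (χ (CuspForm.heckeAlgebra.T hℓ hℓM hℓS')) (S31.Alg.lucas ℓ j - C 2)
      ∈ Ideal.span {(lam : O'')} ^ k := by
    rw [he, ← pow_mul, hQval]
    have := neg_mem ht
    rwa [neg_sub, htτ] at this
  rw [Ideal.span_singleton_pow, Ideal.mem_span_singleton] at hmem
  obtain ⟨u, hu⟩ := hmem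
  refine ⟨u, ?_, hu⟩
  intro x hx
  have hxt : ∃ m : ℕ, lam ^ m • x = 0 := ⟨k, hYtors x hx⟩
  have hxfix : ∀ η : Qb ≃ₐ[ℚ] Qb, (∀ y ∈ Mf, η y = y) → η • x = x :=
    fun η hη => hL₂ η (fun y hy => hη y (hL₂M hy)) x hx
  have hinv : lam ^ k • (τ⁻¹ • x) = 0 := by
    rw [smul_comm, hYtors x hx]; exact S31.Top.gal_smul_zero _
  have h1 := S31.Top.aeval_lucas_eq hcore hℓ hℓMlam A' hA' σ hσ j τ Mf hj x hxt hxfix
  have h2 := S31.Top.zsmul_eq_of_pow_eq ζ (lam ^ k) hm0 hζ (ℓ ^ j) 1 hpow (τ⁻¹ • x) hinv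
  push_cast at h2
  rw [map_sub, LinearMap.sub_apply, h1, aeval_C, Module.algebraMap_end_apply, h2, one_smul]

set_option maxHeartbeats 6400000 in
/-- **The square relation.**  Let `τ` be an inertia element at `q ≠ lam` with `tr ρ(τ) = 2`, `P` a
finite Galois-stable group of `lam^k`-torsion points of `J₀(M)(ℚ̄)`, and `v = (1 ⊗ incl) v₀` an
eigenvector in `O'' ⊗ Lat M` for the Hecke eigenvalues of `ρ`, with `lam_k (K) ⊆ P`.  Then
`1 ⊗ τ + 1 ⊗ τ⁻¹ = 2` on the image of `v₀` in `O'' ⊗ P`. -/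
theorem sq_relation {M : ℕ} [NeZero M] [HasPrincipalDivisors Qb (modularFunctionFieldBar M)]
    (lam : ℕ) [Fact lam.Prime] {q : ℕ} (hq : q.Prime) (hqlam : q ≠ lam)
    (S : Finset ℕ) (hlamS : lam ∈ S) (hMS : ∀ r : ℕ, r.Prime → r ∣ M → r ∈ S)
    {O'' : Type} [CommRing O''] [IsDomain O''] [IsDiscreteValuationRing O'']
    [IsAdicComplete (IsLocalRing.maximalIdeal O'') O''] [CharZero O'']
    (e : ℕ) (he : Ideal.span {(lam : O'')} = IsLocalRing.maximalIdeal O'' ^ e)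
    (ρ : GaloisRepAdic O'')
    (χ : CuspForm.heckeAlgebra M 2 (↑S : Set ℕ) →+* O'')
    (hgood : ∀ (ℓ : ℕ) (hℓ : ℓ.Prime) (hℓM : ¬ ℓ ∣ M) (hℓS : ℓ ∉ (↑S : Set ℕ)),
      ∀ A : ValuationSubring Qb, A.LiesOverPrime ℓ → ∀ σ : Qb ≃ₐ[ℚ] Qb, A.IsFrobeniusAt σ ℓ →
        LinearMap.charpoly (ρ.ρ σ) =
          X ^ 2 - C (χ (CuspForm.heckeAlgebra.T hℓ hℓM hℓS)) * X + C ((ℓ : O'')))
    (hcore : S37.Core.CoreAll M lam) (hcheb : P5.WeakChebLift.WeakChebStmt)
    (A : ValuationSubring Qb) (hA : A.LiesOverPrime q) (τ : Qb ≃ₐ[ℚ] Qb)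
    (hτ : τ ∈ A.inertiaSubgroupIn ℚ) (htτ : ρ.trace τ = 2) (k : ℕ)
    (P : Submodule ℤ (JZero M)) (hPtors : ∀ x : P, lam ^ k • (x : JZero M) = 0)
    (hPset : (P : Set (JZero M)).Finite)
    (gτ gτ' : Module.End ℤ P) (hgτ : ∀ x : P, ((gτ x : P) : JZero M) = τ • (x : JZero M))
    (hgτ' : ∀ x : P, ((gτ' x : P) : JZero M) = τ⁻¹ • (x : JZero M))
    (hNS' : ∀ r : ℕ, r.Prime → r ∣ M → r ∈ (↑S : Set ℕ))
    (v : O'' ⊗[ℤ] Lat M)
    (hv : ∀ t : CuspForm.heckeAlgebra M 2 (↑S : Set ℕ),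
      LinearMap.lTensor O'' (heckeAct M (↑S : Set ℕ) hNS' t) v = χ t • v)
    (lamk : Lat M →+ JZero M) (htors : ∀ φ, lam ^ k • lamk φ = 0)
    (hheck : ∀ (ℓ : ℕ) (hℓ : ℓ.Prime) (hℓN : ¬ ℓ ∣ M) (φ : Lat M),
      heckeOperatorBar M ⟨ℓ, hℓ⟩ (lamk φ) = lamk (tcohL M hℓ hℓN φ))
    (K : Submodule ℤ (Lat M)) (lamK : K →ₗ[ℤ] P)
    (hlamK : ∀ ψ : K, ((lamK ψ : P) : JZero M) = lamk (ψ : Lat M))
    (v₀ : O'' ⊗[ℤ] K) (hv₀ : LinearMap.lTensor O'' K.subtype v₀ = v) :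
    LinearMap.lTensor O'' gτ (LinearMap.lTensor O'' lamK v₀)
      + LinearMap.lTensor O'' gτ' (LinearMap.lTensor O'' lamK v₀)
        = 2 • LinearMap.lTensor O'' lamK v₀ := by
  classical
  have hflat : Module.Flat ℤ O'' := inferInstance
  obtain ⟨ℓ, hℓ, hℓM, hℓS', Q, u, hJ, hu⟩ := exists_hecke_poly lam hq hqlam S hlamS hMS e he ρ χ
    hgood hcore hcheb A hA τ hτ htτ k (P : Set (JZero M)) (fun x hx => hPtors ⟨x, hx⟩) hPset
  -- `Q(T^coh_ℓ)` acts on `v` through `Q(a_ℓ)`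
  obtain ⟨t, ht'⟩ : ∃ t : Module.End ℤ (Lat M), t = aeval (tcohL M hℓ hℓM) Q := ⟨_, rfl⟩
  have hav : LinearMap.lTensor O'' t v
      = aeval (χ (CuspForm.heckeAlgebra.T hℓ hℓM hℓS')) Q • v := by
    have h1 := hv (aeval (CuspForm.heckeAlgebra.T hℓ hℓM hℓS') Q)
    have h2 := Polynomial.aeval_algHom_apply
      (heckeAct M (↑S : Set ℕ) hNS').toIntAlgHom
      (CuspForm.heckeAlgebra.T hℓ hℓM hℓS') Q
    have h3 := Polynomial.aeval_algHom_apply χ.toIntAlgHom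
      (CuspForm.heckeAlgebra.T hℓ hℓM hℓS') Q
    have e2 : heckeAct M (↑S : Set ℕ) hNS'
        (aeval (CuspForm.heckeAlgebra.T hℓ hℓM hℓS') Q) = t := by
      rw [ht', ← EigForm.heckeAct_T_eq M (↑S : Set ℕ) hNS' hℓ hℓM hℓS']
      exact h2.symm
    have e3 : χ (aeval (CuspForm.heckeAlgebra.T hℓ hℓM hℓS') Q)
        = aeval (χ (CuspForm.heckeAlgebra.T hℓ hℓM hℓS')) Q := h3.symm
    rwa [e2, e3] at h1
  -- `lam^k` kills the image of `1 ⊗ lam_k`
  have hzero : ∀ y : O'' ⊗[ℤ] Lat M,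
      lam ^ k • LinearMap.lTensor O'' lamk.toIntLinearMap y = 0 := by
    intro y
    induction y using TensorProduct.induction_on with
    | zero => rw [map_zero, smul_zero]
    | tmul a ψ =>
      rw [LinearMap.lTensor_tmul, nsmul_tmul_eq]
      have : lam ^ k • lamk.toIntLinearMap ψ = 0 := htors ψ
      rw [this, TensorProduct.tmul_zero]
    | add x y hx hy => rw [map_add, smul_add, hx, hy, add_zero]
  have hinjP : Function.Injective (LinearMap.lTensor O'' P.subtype) :=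
    Module.Flat.lTensor_preserves_injective_linearMap (M := O'') P.subtype
      (Submodule.injective_subtype P)
  -- the relation of maps `K → J₀`
  have hcomp : (P.subtype ∘ₗ (gτ + gτ' - (2 : ℤ) • (LinearMap.id : P →ₗ[ℤ] P))) ∘ₗ lamK
      = (lamk.toIntLinearMap ∘ₗ t) ∘ₗ K.subtype := by
    ext ψ
    have e2 : (((gτ + gτ' - (2 : ℤ) • (LinearMap.id : P →ₗ[ℤ] P)) (lamK ψ) : P) : JZero M)
        = τ • ((lamK ψ : P) : JZero M) + τ⁻¹ • ((lamK ψ : P) : JZero M)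
          - (2 : ℤ) • ((lamK ψ : P) : JZero M) := by
      rw [LinearMap.sub_apply, LinearMap.add_apply, LinearMap.smul_apply, LinearMap.id_apply,
        Submodule.coe_sub, Submodule.coe_add, Submodule.coe_smul, hgτ, hgτ']
    have h1 := S31.Shift.map_aeval_apply lamk (tcohL M hℓ hℓM)
      (heckeOperatorBar M ⟨ℓ, hℓ⟩) (fun m => (hheck ℓ hℓ hℓM m).symm) Q
      (ψ : Lat M)
    show (((gτ + gτ' - (2 : ℤ) • (LinearMap.id : P →ₗ[ℤ] P)) (lamK ψ) : P) : JZero M)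
      = lamk (t (ψ : Lat M))
    rw [e2, ← hJ _ (lamK ψ).2, hlamK, ht', h1]
  have h5 : LinearMap.lTensor O'' P.subtype
      (LinearMap.lTensor O'' (gτ + gτ' - (2 : ℤ) • (LinearMap.id : P →ₗ[ℤ] P))
        (LinearMap.lTensor O'' lamK v₀)) = 0 := by
    calc LinearMap.lTensor O'' P.subtype
          (LinearMap.lTensor O'' (gτ + gτ' - (2 : ℤ) • (LinearMap.id : P →ₗ[ℤ] P))
            (LinearMap.lTensor O'' lamK v₀))
        = LinearMap.lTensor O''
            ((P.subtype ∘ₗ (gτ + gτ' - (2 : ℤ) • (LinearMap.id : P →ₗ[ℤ] P))) ∘ₗ lamK) v₀ := by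
          rw [LinearMap.lTensor_comp_apply, LinearMap.lTensor_comp_apply]
      _ = LinearMap.lTensor O'' ((lamk.toIntLinearMap ∘ₗ t) ∘ₗ K.subtype) v₀ := by rw [hcomp]
      _ = LinearMap.lTensor O'' lamk.toIntLinearMap
            (LinearMap.lTensor O'' t (LinearMap.lTensor O'' K.subtype v₀)) := by
          rw [LinearMap.lTensor_comp_apply, LinearMap.lTensor_comp_apply]
      _ = 0 := by
          rw [hv₀, hav, Asm.lTensor_smul_left', hu, mul_comm, mul_smul, ← Nat.cast_pow,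
            Nat.cast_smul_eq_nsmul, hzero, smul_zero]
  have h7 : LinearMap.lTensor O'' (gτ + gτ' - (2 : ℤ) • (LinearMap.id : P →ₗ[ℤ] P))
      (LinearMap.lTensor O'' lamK v₀) = 0 := hinjP (by rw [h5, map_zero])
  rw [LinearMap.lTensor_sub, LinearMap.lTensor_add, LinearMap.lTensor_smul, LinearMap.lTensor_id,
    LinearMap.sub_apply, LinearMap.add_apply, LinearMap.smul_apply, LinearMap.id_apply,
    sub_eq_zero] at h7
  rw [h7, two_smul, two_nsmul]

set_option maxHeartbeats 12800000 in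
/-- **Not unipotent on inertia at `q`**, from (B2) and [DEGEN′] at level `N' q`. -/
theorem not_unipotent (N' q : ℕ) [NeZero N'] [NeZero q] (hq : q.Prime)
    [HasPrincipalDivisors Qb (modularFunctionFieldBar (N' * q))]
    {g : CuspForm (CongruenceSubgroup.Gamma0 (N' * q)) 2} (hg : g.IsNewform)
    (lam : ℕ) [Fact lam.Prime] (hlam2 : lam ≠ 2) (hqlam : q ≠ lam)
    (S : Finset ℕ) (hlamS : lam ∈ S) (hMS : ∀ r : ℕ, r.Prime → r ∣ N' * q → r ∈ S)
    {O' : Type} [CommRing O'] [IsDomain O'] [CharZero O']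
    {O'' : Type} [CommRing O''] [IsDomain O''] [IsDiscreteValuationRing O'']
    [IsAdicComplete (IsLocalRing.maximalIdeal O'') O''] [CharZero O''] [Algebra O' O'']
    (hlamO'' : (lam : O'') ∈ IsLocalRing.maximalIdeal O'')
    (chig : CuspForm.heckeAlgebra (N' * q) 2 (↑S : Set ℕ) →+* ℂ)
    (hchig : ∀ (ℓ : ℕ) (hℓ : ℓ.Prime) (hℓM : ¬ ℓ ∣ N' * q) (hℓS : ℓ ∉ (↑S : Set ℕ)),
      chig (CuspForm.heckeAlgebra.T hℓ hℓM hℓS) = ModularFormClass.qCoeff g ℓ)
    (iota : chig.range →+* O') (ρ : GaloisRepAdic O'')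
    (hgood : ∀ (ℓ : ℕ) (hℓ : ℓ.Prime) (hℓM : ¬ ℓ ∣ N' * q) (hℓS : ℓ ∉ (↑S : Set ℕ)),
      ∀ A : ValuationSubring Qb, A.LiesOverPrime ℓ → ∀ σ : Qb ≃ₐ[ℚ] Qb, A.IsFrobeniusAt σ ℓ →
        LinearMap.charpoly (ρ.ρ σ) =
          X ^ 2 - C (algebraMap O' O'' ((iota.comp chig.rangeRestrict)
            (CuspForm.heckeAlgebra.T hℓ hℓM hℓS))) * X + C ((ℓ : O'')))
    (hcore : S37.Core.CoreAll (N' * q) lam) (hcheb : P5.WeakChebLift.WeakChebStmt)
    (hD : Plan.DegenStmt N' q (Push.pushA N' q) (Push.pushB N' q))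
    (hB2 : B2Plan.B2Stmt N' q lam) : ¬ ρ.IsUnipotentOnInertiaAt q := by
  classical
  have hlam : lam.Prime := Fact.out
  intro hU
  obtain ⟨A, hA, c₀, hc₀, hB⟩ := hB2
  have hUA := hU A hA
  obtain ⟨cA, cB, hcomm, hkum⟩ := hD
  have hfinL := lat_finite (N' * q)
  have hfreeL := lat_free (N' * q)
  have hNS' : ∀ r : ℕ, r.Prime → r ∣ N' * q → r ∈ (↑S : Set ℕ) :=
    fun r hr hd => Finset.mem_coe.2 (hMS r hr hd)
  have hflat : Module.Flat ℤ O'' := inferInstance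
  -- the eigencharacter with values in `O''` and its eigenvector
  let iota'' : chig.range →+* O'' := (algebraMap O' O'').comp iota
  let χ : CuspForm.heckeAlgebra (N' * q) 2 (↑S : Set ℕ) →+* O'' := iota''.comp chig.rangeRestrict
  obtain ⟨v, hv0, hv⟩ := Fermat.Agent.P5.EigVec.eigVecStmt (N' * q) (↑S : Set ℕ) hNS' O'' χ
  have hvT : ∀ (ℓ : ℕ) (hℓ : ℓ.Prime) (hℓM : ¬ ℓ ∣ N' * q) (hℓS : ℓ ∉ (↑S : Set ℕ)),
      LinearMap.lTensor O'' (tcohL (N' * q) hℓ hℓM) v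
        = χ (CuspForm.heckeAlgebra.T hℓ hℓM hℓS) • v := by
    intro ℓ hℓ hℓM hℓS
    have h := hv (CuspForm.heckeAlgebra.T hℓ hℓM hℓS)
    rwa [EigForm.heckeAct_T_eq (N' * q) (↑S : Set ℕ) hNS' hℓ hℓM hℓS] at h
  have hne : N' ≠ N' * q := by
    intro h
    have h1 : N' * 1 = N' * q := by rw [mul_one]; exact h
    exact hq.ne_one (Nat.eq_of_mul_eq_mul_left (Nat.pos_of_ne_zero (NeZero.ne N')) h1).symm
  -- it is killed by the two transfers
  have hkill : ∀ c : Lat (N' * q) →+ Lat N',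
      (∀ (ℓ : ℕ) (hℓ : ℓ.Prime) (hℓN : ¬ ℓ ∣ N' * q) (hℓN' : ¬ ℓ ∣ N') (φ : Lat (N' * q)),
        c (tcohL (N' * q) hℓ hℓN φ) = tcohL N' hℓ hℓN' (c φ)) →
      LinearMap.lTensor O'' c.toIntLinearMap v = 0 := by
    intro c hc
    refine NoOldInst.hNoOld_of_dvd hg S O'' chig hchig iota'' hMS N' (Dvd.intro _ rfl) hne _ ?_
    intro ℓ hℓ hℓM hℓS hℓN'
    have e : (tcohL N' hℓ hℓN').comp c.toIntLinearMap
        = c.toIntLinearMap.comp (tcohL (N' * q) hℓ hℓM) :=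
      LinearMap.ext fun φ => (hc ℓ hℓ hℓM hℓN' φ).symm
    rw [← LinearMap.comp_apply, ← LinearMap.lTensor_comp, e, LinearMap.lTensor_comp,
      LinearMap.comp_apply, hvT ℓ hℓ hℓM hℓS, Asm.lTensor_smul_left']
  have hcomA : ∀ (ℓ : ℕ) (hℓ : ℓ.Prime) (hℓN : ¬ ℓ ∣ N' * q) (hℓN' : ¬ ℓ ∣ N')
      (φ : Lat (N' * q)), cA (tcohL (N' * q) hℓ hℓN φ) = tcohL N' hℓ hℓN' (cA φ) :=
    fun ℓ hℓ hℓN hℓN' φ => (hcomm ℓ hℓ hℓN hℓN' φ).1
  have hcomB : ∀ (ℓ : ℕ) (hℓ : ℓ.Prime) (hℓN : ¬ ℓ ∣ N' * q) (hℓN' : ¬ ℓ ∣ N')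
      (φ : Lat (N' * q)), cB (tcohL (N' * q) hℓ hℓN φ) = tcohL N' hℓ hℓN' (cB φ) :=
    fun ℓ hℓ hℓN hℓN' φ => (hcomm ℓ hℓ hℓN hℓN' φ).2
  let c : Lat (N' * q) →ₗ[ℤ] Lat N' × Lat N' := cA.toIntLinearMap.prod cB.toIntLinearMap
  have hc1 : ∀ ψ, c ψ = 0 → cA ψ = 0 := fun ψ h => congrArg Prod.fst h
  have hc2 : ∀ ψ, c ψ = 0 → cB ψ = 0 := fun ψ h => congrArg Prod.snd h
  have hcv : LinearMap.lTensor O'' c v = 0 := by
    have e : c = (LinearMap.inl ℤ (Lat N') (Lat N')).comp cA.toIntLinearMap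
        + (LinearMap.inr ℤ (Lat N') (Lat N')).comp cB.toIntLinearMap :=
      LinearMap.ext fun x => Prod.ext (by simp [c]) (by simp [c])
    rw [e, LinearMap.lTensor_add, LinearMap.add_apply, LinearMap.lTensor_comp,
      LinearMap.lTensor_comp, LinearMap.comp_apply, LinearMap.comp_apply, hkill cA hcomA,
      hkill cB hcomB, map_zero, map_zero, add_zero]
  -- `Lat N' × Lat N'` is torsion-free
  have htf1 : ∀ (m : ℕ) (y : Lat N'), m ≠ 0 → m • y = 0 → y = 0 := by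
    intro m y hm hy
    apply Subtype.ext
    refine AddMonoidHom.ext fun γ => ?_
    have h1 : (((m • y : Lat N') : Additive ↥(CongruenceSubgroup.Gamma0 N') →+ ℤ)) γ = 0 := by
      rw [hy]; rfl
    have h2 : (((m • y : Lat N') : Additive ↥(CongruenceSubgroup.Gamma0 N') →+ ℤ)) γ
        = m • ((y : Additive ↥(CongruenceSubgroup.Gamma0 N') →+ ℤ) γ) := rfl
    rw [h2, nsmul_eq_mul] at h1
    exact (mul_eq_zero.1 h1).resolve_left (Int.natCast_ne_zero.2 hm)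
  have htf : ∀ (m : ℕ) (y : Lat N' × Lat N'), m ≠ 0 → m • y = 0 → y = 0 := by
    rintro m ⟨y1, y2⟩ hm hy
    exact Prod.ext (htf1 m y1 hm (congrArg Prod.fst hy)) (htf1 m y2 hm (congrArg Prod.snd hy))
  -- the eigenvector lies in `O'' ⊗ ker c`
  set K : Submodule ℤ (Lat (N' * q)) := LinearMap.ker c with hK
  have hex := Module.Flat.lTensor_exact O'' (LinearMap.exact_subtype_ker_map c)
  obtain ⟨v₀, hv₀⟩ := (hex v).1 hcv
  have hv₀0 : v₀ ≠ 0 := by
    rintro rfl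
    exact hv0 (by rw [← hv₀, map_zero])
  -- `(lam) = 𝔪^e`
  have hlamne : Ideal.span {(lam : O'')} ≠ ⊥ := by
    rw [Ne, Ideal.span_singleton_eq_bot]
    exact Nat.cast_ne_zero.2 hlam.ne_zero
  obtain ⟨e, he⟩ := exists_maximalIdeal_pow_eq_of_principal O''
    (IsPrincipalIdealRing.principal _) (Ideal.span {(lam : O'')}) hlamne
  -- the key divisibility at every level
  have key : ∀ k : ℕ, ∃ u : O'' ⊗[ℤ] K, c₀ ^ 3 • v₀ = (lam ^ k) • u := by
    intro k
    have hn : 0 < lam ^ k := pow_pos hlam.pos k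
    obtain ⟨lamk, hKum, htors, hker, hheck⟩ := Fermat.Agent.P5.Lambda.exists_lam
      (Fermat.Agent.P5.ModFun.RealC.modFunStmt_realQ (N' * q)) hn
      (Fermat.Agent.P5.Lambda.surj (N' * q) (lam ^ k) hn)
      (Fermat.Agent.P5.Lambda.heckeKappa (N' * q) (lam ^ k))
    -- the module of new `lam^k`-torsion points
    obtain ⟨P, hP⟩ : ∃ P : Submodule ℤ (JZero (N' * q)),
        ∀ x : JZero (N' * q), x ∈ P ↔ (lam ^ k • x = 0 ∧ Push.IsNew N' q x) :=
      ⟨{ carrier := {x | lam ^ k • x = 0 ∧ Push.IsNew N' q x}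
         add_mem' := fun {x y} hx hy =>
           ⟨by rw [nsmul_add, hx.1, hy.1, add_zero], Push.IsNew.add N' q hx.2 hy.2⟩
         zero_mem' := ⟨smul_zero _, Push.isNew_zero N' q⟩
         smul_mem' := fun a x hx =>
           ⟨by rw [smul_comm, hx.1, smul_zero], Push.IsNew.zsmul N' q hx.2 a⟩ },
        fun x => Iff.rfl⟩
    have hPtors : ∀ x : P, lam ^ k • (x : JZero (N' * q)) = 0 := fun x => ((hP x).1 x.2).1
    have hPnew : ∀ x : P, Push.IsNew N' q (x : JZero (N' * q)) := fun x => ((hP x).1 x.2).2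
    have hPset : (P : Set (JZero (N' * q))).Finite :=
      (Fermat.Agent.P5.Assembly.finTorsion (N' * q) lam hlam k).subset
        fun x hx => ((hP x).1 hx).1
    have hPfin : Finite P := Set.finite_coe_iff.mpr hPset
    have hPstab : ∀ (τ : Qb ≃ₐ[ℚ] Qb) (x : JZero (N' * q)), x ∈ P →
        DistribMulAction.toModuleEnd ℤ (JZero (N' * q)) τ x ∈ P := by
      intro τ x hx
      rw [hP] at hx
      rw [hP]
      refine ⟨?_, Push.IsNew.galois_smul N' q hx.2 τ⟩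
      show lam ^ k • (τ • x) = 0
      rw [smul_comm, hx.1]
      exact S31.Top.gal_smul_zero _
    obtain ⟨gP, hgP⟩ : ∃ gP : (Qb ≃ₐ[ℚ] Qb) →* Module.End ℤ P, ∀ (τ : Qb ≃ₐ[ℚ] Qb) (x : P),
        ((gP τ x : P) : JZero (N' * q)) = τ • (x : JZero (N' * q)) :=
      ⟨{ toFun := fun τ =>
           (DistribMulAction.toModuleEnd ℤ (JZero (N' * q)) τ).restrict (hPstab τ)
         map_one' := by
           ext x
           simp
         map_mul' := fun s t => by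
           ext x
           simp [mul_smul] }, fun τ x => rfl⟩
    -- the inertia action on `P` by additive maps
    obtain ⟨rP, hrP⟩ : ∃ rP : ↥(A.inertiaSubgroupIn ℚ) →* AddMonoid.End P,
        ∀ τ : ↥(A.inertiaSubgroupIn ℚ),
          (rP τ).toIntLinearMap = gP (τ : Qb ≃ₐ[ℚ] Qb) :=
      ⟨{ toFun := fun τ => (gP (τ : Qb ≃ₐ[ℚ] Qb)).toAddMonoidHom
         map_one' := by
           apply AddMonoidHom.ext
           intro x
           show gP ((1 : ↥(A.inertiaSubgroupIn ℚ)) : Qb ≃ₐ[ℚ] Qb) x = x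
           rw [Subgroup.coe_one, map_one]
           rfl
         map_mul' := fun s t => by
           apply AddMonoidHom.ext
           intro x
           show gP ((s * t : ↥(A.inertiaSubgroupIn ℚ)) : Qb ≃ₐ[ℚ] Qb) x
             = gP (s : Qb ≃ₐ[ℚ] Qb) (gP (t : Qb ≃ₐ[ℚ] Qb) x)
           rw [Subgroup.coe_mul, map_mul]
           rfl }, fun τ => LinearMap.ext fun x => rfl⟩
    have hmP : ∀ x : P, lam ^ k • x = 0 := fun x => Subtype.ext (hPtors x)
    have hodd : Odd (lam ^ k) := (hlam.odd_of_ne_two hlam2).pow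
    -- invariants of `P`: (B2)
    have hcP : ∀ y : P, (∀ τ : ↥(A.inertiaSubgroupIn ℚ), rP τ y = y) → c₀ • y = 0 := by
      intro y hy
      apply Subtype.ext
      show c₀ • (y : JZero (N' * q)) = 0
      refine hB y ⟨k, hPtors y⟩ (hPnew y) (fun τ hτ => ?_)
      have h2 : gP τ y = y := (DFunLike.congr_fun (hrP ⟨τ, hτ⟩) y).symm.trans (hy ⟨τ, hτ⟩)
      rw [← hgP τ y, h2]
    -- the image of the eigenvector
    have hlamP : ∀ ψ : K, (lamk.toIntLinearMap.comp K.subtype) ψ ∈ P := by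
      intro ψ
      have hψ : c (ψ : Lat (N' * q)) = 0 := LinearMap.mem_ker.1 ψ.2
      rw [hP]
      refine ⟨htors _, ?_⟩
      have h1 := hkum (lam ^ k) hn ψ (lamk ψ) (hKum ψ)
      rw [hc1 _ hψ, hc2 _ hψ] at h1
      have hz : chi N' (0 : Lat N') (lam ^ k) = 1 := Fermat.Agent.P5.Lambda.expChar_zero _
      rw [hz] at h1
      exact ⟨Fermat.Agent.P5.Kappa.KummerRel.eq_zero
          (Fermat.Agent.P5.ModFun.RealC.modFunStmt_realQ N') hn h1.1,
        Fermat.Agent.P5.Kappa.KummerRel.eq_zero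
          (Fermat.Agent.P5.ModFun.RealC.modFunStmt_realQ N') hn h1.2⟩
    obtain ⟨lamK, hlamK⟩ : ∃ lamK : K →ₗ[ℤ] P,
        ∀ ψ : K, ((lamK ψ : P) : JZero (N' * q)) = lamk (ψ : Lat (N' * q)) :=
      ⟨(lamk.toIntLinearMap.comp K.subtype).codRestrict P hlamP, fun ψ => rfl⟩
    obtain ⟨w, hw⟩ : ∃ w : O'' ⊗[ℤ] P, w = LinearMap.lTensor O'' lamK v₀ := ⟨_, rfl⟩
    -- `c₀³` kills `w`: the square relation for every inertia element and `S36/UnipInv`
    have hw0 : c₀ ^ 3 • w = 0 := by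
      refine UnipInv.smul_eq_zero_of_add_inv_baseChange rP c₀ (lam ^ k) hodd hmP hcP O'' w
        (fun τ => ?_)
      obtain ⟨τ, hτ⟩ := τ
      have htτ : ρ.trace τ = 2 := trace_eq_two_of_charpoly (ρ.ρ τ) ρ.finrank_eq (hUA τ hτ)
      rw [hrP, hrP, hw]
      exact sq_relation lam hq hqlam S hlamS hMS e he ρ χ hgood hcore hcheb A hA τ hτ htτ k P
        hPtors hPset (gP τ) (gP τ⁻¹) (hgP τ) (hgP τ⁻¹) hNS' v hv lamk htors hheck K lamK hlamK
        v₀ hv₀
    -- back to `O'' ⊗ K`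
    have hexK : Function.Exact ((((lam ^ k : ℕ) : ℤ)) • (LinearMap.id : K →ₗ[ℤ] K)) lamK := by
      intro ψ
      constructor
      · intro h
        have h0 : lamk (ψ : Lat (N' * q)) = 0 := by
          rw [← hlamK]
          exact congrArg Subtype.val h
        obtain ⟨ψ', hψ'⟩ := hker _ h0
        have hψ : c (ψ : Lat (N' * q)) = 0 := LinearMap.mem_ker.1 ψ.2
        have h1 : (lam ^ k) • c ψ' = 0 := by rw [← map_nsmul, ← hψ']; exact hψ
        refine ⟨⟨ψ', LinearMap.mem_ker.2 (htf (lam ^ k) _ hn.ne' h1)⟩, ?_⟩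
        apply Subtype.ext
        rw [LinearMap.smul_apply, LinearMap.id_apply, natCast_zsmul]
        exact hψ'.symm
      · rintro ⟨ψ', rfl⟩
        apply Subtype.ext
        rw [LinearMap.smul_apply, LinearMap.id_apply, natCast_zsmul, map_nsmul]
        show lam ^ k • ((lamK ψ' : P) : JZero (N' * q)) = 0
        exact hPtors (lamK ψ')
    have hexT := Module.Flat.lTensor_exact O'' hexK
    have h9 : LinearMap.lTensor O'' lamK (c₀ ^ 3 • v₀) = 0 := by
      rw [map_nsmul, ← hw, hw0]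
    obtain ⟨u, hu⟩ := (hexT _).1 h9
    refine ⟨u, ?_⟩
    rw [← hu, LinearMap.lTensor_smul, LinearMap.lTensor_id, LinearMap.smul_apply,
      LinearMap.id_apply, natCast_zsmul]
  -- conclusion: `v₀ = 0`
  exact hv₀0 (eq_zero_of_forall_exists_nsmul (IsLocalRing.maximalIdeal O'') lam hlamO''
    (c₀ ^ 3) (pow_ne_zero 3 hc₀) v₀ key)

/-! ## The frozen conclusion of S36 -/

/-- **S36 from (B2) and [DEGEN′]**: the frozen conclusion of S36 (the hypothesis `hres` of the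
frozen statement is not needed), given, for every prime `q ≠ lam` with `q² ∥ M = N' q`, the
degeneracy contract `Plan.DegenStmt N' q` and the bound `B2Stmt N' q lam` on the inertia
invariants of the `q`-new `lam`-power torsion. -/
theorem result_of
    {M : ℕ} [NeZero M] {g : CuspForm (CongruenceSubgroup.Gamma0 M) 2} (hg : g.IsNewform)
    (lam : ℕ) [Fact lam.Prime]
    (S : Finset ℕ)
    (O' : Type) [CommRing O'] [IsDomain O'] [IsDiscreteValuationRing O']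
    [IsAdicComplete (IsLocalRing.maximalIdeal O') O'] [Finite (IsLocalRing.ResidueField O')]
    [CharZero O'] (hlamO' : (lam : O') ∈ IsLocalRing.maximalIdeal O')
    (hlam2 : lam ≠ 2)
    (chig : CuspForm.heckeAlgebra M 2 (↑S : Set ℕ) →+* ℂ)
    (hchig : ∀ (ℓ : ℕ) (hℓ : ℓ.Prime) (hℓM : ¬ ℓ ∣ M) (hℓS : ℓ ∉ (↑S : Set ℕ)),
      chig (CuspForm.heckeAlgebra.T hℓ hℓM hℓS) = ModularFormClass.qCoeff g ℓ)
    (iota : chig.range →+* O')
    (hlamS : lam ∈ S) (hMS : ∀ q : ℕ, q.Prime → q ∣ M → q ∈ S)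
    (h30 : P5.G9.S30Stmt) (hcore : S37.Core.CoreAll M lam)
    (hcheb : P5.WeakChebLift.WeakChebStmt)
    (hD : ∀ (N' q : ℕ) [NeZero N'] [NeZero q], q.Prime → M = N' * q → M.factorization q = 2 →
      Plan.DegenStmt N' q (Push.pushA N' q) (Push.pushB N' q))
    (hB2 : ∀ (N' q : ℕ) [NeZero N'] [NeZero q], q.Prime → q ≠ lam → M = N' * q →
      M.factorization q = 2 → B2Plan.B2Stmt N' q lam) :
    ∃ (O'' : Type) (_ : CommRing O'') (_ : IsDomain O'') (_ : IsDiscreteValuationRing O'')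
      (_ : IsAdicComplete (IsLocalRing.maximalIdeal O'') O'')
      (_ : Finite (IsLocalRing.ResidueField O''))
      (_ : CharZero O'') (_ : Algebra O' O'') (_ : Module.Finite O' O'')
      (_ : IsLocalHom (algebraMap O' O'')),
      Function.Injective (algebraMap O' O'') ∧
      ∃ ρ : GaloisRepAdic O'',
        (∀ (ℓ : ℕ) (hℓ : ℓ.Prime) (hℓM : ¬ ℓ ∣ M) (hℓS : ℓ ∉ (↑S : Set ℕ)),
          ∀ A : ValuationSubring (AlgebraicClosure ℚ), A.LiesOverPrime ℓ →
            ∀ σ : AlgebraicClosure ℚ ≃ₐ[ℚ] AlgebraicClosure ℚ, A.IsFrobeniusAt σ ℓ →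
              LinearMap.charpoly (ρ.ρ σ) =
                X ^ 2 - C (algebraMap O' O'' ((iota.comp chig.rangeRestrict)
                  (CuspForm.heckeAlgebra.T hℓ hℓM hℓS))) * X
                  + C ((ℓ : O''))) ∧
        (∀ q : ℕ, q.Prime → q ≠ lam → M.factorization q = 2 →
          ¬ ρ.IsUnipotentOnInertiaAt q) := by
  obtain ⟨O'', i1, i2, i3, i4, i5, i6, i7, i8, i9, hinj, ρ, hgood, -⟩ :=
    h30 lam M S hlamS hMS O' hlamO' (iota.comp chig.rangeRestrict)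
  refine ⟨O'', i1, i2, i3, i4, i5, i6, i7, i8, i9, hinj, ρ, hgood, ?_⟩
  intro q hq hqlam hfac
  have hlamO'' : (lam : O'') ∈ IsLocalRing.maximalIdeal O'' := by
    have e : (lam : O'') = algebraMap O' O'' (lam : O') := (map_natCast _ _).symm
    rw [e, IsLocalRing.mem_maximalIdeal, mem_nonunits_iff]
    intro hu
    exact (IsLocalRing.mem_maximalIdeal _).1 hlamO' (isUnit_of_map_unit (algebraMap O' O'') _ hu)
  have hqM : q ∣ M := by
    by_contra h
    rw [Nat.factorization_eq_zero_of_not_dvd h] at hfac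
    exact absurd hfac (by norm_num)
  obtain ⟨N', hN'⟩ : ∃ N', M = N' * q := ⟨M / q, (Nat.div_mul_cancel hqM).symm⟩
  have hN'0 : NeZero N' := ⟨fun h => NeZero.ne M (by rw [hN', h, zero_mul])⟩
  have hq0 : NeZero q := ⟨hq.ne_zero⟩
  have hDq := hD N' q hq hN' hfac
  have hBq := hB2 N' q hq hqlam hN' hfac
  clear hD hB2
  subst hN'
  have := Fermat.Agent.S37.HeckeInputs.hasPrincipalDivisors_FN (N' * q)
  exact not_unipotent N' q hq hg lam hlam2 hqlam S hlamS hMS hlamO'' chig hchig iota ρ hgood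
    hcore hcheb hDq hBq

/-- **S36 from (B2)**: the frozen conclusion of S36 from the bound `B2Plan.B2Stmt N' q lam` on the
inertia invariants of the `q`-new `lam`-power torsion, for every prime `q ≠ lam` with
`q² ∥ M = N' q` (S30, the S37 core, weak Chebotarev and [DEGEN′] discharged). -/
theorem result_of_b2
    {M : ℕ} [NeZero M] {g : CuspForm (CongruenceSubgroup.Gamma0 M) 2} (hg : g.IsNewform)
    (lam : ℕ) [Fact lam.Prime]
    (S : Finset ℕ)
    (O' : Type) [CommRing O'] [IsDomain O'] [IsDiscreteValuationRing O']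
    [IsAdicComplete (IsLocalRing.maximalIdeal O') O'] [Finite (IsLocalRing.ResidueField O')]
    [CharZero O'] (hlamO' : (lam : O') ∈ IsLocalRing.maximalIdeal O')
    (hlam2 : lam ≠ 2)
    (chig : CuspForm.heckeAlgebra M 2 (↑S : Set ℕ) →+* ℂ)
    (hchig : ∀ (ℓ : ℕ) (hℓ : ℓ.Prime) (hℓM : ¬ ℓ ∣ M) (hℓS : ℓ ∉ (↑S : Set ℕ)),
      chig (CuspForm.heckeAlgebra.T hℓ hℓM hℓS) = ModularFormClass.qCoeff g ℓ)
    (iota : chig.range →+* O')
    (hlamS : lam ∈ S) (hMS : ∀ q : ℕ, q.Prime → q ∣ M → q ∈ S)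
    (hB2 : ∀ (N' q : ℕ) [NeZero N'] [NeZero q], q.Prime → q ≠ lam → M = N' * q →
      M.factorization q = 2 → B2Plan.B2Stmt N' q lam) :
    ∃ (O'' : Type) (_ : CommRing O'') (_ : IsDomain O'') (_ : IsDiscreteValuationRing O'')
      (_ : IsAdicComplete (IsLocalRing.maximalIdeal O'') O'')
      (_ : Finite (IsLocalRing.ResidueField O''))
      (_ : CharZero O'') (_ : Algebra O' O'') (_ : Module.Finite O' O'')
      (_ : IsLocalHom (algebraMap O' O'')),
      Function.Injective (algebraMap O' O'') ∧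
      ∃ ρ : GaloisRepAdic O'',
        (∀ (ℓ : ℕ) (hℓ : ℓ.Prime) (hℓM : ¬ ℓ ∣ M) (hℓS : ℓ ∉ (↑S : Set ℕ)),
          ∀ A : ValuationSubring (AlgebraicClosure ℚ), A.LiesOverPrime ℓ →
            ∀ σ : AlgebraicClosure ℚ ≃ₐ[ℚ] AlgebraicClosure ℚ, A.IsFrobeniusAt σ ℓ →
              LinearMap.charpoly (ρ.ρ σ) =
                X ^ 2 - C (algebraMap O' O'' ((iota.comp chig.rangeRestrict)
                  (CuspForm.heckeAlgebra.T hℓ hℓM hℓS))) * X
                  + C ((ℓ : O''))) ∧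
        (∀ q : ℕ, q.Prime → q ≠ lam → M.factorization q = 2 →
          ¬ ρ.IsUnipotentOnInertiaAt q) :=
  result_of hg lam S O' hlamO' hlam2 chig hchig iota hlamS hMS Fermat.Agent.S30.result
    (Fermat.Agent.P5.CoreT.coreAll M lam) Fermat.Agent.Lib.WeakCheb.weakChebotarev
    (fun N' q _ _ hq hM h2 => DegNC.degenStmt_of_factorization M N' q hq hM h2) hB2

end Fermat.Agent.S36.Top
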