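import Mathlib
import Fermat.Agent.S36.Top
import Fermat.Agent.S36.Assemble

/-!
# S36 — final assembly, hypothesis form (owner: helper74, P8 lead)

`result_of_all` : **the frozen conclusion of S36** from the two all-level contracts of
`S36/PlanAll.lean`:

* `Plan.OneAllStmt`  — [ONE]  (the `K'`-chain; `S36/OneGen`, `S36/OnePlan`, `S36/K0Plan`);
* `Plan.LiftAllStmt` — [LIFT-ONE] (`S36/LiftAllOf`).

Everything else is discharged: [TOP] `Top.result_of_b2` (helper79: S29, S30, the S37 core, weak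
Chebotarev, [DEGEN′]), and `Assemble.b2Stmt_of_all` ([E3], [DESC-NORM], [EMB], [SETUP], [I-DESC],
[B2-TOP]).  The hypothesis `hres` of the frozen statement is not used.
-/

set_option autoImplicit false

open Polynomial CuspForm ModularCurve AlgebraicCurve

namespace Fermat.Agent.S36.Final

open Fermat.Agent.S36

/-- **(B2)** for every prime `q ≠ lam` with `q² ∥ M = N' q`, from the two all-level contracts. -/
theorem b2Stmt_of_all (hOne : Plan.OneAllStmt) (hLift : Plan.LiftAllStmt)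
    (M lam : ℕ) [Fact lam.Prime] (N' q : ℕ) [NeZero N'] [NeZero q] (hq : q.Prime)
    (hqlam : q ≠ lam) (hM : M = N' * q) (h2 : M.factorization q = 2) :
    B2Plan.B2Stmt N' q lam :=
  Assemble.b2Stmt_of_all hOne hLift N' q lam hq
    (fun h => hqlam ((Nat.prime_dvd_prime_iff_eq hq Fact.out).mp h)) (hM ▸ h2)

/-- **The frozen conclusion of S36** from [ONE] and [LIFT-ONE] at all levels. -/
theorem result_of_all (hOne : Plan.OneAllStmt) (hLift : Plan.LiftAllStmt)
    {M : ℕ} [NeZero M] {g : CuspForm (CongruenceSubgroup.Gamma0 M) 2} (hg : g.IsNewform)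
    (lam : ℕ) [Fact lam.Prime]
    (S : Finset ℕ)
    (O' : Type) [CommRing O'] [IsDomain O'] [IsDiscreteValuationRing O']
    [IsAdicComplete (IsLocalRing.maximalIdeal O') O'] [Finite (IsLocalRing.ResidueField O')]
    [CharZero O'] (hlamO' : (lam : O') ∈ IsLocalRing.maximalIdeal O')
    (hlam2 : lam ≠ 2)
    (chig : CuspForm.heckeAlgebra M 2 (↑S : Set ℕ) →+* ℂ)
    (hchig : ∀ (ℓ : ℕ) (hℓ : ℓ.Prime) (hℓM : ¬ ℓ ∣ M) (hℓS : ℓ ∉ (↑S : Set ℕ)),
      chig (CuspForm.heckeAlgebra.T hℓ hℓM hℓS) = ModularFormClass.qCoeff g ℓ)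
    (iota : chig.range →+* O')
    (hlamS : lam ∈ S) (hMS : ∀ q : ℕ, q.Prime → q ∣ M → q ∈ S) :
    ∃ (O'' : Type) (_ : CommRing O'') (_ : IsDomain O'') (_ : IsDiscreteValuationRing O'')
      (_ : IsAdicComplete (IsLocalRing.maximalIdeal O'') O'')
      (_ : Finite (IsLocalRing.ResidueField O''))
      (_ : CharZero O'') (_ : Algebra O' O'') (_ : Module.Finite O' O'')
      (_ : IsLocalHom (algebraMap O' O'')),
      Function.Injective (algebraMap O' O'') ∧
      ∃ ρ : GaloisRepAdic O'',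
        (∀ (ℓ : ℕ) (hℓ : ℓ.Prime) (hℓM : ¬ ℓ ∣ M) (hℓS : ℓ ∉ (↑S : Set ℕ)),
          ∀ A : ValuationSubring (AlgebraicClosure ℚ), A.LiesOverPrime ℓ →
            ∀ σ : AlgebraicClosure ℚ ≃ₐ[ℚ] AlgebraicClosure ℚ, A.IsFrobeniusAt σ ℓ →
              LinearMap.charpoly (ρ.ρ σ) =
                X ^ 2 - C (algebraMap O' O'' ((iota.comp chig.rangeRestrict)
                  (CuspForm.heckeAlgebra.T hℓ hℓM hℓS))) * X
                  + C ((ℓ : O''))) ∧
        (∀ q : ℕ, q.Prime → q ≠ lam → M.factorization q = 2 →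
          ¬ ρ.IsUnipotentOnInertiaAt q) :=
  Top.result_of_b2 hg lam S O' hlamO' hlam2 chig hchig iota hlamS hMS
    (fun N' q _ _ hq hqlam hM h2 => b2Stmt_of_all hOne hLift M lam N' q hq hqlam hM h2)

end Fermat.Agent.S36.Final
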