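/-
P8 / S36 — block [CONN-q²] (owner: helper28): "a coordinatewise constant element of `B̄` is a
constant" at level `q²`, in hypothesis form and frame-independent.

* `trace_eq_sum_of_card`, `map_trace_eq_sum_of_card` : the trace twin of the landed
  `S37.Conj.norm_eq_prod_of_card` / `map_norm_eq_prod_of_card`: if a finite separable extension
  `L / K` of degree `n` has `n` pairwise distinct embeddings `σ i` into a field `Ω` restricting to
  `φ` on `K`, then `φ (Tr y) = ∑ σ i y`.
* `sum_mul_eval_eq_zero`, `card_filter_eq_of_powerSum`, `eq_of_powerSum_eq_zero` : in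
  characteristic `q`, exactly `q` elements all of whose power sums `∑ κ i ^ m` (`m ≥ 1`) vanish
  are all equal.
* `hdiag_of_trace` : the block.  `R` is the residue ring of the `q²`-frame with coordinates
  `pr i : R →+* S`, `I₁` (`= {∞} ∪ middle`) and `I₂` (`= middle ∪ {0}`) are the two fibres of the
  degeneracy maps, `RY, p1, p2, BY` is the level-`q` frame with its own `hdiagY`, and `hα`, `hβ` say
  that the reductions of the two traces of an element of `B̄` are `(∑_{I₁}, 0)` and `(0, ∑_{I₂})`.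
-/
import Mathlib
import Fermat.Agent.S37.Conj.Embeddings

set_option autoImplicit false

noncomputable section

namespace Fermat.Agent.S36.ConnTrace

open Polynomial

/-! ### (T) traces as sums over `n` distinct embeddings -/

section Trace

variable {K L Ω ι : Type*} [Field K] [Field L] [Field Ω] [Algebra K L] [Algebra K Ω]
  [FiniteDimensional K L] [Algebra.IsSeparable K L] [Fintype ι]

/-- If `L / K` (finite separable) has `[L : K]` distinct `K`-embeddings into `Ω`, the trace is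
the sum over these embeddings. -/
theorem trace_eq_sum_of_card (σ : ι → (L →ₐ[K] Ω)) (hσ : Function.Injective σ)
    (hcard : Fintype.card ι = Module.finrank K L) (y : L) :
    algebraMap K Ω (Algebra.trace K L y) = ∑ i, σ i y := by
  apply (algebraMap Ω (AlgebraicClosure Ω)).injective
  rw [← IsScalarTower.algebraMap_apply, trace_eq_sum_embeddings (AlgebraicClosure Ω), map_sum]
  let e := Equiv.ofBijective _ (Fermat.Agent.S37.Conj.bijective_comp_of_card σ hσ hcard)
  rw [← e.sum_comp]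
  rfl

end Trace

section TraceRingHom

variable {K L Ω ι : Type*} [Field K] [Field L] [Field Ω] [Algebra K L]
  [FiniteDimensional K L] [Algebra.IsSeparable K L] [Fintype ι]

/-- `φ (Tr_{L/K} y) = ∑ σ i y` for `n = [L : K]` distinct ring embeddings `σ i : L →+* Ω` that all
restrict to `φ` on `K`. -/
theorem map_trace_eq_sum_of_card (φ : K →+* Ω) (σ : ι → (L →+* Ω))
    (hφ : ∀ i x, σ i (algebraMap K L x) = φ x) (hσ : Function.Injective σ)
    (hcard : Fintype.card ι = Module.finrank K L) (y : L) :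
    φ (Algebra.trace K L y) = ∑ i, σ i y := by
  let _ : Algebra K Ω := φ.toAlgebra
  let σ' : ι → (L →ₐ[K] Ω) := fun i => { σ i with commutes' := fun x => hφ i x }
  have hσ' : Function.Injective σ' := by
    intro i j hij
    apply hσ
    ext z
    exact congrArg (fun f : L →ₐ[K] Ω => f z) hij
  exact trace_eq_sum_of_card σ' hσ' hcard y

end TraceRingHom

/-! ### (P) power sums in characteristic `q` -/

section PowerSum

variable {k : Type*} [Field k] {ι : Type*}

/-- If all power sums `∑ κ i ^ m`, `m ≥ 1`, vanish, then `∑ κ i * g (κ i) = 0` for every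
polynomial `g`. -/
theorem sum_mul_eval_eq_zero (s : Finset ι) (κ : ι → k)
    (h : ∀ m : ℕ, 0 < m → ∑ i ∈ s, κ i ^ m = 0) (g : k[X]) :
    ∑ i ∈ s, κ i * g.eval (κ i) = 0 := by
  have h1 : ∀ i ∈ s, κ i * g.eval (κ i)
      = ∑ m ∈ Finset.range (g.natDegree + 1), g.coeff m * κ i ^ (m + 1) := by
    intro i _
    rw [Polynomial.eval_eq_sum_range, Finset.mul_sum]
    refine Finset.sum_congr rfl fun m _ => ?_
    ring
  rw [Finset.sum_congr rfl h1, Finset.sum_comm]
  refine Finset.sum_eq_zero fun m _ => ?_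
  rw [← Finset.mul_sum, h (m + 1) (Nat.succ_pos m), mul_zero]

/-- A nonzero value taken by `κ` on `s` is taken `q` times. -/
theorem card_filter_eq_of_powerSum (q : ℕ) [Fact q.Prime] [CharP k q] (s : Finset ι)
    (hs : s.card = q) (κ : ι → k) (h : ∀ m : ℕ, 0 < m → ∑ i ∈ s, κ i ^ m = 0)
    {i₀ : ι} (hi₀ : i₀ ∈ s) (h0 : κ i₀ ≠ 0) : ∀ j ∈ s, κ j = κ i₀ := by
  classical
  set lam : k := κ i₀ with hlam
  set V : Finset k := (s.image κ).erase lam with hV
  set g : k[X] := ∏ μ ∈ V, (X - C μ) with hg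
  have hgeval : ∀ x : k, g.eval x = ∏ μ ∈ V, (x - μ) := by
    intro x
    rw [hg, Polynomial.eval_prod]
    refine Finset.prod_congr rfl fun μ _ => ?_
    simp
  -- the value of `g` at `lam` is nonzero
  have hc : g.eval lam ≠ 0 := by
    rw [hgeval, Finset.prod_ne_zero_iff]
    intro μ hμ
    have hne : μ ≠ lam := (Finset.mem_erase.mp hμ).1
    exact sub_ne_zero.mpr (Ne.symm hne)
  -- `g` vanishes at the other values
  have hz : ∀ i ∈ s, κ i ≠ lam → g.eval (κ i) = 0 := by
    intro i hi hne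
    rw [hgeval]
    exact Finset.prod_eq_zero (Finset.mem_erase.mpr ⟨hne, Finset.mem_image_of_mem κ hi⟩)
      (sub_self _)
  have hsum := sum_mul_eval_eq_zero s κ h g
  have hsplit : ∑ i ∈ s, κ i * g.eval (κ i)
      = ((s.filter fun i => κ i = lam).card : k) * (lam * g.eval lam) := by
    rw [← Finset.sum_filter_add_sum_filter_not s (fun i => κ i = lam)]
    have hA : ∑ i ∈ s.filter (fun i => κ i = lam), κ i * g.eval (κ i)
        = ∑ _i ∈ s.filter (fun i => κ i = lam), lam * g.eval lam := by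
      refine Finset.sum_congr rfl fun i hi => ?_
      rw [(Finset.mem_filter.mp hi).2]
    have hB : ∑ i ∈ s.filter (fun i => ¬ κ i = lam), κ i * g.eval (κ i) = 0 := by
      refine Finset.sum_eq_zero fun i hi => ?_
      rw [hz i (Finset.mem_filter.mp hi).1 (Finset.mem_filter.mp hi).2, mul_zero]
    rw [hA, hB, add_zero, Finset.sum_const, nsmul_eq_mul]
  rw [hsplit] at hsum
  have hcard0 : ((s.filter fun i => κ i = lam).card : k) = 0 := by
    rcases mul_eq_zero.mp hsum with h' | h'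
    · exact h'
    · exact absurd h' (mul_ne_zero h0 hc)
  have hdvd : q ∣ (s.filter fun i => κ i = lam).card := (CharP.cast_eq_zero_iff k q _).mp hcard0
  have hpos : 0 < (s.filter fun i => κ i = lam).card :=
    Finset.card_pos.mpr ⟨i₀, Finset.mem_filter.mpr ⟨hi₀, rfl⟩⟩
  have hle : q ≤ (s.filter fun i => κ i = lam).card := Nat.le_of_dvd hpos hdvd
  have hEq : s.filter (fun i => κ i = lam) = s :=
    Finset.eq_of_subset_of_card_le (Finset.filter_subset _ _) (by rw [hs]; exact hle)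
  intro j hj
  rw [← hEq] at hj
  exact (Finset.mem_filter.mp hj).2

/-- **Power sums in characteristic `q`**: exactly `q` elements all of whose power sums vanish are
all equal. -/
theorem eq_of_powerSum_eq_zero (q : ℕ) [Fact q.Prime] [CharP k q] (s : Finset ι)
    (hs : s.card = q) (κ : ι → k) (h : ∀ m : ℕ, 0 < m → ∑ i ∈ s, κ i ^ m = 0) :
    ∀ i ∈ s, ∀ j ∈ s, κ i = κ j := by
  intro i hi j hj
  by_cases h0 : κ i = 0
  · by_cases h0' : κ j = 0
    · rw [h0, h0']
    · exact (card_filter_eq_of_powerSum q s hs κ h hj h0' i hi)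
  · exact (card_filter_eq_of_powerSum q s hs κ h hi h0 j hj).symm

end PowerSum

/-! ### (C) the block -/

/-- **[CONN-q²]** in hypothesis form: if the reductions of the two traces of elements of `B̄`
are `(∑_{I₁}, 0)` and `(0, ∑_{I₂})` in a level-`q` frame where coordinatewise constants are
diagonal, then every coordinatewise constant element of `B̄` is a constant. -/
theorem hdiag_of_trace {k R S RY : Type*} [Field k] [CommRing R] [CommRing S] [CommRing RY]
    [Algebra k R] (q : ℕ) [Fact q.Prime] [CharP k q]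
    (Cs : k →+* S) {ι : Type*} [Fintype ι] [DecidableEq ι]
    (pr : ι → R →+* S)
    (hpr_inj : ∀ x y : R, (∀ i, pr i x = pr i y) → x = y)
    (hpr_alg : ∀ i (κ : k), pr i (algebraMap k R κ) = Cs κ)
    (I₁ I₂ : Finset ι) (h1 : I₁.card = q) (h2 : I₂.card = q)
    (hcov : ∀ i, i ∈ I₁ ∨ i ∈ I₂) (hmeet : (I₁ ∩ I₂).Nonempty)
    (Bc : ℕ → Set R) (hpow : ∀ c x, x ∈ Bc c → ∀ m : ℕ, ∃ c', x ^ m ∈ Bc c')
    (BY : ℕ → Set RY) (p1 p2 : RY →+* S)
    (hdiagY : ∀ c y, y ∈ BY c → ∀ κ₁ κ₂ : k, p1 y = Cs κ₁ → p2 y = Cs κ₂ → κ₁ = κ₂)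
    (hα : ∀ c x, x ∈ Bc c → ∃ c' y, y ∈ BY c' ∧ p1 y = ∑ i ∈ I₁, pr i x ∧ p2 y = 0)
    (hβ : ∀ c x, x ∈ Bc c → ∃ c' y, y ∈ BY c' ∧ p1 y = 0 ∧ p2 y = ∑ i ∈ I₂, pr i x) :
    ∀ c x, x ∈ Bc c → (∀ i, ∃ κ : k, pr i x = Cs κ) → ∃ κ : k, x = algebraMap k R κ := by
  intro c x hx hconst
  choose κf hκf using hconst
  -- coordinates of powers
  have hpowc : ∀ (m : ℕ) (i : ι), pr i (x ^ m) = Cs (κf i ^ m) := by
    intro m i
    rw [map_pow, hκf i, map_pow]
  -- power sums over `I₁`
  have hP1 : ∀ m : ℕ, 0 < m → ∑ i ∈ I₁, κf i ^ m = 0 := by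
    intro m _
    obtain ⟨c', hxm⟩ := hpow c x hx m
    obtain ⟨c'', y, hy, hy1, hy2⟩ := hα c' (x ^ m) hxm
    have e1 : p1 y = Cs (∑ i ∈ I₁, κf i ^ m) := by
      rw [hy1, map_sum]
      exact Finset.sum_congr rfl fun i _ => hpowc m i
    have e2 : p2 y = Cs 0 := by rw [hy2, map_zero]
    exact hdiagY c'' y hy _ _ e1 e2
  -- power sums over `I₂`
  have hP2 : ∀ m : ℕ, 0 < m → ∑ i ∈ I₂, κf i ^ m = 0 := by
    intro m _
    obtain ⟨c', hxm⟩ := hpow c x hx m
    obtain ⟨c'', y, hy, hy1, hy2⟩ := hβ c' (x ^ m) hxm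
    have e1 : p1 y = Cs 0 := by rw [hy1, map_zero]
    have e2 : p2 y = Cs (∑ i ∈ I₂, κf i ^ m) := by
      rw [hy2, map_sum]
      exact Finset.sum_congr rfl fun i _ => hpowc m i
    exact (hdiagY c'' y hy _ _ e1 e2).symm
  have hE1 := eq_of_powerSum_eq_zero q I₁ h1 κf hP1
  have hE2 := eq_of_powerSum_eq_zero q I₂ h2 κf hP2
  obtain ⟨i₀, hi₀⟩ := hmeet
  have hi₁ : i₀ ∈ I₁ := (Finset.mem_inter.mp hi₀).1
  have hi₂ : i₀ ∈ I₂ := (Finset.mem_inter.mp hi₀).2
  have hall : ∀ i, κf i = κf i₀ := by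
    intro i
    rcases hcov i with hi | hi
    · exact hE1 i hi i₀ hi₁
    · exact hE2 i hi i₀ hi₂
  refine ⟨κf i₀, hpr_inj _ _ fun i => ?_⟩
  rw [hκf i, hall i, hpr_alg]

end Fermat.Agent.S36.ConnTrace
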