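/-
P8 / S36 leaf [NORM-PROD] (helper33): **norms along the two degeneracy maps in the expansion
model when the degree is `q`** (the case `q ∣ N`; the twin of `S35/NormTwo`, where the degree is
`q + 1`).

`F := F_{Nq}`, `α, β : F_N → F` the two degeneracy embeddings (`α` = inclusion, `β : T ↦ T^q`).
The degree `[F : β F_N] = q` (resp. `[F : α F_N] = q`) is a HYPOTHESIS `hfr` (it holds for a prime
`q ∣ N`), so that this file does not depend on the degree computation.

* `qExpand_norm_beta_of_degree` (characteristic `0`): for every `y ∈ F`,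
  `(N_β y)(T^q) = ∏_{b < q} y(ζ^b T)` in `Q̄((T))`.
* `red_norm_beta_of_degree` : for `A` over `q` and `y ∈ Ocal`: `N_β y ∈ Ocal` and
  `red (N_β y) = (red y)^{(q)}` (coefficientwise Frobenius).
* `norm_beta_eq_prod_of_degree`, `norm_alpha_eq_prod_of_degree` : the norm is the product over ANY
  family of `q` pairwise distinct embeddings into `Q̄((T))` extending `T ↦ T^q` (resp. the
  inclusion) on `F_N`.
* `mem_Ocal_norm_alpha_of_degree`, `red_norm_alpha_of_degree` : if all conjugates are integral,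
  so is the norm, and its reduction is the product of the reductions.
-/
import Mathlib
import Fermat.Agent.S35.NormTwo

set_option autoImplicit false

noncomputable section

namespace Fermat.Agent.S36.NormProd

open ModularCurve AlgebraicCurve
open Fermat.Agent.S24 Fermat.Agent.S18.Content Fermat.Agent.S18.Plan
open Fermat.Agent.Lib.KroneckerCong Fermat.Agent.S37.Conj

set_option synthInstance.maxHeartbeats 400000
set_option maxHeartbeats 1600000

variable (N q : ℕ) [NeZero N] [NeZero q]

/-! ## The `q` embeddings `σ_b : f(T) ↦ f(ζ^b T)` -/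

/-- The embeddings `σ_b : f(T) ↦ f(ζ^b T)`, `b < q`, of `F_{Nq}` into `Q̄((T))`. -/
def embS (ζ : Kbarˣ) (b : Fin q) : FN (N * q) →+* Om :=
  (Fermat.Agent.S28.scale (ζ ^ (b : ℕ))).comp (algebraMap (FN (N * q)) Om)

variable {N q}

theorem embS_apply (ζ : Kbarˣ) (b : Fin q) (y : FN (N * q)) :
    embS N q ζ b y = Fermat.Agent.S28.scale (ζ ^ (b : ℕ)) (y : Om) := rfl

/-- All the `σ_b` restrict to `x ↦ x(T^q)` on `β F_N`. -/
theorem embS_beta (ζ : Kbarˣ) (hζ : ζ ^ q = 1) (b : Fin q) (x : FN N) :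
    embS N q ζ b (heckeBetaBar Kbar N q x) = qExpand Kbar q (x : Om) := by
  rw [embS_apply, coe_heckeBetaBar]
  refine Fermat.Agent.S28.scale_eq_self_of_mem_range_expand (ζ ^ (b : ℕ)) (NeZero.ne q) ?_ ?_
  · rw [← pow_mul, mul_comm, pow_mul, hζ, one_pow]
  · rw [Fermat.Agent.S28.expand_eq_qExpand]
    exact ⟨_, rfl⟩

theorem embS_alpha (ζ : Kbarˣ) (b : Fin q) (u : FN N) :
    embS N q ζ b (heckeAlphaBar Kbar N q u) = Fermat.Agent.S28.scale (ζ ^ (b : ℕ)) (u : Om) := by
  rw [embS_apply, coe_heckeAlphaBar]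

/-- The `σ_b` are pairwise distinct: they differ on `j`. -/
theorem embS_injective (ζ : Kbarˣ) (hζ : IsPrimitiveRoot ζ q) :
    Function.Injective (embS N q ζ) := by
  intro b b' hbb'
  have hval := RingHom.congr_fun hbb' (heckeAlphaBar Kbar N q (jBar N))
  rw [embS_alpha, embS_alpha, coe_jBar] at hval
  have hb := Fermat.Agent.S28.Prime.scale_pow_jq_injOn hζ
    (Finset.mem_coe.mpr (Finset.mem_range.mpr b.2))
    (Finset.mem_coe.mpr (Finset.mem_range.mpr b'.2)) hval
  exact Fin.ext hb

variable (N q)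

/-! ## Norm = product over a family of embeddings -/

/-- **Norm along `β` as a product over embeddings.**  If `[F_{Nq} : β F_N] = n` and `e` is a family
of `n` pairwise distinct embeddings of `F_{Nq}` into `Q̄((T))` restricting to `x ↦ x(T^q)` on
`β F_N`, then `(N_β y)(T^q) = ∏ e i y`. -/
theorem norm_beta_eq_prod_of_degree {n : ℕ} (hn : 0 < n)
    (hfr : finrankAlong Kbar (heckeBetaBar Kbar N q) = n) {ι : Type} [Fintype ι]
    (hι : Fintype.card ι = n) (e : ι → FN (N * q) →+* Om)
    (he : ∀ i (f : FN N), e i (heckeBetaBar Kbar N q f) = qExpand Kbar q (f : Om))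
    (hinj : Function.Injective e) (y : FN (N * q)) :
    qExpand Kbar q ((@Algebra.norm (FN N) (FN (N * q)) _ _
        (algebraAlong (heckeBetaBar Kbar N q)) y : FN N) : Om) = ∏ i, e i y := by
  letI : Algebra (FN N) (FN (N * q)) := algebraAlong (heckeBetaBar Kbar N q)
  have h1 : Module.finrank (FN N) (FN (N * q)) = n := hfr
  have : Module.Finite (FN N) (FN (N * q)) := Module.finite_of_finrank_pos (by rw [h1]; exact hn)
  have hcard : Fintype.card ι = Module.finrank (FN N) (FN (N * q)) := by rw [hι, h1]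
  exact map_norm_eq_prod_of_card (K := FN N) (L := FN (N * q)) (Ω := Om)
    ((qExpand Kbar q).comp (algebraMap (FN N) Om)) e (fun i x => he i x) hinj hcard y

/-- **Norm along `α` as a product over embeddings.**  If `[F_{Nq} : α F_N] = n` and `e` is a
family of `n` pairwise distinct embeddings of `F_{Nq}` into `Q̄((T))` restricting to the inclusion
on `α F_N`, then `N_α y = ∏ e i y`. -/
theorem norm_alpha_eq_prod_of_degree {n : ℕ} (hn : 0 < n)
    (hfr : finrankAlong Kbar (heckeAlphaBar Kbar N q) = n) {ι : Type} [Fintype ι]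
    (hι : Fintype.card ι = n) (e : ι → FN (N * q) →+* Om)
    (he : ∀ i (f : FN N), e i (heckeAlphaBar Kbar N q f) = (f : Om))
    (hinj : Function.Injective e) (y : FN (N * q)) :
    ((@Algebra.norm (FN N) (FN (N * q)) _ _
        (algebraAlong (heckeAlphaBar Kbar N q)) y : FN N) : Om) = ∏ i, e i y := by
  letI : Algebra (FN N) (FN (N * q)) := algebraAlong (heckeAlphaBar Kbar N q)
  have h1 : Module.finrank (FN N) (FN (N * q)) = n := hfr
  have : Module.Finite (FN N) (FN (N * q)) := Module.finite_of_finrank_pos (by rw [h1]; exact hn)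
  have hcard : Fintype.card ι = Module.finrank (FN N) (FN (N * q)) := by rw [hι, h1]
  exact map_norm_eq_prod_of_card (K := FN N) (L := FN (N * q)) (Ω := Om)
    (algebraMap (FN N) Om) e (fun i x => he i x) hinj hcard y

/-- **Product formula for the norm along `β` in degree `q`** (characteristic `0`): for every
`y ∈ F_{Nq}`, `(N_β y)(T^q) = ∏_{b < q} y(ζ^b T)`. -/
theorem qExpand_norm_beta_of_degree
    (hfr : finrankAlong Kbar (heckeBetaBar Kbar N q) = q)
    (ζ : Kbarˣ) (hζ : IsPrimitiveRoot ζ q) (y : FN (N * q)) :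
    qExpand Kbar q ((@Algebra.norm (FN N) (FN (N * q)) _ _
        (algebraAlong (heckeBetaBar Kbar N q)) y : FN N) : Om) =
      ∏ b ∈ Finset.range q, Fermat.Agent.S28.scale (ζ ^ b) (y : Om) := by
  have key := norm_beta_eq_prod_of_degree N q (Nat.pos_of_ne_zero (NeZero.ne q)) hfr
    (Fintype.card_fin q) (embS N q ζ)
    (fun i f => embS_beta ζ hζ.pow_eq_one i f) (embS_injective ζ hζ) y
  rw [key]
  exact Fin.prod_univ_eq_prod_range
    (fun b : ℕ => Fermat.Agent.S28.scale (ζ ^ b) (y : Om)) q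

/-! ## Reductions -/

section Reduction

variable (A : ValuationSubring Kbar)

/-- **Norm congruence along `β` in degree `q`**: for `A` over `q` and `y ∈ F_{Nq} ∩ Ocal`,
`N_β y ∈ Ocal` and `red (N_β y) = (red y)^{(q)}` (coefficientwise Frobenius). -/
theorem red_norm_beta_of_degree (hq : q.Prime) (hA : A.LiesOverPrime q)
    (hfr : finrankAlong Kbar (heckeBetaBar Kbar N q) = q)
    (τ : kk A →+* kk A) (hτ : ∀ x, τ x = x ^ q)
    (y : FN (N * q)) (hy : (y : Om) ∈ Ocal A) :
    ∃ hn : ((@Algebra.norm (FN N) (FN (N * q)) _ _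
        (algebraAlong (heckeBetaBar Kbar N q)) y : FN N) : Om) ∈ Ocal A,
      red A ⟨_, hn⟩ = coeffMap τ (red A ⟨(y : Om), hy⟩) := by
  have : Fact q.Prime := ⟨hq⟩
  have : CharP (kk A) q := charP_residueField_of_liesOverPrime A q hA
  have hτF : τ = frobenius (kk A) q := RingHom.ext fun x => by rw [frobenius_def]; exact hτ x
  obtain ⟨ζ, hζ⟩ := Fermat.Agent.S37.KronMain.exists_primitiveRoot_unit q
  obtain ⟨ζA, hζA⟩ := exists_unit_of_pow_eq_one A (NeZero.ne q) hζ.pow_eq_one
  have hζAq : ζA ^ q = 1 := by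
    apply Units.map_injective (f := ((A.subtype : A →+* Kbar) : A →* Kbar)) Subtype.val_injective
    show unitK A (ζA ^ q) = unitK A 1
    rw [map_pow, hζA, hζ.pow_eq_one, map_one]
  set Y : Ocal A := ⟨(y : Om), hy⟩ with hY
  have hsc : ∀ b : ℕ, Fermat.Agent.S28.scale (ζ ^ b) (y : Om) =
      ((twistO A (ζA ^ b) Y : Ocal A) : Om) := by
    intro b
    rw [coe_twistO, map_pow, hζA, Fermat.Agent.S37.KronMain.twist_eq_scale]
  have hredsc : ∀ b : ℕ, red A (twistO A (ζA ^ b) Y) = red A Y := by
    intro b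
    rw [red_twistO, unitk_eq_one_of_pow_eq_one A (ζA ^ b)
      (by rw [← pow_mul, mul_comm, pow_mul, hζAq, one_pow]), twist_one]
  have key := qExpand_norm_beta_of_degree N q hfr ζ hζ y
  set nb : FN N := @Algebra.norm (FN N) (FN (N * q)) _ _
    (algebraAlong (heckeBetaBar Kbar N q)) y with hnb
  set P : Ocal A := ∏ b ∈ Finset.range q, twistO A (ζA ^ b) Y with hP
  have hPcoe : qExpand Kbar q ((nb : FN N) : Om) = (P : Om) := by
    rw [key, hP, SubmonoidClass.coe_finsetProd]
    exact Finset.prod_congr rfl fun b _ => hsc b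
  have hn : ((nb : FN N) : Om) ∈ Ocal A :=
    mem_Ocal_of_qExpand_mem A q (hPcoe ▸ P.2)
  refine ⟨hn, ?_⟩
  apply qExpand_injective (R := kk A) (N := q)
  rw [← red_qExpand A q ⟨_, hn⟩, red_congr A hPcoe (qExpand_mem_Ocal A q hn) P.2]
  show red A P = _
  rw [hP, map_prod, Finset.prod_congr rfl (fun b _ => hredsc b),
    Finset.prod_const, Finset.card_range, pow_char_eq, hτF]

/-- If all the conjugates `e i y` of `y` over `α F_N` are integral, so is `N_α y`, and its
reduction is the product of the reductions of the conjugates. -/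
theorem red_norm_alpha_of_degree {n : ℕ} (hn : 0 < n)
    (hfr : finrankAlong Kbar (heckeAlphaBar Kbar N q) = n) {ι : Type} [Fintype ι]
    (hι : Fintype.card ι = n) (e : ι → FN (N * q) →+* Om)
    (he : ∀ i (f : FN N), e i (heckeAlphaBar Kbar N q f) = (f : Om))
    (hinj : Function.Injective e) (y : FN (N * q)) (hy : ∀ i, e i y ∈ Ocal A) :
    ∃ hN : ((@Algebra.norm (FN N) (FN (N * q)) _ _
        (algebraAlong (heckeAlphaBar Kbar N q)) y : FN N) : Om) ∈ Ocal A,
      red A ⟨_, hN⟩ = ∏ i, red A ⟨e i y, hy i⟩ := by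
  have key := norm_alpha_eq_prod_of_degree N q hn hfr hι e he hinj y
  set P : Ocal A := ∏ i, (⟨e i y, hy i⟩ : Ocal A) with hP
  have hPcoe : ((@Algebra.norm (FN N) (FN (N * q)) _ _
        (algebraAlong (heckeAlphaBar Kbar N q)) y : FN N) : Om) = (P : Om) := by
    rw [key, hP, SubmonoidClass.coe_finsetProd]
  have hN : ((@Algebra.norm (FN N) (FN (N * q)) _ _
        (algebraAlong (heckeAlphaBar Kbar N q)) y : FN N) : Om) ∈ Ocal A := hPcoe ▸ P.2
  refine ⟨hN, ?_⟩
  rw [red_congr A hPcoe hN P.2, hP, map_prod]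

/-- If all the conjugates `e i y` of `y` over `β F_N` are integral, so is `N_β y`, and the
`T ↦ T^q` substitution of its reduction is the product of the reductions of the conjugates. -/
theorem red_norm_beta_of_embs {n : ℕ} (hn : 0 < n)
    (hfr : finrankAlong Kbar (heckeBetaBar Kbar N q) = n) {ι : Type} [Fintype ι]
    (hι : Fintype.card ι = n) (e : ι → FN (N * q) →+* Om)
    (he : ∀ i (f : FN N), e i (heckeBetaBar Kbar N q f) = qExpand Kbar q (f : Om))
    (hinj : Function.Injective e) (y : FN (N * q)) (hy : ∀ i, e i y ∈ Ocal A) :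
    ∃ hN : ((@Algebra.norm (FN N) (FN (N * q)) _ _
        (algebraAlong (heckeBetaBar Kbar N q)) y : FN N) : Om) ∈ Ocal A,
      qExpand (kk A) q (red A ⟨_, hN⟩) = ∏ i, red A ⟨e i y, hy i⟩ := by
  have key := norm_beta_eq_prod_of_degree N q hn hfr hι e he hinj y
  set nb : FN N := @Algebra.norm (FN N) (FN (N * q)) _ _
    (algebraAlong (heckeBetaBar Kbar N q)) y with hnb
  set P : Ocal A := ∏ i, (⟨e i y, hy i⟩ : Ocal A) with hP
  have hPcoe : qExpand Kbar q ((nb : FN N) : Om) = (P : Om) := by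
    rw [key, hP, SubmonoidClass.coe_finsetProd]
  have hN : ((nb : FN N) : Om) ∈ Ocal A := mem_Ocal_of_qExpand_mem A q (hPcoe ▸ P.2)
  refine ⟨hN, ?_⟩
  rw [← red_qExpand A q ⟨_, hN⟩, red_congr A hPcoe (qExpand_mem_Ocal A q hN) P.2, hP, map_prod]

end Reduction

end Fermat.Agent.S36.NormProd
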