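/-
P8 / S36 — block [CONN] (owner: helper28): the provider of `Plan.ConnStmt`.

A coordinatewise constant element of `B̄` at level `q²` is a (diagonal) constant.  Proof: the
traces along the two degeneracy maps `α, β : F_{Mq} → F_{Mq²}` of the powers of such an element
are elements of the level-`q` ring `Val.O2`, regular off the cusps, whose two-component
reductions are `(∑_{∞, mid} κ_i^m, 0)` and `(0, ∑_{mid, 0} κ_i^m)`; the level-`q` diagonal
statement (S34) makes these power sums vanish, and `q` numbers in characteristic `q` all of whose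
power sums vanish are equal (`ConnTrace.eq_of_powerSum_eq_zero`).
-/
import Mathlib
import Fermat.Agent.S36.Plan
import Fermat.Agent.S36.ConnTrace
import Fermat.Agent.S36.NormProd
import Fermat.Agent.S36.MidEmb
import Fermat.Agent.S36.FrameInst
import Fermat.Agent.S36.DegNCDeg
import Fermat.Agent.S34.FromSetup
import Fermat.Agent.S34.ValFinal
import Fermat.Agent.S34.TauAdapt
import Fermat.Agent.S34.CuspPole
import Fermat.Agent.S34.InclPull
import Fermat.Agent.S34.PlanTop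
import Fermat.Agent.S34.PoleBound
import Fermat.Agent.S34.BKappa
import Fermat.Agent.S18.FibreCount
import Fermat.Agent.S18.PullPlan

set_option autoImplicit false

noncomputable section

namespace Fermat.Agent.S36.ConnInst

open ModularCurve AlgebraicCurve
open Fermat.Agent.S24 Fermat.Agent.S18 Fermat.Agent.S18.Content Fermat.Agent.S18.Plan
open Fermat.Agent.Lib.KroneckerCong Fermat.Agent.S37.Conj Fermat.Agent.S34

set_option synthInstance.maxHeartbeats 400000
set_option maxHeartbeats 1600000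
set_option linter.unusedSectionVars false

/-! ## Sums and reductions -/

section Generic

variable (A : ValuationSubring Kbar)

/-- A finite sum of elements of `Ocal` is in `Ocal`, and `red` is additive. -/
theorem red_sum {ι : Type*} [Fintype ι] (f : ι → Om) (hf : ∀ i, f i ∈ Ocal A) :
    ∃ hs : ∑ i, f i ∈ Ocal A, red A ⟨_, hs⟩ = ∑ i, red A ⟨f i, hf i⟩ := by
  set P : Ocal A := ∑ i, (⟨f i, hf i⟩ : Ocal A) with hP
  have hPcoe : ∑ i, f i = (P : Om) := by
    rw [hP]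
    push_cast
    rfl
  have hs : ∑ i, f i ∈ Ocal A := hPcoe ▸ P.2
  refine ⟨hs, ?_⟩
  rw [red_congr A hPcoe hs P.2, hP, map_sum]

/-- **Reduction of a trace.**  If all the conjugates `e i y` are integral, then so is
`φ (Tr y)`, and its reduction is the sum of the reductions of the conjugates. -/
theorem red_map_trace {K L : Type*} [Field K] [Field L] [Algebra K L] [FiniteDimensional K L]
    [Algebra.IsSeparable K L] {ι : Type*} [Fintype ι] (φ : K →+* Om) (e : ι → L →+* Om)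
    (he : ∀ i x, e i (algebraMap K L x) = φ x) (hinj : Function.Injective e)
    (hcard : Fintype.card ι = Module.finrank K L) (y : L) (hy : ∀ i, e i y ∈ Ocal A) :
    ∃ hT : φ (Algebra.trace K L y) ∈ Ocal A, red A ⟨_, hT⟩ = ∑ i, red A ⟨e i y, hy i⟩ := by
  have key := ConnTrace.map_trace_eq_sum_of_card φ e he hinj hcard y
  obtain ⟨hs, hred⟩ := red_sum A (fun i => e i y) hy
  have hT : φ (Algebra.trace K L y) ∈ Ocal A := key ▸ hs
  exact ⟨hT, by rw [red_congr A key hT hs, hred]⟩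

variable (q : ℕ) [NeZero q]

/-- Scaling `T ↦ ξ T` by a `q`-th root of unity preserves `Ocal` and the reduction. -/
theorem red_scale (hq : q.Prime) (hA : A.LiesOverPrime q) (ξ : Kbarˣ) (hξ : ξ ^ q = 1)
    (x : Om) (hx : x ∈ Ocal A) :
    ∃ h : Fermat.Agent.S28.scale ξ x ∈ Ocal A, red A ⟨_, h⟩ = red A ⟨x, hx⟩ := by
  have : Fact q.Prime := ⟨hq⟩
  have : CharP (kk A) q := charP_residueField_of_liesOverPrime A q hA
  obtain ⟨ξA, hξA⟩ := exists_unit_of_pow_eq_one A (NeZero.ne q) hξ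
  have hξAq : ξA ^ q = 1 := by
    apply Units.map_injective (f := ((A.subtype : A →+* Kbar) : A →* Kbar)) Subtype.val_injective
    show unitK A (ξA ^ q) = unitK A 1
    rw [map_pow, hξA, hξ, map_one]
  set Y : Ocal A := ⟨x, hx⟩ with hY
  have hsc : Fermat.Agent.S28.scale ξ x = ((twistO A ξA Y : Ocal A) : Om) := by
    rw [coe_twistO, hξA, Fermat.Agent.S37.KronMain.twist_eq_scale]
  have hmem : Fermat.Agent.S28.scale ξ x ∈ Ocal A := hsc ▸ (twistO A ξA Y).2
  refine ⟨hmem, ?_⟩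
  rw [red_congr A hsc hmem (twistO A ξA Y).2]
  show red A (twistO A ξA Y) = red A Y
  rw [red_twistO, unitk_eq_one_of_pow_eq_one A ξA hξAq, twist_one]

/-- `∑_{b < q} x(ζ^b T)` is integral with reduction `0` (characteristic `q`). -/
theorem red_sum_scale (hq : q.Prime) (hA : A.LiesOverPrime q) (ζ : Kbarˣ) (hζ : ζ ^ q = 1)
    (x : Om) (hx : x ∈ Ocal A) :
    ∃ hs : ∑ b : Fin q, Fermat.Agent.S28.scale (ζ ^ (b : ℕ)) x ∈ Ocal A, red A ⟨_, hs⟩ = 0 := by
  have : Fact q.Prime := ⟨hq⟩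
  have : CharP (kk A) q := charP_residueField_of_liesOverPrime A q hA
  have hb : ∀ b : Fin q, (ζ ^ (b : ℕ)) ^ q = 1 := fun b => by
    rw [← pow_mul, mul_comm, pow_mul, hζ, one_pow]
  have hmem : ∀ b : Fin q, Fermat.Agent.S28.scale (ζ ^ (b : ℕ)) x ∈ Ocal A := fun b =>
    (red_scale A q hq hA _ (hb b) x hx).1
  obtain ⟨hs, hred⟩ := red_sum A (fun b : Fin q => Fermat.Agent.S28.scale (ζ ^ (b : ℕ)) x) hmem
  refine ⟨hs, ?_⟩
  rw [hred]
  have h1 : ∀ b : Fin q, red A ⟨_, hmem b⟩ = red A ⟨x, hx⟩ := fun b =>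
    (red_scale A q hq hA _ (hb b) x hx).2
  rw [Finset.sum_congr rfl (fun b _ => h1 b), Finset.sum_const, Finset.card_univ,
    Fintype.card_fin, ← Nat.cast_smul_eq_nsmul (kk A), CharP.cast_eq_zero, zero_smul]

/-- If `X(T^q)` is integral with reduction `0`, so is `X`. -/
theorem red_eq_zero_of_qExpand (X : Om) (hX : qExpand Kbar q X ∈ Ocal A)
    (h0 : red A ⟨_, hX⟩ = 0) : ∃ h : X ∈ Ocal A, red A ⟨X, h⟩ = 0 := by
  have h : X ∈ Ocal A := mem_Ocal_of_qExpand_mem A q hX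
  refine ⟨h, ?_⟩
  apply qExpand_injective (R := kk A) (N := q)
  rw [← red_qExpand A q ⟨X, h⟩, map_zero]
  exact h0

end Generic

/-! ## Traces along the degeneracy maps -/

section Trace

variable {N N' : ℕ} [NeZero N] [NeZero N']

/-- The trace along a `Kbar`-embedding `γ : F_N → F_{N'}`. -/
def trAlong (γ : FN N →ₐ[Kbar] FN N') (y : FN N') : FN N :=
  @Algebra.trace (FN N) (FN N') _ _ (algebraAlong γ) y

/-- The trace along `γ` is the sum over any family of `[F_{N'} : γ F_N]` distinct embeddings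
with a common restriction `φ` to `γ F_N`. -/
theorem map_trAlong (γ : FN N →ₐ[Kbar] FN N') {n : ℕ} (hn : 0 < n)
    (hfr : finrankAlong Kbar γ = n) {ι : Type} [Fintype ι] (hι : Fintype.card ι = n)
    (φ : FN N →+* Om) (e : ι → FN N' →+* Om) (he : ∀ i (f : FN N), e i (γ f) = φ f)
    (hinj : Function.Injective e) (y : FN N') :
    φ (trAlong γ y) = ∑ i, e i y := by
  let _ : Algebra (FN N) (FN N') := algebraAlong γ
  have h1 : Module.finrank (FN N) (FN N') = n := hfr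
  have : Module.Finite (FN N) (FN N') := Module.finite_of_finrank_pos (by rw [h1]; exact hn)
  have hcard : Fintype.card ι = Module.finrank (FN N) (FN N') := by rw [hι, h1]
  exact ConnTrace.map_trace_eq_sum_of_card (K := FN N) (L := FN N') (Ω := Om) φ e
    (fun i x => he i x) hinj hcard y

end Trace

/-! ## The four families of embeddings -/

section Index

variable {q : ℕ} [NeZero q]

/-- The middle index `ζ^(b+1)`, `b < q - 1`. -/
def midOf (hq : q.Prime) (ζ : Kbarˣ) (hζ : IsPrimitiveRoot ζ q) (b : Fin (q - 1)) :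
    Plan.MidIdx q :=
  ⟨ζ ^ ((b : ℕ) + 1), hζ.pow_of_coprime _ (Nat.Coprime.symm
      ((Nat.Prime.coprime_iff_not_dvd hq).mpr
        (Nat.not_dvd_of_pos_of_lt (Nat.succ_pos _) (by have := b.2; omega))))⟩

/-- Every middle index is some `midOf b`. -/
theorem exists_midOf (hq : q.Prime) (ζ : Kbarˣ) (hζ : IsPrimitiveRoot ζ q) (ξ : Plan.MidIdx q) :
    ∃ b, midOf hq ζ hζ b = ξ := by
  have hζK : IsPrimitiveRoot (ζ : Kbar) q := IsPrimitiveRoot.coe_units_iff.mpr hζ
  have hξK : ((ξ.1 : Kbarˣ) : Kbar) ^ q = 1 := by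
    rw [← Units.val_pow_eq_pow_val, ξ.2.pow_eq_one, Units.val_one]
  obtain ⟨i, hi, hξ'⟩ := hζK.eq_pow_of_pow_eq_one hξK
  have hξ : ζ ^ i = ξ.1 := Units.ext (by rw [Units.val_pow_eq_pow_val, hξ'])
  have hi0 : i ≠ 0 := by
    rintro rfl
    rw [pow_zero] at hξ
    have h1 := ξ.2
    rw [← hξ] at h1
    exact hq.one_lt.ne' (IsPrimitiveRoot.one_left_iff.mp h1)
  refine ⟨⟨i - 1, by omega⟩, Subtype.ext ?_⟩
  show ζ ^ (i - 1 + 1) = ξ.1
  rw [Nat.sub_add_cancel (Nat.pos_of_ne_zero hi0), hξ]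

/-- The coordinates `∞, mid`. -/
def cA (hq : q.Prime) (ζ : Kbarˣ) (hζ : IsPrimitiveRoot ζ q) :
    Option (Fin (q - 1)) → Plan.Coord q
  | none => .inf
  | some b => .mid (midOf hq ζ hζ b)

/-- The coordinates `0, mid`. -/
def cB (hq : q.Prime) (ζ : Kbarˣ) (hζ : IsPrimitiveRoot ζ q) :
    Option (Fin (q - 1)) → Plan.Coord q
  | none => .zero
  | some b => .mid (midOf hq ζ hζ b)

theorem card_idx (hq : q.Prime) : Fintype.card (Option (Fin (q - 1))) = q := by
  rw [Fintype.card_option, Fintype.card_fin, Nat.sub_add_cancel hq.one_le]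

theorem exists_cA_or_cB (hq : q.Prime) (ζ : Kbarˣ) (hζ : IsPrimitiveRoot ζ q) (i : Plan.Coord q) :
    (∃ o, cA hq ζ hζ o = i) ∨ (∃ o, cB hq ζ hζ o = i) := by
  cases i with
  | inf => exact Or.inl ⟨none, rfl⟩
  | zero => exact Or.inr ⟨none, rfl⟩
  | mid ξ =>
    obtain ⟨b, hb⟩ := exists_midOf hq ζ hζ ξ
    exact Or.inl ⟨some b, by rw [← hb]; rfl⟩

theorem not_dvd_neg_one (hq : q.Prime) : ¬ ((q : ℤ) ∣ -1) := by
  intro hdvd
  have h1 : (q : ℤ) ∣ 1 := (dvd_neg.mp hdvd)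
  have h2 : q ∣ 1 := by exact_mod_cast h1
  exact hq.one_lt.ne' (Nat.dvd_one.mp h2)

/-- `j(T^(q²))` is not `j(ξ T)`. -/
theorem qExpand_qExpand_ne_scale (hq : q.Prime) (ξ : Kbarˣ) :
    qExpand Kbar q (qExpand Kbar q (jqModC Kbar)) ≠ Fermat.Agent.S28.scale ξ (jqModC Kbar) := by
  intro hEq
  have h1 := congrArg (fun f : Om => f.coeff (-1)) hEq
  simp only [Fermat.Agent.S28.scale_coeff, coeff_jqModC_neg_one, mul_one] at h1
  have h2 : (qExpand Kbar q (qExpand Kbar q (jqModC Kbar))).coeff (-1) = 0 :=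
    qExpand_coeff_of_not_dvd q _ (not_dvd_neg_one hq)
  rw [h2] at h1
  exact (Units.ne_zero _) h1.symm

end Index

section Frame

variable {M q : ℕ} [NeZero M] [NeZero q] {h : Nat.Coprime M q}

/-! ### (A1): `∞` and the middle coordinates extend the inclusion along `α` -/

/-- The family (A1). -/
def eA1 (F : Plan.Frame M q h) (hq : q.Prime) (ζ : Kbarˣ) (hζ : IsPrimitiveRoot ζ q)
    (o : Option (Fin (q - 1))) : FN (M * q * q) →+* Om :=
  (F.emb (cA hq ζ hζ o)).toRingHom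

theorem eA1_apply (F : Plan.Frame M q h) (hq : q.Prime) (ζ : Kbarˣ) (hζ : IsPrimitiveRoot ζ q)
    (o : Option (Fin (q - 1))) (y : FN (M * q * q)) :
    eA1 F hq ζ hζ o y = F.emb (cA hq ζ hζ o) y := rfl

theorem eA1_none (F : Plan.Frame M q h) (hq : q.Prime) (ζ : Kbarˣ) (hζ : IsPrimitiveRoot ζ q)
    (y : FN (M * q * q)) : eA1 F hq ζ hζ none y = (y : Om) := rfl

theorem eA1_some (F : Plan.Frame M q h) (hq : q.Prime) (ζ : Kbarˣ) (hζ : IsPrimitiveRoot ζ q)
    (b : Fin (q - 1)) (y : FN (M * q * q)) :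
    eA1 F hq ζ hζ (some b) y = F.r (midOf hq ζ hζ b) y := rfl

theorem eA1_alpha (F : Plan.Frame M q h) (hq : q.Prime) (ζ : Kbarˣ) (hζ : IsPrimitiveRoot ζ q)
    (o : Option (Fin (q - 1))) (x : FN (M * q)) :
    eA1 F hq ζ hζ o (heckeAlphaBar Kbar (M * q) q x) = (x : Om) := by
  cases o with
  | none => rw [eA1_none, coe_heckeAlphaBar]
  | some b => rw [eA1_some, F.r_alpha]

theorem eA1_injective (F : Plan.Frame M q h) (hq : q.Prime) (ζ : Kbarˣ)
    (hζ : IsPrimitiveRoot ζ q) : Function.Injective (eA1 F hq ζ hζ) := by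
  set t : FN (M * q * q) := heckeBetaBar Kbar (M * q) q (heckeBetaBar Kbar M q (jBar M)) with ht
  have hnone : eA1 F hq ζ hζ none t = qExpand Kbar q (qExpand Kbar q (jqModC Kbar)) := by
    rw [eA1_none, ht, coe_heckeBetaBar, coe_heckeBetaBar, Fermat.Agent.S37.Conj.coe_jBar]
  have hsome : ∀ b, eA1 F hq ζ hζ (some b) t =
      Fermat.Agent.S28.scale (ζ ^ ((b : ℕ) + 1)) (jqModC Kbar) := by
    intro b
    rw [eA1_some, ht, F.r_beta, Fermat.Agent.S37.Conj.coe_jBar]
    rfl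
  intro o o' hoo'
  have hval := RingHom.congr_fun hoo' t
  cases o with
  | none =>
    cases o' with
    | none => rfl
    | some b' =>
      rw [hnone, hsome] at hval
      exact absurd hval (qExpand_qExpand_ne_scale hq _)
  | some b =>
    cases o' with
    | none =>
      rw [hnone, hsome] at hval
      exact absurd hval.symm (qExpand_qExpand_ne_scale hq _)
    | some b' =>
      rw [hsome, hsome] at hval
      have hb := Fermat.Agent.S28.Prime.scale_pow_jq_injOn hζ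
        (Finset.mem_coe.mpr (Finset.mem_range.mpr (by have := b.2; omega)))
        (Finset.mem_coe.mpr (Finset.mem_range.mpr (by have := b'.2; omega))) hval
      exact congrArg some (Fin.ext (by omega))

/-! ### (A2): the twists of the `0`-coordinate extend `x ↦ (σ x)(T^q)` along `α` -/

/-- The family (A2). -/
def eA2 (F : Plan.Frame M q h) (ζ : Kbarˣ) (b : Fin q) : FN (M * q * q) →+* Om :=
  (Fermat.Agent.S28.scale (ζ ^ (b : ℕ))).comp (F.emb .zero).toRingHom

theorem eA2_apply (F : Plan.Frame M q h) (ζ : Kbarˣ) (b : Fin q) (y : FN (M * q * q)) :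
    eA2 F ζ b y = Fermat.Agent.S28.scale (ζ ^ (b : ℕ)) (F.emb .zero y) := rfl

theorem eA2_alpha (F : Plan.Frame M q h) (ζ : Kbarˣ) (hζ : ζ ^ q = 1) (b : Fin q)
    (x : FN (M * q)) :
    eA2 F ζ b (heckeAlphaBar Kbar (M * q) q x) =
      qExpand Kbar q ((Sigma.sigma M q h x : FN (M * q)) : Om) := by
  rw [eA2_apply, Plan.Frame.emb_zero, F.w_alpha, coe_heckeBetaBar]
  refine Fermat.Agent.S28.scale_eq_self_of_mem_range_expand (ζ ^ (b : ℕ)) (NeZero.ne q) ?_ ?_
  · rw [← pow_mul, mul_comm, pow_mul, hζ, one_pow]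
  · rw [Fermat.Agent.S28.expand_eq_qExpand]
    exact ⟨_, rfl⟩

theorem eA2_injective (F : Plan.Frame M q h) (ζ : Kbarˣ) (hζ : IsPrimitiveRoot ζ q) :
    Function.Injective (eA2 F ζ) := by
  have key : ∀ b : Fin q, eA2 F ζ b (heckeBetaBar Kbar (M * q) q (Sigma.jQ M q)) =
      Fermat.Agent.S28.scale (ζ ^ (b : ℕ)) (jqModC Kbar) := by
    intro b
    rw [eA2_apply, Plan.Frame.emb_zero, F.w_beta, coe_heckeAlphaBar, Sigma.sigma_jQ,
      Fermat.Agent.S37.Conj.coe_jBar]
  intro b b' hbb'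
  have hval := RingHom.congr_fun hbb' (heckeBetaBar Kbar (M * q) q (Sigma.jQ M q))
  rw [key, key] at hval
  exact Fin.ext (Fermat.Agent.S28.Prime.scale_pow_jq_injOn hζ
    (Finset.mem_coe.mpr (Finset.mem_range.mpr b.2))
    (Finset.mem_coe.mpr (Finset.mem_range.mpr b'.2)) hval)

/-! ### (B2): `0` and the untwisted middle coordinates extend `σ` along `β` -/

/-- The family (B2). -/
def eB2 (F : Plan.Frame M q h) (hq : q.Prime) (ζ : Kbarˣ) (hζ : IsPrimitiveRoot ζ q) :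
    Option (Fin (q - 1)) → (FN (M * q * q) →+* Om)
  | none => (F.emb .zero).toRingHom
  | some b => (Fermat.Agent.S28.scale (midOf hq ζ hζ b).1⁻¹).comp
      (F.emb (.mid (midOf hq ζ hζ b))).toRingHom

theorem eB2_none (F : Plan.Frame M q h) (hq : q.Prime) (ζ : Kbarˣ) (hζ : IsPrimitiveRoot ζ q)
    (y : FN (M * q * q)) : eB2 F hq ζ hζ none y = ((F.w y : FN (M * q * q)) : Om) := rfl

theorem eB2_some (F : Plan.Frame M q h) (hq : q.Prime) (ζ : Kbarˣ) (hζ : IsPrimitiveRoot ζ q)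
    (b : Fin (q - 1)) (y : FN (M * q * q)) :
    eB2 F hq ζ hζ (some b) y =
      Fermat.Agent.S28.scale (midOf hq ζ hζ b).1⁻¹ (F.r (midOf hq ζ hζ b) y) := rfl

theorem eB2_beta (F : Plan.Frame M q h) (hq : q.Prime) (ζ : Kbarˣ) (hζ : IsPrimitiveRoot ζ q)
    (o : Option (Fin (q - 1))) (x : FN (M * q)) :
    eB2 F hq ζ hζ o (heckeBetaBar Kbar (M * q) q x) =
      ((Sigma.sigma M q h x : FN (M * q)) : Om) := by
  cases o with
  | none =>
    rw [eB2_none, F.w_beta, coe_heckeAlphaBar]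
  | some b =>
    rw [eB2_some, FrameInst.r_beta_sigma hq F, Fermat.Agent.S28.scale_scale, inv_mul_cancel,
      Fermat.Agent.S28.scale_one]

theorem eB2_injective (F : Plan.Frame M q h) (hq : q.Prime) (ζ : Kbarˣ)
    (hζ : IsPrimitiveRoot ζ q) : Function.Injective (eB2 F hq ζ hζ) := by
  set t : FN (M * q * q) := heckeAlphaBar Kbar (M * q) q (jBar (M * q)) with ht
  have hnone : eB2 F hq ζ hζ none t = qExpand Kbar q (qExpand Kbar q (jqModC Kbar)) := by
    rw [eB2_none, ht, F.w_alpha, coe_heckeBetaBar, Sigma.sigma_jBar, Sigma.jQ, coe_heckeBetaBar,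
      Fermat.Agent.S37.Conj.coe_jBar]
  have hsome : ∀ b, eB2 F hq ζ hζ (some b) t =
      Fermat.Agent.S28.scale (ζ⁻¹ ^ ((b : ℕ) + 1)) (jqModC Kbar) := by
    intro b
    have hinv : (midOf hq ζ hζ b).1⁻¹ = ζ⁻¹ ^ ((b : ℕ) + 1) := by
      show (ζ ^ ((b : ℕ) + 1))⁻¹ = _
      rw [inv_pow]
    rw [eB2_some, ht, F.r_alpha, Fermat.Agent.S37.Conj.coe_jBar, hinv]
  have hζi : IsPrimitiveRoot ζ⁻¹ q := hζ.inv
  intro o o' hoo'
  have hval := RingHom.congr_fun hoo' t
  cases o with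
  | none =>
    cases o' with
    | none => rfl
    | some b' =>
      rw [hnone, hsome] at hval
      exact absurd hval (qExpand_qExpand_ne_scale hq _)
  | some b =>
    cases o' with
    | none =>
      rw [hnone, hsome] at hval
      exact absurd hval.symm (qExpand_qExpand_ne_scale hq _)
    | some b' =>
      rw [hsome, hsome] at hval
      have hb := Fermat.Agent.S28.Prime.scale_pow_jq_injOn hζi
        (Finset.mem_coe.mpr (Finset.mem_range.mpr (by have := b.2; omega)))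
        (Finset.mem_coe.mpr (Finset.mem_range.mpr (by have := b'.2; omega))) hval
      exact congrArg some (Fin.ext (by omega))

end Frame

/-! ## The reductions of the two traces -/

section TraceRed

variable (A : ValuationSubring Kbar) {M q : ℕ} [NeZero M] [NeZero q] {h : Nat.Coprime M q}

theorem finrank_alpha (hq : q.Prime) :
    finrankAlong Kbar (heckeAlphaBar Kbar (M * q) q) = q :=
  DegNCDeg.finrankAlong_alpha_of_dvd (M * q) q hq (Dvd.intro_left M rfl)

theorem finrank_beta (hq : q.Prime) :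
    finrankAlong Kbar (heckeBetaBar Kbar (M * q) q) = q :=
  DegNCDeg.finrankAlong_beta_of_dvd q hq (M * q) (Dvd.intro_left M rfl)

/-- The two expansions of the trace along `α`, as sums of conjugates. -/
theorem trA_eq (F : Plan.Frame M q h) (hq : q.Prime) (ζ : Kbarˣ) (hζ : IsPrimitiveRoot ζ q)
    (y : FN (M * q * q)) :
    ((trAlong (heckeAlphaBar Kbar (M * q) q) y : FN (M * q)) : Om) =
        ∑ o, eA1 F hq ζ hζ o y ∧
      qExpand Kbar q ((Sigma.sigma M q h (trAlong (heckeAlphaBar Kbar (M * q) q) y) :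
          FN (M * q)) : Om) =
        ∑ b : Fin q, Fermat.Agent.S28.scale (ζ ^ (b : ℕ)) (F.emb .zero y) :=
  ⟨map_trAlong (heckeAlphaBar Kbar (M * q) q) hq.pos (finrank_alpha hq) (card_idx hq)
      (algebraMap (FN (M * q)) Om) (eA1 F hq ζ hζ) (fun o x => eA1_alpha F hq ζ hζ o x)
      (eA1_injective F hq ζ hζ) y,
    map_trAlong (heckeAlphaBar Kbar (M * q) q) hq.pos (finrank_alpha hq) (Fintype.card_fin q)
      ((qExpand Kbar q).comp ((algebraMap (FN (M * q)) Om).comp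
        ((Sigma.sigma M q h : FN (M * q) ≃ₐ[Kbar] FN (M * q)) : FN (M * q) →+* FN (M * q))))
      (eA2 F ζ) (fun b x => eA2_alpha F ζ hζ.pow_eq_one b x) (eA2_injective F ζ hζ) y⟩

/-- The two expansions of the trace along `β`, as sums of conjugates. -/
theorem trB_eq (F : Plan.Frame M q h) (hq : q.Prime) (ζ : Kbarˣ) (hζ : IsPrimitiveRoot ζ q)
    (y : FN (M * q * q)) :
    qExpand Kbar q ((trAlong (heckeBetaBar Kbar (M * q) q) y : FN (M * q)) : Om) =
        ∑ b : Fin q, Fermat.Agent.S28.scale (ζ ^ (b : ℕ)) ((y : FN (M * q * q)) : Om) ∧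
      ((Sigma.sigma M q h (trAlong (heckeBetaBar Kbar (M * q) q) y) : FN (M * q)) : Om) =
        ∑ o, eB2 F hq ζ hζ o y :=
  ⟨map_trAlong (heckeBetaBar Kbar (M * q) q) hq.pos (finrank_beta hq) (Fintype.card_fin q)
      ((qExpand Kbar q).comp (algebraMap (FN (M * q)) Om)) (NormProd.embS (M * q) q ζ)
      (fun b x => NormProd.embS_beta ζ hζ.pow_eq_one b x) (NormProd.embS_injective ζ hζ) y,
    map_trAlong (heckeBetaBar Kbar (M * q) q) hq.pos (finrank_beta hq) (card_idx hq)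
      ((algebraMap (FN (M * q)) Om).comp
        ((Sigma.sigma M q h : FN (M * q) ≃ₐ[Kbar] FN (M * q)) : FN (M * q) →+* FN (M * q)))
      (eB2 F hq ζ hζ) (fun o x => eB2_beta F hq ζ hζ o x) (eB2_injective F hq ζ hζ) y⟩

/-- **The trace along `α`** of an element all of whose expansions are integral: it lies in
`Val.O2`, with the two reductions `(∑_{∞, mid} red (ε_i y), 0)`. -/
theorem trA_red (F : Plan.Frame M q h) (hq : q.Prime) (hA : A.LiesOverPrime q) (ζ : Kbarˣ)
    (hζ : IsPrimitiveRoot ζ q) (y : FN (M * q * q)) (hy : ∀ i, F.emb i y ∈ Ocal A) :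
    ∃ (h1 : ((trAlong (heckeAlphaBar Kbar (M * q) q) y : FN (M * q)) : Om) ∈ Ocal A)
      (h2 : ((Sigma.sigma M q h (trAlong (heckeAlphaBar Kbar (M * q) q) y) :
          FN (M * q)) : Om) ∈ Ocal A),
      red A ⟨_, h1⟩ = ∑ o, red A ⟨F.emb (cA hq ζ hζ o) y, hy _⟩ ∧ red A ⟨_, h2⟩ = 0 := by
  obtain ⟨e1, e2⟩ := trA_eq F hq ζ hζ y
  obtain ⟨hs1, hr1⟩ := red_sum A (fun o => eA1 F hq ζ hζ o y) (fun o => hy (cA hq ζ hζ o))
  have h1 : ((trAlong (heckeAlphaBar Kbar (M * q) q) y : FN (M * q)) : Om) ∈ Ocal A :=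
    e1 ▸ hs1
  obtain ⟨hs2, hr2⟩ := red_sum_scale A q hq hA ζ hζ.pow_eq_one (F.emb .zero y) (hy .zero)
  have hX : qExpand Kbar q ((Sigma.sigma M q h (trAlong (heckeAlphaBar Kbar (M * q) q) y) :
      FN (M * q)) : Om) ∈ Ocal A := e2 ▸ hs2
  obtain ⟨h2, hr2'⟩ := red_eq_zero_of_qExpand A q _ hX (by rw [red_congr A e2 hX hs2, hr2])
  refine ⟨h1, h2, ?_, hr2'⟩
  rw [red_congr A e1 h1 hs1, hr1]
  rfl

/-- **The trace along `β`**: it lies in `Val.O2`, with the two reductions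
`(0, ∑_{0, mid} red (ε_i y))`. -/
theorem trB_red (F : Plan.Frame M q h) (hq : q.Prime) (hA : A.LiesOverPrime q) (ζ : Kbarˣ)
    (hζ : IsPrimitiveRoot ζ q) (y : FN (M * q * q)) (hy : ∀ i, F.emb i y ∈ Ocal A) :
    ∃ (h1 : ((trAlong (heckeBetaBar Kbar (M * q) q) y : FN (M * q)) : Om) ∈ Ocal A)
      (h2 : ((Sigma.sigma M q h (trAlong (heckeBetaBar Kbar (M * q) q) y) :
          FN (M * q)) : Om) ∈ Ocal A),
      red A ⟨_, h1⟩ = 0 ∧ red A ⟨_, h2⟩ = ∑ o, red A ⟨F.emb (cB hq ζ hζ o) y, hy _⟩ := by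
  obtain ⟨e1, e2⟩ := trB_eq F hq ζ hζ y
  obtain ⟨hs1, hr1⟩ := red_sum_scale A q hq hA ζ hζ.pow_eq_one ((y : FN (M * q * q)) : Om)
    (hy .inf)
  have hX : qExpand Kbar q ((trAlong (heckeBetaBar Kbar (M * q) q) y : FN (M * q)) : Om)
      ∈ Ocal A := e1 ▸ hs1
  obtain ⟨h1, hr1'⟩ := red_eq_zero_of_qExpand A q _ hX (by rw [red_congr A e1 hX hs1, hr1])
  have hB : ∀ o, ∃ hm : eB2 F hq ζ hζ o y ∈ Ocal A,
      red A ⟨_, hm⟩ = red A ⟨F.emb (cB hq ζ hζ o) y, hy _⟩ := by
    intro o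
    cases o with
    | none => exact ⟨hy .zero, rfl⟩
    | some b =>
      have hξ : ((midOf hq ζ hζ b).1⁻¹) ^ q = 1 := by
        rw [inv_pow, (midOf hq ζ hζ b).2.pow_eq_one, inv_one]
      exact red_scale A q hq hA _ hξ (F.emb (.mid (midOf hq ζ hζ b)) y) (hy _)
  obtain ⟨hs2, hr2⟩ := red_sum A (fun o => eB2 F hq ζ hζ o y) (fun o => (hB o).1)
  have h2 : ((Sigma.sigma M q h (trAlong (heckeBetaBar Kbar (M * q) q) y) :
      FN (M * q)) : Om) ∈ Ocal A := e2 ▸ hs2
  refine ⟨h1, h2, hr1', ?_⟩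
  rw [red_congr A e2 h2 hs2, hr2]
  exact Finset.sum_congr rfl (fun o _ => (hB o).2)

end TraceRed

/-! ## Integrality over `Q̄[j]` -/

section Integral

/-- Transitivity of integrality over polynomial rings. -/
theorem isIntegral_adjoin_trans {k S : Type*} [CommRing k] [CommRing S] [Algebra k S]
    {a b x : S} (hx : IsIntegral (Algebra.adjoin k {a}) x)
    (ha : IsIntegral (Algebra.adjoin k {b}) a) : IsIntegral (Algebra.adjoin k {b}) x := by
  have hle : ∀ z ∈ Algebra.adjoin k {a}, IsIntegral (Algebra.adjoin k {b}) z := by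
    intro z hz
    induction hz using Algebra.adjoin_induction with
    | mem z hz =>
      rw [Set.mem_singleton_iff] at hz
      subst hz
      exact ha
    | algebraMap r =>
      exact isIntegral_algebraMap (R := Algebra.adjoin k {b}) (A := S)
        (x := algebraMap k (Algebra.adjoin k {b}) r)
    | add z w _ _ hz hw => exact hz.add hw
    | mul z w _ _ hz hw => exact hz.mul hw
  obtain ⟨p, hp, hpx⟩ := hx
  let φ : Algebra.adjoin k {a} →+* integralClosure (Algebra.adjoin k {b}) S :=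
    (algebraMap (Algebra.adjoin k {a}) S).codRestrict
      (integralClosure (Algebra.adjoin k {b}) S) (fun z => hle z z.2)
  have hxB : IsIntegral (integralClosure (Algebra.adjoin k {b}) S) x := by
    refine ⟨p.map φ, hp.map _, ?_⟩
    rw [Polynomial.eval₂_map]
    exact hpx
  exact isIntegral_trans (R := Algebra.adjoin k {b})
    (A := integralClosure (Algebra.adjoin k {b}) S) x hxB

variable {n : ℕ} [NeZero n]

/-- Integrality over `Q̄[x]` can be tested in `Q̄((T))`. -/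
theorem isIntegral_coe_iff (x s : FN n) :
    IsIntegral (Algebra.adjoin Kbar {(x : Om)}) (s : Om) ↔
      IsIntegral (Algebra.adjoin Kbar {x}) s :=
  BKappa.isIntegral_adjoin_map_iff (modularFunctionFieldBar n).val Subtype.val_injective x s

/-- Integrality over `Q̄[j]`, in `F_n` and in `Q̄((T))`. -/
theorem isIntegral_polyJ_iff (s : FN n) :
    IsIntegral (polyJ Kbar) (s : Om) ↔ IsIntegral (Algebra.adjoin Kbar {jBar n}) s := by
  rw [← isIntegral_coe_iff, Fermat.Agent.S37.Conj.coe_jBar]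
  rfl

variable {M q : ℕ} [NeZero M] [NeZero q] {h : Nat.Coprime M q}

theorem jBar_top_eq : jBar (M * q * q) = heckeAlphaBar Kbar (M * q) q (jBar (M * q)) :=
  (Sigma.alpha_jBar (M := M * q) (q := q)).symm

/-- The trace along `α` of an element integral over `Q̄[j]` is integral over `Q̄[j]`. -/
theorem isIntegral_trA (F : Plan.Frame M q h) (hq : q.Prime) (ζ : Kbarˣ)
    (hζ : IsPrimitiveRoot ζ q) (y : FN (M * q * q)) (hy : IsIntegral (polyJ Kbar) (y : Om)) :
    IsIntegral (polyJ Kbar)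
      ((trAlong (heckeAlphaBar Kbar (M * q) q) y : FN (M * q)) : Om) := by
  rw [(trA_eq F hq ζ hζ y).1]
  refine IsIntegral.sum _ (fun o _ => ?_)
  have h1 := BKappa.isIntegral_adjoin_map (F.emb (cA hq ζ hζ o)) (jBar (M * q * q)) y
    ((isIntegral_polyJ_iff y).mp hy)
  have h2 : F.emb (cA hq ζ hζ o) (jBar (M * q * q)) = jqModC Kbar := by
    rw [jBar_top_eq]
    exact (eA1_alpha F hq ζ hζ o (jBar (M * q))).trans (Fermat.Agent.S37.Conj.coe_jBar _)
  rw [h2] at h1
  exact h1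

/-- `j` is integral over `Q̄[j_{q²}]` (apply `w` to the Kronecker relation). -/
theorem isIntegral_jBar_over_jQQ (F : Plan.Frame M q h) :
    IsIntegral (Algebra.adjoin Kbar {heckeBetaBar Kbar (M * q) q (Sigma.jQ M q)})
      (heckeAlphaBar Kbar (M * q) q (jBar (M * q))) := by
  have h0 : IsIntegral (polyJ Kbar)
      ((heckeBetaBar Kbar (M * q) q (Sigma.jQ M q) : FN (M * q * q)) : Om) := by
    have e : ((heckeBetaBar Kbar (M * q) q (Sigma.jQ M q) : FN (M * q * q)) : Om) =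
        qExpand Kbar (q * q) (jqModC Kbar) := by
      rw [coe_heckeBetaBar, Sigma.jQ, coe_heckeBetaBar, Fermat.Agent.S37.Conj.coe_jBar,
        qExpand_qExpand]
    rw [e]
    exact PoleBound.isIntegral_jq (q * q)
  have h1 := (isIntegral_polyJ_iff _).mp h0
  rw [jBar_top_eq] at h1
  have h2 := BKappa.isIntegral_adjoin_map (F.w : FN (M * q * q) →ₐ[Kbar] FN (M * q * q)) _ _ h1
  have e1 : (F.w : FN (M * q * q) →ₐ[Kbar] FN (M * q * q))
      (heckeAlphaBar Kbar (M * q) q (jBar (M * q))) =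
      heckeBetaBar Kbar (M * q) q (Sigma.jQ M q) := by
    show F.w _ = _
    rw [F.w_alpha, Sigma.sigma_jBar]
  have e2 : (F.w : FN (M * q * q) →ₐ[Kbar] FN (M * q * q))
      (heckeBetaBar Kbar (M * q) q (Sigma.jQ M q)) =
      heckeAlphaBar Kbar (M * q) q (jBar (M * q)) := by
    show F.w _ = _
    rw [F.w_beta, Sigma.sigma_jQ]
  rw [e1, e2] at h2
  exact h2

/-- The family (B2) as algebra maps. -/
def eB2alg (F : Plan.Frame M q h) (hq : q.Prime) (ζ : Kbarˣ) (hζ : IsPrimitiveRoot ζ q) :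
    Option (Fin (q - 1)) → (FN (M * q * q) →ₐ[Kbar] Om)
  | none => F.emb .zero
  | some b => (Fermat.Agent.S28.Tower.scaleAlg (midOf hq ζ hζ b).1⁻¹).comp
      (F.emb (.mid (midOf hq ζ hζ b)))

theorem eB2alg_apply (F : Plan.Frame M q h) (hq : q.Prime) (ζ : Kbarˣ)
    (hζ : IsPrimitiveRoot ζ q) (o : Option (Fin (q - 1))) (x : FN (M * q * q)) :
    eB2alg F hq ζ hζ o x = eB2 F hq ζ hζ o x := by
  cases o <;> rfl

/-- `j_q` is integral over `Q̄[j]` in `F_{Mq}`. -/
theorem isIntegral_jQ : IsIntegral (Algebra.adjoin Kbar {jBar (M * q)}) (Sigma.jQ M q) := by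
  refine (isIntegral_polyJ_iff _).mp ?_
  have e : ((Sigma.jQ M q : FN (M * q)) : Om) = qExpand Kbar q (jqModC Kbar) := by
    rw [Sigma.jQ, coe_heckeBetaBar, Fermat.Agent.S37.Conj.coe_jBar]
  rw [e]
  exact PoleBound.isIntegral_jq q

/-- The trace along `β` of an element integral over `Q̄[j]` is integral over `Q̄[j]`. -/
theorem isIntegral_trB (F : Plan.Frame M q h) (hq : q.Prime) (ζ : Kbarˣ)
    (hζ : IsPrimitiveRoot ζ q) (y : FN (M * q * q)) (hy : IsIntegral (polyJ Kbar) (y : Om)) :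
    IsIntegral (polyJ Kbar)
      ((trAlong (heckeBetaBar Kbar (M * q) q) y : FN (M * q)) : Om) := by
  set t : FN (M * q) := trAlong (heckeBetaBar Kbar (M * q) q) y with ht
  -- `y` is integral over `Q̄[j_{q²}]`
  have hyJ : IsIntegral (Algebra.adjoin Kbar {heckeAlphaBar Kbar (M * q) q (jBar (M * q))}) y := by
    have := (isIntegral_polyJ_iff y).mp hy
    rwa [jBar_top_eq] at this
  have hyQ : IsIntegral (Algebra.adjoin Kbar {heckeBetaBar Kbar (M * q) q (Sigma.jQ M q)}) y :=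
    isIntegral_adjoin_trans hyJ (isIntegral_jBar_over_jQQ F)
  -- `σ t` is integral over `Q̄[j]`
  have hσt : IsIntegral (polyJ Kbar) ((Sigma.sigma M q h t : FN (M * q)) : Om) := by
    rw [(trB_eq F hq ζ hζ y).2]
    refine IsIntegral.sum _ (fun o _ => ?_)
    have h1 := BKappa.isIntegral_adjoin_map (eB2alg F hq ζ hζ o) _ y hyQ
    have h2 : eB2alg F hq ζ hζ o (heckeBetaBar Kbar (M * q) q (Sigma.jQ M q)) = jqModC Kbar := by
      rw [eB2alg_apply, eB2_beta, Sigma.sigma_jQ, Fermat.Agent.S37.Conj.coe_jBar]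
    rw [h2, eB2alg_apply] at h1
    exact h1
  -- apply `σ`
  have h3 := BKappa.isIntegral_adjoin_map
    ((Sigma.sigma M q h : FN (M * q) ≃ₐ[Kbar] FN (M * q)) : FN (M * q) →ₐ[Kbar] FN (M * q)) _ _
    ((isIntegral_polyJ_iff _).mp hσt)
  have e1 : ((Sigma.sigma M q h : FN (M * q) ≃ₐ[Kbar] FN (M * q)) :
      FN (M * q) →ₐ[Kbar] FN (M * q)) (jBar (M * q)) = Sigma.jQ M q := Sigma.sigma_jBar h
  have e2 : ((Sigma.sigma M q h : FN (M * q) ≃ₐ[Kbar] FN (M * q)) :
      FN (M * q) →ₐ[Kbar] FN (M * q)) (Sigma.sigma M q h t) = t := Sigma.sigma_sigma h hq t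
  rw [e1, e2] at h3
  exact (isIntegral_polyJ_iff t).mpr (isIntegral_adjoin_trans h3 isIntegral_jQ)

/-- An element of `F_{Mq}` integral over `Q̄[j]` lies in some `L(m E)` of the level `q`. -/
theorem exists_mem_pullRR_of_isIntegral {Ny : ℕ} [NeZero Ny] (hqN : q ∣ Ny)
    (Cj Cq : Divisor Kbar (FN Ny)) (hCj : Fermat.Agent.S34.Plan.IsPoleJ Ny Cj)
    (hCq : Fermat.Agent.S34.Plan.IsPoleJq Ny q hqN Cq)
    (t : FN (M * q)) (ht : IsIntegral (polyJ Kbar) (t : Om)) :
    ∃ m : ℕ, (t : Om) ∈ pullRR Ny (M * q) (m • (Cj + Cq)) := by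
  have hj : jqModC Kbar ∈ modularFunctionFieldBar (M * q) := by
    have := (jBar (M * q)).2
    rwa [Fermat.Agent.S37.Conj.coe_jBar] at this
  obtain ⟨m, hm⟩ := TauAdapt.exists_mem_WJ_of_isIntegral
    (L := modularFunctionFieldBar (M * q)) hj t.2 ht
  refine ⟨m, ?_⟩
  have h1 := CuspPole.mem_pullRR_of_mem_WJ (N := Ny) (N₂ := M * q) Cj hCj m
    (modularFunctionFieldBar (M * q)) le_rfl hm
  refine Fermat.Agent.S18.PullPlan.pullRR_mono ?_ h1
  intro P
  rw [Finsupp.smul_apply, Finsupp.smul_apply, Finsupp.add_apply, hCq P]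
  have h0 : (0 : ℤ) ≤ max 0 (-(P.ord (jBarLevel Ny q hqN))) := le_max_left _ _
  rw [smul_add]
  exact le_add_of_nonneg_right (smul_nonneg (Nat.zero_le m) h0)

/-- An element of `L(c E)`, `E = (j)_∞ + (j_q)_∞ + (j_{q²})_∞`, is integral over `Q̄[j]`. -/
theorem isIntegral_of_mem_pullRR (N : ℕ) [NeZero N] (N₂ : ℕ) [NeZero N₂] (hq : q ∣ N)
    (hqq : q * q ∣ N) (hdiv : N ∣ N₂) (E : Divisor Kbar (FN N))
    (hE : Plan.IsE3 N q hq hqq E) (c : ℕ) {g : Om} (hg : g ∈ pullRR N N₂ (c • E)) :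
    IsIntegral (polyJ Kbar) g := by
  have hB : ∀ v : Place Kbar (FN N),
      (c • E) v ≤ ((c * (1 + q + q * q) : ℕ) : ℤ) * max 0 (-(v.ord (jBar N))) := by
    intro v
    rw [Finsupp.smul_apply, hE v, nsmul_eq_mul]
    have h1 := PoleBound.pole_jBarLevel_le N q hq v
    have h2 := PoleBound.pole_jBarLevel_le N (q * q) hqq v
    have h0 : (0 : ℤ) ≤ max 0 (-(v.ord (jBar N))) := le_max_left _ _
    have hc : (0 : ℤ) ≤ (c : ℤ) := Int.natCast_nonneg c
    push_cast at h2 ⊢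
    nlinarith [mul_le_mul_of_nonneg_left h1 hc, mul_le_mul_of_nonneg_left h2 hc]
  have h1 := (InclPull.isIntegral_adjoin_of_mem_pullRR N N₂ hdiv
    (Fermat.Agent.S18.FibreCount.transcendental_jBar N) (c * (1 + q + q * q)) (c • E) hB hg).1
  rw [Fermat.Agent.S37.Conj.coe_jBar] at h1
  exact h1

end Integral

/-! ## The connectedness statement -/

section Main

variable (A : ValuationSubring Kbar) {N M q : ℕ} [NeZero N] [NeZero M] [NeZero q]
  {hq : q ∣ N} {hqq : q * q ∣ N} {O : Subring Om} {ρ : O →+* Plan.Rq A q}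

/-- **[CONN]** `Plan.ConnStmt`: a coordinatewise constant element of `B̄` at level `q²` is a
(diagonal) constant. -/
theorem connStmt {N₀ Ny : ℕ} [NeZero Ny] (hL : Fermat.Agent.S34.Plan.Levels q N₀ Ny M)
    (hA : A.LiesOverPrime q) {h : Nat.Coprime M q} (F : Plan.Frame M q h)
    (hS : Plan.IsSetup A F O ρ) (hdiv : N ∣ M * q * q) :
    Plan.ConnStmt A N M q hq hqq O ρ := by
  classical
  have hqp : q.Prime := hL.prime
  have : Fact q.Prime := ⟨hqp⟩
  have : CharP (kk A) q := charP_residueField_of_liesOverPrime A q hA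
  have hqN : q ∣ Ny := by
    rw [hL.N_eq]
    exact Dvd.intro_left N₀ rfl
  obtain ⟨ζ, hζ⟩ := Fermat.Agent.S37.KronMain.exists_primitiveRoot_unit q
  have hS2 := ValFinal.setup2 A hqN hL hA h
  obtain ⟨Cj, hCj⟩ := PlanTop.exists_isPoleJ Ny
  obtain ⟨Cq, hCq⟩ := PlanTop.exists_isPoleJq Ny q hqN
  have hEY : Fermat.Agent.S34.Plan.IsE Ny q hqN (Cj + Cq) := PlanTop.isE_add hCj hCq
  obtain ⟨ι, _, _, e₁, e₂, hNodes⟩ := FromSetup.nodeStmt hL hqN A hA hS2 (Cj + Cq) hEY
  -- the level-`q` diagonal statement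
  have hdiag : ∀ (t : FN (M * q)) (h1 : (t : Om) ∈ Ocal A)
      (h2 : ((Sigma.sigma M q h t : FN (M * q)) : Om) ∈ Ocal A) (a b : kk A),
      IsIntegral (polyJ Kbar) (t : Om) → red A ⟨_, h1⟩ = HahnSeries.C a →
      red A ⟨_, h2⟩ = HahnSeries.C b → a = b := by
    intro t h1 h2 a b hint ha hb
    obtain ⟨m, hm⟩ := exists_mem_pullRR_of_isIntegral hqN Cj Cq hCj hCq t hint
    obtain ⟨hO2, hRed⟩ := Val.Red_of_mem A M q (Sigma.sigma M q h) t.2 h1 h2
    refine Lift.diag_of_isNodes (Cj + Cq) e₁ e₂ hNodes m a b ⟨⟨(t : Om), hO2⟩, hm, ?_⟩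
    rw [hRed, ha, hb]
  intro E hE c g hg hconst
  have hgF : (g : Om) ∈ modularFunctionFieldBar (M * q * q) := hS.mem_field g
  set y : FN (M * q * q) := ⟨(g : Om), hgF⟩ with hy
  have hcoe : ∀ m : ℕ, ((y ^ m : FN (M * q * q)) : Om) = (g : Om) ^ m := fun m =>
    SubmonoidClass.coe_pow y m
  have hyO : ∀ m : ℕ, ((y ^ m : FN (M * q * q)) : Om) ∈ O := fun m => by
    rw [hcoe]
    exact pow_mem g.2 m
  choose κ hκ using hconst
  have hpow : ∀ (m : ℕ) (i : Plan.Coord q), ∃ hm : F.emb i (y ^ m) ∈ Ocal A,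
      red A ⟨_, hm⟩ = HahnSeries.C (κ i ^ m) := by
    intro m i
    have hmi := (hS.mem_iff (y ^ m)).mp (hyO m) i
    refine ⟨hmi, ?_⟩
    rw [← hS.ρ_apply (y ^ m) (hyO m) i hmi]
    have e : (⟨((y ^ m : FN (M * q * q)) : Om), hyO m⟩ : O) = g ^ m := Subtype.ext (hcoe m)
    rw [e, map_pow, Pi.pow_apply, hκ i, ← map_pow]
  have hint : ∀ m : ℕ, IsIntegral (polyJ Kbar) ((y ^ m : FN (M * q * q)) : Om) := by
    intro m
    have h0 : IsIntegral (polyJ Kbar) (g : Om) :=
      isIntegral_of_mem_pullRR N (M * q * q) hq hqq hdiv E hE c hg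
    rw [hcoe]
    exact h0.pow m
  -- the power sums vanish
  have hsumA : ∀ m : ℕ, 0 < m → ∑ o, κ (cA hqp ζ hζ o) ^ m = 0 := by
    intro m _
    obtain ⟨h1, h2, hr1, hr2⟩ := trA_red A F hqp hA ζ hζ (y ^ m) (fun i => (hpow m i).1)
    have hr1' : red A ⟨_, h1⟩ = HahnSeries.C (∑ o, κ (cA hqp ζ hζ o) ^ m) := by
      rw [hr1, map_sum]
      exact Finset.sum_congr rfl (fun o _ => (hpow m _).2)
    have hr2' : red A ⟨_, h2⟩ = HahnSeries.C 0 := by rw [hr2, map_zero]
    exact hdiag _ h1 h2 _ _ (isIntegral_trA F hqp ζ hζ _ (hint m)) hr1' hr2'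
  have hsumB : ∀ m : ℕ, 0 < m → ∑ o, κ (cB hqp ζ hζ o) ^ m = 0 := by
    intro m _
    obtain ⟨h1, h2, hr1, hr2⟩ := trB_red A F hqp hA ζ hζ (y ^ m) (fun i => (hpow m i).1)
    have hr2' : red A ⟨_, h2⟩ = HahnSeries.C (∑ o, κ (cB hqp ζ hζ o) ^ m) := by
      rw [hr2, map_sum]
      exact Finset.sum_congr rfl (fun o _ => (hpow m _).2)
    have hr1' : red A ⟨_, h1⟩ = HahnSeries.C 0 := by rw [hr1, map_zero]
    exact (hdiag _ h1 h2 _ _ (isIntegral_trB F hqp ζ hζ _ (hint m)) hr1' hr2').symm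
  have hcard : (Finset.univ : Finset (Option (Fin (q - 1)))).card = q := by
    rw [Finset.card_univ, card_idx hqp]
  have hA' := ConnTrace.eq_of_powerSum_eq_zero q Finset.univ hcard
    (fun o => κ (cA hqp ζ hζ o)) (fun m hm => hsumA m hm)
  have hB' := ConnTrace.eq_of_powerSum_eq_zero q Finset.univ hcard
    (fun o => κ (cB hqp ζ hζ o)) (fun m hm => hsumB m hm)
  have b0 : Fin (q - 1) := ⟨0, by have := hqp.two_le; omega⟩
  refine ⟨κ .inf, fun i => ?_⟩
  rw [hκ i]
  congr 1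
  rcases exists_cA_or_cB hqp ζ hζ i with ⟨o, rfl⟩ | ⟨o, rfl⟩
  · exact hA' o (Finset.mem_univ _) none (Finset.mem_univ _)
  · have h1 := hB' o (Finset.mem_univ _) (some b0) (Finset.mem_univ _)
    have h2 := hA' (some b0) (Finset.mem_univ _) none (Finset.mem_univ _)
    exact h1.trans h2

/-- **[CONN] at all levels**: the statement `LiftAllOf.ConnAllStmt` (unfolded). -/
theorem connAllStmt :
    ∀ (N₀ N' M q : ℕ) [NeZero N'] [NeZero M] [NeZero q] (hq' : q ∣ N') (h : Nat.Coprime M q),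
      q.Prime → Nat.Coprime N₀ q → N' = N₀ * q → M = Fermat.Agent.S34.Plan.aux q * N₀ →
      ∀ A : ValuationSubring Kbar, A.LiesOverPrime q →
      ∀ (F : Plan.Frame M q h) (O : Subring Om) (ρ : O →+* Plan.Rq A q),
        Plan.IsSetup A F O ρ →
        Plan.ConnStmt A (N' * q) M q (Dvd.intro_left N' rfl) (Nat.mul_dvd_mul_right hq' q)
          O ρ := by
  intro N₀ N' M q _ _ _ hq' h hqp hcop hN' hM A hA F O ρ hS
  have hN₀ : 0 < N₀ := by
    rcases Nat.eq_zero_or_pos N₀ with h0 | h0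
    · exfalso
      rw [h0, zero_mul] at hN'
      exact NeZero.ne N' hN'
    · exact h0
  have hL : Fermat.Agent.S34.Plan.Levels q N₀ N' M :=
    ⟨hqp, hN₀, (Nat.Prime.coprime_iff_not_dvd hqp).mp hcop.symm, hN', hM⟩
  have hdiv : N' * q ∣ M * q * q := ⟨Fermat.Agent.S34.Plan.aux q, by rw [hN', hM]; ring⟩
  exact connStmt A hL hA F hS hdiv

end Main

end Fermat.Agent.S36.ConnInst
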