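/-
P8 / S36, block [DIM] glue (helper49): **from a reduction table to `κ`-independence**, for the
level-`q²` frame — the neutral core of `S36/DimInst` (no dependence on the explicit family).

Given a frame `F`, a setup `(O, ρ)`, a primitive `q`-th root of unity `ζ`, and elements
`wI`, `w0 l` (`l < q²`), `wM m` (`m < q - 1`) of `F_{Mq²}` whose `q + 1` expansions are integral
with reductions

    wI   ↦ (1 ; 0 ; 0, …, 0),     w0 l ↦ (0 ; j̄^l ; 0, …, 0),     wM m ↦ (0 ; 0 ; (yM u m)_u)

(the middle coordinate `u < q - 1` is `ξ = ζ^(u+1)`), and the independence statement `hind` for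
the values, the family `w : Option (Fin (q²) ⊕ Fin (q - 1)) → F_{Mq²}` lies in `O`, has `q² + q`
members, and is independent over any `κ → k((T))` acting through
`a ↦ (a ; a(T^(q²)) ; a, …, a)`.
-/
import Mathlib
import Fermat.Agent.S36.SetupQ2
import Fermat.Agent.S36.CoordFin

set_option autoImplicit false
set_option linter.style.haveILetI false
set_option linter.unusedSectionVars false

noncomputable section

namespace Fermat.Agent.S36.DimCore

open ModularCurve AlgebraicCurve Fermat.Agent.S24 Fermat.Agent.S18 Fermat.Agent.S18.Content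
  Fermat.Agent.S18.Plan Fermat.Agent.S34 Fermat.Agent.S36.Plan

variable {M q : ℕ} [NeZero M] [NeZero q] {h : Nat.Coprime M q}
variable {A : ValuationSubring Kbar} {F : Frame M q h} {O : Subring Om} {ρ : O →+* Rq A q}

/-- `x` is integral with reduction `y`. -/
def RedEq (A : ValuationSubring Kbar) (x : Om) (y : Omk A) : Prop :=
  ∃ hx : x ∈ Ocal A, red A ⟨x, hx⟩ = y

theorem RedEq.mem {x : Om} {y : Omk A} (hxy : RedEq A x y) : x ∈ Ocal A := hxy.1

/-- A statement over all coordinates from `∞`, `0` and the middle coordinates `ζ^(u+1)`. -/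
theorem forall_coord (hq : q.Prime) (ζ : Kbarˣ) (hζ : IsPrimitiveRoot ζ q)
    {P : Coord q → Prop} (hI : P .inf) (h0 : P .zero)
    (hM : ∀ u : Fin (q - 1), P (.mid (CoordFin.midEquiv hq ζ hζ u))) : ∀ c, P c := by
  intro c
  cases c with
  | inf => exact hI
  | zero => exact h0
  | mid ξ =>
      obtain ⟨u, rfl⟩ := (CoordFin.midEquiv hq ζ hζ).surjective ξ
      exact hM u

/-- Integral expansions ⟹ membership in `O`. -/
theorem mem_of_forall (hS : IsSetup A F O ρ) (x : FN (M * q * q))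
    (hx : ∀ c : Coord q, F.emb c x ∈ Ocal A) : (x : Om) ∈ O :=
  (hS.mem_iff x).mpr hx

/-- The value of `ρ` at a coordinate from the table. -/
theorem rho_of_redEq (hS : IsSetup A F O ρ) (x : FN (M * q * q)) (hx : (x : Om) ∈ O)
    (c : Coord q) {y : Omk A} (hc : RedEq A (F.emb c x) y) : ρ ⟨(x : Om), hx⟩ c = y := by
  obtain ⟨h', hy⟩ := hc
  rw [hS.ρ_apply x hx c h', hy]

/-- The family `wI`, `w0 l`, `wM m`, indexed by `Option (Fin (q²) ⊕ Fin (q - 1))`. -/
def fam (wI : FN (M * q * q)) (w0 : Fin (q * q) → FN (M * q * q))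
    (wM : Fin (q - 1) → FN (M * q * q)) : Option (Fin (q * q) ⊕ Fin (q - 1)) → FN (M * q * q) :=
  fun i => i.elim wI (Sum.elim w0 wM)

@[simp] theorem fam_none (wI : FN (M * q * q)) (w0 : Fin (q * q) → FN (M * q * q))
    (wM : Fin (q - 1) → FN (M * q * q)) : fam wI w0 wM none = wI := rfl

@[simp] theorem fam_inl (wI : FN (M * q * q)) (w0 : Fin (q * q) → FN (M * q * q))
    (wM : Fin (q - 1) → FN (M * q * q)) (l : Fin (q * q)) :
    fam wI w0 wM (some (Sum.inl l)) = w0 l := rfl

@[simp] theorem fam_inr (wI : FN (M * q * q)) (w0 : Fin (q * q) → FN (M * q * q))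
    (wM : Fin (q - 1) → FN (M * q * q)) (m : Fin (q - 1)) :
    fam wI w0 wM (some (Sum.inr m)) = wM m := rfl

/-- The number of members: `q² + q`. -/
theorem card_index (hq : q.Prime) :
    Fintype.card (Option (Fin (q * q) ⊕ Fin (q - 1))) = q * q + q := by
  rw [Fintype.card_option, Fintype.card_sum, Fintype.card_fin, Fintype.card_fin]
  have := hq.pos
  omega

section Table

variable (hq : q.Prime) (ζ : Kbarˣ) (hζ : IsPrimitiveRoot ζ q)
variable (wI : FN (M * q * q)) (w0 : Fin (q * q) → FN (M * q * q))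
  (wM : Fin (q - 1) → FN (M * q * q)) (yM : Fin (q - 1) → Fin (q - 1) → Omk A)

/-- **The reduction table** of the family (`yM u m` = the reduction of `wM m` at the middle
coordinate `ζ^(u+1)`). -/
structure Table : Prop where
  I_inf : RedEq A (F.emb .inf wI) 1
  I_zero : RedEq A (F.emb .zero wI) 0
  I_mid : ∀ u, RedEq A (F.emb (.mid (CoordFin.midEquiv hq ζ hζ u)) wI) 0
  Z_inf : ∀ l, RedEq A (F.emb .inf (w0 l)) 0
  Z_zero : ∀ l, RedEq A (F.emb .zero (w0 l)) (jk A ^ (l : ℕ))
  Z_mid : ∀ l u, RedEq A (F.emb (.mid (CoordFin.midEquiv hq ζ hζ u)) (w0 l)) 0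
  M_inf : ∀ m, RedEq A (F.emb .inf (wM m)) 0
  M_zero : ∀ m, RedEq A (F.emb .zero (wM m)) 0
  M_mid : ∀ m u, RedEq A (F.emb (.mid (CoordFin.midEquiv hq ζ hζ u)) (wM m)) (yM u m)

variable {hq ζ hζ wI w0 wM yM}

/-- The family lies in `O`. -/
theorem Table.mem (hS : IsSetup A F O ρ) (T : Table (A := A) (F := F) hq ζ hζ wI w0 wM yM)
    (i : Option (Fin (q * q) ⊕ Fin (q - 1))) : ((fam wI w0 wM i : FN (M * q * q)) : Om) ∈ O := by
  refine mem_of_forall hS _ ?_
  rcases i with _ | l | m
  · exact forall_coord hq ζ hζ T.I_inf.mem T.I_zero.mem (fun u => (T.I_mid u).mem)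
  · exact forall_coord hq ζ hζ (T.Z_inf l).mem (T.Z_zero l).mem (fun u => (T.Z_mid l u).mem)
  · exact forall_coord hq ζ hζ (T.M_inf m).mem (T.M_zero m).mem (fun u => (T.M_mid m u).mem)

/-- **Independence** of the family over `κ`, acting through `a ↦ (a ; a(T^(q²)) ; a, …, a)`. -/
theorem Table.ind (hS : IsSetup A F O ρ) (T : Table (A := A) (F := F) hq ζ hζ wI w0 wM yM)
    (hind : ∀ (c0 : Fin (q * q) → Omk A) (cM : Fin (q - 1) → Omk A),
      ∑ l, qExpand (kk A) (q * q) (c0 l) * jk A ^ (l : ℕ) = 0 →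
      (∀ u : Fin (q - 1), ∑ m, cM m * yM u m = 0) → (∀ l, c0 l = 0) ∧ ∀ m, cM m = 0)
    {κ : Type*} [Zero κ] (tw : κ → Rq A q) (val : κ → Omk A)
    (hval : ∀ a, val a = 0 → a = 0)
    (htwI : ∀ a, tw a .inf = val a)
    (htw0 : ∀ a, tw a .zero = qExpand (kk A) (q * q) (val a))
    (htwM : ∀ a ξ, tw a (.mid ξ) = val a)
    (a : Option (Fin (q * q) ⊕ Fin (q - 1)) → κ)
    (hsum : ∑ i, tw (a i) * ρ ⟨_, T.mem hS i⟩ = 0) : ∀ i, a i = 0 := by
  -- the relation, coordinate by coordinate
  have key : ∀ c : Coord q,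
      tw (a none) c * ρ ⟨_, T.mem hS none⟩ c +
        (∑ l : Fin (q * q), tw (a (some (Sum.inl l))) c * ρ ⟨_, T.mem hS (some (Sum.inl l))⟩ c +
          ∑ m : Fin (q - 1),
            tw (a (some (Sum.inr m))) c * ρ ⟨_, T.mem hS (some (Sum.inr m))⟩ c) = 0 := by
    intro c
    have e := congrFun hsum c
    rw [Finset.sum_apply, Fintype.sum_option, Fintype.sum_sum_type] at e
    exact e
  -- the values of `ρ`
  have rI : ∀ (c : Coord q) {y : Omk A}, RedEq A (F.emb c wI) y →
      ρ ⟨_, T.mem hS none⟩ c = y := fun c _ hy => rho_of_redEq hS wI (T.mem hS none) c hy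
  have rZ : ∀ (l : Fin (q * q)) (c : Coord q) {y : Omk A}, RedEq A (F.emb c (w0 l)) y →
      ρ ⟨_, T.mem hS (some (Sum.inl l))⟩ c = y :=
    fun l c _ hy => rho_of_redEq hS (w0 l) (T.mem hS (some (Sum.inl l))) c hy
  have rM : ∀ (m : Fin (q - 1)) (c : Coord q) {y : Omk A}, RedEq A (F.emb c (wM m)) y →
      ρ ⟨_, T.mem hS (some (Sum.inr m))⟩ c = y :=
    fun m c _ hy => rho_of_redEq hS (wM m) (T.mem hS (some (Sum.inr m))) c hy
  -- `∞`
  have hI : val (a none) = 0 := by
    have e := key .inf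
    rw [rI .inf T.I_inf, mul_one,
      Finset.sum_eq_zero (fun l _ => by rw [rZ l .inf (T.Z_inf l), mul_zero]),
      Finset.sum_eq_zero (fun m _ => by rw [rM m .inf (T.M_inf m), mul_zero]),
      add_zero, add_zero, htwI] at e
    exact e
  -- `0`
  have h0 : ∑ l : Fin (q * q),
      qExpand (kk A) (q * q) (val (a (some (Sum.inl l)))) * jk A ^ (l : ℕ) = 0 := by
    have e := key .zero
    rw [rI .zero T.I_zero, mul_zero,
      Finset.sum_eq_zero (s := Finset.univ) (f := fun m : Fin (q - 1) =>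
          tw (a (some (Sum.inr m))) Coord.zero * ρ ⟨_, T.mem hS (some (Sum.inr m))⟩ Coord.zero)
        (fun m _ => by rw [rM m .zero (T.M_zero m), mul_zero]),
      add_zero, zero_add] at e
    rw [← e]
    exact Finset.sum_congr rfl (fun l _ => by rw [rZ l .zero (T.Z_zero l), htw0])
  -- the middle coordinates
  have hM : ∀ u : Fin (q - 1), ∑ m : Fin (q - 1), val (a (some (Sum.inr m))) * yM u m = 0 := by
    intro u
    have e := key (.mid (CoordFin.midEquiv hq ζ hζ u))
    rw [rI _ (T.I_mid u), mul_zero,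
      Finset.sum_eq_zero (s := Finset.univ) (f := fun l : Fin (q * q) =>
          tw (a (some (Sum.inl l))) (Coord.mid (CoordFin.midEquiv hq ζ hζ u)) *
            ρ ⟨_, T.mem hS (some (Sum.inl l))⟩ (Coord.mid (CoordFin.midEquiv hq ζ hζ u)))
        (fun l _ => by rw [rZ l _ (T.Z_mid l u), mul_zero]),
      zero_add, zero_add] at e
    rw [← e]
    exact Finset.sum_congr rfl (fun m _ => by rw [rM m _ (T.M_mid m u), htwM])
  obtain ⟨hc0, hcM⟩ := hind (fun l => val (a (some (Sum.inl l))))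
    (fun m => val (a (some (Sum.inr m)))) h0 hM
  intro i
  rcases i with _ | l | m
  · exact hval _ hI
  · exact hval _ (hc0 l)
  · exact hval _ (hcM m)

end Table

end Fermat.Agent.S36.DimCore

end
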