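import Mathlib
import Fermat.Agent.S36.NormProd
import Fermat.Agent.S36.DegNCDeg
import Fermat.Agent.S34.ValOne
import Fermat.Agent.S34.FrobCoeff
import Fermat.Agent.S34.CharBad
import Fermat.Agent.Lib.KroneckerCong
import Fermat.Agent.S36.Plan

/-!
# S36 / P8 — (HB) at level `M q²`: reductions of `F_{M q²} ∩ Ocal` lie in `F_{M,k}` (helper55)

`q` prime, `M` a good level (`q ∤ M`), `A` a valuation subring of `Q̄` over `q`.

* `redInto_q2` : `CharBad.RedInto A (M * q * q) M`, **unconditionally** — no orthonormal family,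
  no `(Dim)`, no frame.  For `y ∈ F_{M q²} ∩ Ocal` with reduction `a`, the norm `N_β y` along
  `β : F_{M q} → F_{M q²}` lies in `F_{M q} ∩ Ocal` and reduces to the coefficientwise Frobenius
  of `a` (`S36/NormProd`); by (HB) at level `M q` (`S34/ValOne.redInto`) this lies in `F_{M,k}`,
  and `F_{M,k}` is stable under the coefficientwise Frobenius root (`S34/FrobCoeff`).
* `range_inf_zero` : in the frame of `S36/Plan`, the `∞`- and `0`-coordinates of EVERY `g ∈ O`
  lie in `F_{M,k}` (the `∞`/`0` half of `K0Plan.RangeStmt`, without `Fixed`).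
-/

set_option autoImplicit false

noncomputable section

namespace Fermat.Agent.S36.RedIntoQ2

open ModularCurve AlgebraicCurve Fermat.Agent.S24 Fermat.Agent.S18 Fermat.Agent.S18.Content
  Fermat.Agent.S18.Plan Fermat.Agent.S34 Fermat.Agent.S36.Plan

variable (A : ValuationSubring Kbar) (M q : ℕ) [NeZero M] [NeZero q]

omit [NeZero M] in
/-- In characteristic `q`, a Laurent series whose coefficientwise Frobenius lies in `F_{M,k}`
lies in `F_{M,k}`. -/
theorem mem_Fk_of_coeffMap_frobenius [Fact q.Prime] [CharP (kk A) q] {a : Omk A}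
    (ha : coeffMap (frobenius (kk A) q) a ∈ Fk A M) : a ∈ Fk A M := by
  obtain ⟨a', ha', hpow⟩ := FrobCoeff.exists_root_Fk A q M ha
  have hchar : CharP (Omk A) q :=
    charP_of_injective_ringHom (f := (HahnSeries.C : kk A →+* Omk A)) HahnSeries.C_injective q
  have h2 : a' ^ q = a ^ q := by
    rw [hpow, Fermat.Agent.Lib.KroneckerCong.pow_char_eq q a]
    rfl
  have h3 : a' = a := frobenius_inj (Omk A) q h2
  rw [← h3]
  exact ha'

/-- **(HB) at level `M q²`**: the reductions of `F_{M q²} ∩ Ocal A` lie in `F_{M,k}`. -/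
theorem redInto_q2 (hq : q.Prime) (hqM : ¬ q ∣ M) (hA : A.LiesOverPrime q) :
    CharBad.RedInto A (M * q * q) M := by
  intro y hy
  have : Fact q.Prime := ⟨hq⟩
  have : CharP (kk A) q := charP_residueField_of_liesOverPrime A q hA
  have hfr : finrankAlong Kbar (heckeBetaBar Kbar (M * q) q) = q :=
    Fermat.Agent.S36.DegNCDeg.finrankAlong_beta_of_dvd q hq (M * q) (Dvd.intro_left M rfl)
  obtain ⟨hn, hred⟩ := Fermat.Agent.S36.NormProd.red_norm_beta_of_degree (M * q) q A hq hA hfr
    (frobenius (kk A) q) (fun x => frobenius_def q x) (⟨(y : Om), hy⟩ : FN (M * q * q)) y.2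
  have h1 := ValOne.redInto A M q hq hqM hA ⟨_, hn⟩ (SetLike.coe_mem _)
  rw [hred] at h1
  exact mem_Fk_of_coeffMap_frobenius A M q h1

variable {A M q}

/-- The `∞`- and `0`-coordinates of every element of `O` lie in `F_{M,k}`. -/
theorem range_inf_zero (hq : q.Prime) (hA : A.LiesOverPrime q) {h : Nat.Coprime M q}
    {F : Frame M q h} {O : Subring Om} {ρ : O →+* Rq A q} (hS : IsSetup A F O ρ) (g : O) :
    ρ g Coord.inf ∈ Fk A M ∧ ρ g Coord.zero ∈ Fk A M := by
  have hqM : ¬ q ∣ M := fun hd => hq.one_lt.ne' (Nat.eq_one_of_dvd_coprimes h hd dvd_rfl)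
  have hR := redInto_q2 A M q hq hqM hA
  set x : FN (M * q * q) := ⟨(g : Om), hS.mem_field g⟩ with hx
  have hxO : (x : Om) ∈ O := g.2
  have hint := (hS.mem_iff x).1 hxO
  have hg : (⟨(x : Om), hxO⟩ : O) = g := Subtype.ext rfl
  refine ⟨?_, ?_⟩
  · have h1 := hS.ρ_apply x hxO Coord.inf (hint Coord.inf)
    rw [hg] at h1
    rw [h1]
    exact hR ⟨_, hint Coord.inf⟩ x.2
  · have h1 := hS.ρ_apply x hxO Coord.zero (hint Coord.zero)
    rw [hg] at h1
    rw [h1]
    exact hR ⟨_, hint Coord.zero⟩ (F.w x).2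

end Fermat.Agent.S36.RedIntoQ2

end
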