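import Mathlib
import Fermat.Agent.S36.K0Plan
import Fermat.Agent.S36.DiagCond
import Fermat.Agent.S36.LevelRed
import Fermat.Agent.S36.DimCore
import Fermat.Agent.S34.FkFrob
import Fermat.Agent.S36.RedIntoQ2
import Fermat.Agent.S36.ConnInst

/-!
# S36 / P8 — [K0-RANGE]: the provider of `K0Plan.RangeStmt` (helper78)

`K0Plan.RangeStmt A M q O ρ ξ₀`: for `g ∈ O` fixed by the inertia group of `A`, the three
reductions `ρ g ∞`, `ρ g (mid ξ₀)`, `ρ g 0` lie in `F_{M,k} = Fk A M`.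

Proof.  Write `g = ∑ c_i w_i` in an orthonormal family `w` with `c_i ∈ F_M ∩ Ocal`
(`hcoeff`, a by-product of the [DIM] layer).  As `ρ c = (c̄; c̄, …, c̄; c̄(T^{q²}))` for
`c ∈ F_M ∩ Ocal` (`hV5` = `LevelRed.rho_alpha2`):

* `ρ g ∞ = ∑ c̄_i ρ(w_i)_∞ ∈ F_{M,k}` and `ρ g 0 = ∑ c̄_i(T^{q²}) ρ(w_i)_0 ∈ F_{M,k}`
  (stability of `F_{M,k}` under `T ↦ T^q`, `S34/FkFrob`) — for EVERY `g ∈ O`;
* at the middle coordinates `ρ(w_i)_ξ = b_i t(ξ)^{e_i}` (`e_i < n`, `n` distinct nodes), so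
  `ρ g (mid ξ) = ∑_m t(ξ)^m y_m` with `y_m = ∑_{e_i = m} c̄_i b_i`; for `g` fixed by inertia the
  left side does not depend on `ξ` ([MID-EQ]), and the finite Vandermonde
  (`DiagCond.diag_eq_of_forall`) gives `ρ g (mid ξ) = y_0 ∈ F_{M,k}`.

Exports:
* `eq_sum_filter`        : the abstract Vandermonde step;
* `rangeStmt_of`         : hypothesis form, frame-free;
* `rangeStmt_of_setup`   : for a setup `IsSetup A F O ρ` (`hV5`, [MID-EQ], `hΦ`, `hredM` discharged);
* `rangeStmt_of_table`   : for a reduction table `DimCore.Table` with middle values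
                           `((u + 1) Θ)^m` (the shape of `FamQ2.redEq_fam`).
-/

set_option autoImplicit false
set_option maxHeartbeats 400000
set_option synthInstance.maxHeartbeats 400000

noncomputable section

namespace Fermat.Agent.S36.K0Range

open ModularCurve AlgebraicCurve Fermat.Agent.S24 Fermat.Agent.S18 Fermat.Agent.S18.Content
  Fermat.Agent.S18.Plan Fermat.Agent.S34 Fermat.Agent.S36.Plan

/-! ## The abstract Vandermonde step -/

/-- If `∑_i t_j^{e_i} • x_i = v` for `n` distinct scalars `t_j` and exponents `e_i < n`, then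
`v` is the sum of the `x_i` with `e_i = 0`. -/
theorem eq_sum_filter {K V : Type*} [Field K] [AddCommGroup V] [Module K V] {ι : Type*}
    [Fintype ι] {n : ℕ} (hn : 0 < n) (t : Fin n → K) (ht : Function.Injective t) (e : ι → ℕ)
    (he : ∀ i, e i < n) (x : ι → V) (v : V) (h : ∀ j, ∑ i, t j ^ e i • x i = v) :
    v = ∑ i ∈ Finset.univ.filter (fun i => e i = 0), x i := by
  classical
  obtain ⟨m, rfl⟩ := Nat.exists_eq_succ_of_ne_zero hn.ne'
  let g : ι → Fin (m + 1) := fun i => ⟨e i, he i⟩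
  let y : Fin (m + 1) → V := fun k => ∑ i ∈ Finset.univ.filter (fun i => g i = k), x i
  have hy : ∀ j, ∑ k : Fin (m + 1), t j ^ (k : ℕ) • y k = v := by
    intro j
    rw [← h j, ← Finset.sum_fiberwise (s := Finset.univ) (g := g)]
    refine Finset.sum_congr rfl fun k _ => ?_
    rw [Finset.smul_sum]
    refine Finset.sum_congr rfl fun i hi => ?_
    have hik : g i = k := (Finset.mem_filter.mp hi).2
    have : e i = (k : ℕ) := congrArg Fin.val hik
    rw [this]
  have h0 := (DiagCond.diag_eq_of_forall t ht y v hy).1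
  rw [← h0]
  refine Finset.sum_congr ?_ fun _ _ => rfl
  ext i
  simp only [Finset.mem_filter, Finset.mem_univ, true_and]
  constructor
  · intro hi
    exact congrArg Fin.val hi
  · intro hi
    exact Fin.ext hi

/-! ## Hypothesis form -/

section Generic

variable {A : ValuationSubring Kbar} {M q : ℕ} [NeZero M] [NeZero q]
  {O : Subring Om} {ρ : O →+* Rq A q}

omit [NeZero M] in
/-- **[K0-RANGE], hypothesis form.**  `w` a family of `O` in which every element of `O` has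
coordinates in `F_M ∩ Ocal` (`hcoeff`); `hV5` the reduction of the level-`M` functions;
`ρ(w_i)_∞, ρ(w_i)_0 ∈ F_{M,k}`; `ρ(w_i)_{ξ_j} = b_i · t_j^{e_i}` at `n` middle coordinates `ξ_j`
with distinct nodes `t_j`, `e_i < n`, and `b_i ∈ F_{M,k}` when `e_i = 0`; [MID-EQ]. -/
theorem rangeStmt_of {ι : Type*} [Fintype ι] (w : ι → O)
    (hredM : ∀ y : Ocal A, (y : Om) ∈ modularFunctionFieldBar M → red A y ∈ Fk A M)
    (hΦ : ∀ a : Omk A, a ∈ Fk A M → qExpand (kk A) q a ∈ Fk A M)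
    (hV5 : ∀ c : Om, c ∈ modularFunctionFieldBar M → ∀ hO : c ∈ Ocal A, ∃ hc : c ∈ O,
      ρ ⟨c, hc⟩ = PullRed.pullA A q (red A ⟨c, hO⟩, qExpand (kk A) q (red A ⟨c, hO⟩)))
    (hcoeff : ∀ g : O, ∃ c : ι → Om, (∀ i, c i ∈ modularFunctionFieldBar M ∧ c i ∈ Ocal A) ∧
      (g : Om) = ∑ i, c i * (w i : Om))
    (hwI : ∀ i, ρ (w i) Coord.inf ∈ Fk A M) (hw0 : ∀ i, ρ (w i) Coord.zero ∈ Fk A M)
    {n : ℕ} (hn : 0 < n) (ξs : Fin n → MidIdx q) (t : Fin n → Omk A)
    (ht : Function.Injective t) (e : ι → ℕ) (he : ∀ i, e i < n) (b : ι → Omk A)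
    (hb : ∀ i, e i = 0 → b i ∈ Fk A M)
    (hwM : ∀ i j, ρ (w i) (Coord.mid (ξs j)) = b i * t j ^ e i)
    (hMid : K0Plan.MidEqStmt A q O ρ) (ξ₀ : MidIdx q) : K0Plan.RangeStmt A M q O ρ ξ₀ := by
  classical
  intro g hg
  obtain ⟨c, hc, hgc⟩ := hcoeff g
  have hcρ := fun i => hV5 (c i) (hc i).1 (hc i).2
  choose hcO hcred using hcρ
  have hg' : g = ∑ i, (⟨c i, hcO i⟩ : O) * w i := by
    apply Subtype.ext
    rw [hgc, AddSubmonoidClass.coe_finsetSum]
    exact Finset.sum_congr rfl fun i _ => rfl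
  have hρ : ρ g = ∑ i, PullRed.pullA A q
      (red A ⟨c i, (hc i).2⟩, qExpand (kk A) q (red A ⟨c i, (hc i).2⟩)) * ρ (w i) := by
    rw [hg', map_sum]
    exact Finset.sum_congr rfl fun i _ => by rw [map_mul, hcred]
  have hr : ∀ i, red A ⟨c i, (hc i).2⟩ ∈ Fk A M := fun i => hredM ⟨_, (hc i).2⟩ (hc i).1
  refine ⟨?_, ?_, ?_⟩
  · rw [hρ, Finset.sum_apply]
    refine sum_mem fun i _ => ?_
    rw [Pi.mul_apply, PullRed.pullA_inf]
    exact mul_mem (hr i) (hwI i)
  · have hv : ∀ j : Fin n, ∑ i, t j ^ e i • (red A ⟨c i, (hc i).2⟩ * b i)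
        = ρ g (Coord.mid ξ₀) := by
      intro j
      rw [hMid g hg ξ₀ (ξs j), hρ, Finset.sum_apply]
      refine Finset.sum_congr rfl fun i _ => ?_
      rw [Pi.mul_apply, PullRed.pullA_mid, hwM i j, smul_eq_mul]
      ring
    rw [eq_sum_filter hn t ht e he _ _ hv]
    refine sum_mem fun i hi => ?_
    exact mul_mem (hr i) (hb i (Finset.mem_filter.mp hi).2)
  · rw [hρ, Finset.sum_apply]
    refine sum_mem fun i _ => ?_
    rw [Pi.mul_apply, PullRed.pullA_zero]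
    exact mul_mem (hΦ _ (hΦ _ (hr i))) (hw0 i)

end Generic

/-! ## For a setup -/

section Setup

variable {A : ValuationSubring Kbar} {M q : ℕ} [NeZero M] [NeZero q] {h : Nat.Coprime M q}
  {F : Frame M q h} {O : Subring Om} {ρ : O →+* Rq A q}

/-- **[K0-RANGE] for a setup**, from a family with integral coordinates. -/
theorem rangeStmt_of_setup (hq : q.Prime) (hAq : A.LiesOverPrime q)
    (hRed : S18.Plan.RedStmt A M) (hS : IsSetup A F O ρ) {ι : Type*} [Fintype ι] (w : ι → O)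
    (hcoeff : ∀ g : O, ∃ c : ι → Om, (∀ i, c i ∈ modularFunctionFieldBar M ∧ c i ∈ Ocal A) ∧
      (g : Om) = ∑ i, c i * (w i : Om))
    (hwI : ∀ i, ρ (w i) Coord.inf ∈ Fk A M) (hw0 : ∀ i, ρ (w i) Coord.zero ∈ Fk A M)
    {n : ℕ} (hn : 0 < n) (ξs : Fin n → MidIdx q) (t : Fin n → Omk A)
    (ht : Function.Injective t) (e : ι → ℕ) (he : ∀ i, e i < n) (b : ι → Omk A)
    (hb : ∀ i, e i = 0 → b i ∈ Fk A M)
    (hwM : ∀ i j, ρ (w i) (Coord.mid (ξs j)) = b i * t j ^ e i) (ξ₀ : MidIdx q) :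
    K0Plan.RangeStmt A M q O ρ ξ₀ :=
  rangeStmt_of w hRed.2.1 (Fermat.Agent.S34.FkFrob.qExpand_mem_Fk A q M hq hAq)
    (fun _ hM hO => LevelRed.rho_alpha2 hq hS hM hO) hcoeff hwI hw0 hn ξs t ht e he b hb hwM
    (fun g hg ξ ξ' => LevelRed.rho_mid_eq_of_fixed hq hAq hS g hg ξ ξ') ξ₀

end Setup

/-! ## The instance: `K0Plan.RangeStmt` for every setup -/

section Instance

variable {A : ValuationSubring Kbar} {M q : ℕ} [NeZero M] [NeZero q] {h : Nat.Coprime M q}
  {F : Frame M q h} {O : Subring Om} {ρ : O →+* Rq A q}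

/-- The middle reduction of an inertia-fixed `g ∈ O` is `ρ g ∞ - red (Tr_α g)`: the trace along
`α` reduces to the sum of the `∞`- and middle reductions (`ConnInst.trA_red`), the `q - 1` middle
reductions coincide ([MID-EQ]), and `q - 1 = -1` in characteristic `q`. -/
theorem exists_trace_red (hq : q.Prime) (hAq : A.LiesOverPrime q) (hS : IsSetup A F O ρ)
    (g : O) (hg : K0Plan.Fixed A (g : Om)) (ξ₀ : MidIdx q) :
    ∃ (y : FN (M * q)) (hy : (y : Om) ∈ Ocal A),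
      ρ g (Coord.mid ξ₀) = ρ g Coord.inf - red A ⟨_, hy⟩ := by
  classical
  have : Fact q.Prime := ⟨hq⟩
  have : CharP (kk A) q := charP_residueField_of_liesOverPrime A q hAq
  have hchar : CharP (Omk A) q :=
    charP_of_injective_ringHom (f := (HahnSeries.C : kk A →+* Omk A)) HahnSeries.C_injective q
  obtain ⟨ζ, hζ⟩ := CoordFin.exists_primitiveRoot q
  set x : FN (M * q * q) := ⟨(g : Om), hS.mem_field g⟩ with hx
  have hxO : (x : Om) ∈ O := g.2
  have hint := (hS.mem_iff x).1 hxO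
  have hgx : (⟨(x : Om), hxO⟩ : O) = g := Subtype.ext rfl
  have hρ : ∀ i : Coord q, red A ⟨F.emb i x, hint i⟩ = ρ g i := by
    intro i
    have e := hS.ρ_apply x hxO i (hint i)
    rw [hgx] at e
    exact e.symm
  obtain ⟨h1, -, e1, -⟩ := ConnInst.trA_red A F hq hAq ζ hζ x hint
  refine ⟨_, h1, ?_⟩
  rw [e1, Fintype.sum_option]
  have hsum : ∑ b : Fin (q - 1),
      red A ⟨F.emb (ConnInst.cA hq ζ hζ (some b)) x, hint _⟩ = (q - 1) • ρ g (Coord.mid ξ₀) := by
    have hb : ∀ b : Fin (q - 1),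
        red A ⟨F.emb (ConnInst.cA hq ζ hζ (some b)) x, hint _⟩ = ρ g (Coord.mid ξ₀) := by
      intro b
      rw [hρ]
      exact LevelRed.rho_mid_eq_of_fixed hq hAq hS g hg _ _
    rw [Finset.sum_congr rfl (fun b _ => hb b), Finset.sum_const, Finset.card_univ,
      Fintype.card_fin]
  have hinf : red A ⟨F.emb (ConnInst.cA hq ζ hζ none) x, hint _⟩ = ρ g Coord.inf := hρ _
  rw [hsum, hinf]
  have hq0 : (q : Omk A) = 0 := CharP.cast_eq_zero (Omk A) q
  have hq1 : ((q - 1 : ℕ) : Omk A) = -1 := by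
    rw [Nat.cast_sub hq.one_le, hq0, Nat.cast_one, zero_sub]
  rw [nsmul_eq_mul, hq1]
  ring

/-- **[K0-RANGE]** `K0Plan.RangeStmt` for every setup: the three reductions of an inertia-fixed
element of `O` lie in `F_{M,k}`.  (`∞`, `0`: `RedIntoQ2.range_inf_zero`; middle: the trace along
`α` and (HB) at level `M q`.) -/
theorem rangeStmt (hq : q.Prime) (hAq : A.LiesOverPrime q) (hS : IsSetup A F O ρ)
    (ξ₀ : MidIdx q) : K0Plan.RangeStmt A M q O ρ ξ₀ := by
  intro g hg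
  have hqM : ¬ q ∣ M := fun hd => hq.one_lt.ne' (Nat.eq_one_of_dvd_coprimes h hd dvd_rfl)
  obtain ⟨hI, h0⟩ := RedIntoQ2.range_inf_zero hq hAq hS g
  refine ⟨hI, ?_, h0⟩
  obtain ⟨y, hy, e⟩ := exists_trace_red hq hAq hS g hg ξ₀
  rw [e]
  exact sub_mem hI (ValOne.redInto A M q hq hqM hAq ⟨_, hy⟩ (SetLike.coe_mem _))

end Instance

/-! ## For a reduction table -/

section Table

variable {A : ValuationSubring Kbar} {M q : ℕ} [NeZero M] [NeZero q] {h : Nat.Coprime M q}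
  {F : Frame M q h} {O : Subring Om} {ρ : O →+* Rq A q}

omit [NeZero q] in
/-- The nodes `u + 1` (`u < q - 1`) are distinct in characteristic `q`. -/
theorem node_injective (hq : q.Prime) (hAq : A.LiesOverPrime q) :
    Function.Injective
      (fun u : Fin (q - 1) => (HahnSeries.C ((((u : ℕ) + 1 : ℕ)) : kk A) : Omk A)) := by
  have : Fact q.Prime := ⟨hq⟩
  have : CharP (kk A) q := charP_residueField_of_liesOverPrime A q hAq
  intro i i' hii
  have h1 : ((((i : ℕ) + 1 : ℕ)) : kk A) = ((((i' : ℕ) + 1 : ℕ)) : kk A) :=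
    HahnSeries.C_injective hii
  have h2 := (CharP.natCast_eq_natCast (kk A) q).mp h1
  have hi := i.2
  have hi' := i'.2
  have h3 : (i : ℕ) + 1 = (i' : ℕ) + 1 := Nat.ModEq.eq_of_lt_of_lt h2 (by omega) (by omega)
  exact Fin.ext (by omega)

/-- **[K0-RANGE] from a reduction table** (`DimCore.Table`) whose middle values are
`((u + 1) Θ)^m` — the shape of `FamQ2.redEq_fam` — and the integrality of the coordinates in the
family (`hcoeff`). -/
theorem rangeStmt_of_table (hq : q.Prime) (hAq : A.LiesOverPrime q)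
    (hRed : S18.Plan.RedStmt A M) (hS : IsSetup A F O ρ) (ζ : Kbarˣ) (hζ : IsPrimitiveRoot ζ q)
    {wI : FN (M * q * q)} {w0 : Fin (q * q) → FN (M * q * q)}
    {wM : Fin (q - 1) → FN (M * q * q)} (Θ : Omk A)
    (T : DimCore.Table (A := A) (F := F) hq ζ hζ wI w0 wM
      (fun u m => (HahnSeries.C ((((u : ℕ) + 1 : ℕ)) : kk A) * Θ) ^ (m : ℕ)))
    (hcoeff : ∀ g : O, ∃ c : Option (Fin (q * q) ⊕ Fin (q - 1)) → Om,
      (∀ i, c i ∈ modularFunctionFieldBar M ∧ c i ∈ Ocal A) ∧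
      (g : Om) = ∑ i, c i * ((DimCore.fam wI w0 wM i : FN (M * q * q)) : Om))
    (ξ₀ : MidIdx q) : K0Plan.RangeStmt A M q O ρ ξ₀ := by
  have hjk : jk A ∈ Fk A M := jqModC_mem_full (kk A) M
  have hn : 0 < q - 1 := by have := hq.two_le; omega
  -- the values of `ρ` on the family
  have rI : ∀ (c : Coord q) {y : Omk A}, DimCore.RedEq A (F.emb c wI) y →
      ρ ⟨_, T.mem hS none⟩ c = y := fun c _ hy => DimCore.rho_of_redEq hS wI (T.mem hS none) c hy
  have rZ : ∀ (l : Fin (q * q)) (c : Coord q) {y : Omk A}, DimCore.RedEq A (F.emb c (w0 l)) y →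
      ρ ⟨_, T.mem hS (some (Sum.inl l))⟩ c = y :=
    fun l c _ hy => DimCore.rho_of_redEq hS (w0 l) (T.mem hS (some (Sum.inl l))) c hy
  have rM : ∀ (m : Fin (q - 1)) (c : Coord q) {y : Omk A}, DimCore.RedEq A (F.emb c (wM m)) y →
      ρ ⟨_, T.mem hS (some (Sum.inr m))⟩ c = y :=
    fun m c _ hy => DimCore.rho_of_redEq hS (wM m) (T.mem hS (some (Sum.inr m))) c hy
  refine rangeStmt_of_setup hq hAq hRed hS
    (fun i : Option (Fin (q * q) ⊕ Fin (q - 1)) => (⟨_, T.mem hS i⟩ : O)) hcoeff ?_ ?_ hn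
    (fun u => CoordFin.midEquiv hq ζ hζ u)
    (fun u : Fin (q - 1) => (HahnSeries.C ((((u : ℕ) + 1 : ℕ)) : kk A) : Omk A))
    (node_injective hq hAq)
    (fun i => i.elim 0 (Sum.elim (fun _ => 0) (fun m => (m : ℕ))))
    ?_
    (fun i => i.elim 0 (Sum.elim (fun _ => 0) (fun m => Θ ^ (m : ℕ))))
    ?_ ?_ ξ₀
  · rintro (_ | l | m)
    · show ρ ⟨_, T.mem hS none⟩ Coord.inf ∈ Fk A M
      rw [rI Coord.inf T.I_inf]
      exact one_mem _
    · show ρ ⟨_, T.mem hS (some (Sum.inl l))⟩ Coord.inf ∈ Fk A M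
      rw [rZ l Coord.inf (T.Z_inf l)]
      exact zero_mem _
    · show ρ ⟨_, T.mem hS (some (Sum.inr m))⟩ Coord.inf ∈ Fk A M
      rw [rM m Coord.inf (T.M_inf m)]
      exact zero_mem _
  · rintro (_ | l | m)
    · show ρ ⟨_, T.mem hS none⟩ Coord.zero ∈ Fk A M
      rw [rI Coord.zero T.I_zero]
      exact zero_mem _
    · show ρ ⟨_, T.mem hS (some (Sum.inl l))⟩ Coord.zero ∈ Fk A M
      rw [rZ l Coord.zero (T.Z_zero l)]
      exact pow_mem hjk _
    · show ρ ⟨_, T.mem hS (some (Sum.inr m))⟩ Coord.zero ∈ Fk A M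
      rw [rM m Coord.zero (T.M_zero m)]
      exact zero_mem _
  · rintro (_ | l | m)
    · exact hn
    · exact hn
    · exact m.2
  · rintro (_ | l | m) hi
    · exact zero_mem _
    · exact zero_mem _
    · have hm : (m : ℕ) = 0 := hi
      show Θ ^ (m : ℕ) ∈ Fk A M
      rw [hm, pow_zero]
      exact one_mem _
  · rintro (_ | l | m) u
    · show ρ ⟨_, T.mem hS none⟩ (Coord.mid (CoordFin.midEquiv hq ζ hζ u)) = 0 * _
      rw [rI _ (T.I_mid u), zero_mul]
    · show ρ ⟨_, T.mem hS (some (Sum.inl l))⟩ (Coord.mid (CoordFin.midEquiv hq ζ hζ u)) = 0 * _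
      rw [rZ l _ (T.Z_mid l u), zero_mul]
    · show ρ ⟨_, T.mem hS (some (Sum.inr m))⟩ (Coord.mid (CoordFin.midEquiv hq ζ hζ u)) =
        Θ ^ (m : ℕ) * (HahnSeries.C ((((u : ℕ) + 1 : ℕ)) : kk A) : Omk A) ^ (m : ℕ)
      rw [rM m _ (T.M_mid m u), mul_pow, mul_comm]

end Table

end Fermat.Agent.S36.K0Range

end
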