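import Mathlib
import Fermat.Agent.S36.K0Range
import Fermat.Agent.S36.OneAllOf

/-!
# S36 / P8 — [K0-RANGE] at all levels (helper78)

`OneAllOf.RangeAllStmt`: the all-level form of `K0Plan.RangeStmt` (binders of
`Plan.OneAllStmt`), from `K0Range.rangeStmt`.
-/

set_option autoImplicit false

noncomputable section

namespace Fermat.Agent.S36.K0RangeAll

/-- **[K0-RANGE] at all levels.** -/
theorem rangeAllStmt : OneAllOf.RangeAllStmt :=
  fun _ _ _ _ _ _ _ _ _ hqp _ _ _ _ hA _ _ _ hS ξ₀ => K0Range.rangeStmt hqp hA hS ξ₀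

end Fermat.Agent.S36.K0RangeAll

end
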