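import Mathlib
import Fermat.Agent.S36.LiftAllOf
import Fermat.Agent.S36.InclAll
import Fermat.Agent.S36.CuspRegAll
import Fermat.Agent.S36.ConnInst

/-!
# S36 / P8 — [LIFT-ALL] from the three remaining inputs (helper77)

`Plan.LiftAllStmt` from

* `LiftAllOf.DimAllStmt`   : **[DIM]** at all levels;
* `InclAll.IntAllStmt`     : "`O` is integral over `O_M`" at all levels (the input of [INCL]);
* `CuspRegAll.FamAllStmt`  : the three families of cusp regularity at all levels (the input of
                             [CR]).

Discharged inside: [CONN] (`ConnInst.connAllStmt`), [INCL] (`InclAll.inclAllStmt_of`), [CR]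
(`CuspRegAll.cuspRegAllStmt_of`) and everything of `LiftAllOf.liftAllStmt_of`.
-/

set_option autoImplicit false

noncomputable section

namespace Fermat.Agent.S36.LiftAllOf3

open Fermat.Agent.S36

/-- **[LIFT-ALL]** from [DIM], the integrality of `O` over `O_M`, and the cusp families. -/
theorem liftAllStmt_of3 (hDim : LiftAllOf.DimAllStmt) (hInt : InclAll.IntAllStmt)
    (hFam : CuspRegAll.FamAllStmt) : Plan.LiftAllStmt :=
  LiftAllOf.liftAllStmt_of hDim (InclAll.inclAllStmt_of hInt)
    (CuspRegAll.cuspRegAllStmt_of hDim (InclAll.inclAllStmt_of hInt) hFam) ConnInst.connAllStmt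

end Fermat.Agent.S36.LiftAllOf3

end
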