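import Mathlib
import Fermat.Agent.S18.PlacesModL
import Fermat.Agent.S36.OnePlan
import Fermat.Agent.S36.K0Plan

/-!
# S36 / P8 — NormChain: `K0Plan.NormStmt` from [VNORM] and [NORM-RED] (owner: helper74)

The contract (7) of `S36/K0Plan` (input of the junction `S36/OneGen`) from the two contracts of
`S36/OnePlan`:

`Plan.VNormStmt c₁ + Plan.NormRedStmt c₂ + Plan.InvStmt ⟹ K0Plan.NormStmt (c₂ * c₁)`.

(`ξ` := the triple of constant `n`-th roots of `κ_i⁻¹`; `k` is algebraically closed.)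
-/

set_option autoImplicit false

noncomputable section

namespace Fermat.Agent.S36.NormChain

open ModularCurve AlgebraicCurve Fermat.Agent.S24 Fermat.Agent.S18 Fermat.Agent.S18.Content
  Fermat.Agent.S18.Plan Fermat.Agent.S34 Fermat.Agent.S36.Plan

variable {A : ValuationSubring Kbar} {N' M q : ℕ} [NeZero N'] [NeZero M] [NeZero q]
variable {O : Subring Om} {ρ : O →+* Rq A q}

/-- An inertia-fixed function of level `N` is `K₀`-rational as a series. -/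
theorem fixed_of_iFix {N : ℕ} [NeZero N] {g : FN N} (h : IFix A N g) :
    K0Plan.Fixed A (g : Om) := fun τ hτ => congrArg (fun x : FN N => (x : Om)) (h τ hτ)

omit [NeZero M] in
/-- A constant series lies in `F_{M,k}`. -/
theorem C_mem_Fk (c : kk A) : (HahnSeries.C c : Omk A) ∈ Fk A M := by
  have h := (Fk A M).algebraMap_mem c
  rwa [ModularCurve.algebraMap_laurentSeries_eq_single, ← HahnSeries.C_apply] at h

/-- **(7) of `K0Plan`** from [VNORM] and [NORM-RED]. -/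
theorem normStmt_of_chain {c₁ c₂ : ℕ} (hInv : InvStmt A q O ρ)
    (hV : VNormStmt A N' q O ρ c₁) (hN : NormRedStmt A N' q O ρ c₂) (ξ₀ : MidIdx q) :
    K0Plan.NormStmt A N' M q O ρ ξ₀ (c₂ * c₁) := by
  intro D n hD
  have := PlacesModL.isAlgClosed_kk A
  obtain ⟨u, hP⟩ := exists_pairData hD
  obtain ⟨D₁, u₁, hcls₁, hP₁, hu₁, hunit₁⟩ := hV D n u hP
  obtain ⟨D₂, u₂, hcls₂, hP₂, hu₂, hconst₂⟩ := hN D₁ n u₁ hP₁ hu₁ hunit₁
  -- the constants and their `n`-th roots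
  have hroot : ∀ i : Coord q, ∃ l : kk A,
      ρ ⟨_, hu₂⟩ i * (HahnSeries.C l : Omk A) ^ n = 1 := by
    intro i
    obtain ⟨κ, hκ, hρ⟩ := hconst₂ i
    obtain ⟨l, hl⟩ := IsAlgClosed.exists_pow_nat_eq κ⁻¹ hD.pos
    refine ⟨l, ?_⟩
    rw [hρ, ← map_pow, ← map_mul, hl, mul_inv_cancel₀ hκ, map_one]
  obtain ⟨l₁, h₁⟩ := hroot Coord.inf
  obtain ⟨l₂, h₂⟩ := hroot (Coord.mid ξ₀)
  obtain ⟨l₃, h₃⟩ := hroot Coord.zero
  have hne : ∀ i : Coord q, ρ ⟨_, hu₂⟩ i ≠ 0 := by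
    intro i
    obtain ⟨κ, hκ, hρ⟩ := hconst₂ i
    rw [hρ]
    exact fun h0 => hκ (by simpa using h0)
  refine ⟨D₂, u₂, hu₂, (HahnSeries.C l₁, HahnSeries.C l₂, HahnSeries.C l₃), ?_, hP₂.stable,
    hP₂.ne, hP₂.ord, fixed_of_iFix hP₂.fix, hInv ⟨_, hu₂⟩ hne,
    ⟨C_mem_Fk l₁, C_mem_Fk l₂, C_mem_Fk l₃⟩, ?_⟩
  · have h : D₂ - (c₂ * c₁) • D = (D₂ - c₂ • D₁) + c₂ • (D₁ - c₁ • D) := by
      rw [mul_smul, smul_sub]
      abel
    rw [h]
    exact AddSubgroup.add_mem _ hcls₂ (AddSubgroup.nsmul_mem _ hcls₁ c₂)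
  · refine Prod.ext h₁ (Prod.ext h₂ h₃)

end Fermat.Agent.S36.NormChain

end
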