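import Mathlib

/-!
# P8 — the LOCALISED unipotent `n`-th-root lemma, by Frobenius (helper17)

Characteristic `q`, `A ⊆ R` a subring, `c` an ideal of `R` contained in `A` (a conductor), `n` prime
to `q`, `y ∈ R` with `y ^ n ∈ A`.  If `d ∈ A` kills the non-unipotent part of `y` modulo `c`
(`d * (y - 1) ^ N ∈ c`: e.g. `y = 1` at the branch points over one conductor point `s`, and `d`
vanishes to high order at the other conductor points), then `d' * y ∈ A` for
`d' = d * (y ^ n) ^ r ∈ A`; and `P d' = P d` at every point `P` with `P y = 1`.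

So `y = (d' * y) / d'` is a quotient of two elements of `A`, both units at `s`: this is the
statement "`y ∈ A_s`" without localising anything.  (The global case `d = 1` is
`Fermat.Agent.S36.NthRoot.mem_of_pow_mem` of helper70, proved there for any field; the
Frobenius proof below needs characteristic `q` but localises for free.)

Proof: choose `e` with `q ^ e = 1 + n * r`, `N ≤ q ^ e`.  Frobenius is additive, so
`d * (y ^ n) ^ r * y = d * y ^ q ^ e = d + d * (y - 1) ^ q ^ e ∈ A + c ⊆ A`.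
-/

set_option autoImplicit false

namespace Fermat.Agent.S36.FrobRoot

/-- There is a power `q ^ e = 1 + n * r` of `q` with `N ≤ q ^ e`, when `n` is prime to `q`. -/
theorem exists_pow_eq_one_add_mul (q : ℕ) (hq : q.Prime) (n : ℕ) (hn : Nat.Coprime n q) (N : ℕ) :
    ∃ e r : ℕ, N ≤ q ^ e ∧ q ^ e = 1 + n * r := by
  have h1 : q ^ Nat.totient n ≡ 1 [MOD n] := Nat.ModEq.pow_totient hn.symm
  have h2 : (q ^ Nat.totient n) ^ (N + 1) ≡ 1 [MOD n] := by
    simpa using h1.pow (N + 1)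
  have hn0 : 0 < n := by
    rcases Nat.eq_zero_or_pos n with h | h
    · subst h
      have : q = 1 := by simpa using hn
      exact absurd this hq.one_lt.ne'
    · exact h
  have htot : 0 < Nat.totient n := Nat.totient_pos.2 hn0
  have hle : N ≤ (q ^ Nat.totient n) ^ (N + 1) := by
    have h2le : 2 ≤ q ^ Nat.totient n := by
      calc 2 ≤ q := hq.two_le
        _ = q ^ 1 := (pow_one q).symm
        _ ≤ q ^ Nat.totient n := Nat.pow_le_pow_right hq.pos htot
    calc N ≤ N + 1 := Nat.le_succ N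
      _ ≤ 2 ^ (N + 1) := (Nat.lt_two_pow_self).le
      _ ≤ (q ^ Nat.totient n) ^ (N + 1) := Nat.pow_le_pow_left h2le _
  have hpos : 1 ≤ (q ^ Nat.totient n) ^ (N + 1) := Nat.one_le_pow _ _ (pow_pos hq.pos _)
  obtain ⟨r, hr⟩ := (Nat.modEq_iff_dvd' hpos).1 h2.symm
  refine ⟨Nat.totient n * (N + 1), r, ?_, ?_⟩
  · rw [pow_mul]; exact hle
  · rw [pow_mul]; omega

variable {R : Type*} [CommRing R]

/-- Frobenius is additive: `y ^ q ^ e = 1 + (y - 1) ^ q ^ e` in characteristic `q`. -/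
theorem pow_char_pow_eq (q : ℕ) [Fact q.Prime] [CharP R q] (y : R) (e : ℕ) :
    y ^ q ^ e = 1 + (y - 1) ^ q ^ e := by
  have h := add_pow_char_pow (R := R) (p := q) (n := e) (1 : R) (y - 1)
  rw [one_pow] at h
  rw [← h]; congr 1; ring

/-- **Localised unipotent `n`-th-root lemma (Frobenius form).**  `A ⊆ R` a subring in
characteristic `q`, `c ⊆ A` an ideal of `R`, `n` prime to `q`, `y ^ n ∈ A`, `d ∈ A` with
`d * (y - 1) ^ N ∈ c`.  Then `d * (y ^ n) ^ r * y ∈ A` for some `r`. -/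
theorem exists_mul_pow_mul_mem (q : ℕ) [hq : Fact q.Prime] [CharP R q] (A : Subring R)
    (c : Ideal R) (hc : ∀ x ∈ c, x ∈ A) (n : ℕ) (hn : Nat.Coprime n q)
    (y : R) (d : R) (hd : d ∈ A) (N : ℕ) (hN : d * (y - 1) ^ N ∈ c) :
    ∃ r : ℕ, d * (y ^ n) ^ r * y ∈ A := by
  obtain ⟨e, r, hNe, her⟩ := exists_pow_eq_one_add_mul q hq.out n hn N
  refine ⟨r, ?_⟩
  have h1 : d * (y ^ n) ^ r * y = d * y ^ q ^ e := by
    rw [her, pow_add, pow_one, pow_mul]; ring
  rw [h1, pow_char_pow_eq q y e, mul_add, mul_one]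
  refine A.add_mem hd (hc _ ?_)
  obtain ⟨m, hm⟩ := Nat.exists_eq_add_of_le hNe
  rw [hm, pow_add, ← mul_assoc]
  exact c.mul_mem_right _ hN

/-- The same with the multiplier packaged: `d' ∈ A`, `d' * y ∈ A`, and `P d' = P d` at every
point `P` (any ring homomorphism) with `P y = 1`.  With `P d ≠ 0` this says: `y` is a quotient of
two elements of `A` that do not vanish at `P`. -/
theorem exists_mul_mem (q : ℕ) [Fact q.Prime] [CharP R q] (A : Subring R)
    (c : Ideal R) (hc : ∀ x ∈ c, x ∈ A) (n : ℕ) (hn : Nat.Coprime n q)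
    (y : R) (hy : y ^ n ∈ A) (d : R) (hd : d ∈ A) (N : ℕ) (hN : d * (y - 1) ^ N ∈ c) :
    ∃ d' : R, d' ∈ A ∧ d' * y ∈ A ∧
      ∀ {L : Type*} [CommRing L] (P : R →+* L), P y = 1 → P d' = P d ∧ P (d' * y) = P d := by
  obtain ⟨r, hr⟩ := exists_mul_pow_mul_mem q A c hc n hn y d hd N hN
  refine ⟨d * (y ^ n) ^ r, A.mul_mem hd (A.pow_mem hy r), hr, ?_⟩
  intro L _ P hP
  have h1 : P (d * (y ^ n) ^ r) = P d := by
    rw [map_mul, map_pow, map_pow, hP, one_pow, one_pow, mul_one]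
  exact ⟨h1, by rw [map_mul, h1, hP, mul_one]⟩

/-- Global case `d = 1` (unit form): `y ^ n * b' = 1`, `b' ∈ A`, `(y - 1) ^ N ∈ c ⊆ A` give
`y ∈ A`. -/
theorem mem_of_pow_mul_eq_one (q : ℕ) [Fact q.Prime] [CharP R q] (A : Subring R)
    (c : Ideal R) (hc : ∀ x ∈ c, x ∈ A) (n : ℕ) (hn : Nat.Coprime n q)
    (y b' : R) (hb' : b' ∈ A) (hyb : y ^ n * b' = 1) (N : ℕ) (hN : (y - 1) ^ N ∈ c) :
    y ∈ A := by
  obtain ⟨r, hr⟩ := exists_mul_pow_mul_mem q A c hc n hn y 1 A.one_mem N (by rwa [one_mul])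
  have hy : y = 1 * (y ^ n) ^ r * y * b' ^ r := by
    have : 1 * (y ^ n) ^ r * y * b' ^ r = y * (y ^ n * b') ^ r := by rw [mul_pow]; ring
    rw [this, hyb, one_pow, mul_one]
  rw [hy]
  exact A.mul_mem hr (A.pow_mem hb' r)

/-- Subalgebra form of `exists_mul_mem` (for consumers stated with `Subalgebra k R`). -/
theorem exists_mul_mem_subalgebra {k : Type*} [CommRing k] [Algebra k R] (q : ℕ) [Fact q.Prime]
    [CharP R q] (S : Subalgebra k R) (c : Ideal R) (hc : ∀ x ∈ c, x ∈ S) (n : ℕ)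
    (hn : Nat.Coprime n q) (y : R) (hy : y ^ n ∈ S) (d : R) (hd : d ∈ S) (N : ℕ)
    (hN : d * (y - 1) ^ N ∈ c) :
    ∃ d' : R, d' ∈ S ∧ d' * y ∈ S ∧
      ∀ {L : Type*} [CommRing L] (P : R →+* L), P y = 1 → P d' = P d ∧ P (d' * y) = P d :=
  exists_mul_mem q S.toSubring c hc n hn y hy d hd N hN

end Fermat.Agent.S36.FrobRoot
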