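/-
P8 / S36 — block [MAX-PT] (owner helper87).  `import Mathlib` only, frame-independent.

`k` a field, `D i` (`i : ι`, `ι` finite) commutative `k`-algebras all of whose closed points are
`k`-rational, `S ≃ ∏ D i` a `k`-algebra, `A ⊆ S` a `k`-subalgebra over which `S` is integral.
Then every maximal ideal of `A` is the set of elements of `A` vanishing at one point `(i, z)`,
`z : D i →ₐ[k] k`.

* `exists_point_of_isMaximal_equiv`, `exists_point_of_isMaximal`, `exists_point_of_isMaximal_fun`,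
  `exists_point_of_isMaximal_prod3` : the classification;
* `forall_isMaximal_of_forall_point_equiv` (and the three specialisations) : a property that
  holds "locally at every point" holds "locally at every maximal ideal" (the hypothesis of the
  partition-of-unity lemma).
-/
import Mathlib

set_option autoImplicit false

noncomputable section

namespace Fermat.Agent.S36.MaxPoint

section Core

variable {k : Type*} [Field k] {ι : Type*} [Finite ι] {D : ι → Type*} [∀ i, CommRing (D i)]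
  [∀ i, Algebra k (D i)]

/-- A closed point with residue field `k` is a `k`-algebra homomorphism to `k`. -/
theorem exists_algHom_of_isMaximal {D' : Type*} [CommRing D'] [Algebra k D'] (P : Ideal D')
    (hP : P.IsMaximal) (hres : Function.Surjective (algebraMap k (D' ⧸ P))) :
    ∃ z : D' →ₐ[k] k, ∀ d : D', z d = 0 ↔ d ∈ P := by
  have := hP
  let _ : Field (D' ⧸ P) := Ideal.Quotient.field P
  have hbij : Function.Bijective (Algebra.ofId k (D' ⧸ P)) :=
    ⟨(algebraMap k (D' ⧸ P)).injective, hres⟩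
  let e : k ≃ₐ[k] (D' ⧸ P) := AlgEquiv.ofBijective (Algebra.ofId k (D' ⧸ P)) hbij
  refine ⟨(e.symm : (D' ⧸ P) →ₐ[k] k).comp (Ideal.Quotient.mkₐ k P), fun d => ?_⟩
  rw [AlgHom.comp_apply]
  have h1 : ((e.symm : (D' ⧸ P) →ₐ[k] k) (Ideal.Quotient.mkₐ k P d) = 0) ↔
      Ideal.Quotient.mkₐ k P d = 0 := map_eq_zero_iff _ e.symm.injective
  rw [h1, Ideal.Quotient.mkₐ_eq_mk, Ideal.Quotient.eq_zero_iff_mem]

/-- **[MAX-PT]**, general form: `S ≃ ∏ D i`, `A ⊆ S` with `S` integral over `A`; every maximal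
ideal of `A` is the vanishing ideal of a point `(i, z)`. -/
theorem exists_point_of_isMaximal_equiv {S : Type*} [CommRing S] [Algebra k S]
    (φ : S ≃ₐ[k] (∀ i, D i))
    (hres : ∀ i (P : Ideal (D i)), P.IsMaximal → Function.Surjective (algebraMap k (D i ⧸ P)))
    (A : Subalgebra k S) (hint : ∀ x : S, IsIntegral A x)
    (m : Ideal A) (hm : m.IsMaximal) :
    ∃ (i : ι) (z : D i →ₐ[k] k), ∀ a : A, a ∈ m ↔ z (φ (a : S) i) = 0 := by
  have : Algebra.IsIntegral A S := ⟨hint⟩
  have := hm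
  -- lying over
  obtain ⟨Q, hQmax, hQ⟩ := Ideal.exists_ideal_over_maximal_of_isIntegral (S := S) m (by
    intro x hx
    rw [RingHom.mem_ker] at hx
    have hx0 : x = 0 := Subtype.ext hx
    rw [hx0]
    exact m.zero_mem)
  -- transport to the product
  have hQ'max : (Ideal.comap (φ.symm : (∀ i, D i) →+* S) Q).IsMaximal :=
    Ideal.IsMaximal.comap_bijective (φ.symm : (∀ i, D i) →+* S) φ.symm.bijective hQmax
  obtain ⟨i, q, hq⟩ := PrimeSpectrum.exists_comap_evalRingHom_eq
    (⟨Ideal.comap (φ.symm : (∀ i, D i) →+* S) Q, hQ'max.isPrime⟩ : PrimeSpectrum (∀ i, D i))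
  have hq' : Ideal.comap (Pi.evalRingHom D i) q.asIdeal =
      Ideal.comap (φ.symm : (∀ i, D i) →+* S) Q := congrArg PrimeSpectrum.asIdeal hq
  -- `q` is maximal
  have hsurj : Function.Surjective (Pi.evalRingHom D i) := fun d => by
    classical
    exact ⟨Function.update 0 i d, by simp⟩
  have hqmax : q.asIdeal.IsMaximal := by
    have hmap : Ideal.map (Pi.evalRingHom D i)
        (Ideal.comap (φ.symm : (∀ i, D i) →+* S) Q) = q.asIdeal := by
      rw [← hq', Ideal.map_comap_of_surjective _ hsurj]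
    rcases Ideal.map_eq_top_or_isMaximal_of_surjective (Pi.evalRingHom D i) hsurj hQ'max with h | h
    · rw [hmap] at h
      exact absurd h q.isPrime.ne_top
    · rw [hmap] at h
      exact h
  obtain ⟨z, hz⟩ := exists_algHom_of_isMaximal q.asIdeal hqmax (hres i q.asIdeal hqmax)
  refine ⟨i, z, fun a => ?_⟩
  rw [hz]
  have h1 : a ∈ m ↔ (a : S) ∈ Q := by
    rw [← hQ]
    rfl
  have h2 : (a : S) ∈ Q ↔ φ (a : S) ∈ Ideal.comap (φ.symm : (∀ i, D i) →+* S) Q := by
    rw [Ideal.mem_comap]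
    have : (φ.symm : (∀ i, D i) →+* S) (φ (a : S)) = (a : S) := φ.symm_apply_apply _
    rw [this]
  rw [h1, h2, ← hq']
  rfl

/-- Pointwise local statements give ideal-wise local statements (the hypothesis of the
partition-of-unity lemma `mem_of_forall_isMaximal`). -/
theorem forall_isMaximal_of_forall_point_equiv {S : Type*} [CommRing S] [Algebra k S]
    (φ : S ≃ₐ[k] (∀ i, D i))
    (hres : ∀ i (P : Ideal (D i)), P.IsMaximal → Function.Surjective (algebraMap k (D i ⧸ P)))
    (A : Subalgebra k S) (hint : ∀ x : S, IsIntegral A x) (P : A → Prop)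
    (h : ∀ (i : ι) (z : D i →ₐ[k] k), ∃ a : A, z (φ (a : S) i) ≠ 0 ∧ P a) :
    ∀ m : Ideal A, m.IsMaximal → ∃ a : A, a ∉ m ∧ P a := by
  intro m hm
  obtain ⟨i, z, hz⟩ := exists_point_of_isMaximal_equiv φ hres A hint m hm
  obtain ⟨a, ha, hPa⟩ := h i z
  exact ⟨a, fun ham => ha ((hz a).mp ham), hPa⟩

/-- **[MAX-PT]** for `A ⊆ ∏ D i`. -/
theorem exists_point_of_isMaximal
    (hres : ∀ i (P : Ideal (D i)), P.IsMaximal → Function.Surjective (algebraMap k (D i ⧸ P)))
    (A : Subalgebra k (∀ i, D i)) (hint : ∀ x : ∀ i, D i, IsIntegral A x)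
    (m : Ideal A) (hm : m.IsMaximal) :
    ∃ (i : ι) (z : D i →ₐ[k] k), ∀ a : A, a ∈ m ↔ z ((a : ∀ i, D i) i) = 0 :=
  exists_point_of_isMaximal_equiv AlgEquiv.refl hres A hint m hm

theorem forall_isMaximal_of_forall_point
    (hres : ∀ i (P : Ideal (D i)), P.IsMaximal → Function.Surjective (algebraMap k (D i ⧸ P)))
    (A : Subalgebra k (∀ i, D i)) (hint : ∀ x : ∀ i, D i, IsIntegral A x) (P : A → Prop)
    (h : ∀ (i : ι) (z : D i →ₐ[k] k), ∃ a : A, z ((a : ∀ i, D i) i) ≠ 0 ∧ P a) :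
    ∀ m : Ideal A, m.IsMaximal → ∃ a : A, a ∉ m ∧ P a :=
  forall_isMaximal_of_forall_point_equiv AlgEquiv.refl hres A hint P h

end Core

section Const

variable {k : Type*} [Field k] {D : Type*} [CommRing D] [Algebra k D]

/-- **[MAX-PT]** for `A ⊆ ι → D` (constant family). -/
theorem exists_point_of_isMaximal_fun {ι : Type*} [Finite ι]
    (hres : ∀ P : Ideal D, P.IsMaximal → Function.Surjective (algebraMap k (D ⧸ P)))
    (A : Subalgebra k (ι → D)) (hint : ∀ x : ι → D, IsIntegral A x)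
    (m : Ideal A) (hm : m.IsMaximal) :
    ∃ (i : ι) (z : D →ₐ[k] k), ∀ a : A, a ∈ m ↔ z ((a : ι → D) i) = 0 :=
  exists_point_of_isMaximal (D := fun _ : ι => D) (fun _ => hres) A hint m hm

theorem forall_isMaximal_of_forall_point_fun {ι : Type*} [Finite ι]
    (hres : ∀ P : Ideal D, P.IsMaximal → Function.Surjective (algebraMap k (D ⧸ P)))
    (A : Subalgebra k (ι → D)) (hint : ∀ x : ι → D, IsIntegral A x) (P : A → Prop)
    (h : ∀ (i : ι) (z : D →ₐ[k] k), ∃ a : A, z ((a : ι → D) i) ≠ 0 ∧ P a) :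
    ∀ m : Ideal A, m.IsMaximal → ∃ a : A, a ∉ m ∧ P a :=
  forall_isMaximal_of_forall_point (D := fun _ : ι => D) (fun _ => hres) A hint P h

/-- The three coordinates of `D × D × D` as a function on `Fin 3`. -/
def prod3Equiv : (D × D × D) ≃ₐ[k] (Fin 3 → D) where
  toFun x := ![x.1, x.2.1, x.2.2]
  invFun f := (f 0, f 1, f 2)
  left_inv x := rfl
  right_inv f := by
    funext i
    fin_cases i <;> rfl
  map_mul' x y := by
    funext i
    fin_cases i <;> rfl
  map_add' x y := by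
    funext i
    fin_cases i <;> rfl
  commutes' c := by
    funext i
    fin_cases i <;> rfl

@[simp] theorem prod3Equiv_zero (x : D × D × D) : prod3Equiv (k := k) x 0 = x.1 := rfl
@[simp] theorem prod3Equiv_one (x : D × D × D) : prod3Equiv (k := k) x 1 = x.2.1 := rfl
@[simp] theorem prod3Equiv_two (x : D × D × D) : prod3Equiv (k := k) x 2 = x.2.2 := rfl

/-- **[MAX-PT]** for `A ⊆ D × D × D`: every maximal ideal of `A` is the vanishing ideal of a
point `z` of `D` on one of the three components. -/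
theorem exists_point_of_isMaximal_prod3
    (hres : ∀ P : Ideal D, P.IsMaximal → Function.Surjective (algebraMap k (D ⧸ P)))
    (A : Subalgebra k (D × D × D)) (hint : ∀ x : D × D × D, IsIntegral A x)
    (m : Ideal A) (hm : m.IsMaximal) :
    ∃ z : D →ₐ[k] k,
      (∀ a : A, a ∈ m ↔ z (a : D × D × D).1 = 0) ∨
      (∀ a : A, a ∈ m ↔ z (a : D × D × D).2.1 = 0) ∨
      (∀ a : A, a ∈ m ↔ z (a : D × D × D).2.2 = 0) := by
  obtain ⟨i, z, hz⟩ := exists_point_of_isMaximal_equiv (D := fun _ : Fin 3 => D)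
    (prod3Equiv (k := k) (D := D)) (fun _ => hres) A hint m hm
  refine ⟨z, ?_⟩
  fin_cases i
  · exact Or.inl hz
  · exact Or.inr (Or.inl hz)
  · exact Or.inr (Or.inr hz)

theorem forall_isMaximal_of_forall_point_prod3
    (hres : ∀ P : Ideal D, P.IsMaximal → Function.Surjective (algebraMap k (D ⧸ P)))
    (A : Subalgebra k (D × D × D)) (hint : ∀ x : D × D × D, IsIntegral A x) (P : A → Prop)
    (h1 : ∀ z : D →ₐ[k] k, ∃ a : A, z (a : D × D × D).1 ≠ 0 ∧ P a)
    (h2 : ∀ z : D →ₐ[k] k, ∃ a : A, z (a : D × D × D).2.1 ≠ 0 ∧ P a)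
    (h3 : ∀ z : D →ₐ[k] k, ∃ a : A, z (a : D × D × D).2.2 ≠ 0 ∧ P a) :
    ∀ m : Ideal A, m.IsMaximal → ∃ a : A, a ∉ m ∧ P a := by
  intro m hm
  obtain ⟨z, hz | hz | hz⟩ := exists_point_of_isMaximal_prod3 hres A hint m hm
  · obtain ⟨a, ha, hPa⟩ := h1 z
    exact ⟨a, fun ham => ha ((hz a).mp ham), hPa⟩
  · obtain ⟨a, ha, hPa⟩ := h2 z
    exact ⟨a, fun ham => ha ((hz a).mp ham), hPa⟩
  · obtain ⟨a, ha, hPa⟩ := h3 z
    exact ⟨a, fun ham => ha ((hz a).mp ham), hPa⟩

end Const

end Fermat.Agent.S36.MaxPoint
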