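/-
P8 / S36 — block [MAX-PT], second half (owner helper87).  Mathlib + `S36/MaxPoint` only.

A subalgebra `A` of a finite product `S ≃ ∏ D i` which surjects onto every factor has `S`
integral over it (the idempotents are integral).  Hence, by `S36/MaxPoint`, its maximal ideals are
the points `(i, z)` — with NO integrality hypothesis left to the frame: only
"every element of `D i` is the `i`-th coordinate of an element of `A`".
-/
import Mathlib
import Fermat.Agent.S36.MaxPoint

set_option autoImplicit false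

noncomputable section

namespace Fermat.Agent.S36.MaxPointInt

open Polynomial Fermat.Agent.S36.MaxPoint

/-- An idempotent is integral over any subalgebra. -/
theorem isIntegral_of_mul_self {R S : Type*} [CommRing R] [CommRing S] [Algebra R S] (e : S)
    (he : e * e = e) : IsIntegral R e := by
  refine ⟨X * (X - C 1), monic_X.mul (monic_X_sub_C 1), ?_⟩
  simp only [eval₂_mul, eval₂_X, eval₂_sub, eval₂_one, map_one]
  rw [mul_sub, he, mul_one, sub_self]

section Core

variable {k : Type*} [Field k] {ι : Type*} [Finite ι] {D : ι → Type*} [∀ i, CommRing (D i)]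
  [∀ i, Algebra k (D i)]

/-- **[INT-PROD]** If the subalgebra `A ⊆ S ≃ ∏ D i` surjects onto every factor, then `S` is
integral over `A`. -/
theorem isIntegral_of_proj_surjective {S : Type*} [CommRing S] [Algebra k S]
    (φ : S ≃ₐ[k] (∀ i, D i)) (A : Subalgebra k S)
    (hsurj : ∀ (i : ι) (d : D i), ∃ a : A, φ (a : S) i = d) (x : S) : IsIntegral A x := by
  classical
  have := Fintype.ofFinite ι
  -- the idempotents
  have hidem : ∀ i : ι, IsIntegral A (φ.symm (Pi.single i (1 : D i))) := fun i =>
    isIntegral_of_mul_self _ (by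
      rw [← map_mul]
      congr 1
      funext j
      by_cases hj : j = i
      · subst hj
        simp
      · simp [Pi.single_eq_of_ne hj])
  -- decomposition of `x`
  have hx : x = ∑ i : ι, φ.symm (Pi.single i (φ x i)) := by
    apply φ.injective
    rw [map_sum]
    funext j
    simp only [AlgEquiv.apply_symm_apply, Finset.sum_apply]
    rw [Finset.sum_eq_single j]
    · simp
    · intro b _ hb
      exact Pi.single_eq_of_ne (Ne.symm hb) _
    · intro h
      exact absurd (Finset.mem_univ j) h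
  rw [hx]
  refine IsIntegral.sum _ fun i _ => ?_
  obtain ⟨a, ha⟩ := hsurj i (φ x i)
  have hprod : φ.symm (Pi.single i (φ x i)) = (a : S) * φ.symm (Pi.single i (1 : D i)) := by
    apply φ.injective
    rw [map_mul, AlgEquiv.apply_symm_apply, AlgEquiv.apply_symm_apply]
    funext j
    by_cases hj : j = i
    · subst hj
      simp [ha]
    · simp [Pi.single_eq_of_ne hj]
  rw [hprod]
  exact IsIntegral.mul (isIntegral_algebraMap (R := A) (A := S) (x := a)) (hidem i)

/-- **[MAX-PT]** with the integrality discharged: `A ⊆ S ≃ ∏ D i` surjecting onto every factor;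
every maximal ideal of `A` is the vanishing ideal of a point `(i, z)`. -/
theorem exists_point_of_isMaximal_of_surj {S : Type*} [CommRing S] [Algebra k S]
    (φ : S ≃ₐ[k] (∀ i, D i))
    (hres : ∀ i (P : Ideal (D i)), P.IsMaximal → Function.Surjective (algebraMap k (D i ⧸ P)))
    (A : Subalgebra k S) (hsurj : ∀ (i : ι) (d : D i), ∃ a : A, φ (a : S) i = d)
    (m : Ideal A) (hm : m.IsMaximal) :
    ∃ (i : ι) (z : D i →ₐ[k] k), ∀ a : A, a ∈ m ↔ z (φ (a : S) i) = 0 :=
  exists_point_of_isMaximal_equiv φ hres A (isIntegral_of_proj_surjective φ A hsurj) m hm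

theorem forall_isMaximal_of_forall_point_of_surj {S : Type*} [CommRing S] [Algebra k S]
    (φ : S ≃ₐ[k] (∀ i, D i))
    (hres : ∀ i (P : Ideal (D i)), P.IsMaximal → Function.Surjective (algebraMap k (D i ⧸ P)))
    (A : Subalgebra k S) (hsurj : ∀ (i : ι) (d : D i), ∃ a : A, φ (a : S) i = d) (P : A → Prop)
    (h : ∀ (i : ι) (z : D i →ₐ[k] k), ∃ a : A, z (φ (a : S) i) ≠ 0 ∧ P a) :
    ∀ m : Ideal A, m.IsMaximal → ∃ a : A, a ∉ m ∧ P a :=
  forall_isMaximal_of_forall_point_equiv φ hres A (isIntegral_of_proj_surjective φ A hsurj) P h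

end Core

section Const

variable {k : Type*} [Field k] {D : Type*} [CommRing D] [Algebra k D]

/-- `ι → D` version. -/
theorem forall_isMaximal_of_forall_point_fun_of_surj {ι : Type*} [Finite ι]
    (hres : ∀ P : Ideal D, P.IsMaximal → Function.Surjective (algebraMap k (D ⧸ P)))
    (A : Subalgebra k (ι → D)) (hsurj : ∀ (i : ι) (d : D), ∃ a : A, (a : ι → D) i = d)
    (P : A → Prop)
    (h : ∀ (i : ι) (z : D →ₐ[k] k), ∃ a : A, z ((a : ι → D) i) ≠ 0 ∧ P a) :
    ∀ m : Ideal A, m.IsMaximal → ∃ a : A, a ∉ m ∧ P a :=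
  forall_isMaximal_of_forall_point_of_surj (D := fun _ : ι => D) AlgEquiv.refl (fun _ => hres) A
    hsurj P h

/-- `D × D × D` version: `A` surjects onto each of the three factors. -/
theorem isIntegral_prod3_of_proj_surjective (A : Subalgebra k (D × D × D))
    (h1 : ∀ d : D, ∃ a : A, (a : D × D × D).1 = d)
    (h2 : ∀ d : D, ∃ a : A, (a : D × D × D).2.1 = d)
    (h3 : ∀ d : D, ∃ a : A, (a : D × D × D).2.2 = d) (x : D × D × D) : IsIntegral A x := by
  refine isIntegral_of_proj_surjective (D := fun _ : Fin 3 => D) (prod3Equiv (k := k) (D := D)) A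
    (fun i d => ?_) x
  fin_cases i
  · exact h1 d
  · exact h2 d
  · exact h3 d

theorem forall_isMaximal_of_forall_point_prod3_of_surj
    (hres : ∀ P : Ideal D, P.IsMaximal → Function.Surjective (algebraMap k (D ⧸ P)))
    (A : Subalgebra k (D × D × D))
    (h1 : ∀ d : D, ∃ a : A, (a : D × D × D).1 = d)
    (h2 : ∀ d : D, ∃ a : A, (a : D × D × D).2.1 = d)
    (h3 : ∀ d : D, ∃ a : A, (a : D × D × D).2.2 = d) (P : A → Prop)
    (p1 : ∀ z : D →ₐ[k] k, ∃ a : A, z (a : D × D × D).1 ≠ 0 ∧ P a)
    (p2 : ∀ z : D →ₐ[k] k, ∃ a : A, z (a : D × D × D).2.1 ≠ 0 ∧ P a)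
    (p3 : ∀ z : D →ₐ[k] k, ∃ a : A, z (a : D × D × D).2.2 ≠ 0 ∧ P a) :
    ∀ m : Ideal A, m.IsMaximal → ∃ a : A, a ∉ m ∧ P a :=
  forall_isMaximal_of_forall_point_prod3 hres A
    (isIntegral_prod3_of_proj_surjective A h1 h2 h3) P p1 p2 p3

end Const

end Fermat.Agent.S36.MaxPointInt
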