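import Mathlib
import Fermat.Agent.S36.K0Plan
import Fermat.Agent.S36.OnePlan
import Fermat.Agent.S36.FrobRoot
import Fermat.Agent.S36.MaxPointInt
import Fermat.Agent.S34.BKPlan
import Fermat.Agent.S34.Lift
import Fermat.Agent.S18.MainLemmas

/-!
# S36 / P8 — OneGen: the junction `K'`-contracts ⟹ `Plan.OneStmt` (helper27)

`oneStmt_of_k0`: from the contracts of `S36/K0Plan` (`RangeStmt`, `MidEqStmt`, `ConstStmt`,
`SurjStmt`, `InvKStmt`, `CondStmt`, `NormStmt c_a`, `TwistStmt c_b`) and `Plan.InclStmt` we get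
`Plan.OneStmt … (c_b * c_a)`.

Proof: `B' = Λ'(0)` is a ring, `Λ'(D)` a `B'`-module; `A₃ = ρ₃(B')` is a `k`-subalgebra of `B_κ³`
whose maximal ideals are points (`MaxPointInt`); at every point `P` a local generator `f` of
`Λ'(D'')` gives `y = ρ₃(f)/ξ'' ∈ B_κ³` with `yⁿ ∈ A₃`, `y = 1` at all points glued to `P` (after
scaling, by [TWIST]); the conductor element of [COND-K'] and the Frobenius root lemma give
`d', d' y ∈ A₃` with `(d' y)(P) ≠ 0`; partition of unity in `A₃` then gives ONE `g₀ ∈ Λ'(D'')`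
with `ρ₃(g₀) = ξ''`.
-/

set_option autoImplicit false
set_option linter.unusedSectionVars false
set_option linter.unusedVariables false

noncomputable section

namespace Fermat.Agent.S36.OneGen

open ModularCurve AlgebraicCurve Fermat.Agent.S24 Fermat.Agent.S18 Fermat.Agent.S18.Content
  Fermat.Agent.S18.Plan Fermat.Agent.S36.Plan Fermat.Agent.S36.K0Plan

/-! ## Products in `pullRR` -/

section Pull

variable {N Nt : ℕ}

theorem mul_mem_pullRR_add {B₁ B₂ : Divisor Kbar (FN N)} {g g' : Om}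
    (hg : g ∈ pullRR N Nt B₁) (hg' : g' ∈ pullRR N Nt B₂) :
    g * g' ∈ pullRR N Nt (B₁ + B₂) := by
  refine ⟨mul_mem hg.1 hg'.1, fun P t ht hB => ?_⟩
  obtain ⟨u, hu0, hu⟩ := Main.exists_ord_eq P (B₁ P)
  have h1 : IsIntegral (placeRing P) ((u : Om) * g) := hg.2 P u hu0 (le_of_eq hu.symm)
  have htu : t * u⁻¹ ≠ 0 := mul_ne_zero ht (inv_ne_zero hu0)
  have h2 : IsIntegral (placeRing P) (((t * u⁻¹ : FN N) : Om) * g') := by
    refine hg'.2 P (t * u⁻¹) htu ?_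
    rw [P.ord_mul ht (inv_ne_zero hu0), P.ord_inv, hu]
    have h3 : (B₁ + B₂) P = B₁ P + B₂ P := Finsupp.add_apply _ _ _
    omega
  have hu0' : (u : Om) ≠ 0 := by
    intro h0
    apply hu0
    exact Subtype.ext h0
  have e : (t : Om) * (g * g') = ((u : Om) * g) * (((t * u⁻¹ : FN N) : Om) * g') := by
    push_cast
    field_simp
  rw [e]
  exact h1.mul h2

end Pull

/-! ## `Fixed`, `Λ'(D)` and the reduction `ρ₃` -/

section Lam

variable {A : ValuationSubring Kbar}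

theorem fixed_mul {x y : Om} (hx : Fixed A x) (hy : Fixed A y) : Fixed A (x * y) :=
  fun τ hτ => by rw [map_mul, hx τ hτ, hy τ hτ]

theorem fixed_add {x y : Om} (hx : Fixed A x) (hy : Fixed A y) : Fixed A (x + y) :=
  fun τ hτ => by rw [map_add, hx τ hτ, hy τ hτ]

theorem fixed_pow {x : Om} (hx : Fixed A x) (n : ℕ) : Fixed A (x ^ n) :=
  fun τ hτ => by rw [map_pow, hx τ hτ]

theorem fixed_zero : Fixed A (0 : Om) := fun τ _ => map_zero _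

variable {N' M q : ℕ} [NeZero N'] [NeZero M] [NeZero q]
variable {O : Subring Om} {ρ : O →+* Rq A q} {E : Divisor Kbar (FN (N' * q))}

theorem mem_Lam {D : Divisor Kbar (FN (N' * q))} {g : O} :
    g ∈ Lam A N' M q O E D ↔ Fixed A (g : Om) ∧
      ∃ c : ℕ, (g : Om) ∈ pullRR (N' * q) (M * q * q) (D + c • E) := Iff.rfl

theorem lam_mul {D₁ D₂ : Divisor Kbar (FN (N' * q))} {f g : O}
    (hf : f ∈ Lam A N' M q O E D₁) (hg : g ∈ Lam A N' M q O E D₂) :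
    f * g ∈ Lam A N' M q O E (D₁ + D₂) := by
  obtain ⟨hf1, c₁, hf2⟩ := hf
  obtain ⟨hg1, c₂, hg2⟩ := hg
  refine ⟨?_, c₁ + c₂, ?_⟩
  · rw [Subring.coe_mul]
    exact fixed_mul hf1 hg1
  · have h := mul_mem_pullRR_add hf2 hg2
    have e : D₁ + D₂ + (c₁ + c₂) • E = D₁ + c₁ • E + (D₂ + c₂ • E) := by
      rw [add_smul]
      abel
    rw [Subring.coe_mul, e]
    exact h

theorem lam_mono (hE0 : ∀ P : Place Kbar (FN (N' * q)), 0 ≤ E P)
    {D : Divisor Kbar (FN (N' * q))} {g : Om} {c c' : ℕ} (hcc : c ≤ c')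
    (hg : g ∈ pullRR (N' * q) (M * q * q) (D + c • E)) :
    g ∈ pullRR (N' * q) (M * q * q) (D + c' • E) := by
  refine Main.pullRR_mono (fun P => ?_) hg
  rw [Fermat.Agent.S34.Lift.add_smul_E_apply, Fermat.Agent.S34.Lift.add_smul_E_apply]
  have h1 : (c : ℤ) * E P ≤ (c' : ℤ) * E P :=
    mul_le_mul_of_nonneg_right (by exact_mod_cast hcc) (hE0 P)
  linarith

theorem lam_add (hE0 : ∀ P : Place Kbar (FN (N' * q)), 0 ≤ E P)
    {D : Divisor Kbar (FN (N' * q))} {f g : O}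
    (hf : f ∈ Lam A N' M q O E D) (hg : g ∈ Lam A N' M q O E D) :
    f + g ∈ Lam A N' M q O E D := by
  obtain ⟨hf1, c₁, hf2⟩ := hf
  obtain ⟨hg1, c₂, hg2⟩ := hg
  refine ⟨?_, max c₁ c₂, ?_⟩
  · rw [Subring.coe_add]
    exact fixed_add hf1 hg1
  · rw [Subring.coe_add]
    exact Submodule.add_mem _ (lam_mono hE0 (le_max_left _ _) hf2)
      (lam_mono hE0 (le_max_right _ _) hg2)

theorem lam_zero (D : Divisor Kbar (FN (N' * q))) : (0 : O) ∈ Lam A N' M q O E D :=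
  ⟨fixed_zero, 0, Submodule.zero_mem _⟩

/-- A `K₀`-rational constant of `O` lies in `B'`. -/
theorem const_mem_Bp (hE0 : ∀ P : Place Kbar (FN (N' * q)), 0 ≤ E P) (a : Kbar)
    (h : (HahnSeries.C a : Om) ∈ O) (hfix : Fixed A (HahnSeries.C a : Om)) :
    (⟨_, h⟩ : O) ∈ Bp A N' M q O E := by
  refine ⟨hfix, 0, ?_⟩
  have h1 : (1 : Om) ∈ pullRR (N' * q) (M * q * q) ((0 : Divisor Kbar (FN (N' * q))) + 0 • E) :=
    Main.one_mem_pullRR (fun P => by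
      rw [Fermat.Agent.S34.Lift.add_smul_E_apply]
      simp)
  have h2 := Main.C_mul_mem_pullRR a h1
  rwa [mul_one] at h2

@[simp] theorem rho3_apply (ξ₀ : MidIdx q) (g : O) :
    rho3 A q O ρ ξ₀ g = (ρ g Coord.inf, ρ g (Coord.mid ξ₀), ρ g Coord.zero) := rfl

@[simp] theorem iota3_apply (t : BK3 A M) :
    iota3 A M t = ((t.1 : Omk A), (t.2.1 : Omk A), (t.2.2 : Omk A)) := rfl

theorem iota3_injective : Function.Injective (iota3 A M) := by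
  rintro ⟨a, b, c⟩ ⟨a', b', c'⟩ h
  simp only [iota3_apply, Prod.mk.injEq] at h
  obtain ⟨h1, h2, h3⟩ := h
  exact Prod.ext (Subtype.ext h1) (Prod.ext (Subtype.ext h2) (Subtype.ext h3))

theorem iota3_algebraMap (κ : kk A) :
    iota3 A M (algebraMap (kk A) (BK3 A M) κ) =
      (HahnSeries.C κ, HahnSeries.C κ, HahnSeries.C κ) := by
  rw [iota3_apply]
  simp only [Prod.algebraMap_apply, Subalgebra.coe_algebraMap, algebraMap_LS_eq_C]

end Lam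

/-! ## The junction -/

section Junction

variable {A : ValuationSubring Kbar} {N' M q : ℕ} [NeZero N'] [NeZero M] [NeZero q]
variable {O : Subring Om} {ρ : O →+* Rq A q} {E : Divisor Kbar (FN (N' * q))} {ξ₀ : MidIdx q}

theorem isE3_nonneg {hq : q ∣ N' * q} {hqq : q * q ∣ N' * q} (hE : IsE3 (N' * q) q hq hqq E)
    (P : Place Kbar (FN (N' * q))) : 0 ≤ E P := by
  rw [hE P]
  exact add_nonneg (add_nonneg (le_max_left _ _) (le_max_left _ _)) (le_max_left _ _)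

/-- The residue fields of `B_κ` are `k`. -/
theorem hres_BKM (P : Ideal ↥(BKM A M)) (hP : P.IsMaximal) :
    Function.Surjective (algebraMap (kk A) (↥(BKM A M) ⧸ P)) := by
  have key : ∀ S : Subalgebra (kk A) (Omk A), S = Fermat.Agent.S34.BKappa.BK (kk A) M →
      ∀ P : Ideal ↥S, P.IsMaximal → Function.Surjective (algebraMap (kk A) (↥S ⧸ P)) := by
    rintro S rfl P hP
    exact Fermat.Agent.S34.BKappa.residue_surjective_kk A M P hP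
  exact key _ (Fermat.Agent.S34.BKPlan.planBK_eq A M) P hP

theorem charP_BK3 (p : ℕ) [CharP (kk A) p] : CharP (BK3 A M) p :=
  charP_of_injective_algebraMap (algebraMap (kk A) (BK3 A M)).injective p

theorem isPt_algebraMap {P : BK3 A M →+* kk A} (hP : IsPt A M P) (κ : kk A) :
    P (algebraMap (kk A) (BK3 A M) κ) = κ := by
  obtain ⟨z, h | h | h⟩ := hP <;> subst h <;>
    simp [Prod.algebraMap_apply]

/-- An element of `k((T))³` with coordinates in `F_{M,k}` whose `n`-th power lies in `B_κ³` lies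
in `B_κ³`. -/
theorem exists_iota3_of_pow (Y : R3 A) (h1 : Y.1 ∈ Fk A M) (h2 : Y.2.1 ∈ Fk A M)
    (h3 : Y.2.2 ∈ Fk A M) (n : ℕ) (hn : 0 < n) (t : BK3 A M) (h : Y ^ n = iota3 A M t) :
    ∃ y : BK3 A M, Y = iota3 A M y := by
  have e1 : Y.1 ^ n = (t.1 : Omk A) := by
    have := congrArg Prod.fst h
    simpa using this
  have e2 : Y.2.1 ^ n = (t.2.1 : Omk A) := by
    have := congrArg (fun x : R3 A => x.2.1) h
    simpa using this
  have e3 : Y.2.2 ^ n = (t.2.2 : Omk A) := by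
    have := congrArg (fun x : R3 A => x.2.2) h
    simpa using this
  have i1 : IsIntegral (polyJ (kk A)) Y.1 :=
    IsIntegral.of_pow hn (by rw [e1]; exact (Fermat.Agent.S34.BKPlan.mem_planBK.1 t.1.2).2)
  have i2 : IsIntegral (polyJ (kk A)) Y.2.1 :=
    IsIntegral.of_pow hn (by rw [e2]; exact (Fermat.Agent.S34.BKPlan.mem_planBK.1 t.2.1.2).2)
  have i3 : IsIntegral (polyJ (kk A)) Y.2.2 :=
    IsIntegral.of_pow hn (by rw [e3]; exact (Fermat.Agent.S34.BKPlan.mem_planBK.1 t.2.2.2).2)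
  exact ⟨(⟨Y.1, Fermat.Agent.S34.BKPlan.mem_planBK.2 ⟨h1, i1⟩⟩,
    ⟨Y.2.1, Fermat.Agent.S34.BKPlan.mem_planBK.2 ⟨h2, i2⟩⟩,
    ⟨Y.2.2, Fermat.Agent.S34.BKPlan.mem_planBK.2 ⟨h3, i3⟩⟩), rfl⟩

/-- `b ∈ B'` reduces into `B_κ³`. -/
theorem exists_iota3_of_mem_Bp (hq' : q ∣ N')
    (hIncl : InclStmt A (N' * q) M q (Dvd.intro_left N' rfl) (Nat.mul_dvd_mul_right hq' q) O ρ)
    (hRange : RangeStmt A M q O ρ ξ₀)
    (hE : IsE3 (N' * q) q (Dvd.intro_left N' rfl) (Nat.mul_dvd_mul_right hq' q) E)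
    {b : O} (hb : b ∈ Bp A N' M q O E) :
    ∃ t : BK3 A M, rho3 A q O ρ ξ₀ b = iota3 A M t := by
  obtain ⟨hfix, c, hc⟩ := hb
  rw [zero_add] at hc
  have hW := hIncl E hE c b hc
  obtain ⟨h1, h2, h3⟩ := hRange b hfix
  obtain ⟨_, i1, _⟩ := hW Coord.inf
  obtain ⟨_, i2, _⟩ := hW (Coord.mid ξ₀)
  obtain ⟨_, i3, _⟩ := hW Coord.zero
  exact ⟨(⟨_, Fermat.Agent.S34.BKPlan.mem_planBK.2 ⟨h1, i1⟩⟩,
    ⟨_, Fermat.Agent.S34.BKPlan.mem_planBK.2 ⟨h2, i2⟩⟩,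
    ⟨_, Fermat.Agent.S34.BKPlan.mem_planBK.2 ⟨h3, i3⟩⟩), rfl⟩

/-- `w · fⁿ ∈ B'` for `f ∈ Λ'(D)` and `div w = n D`. -/
theorem mul_pow_mem_Bp
    (hle : modularFunctionFieldBar (N' * q) ≤ modularFunctionFieldBar (M * q * q))
    {D : Divisor Kbar (FN (N' * q))} {n : ℕ} (w : FN (N' * q)) (hw0 : w ≠ 0)
    (hord : ∀ P : Place Kbar (FN (N' * q)), P.ord w = n * D P)
    (hw : (w : Om) ∈ O) (hwfix : Fixed A (w : Om)) {f : O} (hf : f ∈ Lam A N' M q O E D) :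
    (⟨_, hw⟩ : O) * f ^ n ∈ Bp A N' M q O E := by
  obtain ⟨hf1, c, hf2⟩ := hf
  refine ⟨?_, n * c, ?_⟩
  · rw [Subring.coe_mul, Subring.coe_pow]
    exact fixed_mul hwfix (fixed_pow hf1 n)
  · have h1 : ((f : O) : Om) ^ n ∈ pullRR (N' * q) (M * q * q) (n • (D + c • E)) :=
      Main.pow_mem_pullRR n (fun P => Fermat.Agent.S34.Lift.smul_E_apply _ n P) hf2
    have h2 := Fermat.Agent.S34.Lift.mul_mem_pullRR_of_le hle (h := w) hw0
      (B := n • (D + c • E)) (B' := 0 + (n * c) • E) (fun P => by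
        rw [Fermat.Agent.S34.Lift.smul_E_apply, Fermat.Agent.S34.Lift.add_smul_E_apply,
          Fermat.Agent.S34.Lift.add_smul_E_apply, hord P, Finsupp.zero_apply]
        push_cast
        linarith) h1
    rw [Subring.coe_mul, Subring.coe_pow]
    exact h2

/-- `w⁻¹ · gⁿ ∈ B'` for `g ∈ Λ'(-D)` and `div w = n D`. -/
theorem inv_mul_pow_mem_Bp
    (hle : modularFunctionFieldBar (N' * q) ≤ modularFunctionFieldBar (M * q * q))
    {D : Divisor Kbar (FN (N' * q))} {n : ℕ} (w : FN (N' * q)) (hw0 : w ≠ 0)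
    (hord : ∀ P : Place Kbar (FN (N' * q)), P.ord w = n * D P)
    (hwinv : ((w : Om))⁻¹ ∈ O) (hwfix : Fixed A ((w : Om))⁻¹) {g : O}
    (hg : g ∈ Lam A N' M q O E (-D)) :
    (⟨_, hwinv⟩ : O) * g ^ n ∈ Bp A N' M q O E := by
  obtain ⟨hg1, c, hg2⟩ := hg
  refine ⟨?_, n * c, ?_⟩
  · rw [Subring.coe_mul, Subring.coe_pow]
    exact fixed_mul hwfix (fixed_pow hg1 n)
  · have h1 : ((g : O) : Om) ^ n ∈ pullRR (N' * q) (M * q * q) (n • (-D + c • E)) :=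
      Main.pow_mem_pullRR n (fun P => Fermat.Agent.S34.Lift.smul_E_apply _ n P) hg2
    have h2 := Fermat.Agent.S34.Lift.mul_mem_pullRR_of_le hle (h := w⁻¹) (inv_ne_zero hw0)
      (B := n • (-D + c • E)) (B' := 0 + (n * c) • E) (fun P => by
        rw [Fermat.Agent.S34.Lift.smul_E_apply, Fermat.Agent.S34.Lift.add_smul_E_apply,
          Fermat.Agent.S34.Lift.add_smul_E_apply, P.ord_inv, hord P, Finsupp.zero_apply,
          Finsupp.neg_apply]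
        push_cast
        linarith) h1
    have e : ((w⁻¹ : FN (N' * q)) : Om) = ((w : Om))⁻¹ := rfl
    rw [Subring.coe_mul, Subring.coe_pow]
    rw [e] at h2
    exact h2

variable (M E ξ₀) in
/-- `A₃ = ρ₃(B')` as a `k`-subalgebra of `B_κ³`. -/
def A3alg (hE0 : ∀ P : Place Kbar (FN (N' * q)), 0 ≤ E P) (hConst : ConstStmt A q O ρ) :
    Subalgebra (kk A) (BK3 A M) where
  carrier := A3 A N' M q O ρ E ξ₀
  mul_mem' := by
    rintro t t' ⟨b, hb, h⟩ ⟨b', hb', h'⟩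
    refine ⟨b * b', ?_, by rw [map_mul, map_mul, h, h']⟩
    have := lam_mul hb hb'
    rwa [add_zero] at this
  add_mem' := by
    rintro t t' ⟨b, hb, h⟩ ⟨b', hb', h'⟩
    exact ⟨b + b', lam_add hE0 hb hb', by rw [map_add, map_add, h, h']⟩
  algebraMap_mem' := by
    intro κ
    obtain ⟨a, h, hfix, hρ⟩ := hConst κ
    refine ⟨⟨_, h⟩, const_mem_Bp hE0 a h hfix, ?_⟩
    rw [iota3_algebraMap, rho3_apply, hρ, hρ, hρ]

theorem mem_A3alg {hE0 : ∀ P : Place Kbar (FN (N' * q)), 0 ≤ E P} {hConst : ConstStmt A q O ρ}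
    {t : BK3 A M} : t ∈ A3alg M E ξ₀ hE0 hConst ↔ t ∈ A3 A N' M q O ρ E ξ₀ := Iff.rfl

variable (M E ξ₀) in
/-- The ideal `{a ∈ A₃ : a ξ ∈ ρ₃(Λ'(D))}`. -/
def Jideal (hE0 : ∀ P : Place Kbar (FN (N' * q)), 0 ≤ E P) (hConst : ConstStmt A q O ρ)
    (D : Divisor Kbar (FN (N' * q))) (ξ : R3 A) : Ideal ↥(A3alg M E ξ₀ hE0 hConst) where
  carrier := {a | ∃ f ∈ Lam A N' M q O E D,
    rho3 A q O ρ ξ₀ f = iota3 A M (a : BK3 A M) * ξ}
  add_mem' := by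
    rintro a a' ⟨f, hf, h⟩ ⟨f', hf', h'⟩
    exact ⟨f + f', lam_add hE0 hf hf', by
      rw [map_add, h, h', Subalgebra.coe_add, map_add, add_mul]⟩
  zero_mem' := ⟨0, lam_zero D, by rw [map_zero, ZeroMemClass.coe_zero, map_zero, zero_mul]⟩
  smul_mem' := by
    rintro c a ⟨f, hf, h⟩
    obtain ⟨b, hb, hb'⟩ := mem_A3alg.1 c.2
    refine ⟨b * f, ?_, ?_⟩
    · have := lam_mul hb hf
      rwa [zero_add] at this
    · rw [map_mul, hb', h, smul_eq_mul, Subalgebra.coe_mul, map_mul, mul_assoc]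

/-- Step 1 of the local step: `y = ρ₃(f)/ξ ∈ B_κ³`, `yⁿ ∈ A₃`, `y(P) ≠ 0`. -/
theorem exists_y [CharP (kk A) q] (hq' : q ∣ N')
    (hle : modularFunctionFieldBar (N' * q) ≤ modularFunctionFieldBar (M * q * q))
    (hIncl : InclStmt A (N' * q) M q (Dvd.intro_left N' rfl) (Nat.mul_dvd_mul_right hq' q) O ρ)
    (hRange : RangeStmt A M q O ρ ξ₀)
    (hE : IsE3 (N' * q) q (Dvd.intro_left N' rfl) (Nat.mul_dvd_mul_right hq' q) E)
    (D : Divisor Kbar (FN (N' * q))) (n : ℕ) (hn0 : 0 < n)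
    (w : FN (N' * q)) (hw0 : w ≠ 0)
    (hord : ∀ P : Place Kbar (FN (N' * q)), P.ord w = n * D P)
    (hw : (w : Om) ∈ O) (hwfix : Fixed A (w : Om)) (hwinv : ((w : Om))⁻¹ ∈ O)
    (hwinvfix : Fixed A ((w : Om))⁻¹)
    (ξ : R3 A) (hξF : ξ.1 ∈ Fk A M ∧ ξ.2.1 ∈ Fk A M ∧ ξ.2.2 ∈ Fk A M)
    (hρ : rho3 A q O ρ ξ₀ ⟨_, hw⟩ * ξ ^ n = 1)
    (P : BK3 A M →+* kk A)
    (f g : O) (hf : f ∈ Lam A N' M q O E D) (hg : g ∈ Lam A N' M q O E (-D)) (t : BK3 A M)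
    (hfg : rho3 A q O ρ ξ₀ (f * g) = iota3 A M t) (hPt : P t ≠ 0) :
    ∃ y : BK3 A M, rho3 A q O ρ ξ₀ f = iota3 A M y * ξ ∧ y ^ n ∈ A3 A N' M q O ρ E ξ₀ ∧
      P y ≠ 0 := by
  have hw0' : (w : Om) ≠ 0 := fun h0 => hw0 (Subtype.ext h0)
  -- the inverse of `ξ`
  have hξξ' : ξ * (rho3 A q O ρ ξ₀ ⟨_, hw⟩ * ξ ^ (n - 1)) = 1 := by
    rw [mul_left_comm, ← pow_succ', Nat.sub_add_cancel hn0]
    exact hρ
  have hξ'n : (rho3 A q O ρ ξ₀ ⟨_, hw⟩ * ξ ^ (n - 1)) ^ n = rho3 A q O ρ ξ₀ ⟨_, hw⟩ := by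
    have h1 : (rho3 A q O ρ ξ₀ ⟨_, hw⟩ * ξ ^ (n - 1)) ^ n =
        (rho3 A q O ρ ξ₀ ⟨_, hw⟩ * ξ ^ (n - 1)) ^ n * (rho3 A q O ρ ξ₀ ⟨_, hw⟩ * ξ ^ n) := by
      rw [hρ, mul_one]
    have h2 : (rho3 A q O ρ ξ₀ ⟨_, hw⟩ * ξ ^ (n - 1)) ^ n * (rho3 A q O ρ ξ₀ ⟨_, hw⟩ * ξ ^ n) =
        rho3 A q O ρ ξ₀ ⟨_, hw⟩ * (ξ * (rho3 A q O ρ ξ₀ ⟨_, hw⟩ * ξ ^ (n - 1))) ^ n := by
      rw [mul_pow ξ, mul_left_comm, mul_comm (ξ ^ n)]
    rw [h1, h2, hξξ', one_pow, mul_one]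
  -- the units `e₁ = w fⁿ`, `e₂ = w⁻¹ gⁿ` of `B'`
  have he1 : (⟨_, hw⟩ : O) * f ^ n ∈ Bp A N' M q O E :=
    mul_pow_mem_Bp hle w hw0 hord hw hwfix hf
  have he2 : (⟨_, hwinv⟩ : O) * g ^ n ∈ Bp A N' M q O E :=
    inv_mul_pow_mem_Bp hle w hw0 hord hwinv hwinvfix hg
  obtain ⟨te1, hte1⟩ := exists_iota3_of_mem_Bp hq' hIncl hRange hE he1
  obtain ⟨te2, hte2⟩ := exists_iota3_of_mem_Bp hq' hIncl hRange hE he2
  have hprod : (⟨_, hw⟩ : O) * f ^ n * ((⟨_, hwinv⟩ : O) * g ^ n) = (f * g) ^ n := by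
    apply Subtype.ext
    rw [Subring.coe_mul, Subring.coe_mul, Subring.coe_mul, Subring.coe_pow, Subring.coe_pow,
      Subring.coe_pow, Subring.coe_mul]
    show (w : Om) * (f : Om) ^ n * (((w : Om))⁻¹ * (g : Om) ^ n) = ((f : Om) * (g : Om)) ^ n
    rw [mul_pow, mul_mul_mul_comm, mul_inv_cancel₀ hw0', one_mul]
  have hte : te1 * te2 = t ^ n := by
    apply iota3_injective
    rw [map_mul, ← hte1, ← hte2, ← map_mul, hprod, map_pow, hfg, map_pow]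
  have hPte1 : P te1 ≠ 0 := by
    intro h0
    apply hPt
    have h1 := congrArg P hte
    rw [map_mul, h0, zero_mul, map_pow] at h1
    exact pow_eq_zero_iff hn0.ne' |>.1 h1.symm
  -- `y = ρ₃(f)/ξ ∈ B_κ³`
  obtain ⟨r1, r2, r3⟩ := hRange f hf.1
  obtain ⟨s1, s2, s3⟩ := hRange ⟨_, hw⟩ hwfix
  obtain ⟨x1, x2, x3⟩ := hξF
  have hYn : (rho3 A q O ρ ξ₀ f * (rho3 A q O ρ ξ₀ ⟨_, hw⟩ * ξ ^ (n - 1))) ^ n
      = iota3 A M te1 := by
    rw [mul_pow, hξ'n, ← map_pow, ← map_mul, mul_comm, hte1]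
  obtain ⟨y, hy⟩ := exists_iota3_of_pow
    (rho3 A q O ρ ξ₀ f * (rho3 A q O ρ ξ₀ ⟨_, hw⟩ * ξ ^ (n - 1)))
    (mul_mem r1 (mul_mem s1 (pow_mem x1 _)))
    (mul_mem r2 (mul_mem s2 (pow_mem x2 _)))
    (mul_mem r3 (mul_mem s3 (pow_mem x3 _)))
    n hn0 te1 hYn
  have hfy : rho3 A q O ρ ξ₀ f = iota3 A M y * ξ := by
    rw [← hy, mul_assoc, mul_comm _ ξ, hξξ', mul_one]
  have hyn : y ^ n = te1 := by
    apply iota3_injective
    rw [map_pow, ← hy, hYn]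
  refine ⟨y, hfy, ?_, ?_⟩
  · rw [hyn]
    exact ⟨_, he1, hte1⟩
  · intro h0
    apply hPte1
    rw [← hyn, map_pow, h0, zero_pow hn0.ne']

/-- Step 2 of the local step: scaling, [TWIST], [COND-K'] and the Frobenius root. -/
theorem loc_of_y (hq : q.Prime) [CharP (kk A) q] (hConst : ConstStmt A q O ρ)
    (hE0 : ∀ P : Place Kbar (FN (N' * q)), 0 ≤ E P)
    (hCond : CondStmt A N' M q O ρ ξ₀ E)
    (D : Divisor Kbar (FN (N' * q))) (n : ℕ) (hnq : ¬ q ∣ n) (ξ : R3 A)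
    (hTw : TwistCompat A N' M q O ρ ξ₀ E D ξ)
    (P : BK3 A M →+* kk A) (hP : IsPt A M P)
    (f g : O) (hf : f ∈ Lam A N' M q O E D) (hg : g ∈ Lam A N' M q O E (-D)) (t : BK3 A M)
    (hfg : rho3 A q O ρ ξ₀ (f * g) = iota3 A M t) (hPt : P t ≠ 0)
    (y : BK3 A M) (hfy : rho3 A q O ρ ξ₀ f = iota3 A M y * ξ)
    (hyn : y ^ n ∈ A3 A N' M q O ρ E ξ₀) (hPy : P y ≠ 0) :
    ∃ a ∈ A3 A N' M q O ρ E ξ₀, P a ≠ 0 ∧
      ∃ f' ∈ Lam A N' M q O E D, rho3 A q O ρ ξ₀ f' = iota3 A M a * ξ := by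
  have hFact : Fact q.Prime := ⟨hq⟩
  have hCh : CharP (BK3 A M) q := charP_BK3 q
  have hcop : Nat.Coprime n q := ((Nat.Prime.coprime_iff_not_dvd hq).2 hnq).symm
  -- scale to `y(P) = 1`
  obtain ⟨a, ha, hafix, haρ⟩ := hConst (P y)⁻¹
  have hcO : (⟨_, ha⟩ : O) ∈ Bp A N' M q O E := const_mem_Bp hE0 a ha hafix
  have hcρ : rho3 A q O ρ ξ₀ ⟨_, ha⟩ = iota3 A M (algebraMap (kk A) (BK3 A M) (P y)⁻¹) := by
    rw [iota3_algebraMap, rho3_apply, haρ, haρ, haρ]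
  have hf1 : (⟨_, ha⟩ : O) * f ∈ Lam A N' M q O E D := by
    have := lam_mul hcO hf
    rwa [zero_add] at this
  obtain ⟨y1, hy1⟩ : ∃ y1 : BK3 A M, y1 = algebraMap (kk A) (BK3 A M) (P y)⁻¹ * y := ⟨_, rfl⟩
  have hf1y : rho3 A q O ρ ξ₀ ((⟨_, ha⟩ : O) * f) = iota3 A M y1 * ξ := by
    rw [map_mul, hcρ, hfy, hy1, map_mul, mul_assoc]
  have hPy1 : P y1 = 1 := by
    rw [hy1, map_mul, isPt_algebraMap hP, inv_mul_cancel₀ hPy]
  obtain ⟨t1, ht1⟩ : ∃ t1 : BK3 A M, t1 = algebraMap (kk A) (BK3 A M) (P y)⁻¹ * t := ⟨_, rfl⟩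
  have hf1g : rho3 A q O ρ ξ₀ ((⟨_, ha⟩ : O) * f * g) = iota3 A M t1 := by
    rw [mul_assoc, map_mul, hcρ, hfg, ht1, map_mul]
  have hPt1 : P t1 ≠ 0 := by
    rw [ht1, map_mul, isPt_algebraMap hP]
    exact mul_ne_zero (inv_ne_zero hPy) hPt
  have hglue : ∀ Q : BK3 A M →+* kk A, IsPt A M Q → Glued A N' M q O ρ E ξ₀ P Q →
      Q y1 = 1 := fun Q hQ hPQ => by
    rw [hTw P hP _ hf1 g hg t1 y1 hf1g hPt1 hf1y Q hQ hPQ, hPy1]
  obtain ⟨td, htd, hPtd, N, hN⟩ := hCond P hP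
  have hN' := hN y1 hglue
  -- the Frobenius root step
  have hy1n : y1 ^ n ∈ A3alg M E ξ₀ hE0 hConst := by
    rw [hy1, mul_pow]
    exact Subalgebra.mul_mem _ (Subalgebra.pow_mem _ (Subalgebra.algebraMap_mem _ _) n)
      (mem_A3alg.2 hyn)
  have hc : ∀ x ∈ Ideal.span {td * (y1 - 1) ^ N}, x ∈ A3alg M E ξ₀ hE0 hConst := by
    intro x hx
    obtain ⟨r, rfl⟩ := Ideal.mem_span_singleton'.1 hx
    have := hN' r
    rw [mem_A3alg, mul_comm]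
    exact this
  obtain ⟨d', hd', hd'y, hev⟩ := @Fermat.Agent.S36.FrobRoot.exists_mul_mem_subalgebra
    (BK3 A M) _ (kk A) _ _ q hFact hCh (A3alg M E ξ₀ hE0 hConst)
    (Ideal.span {td * (y1 - 1) ^ N}) hc n hcop y1 hy1n td (mem_A3alg.2 htd) N
    (Ideal.subset_span rfl)
  obtain ⟨_, hev2⟩ := hev P hPy1
  obtain ⟨b1, hb1, hb1ρ⟩ := mem_A3alg.1 hd'
  refine ⟨d' * y1, mem_A3alg.1 hd'y, ?_, (⟨_, ha⟩ : O) * f * b1, ?_, ?_⟩
  · rw [hev2]
    exact hPtd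
  · have := lam_mul hf1 hb1
    rwa [add_zero] at this
  · rw [map_mul, hf1y, hb1ρ, map_mul, mul_comm (iota3 A M d'), mul_right_comm]

/-- **Partition of unity**: `ξ ∈ ρ₃(Λ'(D))`. -/
theorem exists_g0 (hq : q.Prime) [CharP (kk A) q] (hq' : q ∣ N')
    (hle : modularFunctionFieldBar (N' * q) ≤ modularFunctionFieldBar (M * q * q))
    (hIncl : InclStmt A (N' * q) M q (Dvd.intro_left N' rfl) (Nat.mul_dvd_mul_right hq' q) O ρ)
    (hRange : RangeStmt A M q O ρ ξ₀) (hConst : ConstStmt A q O ρ)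
    (hE : IsE3 (N' * q) q (Dvd.intro_left N' rfl) (Nat.mul_dvd_mul_right hq' q) E)
    (hSurj : SurjStmt A N' M q O ρ ξ₀ E)
    (hInv : InvKStmt A N' M q O ρ ξ₀ E) (hCond : CondStmt A N' M q O ρ ξ₀ E)
    (D : Divisor Kbar (FN (N' * q)))
    (hDst : ∀ τ : Kbar ≃ₐ[ℚ] Kbar, τ ∈ A.inertiaSubgroupIn ℚ →
      Fermat.Agent.S34.Plan.gal (N' * q) τ • D = D)
    (n : ℕ) (hn0 : 0 < n) (hnq : ¬ q ∣ n)
    (w : FN (N' * q)) (hw0 : w ≠ 0)
    (hord : ∀ P : Place Kbar (FN (N' * q)), P.ord w = n * D P)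
    (hw : (w : Om) ∈ O) (hwfix : Fixed A (w : Om)) (hwinv : ((w : Om))⁻¹ ∈ O)
    (hwinvfix : Fixed A ((w : Om))⁻¹)
    (ξ : R3 A) (hξF : ξ.1 ∈ Fk A M ∧ ξ.2.1 ∈ Fk A M ∧ ξ.2.2 ∈ Fk A M)
    (hρ : rho3 A q O ρ ξ₀ ⟨_, hw⟩ * ξ ^ n = 1)
    (hTw : TwistCompat A N' M q O ρ ξ₀ E D ξ) :
    ∃ g₀ ∈ Lam A N' M q O E D, rho3 A q O ρ ξ₀ g₀ = ξ := by
  have hE0 : ∀ P : Place Kbar (FN (N' * q)), 0 ≤ E P := isE3_nonneg hE
  have hloc : ∀ P : BK3 A M →+* kk A, IsPt A M P →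
      ∃ a ∈ A3 A N' M q O ρ E ξ₀, P a ≠ 0 ∧
        ∃ f' ∈ Lam A N' M q O E D, rho3 A q O ρ ξ₀ f' = iota3 A M a * ξ := by
    intro P hP
    obtain ⟨f, hf, g, hg, t, hfg, hPt⟩ := hInv D hDst P hP
    obtain ⟨y, hfy, hyn, hPy⟩ := exists_y hq' hle hIncl hRange hE D n hn0 w hw0 hord hw hwfix
      hwinv hwinvfix ξ hξF hρ P f g hf hg t hfg hPt
    exact loc_of_y hq hConst hE0 hCond D n hnq ξ hTw P hP f g hf hg t hfg hPt y hfy hyn hPy
  have hJ : Jideal M E ξ₀ hE0 hConst D ξ = ⊤ := by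
    by_contra hne
    obtain ⟨m, hm, hJm⟩ := Ideal.exists_le_maximal _ hne
    obtain ⟨a, ham, haJ⟩ :=
      Fermat.Agent.S36.MaxPointInt.forall_isMaximal_of_forall_point_prod3_of_surj
        (k := kk A) (D := ↥(BKM A M)) hres_BKM (A3alg M E ξ₀ hE0 hConst)
        (fun d => by
          obtain ⟨b, hb, hbd⟩ := (hSurj d).1
          obtain ⟨t, ht⟩ := exists_iota3_of_mem_Bp hq' hIncl hRange hE hb
          refine ⟨⟨t, mem_A3alg.2 ⟨b, hb, ht⟩⟩, Subtype.ext ?_⟩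
          have := congrArg Prod.fst ht
          rw [rho3_apply, iota3_apply] at this
          exact this.symm.trans hbd)
        (fun d => by
          obtain ⟨b, hb, hbd⟩ := (hSurj d).2.1
          obtain ⟨t, ht⟩ := exists_iota3_of_mem_Bp hq' hIncl hRange hE hb
          refine ⟨⟨t, mem_A3alg.2 ⟨b, hb, ht⟩⟩, Subtype.ext ?_⟩
          have := congrArg (fun x : R3 A => x.2.1) ht
          rw [rho3_apply, iota3_apply] at this
          exact this.symm.trans hbd)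
        (fun d => by
          obtain ⟨b, hb, hbd⟩ := (hSurj d).2.2
          obtain ⟨t, ht⟩ := exists_iota3_of_mem_Bp hq' hIncl hRange hE hb
          refine ⟨⟨t, mem_A3alg.2 ⟨b, hb, ht⟩⟩, Subtype.ext ?_⟩
          have := congrArg (fun x : R3 A => x.2.2) ht
          rw [rho3_apply, iota3_apply] at this
          exact this.symm.trans hbd)
        (fun a => a ∈ Jideal M E ξ₀ hE0 hConst D ξ)
        (fun z => by
          obtain ⟨a, ha, hPa, f', hf', h⟩ :=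
            hloc ((z : ↥(BKM A M) →+* kk A).comp (RingHom.fst _ _)) ⟨z, Or.inl rfl⟩
          exact ⟨⟨a, mem_A3alg.2 ha⟩, hPa, f', hf', h⟩)
        (fun z => by
          obtain ⟨a, ha, hPa, f', hf', h⟩ :=
            hloc ((z : ↥(BKM A M) →+* kk A).comp ((RingHom.fst _ _).comp (RingHom.snd _ _)))
              ⟨z, Or.inr (Or.inl rfl)⟩
          exact ⟨⟨a, mem_A3alg.2 ha⟩, hPa, f', hf', h⟩)
        (fun z => by
          obtain ⟨a, ha, hPa, f', hf', h⟩ :=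
            hloc ((z : ↥(BKM A M) →+* kk A).comp ((RingHom.snd _ _).comp (RingHom.snd _ _)))
              ⟨z, Or.inr (Or.inr rfl)⟩
          exact ⟨⟨a, mem_A3alg.2 ha⟩, hPa, f', hf', h⟩)
        m hm
    exact ham (hJm haJ)
  have h1J : (1 : ↥(A3alg M E ξ₀ hE0 hConst)) ∈ Jideal M E ξ₀ hE0 hConst D ξ := by
    rw [hJ]
    exact Submodule.mem_top
  obtain ⟨g₀, hg₀, h⟩ := h1J
  exact ⟨g₀, hg₀, by rw [h, OneMemClass.coe_one, map_one, one_mul]⟩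

theorem fixed_inv {x : Om} (hx : Fixed A x) : Fixed A x⁻¹ :=
  fun τ hτ => by rw [map_inv₀, hx τ hτ]

/-- **The core of the junction**: a stable datum `(D, n)` with a normalised Kummer function `w`
and `ρ₃(w) ξⁿ = 1` gives ONE section for `(c_b • D, w ^ c_b)`. -/
theorem one_of_data (hq : q.Prime) [CharP (kk A) q] (hq' : q ∣ N')
    (hle : modularFunctionFieldBar (N' * q) ≤ modularFunctionFieldBar (M * q * q)) (cb : ℕ)
    (hIncl : InclStmt A (N' * q) M q (Dvd.intro_left N' rfl) (Nat.mul_dvd_mul_right hq' q) O ρ)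
    (hRange : RangeStmt A M q O ρ ξ₀) (hMid : MidEqStmt A q O ρ) (hConst : ConstStmt A q O ρ)
    (hE : IsE3 (N' * q) q (Dvd.intro_left N' rfl) (Nat.mul_dvd_mul_right hq' q) E)
    (hSurj : SurjStmt A N' M q O ρ ξ₀ E)
    (hInv : InvKStmt A N' M q O ρ ξ₀ E) (hCond : CondStmt A N' M q O ρ ξ₀ E)
    (hTwist : TwistStmt A N' M q hq' O ρ ξ₀ cb)
    (D : Divisor Kbar (FN (N' * q))) (n : ℕ) (hD : StableData A N' q D n)
    (w : FN (N' * q)) (hw0 : w ≠ 0)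
    (hord : ∀ P : Place Kbar (FN (N' * q)), P.ord w = n * D P)
    (hw : (w : Om) ∈ O) (hwfix : Fixed A (w : Om)) (hwinv : ((w : Om))⁻¹ ∈ O)
    (ξ : R3 A) (hξF : ξ.1 ∈ Fk A M ∧ ξ.2.1 ∈ Fk A M ∧ ξ.2.2 ∈ Fk A M)
    (hρ : rho3 A q O ρ ξ₀ ⟨_, hw⟩ * ξ ^ n = 1) :
    ∃ (hw' : ((w ^ cb : FN (N' * q)) : Om) ∈ O) (g₀ : O) (c : ℕ),
      (g₀ : Om) ∈ pullRR (N' * q) (M * q * q) (cb • D + c • E) ∧
      (∀ i : Coord q, ρ g₀ i ≠ 0) ∧ ρ ⟨_, hw'⟩ * ρ g₀ ^ n = 1 := by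
  obtain ⟨ζ, hζ1, hζ2, hζ3, hTw⟩ := hTwist D n hD E hE w hw ξ hw0 hord hwfix hwinv hξF hρ
  have hwcoe : ((w ^ cb : FN (N' * q)) : Om) = (w : Om) ^ cb := rfl
  have hw' : ((w ^ cb : FN (N' * q)) : Om) ∈ O := by
    rw [hwcoe]
    exact O.pow_mem hw cb
  have hρ'' : rho3 A q O ρ ξ₀ ⟨_, hw'⟩ *
      ((HahnSeries.C ζ.1, HahnSeries.C ζ.2.1, HahnSeries.C ζ.2.2) * ξ ^ cb) ^ n = 1 := by
    have e1 : (⟨_, hw'⟩ : O) = (⟨_, hw⟩ : O) ^ cb := Subtype.ext (by rw [Subring.coe_pow]; rfl)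
    have e2 : ((HahnSeries.C ζ.1, HahnSeries.C ζ.2.1, HahnSeries.C ζ.2.2) : R3 A) ^ n = 1 := by
      rw [Prod.pow_mk, Prod.pow_mk, ← map_pow, ← map_pow, ← map_pow, hζ1, hζ2, hζ3, map_one]
      rfl
    rw [e1, map_pow, mul_pow, e2, one_mul, ← pow_mul, mul_comm cb n, pow_mul, ← mul_pow, hρ,
      one_pow]
  have hDst'' : ∀ τ : Kbar ≃ₐ[ℚ] Kbar, τ ∈ A.inertiaSubgroupIn ℚ →
      Fermat.Agent.S34.Plan.gal (N' * q) τ • (cb • D) = cb • D := fun τ hτ => by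
    rw [smul_comm, hD.stable τ hτ]
  have hord'' : ∀ P : Place Kbar (FN (N' * q)), P.ord (w ^ cb) = n * (cb • D) P := fun P => by
    rw [Main.ord_pow, hord P, Finsupp.smul_apply, nsmul_eq_mul]
    ring
  have hwfix'' : Fixed A ((w ^ cb : FN (N' * q)) : Om) := by
    rw [hwcoe]
    exact fixed_pow hwfix cb
  have hwinv'' : (((w ^ cb : FN (N' * q)) : Om))⁻¹ ∈ O := by
    rw [hwcoe, ← inv_pow]
    exact O.pow_mem hwinv cb
  have hwinvfix'' : Fixed A (((w ^ cb : FN (N' * q)) : Om))⁻¹ := fixed_inv hwfix''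
  have hC : ∀ κ : kk A, (HahnSeries.C κ : Omk A) ∈ Fk A M := fun κ => by
    rw [← algebraMap_LS_eq_C]
    exact (Fk A M).algebraMap_mem κ
  obtain ⟨x1, x2, x3⟩ := hξF
  obtain ⟨g₀, hg₀, hg₀ρ⟩ := exists_g0 hq hq' hle hIncl hRange hConst hE hSurj hInv hCond
    (cb • D) hDst'' n hD.pos hD.not_dvd (w ^ cb) (pow_ne_zero _ hw0) hord'' hw' hwfix'' hwinv''
    hwinvfix'' ((HahnSeries.C ζ.1, HahnSeries.C ζ.2.1, HahnSeries.C ζ.2.2) * ξ ^ cb)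
    ⟨mul_mem (hC _) (pow_mem x1 _), mul_mem (hC _) (pow_mem x2 _), mul_mem (hC _) (pow_mem x3 _)⟩
    hρ'' hTw
  obtain ⟨hg₀fix, c, hg₀mem⟩ := hg₀
  have hcoord : rho3 A q O ρ ξ₀ ⟨_, hw'⟩ * rho3 A q O ρ ξ₀ g₀ ^ n = 1 := by
    rw [hg₀ρ]
    exact hρ''
  have c1 : ρ ⟨_, hw'⟩ Coord.inf * ρ g₀ Coord.inf ^ n = 1 := congrArg Prod.fst hcoord
  have c2 : ρ ⟨_, hw'⟩ (Coord.mid ξ₀) * ρ g₀ (Coord.mid ξ₀) ^ n = 1 :=
    congrArg (fun x : R3 A => x.2.1) hcoord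
  have c3 : ρ ⟨_, hw'⟩ Coord.zero * ρ g₀ Coord.zero ^ n = 1 :=
    congrArg (fun x : R3 A => x.2.2) hcoord
  have hn0 : n ≠ 0 := hD.pos.ne'
  refine ⟨hw', g₀, c, hg₀mem, ?_, ?_⟩
  · intro i
    cases i with
    | inf =>
      intro h0
      rw [h0, zero_pow hn0, mul_zero] at c1
      exact zero_ne_one c1
    | zero =>
      intro h0
      rw [h0, zero_pow hn0, mul_zero] at c3
      exact zero_ne_one c3
    | mid ξ₁ =>
      intro h0
      rw [hMid g₀ hg₀fix ξ₁ ξ₀] at h0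
      rw [h0, zero_pow hn0, mul_zero] at c2
      exact zero_ne_one c2
  · funext i
    cases i with
    | inf => exact c1
    | zero => exact c3
    | mid ξ₁ =>
      show ρ ⟨_, hw'⟩ (Coord.mid ξ₁) * ρ g₀ (Coord.mid ξ₁) ^ n = 1
      rw [hMid _ hwfix'' ξ₁ ξ₀, hMid g₀ hg₀fix ξ₁ ξ₀]
      exact c2

/-- **[ONE] from the `K'`-contracts** (route through `NormStmt`). -/
theorem oneStmt_of_k0 (hq : q.Prime) [CharP (kk A) q] (hq' : q ∣ N')
    (hle : modularFunctionFieldBar (N' * q) ≤ modularFunctionFieldBar (M * q * q))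
    (ξ₀ : MidIdx q) (ca cb : ℕ)
    (hIncl : InclStmt A (N' * q) M q (Dvd.intro_left N' rfl) (Nat.mul_dvd_mul_right hq' q) O ρ)
    (hRange : RangeStmt A M q O ρ ξ₀) (hMid : MidEqStmt A q O ρ) (hConst : ConstStmt A q O ρ)
    (hSurj : ∀ E : Divisor Kbar (FN (N' * q)),
      IsE3 (N' * q) q (Dvd.intro_left N' rfl) (Nat.mul_dvd_mul_right hq' q) E →
        SurjStmt A N' M q O ρ ξ₀ E)
    (hInv : ∀ E : Divisor Kbar (FN (N' * q)),
      IsE3 (N' * q) q (Dvd.intro_left N' rfl) (Nat.mul_dvd_mul_right hq' q) E →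
        InvKStmt A N' M q O ρ ξ₀ E)
    (hCond : ∀ E : Divisor Kbar (FN (N' * q)),
      IsE3 (N' * q) q (Dvd.intro_left N' rfl) (Nat.mul_dvd_mul_right hq' q) E →
        CondStmt A N' M q O ρ ξ₀ E)
    (hNorm : NormStmt A N' M q O ρ ξ₀ ca) (hTwist : TwistStmt A N' M q hq' O ρ ξ₀ cb) :
    OneStmt A N' M q hq' O ρ (cb * ca) := by
  intro D n hD E hE
  obtain ⟨D', w, hw, ξ, hcls, hD', hw0, hord, hwfix, hwinv, hξF, hρ⟩ := hNorm D n hD
  obtain ⟨hw', g₀, c, hg₀, hunit, hρ'⟩ := one_of_data hq hq' hle cb hIncl hRange hMid hConst hE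
    (hSurj E hE) (hInv E hE) (hCond E hE) hTwist D' n hD' w hw0 hord hw hwfix hwinv ξ hξF hρ
  refine ⟨cb • D', w ^ cb, hw', g₀, c, ?_, ?_, pow_ne_zero _ hw0, ?_, hg₀, hunit, hρ'⟩
  · have e : cb • D' - (cb * ca) • D = cb • (D' - ca • D) := by rw [smul_sub, mul_smul]
    rw [e]
    exact AddSubgroup.nsmul_mem _ hcls cb
  · rw [map_nsmul, hD'.deg, smul_zero]
  · intro P
    rw [Main.ord_pow, hord P, Finsupp.smul_apply, nsmul_eq_mul]
    ring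

/-- **[ONE-CONST] from the `K'`-contracts**: the spine target `Plan.OneConstStmt … c_b`. -/
theorem oneConstStmt_of_k0 (hq : q.Prime) [CharP (kk A) q] (hq' : q ∣ N')
    (hle : modularFunctionFieldBar (N' * q) ≤ modularFunctionFieldBar (M * q * q))
    (ξ₀ : MidIdx q) (cb : ℕ) (hInvO : InvStmt A q O ρ)
    (hIncl : InclStmt A (N' * q) M q (Dvd.intro_left N' rfl) (Nat.mul_dvd_mul_right hq' q) O ρ)
    (hRange : RangeStmt A M q O ρ ξ₀) (hMid : MidEqStmt A q O ρ) (hConst : ConstStmt A q O ρ)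
    (hSurj : ∀ E : Divisor Kbar (FN (N' * q)),
      IsE3 (N' * q) q (Dvd.intro_left N' rfl) (Nat.mul_dvd_mul_right hq' q) E →
        SurjStmt A N' M q O ρ ξ₀ E)
    (hInv : ∀ E : Divisor Kbar (FN (N' * q)),
      IsE3 (N' * q) q (Dvd.intro_left N' rfl) (Nat.mul_dvd_mul_right hq' q) E →
        InvKStmt A N' M q O ρ ξ₀ E)
    (hCond : ∀ E : Divisor Kbar (FN (N' * q)),
      IsE3 (N' * q) q (Dvd.intro_left N' rfl) (Nat.mul_dvd_mul_right hq' q) E →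
        CondStmt A N' M q O ρ ξ₀ E)
    (hTwist : TwistStmt A N' M q hq' O ρ ξ₀ cb) :
    OneConstStmt A N' M q hq' O ρ cb := by
  intro D n u hP hu hconst E hE
  obtain ⟨κ1, hκ1, e1⟩ := hconst Coord.inf
  obtain ⟨κ2, hκ2, e2⟩ := hconst (Coord.mid ξ₀)
  obtain ⟨κ3, hκ3, e3⟩ := hconst Coord.zero
  haveI : IsAlgClosed (kk A) := Fermat.Agent.S18.PlacesModL.isAlgClosed_kk A
  obtain ⟨l1, hl1⟩ := IsAlgClosed.exists_pow_nat_eq κ1⁻¹ hP.stable.pos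
  obtain ⟨l2, hl2⟩ := IsAlgClosed.exists_pow_nat_eq κ2⁻¹ hP.stable.pos
  obtain ⟨l3, hl3⟩ := IsAlgClosed.exists_pow_nat_eq κ3⁻¹ hP.stable.pos
  have hC : ∀ κ : kk A, (HahnSeries.C κ : Omk A) ∈ Fk A M := fun κ => by
    rw [← algebraMap_LS_eq_C]
    exact (Fk A M).algebraMap_mem κ
  have hρ : rho3 A q O ρ ξ₀ ⟨_, hu⟩ *
      ((HahnSeries.C l1, HahnSeries.C l2, HahnSeries.C l3) : R3 A) ^ n = 1 := by
    rw [rho3_apply, e1, e2, e3, Prod.pow_mk, Prod.pow_mk, Prod.mk_mul_mk, Prod.mk_mul_mk,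
      ← map_pow, ← map_pow, ← map_pow, ← map_mul, ← map_mul, ← map_mul, hl1, hl2, hl3,
      mul_inv_cancel₀ hκ1, mul_inv_cancel₀ hκ2, mul_inv_cancel₀ hκ3, map_one]
    rfl
  have hufix : Fixed A (u : Om) := fun τ hτ => congrArg Subtype.val (hP.fix τ hτ)
  have huinv : ((u : Om))⁻¹ ∈ O := hInvO ⟨_, hu⟩ (fun i => by
    obtain ⟨κ, hκ, e⟩ := hconst i
    rw [e]
    exact (map_ne_zero _).2 hκ)
  obtain ⟨hw', g₀, c, hg₀, hunit, hρ'⟩ := one_of_data hq hq' hle cb hIncl hRange hMid hConst hE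
    (hSurj E hE) (hInv E hE) (hCond E hE) hTwist D n hP.stable u hP.ne hP.ord hu hufix huinv
    (HahnSeries.C l1, HahnSeries.C l2, HahnSeries.C l3) ⟨hC _, hC _, hC _⟩ hρ
  refine ⟨cb • D, u ^ cb, hw', g₀, c, ?_, ?_, pow_ne_zero _ hP.ne, ?_, hg₀, hunit, hρ'⟩
  · rw [sub_self]
    exact zero_mem _
  · rw [map_nsmul, hP.stable.deg, smul_zero]
  · intro P
    rw [Main.ord_pow, hP.ord P, Finsupp.smul_apply, nsmul_eq_mul]
    ring

end Junction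

end Fermat.Agent.S36.OneGen

end
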