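import Mathlib
import Fermat.Agent.S18.ContentMain
import Fermat.Agent.S18.CharStmt
import Fermat.Agent.S36.OneAllOf
import Fermat.Agent.S36.LiftAllOf
import Fermat.Agent.S36.OneGen
import Fermat.Agent.S36.K0Const
import Fermat.Agent.S36.CoordFin
import Fermat.Agent.S36.SetupQ2
import Fermat.Agent.S36.NormChain

/-!
# S36 / P8 — [ONE-ALL] through the `K'`-junction (owner: helper74)

`Plan.OneAllStmt` from the all-level forms of the `K0Plan` contracts, through helper27's junction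
`OneGen.oneStmt_of_k0`:

* `NormAllStmt`          : contract (7) `K0Plan.NormStmt` at all levels (some nonzero `c_a`);
* `normAllStmt_of_chain` : `NormAllStmt` from `OneAllOf.VNormAllStmt` + `OneAllOf.NormRedAllStmt`
                           (`NormChain.normStmt_of_chain`, `SetupQ2.invStmt`);
* `oneAllStmt_of_k0`     : `Plan.OneAllStmt` from `NormAllStmt`, `LiftAllOf.InclAllStmt` and the six
                           all-level contracts `RangeAllStmt`, `MidEqAllStmt`, `SurjAllStmt`,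
                           `InvKAllStmt`, `CondAllStmt`, `TwistAllStmt` of `S36/OneAllOf`.

Discharged inside: `[CharP (kk A) q]`, the inclusion of the function fields of the two levels, a
middle index `ξ₀`, `K0Plan.ConstStmt` (`K0Const.constStmt`).
-/

set_option autoImplicit false

noncomputable section

namespace Fermat.Agent.S36.OneAllK0

open ModularCurve AlgebraicCurve Fermat.Agent.S24 Fermat.Agent.S18 Fermat.Agent.S18.Content
  Fermat.Agent.S18.Plan Fermat.Agent.S34 Fermat.Agent.S36.Plan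

/-- **(7) of `K0Plan` at all levels** (some nonzero constant `c_a`). -/
def NormAllStmt : Prop :=
  ∀ (N₀ N' M q : ℕ) [NeZero N'] [NeZero M] [NeZero q] (_ : q ∣ N') (h : Nat.Coprime M q),
    q.Prime → Nat.Coprime N₀ q → N' = N₀ * q → M = S34.Plan.aux q * N₀ →
    ∀ A : ValuationSubring Kbar, A.LiesOverPrime q →
    ∀ (F : Frame M q h) (O : Subring Om) (ρ : O →+* Rq A q), IsSetup A F O ρ →
    ∀ ξ₀ : MidIdx q, ∃ ca : ℕ, ca ≠ 0 ∧ K0Plan.NormStmt A N' M q O ρ ξ₀ ca

/-- `NormAllStmt` from [VNORM] and [NORM-RED] at all levels. -/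
theorem normAllStmt_of_chain (hV : OneAllOf.VNormAllStmt) (hN : OneAllOf.NormRedAllStmt) :
    NormAllStmt := by
  intro N₀ N' M q _ _ _ hq' h hqp hcop hN' hM A hA F O ρ hS ξ₀
  obtain ⟨c₁, hc₁, hV'⟩ := hV N₀ N' M q hq' h hqp hcop hN' hM A hA F O ρ hS
  obtain ⟨c₂, hc₂, hN''⟩ := hN N₀ N' M q hq' h hqp hcop hN' hM A hA F O ρ hS
  exact ⟨c₂ * c₁, Nat.mul_ne_zero hc₂ hc₁,
    NormChain.normStmt_of_chain (SetupQ2.invStmt hS) hV' hN'' ξ₀⟩

/-- **[ONE-ALL]** through the `K'`-junction `OneGen.oneStmt_of_k0`. -/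
theorem oneAllStmt_of_k0 (hNorm : NormAllStmt) (hIncl : LiftAllOf.InclAllStmt)
    (hRange : OneAllOf.RangeAllStmt) (hMid : OneAllOf.MidEqAllStmt)
    (hSurj : OneAllOf.SurjAllStmt) (hInvK : OneAllOf.InvKAllStmt)
    (hCond : OneAllOf.CondAllStmt) (hTwist : OneAllOf.TwistAllStmt) : OneAllStmt := by
  intro N₀ N' M q _ _ _ hq' h hqp hcop hN' hM A hA F O ρ hS
  have : Fact q.Prime := ⟨hqp⟩
  have : CharP (kk A) q := charP_residueField_of_liesOverPrime A q hA
  have : NeZero (N' * q) := ⟨Nat.mul_ne_zero (NeZero.ne N') (NeZero.ne q)⟩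
  have : NeZero (M * q * q) :=
    ⟨Nat.mul_ne_zero (Nat.mul_ne_zero (NeZero.ne M) (NeZero.ne q)) (NeZero.ne q)⟩
  have hle : modularFunctionFieldBar (N' * q) ≤ modularFunctionFieldBar (M * q * q) :=
    CharStmt.bar_le (LiftAllOf.level_dvd hN' hM)
  obtain ⟨ξ₀⟩ := CoordFin.midIdx_nonempty hqp
  obtain ⟨ca, hca, hNorm'⟩ := hNorm N₀ N' M q hq' h hqp hcop hN' hM A hA F O ρ hS ξ₀
  obtain ⟨cb, hcb, hTwist'⟩ := hTwist N₀ N' M q hq' h hqp hcop hN' hM A hA F O ρ hS ξ₀
  exact ⟨cb * ca, Nat.mul_ne_zero hcb hca,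
    OneGen.oneStmt_of_k0 hqp hq' hle ξ₀ ca cb
      (hIncl N₀ N' M q hq' h hqp hcop hN' hM A hA F O ρ hS)
      (hRange N₀ N' M q hq' h hqp hcop hN' hM A hA F O ρ hS ξ₀)
      (hMid N₀ N' M q hq' h hqp hcop hN' hM A hA F O ρ hS)
      (K0Const.constStmt hqp hA F hS)
      (fun E hE => hSurj N₀ N' M q hq' h hqp hcop hN' hM A hA F O ρ hS ξ₀ E hE)
      (fun E hE => hInvK N₀ N' M q hq' h hqp hcop hN' hM A hA F O ρ hS ξ₀ E hE)
      (fun E hE => hCond N₀ N' M q hq' h hqp hcop hN' hM A hA F O ρ hS ξ₀ E hE)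
      hNorm' hTwist'⟩

end Fermat.Agent.S36.OneAllK0

end
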