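import Mathlib
import Fermat.Agent.S36.Final
import Fermat.Agent.S36.OneAllK0
import Fermat.Agent.S36.LiftAllOf3
import Fermat.Agent.S36.DimFinal
import Fermat.Agent.S36.InclFinal
import Fermat.Agent.S36.CuspRegFinal
import Fermat.Agent.S36.K0RangeAll
import Fermat.Agent.S36.CondK0All
import Fermat.Agent.S36.SurjAll

/-!
# S36 — final assembly, residual form (owner: helper74, P8 lead)

Everything that is an unconditional theorem on main is discharged here; what is left of S36 is
exactly THREE all-level Props: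

* `OneAllK0.NormAllStmt`  — [VNORM] + [NORM-RED]  (contract (7) of `K0Plan`; also
                            `OneAllK0.normAllStmt_of_chain` from `VNormAllStmt` + `NormRedAllStmt`);
* `OneAllOf.InvKAllStmt`  — [REG]  (Lemma R in [INV] form, contract (5) of `K0Plan`);
* `OneAllOf.TwistAllStmt` — [TWIST] (contract (8) of `K0Plan`).

`liftAllStmt`    : `Plan.LiftAllStmt`, unconditional ([DIM], [INCL], [CR], [CONN] all landed);
`oneAllStmt_of3` : `Plan.OneAllStmt` from the three Props;
`result_of3`     : the frozen conclusion of S36 from the three Props.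
-/

set_option autoImplicit false

open Polynomial CuspForm ModularCurve AlgebraicCurve

namespace Fermat.Agent.S36.Final3

open Fermat.Agent.S36

/-- **[LIFT-ALL]**, unconditional. -/
theorem liftAllStmt : Plan.LiftAllStmt :=
  LiftAllOf3.liftAllStmt_of3 DimFinal.dimAllStmt InclFinal.intAllStmt CuspRegFinal.famAllStmt

/-- **[ONE-ALL]** from the three residual contracts. -/
theorem oneAllStmt_of3 (hNorm : OneAllK0.NormAllStmt) (hInvK : OneAllOf.InvKAllStmt)
    (hTwist : OneAllOf.TwistAllStmt) : Plan.OneAllStmt :=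
  OneAllK0.oneAllStmt_of_k0 hNorm InclFinal.inclAllStmt K0RangeAll.rangeAllStmt
    CondK0All.midEqAllStmt SurjAll.surjAllStmt hInvK CondK0All.condAllStmt hTwist

/-- **The frozen conclusion of S36** from the three residual contracts. -/
theorem result_of3 (hNorm : OneAllK0.NormAllStmt) (hInvK : OneAllOf.InvKAllStmt)
    (hTwist : OneAllOf.TwistAllStmt)
    {M : ℕ} [NeZero M] {g : CuspForm (CongruenceSubgroup.Gamma0 M) 2} (hg : g.IsNewform)
    (lam : ℕ) [Fact lam.Prime]
    (S : Finset ℕ)
    (O' : Type) [CommRing O'] [IsDomain O'] [IsDiscreteValuationRing O']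
    [IsAdicComplete (IsLocalRing.maximalIdeal O') O'] [Finite (IsLocalRing.ResidueField O')]
    [CharZero O'] (hlamO' : (lam : O') ∈ IsLocalRing.maximalIdeal O')
    (hlam2 : lam ≠ 2)
    (chig : CuspForm.heckeAlgebra M 2 (↑S : Set ℕ) →+* ℂ)
    (hchig : ∀ (ℓ : ℕ) (hℓ : ℓ.Prime) (hℓM : ¬ ℓ ∣ M) (hℓS : ℓ ∉ (↑S : Set ℕ)),
      chig (CuspForm.heckeAlgebra.T hℓ hℓM hℓS) = ModularFormClass.qCoeff g ℓ)
    (iota : chig.range →+* O')
    (hlamS : lam ∈ S) (hMS : ∀ q : ℕ, q.Prime → q ∣ M → q ∈ S) :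
    ∃ (O'' : Type) (_ : CommRing O'') (_ : IsDomain O'') (_ : IsDiscreteValuationRing O'')
      (_ : IsAdicComplete (IsLocalRing.maximalIdeal O'') O'')
      (_ : Finite (IsLocalRing.ResidueField O''))
      (_ : CharZero O'') (_ : Algebra O' O'') (_ : Module.Finite O' O'')
      (_ : IsLocalHom (algebraMap O' O'')),
      Function.Injective (algebraMap O' O'') ∧
      ∃ ρ : GaloisRepAdic O'',
        (∀ (ℓ : ℕ) (hℓ : ℓ.Prime) (hℓM : ¬ ℓ ∣ M) (hℓS : ℓ ∉ (↑S : Set ℕ)),
          ∀ A : ValuationSubring (AlgebraicClosure ℚ), A.LiesOverPrime ℓ →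
            ∀ σ : AlgebraicClosure ℚ ≃ₐ[ℚ] AlgebraicClosure ℚ, A.IsFrobeniusAt σ ℓ →
              LinearMap.charpoly (ρ.ρ σ) =
                X ^ 2 - C (algebraMap O' O'' ((iota.comp chig.rangeRestrict)
                  (CuspForm.heckeAlgebra.T hℓ hℓM hℓS))) * X
                  + C ((ℓ : O''))) ∧
        (∀ q : ℕ, q.Prime → q ≠ lam → M.factorization q = 2 →
          ¬ ρ.IsUnipotentOnInertiaAt q) :=
  Final.result_of_all (oneAllStmt_of3 hNorm hInvK hTwist) liftAllStmt hg lam S O' hlamO' hlam2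
    chig hchig iota hlamS hMS

end Fermat.Agent.S36.Final3
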