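import Mathlib
import Fermat.Agent.Lib.FFSep.LSpace
import Fermat.Agent.S34.Plan
import Fermat.Agent.S34.GalPull
import Fermat.Agent.S34.RRExact
import Fermat.Agent.S36.InvSpan

/-!
# S36 (P8) — [APPROX-P]: finite-place approximation by inertia-fixed sections (helper30)

Any level `N`.  `H` is any set of automorphisms of `Q̄` (in the application: the inertia group of a
valuation subring over `q`).  A divisor `D` of `F_N` stable under `H` has, at every place `P` and
for every `c` large, an `H`-FIXED section `f ∈ L(D + c E)` of EXACT order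
`ord_P f = -(D + c E)(P)` (`E` any `H`-stable divisor of positive degree; at a place with `E P = 0`
the order is `-D P`).

This is the input `happ` (finite places) of `S36/UnitDenom.pow_mul_mem_and_exists`.

* `finrank_sub_single_lt`      : Riemann's theorem at level `N`: `l(B - P) < l(B)` for `deg B` large;
* `smul_add_nsmul_eq`          : `D`, `E` stable ⟹ `D + c E` stable;
* `exists_fixed_ord_eq`        : the block;
* `exists_fixed_ord_eq_mul`    : the same section times a fixed nonzero constant (scaling by a power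
  of `q`).
-/

set_option autoImplicit false

noncomputable section

namespace Fermat.Agent.S36.ApproxPlace

open ModularCurve AlgebraicCurve IntermediateField Fermat.Agent.S24 Fermat.Agent.S18.Content
  Fermat.Agent.S18.Plan
open Fermat.Agent.S18 Fermat.Agent.Lib Fermat.Agent.S34

variable (N : ℕ) [NeZero N]

/-- **Riemann at level `N`**: for `c` large, `l(D + c E - P) < l(D + c E)`. -/
theorem finrank_sub_single_lt (D E : Divisor Kbar (FN N)) (hE : 0 < Divisor.degree E)
    (P : Place Kbar (FN N)) :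
    ∃ c₀ : ℕ, ∀ c : ℕ, c₀ ≤ c →
      Module.finrank Kbar (riemannRochSpace (D + c • E - Finsupp.single P 1)) <
        Module.finrank Kbar (riemannRochSpace (D + c • E)) := by
  have := FibreCount.finiteDimensional N
  have := Char0.isSeparable_jBar N
  have hxt := FibreCount.transcendental_jBar N
  obtain ⟨g, d₀, -, heq⟩ := FFSep.exists_riemann (F := FN N) hxt
  refine ⟨(d₀ + 1 - Divisor.degree D).toNat, fun c hc => ?_⟩
  have hPdeg : (P.deg : ℤ) = 1 := by
    rw [FFSep.deg_eq_one (jBar N) P]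
    rfl
  have hdegB : Divisor.degree (D + c • E) = Divisor.degree D + c * Divisor.degree E := by
    rw [map_add, map_nsmul, nsmul_eq_mul]
  have hdegB' : Divisor.degree (D + c • E - Finsupp.single P 1)
      = Divisor.degree D + c * Divisor.degree E - 1 := by
    rw [map_sub, hdegB, Divisor.degree_single, hPdeg, mul_one]
  have hc' : d₀ + 1 - Divisor.degree D ≤ (c : ℤ) := by
    have h1 := Int.self_le_toNat (d₀ + 1 - Divisor.degree D)
    have h2 : (((d₀ + 1 - Divisor.degree D).toNat : ℕ) : ℤ) ≤ (c : ℤ) := by exact_mod_cast hc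
    omega
  have hcE : (c : ℤ) ≤ c * Divisor.degree E := by
    have h0 : (0 : ℤ) ≤ (c : ℤ) := Int.natCast_nonneg c
    nlinarith
  have h1 := heq (D + c • E) (by rw [hdegB]; omega)
  have h2 := heq (D + c • E - Finsupp.single P 1) (by rw [hdegB']; omega)
  rw [hdegB] at h1
  rw [hdegB'] at h2
  have h3 : (Module.finrank Kbar (riemannRochSpace (D + c • E - Finsupp.single P 1)) : ℤ) <
      (Module.finrank Kbar (riemannRochSpace (D + c • E)) : ℤ) := by
    rw [h1, h2]
    omega
  exact_mod_cast h3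

omit [NeZero N] in
/-- If `D` and `E` are fixed by a semilinear automorphism, so is `D + c E`. -/
theorem smul_add_nsmul_eq (g : SemilinearAut Kbar (FN N)) (D E : Divisor Kbar (FN N))
    (hD : g • D = D) (hE : g • E = E) (c : ℕ) : g • (D + c • E) = D + c • E := by
  rw [smul_add, hD]
  congr 1
  induction c with
  | zero => rw [zero_smul, smul_zero]
  | succ n ih => rw [succ_nsmul, smul_add, ih, hE]

/-- **[APPROX-P]** an `H`-stable divisor `D` has, at every place `P` and for all large `c`, an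
`H`-fixed section of `L(D + c E)` of exact order `-(D + c E)(P)` at `P`. -/
theorem exists_fixed_ord_eq (H : Set (Kbar ≃ₐ[ℚ] Kbar)) (D E : Divisor Kbar (FN N))
    (hE : 0 < Divisor.degree E)
    (hD : ∀ τ ∈ H, S34.Plan.gal N τ • D = D) (hEst : ∀ τ ∈ H, S34.Plan.gal N τ • E = E)
    (P : Place Kbar (FN N)) :
    ∃ c₀ : ℕ, ∀ c : ℕ, c₀ ≤ c → ∃ f : FN N, f ≠ 0 ∧ f ∈ riemannRochSpace (D + c • E) ∧
      (f : Om) ∈ pullRR N N (D + c • E) ∧
      (∀ τ ∈ H, coeffMap ((τ : Kbar ≃ₐ[ℚ] Kbar) : Kbar →+* Kbar) (f : Om) = (f : Om)) ∧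
      P.ord f = -(D P + c * E P) := by
  classical
  obtain ⟨c₀, hc₀⟩ := finrank_sub_single_lt N D E hE P
  refine ⟨c₀, fun c hc => ?_⟩
  set B : Divisor Kbar (FN N) := D + c • E with hB
  set B' : Divisor Kbar (FN N) := B - Finsupp.single P 1 with hB'
  have hlt : Module.finrank Kbar (riemannRochSpace B') < Module.finrank Kbar (riemannRochSpace B) :=
    hc₀ c hc
  -- the two spaces
  have hfinW : Module.Finite Kbar (pullRR N N B) := RRExact.finite_pullRR_self N B
  have hfinW' : Module.Finite Kbar (pullRR N N B') := RRExact.finite_pullRR_self N B'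
  have hstab : ∀ τ ∈ H, ∀ w ∈ pullRR N N B,
      coeffMap ((τ : Kbar ≃ₐ[ℚ] Kbar) : Kbar →+* Kbar) w ∈ pullRR N N B := by
    intro τ hτ w hw
    have h1 := GalPull.coeffMap_mem_pullRR (N := N) (N' := N) τ hw
    have h2 : GalPull.gQ N τ • B = B := smul_add_nsmul_eq N _ D E (hD τ hτ) (hEst τ hτ) c
    rw [h2] at h1
    exact h1
  obtain ⟨r, b, -, hbW, hfix, -, -, hspan⟩ :=
    Fermat.Agent.S36.InvSpan.exists_fixed_basis_aut H (pullRR N N B) hstab
  -- a basis vector outside the smaller space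
  have hex : ∃ j, b j ∉ pullRR N N B' := by
    by_contra hcon
    push Not at hcon
    have hle : pullRR N N B ≤ pullRR N N B' := by
      rw [← hspan]
      exact Submodule.span_le.2 (by rintro _ ⟨j, rfl⟩; exact hcon j)
    have h1 := Submodule.finrank_mono hle
    rw [RRExact.finrank_pullRR_self, RRExact.finrank_pullRR_self] at h1
    omega
  obtain ⟨j, hj⟩ := hex
  -- it comes from `L(B)`
  have hjW := hbW j
  rw [RRExact.pullRR_self] at hjW
  obtain ⟨f, hfB, hfb⟩ := hjW
  have hfb' : (f : Om) = b j := hfb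
  have hfB' : f ∉ riemannRochSpace B' := by
    intro hmem
    apply hj
    rw [RRExact.pullRR_self]
    exact ⟨f, hmem, hfb⟩
  have hf0 : f ≠ 0 := by
    rintro rfl
    exact hfB' (Submodule.zero_mem _)
  refine ⟨f, hf0, hfB, ?_, ?_, ?_⟩
  · rw [hfb']
    exact hbW j
  · intro τ hτ
    rw [hfb']
    exact hfix j τ hτ
  · -- the exact order
    have h1 := (mem_riemannRochSpace_iff.1 hfB) P
    have h1' : -B P ≤ P.ord f := h1.resolve_left hf0
    have h2 : ¬ ∀ v : Place Kbar (FN N), f = 0 ∨ -B' v ≤ v.ord f := fun h =>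
      hfB' (mem_riemannRochSpace_iff.2 h)
    push Not at h2
    obtain ⟨v, -, hv⟩ := h2
    have hvP : v = P := by
      by_contra hne
      have h3 : B' v = B v := by
        rw [hB', Finsupp.sub_apply, Finsupp.single_apply, if_neg (Ne.symm hne), sub_zero]
      rw [h3] at hv
      have h4 := ((mem_riemannRochSpace_iff.1 hfB) v).resolve_left hf0
      omega
    subst hvP
    have h3 : B' v = B v - 1 := by
      rw [hB', Finsupp.sub_apply, Finsupp.single_apply, if_pos rfl]
    rw [h3] at hv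
    have h5 : B v = D v + c * E v := by
      rw [hB, Finsupp.add_apply, Finsupp.smul_apply, nsmul_eq_mul]
    omega

/-- `coeffMap` of a constant. -/
theorem coeffMap_C_aut (τ : Kbar ≃ₐ[ℚ] Kbar) (c : Kbar) :
    coeffMap ((τ : Kbar ≃ₐ[ℚ] Kbar) : Kbar →+* Kbar) (HahnSeries.C c : Om)
      = HahnSeries.C (τ c) := by
  rw [HahnSeries.C_apply, coeffMap_single]
  rfl

/-- The section of `exists_fixed_ord_eq` multiplied by a fixed nonzero constant (e.g. a power of
`q`): still in `L(D + c E)`, still fixed, same order at `P`. -/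
theorem exists_fixed_ord_eq_mul (H : Set (Kbar ≃ₐ[ℚ] Kbar)) (D E : Divisor Kbar (FN N))
    (hE : 0 < Divisor.degree E)
    (hD : ∀ τ ∈ H, S34.Plan.gal N τ • D = D) (hEst : ∀ τ ∈ H, S34.Plan.gal N τ • E = E)
    (P : Place Kbar (FN N)) :
    ∃ c₀ : ℕ, ∀ c : ℕ, c₀ ≤ c → ∃ f : FN N, f ≠ 0 ∧ P.ord f = -(D P + c * E P) ∧
      ∀ a : Kbar, a ≠ 0 → (∀ τ ∈ H, τ a = a) →
        algebraMap Kbar (FN N) a * f ≠ 0 ∧
        ((algebraMap Kbar (FN N) a * f : FN N) : Om) ∈ pullRR N N (D + c • E) ∧
        (∀ τ ∈ H, coeffMap ((τ : Kbar ≃ₐ[ℚ] Kbar) : Kbar →+* Kbar)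
          ((algebraMap Kbar (FN N) a * f : FN N) : Om)
            = ((algebraMap Kbar (FN N) a * f : FN N) : Om)) ∧
        P.ord (algebraMap Kbar (FN N) a * f) = -(D P + c * E P) := by
  obtain ⟨c₀, hc₀⟩ := exists_fixed_ord_eq N H D E hE hD hEst P
  refine ⟨c₀, fun c hc => ?_⟩
  obtain ⟨f, hf0, -, hfW, hfix, hord⟩ := hc₀ c hc
  refine ⟨f, hf0, hord, fun a ha haH => ?_⟩
  have ha' : algebraMap Kbar (FN N) a ≠ 0 := by
    rw [Ne, map_eq_zero_iff _ (algebraMap Kbar (FN N)).injective]
    exact ha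
  have hcoe : ((algebraMap Kbar (FN N) a * f : FN N) : Om) = a • (f : Om) := by
    rw [← Algebra.smul_def]
    exact (RR0.inclLin N).map_smul a f
  refine ⟨mul_ne_zero ha' hf0, ?_, fun τ hτ => ?_, ?_⟩
  · rw [hcoe]
    exact Submodule.smul_mem _ a hfW
  · rw [hcoe, ← HahnSeries.C_mul_eq_smul, map_mul, hfix τ hτ, coeffMap_C_aut, haH τ hτ]
  · rw [P.ord_mul ha' hf0, FFPlaces.ord_algebraMap, zero_add, hord]

end Fermat.Agent.S36.ApproxPlace

end
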