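import Mathlib
import Fermat.Agent.S18.ContentBase
import Fermat.Agent.Lib.FFBridge
import Fermat.Agent.S36.InvSpan
import Fermat.Agent.S36.InertiaField
import Fermat.Agent.S36.InertiaFieldZeta
import Fermat.Agent.S36.MidEmb

/-!
# P8 / S36 — [K0-GAUSS]: the Gauss value of a `K₀`-rational function is discrete (helper62)

`Kb = Q̄`, `A` a valuation subring of `Kb` over the prime `q`, `I = A.inertiaSubgroupIn ℚ`.
Elements of the modular function fields have expansions with unbounded denominators, so the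
coefficientwise statements of `S36/InertiaField` and `S36/InertiaFieldZeta` do not apply to them
directly. This file gives the passage from coefficients to functions.

* `scale_of_fixed_gen` (**generic core**, frame independent): `H` a set of automorphisms of `Kb`
  such that every nonzero `H`-fixed element of `Kb` has valuation in `v(π)^ℤ`; `S` a set of
  `A`-integral `H`-fixed series. Then every nonzero `H`-fixed quotient `y` of two elements of the
  `Kb`-algebra generated by `S` satisfies `π^m y ∈ Ocal A` with nonzero reduction for some `m : ℤ`.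
* `scale_mid_of_fixed` (**middle cusp**): for a middle embedding `r` of `F_{M q²}`
  (`S36/MidEmb.IsMid`, root of unity `ξ`) and a nonzero `I`-fixed `x`, some
  `(ξ - 1)^m · r x` lies in `Ocal A` with nonzero reduction.
* `exists_mid_eq_pow_mul`: if moreover `r x ∈ Ocal A` then `r x = (ξ - 1)^k · z`, `k : ℕ`,
  `z ∈ Ocal A` with nonzero reduction.
* `div_mid_mem_Ocal`: if `r x ∈ Ocal A` has zero reduction then `(ξ - 1)⁻¹ · r x ∈ Ocal A`.

The cusp `∞` (with `π = q`) is `S36/K0Red.qScale_of_fixed` (helper54).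

Proof of the core: `y = a / b` with `a`, `b` in the span `W` of finitely many monomials in `S`;
`{b' ∈ W | y b' ∈ W}` is a nonzero finite-dimensional `H`-stable space, hence contains a nonzero
`H`-fixed `b₀` (`S36/InvSpan`), and `a₀ = y b₀ ∈ W` is `H`-fixed. Elements of `W` have bounded
denominators; for an `H`-fixed one the coefficient valuations lie in `v(π)^ℤ` and are bounded
above, so the maximum is attained.
-/

set_option autoImplicit false

open ModularCurve Fermat.Agent.S18.Content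

namespace Fermat.Agent.S36.K0Gauss

/-- `Q̄`. -/
abbrev Kb : Type := AlgebraicClosure ℚ

/-- `Q̄((T))`. -/
abbrev OmK : Type := LaurentSeries Kb

section Arch

variable (A : ValuationSubring Kb)

/-- Every nonzero element of `Q̄` has valuation at least a power of the valuation of `q`. -/
theorem exists_pow_le_val (q : ℕ) (hq : q.Prime) (hAq : A.LiesOverPrime q) (c : Kb) (hc : c ≠ 0) :
    ∃ k : ℕ, A.valuation (q : Kb) ^ k ≤ A.valuation c := by
  have halg : IsAlgebraic ℤ c⁻¹ :=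
    (IsFractionRing.isAlgebraic_iff ℤ ℚ Kb).mpr (Algebra.IsAlgebraic.isAlgebraic c⁻¹)
  obtain ⟨d, hd0, hx⟩ := halg.exists_integral_multiple
  have hd0' : ((d : ℤ) : Kb) ≠ 0 := Int.cast_ne_zero.mpr hd0
  have hxA : d • c⁻¹ ∈ A := Fermat.Agent.Lib.InertiaGlue.mem_of_isIntegral A hx
  have h1 : ((d : ℤ) : Kb) * c⁻¹ = d • c⁻¹ := by
    rw [zsmul_eq_mul]
  have h2 : A.valuation ((d : ℤ) : Kb) ≤ A.valuation c := by
    have h3 : A.valuation (((d : ℤ) : Kb) * c⁻¹) ≤ 1 := by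
      rw [h1]; exact (A.valuation_le_one_iff _).mpr hxA
    rw [map_mul, map_inv₀] at h3
    have hvc : A.valuation c ≠ 0 := (Valuation.ne_zero_iff _).mpr hc
    calc A.valuation ((d : ℤ) : Kb)
        = A.valuation ((d : ℤ) : Kb) * (A.valuation c)⁻¹ * A.valuation c := by
          rw [mul_assoc, inv_mul_cancel₀ hvc, mul_one]
      _ ≤ 1 * A.valuation c := by gcongr
      _ = A.valuation c := one_mul _
  obtain ⟨m, hm⟩ := Fermat.Agent.S36.InertiaField.val_eq_zpow_of_inertia_fixed A q hq hAq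
    ((d : ℤ) : Kb) hd0' (fun σ _ => map_intCast σ d)
  have hvq : A.valuation (q : Kb) < 1 := by
    have hA' : ((q : ℕ) : Kb) ∈ A.nonunits := hAq
    rwa [ValuationSubring.mem_nonunits_iff] at hA'
  have hvq0 : A.valuation (q : Kb) ≠ 0 :=
    (Valuation.ne_zero_iff _).mpr (Nat.cast_ne_zero.mpr hq.ne_zero)
  refine ⟨m.toNat, le_trans ?_ h2⟩
  rw [hm]
  rcases le_or_gt 0 m with h0 | h0
  · have : m = (m.toNat : ℤ) := (Int.toNat_of_nonneg h0).symm
    conv_rhs => rw [this]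
    rw [zpow_natCast]
  · have h4 : m.toNat = 0 := Int.toNat_eq_zero.mpr h0.le
    rw [h4, pow_zero]
    obtain ⟨k, hk⟩ : ∃ k : ℕ, m = -(k : ℤ) := ⟨(-m).toNat, by omega⟩
    rw [hk, zpow_neg, zpow_natCast]
    have h5 : A.valuation (q : Kb) ^ k ≤ 1 := pow_le_one₀ zero_le hvq.le
    have h6 : A.valuation (q : Kb) ^ k ≠ 0 := pow_ne_zero k hvq0
    exact (one_le_inv₀ (lt_of_le_of_ne zero_le h6.symm)).mpr h5

/-- **Discreteness for bounded series.** A nonzero series with bounded denominators all of whose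
nonzero coefficients have valuation in `v(π)^ℤ` is `π^(-m)` times an `A`-integral series with
nonzero reduction. -/
theorem exists_scale_of_bounded (q : ℕ) (hq : q.Prime) (hAq : A.LiesOverPrime q) (π : Kb)
    (hπ0 : π ≠ 0) (hπ : A.valuation π < 1)
    (hπq : ∃ N0 : ℕ, A.valuation π ^ N0 ≤ A.valuation (q : Kb))
    (w : OmK) (hw0 : w ≠ 0) (hbdd : ∃ c : Kb, c ≠ 0 ∧ ∀ n, c * w.coeff n ∈ A)
    (hval : ∀ n, w.coeff n ≠ 0 → ∃ m : ℤ, A.valuation (w.coeff n) = A.valuation π ^ m) :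
    ∃ (m : ℤ) (u : LaurentSeries A), rho A u ≠ 0 ∧ iota A u = HahnSeries.C (π ^ m) * w := by
  have hv0 : A.valuation π ≠ 0 := (Valuation.ne_zero_iff _).mpr hπ0
  have hvpos : 0 < A.valuation π := lt_of_le_of_ne zero_le hv0.symm
  obtain ⟨c, hc0, hc⟩ := hbdd
  obtain ⟨k, hk⟩ := exists_pow_le_val A q hq hAq c hc0
  obtain ⟨N0, hN0⟩ := hπq
  -- `v(π)^(N0 k) ≤ v(c)`
  have hN1 : A.valuation π ^ (N0 * k) ≤ A.valuation c := by
    rw [pow_mul]
    exact le_trans (pow_le_pow_left₀ zero_le hN0 k) hk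
  have hvc : A.valuation c ≠ 0 := (Valuation.ne_zero_iff _).mpr hc0
  -- the exponents are bounded below
  have hbd : ∀ (n : ℤ) (m : ℤ), w.coeff n ≠ 0 → A.valuation (w.coeff n) = A.valuation π ^ m →
      -((N0 * k : ℕ) : ℤ) ≤ m := by
    intro n m hn hm
    have h1 : A.valuation (c * w.coeff n) ≤ 1 := (A.valuation_le_one_iff _).mpr (hc n)
    rw [map_mul, hm] at h1
    have h2 : A.valuation π ^ (N0 * k) * A.valuation π ^ m ≤ 1 :=
      le_trans (mul_le_mul_left hN1 _) h1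
    rw [← zpow_natCast, ← zpow_add₀ hv0] at h2
    by_contra hcon
    rw [not_le] at hcon
    obtain ⟨j, hj⟩ : ∃ j : ℕ, ((N0 * k : ℕ) : ℤ) + m = -((j : ℤ) + 1) :=
      ⟨(-(((N0 * k : ℕ) : ℤ) + m) - 1).toNat, by omega⟩
    rw [hj, zpow_neg, ← Nat.cast_succ, zpow_natCast] at h2
    have h3 : A.valuation π ^ (j + 1) < 1 := pow_lt_one₀ zero_le hπ (Nat.succ_ne_zero j)
    have h4 : A.valuation π ^ (j + 1) ≠ 0 := pow_ne_zero _ hv0
    have h5 : (1 : A.ValueGroup) < (A.valuation π ^ (j + 1))⁻¹ :=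
      (one_lt_inv₀ (lt_of_le_of_ne zero_le h4.symm)).mpr h3
    exact absurd h2 (not_le.mpr h5)
  -- a nonzero coefficient
  obtain ⟨n1, hn1⟩ : ∃ n, w.coeff n ≠ 0 := by
    by_contra hcon
    push Not at hcon
    exact hw0 (HahnSeries.ext (funext hcon))
  obtain ⟨m1, hm1⟩ := hval n1 hn1
  -- the least exponent
  obtain ⟨m0, ⟨n0, hn0, hm0⟩, hleast⟩ := Int.exists_least_of_bdd
    (P := fun m => ∃ n, w.coeff n ≠ 0 ∧ A.valuation (w.coeff n) = A.valuation π ^ m)
    ⟨-((N0 * k : ℕ) : ℤ), fun m ⟨n, hn, hm⟩ => hbd n m hn hm⟩ ⟨m1, n1, hn1, hm1⟩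
  have hcoeff : ∀ n, A.valuation (π ^ (-m0) * w.coeff n) ≤ 1 := by
    intro n
    by_cases hn : w.coeff n = 0
    · rw [hn, mul_zero, map_zero]; exact zero_le
    obtain ⟨m, hm⟩ := hval n hn
    have hle := hleast m ⟨n, hn, hm⟩
    rw [map_mul, map_zpow₀, hm, ← zpow_add₀ hv0]
    obtain ⟨j, hj⟩ : ∃ j : ℕ, -m0 + m = (j : ℤ) := ⟨(-m0 + m).toNat, by omega⟩
    rw [hj, zpow_natCast]
    exact pow_le_one₀ zero_le hπ.le
  have hunit : A.valuation (π ^ (-m0) * w.coeff n0) = 1 := by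
    rw [map_mul, map_zpow₀, hm0, ← zpow_add₀ hv0, neg_add_cancel, zpow_zero]
  have hmem : ∀ n, (HahnSeries.C (π ^ (-m0)) * w).coeff n ∈ A := by
    intro n
    rw [coeff_C_mul]
    exact (A.valuation_le_one_iff _).mp (hcoeff n)
  obtain ⟨u, hu⟩ := exists_iota_eq A _ hmem
  refine ⟨-m0, u, ?_, hu⟩
  intro h0
  have h1 := congrArg (fun f => f.coeff n0) h0
  simp only [rho_coeff, HahnSeries.coeff_zero] at h1
  rw [IsLocalRing.residue_eq_zero_iff] at h1
  have h2 : ((u.coeff n0 : A) : Kb) = π ^ (-m0) * w.coeff n0 := by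
    rw [← iota_coeff, hu, coeff_C_mul]
  have h3 : A.valuation ((u.coeff n0 : A) : Kb) < 1 := by
    rw [← ValuationSubring.mem_nonunits_iff, ValuationSubring.coe_mem_nonunits_iff]
    exact h1
  rw [h2, hunit] at h3
  exact lt_irrefl _ h3

/-- Elements of the span of `A`-integral series have bounded denominators. -/
theorem bounded_of_mem_span (T : Set OmK) (hT : ∀ t ∈ T, ∃ u : LaurentSeries A, iota A u = t)
    (w : OmK) (hw : w ∈ Submodule.span Kb T) :
    ∃ c : Kb, c ≠ 0 ∧ c ∈ A ∧ ∀ n, c * w.coeff n ∈ A := by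
  induction hw using Submodule.span_induction with
  | mem t ht =>
    obtain ⟨u, rfl⟩ := hT t ht
    exact ⟨1, one_ne_zero, A.one_mem, fun n => by rw [one_mul, iota_coeff]; exact (u.coeff n).2⟩
  | zero => exact ⟨1, one_ne_zero, A.one_mem, fun n => by simp [A.zero_mem]⟩
  | add x y _ _ hx hy =>
    obtain ⟨c1, h10, h1A, h1⟩ := hx
    obtain ⟨c2, h20, h2A, h2⟩ := hy
    refine ⟨c1 * c2, mul_ne_zero h10 h20, A.mul_mem _ _ h1A h2A, fun n => ?_⟩
    have e : c1 * c2 * (x + y).coeff n = c2 * (c1 * x.coeff n) + c1 * (c2 * y.coeff n) := by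
      rw [HahnSeries.coeff_add]; ring
    rw [e]
    exact A.add_mem _ _ (A.mul_mem _ _ h2A (h1 n)) (A.mul_mem _ _ h1A (h2 n))
  | smul a x _ hx =>
    obtain ⟨c1, h10, h1A, h1⟩ := hx
    by_cases ha : a = 0
    · exact ⟨1, one_ne_zero, A.one_mem, fun n => by simp [ha, A.zero_mem]⟩
    rcases A.mem_or_inv_mem a with haA | haA
    · refine ⟨c1, h10, h1A, fun n => ?_⟩
      have e : c1 * (a • x).coeff n = a * (c1 * x.coeff n) := by
        rw [HahnSeries.coeff_smul, smul_eq_mul]; ring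
      rw [e]
      exact A.mul_mem _ _ haA (h1 n)
    · refine ⟨a⁻¹ * c1, mul_ne_zero (inv_ne_zero ha) h10, A.mul_mem _ _ haA h1A, fun n => ?_⟩
      have e : a⁻¹ * c1 * (a • x).coeff n = c1 * x.coeff n := by
        rw [HahnSeries.coeff_smul, smul_eq_mul]; field_simp
      rw [e]
      exact h1 n

end Arch

section Generic

variable (A : ValuationSubring Kb)

/-- `coeffMap` of a scalar multiple. -/
theorem coeffMap_smul' (φ : Kb →+* Kb) (c : Kb) (x : OmK) :
    coeffMap φ (c • x) = φ c • coeffMap φ x := by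
  ext n
  simp [HahnSeries.coeff_smul]

theorem mul_smul_comm' (c : Kb) (t u : OmK) : t * (c • u) = c • (t * u) := by
  rw [← HahnSeries.C_mul_eq_smul, ← HahnSeries.C_mul_eq_smul, mul_left_comm]

theorem smul_mul_assoc' (c : Kb) (t u : OmK) : (c • t) * u = c • (t * u) := by
  rw [← HahnSeries.C_mul_eq_smul, ← HahnSeries.C_mul_eq_smul, mul_assoc]

/-- Products of elements of two spans lie in the span of the products. -/
theorem mul_mem_span_image2 (T1 T2 : Set OmK) (x z : OmK)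
    (hx : x ∈ Submodule.span Kb T1) (hz : z ∈ Submodule.span Kb T2) :
    x * z ∈ Submodule.span Kb (Set.image2 (· * ·) T1 T2) := by
  induction hx using Submodule.span_induction with
  | mem t1 ht1 =>
    induction hz using Submodule.span_induction with
    | mem t2 ht2 =>
      exact Submodule.subset_span (Set.mem_image2_of_mem ht1 ht2)
    | zero => rw [mul_zero]; exact Submodule.zero_mem _
    | add u v _ _ hu hv => rw [mul_add]; exact Submodule.add_mem _ hu hv
    | smul c u _ hu =>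
      rw [mul_smul_comm']
      exact Submodule.smul_mem _ c hu
  | zero => rw [zero_mul]; exact Submodule.zero_mem _
  | add u v _ _ hu hv => rw [add_mul]; exact Submodule.add_mem _ hu hv
  | smul c u _ hu =>
    rw [smul_mul_assoc']
    exact Submodule.smul_mem _ c hu

/-- Every element of the `Q̄`-algebra generated by `S` lies in the span of finitely many
monomials in `S`. -/
theorem exists_finite_of_mem_adjoin (S : Set OmK) (x : OmK) (hx : x ∈ Algebra.adjoin Kb S) :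
    ∃ T : Set OmK, T.Finite ∧ T ⊆ (Submonoid.closure S : Set OmK) ∧
      x ∈ Submodule.span Kb T := by
  induction hx using Algebra.adjoin_induction with
  | mem s hs =>
    refine ⟨{s}, Set.finite_singleton s, ?_, Submodule.subset_span (Set.mem_singleton s)⟩
    intro t ht
    rw [Set.mem_singleton_iff] at ht
    rw [ht]
    exact Submonoid.subset_closure hs
  | algebraMap c =>
    refine ⟨{1}, Set.finite_singleton 1, ?_, ?_⟩
    · intro t ht
      rw [Set.mem_singleton_iff] at ht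
      rw [ht]
      exact Submonoid.one_mem _
    · have h1 : algebraMap Kb OmK c = c • (1 : OmK) := by
        rw [algebraMap_laurentSeries_eq_single, ← HahnSeries.C_mul_eq_smul, mul_one]
        rfl
      rw [h1]
      exact Submodule.smul_mem _ c (Submodule.subset_span (Set.mem_singleton 1))
  | add u v _ _ hu hv =>
    obtain ⟨T1, hf1, h1, hu1⟩ := hu
    obtain ⟨T2, hf2, h2, hv2⟩ := hv
    refine ⟨T1 ∪ T2, hf1.union hf2, Set.union_subset h1 h2, ?_⟩
    exact Submodule.add_mem _ (Submodule.span_mono Set.subset_union_left hu1)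
        (Submodule.span_mono Set.subset_union_right hv2)
  | mul u v _ _ hu hv =>
    obtain ⟨T1, hf1, h1, hu1⟩ := hu
    obtain ⟨T2, hf2, h2, hv2⟩ := hv
    refine ⟨Set.image2 (· * ·) T1 T2, hf1.image2 _ hf2, ?_, mul_mem_span_image2 T1 T2 u v hu1 hv2⟩
    rintro t ⟨t1, ht1, t2, ht2, rfl⟩
    exact Submonoid.mul_mem _ (h1 ht1) (h2 ht2)

/-- **[K0-GAUSS], generic core.** Let `S` be a set of `A`-integral series fixed coefficientwise by
a set `H` of automorphisms of `Q̄`, and assume that every nonzero `H`-fixed element of `Q̄` has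
valuation in `v(π)^ℤ`. Then every nonzero `H`-fixed quotient `y` of two elements of the
`Q̄`-algebra generated by `S` has a Gauss value in `v(π)^ℤ`: `π^m y ∈ Ocal` with nonzero
reduction for some `m : ℤ`. -/
theorem scale_of_fixed_gen (q : ℕ) (hq : q.Prime) (hAq : A.LiesOverPrime q) (π : Kb)
    (hπ0 : π ≠ 0) (hπ : A.valuation π < 1)
    (hπq : ∃ N0 : ℕ, A.valuation π ^ N0 ≤ A.valuation (q : Kb))
    (H : Set (Kb ≃ₐ[ℚ] Kb))
    (hval : ∀ a : Kb, a ≠ 0 → (∀ τ ∈ H, τ a = a) → ∃ m : ℤ, A.valuation a = A.valuation π ^ m)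
    (S : Set OmK) (hSint : ∀ s ∈ S, ∃ u : LaurentSeries A, iota A u = s)
    (hSfix : ∀ s ∈ S, ∀ τ ∈ H, coeffMap (τ : Kb →+* Kb) s = s)
    (y : OmK) (hy : ∃ a ∈ Algebra.adjoin Kb S, ∃ b ∈ Algebra.adjoin Kb S, b ≠ 0 ∧ y = a / b)
    (hy0 : y ≠ 0) (hyfix : ∀ τ ∈ H, coeffMap (τ : Kb →+* Kb) y = y) :
    ∃ (m : ℤ) (h : HahnSeries.C (π ^ m) * y ∈ Ocal A), red A ⟨_, h⟩ ≠ 0 := by
  classical
  obtain ⟨a, ha, b, hb, hb0, hyab⟩ := hy
  -- the monomials
  set Mon : Set OmK := (Submonoid.closure S : Set OmK) with hMon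
  have hMonint : ∀ t ∈ Mon, ∃ u : LaurentSeries A, iota A u = t := by
    intro t ht
    induction ht using Submonoid.closure_induction with
    | mem x hx => exact hSint x hx
    | one => exact ⟨1, map_one _⟩
    | mul x z _ _ hx hz =>
      obtain ⟨u, rfl⟩ := hx
      obtain ⟨v, rfl⟩ := hz
      exact ⟨u * v, map_mul _ _ _⟩
  have hMonfix : ∀ t ∈ Mon, ∀ τ ∈ H, coeffMap (τ : Kb →+* Kb) t = t := by
    intro t ht τ hτ
    induction ht using Submonoid.closure_induction with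
    | mem x hx => exact hSfix x hx τ hτ
    | one => exact map_one _
    | mul x z _ _ hx hz => rw [map_mul, hx, hz]
  obtain ⟨Ta, hTaf, hTa, haT⟩ := exists_finite_of_mem_adjoin S a ha
  obtain ⟨Tb, hTbf, hTb, hbT⟩ := exists_finite_of_mem_adjoin S b hb
  set T : Set OmK := Ta ∪ Tb with hTdef
  have hTMon : T ⊆ Mon := Set.union_subset hTa hTb
  have hTfin : T.Finite := hTaf.union hTbf
  set W : Submodule Kb OmK := Submodule.span Kb T with hW
  have haW : a ∈ W := Submodule.span_mono Set.subset_union_left haT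
  have hbW : b ∈ W := Submodule.span_mono Set.subset_union_right hbT
  have hWfin : Module.Finite Kb W := FiniteDimensional.span_of_finite Kb hTfin
  -- `W` is `H`-stable
  have hWstab : ∀ τ ∈ H, ∀ w ∈ W, coeffMap (τ : Kb →+* Kb) w ∈ W := by
    intro τ hτ w hw
    induction hw using Submodule.span_induction with
    | mem t ht => rw [hMonfix t (hTMon ht) τ hτ]; exact Submodule.subset_span ht
    | zero => rw [map_zero]; exact W.zero_mem
    | add x z _ _ hx hz => rw [map_add]; exact W.add_mem hx hz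
    | smul c x _ hx => rw [coeffMap_smul']; exact W.smul_mem _ hx
  -- the denominators
  let Wy : Submodule Kb OmK :=
    { carrier := {b' | b' ∈ W ∧ y * b' ∈ W}
      add_mem' := fun {x z} hx hz => ⟨W.add_mem hx.1 hz.1, by
        rw [mul_add]; exact W.add_mem hx.2 hz.2⟩
      zero_mem' := ⟨W.zero_mem, by rw [mul_zero]; exact W.zero_mem⟩
      smul_mem' := fun c x hx => ⟨W.smul_mem c hx.1, by
        rw [mul_smul_comm']
        exact W.smul_mem c hx.2⟩ }
  have hWyle : Wy ≤ W := fun x hx => hx.1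
  have hWyfin : Module.Finite Kb Wy := Submodule.finiteDimensional_of_le hWyle
  have hbWy : b ∈ Wy := by
    refine ⟨hbW, ?_⟩
    rw [hyab, div_mul_cancel₀ _ hb0]
    exact haW
  let Sφ : Set (Kb →+* Kb) := {φ | ∃ τ ∈ H, φ = (τ : Kb →+* Kb)}
  have hWystab : ∀ φ ∈ Sφ, ∀ w ∈ Wy, coeffMap φ w ∈ Wy := by
    rintro φ ⟨τ, hτ, rfl⟩ w hw
    refine ⟨hWstab τ hτ w hw.1, ?_⟩
    have h1 := hWstab τ hτ _ hw.2
    rw [map_mul, hyfix τ hτ] at h1
    exact h1
  have hspan := Fermat.Agent.S36.InvSpan.span_fixed_eq Sφ Wy hWystab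
  -- a nonzero fixed denominator
  obtain ⟨b0, ⟨hb0Wy, hb0fix⟩, hb00⟩ : ∃ b0 ∈ {w | w ∈ Wy ∧ ∀ φ ∈ Sφ, coeffMap φ w = w},
      b0 ≠ 0 := by
    by_contra hcon
    push Not at hcon
    have h1 : Submodule.span Kb {w | w ∈ Wy ∧ ∀ φ ∈ Sφ, coeffMap φ w = w} = ⊥ :=
      Submodule.span_eq_bot.mpr hcon
    rw [hspan] at h1
    have h2 : b ∈ (⊥ : Submodule Kb OmK) := h1 ▸ hbWy
    exact hb0 ((Submodule.mem_bot Kb).mp h2)
  set a0 : OmK := y * b0 with ha0
  have ha0W : a0 ∈ W := hb0Wy.2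
  have hb0W : b0 ∈ W := hb0Wy.1
  have ha00 : a0 ≠ 0 := mul_ne_zero hy0 hb00
  have hb0fix' : ∀ τ ∈ H, coeffMap (τ : Kb →+* Kb) b0 = b0 :=
    fun τ hτ => hb0fix _ ⟨τ, hτ, rfl⟩
  have ha0fix : ∀ τ ∈ H, coeffMap (τ : Kb →+* Kb) a0 = a0 := by
    intro τ hτ
    rw [ha0, map_mul, hyfix τ hτ, hb0fix' τ hτ]
  -- discreteness for `a0` and `b0`
  have hdisc : ∀ w : OmK, w ∈ W → w ≠ 0 → (∀ τ ∈ H, coeffMap (τ : Kb →+* Kb) w = w) →
      ∃ (m : ℤ) (u : LaurentSeries A), rho A u ≠ 0 ∧ iota A u = HahnSeries.C (π ^ m) * w := by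
    intro w hwW hw0 hwfix
    obtain ⟨c, hc0, -, hc⟩ := bounded_of_mem_span A T (fun t ht => hMonint t (hTMon ht)) w hwW
    refine exists_scale_of_bounded A q hq hAq π hπ0 hπ hπq w hw0 ⟨c, hc0, hc⟩ fun n hn => ?_
    refine hval _ hn fun τ hτ => ?_
    have := congrArg (fun f => f.coeff n) (hwfix τ hτ)
    simpa using this
  obtain ⟨m1, u1, hu1, e1⟩ := hdisc a0 ha0W ha00 ha0fix
  obtain ⟨m2, u2, hu2, e2⟩ := hdisc b0 hb0W hb00 hb0fix'
  have hπm : ∀ m : ℤ, (HahnSeries.C (π ^ m) : OmK) ≠ 0 := by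
    intro m h0
    have h1 : (HahnSeries.C (π ^ m) : OmK) = HahnSeries.C (0 : Kb) := by rw [h0, map_zero]
    exact zpow_ne_zero m hπ0 (HahnSeries.C_injective h1)
  have key : HahnSeries.C (π ^ (m1 - m2)) * y = iota A u1 / iota A u2 := by
    rw [e1, e2, ha0, zpow_sub₀ hπ0, eq_div_iff (mul_ne_zero (hπm m2) hb00)]
    have h3 : (HahnSeries.C (π ^ m1 / π ^ m2) : OmK) * HahnSeries.C (π ^ m2) =
        HahnSeries.C (π ^ m1) := by
      rw [← map_mul, div_mul_cancel₀ _ (zpow_ne_zero m2 hπ0)]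
    calc HahnSeries.C (π ^ m1 / π ^ m2) * y * (HahnSeries.C (π ^ m2) * b0)
        = (HahnSeries.C (π ^ m1 / π ^ m2) * HahnSeries.C (π ^ m2)) * (y * b0) := by ring
      _ = HahnSeries.C (π ^ m1) * (y * b0) := by rw [h3]
  refine ⟨m1 - m2, key ▸ div_mem_Ocal A u1 u2 hu2, ?_⟩
  rw [red_congr A key _ (div_mem_Ocal A u1 u2 hu2), red_div A u1 u2 hu2]
  exact div_ne_zero hu1 hu2

end Generic

section Instances

open Fermat.Agent.S36.MidEmb Fermat.Agent.Lib Fermat.Agent.S36.InertiaFieldZeta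

variable (A : ValuationSubring Kb)

/-- The Prelude generators `j(T^d)` have coefficients in `A`. -/
theorem gen_integral (d : ℕ) [NeZero d] : ∃ u : LaurentSeries A, iota A u = FFBridge.gen d := by
  refine ⟨jqNModC A d, ?_⟩
  have h1 := FFBridge.coeffMap_gen (RingHom.id Kb) d
  rw [coeffMap_id] at h1
  rw [h1]
  exact coeffMap_jqNModC A.subtype d

/-- The Prelude generators `j(T^d)` have rational coefficients. -/
theorem coeffMap_gen_galois (τ : Kb ≃ₐ[ℚ] Kb) (d : ℕ) [NeZero d] :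
    coeffMap (τ : Kb →+* Kb) (FFBridge.gen d) = FFBridge.gen d := by
  have h1 := FFBridge.coeffMap_gen (RingHom.id Kb) d
  rw [coeffMap_id] at h1
  rw [FFBridge.coeffMap_gen, h1]

/-- `y(ξ T)` has coefficients in `A` when `y` does and `ξ` is a root of unity. -/
theorem scale_integral (ξ : Kbˣ) {n : ℕ} (hn : n ≠ 0) (hξ : ξ ^ n = 1) (y : OmK)
    (hy : ∃ u : LaurentSeries A, iota A u = y) :
    ∃ u : LaurentSeries A, iota A u = Fermat.Agent.S28.scale ξ y := by
  obtain ⟨u, rfl⟩ := hy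
  apply exists_iota_eq
  intro k
  rw [Fermat.Agent.S28.scale_coeff, iota_coeff]
  refine A.mul_mem _ _ ?_ (u.coeff k).2
  have h1 : A.valuation ((ξ ^ k : Kbˣ) : Kb) = 1 := by
    apply Fermat.Agent.S36.InertiaField.val_eq_one_of_pow_eq_one A hn
    rw [← Units.val_pow_eq_pow_val, ← zpow_natCast, ← zpow_mul, mul_comm, zpow_mul, zpow_natCast,
      hξ, one_zpow, Units.val_one]
  rw [← A.valuation_le_one_iff, h1]

variable {M q : ℕ} [NeZero M] [NeZero q]

/-- **[K0-GAUSS] at a middle cusp**: the middle expansion of a nonzero inertia-fixed element of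
`F_{M q²}` has Gauss value in `v(ξ - 1)^ℤ`. -/
theorem scale_mid_of_fixed (hq : q.Prime) (hAq : A.LiesOverPrime q)
    (ξ : Kbˣ) (hξ : IsPrimitiveRoot ξ q)
    (r : ↥(modularFunctionFieldBar (M * q * q)) →+* OmK) (hr : IsMid M q ξ r)
    (x : ↥(modularFunctionFieldBar (M * q * q))) (hx0 : x ≠ 0)
    (hfix : ∀ τ ∈ A.inertiaSubgroupIn ℚ,
      arithmeticRingAut (modularFunctionFieldFull (M * q * q)) τ x = x) :
    ∃ (m : ℤ) (h : HahnSeries.C (((ξ : Kb) - 1) ^ m) * r x ∈ Ocal A), red A ⟨_, h⟩ ≠ 0 := by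
  have hξ' : IsPrimitiveRoot (ξ : Kb) q := IsPrimitiveRoot.coe_units_iff.mpr hξ
  have hξq : ξ ^ q = 1 := hξ.pow_eq_one
  set H : Set (Kb ≃ₐ[ℚ] Kb) := {τ | τ ∈ A.inertiaSubgroupIn ℚ ∧ τ (ξ : Kb) = ξ} with hH
  set S : Set OmK := {s | ∃ (e : ℕ) (_ : NeZero e) (he : e ∣ M * q * q),
    s = r ⟨FFBridge.gen e, FFBridge.gen_mem he⟩} with hS
  have hrinj : Function.Injective r := r.injective
  have hcomm : ∀ τ ∈ H, ∀ z : ↥(modularFunctionFieldBar (M * q * q)),
      coeffMap (τ : Kb →+* Kb) (r z) =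
        r (arithmeticRingAut (modularFunctionFieldFull (M * q * q)) τ z) := by
    intro τ hτ z
    have hu : Units.map ((τ : Kb ≃ₐ[ℚ] Kb) : Kb →* Kb) ξ = ξ := Units.ext hτ.2
    have hr'' : IsMid M q (Units.map ((τ : Kb ≃ₐ[ℚ] Kb) : Kb →* Kb) ξ) r := by
      rw [hu]; exact hr
    exact IsMid.galois_apply hq hr τ hr'' z
  refine scale_of_fixed_gen A q hq hAq ((ξ : Kb) - 1) (zeta_sub_one_ne_zero q hq _ hξ')
    (val_zeta_sub_one_lt_one A q hq hAq _ hξ') ⟨q - 1, (val_zeta_sub_one_pow A q hq _ hξ').le⟩ H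
    (fun a ha hfa => val_eq_zpow_of_fixed_zeta A q hq hAq _ hξ' a ha
      (fun σ hσ hσξ => hfa σ ⟨hσ, hσξ⟩))
    S ?_ ?_ (r x) ?_ (fun h0 => hx0 (hrinj (h0.trans (map_zero r).symm))) ?_
  · rintro s ⟨e, _, he, rfl⟩
    rcases dvd_cases hq he with h1 | ⟨d, hd, hed⟩
    · rw [hr.gen_low h1]
      exact gen_integral A e
    · have hd0 : NeZero d := ⟨fun h0 => NeZero.ne M (Nat.eq_zero_of_zero_dvd (h0 ▸ hd))⟩
      rw [hr.gen_top hq.ne_zero hd he (by rw [hed]; ring)]
      exact scale_integral A ξ hq.ne_zero hξq _ (gen_integral A d)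
  · rintro s ⟨e, _, he, rfl⟩ τ hτ
    rw [hcomm τ hτ]
    congr 1
    apply Subtype.ext
    rw [coe_arithmeticRingAut_apply]
    exact coeffMap_gen_galois τ e
  · obtain ⟨a, ha, b, hb, hb0, hab⟩ := FFBridge.exists_div_eq (M * q * q) x.2
    have key : ∀ c ∈ Algebra.adjoin Kb (FFBridge.genSet (M * q * q)),
        ∃ hc : c ∈ modularFunctionFieldBar (M * q * q), r ⟨c, hc⟩ ∈ Algebra.adjoin Kb S := by
      intro c hc
      induction hc using Algebra.adjoin_induction with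
      | mem z hz =>
        obtain ⟨e, hne, he, rfl⟩ := hz
        exact ⟨FFBridge.gen_mem he, Algebra.subset_adjoin ⟨e, hne, he, rfl⟩⟩
      | algebraMap c =>
        refine ⟨(modularFunctionFieldBar (M * q * q)).algebraMap_mem c, ?_⟩
        have h1 : r ⟨algebraMap Kb OmK c, (modularFunctionFieldBar (M * q * q)).algebraMap_mem c⟩ =
            algebraMap Kb OmK c := hr.1 c
        rw [h1]
        exact Subalgebra.algebraMap_mem _ c
      | add u v _ _ hu hv =>
        obtain ⟨hu1, hu2⟩ := hu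
        obtain ⟨hv1, hv2⟩ := hv
        refine ⟨add_mem hu1 hv1, ?_⟩
        have h1 : (⟨u + v, add_mem hu1 hv1⟩ : ↥(modularFunctionFieldBar (M * q * q))) =
            ⟨u, hu1⟩ + ⟨v, hv1⟩ := rfl
        rw [h1, map_add]
        exact add_mem hu2 hv2
      | mul u v _ _ hu hv =>
        obtain ⟨hu1, hu2⟩ := hu
        obtain ⟨hv1, hv2⟩ := hv
        refine ⟨mul_mem hu1 hv1, ?_⟩
        have h1 : (⟨u * v, mul_mem hu1 hv1⟩ : ↥(modularFunctionFieldBar (M * q * q))) =
            ⟨u, hu1⟩ * ⟨v, hv1⟩ := rfl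
        rw [h1, map_mul]
        exact mul_mem hu2 hv2
    obtain ⟨ha1, ha2⟩ := key a ha
    obtain ⟨hb1, hb2⟩ := key b hb
    refine ⟨_, ha2, _, hb2, ?_, ?_⟩
    · intro h0
      exact hb0 (congrArg Subtype.val (hrinj (h0.trans (map_zero r).symm)))
    · rw [← map_div₀]
      congr 1
      apply Subtype.ext
      exact hab
  · intro τ hτ
    rw [hcomm τ hτ, hfix τ hτ.1]

/-- **Normal form at a middle cusp.** If the middle expansion of a nonzero inertia-fixed `x` is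
integral, it is `(ξ - 1)^k` times an element of `Ocal` with nonzero reduction, `k : ℕ`. -/
theorem exists_mid_eq_pow_mul (hq : q.Prime) (hAq : A.LiesOverPrime q)
    (ξ : Kbˣ) (hξ : IsPrimitiveRoot ξ q)
    (r : ↥(modularFunctionFieldBar (M * q * q)) →+* OmK) (hr : IsMid M q ξ r)
    (x : ↥(modularFunctionFieldBar (M * q * q))) (hx0 : x ≠ 0)
    (hfix : ∀ τ ∈ A.inertiaSubgroupIn ℚ,
      arithmeticRingAut (modularFunctionFieldFull (M * q * q)) τ x = x)
    (h : r x ∈ Ocal A) :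
    ∃ (k : ℕ) (z : Ocal A), red A z ≠ 0 ∧
      r x = HahnSeries.C (((ξ : Kb) - 1) ^ k) * (z : OmK) := by
  have hξ' : IsPrimitiveRoot (ξ : Kb) q := IsPrimitiveRoot.coe_units_iff.mpr hξ
  have hπ0 : (ξ : Kb) - 1 ≠ 0 := zeta_sub_one_ne_zero q hq _ hξ'
  have hπ : A.valuation ((ξ : Kb) - 1) < 1 := val_zeta_sub_one_lt_one A q hq hAq _ hξ'
  obtain ⟨m, hm, hred⟩ := scale_mid_of_fixed A hq hAq ξ hξ r hr x hx0 hfix
  have e1 : r x = HahnSeries.C (((ξ : Kb) - 1) ^ (-m)) *
      (HahnSeries.C (((ξ : Kb) - 1) ^ m) * r x) := by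
    rw [← mul_assoc, ← map_mul, ← zpow_add₀ hπ0, neg_add_cancel, zpow_zero, map_one, one_mul]
  have hmem : ((ξ : Kb) - 1) ^ (-m) ∈ A := by
    have h2 : HahnSeries.C (((ξ : Kb) - 1) ^ (-m)) *
        ((⟨_, hm⟩ : Ocal A) : OmK) ∈ Ocal A := by
      rw [← e1]; exact h
    exact (C_mul_mem_Ocal_iff A _ ⟨_, hm⟩ hred).mp h2
  have hm0 : m ≤ 0 := by
    by_contra hcon
    rw [not_le] at hcon
    obtain ⟨j, hj⟩ : ∃ j : ℕ, m = (j : ℤ) + 1 := ⟨(m - 1).toNat, by omega⟩
    have h3 : A.valuation (((ξ : Kb) - 1) ^ (-m)) ≤ 1 := (A.valuation_le_one_iff _).mpr hmem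
    rw [hj, zpow_neg, ← Nat.cast_succ, zpow_natCast, map_inv₀, map_pow] at h3
    have hv0 : A.valuation ((ξ : Kb) - 1) ≠ 0 := (Valuation.ne_zero_iff _).mpr hπ0
    have h4 : A.valuation ((ξ : Kb) - 1) ^ (j + 1) < 1 :=
      pow_lt_one₀ zero_le hπ (Nat.succ_ne_zero j)
    have h5 : A.valuation ((ξ : Kb) - 1) ^ (j + 1) ≠ 0 := pow_ne_zero _ hv0
    have h6 : (1 : A.ValueGroup) < (A.valuation ((ξ : Kb) - 1) ^ (j + 1))⁻¹ :=
      (one_lt_inv₀ (lt_of_le_of_ne zero_le h5.symm)).mpr h4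
    exact absurd h3 (not_le.mpr h6)
  obtain ⟨k, hk⟩ : ∃ k : ℕ, -m = (k : ℤ) := ⟨(-m).toNat, by omega⟩
  refine ⟨k, ⟨_, hm⟩, hred, ?_⟩
  rw [← zpow_natCast, ← hk]
  exact e1

/-- **Divisibility at a middle cusp.** If the middle expansion of an inertia-fixed `x` is integral
with zero reduction, then it is divisible by `ξ - 1` in `Ocal`. -/
theorem div_mid_mem_Ocal (hq : q.Prime) (hAq : A.LiesOverPrime q)
    (ξ : Kbˣ) (hξ : IsPrimitiveRoot ξ q)
    (r : ↥(modularFunctionFieldBar (M * q * q)) →+* OmK) (hr : IsMid M q ξ r)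
    (x : ↥(modularFunctionFieldBar (M * q * q)))
    (hfix : ∀ τ ∈ A.inertiaSubgroupIn ℚ,
      arithmeticRingAut (modularFunctionFieldFull (M * q * q)) τ x = x)
    (h : r x ∈ Ocal A) (h0 : red A ⟨_, h⟩ = 0) :
    HahnSeries.C (((ξ : Kb) - 1)⁻¹) * r x ∈ Ocal A := by
  by_cases hx0 : x = 0
  · rw [hx0, map_zero, mul_zero]
    exact (Ocal A).zero_mem
  have hξ' : IsPrimitiveRoot (ξ : Kb) q := IsPrimitiveRoot.coe_units_iff.mpr hξ
  have hπ0 : (ξ : Kb) - 1 ≠ 0 := zeta_sub_one_ne_zero q hq _ hξ'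
  have hπ : A.valuation ((ξ : Kb) - 1) < 1 := val_zeta_sub_one_lt_one A q hq hAq _ hξ'
  have hπA : (ξ : Kb) - 1 ∈ A := (A.valuation_le_one_iff _).mp hπ.le
  obtain ⟨k, z, hz, e⟩ := exists_mid_eq_pow_mul A hq hAq ξ hξ r hr x hx0 hfix h
  rcases Nat.eq_zero_or_pos k with hk | hk
  · exfalso
    rw [hk, pow_zero, map_one, one_mul] at e
    apply hz
    rw [← h0]
    exact red_congr A e.symm _ _
  · obtain ⟨j, rfl⟩ : ∃ j : ℕ, k = j + 1 := ⟨k - 1, by omega⟩
    have e2 : HahnSeries.C (((ξ : Kb) - 1)⁻¹) * r x =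
        HahnSeries.C (((ξ : Kb) - 1) ^ j) * (z : OmK) := by
      rw [e, ← mul_assoc, ← map_mul, pow_succ, ← mul_assoc, mul_comm _ (((ξ : Kb) - 1) ^ j),
        mul_assoc, inv_mul_cancel₀ hπ0, mul_one]
    rw [e2]
    exact (Ocal A).mul_mem (C_mem_Ocal A (A.pow_mem hπA j)) z.2

end Instances

end Fermat.Agent.S36.K0Gauss
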