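import Mathlib
import Fermat.Agent.S36.Plan
import Fermat.Agent.S36.EmbFrame
import Fermat.Agent.S36.K0Red
import Fermat.Agent.S36.K0Gauss
import Fermat.Agent.S36.MidEq

/-!
# P8 / S36 — [K0-SCALE-FRAME]: the Gauss values of a `K₀`-rational function, in the frame (helper62)

`A` a valuation subring of `Q̄` over the prime `q`, `I = A.inertiaSubgroupIn ℚ`,
`F : Plan.Frame M q h` the level-`q²` frame of `S36/Plan`. For a nonzero `I`-fixed element `x` of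
the top level `F_{M q²}`:

* `exists_scale_inf`, `exists_scale_zero`: some `q^m · ε_i x` is a unit of `Ocal A`
  (`i = ∞, 0`);
* `exists_scale_mid_one`, `exists_scale_mid`: some `(ξ - 1)^m · ε_ξ x` is a unit of `Ocal A`, with
  ONE exponent `m` for all the middle cusps `ξ`;
* `exists_scale_mid_pow`: some `q^m · (ε_ξ x)^(q-1)` is a unit of `Ocal A`, with one exponent `m`
  for all the middle cusps;
* `div_mid_mem_Ocal`: if `ε_ξ x` is integral with zero reduction then `(ξ - 1)⁻¹ · ε_ξ x` is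
  integral.
* `exists_fixed_const_scale`: any level `N`, the expansion at `∞`, with an `I`-fixed constant.

Sources: `S36/K0Red.qScale_of_fixed` (helper54), `S36/K0Gauss`, `S36/MidEq` (helper70),
`S36/EmbFrame.coeffMap_emb` (helper49).
-/

set_option autoImplicit false

namespace Fermat.Agent.S36.K0ScaleFrame

open ModularCurve Fermat.Agent.S24 Fermat.Agent.S18.Content Fermat.Agent.S18.Plan Fermat.Agent.S34

variable (A : ValuationSubring Kbar)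

/-- `coeffMap` of a constant. -/
theorem coeffMap_C (τ : Kbar ≃ₐ[ℚ] Kbar) (c : Kbar) :
    coeffMap (τ : Kbar →+* Kbar) (HahnSeries.C c : Om) = HahnSeries.C (τ c) := by
  rw [HahnSeries.C_apply, coeffMap_single]
  rfl

/-- **Any level, `∞`-expansion**: a nonzero inertia-fixed element of `F_N` becomes a unit of
`Ocal A` after multiplication by an inertia-fixed constant. -/
theorem exists_fixed_const_scale (q : ℕ) (hq : q.Prime) (hA : A.LiesOverPrime q) (N : ℕ)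
    [NeZero N] (g : FN N) (hg0 : g ≠ 0)
    (hfix : ∀ τ : Kbar ≃ₐ[ℚ] Kbar, τ ∈ A.inertiaSubgroupIn ℚ → S34.Plan.gal N τ • g = g) :
    ∃ d : Kbar, d ≠ 0 ∧ (∀ τ : Kbar ≃ₐ[ℚ] Kbar, τ ∈ A.inertiaSubgroupIn ℚ → τ d = d) ∧
      ∃ h : HahnSeries.C d * (g : Om) ∈ Ocal A, red A ⟨_, h⟩ ≠ 0 := by
  have hfix' : K0Red.Fixed A (g : Om) := fun τ hτ =>
    congrArg (fun y : FN N => (y : Om)) (hfix τ hτ)
  obtain ⟨m, h, hne⟩ := K0Red.qScale_of_fixed hq hA N (g : Om) g.2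
    (fun h0 => hg0 (Subtype.ext h0)) hfix'
  exact ⟨(q : Kbar) ^ m, zpow_ne_zero m (Nat.cast_ne_zero.mpr hq.ne_zero),
    fun τ _ => by rw [map_zpow₀, map_natCast], h, hne⟩

section Frame

variable {M q : ℕ} [NeZero M] [NeZero q] {h : Nat.Coprime M q}

/-- **`∞`-coordinate.** -/
theorem exists_scale_inf (hq : q.Prime) (hA : A.LiesOverPrime q) (F : Plan.Frame M q h)
    (x : FN (M * q * q)) (hx0 : x ≠ 0)
    (hfix : ∀ τ : Kbar ≃ₐ[ℚ] Kbar, τ ∈ A.inertiaSubgroupIn ℚ →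
      S34.Plan.gal (M * q * q) τ • x = x) :
    ∃ (m : ℤ) (h' : HahnSeries.C ((q : Kbar) ^ m) * F.emb .inf x ∈ Ocal A),
      red A ⟨_, h'⟩ ≠ 0 := by
  have hfix' : K0Red.Fixed A (x : Om) := fun τ hτ =>
    congrArg (fun y : FN (M * q * q) => (y : Om)) (hfix τ hτ)
  exact K0Red.qScale_of_fixed hq hA (M * q * q) (x : Om) x.2
    (fun h0 => hx0 (Subtype.ext h0)) hfix'

/-- **`0`-coordinate.** -/
theorem exists_scale_zero (hq : q.Prime) (hA : A.LiesOverPrime q) (F : Plan.Frame M q h)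
    (x : FN (M * q * q)) (hx0 : x ≠ 0)
    (hfix : ∀ τ : Kbar ≃ₐ[ℚ] Kbar, τ ∈ A.inertiaSubgroupIn ℚ →
      S34.Plan.gal (M * q * q) τ • x = x) :
    ∃ (m : ℤ) (h' : HahnSeries.C ((q : Kbar) ^ m) * F.emb .zero x ∈ Ocal A),
      red A ⟨_, h'⟩ ≠ 0 := by
  have hfix' : K0Red.Fixed A ((F.w x : FN (M * q * q)) : Om) := fun τ hτ => by
    have h1 := EmbFrame.coeffMap_emb hq F τ .zero x
    rw [EmbFrame.galCoord_zero] at h1
    have h2 : arithmeticGalois (modularFunctionFieldFull (M * q * q)) τ • x = x := hfix τ hτ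
    rw [h2] at h1
    exact h1
  have hne : F.w x ≠ 0 := fun h0 => hx0 (F.w.injective (h0.trans (map_zero F.w).symm))
  exact K0Red.qScale_of_fixed hq hA (M * q * q) ((F.w x : FN (M * q * q)) : Om) (F.w x).2
    (fun h0 => hne (Subtype.ext h0)) hfix'

/-- **A middle coordinate.** -/
theorem exists_scale_mid_one (hq : q.Prime) (hA : A.LiesOverPrime q) (F : Plan.Frame M q h)
    (x : FN (M * q * q)) (hx0 : x ≠ 0)
    (hfix : ∀ τ : Kbar ≃ₐ[ℚ] Kbar, τ ∈ A.inertiaSubgroupIn ℚ →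
      S34.Plan.gal (M * q * q) τ • x = x) (ξ : Plan.MidIdx q) :
    ∃ (m : ℤ) (h' : HahnSeries.C (((ξ.1 : Kbar) - 1) ^ m) * F.emb (.mid ξ) x ∈ Ocal A),
      red A ⟨_, h'⟩ ≠ 0 :=
  K0Gauss.scale_mid_of_fixed A hq hA ξ.1 ξ.2 (F.r ξ).toRingHom (FrameInst.isMid F ξ) x hx0
    (fun τ hτ => hfix τ hτ)

/-- **The middle coordinates, one exponent for all of them.** -/
theorem exists_scale_mid (hq : q.Prime) (hA : A.LiesOverPrime q) (F : Plan.Frame M q h)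
    (x : FN (M * q * q)) (hx0 : x ≠ 0)
    (hfix : ∀ τ : Kbar ≃ₐ[ℚ] Kbar, τ ∈ A.inertiaSubgroupIn ℚ →
      S34.Plan.gal (M * q * q) τ • x = x) :
    ∃ m : ℤ, ∀ ξ : Plan.MidIdx q,
      ∃ h' : HahnSeries.C (((ξ.1 : Kbar) - 1) ^ m) * F.emb (.mid ξ) x ∈ Ocal A,
        red A ⟨_, h'⟩ ≠ 0 := by
  by_cases hne : Nonempty (Plan.MidIdx q)
  · obtain ⟨ξ₀⟩ := hne
    obtain ⟨m, h0, hred0⟩ := exists_scale_mid_one A hq hA F x hx0 hfix ξ₀
    refine ⟨m, fun ξ => ?_⟩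
    obtain ⟨τ, hτ, hτξ⟩ := MidEq.exists_inertia_map_primitiveRoot A q hq hA (ξ₀.1 : Kbar)
      (ξ.1 : Kbar) (IsPrimitiveRoot.coe_units_iff.2 ξ₀.2) (IsPrimitiveRoot.coe_units_iff.2 ξ.2)
    have hgal : FrameInst.galMid τ ξ₀ = ξ := Subtype.ext (Units.ext hτξ)
    have h2 : arithmeticGalois (modularFunctionFieldFull (M * q * q)) τ • x = x := hfix τ hτ
    have key : coeffMap (τ : Kbar →+* Kbar)
        (HahnSeries.C (((ξ₀.1 : Kbar) - 1) ^ m) * F.emb (.mid ξ₀) x) =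
        HahnSeries.C (((ξ.1 : Kbar) - 1) ^ m) * F.emb (.mid ξ) x := by
      rw [map_mul, EmbFrame.coeffMap_emb hq F τ (.mid ξ₀) x, EmbFrame.galCoord_mid, hgal, h2,
        coeffMap_C, map_zpow₀, map_sub, map_one, hτξ]
    obtain ⟨s, rfl, hs⟩ := Fermat.Agent.S34.ValInertia.exists_decomp A hτ
    have h1 := Fermat.Agent.S37.Gal.coeffMap_mem_Ocal A s h0
    have h3 := Fermat.Agent.S37.Gal.red_coeffMap A s _ h0
    rw [hs, coeffMap_id] at h3
    have h4 : HahnSeries.C (((ξ.1 : Kbar) - 1) ^ m) * F.emb (.mid ξ) x ∈ Ocal A := by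
      rw [← key]; exact h1
    refine ⟨h4, ?_⟩
    rw [← red_congr A key h1 h4, h3]
    exact hred0
  · exact ⟨0, fun ξ => (hne ⟨ξ⟩).elim⟩

/-- **The middle coordinates, `q`-power form**: `q^m · (ε_ξ x)^(q-1)` is a unit of `Ocal A` for
all middle cusps `ξ`, with one exponent `m`. -/
theorem exists_scale_mid_pow (hq : q.Prime) (hA : A.LiesOverPrime q) (F : Plan.Frame M q h)
    (x : FN (M * q * q)) (hx0 : x ≠ 0)
    (hfix : ∀ τ : Kbar ≃ₐ[ℚ] Kbar, τ ∈ A.inertiaSubgroupIn ℚ →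
      S34.Plan.gal (M * q * q) τ • x = x) :
    ∃ m : ℤ, ∀ ξ : Plan.MidIdx q,
      ∃ h' : HahnSeries.C ((q : Kbar) ^ m) * F.emb (.mid ξ) x ^ (q - 1) ∈ Ocal A,
        red A ⟨_, h'⟩ ≠ 0 := by
  obtain ⟨m, hm⟩ := exists_scale_mid A hq hA F x hx0 hfix
  refine ⟨m, fun ξ => ?_⟩
  obtain ⟨h1, hred1⟩ := hm ξ
  have hξ' : IsPrimitiveRoot (ξ.1 : Kbar) q := IsPrimitiveRoot.coe_units_iff.mpr ξ.2
  have hπ0 : (ξ.1 : Kbar) - 1 ≠ 0 := InertiaFieldZeta.zeta_sub_one_ne_zero q hq _ hξ'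
  have hq0 : (q : Kbar) ≠ 0 := Nat.cast_ne_zero.mpr hq.ne_zero
  have hval : A.valuation ((q : Kbar) / ((ξ.1 : Kbar) - 1) ^ (q - 1)) = 1 := by
    rw [map_div₀, map_pow, InertiaFieldZeta.val_zeta_sub_one_pow A q hq _ hξ']
    exact div_self ((Valuation.ne_zero_iff _).mpr hq0)
  set c : Kbar := ((q : Kbar) / ((ξ.1 : Kbar) - 1) ^ (q - 1)) ^ m with hc
  have hcval : A.valuation c = 1 := by rw [hc, map_zpow₀, hval, one_zpow]
  have hcA : c ∈ A := (A.valuation_le_one_iff _).mp hcval.le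
  have hcu : IsUnit (⟨c, hcA⟩ : A) := (A.valuation_eq_one_iff _).mpr hcval
  have e : HahnSeries.C ((q : Kbar) ^ m) * F.emb (.mid ξ) x ^ (q - 1) =
      HahnSeries.C c *
        (HahnSeries.C (((ξ.1 : Kbar) - 1) ^ m) * F.emb (.mid ξ) x) ^ (q - 1) := by
    have e1 : (HahnSeries.C (((ξ.1 : Kbar) - 1) ^ m) : Om) ^ (q - 1) =
        HahnSeries.C ((((ξ.1 : Kbar) - 1) ^ m) ^ (q - 1)) := (map_pow _ _ _).symm
    rw [mul_pow, ← mul_assoc, e1, ← map_mul]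
    congr 2
    rw [hc, div_zpow, ← zpow_natCast (((ξ.1 : Kbar) - 1) ^ m), ← zpow_mul,
      ← zpow_natCast ((ξ.1 : Kbar) - 1) (q - 1), ← zpow_mul, mul_comm m, div_mul_cancel₀]
    exact zpow_ne_zero _ hπ0
  have hmem : HahnSeries.C c * (((⟨_, h1⟩ : Ocal A) ^ (q - 1) : Ocal A) : Om) ∈ Ocal A :=
    (Ocal A).mul_mem (C_mem_Ocal A hcA) (SetLike.coe_mem _)
  have hmem' : HahnSeries.C ((q : Kbar) ^ m) * F.emb (.mid ξ) x ^ (q - 1) ∈ Ocal A := by
    rw [e]; exact hmem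
  refine ⟨hmem', ?_⟩
  have h5 : red A ⟨_, hmem'⟩ = red A ⟨_, hmem⟩ := red_congr A e hmem' hmem
  rw [h5]
  intro h0
  have h6 := (red_C_mul_eq_zero_iff A hcA ((⟨_, h1⟩ : Ocal A) ^ (q - 1))
    (by rw [map_pow]; exact pow_ne_zero _ hred1) hmem).mp h0
  exact ((IsLocalRing.mem_maximalIdeal _).mp h6) hcu

/-- **Divisibility at a middle coordinate**: integral with zero reduction ⟹ divisible by
`ξ - 1`. -/
theorem div_mid_mem_Ocal (hq : q.Prime) (hA : A.LiesOverPrime q) (F : Plan.Frame M q h)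
    (x : FN (M * q * q))
    (hfix : ∀ τ : Kbar ≃ₐ[ℚ] Kbar, τ ∈ A.inertiaSubgroupIn ℚ →
      S34.Plan.gal (M * q * q) τ • x = x) (ξ : Plan.MidIdx q)
    (h' : F.emb (.mid ξ) x ∈ Ocal A) (h0 : red A ⟨_, h'⟩ = 0) :
    HahnSeries.C (((ξ.1 : Kbar) - 1)⁻¹) * F.emb (.mid ξ) x ∈ Ocal A :=
  K0Gauss.div_mid_mem_Ocal A hq hA ξ.1 ξ.2 (F.r ξ).toRingHom (FrameInst.isMid F ξ) x
    (fun τ hτ => hfix τ hτ) h' h0

end Frame

end Fermat.Agent.S36.K0ScaleFrame
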