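import Mathlib
import Fermat.Agent.S18.PullPlan
import Fermat.Agent.S36.ApproxPlace
import Fermat.Agent.S36.K0Plan
import Fermat.Agent.S36.K0ScaleFrame
import Fermat.Agent.S36.PhiDiv

/-!
# S36 (P8) — [APPROX] (a) in `K0Plan` vocabulary (helper30)

`A` a valuation subring of `Q̄` over the prime `q`, `(O, ρ)` a setup of the level-`q²` frame `F`,
`Λ'(D) = K0Plan.Lam … E D` the `K₀`-rational elements of `O` in `L(D + cE)` for some `c`
(`D` a divisor of `F_{N'q}`).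

* `gal_smul_isE3`          : `E = (j)_∞ + (j_q)_∞ + (j_{q²})_∞` is Galois stable;
* `exists_pow_q_mul_mem`   : a `K₀`-rational element `x` of the top level has `q^k · x ∈ O`;
* `exists_lam_ord_eq`      : for an inertia-stable divisor `D` and a place `P` of `F_{N'q}` off the
  support of `E`, some `f ∈ Λ'(D) ∩ F_{N'q}` has `ord_P f = -D P` EXACTLY;
* `exists_lam_ne_zero`     : `Λ'(D) ∩ F_{N'q}` contains a nonzero element;
* `exists_lam_ord_eq_levels`, `exists_lam_ne_zero_levels` : the hypotheses `happ`, `hne` of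
  `LamColon.mem_lam_neg_of_colon` at the levels of the spine, verbatim;
* `eq_zero_of_ord_jBar`, `exists_lam_ord_eq_spine` : the same in the spine spelling
  (`N' = N₀ * q`, `P` with `0 ≤ ord_P j`).
-/

set_option autoImplicit false

noncomputable section

namespace Fermat.Agent.S36.ApproxK0

open ModularCurve AlgebraicCurve Fermat.Agent.S24 Fermat.Agent.S18.Content Fermat.Agent.S18.Plan
open Fermat.Agent.S18 Fermat.Agent.Lib Fermat.Agent.S34

/-- `E = (j)_∞ + (j_q)_∞ + (j_{q²})_∞` is Galois stable. -/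
theorem gal_smul_isE3 (N q : ℕ) [NeZero N] [NeZero q] (hq : q ∣ N) (hqq : q * q ∣ N)
    (τ : Kbar ≃ₐ[ℚ] Kbar) {E : Divisor Kbar (FN N)} (hE : S36.Plan.IsE3 N q hq hqq E) :
    S34.Plan.gal N τ • E = E := by
  refine GalPull.smul_divisor_eq_self (S34.Plan.gal N τ) E fun P => ?_
  have h1 := SemilinearAut.ord_smul (S34.Plan.gal N τ) P (jBar N)
  have h2 := SemilinearAut.ord_smul (S34.Plan.gal N τ) P (jBarLevel N q hq)
  have h3 := SemilinearAut.ord_smul (S34.Plan.gal N τ) P (jBarLevel N (q * q) hqq)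
  have e1 : S34.Plan.gal N τ • jBar N = jBar N := Sigma.galois_smul_jBar N τ
  have e2 : S34.Plan.gal N τ • jBarLevel N q hq = jBarLevel N q hq :=
    Sigma.galois_smul_gen N τ hq
  have e3 : S34.Plan.gal N τ • jBarLevel N (q * q) hqq = jBarLevel N (q * q) hqq :=
    Sigma.galois_smul_gen N τ hqq
  rw [e1] at h1
  rw [e2] at h2
  rw [e3] at h3
  rw [hE, hE, h1, h2, h3]

/-- The `q`-expansion of a constant multiple. -/
theorem coe_algebraMap_mul (N : ℕ) (a : Kbar) (x : FN N) :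
    ((algebraMap Kbar (FN N) a * x : FN N) : Om) = HahnSeries.C a * (x : Om) := by
  rw [← Algebra.smul_def, HahnSeries.C_mul_eq_smul]
  exact (RR0.inclLin N).map_smul a x

section Scale

variable {A : ValuationSubring Kbar}

/-- Change of scaling constant inside `Ocal A`. -/
theorem mul_mem_Ocal_of_div_mem {a b : Kbar} (hb : b ≠ 0) (hab : a / b ∈ A) {e : Om}
    (h : HahnSeries.C b * e ∈ Ocal A) : HahnSeries.C a * e ∈ Ocal A := by
  have e1 : HahnSeries.C a * e = HahnSeries.C (a / b) * (HahnSeries.C b * e) := by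
    rw [← mul_assoc, ← map_mul, div_mul_cancel₀ a hb]
  rw [e1]
  exact (Ocal A).mul_mem (C_mem_Ocal A hab) h

/-- `q^k / q^m ∈ A` for an integer `m ≤ k`. -/
theorem pow_div_zpow_mem (q : ℕ) (hq0 : (q : Kbar) ≠ 0) (k : ℕ) (m : ℤ) (hmk : m ≤ (k : ℤ)) :
    (q : Kbar) ^ k / (q : Kbar) ^ m ∈ A := by
  obtain ⟨n, hn⟩ := Int.eq_ofNat_of_zero_le (sub_nonneg.mpr hmk)
  have e : (q : Kbar) ^ k / (q : Kbar) ^ m = (q : Kbar) ^ n := by
    rw [← zpow_natCast (q : Kbar) k, ← zpow_sub₀ hq0, hn, zpow_natCast]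
  rw [e]
  exact pow_mem (natCast_mem A q) n

/-- `q^k / (ξ - 1)^m ∈ A` for an integer `m ≤ k` (`ξ` a primitive `q`-th root of unity). -/
theorem pow_div_zpow_zeta_mem (q : ℕ) (hq : q.Prime) (ξ : Kbar) (hξ : IsPrimitiveRoot ξ q)
    (k : ℕ) (m : ℤ) (hmk : m ≤ (k : ℤ)) :
    (q : Kbar) ^ k / (ξ - 1) ^ m ∈ A := by
  have hπ0 : ξ - 1 ≠ 0 := InertiaFieldZeta.zeta_sub_one_ne_zero q hq _ hξ
  have hq0 : (q : Kbar) ≠ 0 := Nat.cast_ne_zero.mpr hq.ne_zero
  have hvq := InertiaFieldZeta.val_zeta_sub_one_pow A q hq ξ hξ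
  -- `u = q / (ξ - 1)^(q-1)` is a unit of `A`
  have hu : (q : Kbar) / (ξ - 1) ^ (q - 1) ∈ A := by
    refine (A.valuation_le_one_iff _).mp (le_of_eq ?_)
    rw [map_div₀, map_pow, hvq]
    exact div_self ((Valuation.ne_zero_iff _).mpr hq0)
  -- `ξ - 1 ∈ A`
  have hπA : ξ - 1 ∈ A := by
    have h1 : ξ ∈ A := by
      refine (A.valuation_le_one_iff _).mp (le_of_eq ?_)
      have h2 : A.valuation ξ ^ q = 1 := by
        rw [← map_pow, hξ.pow_eq_one, map_one]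
      exact (pow_eq_one_iff.mp h2).resolve_right hq.ne_zero
    exact sub_mem h1 (one_mem A)
  -- the exponent `(q - 1) k - m ≥ 0`
  have hq1 : 1 ≤ q - 1 := by have := hq.two_le; omega
  have hexp : (0 : ℤ) ≤ ((q - 1) * k : ℕ) - m := by
    have h3 : (k : ℤ) ≤ ((q - 1) * k : ℕ) := by
      exact_mod_cast Nat.le_mul_of_pos_left k hq1
    omega
  obtain ⟨n, hn⟩ := Int.eq_ofNat_of_zero_le hexp
  have e : (q : Kbar) ^ k / (ξ - 1) ^ m
      = ((q : Kbar) / (ξ - 1) ^ (q - 1)) ^ k * (ξ - 1) ^ n := by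
    have e1 : (ξ - 1) ^ n = ((ξ - 1) ^ (q - 1)) ^ k / (ξ - 1) ^ m := by
      rw [← zpow_natCast (ξ - 1) n, ← hn, zpow_sub₀ hπ0, zpow_natCast, pow_mul]
    rw [e1, div_pow, ← mul_div_assoc, div_mul_cancel₀]
    exact pow_ne_zero _ (pow_ne_zero _ hπ0)
  rw [e]
  exact mul_mem (pow_mem hu k) (pow_mem hπA n)

variable {M q : ℕ} [NeZero M] [NeZero q] {h : Nat.Coprime M q}
variable {O : Subring Om} {ρ : O →+* S36.Plan.Rq A q}

/-- **`q^k`-scaling into `O`**: a `K₀`-rational element of the top level `F_{Mq²}` becomes an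
element of `O` after multiplication by a power of `q`. -/
theorem exists_pow_q_mul_mem (hq : q.Prime) (hA : A.LiesOverPrime q) (F : S36.Plan.Frame M q h)
    (hS : S36.Plan.IsSetup A F O ρ) (x : FN (M * q * q)) (hfix : K0Plan.Fixed A (x : Om)) :
    ∃ k : ℕ, HahnSeries.C ((q : Kbar) ^ k) * (x : Om) ∈ O := by
  have hq0 : (q : Kbar) ≠ 0 := Nat.cast_ne_zero.mpr hq.ne_zero
  by_cases hx0 : x = 0
  · refine ⟨0, ?_⟩
    rw [hx0]
    have : ((0 : FN (M * q * q)) : Om) = 0 := rfl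
    rw [this, mul_zero]
    exact O.zero_mem
  have hfix' : ∀ τ : Kbar ≃ₐ[ℚ] Kbar, τ ∈ A.inertiaSubgroupIn ℚ →
      S34.Plan.gal (M * q * q) τ • x = x := fun τ hτ => Subtype.ext (hfix τ hτ)
  obtain ⟨m₁, h1, -⟩ := K0ScaleFrame.exists_scale_inf A hq hA F x hx0 hfix'
  obtain ⟨m₂, h2, -⟩ := K0ScaleFrame.exists_scale_zero A hq hA F x hx0 hfix'
  obtain ⟨m₃, h3⟩ := K0ScaleFrame.exists_scale_mid A hq hA F x hx0 hfix'
  set k : ℕ := max m₁.toNat (max m₂.toNat m₃.toNat) with hk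
  have hk1 : m₁ ≤ (k : ℤ) := by
    have := Int.self_le_toNat m₁
    have h' : m₁.toNat ≤ k := le_max_left _ _
    omega
  have hk2 : m₂ ≤ (k : ℤ) := by
    have := Int.self_le_toNat m₂
    have h' : m₂.toNat ≤ k := le_trans (le_max_left _ _) (le_max_right _ _)
    omega
  have hk3 : m₃ ≤ (k : ℤ) := by
    have := Int.self_le_toNat m₃
    have h' : m₃.toNat ≤ k := le_trans (le_max_right _ _) (le_max_right _ _)
    omega
  refine ⟨k, ?_⟩
  -- the scaled element as an element of the top level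
  set y : FN (M * q * q) := algebraMap Kbar (FN (M * q * q)) ((q : Kbar) ^ k) * x with hy
  have hycoe : (y : Om) = HahnSeries.C ((q : Kbar) ^ k) * (x : Om) :=
    coe_algebraMap_mul (M * q * q) _ x
  rw [← hycoe, hS.mem_iff y]
  intro i
  have hemb : F.emb i y = HahnSeries.C ((q : Kbar) ^ k) * F.emb i x := by
    rw [hy, map_mul, AlgHom.commutes, ModularCurve.algebraMap_laurentSeries_eq_single,
      HahnSeries.C_apply]
  rw [hemb]
  cases i with
  | inf =>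
    exact mul_mem_Ocal_of_div_mem (zpow_ne_zero m₁ hq0) (pow_div_zpow_mem q hq0 k m₁ hk1) h1
  | zero =>
    exact mul_mem_Ocal_of_div_mem (zpow_ne_zero m₂ hq0) (pow_div_zpow_mem q hq0 k m₂ hk2) h2
  | mid ξ =>
    obtain ⟨h3', -⟩ := h3 ξ
    have hξ' : IsPrimitiveRoot (ξ.1 : Kbar) q := IsPrimitiveRoot.coe_units_iff.mpr ξ.2
    have hπ0 : (ξ.1 : Kbar) - 1 ≠ 0 := InertiaFieldZeta.zeta_sub_one_ne_zero q hq _ hξ'
    exact mul_mem_Ocal_of_div_mem (zpow_ne_zero m₃ hπ0)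
      (pow_div_zpow_zeta_mem q hq _ hξ' k m₃ hk3) h3'

end Scale

section Main

variable {A : ValuationSubring Kbar} {N' M q : ℕ} [NeZero N'] [NeZero M] [NeZero q]
  {h : Nat.Coprime M q} {O : Subring Om} {ρ : O →+* S36.Plan.Rq A q}

/-- **[APPROX] (a), general form**: for an inertia-stable divisor `D` of `F_{N'q}` and ANY place
`P` of `F_{N'q}` there are `c` and `f ∈ F_{N'q}`, `f ≠ 0`, `f ∈ O`, `K₀`-rational,
`f ∈ L(D + cE)` (at level `N'q`, hence in `pullRR`), with `ord_P f = -(D P + c E P)`. -/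
theorem exists_lam_ord_eq_add (hq : q.Prime) (hA : A.LiesOverPrime q) (F : S36.Plan.Frame M q h)
    (hS : S36.Plan.IsSetup A F O ρ) (hq' : q ∣ N')
    (hle : modularFunctionFieldBar (N' * q) ≤ modularFunctionFieldBar (M * q * q))
    (E : Divisor Kbar (FN (N' * q)))
    (hE : S36.Plan.IsE3 (N' * q) q (Dvd.intro_left N' rfl) (Nat.mul_dvd_mul_right hq' q) E)
    (hEdeg : 0 < Divisor.degree E)
    (D : Divisor Kbar (FN (N' * q)))
    (hD : ∀ τ : Kbar ≃ₐ[ℚ] Kbar, τ ∈ A.inertiaSubgroupIn ℚ → S34.Plan.gal (N' * q) τ • D = D)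
    (P : Place Kbar (FN (N' * q))) :
    ∃ (c : ℕ) (f : FN (N' * q)) (hf : (f : Om) ∈ O), f ≠ 0 ∧
      K0Plan.Fixed A (f : Om) ∧ f ∈ riemannRochSpace (D + c • E) ∧
      (f : Om) ∈ pullRR (N' * q) (M * q * q) (D + c • E) ∧
      (⟨(f : Om), hf⟩ : O) ∈ K0Plan.Lam A N' M q O E D ∧ P.ord f = -(D P + c * E P) := by
  have hq0 : (q : Kbar) ≠ 0 := Nat.cast_ne_zero.mpr hq.ne_zero
  obtain ⟨c₀, hc₀⟩ := ApproxPlace.exists_fixed_ord_eq (N' * q)
    (A.inertiaSubgroupIn ℚ : Set (Kbar ≃ₐ[ℚ] Kbar)) D E hEdeg (fun τ hτ => hD τ hτ)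
    (fun τ _ => gal_smul_isE3 (N' * q) q _ _ τ hE) P
  obtain ⟨f, hf0, hfB, -, hfix, hord⟩ := hc₀ c₀ le_rfl
  -- scale into `O`
  obtain ⟨k, hk⟩ := exists_pow_q_mul_mem hq hA F hS (⟨(f : Om), hle f.2⟩ : FN (M * q * q))
    (fun τ hτ => hfix τ hτ)
  have ha0 : algebraMap Kbar (FN (N' * q)) ((q : Kbar) ^ k) ≠ 0 := by
    rw [Ne, map_eq_zero_iff _ (algebraMap Kbar (FN (N' * q))).injective]
    exact pow_ne_zero k hq0
  set f' : FN (N' * q) := algebraMap Kbar (FN (N' * q)) ((q : Kbar) ^ k) * f with hf'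
  have hcoe : (f' : Om) = HahnSeries.C ((q : Kbar) ^ k) * (f : Om) :=
    coe_algebraMap_mul (N' * q) _ f
  have hfix' : K0Plan.Fixed A (f' : Om) := by
    intro τ hτ
    rw [hcoe, map_mul, K0ScaleFrame.coeffMap_C, hfix τ hτ, map_pow, map_natCast]
  have hB' : f' ∈ riemannRochSpace (D + c₀ • E) := by
    have e : f' = ((q : Kbar) ^ k) • f := by rw [hf', Algebra.smul_def]
    rw [e]
    exact Submodule.smul_mem _ _ hfB
  have hpull : (f' : Om) ∈ pullRR (N' * q) (M * q * q) (D + c₀ • E) :=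
    PullPlan.coe_mem_pullRR hle hB'
  have hO : (f' : Om) ∈ O := by rw [hcoe]; exact hk
  refine ⟨c₀, f', hO, mul_ne_zero ha0 hf0, hfix', hB', hpull, ⟨hfix', c₀, hpull⟩, ?_⟩
  rw [hf', P.ord_mul ha0 hf0, FFPlaces.ord_algebraMap, zero_add, hord]

/-- **[APPROX] (a)**: for an inertia-stable divisor `D` of `F_{N'q}` and a place `P` of `F_{N'q}`
off the support of `E`, some `f ∈ Λ'(D) ∩ F_{N'q}` has `ord_P f = -D P` exactly. -/
theorem exists_lam_ord_eq (hq : q.Prime) (hA : A.LiesOverPrime q) (F : S36.Plan.Frame M q h)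
    (hS : S36.Plan.IsSetup A F O ρ) (hq' : q ∣ N')
    (hle : modularFunctionFieldBar (N' * q) ≤ modularFunctionFieldBar (M * q * q))
    (E : Divisor Kbar (FN (N' * q)))
    (hE : S36.Plan.IsE3 (N' * q) q (Dvd.intro_left N' rfl) (Nat.mul_dvd_mul_right hq' q) E)
    (hEdeg : 0 < Divisor.degree E)
    (D : Divisor Kbar (FN (N' * q)))
    (hD : ∀ τ : Kbar ≃ₐ[ℚ] Kbar, τ ∈ A.inertiaSubgroupIn ℚ → S34.Plan.gal (N' * q) τ • D = D)
    (P : Place Kbar (FN (N' * q))) (hP : E P = 0) :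
    ∃ (f : FN (N' * q)) (hf : (f : Om) ∈ O), f ≠ 0 ∧
      (⟨(f : Om), hf⟩ : O) ∈ K0Plan.Lam A N' M q O E D ∧ P.ord f = -D P := by
  obtain ⟨c, f, hf, hf0, -, -, -, hLam, hord⟩ :=
    exists_lam_ord_eq_add hq hA F hS hq' hle E hE hEdeg D hD P
  refine ⟨f, hf, hf0, hLam, ?_⟩
  rw [hord, hP, mul_zero, add_zero]

/-- `Λ'(D) ∩ F_{N'q}` contains a nonzero element. -/
theorem exists_lam_ne_zero (hq : q.Prime) (hA : A.LiesOverPrime q) (F : S36.Plan.Frame M q h)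
    (hS : S36.Plan.IsSetup A F O ρ) (hq' : q ∣ N')
    (hle : modularFunctionFieldBar (N' * q) ≤ modularFunctionFieldBar (M * q * q))
    (E : Divisor Kbar (FN (N' * q)))
    (hE : S36.Plan.IsE3 (N' * q) q (Dvd.intro_left N' rfl) (Nat.mul_dvd_mul_right hq' q) E)
    (hEdeg : 0 < Divisor.degree E)
    (D : Divisor Kbar (FN (N' * q)))
    (hD : ∀ τ : Kbar ≃ₐ[ℚ] Kbar, τ ∈ A.inertiaSubgroupIn ℚ → S34.Plan.gal (N' * q) τ • D = D) :
    ∃ (f : FN (N' * q)) (hf : (f : Om) ∈ O), f ≠ 0 ∧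
      (⟨(f : Om), hf⟩ : O) ∈ K0Plan.Lam A N' M q O E D := by
  have hE0 : E ≠ 0 := by
    rintro rfl
    rw [map_zero] at hEdeg
    exact lt_irrefl _ hEdeg
  obtain ⟨P, -⟩ := DFunLike.ne_iff.mp hE0
  obtain ⟨c, f, hf, hf0, -, -, -, hLam, -⟩ :=
    exists_lam_ord_eq_add hq hA F hS hq' hle E hE hEdeg D hD P
  exact ⟨f, hf, hf0, hLam⟩

/-- Off the poles of `j` the divisor `E` vanishes (spine spelling `N' = N₀ * q`). -/
theorem eq_zero_of_ord_jBar {N₀ : ℕ} (hM : Nat.Coprime N₀ q) (hN' : N' = N₀ * q) (hq' : q ∣ N')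
    (E : Divisor Kbar (FN (N' * q)))
    (hE : S36.Plan.IsE3 (N' * q) q (Dvd.intro_left N' rfl) (Nat.mul_dvd_mul_right hq' q) E)
    (P : Place Kbar (FN (N' * q))) (hP : 0 ≤ P.ord (jBar (N' * q))) : E P = 0 := by
  obtain ⟨h1, h2⟩ := PhiDiv.ord_neg_iff (N := N' * q) hM (by rw [hN']) (Dvd.intro_left N' rfl)
    (Nat.mul_dvd_mul_right hq' q) P
  have h3 : 0 ≤ P.ord (jBarLevel (N' * q) q (Dvd.intro_left N' rfl)) := by
    by_contra hc
    exact absurd (h1.mpr (not_le.mp hc)) (not_lt.mpr hP)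
  have h4 : 0 ≤ P.ord (jBarLevel (N' * q) (q * q) (Nat.mul_dvd_mul_right hq' q)) := by
    by_contra hc
    exact absurd (h2.mpr (not_le.mp hc)) (not_lt.mpr hP)
  rw [hE P, max_eq_left (by omega), max_eq_left (by omega), max_eq_left (by omega)]
  rfl

/-- **[APPROX] (a), spine spelling** (`N' = N₀ * q`, `P` not a pole of `j`). -/
theorem exists_lam_ord_eq_spine {N₀ : ℕ} (hq : q.Prime) (hM : Nat.Coprime N₀ q)
    (hN' : N' = N₀ * q) (hA : A.LiesOverPrime q) (F : S36.Plan.Frame M q h)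
    (hS : S36.Plan.IsSetup A F O ρ) (hq' : q ∣ N')
    (hle : modularFunctionFieldBar (N' * q) ≤ modularFunctionFieldBar (M * q * q))
    (E : Divisor Kbar (FN (N' * q)))
    (hE : S36.Plan.IsE3 (N' * q) q (Dvd.intro_left N' rfl) (Nat.mul_dvd_mul_right hq' q) E)
    (D : Divisor Kbar (FN (N' * q)))
    (hD : ∀ τ : Kbar ≃ₐ[ℚ] Kbar, τ ∈ A.inertiaSubgroupIn ℚ → S34.Plan.gal (N' * q) τ • D = D)
    (P : Place Kbar (FN (N' * q))) (hP : 0 ≤ P.ord (jBar (N' * q))) :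
    ∃ (f : FN (N' * q)) (hf : (f : Om) ∈ O), f ≠ 0 ∧
      (⟨(f : Om), hf⟩ : O) ∈ K0Plan.Lam A N' M q O E D ∧ P.ord f = -D P := by
  have hdeg := PhiDiv.degree_isE3_spine hq hM hN' hq' E hE
  have hEdeg : 0 < Divisor.degree E := by
    rw [hdeg]
    have hψ : 0 < dedekindPsi (N' * q) := FibreCount.dedekindPsi_pos (N' * q)
    have hψ' : (0 : ℤ) < (dedekindPsi (N' * q) : ℤ) := by exact_mod_cast hψ
    omega
  exact exists_lam_ord_eq hq hA F hS hq' hle E hE hEdeg D hD P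
    (eq_zero_of_ord_jBar hM hN' hq' E hE P hP)

/-- `0 < deg E` at the levels of the spine. -/
theorem degree_isE3_pos {N₀ : ℕ} (hq : q.Prime) (hM : Nat.Coprime N₀ q) (hN' : N' = N₀ * q)
    (hq' : q ∣ N') (E : Divisor Kbar (FN (N' * q)))
    (hE : S36.Plan.IsE3 (N' * q) q (Dvd.intro_left N' rfl) (Nat.mul_dvd_mul_right hq' q) E) :
    0 < Divisor.degree E := by
  have hdeg := PhiDiv.degree_isE3_spine hq hM hN' hq' E hE
  have hψ : 0 < dedekindPsi (N' * q) := FibreCount.dedekindPsi_pos (N' * q)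
  have hψ' : (0 : ℤ) < (dedekindPsi (N' * q) : ℤ) := by exact_mod_cast hψ
  omega

/-- **[APPROX] (a) at the levels of the spine** (`N' = N₀ * q`): the hypothesis `happ` of
`LamColon.mem_lam_neg_of_colon` / `ColonK0.colon`, verbatim. -/
theorem exists_lam_ord_eq_levels {N₀ : ℕ} (hq : q.Prime) (hM : Nat.Coprime N₀ q)
    (hN' : N' = N₀ * q) (hA : A.LiesOverPrime q) (F : S36.Plan.Frame M q h)
    (hS : S36.Plan.IsSetup A F O ρ) (hq' : q ∣ N')
    (hle : modularFunctionFieldBar (N' * q) ≤ modularFunctionFieldBar (M * q * q))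
    (E : Divisor Kbar (FN (N' * q)))
    (hE : S36.Plan.IsE3 (N' * q) q (Dvd.intro_left N' rfl) (Nat.mul_dvd_mul_right hq' q) E)
    (D : Divisor Kbar (FN (N' * q)))
    (hD : ∀ τ : Kbar ≃ₐ[ℚ] Kbar, τ ∈ A.inertiaSubgroupIn ℚ → S34.Plan.gal (N' * q) τ • D = D) :
    ∀ P : Place Kbar (FN (N' * q)), E P = 0 →
      ∃ (f : FN (N' * q)) (hf : (f : Om) ∈ O), f ≠ 0 ∧
        (⟨(f : Om), hf⟩ : O) ∈ K0Plan.Lam A N' M q O E D ∧ P.ord f = -D P :=
  fun P hP => exists_lam_ord_eq hq hA F hS hq' hle E hE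
    (degree_isE3_pos hq hM hN' hq' E hE) D hD P hP

/-- `Λ'(D) ∩ F_{N'q} ≠ 0` at the levels of the spine: the hypothesis `hne` of
`LamColon.mem_lam_neg_of_colon`, verbatim. -/
theorem exists_lam_ne_zero_levels {N₀ : ℕ} (hq : q.Prime) (hM : Nat.Coprime N₀ q)
    (hN' : N' = N₀ * q) (hA : A.LiesOverPrime q) (F : S36.Plan.Frame M q h)
    (hS : S36.Plan.IsSetup A F O ρ) (hq' : q ∣ N')
    (hle : modularFunctionFieldBar (N' * q) ≤ modularFunctionFieldBar (M * q * q))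
    (E : Divisor Kbar (FN (N' * q)))
    (hE : S36.Plan.IsE3 (N' * q) q (Dvd.intro_left N' rfl) (Nat.mul_dvd_mul_right hq' q) E)
    (D : Divisor Kbar (FN (N' * q)))
    (hD : ∀ τ : Kbar ≃ₐ[ℚ] Kbar, τ ∈ A.inertiaSubgroupIn ℚ → S34.Plan.gal (N' * q) τ • D = D) :
    ∃ (f : FN (N' * q)) (hf : (f : Om) ∈ O), f ≠ 0 ∧
      (⟨(f : Om), hf⟩ : O) ∈ K0Plan.Lam A N' M q O E D :=
  exists_lam_ne_zero hq hA F hS hq' hle E hE (degree_isE3_pos hq hM hN' hq' E hE) D hD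

end Main

end Fermat.Agent.S36.ApproxK0

end
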