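import Mathlib

/-!
# S36 (P8) — [LOC-GEN]: the stalk of a divisorial module is cyclic, in denominator form (helper36)

Global form of the Nakayama step of `S36/LocalPrincipal.lean`, with no local ring and no
localisation type: everything is stated on the global ring `B`, a Dedekind quotient `D` of `B`
(with fraction field `L`) and a maximal ideal `m` of `B`.

In the application `B` is the ring of `K₀`-rational integral functions regular off the cusps,
`π : B → D = B_κ` is the reduction on one vertical component (a smooth affine curve), `m = m_s`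
is a closed point of that component, `t` a local equation of the component at `s`, `I = M_D` the
divisorial module of a `K₀`-rational divisor and `r` the reduction on `I`.  The conclusion
`∃ g ∈ I, ∃ d ∉ m, d • I ⊆ B g` says that `M_D` is generated by `g` at `s`.

* `exists_local_generator` : a finitely generated submodule of the fraction field of a Dedekind
  domain is generated by one element at a given maximal ideal, up to a denominator;
* `exists_annihilator_not_mem` : Nakayama with denominators (Cayley–Hamilton): a finitely generated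
  module `Q` with `c • Q ⊆ t • Q`, `c ∉ m`, `t ∈ m`, is killed by some `d ∉ m`;
* `exists_generator_of_reduction` : the block export.
-/

set_option autoImplicit false

namespace Fermat.Agent.S36.LocalDenom

open Polynomial

/-- **Local principality over a Dedekind domain, denominator form.** `J` a finitely generated
`D`-submodule of `L = Frac D`, `n` a maximal ideal: there are `g₀ ∈ J` and `e ∉ n` with
`e • J ⊆ D g₀`. -/
theorem exists_local_generator {D L : Type*} [CommRing D] [IsDedekindDomain D] [Field L]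
    [Algebra D L] [IsFractionRing D L] (n : Ideal D) [hn : n.IsMaximal] (J : Submodule D L)
    (hJ : J.FG) : ∃ g₀ ∈ J, ∃ e : D, e ∉ n ∧ ∀ x ∈ J, ∃ a : D, e • x = a • g₀ := by
  classical
  by_cases hJ0 : J = ⊥
  · refine ⟨0, J.zero_mem, 1, (Ideal.ne_top_iff_one n).1 hn.ne_top, fun x hx => ⟨0, ?_⟩⟩
    rw [hJ0, Submodule.mem_bot] at hx
    rw [hx, smul_zero, zero_smul]
  -- the fractional ideal `J'`
  let J' : FractionalIdeal (nonZeroDivisors D) L := ⟨J, FractionalIdeal.isFractional_of_fg hJ⟩
  have hJ'mem : ∀ x : L, x ∈ J' ↔ x ∈ J := fun x => Iff.rfl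
  have hJ'0 : J' ≠ 0 := by
    intro h0
    apply hJ0
    rw [Submodule.eq_bot_iff]
    intro x hx
    have hx' : x ∈ J' := (hJ'mem x).2 hx
    rw [h0] at hx'
    exact (FractionalIdeal.mem_zero_iff _).1 hx'
  have hcancel : J' * J'⁻¹ = 1 := mul_inv_cancel₀ hJ'0
  have hcancel' : J'⁻¹ * J' = 1 := inv_mul_cancel₀ hJ'0
  set nF : FractionalIdeal (nonZeroDivisors D) L := (n : FractionalIdeal (nonZeroDivisors D) L)
    with hnF
  -- an element of `J` outside `n J`
  have h1 : ¬ J' ≤ nF * J' := by
    intro hle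
    have h2 : J' * J'⁻¹ ≤ nF * J' * J'⁻¹ := mul_le_mul_left hle _
    rw [mul_assoc, hcancel, mul_one] at h2
    have h3 : nF = 1 := le_antisymm FractionalIdeal.coeIdeal_le_one h2
    rw [hnF, FractionalIdeal.coeIdeal_eq_one] at h3
    exact hn.ne_top (by rw [h3, Ideal.one_eq_top])
  obtain ⟨g₀, hg₀J, hg₀n⟩ := Set.not_subset.1 h1
  -- the integral ideal `g₀ J⁻¹`, not contained in `n`
  set 𝔞 : FractionalIdeal (nonZeroDivisors D) L :=
    FractionalIdeal.spanSingleton (nonZeroDivisors D) g₀ * J'⁻¹ with h𝔞
  have h𝔞1 : 𝔞 ≤ 1 := by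
    rw [h𝔞, ← hcancel]
    exact mul_le_mul_left (FractionalIdeal.spanSingleton_le_iff_mem.2 hg₀J) _
  have h𝔞n : ¬ 𝔞 ≤ nF := by
    intro hle
    apply hg₀n
    have h2 : 𝔞 * J' ≤ nF * J' := mul_le_mul_left hle _
    rw [h𝔞, mul_assoc, hcancel', mul_one] at h2
    exact h2 (FractionalIdeal.mem_spanSingleton_self _ g₀)
  obtain ⟨e', he'𝔞, he'n⟩ := Set.not_subset.1 h𝔞n
  obtain ⟨e, rfl⟩ := (FractionalIdeal.mem_one_iff _).1 (h𝔞1 he'𝔞)
  have hen : e ∉ n := by
    intro hmem
    exact he'n ((FractionalIdeal.mem_coeIdeal _).2 ⟨e, hmem, rfl⟩)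
  obtain ⟨y, hy, hey⟩ := FractionalIdeal.mem_singleton_mul.1 he'𝔞
  refine ⟨g₀, hg₀J, e, hen, fun x hx => ?_⟩
  have hyx : y * x ∈ (1 : FractionalIdeal (nonZeroDivisors D) L) := by
    rw [← hcancel']
    exact FractionalIdeal.mul_mem_mul hy ((hJ'mem x).2 hx)
  obtain ⟨a, ha⟩ := (FractionalIdeal.mem_one_iff _).1 hyx
  refine ⟨a, ?_⟩
  rw [Algebra.smul_def, Algebra.smul_def, hey, ha]
  ring

/-- **Nakayama with denominators.** `Q` a finitely generated `B`-module, `m` a prime ideal,
`t ∈ m`, `c ∉ m` with `c • Q ⊆ t • Q`.  Then some `d ∉ m` kills `Q`. -/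
theorem exists_annihilator_not_mem {B Q : Type*} [CommRing B] [AddCommGroup Q] [Module B Q]
    [Module.Finite B Q] (m : Ideal B) [hm : m.IsPrime] (t c : B) (htm : t ∈ m) (hc : c ∉ m)
    (h : ∀ z : Q, c • z ∈ Ideal.span {t} • (⊤ : Submodule B Q)) :
    ∃ d : B, d ∉ m ∧ ∀ z : Q, d • z = 0 := by
  have hrange : LinearMap.range (algebraMap B (Module.End B Q) c) ≤
      Ideal.span {t} • (⊤ : Submodule B Q) := by
    rintro _ ⟨z, rfl⟩
    exact h z
  obtain ⟨p, hmonic, -, hcoeff, hp⟩ :=
    LinearMap.exists_monic_and_natDegree_eq_and_coeff_mem_pow_and_aeval_eq_zero B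
      (algebraMap B (Module.End B Q) c) (Ideal.span {t}) hrange
  rw [Polynomial.aeval_algebraMap_apply] at hp
  refine ⟨Polynomial.aeval c p, ?_, fun z => ?_⟩
  · -- `p(c) ≡ c ^ deg p` modulo `m`
    intro hmem
    have hsum : Polynomial.aeval c p =
        ∑ k ∈ Finset.range p.natDegree, p.coeff k * c ^ k + c ^ p.natDegree := by
      rw [Polynomial.aeval_def, Polynomial.eval₂_eq_sum_range, Finset.sum_range_succ,
        hmonic.coeff_natDegree]
      simp
    have hlow : ∑ k ∈ Finset.range p.natDegree, p.coeff k * c ^ k ∈ m := by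
      refine Ideal.sum_mem _ fun k hk => ?_
      have hk' : k < p.natDegree := Finset.mem_range.1 hk
      have h1 : p.coeff k ∈ Ideal.span {t} :=
        Ideal.pow_le_self (by omega) (hcoeff k)
      have h2 : Ideal.span {t} ≤ m := (Ideal.span_singleton_le_iff_mem _).2 htm
      exact m.mul_mem_right _ (h2 h1)
    have hpow : c ^ p.natDegree ∈ m := by
      have := m.sub_mem hmem hlow
      rwa [hsum, add_sub_cancel_left] at this
    exact hc (hm.mem_of_pow_mem _ hpow)
  · have := congrArg (fun φ : Module.End B Q => φ z) hp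
    simpa [Module.algebraMap_end_apply] using this

/-- **[LOC-GEN], the block export.** See the header.  `r` is additive and `π`-semilinear, its
kernel is `t I` up to denominators outside `m`; then `I` is generated by one element at `m`:
`∃ g ∈ I, ∃ d ∉ m, d • I ⊆ B g`. -/
theorem exists_generator_of_reduction
    {B D L M : Type*} [CommRing B] [CommRing D] [IsDedekindDomain D] [Field L] [Algebra D L]
    [IsFractionRing D L] [AddCommGroup M] [Module B M]
    (π : B →+* D) (hπ : Function.Surjective π)
    (m : Ideal B) [hmax : m.IsMaximal] (hm : RingHom.ker π ≤ m) (t : B) (htm : t ∈ m)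
    (I : Submodule B M) (hfg : I.FG)
    (r : I →+ L) (hr : ∀ (b : B) (x : I), r (b • x) = algebraMap D L (π b) * r x)
    (hker : ∀ x : I, r x = 0 → ∃ s : B, s ∉ m ∧ ∃ y : I, s • x = t • y) :
    ∃ g ∈ I, ∃ d : B, d ∉ m ∧ ∀ f ∈ I, d • f ∈ Submodule.span B {g} := by
  classical
  have hprime : m.IsPrime := hmax.isPrime
  have hfin : Module.Finite B I := Module.Finite.iff_fg.2 hfg
  obtain ⟨G, hG⟩ := (Module.Finite.fg_top : (⊤ : Submodule B I).FG)
  -- the maximal ideal `n = π(m)` of `D`
  have hn : (m.map π).IsMaximal := by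
    rcases Ideal.map_eq_top_or_isMaximal_of_surjective π hπ hmax with h | h
    · exfalso
      have h2 := Ideal.comap_map_of_surjective π hπ m
      rw [h, Ideal.comap_top] at h2
      have h3 : m ⊔ Ideal.comap π ⊥ = m := sup_eq_left.2 hm
      rw [h3] at h2
      exact hmax.ne_top h2.symm
    · exact h
  have hnot : ∀ b : B, π b ∉ m.map π → b ∉ m := fun b hb hbm => hb (Ideal.mem_map_of_mem π hbm)
  -- the image of `r`, a finitely generated `D`-submodule of `L`
  let J : Submodule D L :=
    { carrier := Set.range r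
      add_mem' := by
        rintro _ _ ⟨x, rfl⟩ ⟨y, rfl⟩
        exact ⟨x + y, map_add r x y⟩
      zero_mem' := ⟨0, map_zero r⟩
      smul_mem' := by
        rintro c _ ⟨x, rfl⟩
        obtain ⟨b, rfl⟩ := hπ c
        exact ⟨b • x, by rw [hr, Algebra.smul_def]⟩ }
  have hJmem : ∀ x : I, r x ∈ J := fun x => ⟨x, rfl⟩
  have hJfg : J.FG := by
    refine ⟨G.image r, le_antisymm ?_ ?_⟩
    · rw [Submodule.span_le]
      rintro _ hx
      obtain ⟨x, -, rfl⟩ := Finset.mem_image.1 (Finset.mem_coe.1 hx)
      exact hJmem x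
    · rintro _ ⟨x, rfl⟩
      have hx : x ∈ Submodule.span B (G : Set I) := by rw [hG]; trivial
      induction hx using Submodule.span_induction with
      | mem y hy =>
        exact Submodule.subset_span (Finset.mem_coe.2 (Finset.mem_image_of_mem r hy))
      | zero => rw [map_zero]; exact Submodule.zero_mem _
      | add y z _ _ hy hz => rw [map_add]; exact Submodule.add_mem _ hy hz
      | smul a y _ hy =>
        rw [hr, ← Algebra.smul_def]
        exact Submodule.smul_mem _ _ hy
  obtain ⟨g₀, hg₀J, e, hen, he⟩ := exists_local_generator (m.map π) J hJfg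
  obtain ⟨g, rfl⟩ : ∃ g : I, r g = g₀ := hg₀J
  obtain ⟨d₁, rfl⟩ := hπ e
  have hd₁ : d₁ ∉ m := hnot d₁ hen
  -- for every `x`, `s (d₁ x - a g) ∈ t I` with `s ∉ m`
  have key : ∀ x : I, ∃ s : B, s ∉ m ∧ ∃ (a : B) (y : I), s • (d₁ • x - a • g) = t • y := by
    intro x
    obtain ⟨a', ha'⟩ := he (r x) (hJmem x)
    obtain ⟨a, rfl⟩ := hπ a'
    have h0 : r (d₁ • x - a • g) = 0 := by
      rw [map_sub, hr, hr, ← Algebra.smul_def, ← Algebra.smul_def, ha', sub_self]
    obtain ⟨s, hs, y, hy⟩ := hker _ h0
    exact ⟨s, hs, a, y, hy⟩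
  choose s hs a y hy using key
  -- the quotient `Q = I / B g`
  let W : Submodule B I := Submodule.span B {g}
  set S : B := ∏ x ∈ G, s x with hS
  have hSm : S ∉ m := by
    rw [hS]
    intro hmem
    obtain ⟨x, -, hx⟩ := (hprime.prod_mem_iff).1 hmem
    exact hs x hx
  have hQ : ∀ z : I ⧸ W, (S * d₁) • z ∈ Ideal.span {t} • (⊤ : Submodule B (I ⧸ W)) := by
    intro z
    obtain ⟨x, rfl⟩ := Submodule.Quotient.mk_surjective W z
    have hx : x ∈ Submodule.span B (G : Set I) := by rw [hG]; trivial
    induction hx using Submodule.span_induction with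
    | mem x hxG =>
      have hxG' : x ∈ G := Finset.mem_coe.1 hxG
      have e1 : S = (∏ x' ∈ G.erase x, s x') * s x := by
        rw [hS, Finset.prod_erase_mul G s hxG']
      have e2 : (s x * d₁) • Submodule.Quotient.mk (p := W) x
          = t • Submodule.Quotient.mk (p := W) (y x) := by
        rw [← Submodule.Quotient.mk_smul, ← Submodule.Quotient.mk_smul,
          Submodule.Quotient.eq]
        have e3 : (s x * d₁) • x - t • y x = s x • (a x • g) := by
          rw [← hy x, mul_smul, smul_sub]
          abel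
        rw [e3]
        exact Submodule.smul_mem _ _ (Submodule.smul_mem _ _ (Submodule.mem_span_singleton_self g))
      have e4 : (S * d₁) • Submodule.Quotient.mk (p := W) x
          = (∏ x' ∈ G.erase x, s x') • ((s x * d₁) • Submodule.Quotient.mk (p := W) x) := by
        rw [smul_smul, e1, mul_assoc]
      rw [e4, e2]
      exact Submodule.smul_mem _ _
        (Submodule.smul_mem_smul (Ideal.mem_span_singleton_self t) Submodule.mem_top)
    | zero =>
      rw [Submodule.Quotient.mk_zero, smul_zero]
      exact Submodule.zero_mem _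
    | add x₁ x₂ _ _ h₁ h₂ =>
      rw [Submodule.Quotient.mk_add, smul_add]
      exact Submodule.add_mem _ h₁ h₂
    | smul b x₁ _ h₁ =>
      rw [Submodule.Quotient.mk_smul, smul_comm]
      exact Submodule.smul_mem _ _ h₁
  have hSd : S * d₁ ∉ m := fun hmem => (hprime.mem_or_mem hmem).elim hSm hd₁
  obtain ⟨d, hdm, hd⟩ := exists_annihilator_not_mem (Q := I ⧸ W) m t (S * d₁) htm hSd hQ
  refine ⟨(g : M), g.2, d, hdm, fun f hf => ?_⟩
  have h0 := hd (Submodule.Quotient.mk (p := W) ⟨f, hf⟩)
  rw [← Submodule.Quotient.mk_smul, Submodule.Quotient.mk_eq_zero] at h0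
  obtain ⟨b, hb⟩ := Submodule.mem_span_singleton.1 h0
  have hb' : b • (g : M) = d • f := by
    have := congrArg (Subtype.val) hb
    simpa using this
  rw [← hb']
  exact Submodule.smul_mem _ _ (Submodule.mem_span_singleton_self _)

end Fermat.Agent.S36.LocalDenom
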