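import Mathlib
import Fermat.Agent.S34.BKappa
import Fermat.Agent.S34.BKPlan
import Fermat.Agent.S36.LocalDenom

/-!
# S36 (P8) — `F_{M,k}` is the fraction field of `B_κ`; [LOC-GEN] in Laurent-series vocabulary
(helper36)

`B_κ = Plan.BK A M` (the affine ring of `X₀(M)_k` minus the cusps, a Dedekind domain by
`S34/BKPlan`) has fraction field `F_{M,k} = Fk A M`:

* `exists_fraction_BK`, `exists_fraction_planBK` : every element of `F_{M,k}` is `a / b` with
  `a, b ∈ B_κ`, `b ≠ 0` (elementwise, no instances);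
* `toFkPlan` : the inclusion `B_κ → F_{M,k}`; `isFractionRing_planBK` : the `IsFractionRing`
  statement for the algebra structure `toFkPlan.toAlgebra`;
* `exists_generator_of_reduction_planBK` : `S36/LocalDenom.exists_generator_of_reduction` with
  `D = B_κ`, `L = F_{M,k}`, the reduction map `r` being given with values in `k((T))`.
-/

set_option autoImplicit false
set_option linter.style.haveILetI false
set_option maxHeartbeats 400000
set_option synthInstance.maxHeartbeats 400000

noncomputable section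

namespace Fermat.Agent.S36.BKFrac

open ModularCurve AlgebraicCurve IntermediateField
open Fermat.Agent.S24 Fermat.Agent.S18.Content Fermat.Agent.S18.Plan
open Fermat.Agent.S18 Fermat.Agent.S34 Fermat.Agent.S34.BKappa

section Generic

open scoped IntermediateField.algebraAdjoinAdjoin

variable (k : Type) [Field k] (n : ℕ)

/-- Every element of `F_{n,k}` is a fraction of elements of `B_κ` (`k` algebraically closed of
characteristic `q ∤ n`). -/
theorem exists_fraction_BK (q : ℕ) [Fact q.Prime] (hq : ¬ q ∣ n) [NeZero n] [CharP k q]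
    [IsAlgClosed k] (x : LaurentSeries k) (hx : x ∈ modularFunctionFieldFullC k n) :
    ∃ a b : LaurentSeries k, a ∈ BK k n ∧ b ∈ BK k n ∧ b ≠ 0 ∧ x * b = a := by
  have := CuspEmb.finiteDimensional_fullC n q hq k
  obtain ⟨-, -, -, -, -, -, -, hsep⟩ := CuspEmb.exists_cusp_embeddings n q hq k
  letI : Algebra ↥(BK k n) ↥(modularFunctionFieldFullC k n) := (toFk k n).toRingHom.toAlgebra
  letI : Algebra ↥(A0 k n) ↥(BK k n) := (ofA0 k n).toAlgebra
  haveI : IsScalarTower ↥(A0 k n) ↥(BK k n) ↥(modularFunctionFieldFullC k n) :=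
    IsScalarTower.of_algebraMap_eq (fun _ => rfl)
  haveI : IsIntegralClosure ↥(BK k n) ↥(A0 k n) ↥(modularFunctionFieldFullC k n) :=
    ⟨toFk_injective k n, fun {x} => by
      rw [isIntegral_A0_iff]
      constructor
      · intro hx
        exact ⟨⟨(x : LaurentSeries k), mem_BK.2 ⟨x.2, hx⟩⟩, rfl⟩
      · rintro ⟨y, rfl⟩
        exact isIntegral_of_mem_BK y.2⟩
  haveI : IsFractionRing ↥(BK k n) ↥(modularFunctionFieldFullC k n) :=
    IsIntegralClosure.isFractionRing_of_finite_extension ↥(A0 k n) ↥(k⟮CuspEmb.jk k n⟯)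
      ↥(modularFunctionFieldFullC k n) ↥(BK k n)
  obtain ⟨⟨a, s⟩, has⟩ := IsLocalization.surj (nonZeroDivisors ↥(BK k n))
    (⟨x, hx⟩ : ↥(modularFunctionFieldFullC k n))
  refine ⟨(a : LaurentSeries k), ((s : ↥(BK k n)) : LaurentSeries k), a.2, (s : ↥(BK k n)).2, ?_,
    ?_⟩
  · intro h0
    have hs0 : (s : ↥(BK k n)) = 0 := Subtype.ext h0
    exact nonZeroDivisors.ne_zero s.2 hs0
  · exact congrArg (fun y : ↥(modularFunctionFieldFullC k n) => (y : LaurentSeries k)) has

end Generic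

section Plan

variable (A : ValuationSubring Kbar) (M : ℕ)

/-- Every element of `F_{M,k}` is a fraction of elements of `B_κ = Plan.BK A M`. -/
theorem exists_fraction_planBK (q : ℕ) [Fact q.Prime] (hq : ¬ q ∣ M) [NeZero M]
    (hA : A.LiesOverPrime q) (x : Omk A) (hx : x ∈ Fk A M) :
    ∃ a b : Omk A, a ∈ Plan.BK A M ∧ b ∈ Plan.BK A M ∧ b ≠ 0 ∧ x * b = a := by
  haveI : CharP (kk A) q := charP_residueField_of_liesOverPrime A q hA
  haveI : IsAlgClosed (kk A) := PlacesModL.isAlgClosed_kk A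
  rw [BKPlan.planBK_eq]
  exact exists_fraction_BK (kk A) M q hq x hx

theorem mem_Fk_of_mem_planBK {a : Omk A} (h : a ∈ Plan.BK A M) : a ∈ Fk A M := by
  rw [BKPlan.planBK_eq] at h
  exact mem_full_of_mem_BK h

/-- The inclusion `B_κ → F_{M,k}`. -/
def toFkPlan : ↥(Plan.BK A M) →+* ↥(Fk A M) where
  toFun b := ⟨(b : Omk A), mem_Fk_of_mem_planBK A M b.2⟩
  map_one' := rfl
  map_mul' _ _ := rfl
  map_zero' := rfl
  map_add' _ _ := rfl

@[simp] theorem coe_toFkPlan (b : ↥(Plan.BK A M)) :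
    ((toFkPlan A M b : ↥(Fk A M)) : Omk A) = (b : Omk A) := rfl

theorem toFkPlan_injective : Function.Injective (toFkPlan A M) := fun _ _ h =>
  Subtype.ext (congrArg (fun x : ↥(Fk A M) => (x : Omk A)) h)

/-- `F_{M,k}` is the fraction field of `B_κ` (for the algebra structure `toFkPlan`). -/
theorem isFractionRing_planBK (q : ℕ) [Fact q.Prime] (hq : ¬ q ∣ M) [NeZero M]
    (hA : A.LiesOverPrime q) :
    @IsFractionRing ↥(Plan.BK A M) _ ↥(Fk A M) _ (toFkPlan A M).toAlgebra := by
  letI : Algebra ↥(Plan.BK A M) ↥(Fk A M) := (toFkPlan A M).toAlgebra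
  have hinj : Function.Injective (algebraMap ↥(Plan.BK A M) ↥(Fk A M)) := toFkPlan_injective A M
  refine
    { map_units := ?_
      surj := ?_
      exists_of_eq := ?_ }
  · rintro ⟨y, hy⟩
    refine IsUnit.mk0 _ ?_
    intro h0
    exact nonZeroDivisors.ne_zero hy (hinj (by rw [h0, map_zero]))
  · intro z
    obtain ⟨a, b, ha, hb, hb0, hab⟩ := exists_fraction_planBK A M q hq hA (z : Omk A) z.2
    have hbne : (⟨b, hb⟩ : ↥(Plan.BK A M)) ≠ 0 := fun h0 => hb0 (congrArg Subtype.val h0)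
    exact ⟨(⟨a, ha⟩, ⟨⟨b, hb⟩, mem_nonZeroDivisors_of_ne_zero hbne⟩), Subtype.ext hab⟩
  · intro x y hxy
    exact ⟨1, by rw [hinj hxy]⟩

/-- **[LOC-GEN] in Laurent-series vocabulary.**  `S36/LocalDenom.exists_generator_of_reduction`
with `D = B_κ = Plan.BK A M` and the reduction map `r : I → k((T))` taking values in `F_{M,k}`. -/
theorem exists_generator_of_reduction_planBK (q : ℕ) [Fact q.Prime] (hq : ¬ q ∣ M) [NeZero M]
    (hA : A.LiesOverPrime q) {B Mod : Type*} [CommRing B] [AddCommGroup Mod] [Module B Mod]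
    (π : B →+* ↥(Plan.BK A M)) (hπ : Function.Surjective π)
    (m : Ideal B) [m.IsMaximal] (hm : RingHom.ker π ≤ m) (t : B) (htm : t ∈ m)
    (I : Submodule B Mod) (hfg : I.FG)
    (r : I →+ Omk A) (hrF : ∀ x : I, r x ∈ Fk A M)
    (hr : ∀ (b : B) (x : I), r (b • x) = ((π b : ↥(Plan.BK A M)) : Omk A) * r x)
    (hker : ∀ x : I, r x = 0 → ∃ s : B, s ∉ m ∧ ∃ y : I, s • x = t • y) :
    ∃ g ∈ I, ∃ d : B, d ∉ m ∧ ∀ f ∈ I, d • f ∈ Submodule.span B {g} := by
  haveI : IsDedekindDomain ↥(Plan.BK A M) := BKPlan.isDedekindDomain_planBK A M q hq hA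
  letI : Algebra ↥(Plan.BK A M) ↥(Fk A M) := (toFkPlan A M).toAlgebra
  haveI : IsFractionRing ↥(Plan.BK A M) ↥(Fk A M) := isFractionRing_planBK A M q hq hA
  let r' : I →+ ↥(Fk A M) :=
    { toFun := fun x => ⟨r x, hrF x⟩
      map_zero' := Subtype.ext (map_zero r)
      map_add' := fun x y => Subtype.ext (map_add r x y) }
  refine LocalDenom.exists_generator_of_reduction π hπ m hm t htm I hfg r' ?_ ?_
  · intro b x
    exact Subtype.ext (hr b x)
  · intro x hx
    exact hker x (congrArg (fun y : ↥(Fk A M) => (y : Omk A)) hx)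

end Plan

end Fermat.Agent.S36.BKFrac
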