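/-
P8 / S36 — service leaf [BP-INT] (helper28): **`B'` = the `K₀`-rational elements of `O` integral
over `Q̄[j]`.**

* `exists_mem_pullRR_of_isIntegral` : an element of `F_{N₂}` integral over `Q̄[j]` lies in
  `L(m E)` for some `m`, `E = (j)_∞ + (j_q)_∞ + (j_{q²})_∞` on `F_N` (any levels `N`, `N₂`);
* `exists_mem_pullRR_iff` : for `N ∣ N₂`, `⋃_c L(c E)` is the set of the elements of `F_{N₂}`
  integral over `Q̄[j]`;
* `pullRR_mono_nat` : `L(c E) ⊆ L(c' E)` for `c ≤ c'`;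
* `mem_Bp_iff` : `b ∈ K0Plan.Bp ↔ K0Plan.Fixed b ∧ IsIntegral (polyJ Q̄) b`.
-/
import Mathlib
import Fermat.Agent.S36.K0Plan
import Fermat.Agent.S36.ConnInst
import Fermat.Agent.S34.TauAdapt
import Fermat.Agent.S34.CuspPole
import Fermat.Agent.S34.PlanTop
import Fermat.Agent.S18.PullPlan

set_option autoImplicit false

noncomputable section

namespace Fermat.Agent.S36.BpInt

open ModularCurve AlgebraicCurve
open Fermat.Agent.S24 Fermat.Agent.S18 Fermat.Agent.S18.Content Fermat.Agent.S18.Plan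
open Fermat.Agent.S34

set_option synthInstance.maxHeartbeats 400000
set_option maxHeartbeats 800000
set_option linter.unusedSectionVars false

section General

variable {N N₂ q : ℕ} [NeZero N] [NeZero N₂] [NeZero q] {hq : q ∣ N} {hqq : q * q ∣ N}
  {E : Divisor Kbar (FN N)}

/-- `E ≥ (j)_∞ ≥ 0`. -/
theorem poleJ_le (hE : Plan.IsE3 N q hq hqq E) (P : Place Kbar (FN N)) :
    max 0 (-(P.ord (jBar N))) ≤ E P := by
  rw [hE P]
  have h0 : (0 : ℤ) ≤ max 0 (-(P.ord (jBarLevel N q hq))) := le_max_left _ _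
  have h0' : (0 : ℤ) ≤ max 0 (-(P.ord (jBarLevel N (q * q) hqq))) := le_max_left _ _
  linarith

theorem nonneg_E (hE : Plan.IsE3 N q hq hqq E) (P : Place Kbar (FN N)) : 0 ≤ E P :=
  (le_max_left _ _).trans (poleJ_le hE P)

/-- `L(c E) ⊆ L(c' E)` for `c ≤ c'`. -/
theorem pullRR_mono_nat (hE : Plan.IsE3 N q hq hqq E) {c c' : ℕ} (hcc : c ≤ c') :
    pullRR N N₂ (c • E) ≤ pullRR N N₂ (c' • E) := by
  refine Fermat.Agent.S18.PullPlan.pullRR_mono ?_
  intro P
  rw [Finsupp.smul_apply, Finsupp.smul_apply, nsmul_eq_mul, nsmul_eq_mul]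
  exact mul_le_mul_of_nonneg_right (by exact_mod_cast hcc) (nonneg_E hE P)

/-- An element of `F_{N₂}` integral over `Q̄[j]` lies in `L(m E)` for some `m`. -/
theorem exists_mem_pullRR_of_isIntegral (hE : Plan.IsE3 N q hq hqq E) {x : Om}
    (hx : x ∈ modularFunctionFieldBar N₂) (hint : IsIntegral (polyJ Kbar) x) :
    ∃ m : ℕ, x ∈ pullRR N N₂ (m • E) := by
  have hj : jqModC Kbar ∈ modularFunctionFieldBar N₂ := by
    have := (jBar N₂).2
    rwa [Fermat.Agent.S37.Conj.coe_jBar] at this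
  obtain ⟨m, hm⟩ := TauAdapt.exists_mem_WJ_of_isIntegral
    (L := modularFunctionFieldBar N₂) hj hx hint
  obtain ⟨Cj, hCj⟩ := PlanTop.exists_isPoleJ N
  refine ⟨m, ?_⟩
  have h1 := CuspPole.mem_pullRR_of_mem_WJ (N := N) (N₂ := N₂) Cj hCj m
    (modularFunctionFieldBar N₂) le_rfl hm
  refine Fermat.Agent.S18.PullPlan.pullRR_mono ?_ h1
  intro P
  rw [Finsupp.smul_apply, Finsupp.smul_apply, hCj P, nsmul_eq_mul, nsmul_eq_mul]
  exact mul_le_mul_of_nonneg_left (poleJ_le hE P) (Nat.cast_nonneg m)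

/-- The same, for all large `m`. -/
theorem exists_forall_mem_pullRR_of_isIntegral (hE : Plan.IsE3 N q hq hqq E) {x : Om}
    (hx : x ∈ modularFunctionFieldBar N₂) (hint : IsIntegral (polyJ Kbar) x) :
    ∃ m₀ : ℕ, ∀ m : ℕ, m₀ ≤ m → x ∈ pullRR N N₂ (m • E) := by
  obtain ⟨m₀, hm₀⟩ := exists_mem_pullRR_of_isIntegral (N₂ := N₂) hE hx hint
  exact ⟨m₀, fun m hm => pullRR_mono_nat hE hm hm₀⟩

/-- For `N ∣ N₂`: `⋃_c L(c E)` is the set of the elements of `F_{N₂}` integral over `Q̄[j]`. -/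
theorem exists_mem_pullRR_iff (hdiv : N ∣ N₂) (hE : Plan.IsE3 N q hq hqq E) {x : Om} :
    (∃ c : ℕ, x ∈ pullRR N N₂ (c • E)) ↔
      x ∈ modularFunctionFieldBar N₂ ∧ IsIntegral (polyJ Kbar) x := by
  constructor
  · rintro ⟨c, hc⟩
    have h1 : x ∈ modularFunctionFieldBar N₂ := by
      obtain ⟨h, -⟩ := hc
      exact h
    exact ⟨h1, ConnInst.isIntegral_of_mem_pullRR N N₂ hq hqq hdiv E hE c hc⟩
  · rintro ⟨hx, hint⟩
    exact exists_mem_pullRR_of_isIntegral hE hx hint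

end General

section Bp

variable {A : ValuationSubring Kbar} {N' M q : ℕ} [NeZero N'] [NeZero M] [NeZero q]
  (hq' : q ∣ N') {O : Subring Om} {E : Divisor Kbar (FN (N' * q))}

/-- **`B'` = the `K₀`-rational elements of `O` integral over `Q̄[j]`.** -/
theorem mem_Bp_iff (hdiv : N' * q ∣ M * q * q)
    (hO : ∀ g : O, (g : Om) ∈ modularFunctionFieldBar (M * q * q))
    (hE : Plan.IsE3 (N' * q) q (Dvd.intro_left N' rfl) (Nat.mul_dvd_mul_right hq' q) E)
    (b : O) :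
    b ∈ K0Plan.Bp A N' M q O E ↔
      K0Plan.Fixed A (b : Om) ∧ IsIntegral (polyJ Kbar) (b : Om) := by
  constructor
  · rintro ⟨hfix, c, hc⟩
    rw [zero_add] at hc
    exact ⟨hfix, ConnInst.isIntegral_of_mem_pullRR _ _ _ _ hdiv E hE c hc⟩
  · rintro ⟨hfix, hint⟩
    obtain ⟨m, hm⟩ := exists_mem_pullRR_of_isIntegral hE (hO b) hint
    exact ⟨hfix, m, by rw [zero_add]; exact hm⟩

/-- `mem_Bp_iff` for a setup `(O, ρ)`. -/
theorem mem_Bp_iff_of_setup {h : Nat.Coprime M q} {F : Plan.Frame M q h} {ρ : O →+* Plan.Rq A q}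
    (hS : Plan.IsSetup A F O ρ) (hdiv : N' * q ∣ M * q * q)
    (hE : Plan.IsE3 (N' * q) q (Dvd.intro_left N' rfl) (Nat.mul_dvd_mul_right hq' q) E)
    (b : O) :
    b ∈ K0Plan.Bp A N' M q O E ↔
      K0Plan.Fixed A (b : Om) ∧ IsIntegral (polyJ Kbar) (b : Om) :=
  mem_Bp_iff hq' hdiv hS.mem_field hE b

/-- Membership in `Λ'(D)` from a section of `L(D + cE)`-type bound given by integrality of a
product: if `g ∈ L(D + cE)` then `g ∈ Λ'(D)` as soon as it is `K₀`-rational. (Unfolding.) -/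
theorem mem_Lam_iff (D : Divisor Kbar (FN (N' * q))) (g : O) :
    g ∈ K0Plan.Lam A N' M q O E D ↔
      K0Plan.Fixed A (g : Om) ∧ ∃ c : ℕ, (g : Om) ∈ pullRR (N' * q) (M * q * q) (D + c • E) :=
  Iff.rfl

end Bp

end Fermat.Agent.S36.BpInt
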