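import Mathlib
import Fermat.Agent.S36.K0Plan
import Fermat.Agent.S18.FibreCount
import Fermat.Agent.Lib.RHSum

/-!
# S36 / P8 — ColonK0: `(B' : Λ'(D)) ⊆ Λ'(-D)` (block [COLON], helper7)

In the vocabulary of `S36/K0Plan`: if `x ∈ Q̄((T))` multiplies `Λ'(D)` into `B' = Λ'(0)`, then
`x ∈ Λ'(-D)`.  This is the instance of the hypothesis `hinv` of the abstract [INV] junction.

Inputs (hypothesis form, in the shapes of their providers):
* `happ`  — finite-place approximation: at every place `P` of `F_{N'q}` off the support of `E`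
  there is `f ∈ Λ'(D) ∩ F_{N'q}`, `f ≠ 0`, with `ord_P f = -D P`;
* `hunit` — for every coordinate `i` there is `f ∈ Λ'(D)` with `ρ f i ≠ 0`.

Proof: `x = b / f` is a `K₀`-rational element of `F_{Mq²}`; it lies in `O` coordinatewise
(`ε_i(x) = ε_i(b) · ε_i(f)⁻¹` with `red (ε_i f) ≠ 0`); the pole bound is read off the definition
of `pullRR`: at a place `P` off `supp E`, `t x = (t / f_P) · b_P`; at the finitely many places of
`supp E` one fixed `f₀` and a large multiple of `E` suffice.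
-/

set_option autoImplicit false

noncomputable section

namespace Fermat.Agent.S36.ColonK0

open ModularCurve AlgebraicCurve Fermat.Agent.S24 Fermat.Agent.S18 Fermat.Agent.S18.Content
  Fermat.Agent.S18.Plan Fermat.Agent.S36.Plan Fermat.Agent.S36 Fermat.Agent.Lib

/-- A divisor of `F_N` vanishes at some place (there are infinitely many places). -/
theorem exists_place_eq_zero (N : ℕ) [NeZero N] (E : Divisor Kbar (FN N)) :
    ∃ P : Place Kbar (FN N), E P = 0 := by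
  classical
  have hz : ∀ a : {a : Kbar // a ≠ 0 ∧ a ≠ 1728},
      ∃ P : Place Kbar (FN N), 0 < P.ord (jBar N - algebraMap Kbar (FN N) a.1) := by
    rintro ⟨a, h0, h1⟩
    have hc := FibreCount.card_zeros_generic N a h0 h1
    have hpos : 0 < Nat.card (zerosOf Kbar (jBar N - algebraMap Kbar (FN N) a)) := by
      rw [hc]
      exact FibreCount.dedekindPsi_pos N
    obtain ⟨⟨P, hP⟩⟩ := (Nat.card_pos_iff.mp hpos).1
    exact ⟨P, hP⟩
  choose g hg using hz
  have hinj : Function.Injective g := by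
    intro a b hab
    by_contra hne
    have hne' : a.1 ≠ b.1 := fun h => hne (Subtype.ext h)
    have h1 := hg a
    have h2 := hg b
    rw [← hab] at h2
    exact RHSum.not_zero_zero (g a) (jBar N) hne' h1 h2
  by_contra hcon
  push Not at hcon
  have hinf : Infinite {a : Kbar // a ≠ 0 ∧ a ≠ 1728} := by
    have hS : ({a : Kbar | a ≠ 0 ∧ a ≠ 1728} : Set Kbar).Infinite := by
      have hfin : ({0, 1728} : Set Kbar).Finite := Set.toFinite _
      have hc : ({a : Kbar | a ≠ 0 ∧ a ≠ 1728} : Set Kbar) = ({0, 1728} : Set Kbar)ᶜ := by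
        ext a
        constructor
        · rintro ⟨h0, h1⟩ (h | h)
          · exact h0 h
          · exact h1 h
        · intro ha
          exact ⟨fun h => ha (Or.inl h), fun h => ha (Or.inr h)⟩
      rw [hc]
      exact hfin.infinite_compl
    exact hS.to_subtype
  have hfin : Finite (Place Kbar (FN N)) := by
    have hmap : Function.Injective
        (fun P : Place Kbar (FN N) => (⟨P, Finsupp.mem_support_iff.mpr (hcon P)⟩ : E.support)) := by
      intro P Q hPQ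
      exact congrArg Subtype.val hPQ
    exact Finite.of_injective _ hmap
  have : Infinite (Place Kbar (FN N)) := Infinite.of_injective g hinj
  exact not_finite (Place Kbar (FN N))

variable {M q : ℕ} [NeZero M] [NeZero q] {h : Nat.Coprime M q} {A : ValuationSubring Kbar}
  {F : Plan.Frame M q h} {O : Subring Om} {ρ : O →+* Plan.Rq A q} {N' : ℕ} [NeZero N']

/-- **[COLON]** `(B' : Λ'(D)) ⊆ Λ'(-D)`. -/
theorem colon (hS : Plan.IsSetup A F O ρ) (hq' : q ∣ N')
    (E : Divisor Kbar (FN (N' * q)))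
    (hE : Plan.IsE3 (N' * q) q (Dvd.intro_left N' rfl) (Nat.mul_dvd_mul_right hq' q) E)
    (D : Divisor Kbar (FN (N' * q)))
    (happ : ∀ P : Place Kbar (FN (N' * q)), E P = 0 →
      ∃ (f : FN (N' * q)) (hf : (f : Om) ∈ O), f ≠ 0 ∧
        (⟨(f : Om), hf⟩ : O) ∈ K0Plan.Lam A N' M q O E D ∧ P.ord f = -D P)
    (hunit : ∀ i : Plan.Coord q, ∃ f ∈ K0Plan.Lam A N' M q O E D, ρ f i ≠ 0)
    (x : Om)
    (hx : ∀ f ∈ K0Plan.Lam A N' M q O E D, ∃ b ∈ K0Plan.Bp A N' M q O E,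
      x * (f : Om) = (b : Om)) :
    ∃ g ∈ K0Plan.Lam A N' M q O E (-D), (g : Om) = x := by
  classical
  have hE0 : ∀ P : Place Kbar (FN (N' * q)), 0 ≤ E P := by
    intro P
    rw [hE P]
    have h1 := le_max_left (0 : ℤ) (-(P.ord (jBar (N' * q))))
    have h2 := le_max_left (0 : ℤ)
      (-(P.ord (jBarLevel (N' * q) q (Dvd.intro_left N' rfl))))
    have h3 := le_max_left (0 : ℤ)
      (-(P.ord (jBarLevel (N' * q) (q * q) (Nat.mul_dvd_mul_right hq' q))))
    linarith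
  -- Step 1: `x ∈ F_{Mq²}` and `x` is `K₀`-rational
  obtain ⟨f₁, hf₁, hρ₁⟩ := hunit Plan.Coord.inf
  have hf₁0 : (f₁ : Om) ≠ 0 := by
    intro h0
    apply hρ₁
    have h1 : f₁ = 0 := Subtype.ext h0
    rw [h1, map_zero]
    rfl
  obtain ⟨b₁, hb₁, hxb₁⟩ := hx f₁ hf₁
  have hxeq : x = (b₁ : Om) / (f₁ : Om) := by
    rw [← hxb₁, mul_div_cancel_right₀ _ hf₁0]
  have hxF : x ∈ modularFunctionFieldBar (M * q * q) := by
    rw [hxeq]
    exact div_mem (hS.mem_field b₁) (hS.mem_field f₁)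
  have hxfix : K0Plan.Fixed A x := by
    intro τ hτ
    rw [hxeq, map_div₀, hb₁.1 τ hτ, hf₁.1 τ hτ]
  -- Step 2: `x ∈ O`
  have hxO : x ∈ O := by
    refine (hS.mem_iff ⟨x, hxF⟩).2 fun i => ?_
    obtain ⟨f, hf, hρ⟩ := hunit i
    obtain ⟨b, hb, hxb⟩ := hx f hf
    have hfO : ∀ j, F.emb j ⟨(f : Om), hS.mem_field f⟩ ∈ Ocal A :=
      (hS.mem_iff ⟨(f : Om), hS.mem_field f⟩).1 f.2
    have hbO : ∀ j, F.emb j ⟨(b : Om), hS.mem_field b⟩ ∈ Ocal A :=
      (hS.mem_iff ⟨(b : Om), hS.mem_field b⟩).1 b.2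
    have hmul : (⟨x, hxF⟩ : FN (M * q * q)) * ⟨(f : Om), hS.mem_field f⟩
        = ⟨(b : Om), hS.mem_field b⟩ := Subtype.ext hxb
    have hemb : F.emb i ⟨x, hxF⟩ * F.emb i ⟨(f : Om), hS.mem_field f⟩
        = F.emb i ⟨(b : Om), hS.mem_field b⟩ := by
      rw [← map_mul, hmul]
    have hρa := hS.ρ_apply ⟨(f : Om), hS.mem_field f⟩ f.2 i (hfO i)
    have hred : red A ⟨F.emb i ⟨(f : Om), hS.mem_field f⟩, hfO i⟩ ≠ 0 := by
      intro h0
      apply hρ
      rw [← h0]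
      exact hρa
    have hinv := inv_mem_Ocal A ⟨F.emb i ⟨(f : Om), hS.mem_field f⟩, hfO i⟩ hred
    have hne : F.emb i ⟨(f : Om), hS.mem_field f⟩ ≠ 0 := by
      intro h0
      apply hred
      have h1 : (⟨F.emb i ⟨(f : Om), hS.mem_field f⟩, hfO i⟩ : Ocal A) = 0 := Subtype.ext h0
      rw [h1, map_zero]
    have hxe : F.emb i ⟨x, hxF⟩
        = F.emb i ⟨(b : Om), hS.mem_field b⟩ * (F.emb i ⟨(f : Om), hS.mem_field f⟩)⁻¹ := by
      rw [← hemb, mul_inv_cancel_right₀ hne]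
    rw [hxe]
    exact (Ocal A).mul_mem (hbO i) hinv
  -- Step 3: the pole bound
  obtain ⟨P₀, hP₀⟩ := exists_place_eq_zero (N' * q) E
  obtain ⟨f₀, hf₀O, hf₀ne, hf₀L, -⟩ := happ P₀ hP₀
  obtain ⟨b₀, hb₀, hxb₀⟩ := hx _ hf₀L
  obtain ⟨c₀, hc₀⟩ := hb₀.2
  have hf₀ne' : (f₀ : Om) ≠ 0 := fun h0 => hf₀ne (Subtype.ext h0)
  refine ⟨⟨x, hxO⟩, ⟨hxfix, c₀ + ∑ P ∈ E.support, (D P + P.ord f₀).natAbs, hxF,
    fun P t ht hB => ?_⟩, rfl⟩
  rw [Finsupp.add_apply, Finsupp.neg_apply, Finsupp.smul_apply, nsmul_eq_mul] at hB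
  by_cases hEP : E P = 0
  · obtain ⟨f, hfO, hfne, hfL, hford⟩ := happ P hEP
    obtain ⟨b, hb, hxb⟩ := hx _ hfL
    obtain ⟨cb, hcb⟩ := hb.2
    have hfne' : (f : Om) ≠ 0 := fun h0 => hfne (Subtype.ext h0)
    have hord : (0 + cb • E) P ≤ P.ord (t / f) := by
      rw [Finsupp.add_apply, Finsupp.smul_apply, nsmul_eq_mul, hEP, div_eq_mul_inv,
        P.ord_mul ht (inv_ne_zero hfne), Place.ord_inv, hford]
      rw [hEP] at hB
      simp only [Finsupp.coe_zero, Pi.zero_apply, mul_zero, add_zero] at hB ⊢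
      linarith
    have key := hcb.2 P (t / f) (div_ne_zero ht hfne) hord
    have e : (((t / f : FN (N' * q)) : Om)) * (b : Om) = (t : Om) * x := by
      have h1 : (((t / f : FN (N' * q)) : Om)) = (t : Om) / (f : Om) := rfl
      rw [h1, ← hxb]
      field_simp
    rw [← e]
    exact key
  · have hEP1 : 1 ≤ E P := by
      have := hE0 P
      omega
    have hsum : ((D P + P.ord f₀).natAbs : ℤ)
        ≤ ((∑ P ∈ E.support, (D P + P.ord f₀).natAbs : ℕ) : ℤ) := by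
      have hmem : P ∈ E.support := Finsupp.mem_support_iff.mpr hEP
      exact_mod_cast Finset.single_le_sum
        (f := fun P : Place Kbar (FN (N' * q)) => (D P + P.ord f₀).natAbs)
        (fun _ _ => Nat.zero_le _) hmem
    have hord : (0 + c₀ • E) P ≤ P.ord (t / f₀) := by
      rw [Finsupp.add_apply, Finsupp.smul_apply, nsmul_eq_mul, div_eq_mul_inv,
        P.ord_mul ht (inv_ne_zero hf₀ne), Place.ord_inv]
      simp only [Finsupp.coe_zero, Pi.zero_apply, zero_add]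
      have habs : D P + P.ord f₀ ≤ ((D P + P.ord f₀).natAbs : ℤ) := Int.le_natAbs
      have hS0 : (0 : ℤ) ≤ ((∑ P ∈ E.support, (D P + P.ord f₀).natAbs : ℕ) : ℤ) :=
        Int.natCast_nonneg _
      have hmul : ((∑ P ∈ E.support, (D P + P.ord f₀).natAbs : ℕ) : ℤ)
          ≤ ((∑ P ∈ E.support, (D P + P.ord f₀).natAbs : ℕ) : ℤ) * E P :=
        le_mul_of_one_le_right hS0 hEP1
      have hring : (((c₀ + ∑ P ∈ E.support, (D P + P.ord f₀).natAbs : ℕ) : ℤ)) * E P
          = (c₀ : ℤ) * E P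
            + ((∑ P ∈ E.support, (D P + P.ord f₀).natAbs : ℕ) : ℤ) * E P := by
        push_cast
        ring
      rw [hring] at hB
      linarith
    have key := hc₀.2 P (t / f₀) (div_ne_zero ht hf₀ne) hord
    have e : (((t / f₀ : FN (N' * q)) : Om)) * (b₀ : Om) = (t : Om) * x := by
      have h1 : (((t / f₀ : FN (N' * q)) : Om)) = (t : Om) / (f₀ : Om) := rfl
      rw [h1, ← hxb₀]
      field_simp
    rw [← e]
    exact key

/-- **[COLON] for a local generator**: if `d · Λ'(D) ⊆ B' · g₀` with `g₀ ∈ Λ'(D)`, `g₀ ≠ 0`, then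
`d = g₀ · g` with `g ∈ Λ'(-D)` (the last step of [INV]: `f := g₀`, `f g = d`). -/
theorem exists_mul_eq_of_generator (hS : Plan.IsSetup A F O ρ) (hq' : q ∣ N')
    (E : Divisor Kbar (FN (N' * q)))
    (hE : Plan.IsE3 (N' * q) q (Dvd.intro_left N' rfl) (Nat.mul_dvd_mul_right hq' q) E)
    (D : Divisor Kbar (FN (N' * q)))
    (happ : ∀ P : Place Kbar (FN (N' * q)), E P = 0 →
      ∃ (f : FN (N' * q)) (hf : (f : Om) ∈ O), f ≠ 0 ∧
        (⟨(f : Om), hf⟩ : O) ∈ K0Plan.Lam A N' M q O E D ∧ P.ord f = -D P)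
    (hunit : ∀ i : Plan.Coord q, ∃ f ∈ K0Plan.Lam A N' M q O E D, ρ f i ≠ 0)
    (g₀ d : O) (hg₀ : (g₀ : Om) ≠ 0)
    (hloc : ∀ f ∈ K0Plan.Lam A N' M q O E D, ∃ c ∈ K0Plan.Bp A N' M q O E,
      (d : Om) * (f : Om) = (c : Om) * (g₀ : Om)) :
    ∃ g ∈ K0Plan.Lam A N' M q O E (-D), g₀ * g = d := by
  obtain ⟨g, hg, hgx⟩ := colon hS hq' E hE D happ hunit ((d : Om) / (g₀ : Om)) (fun f hf => by
    obtain ⟨c, hc, hcf⟩ := hloc f hf
    refine ⟨c, hc, ?_⟩
    rw [div_mul_eq_mul_div, hcf, mul_div_cancel_right₀ _ hg₀])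
  refine ⟨g, hg, Subtype.ext ?_⟩
  rw [Subring.coe_mul, hgx, mul_div_cancel₀ _ hg₀]

end Fermat.Agent.S36.ColonK0

end
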