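/-
P8 / S36 — block [NOETH] (owner helper87).  `import Mathlib` only, frame-independent.

`A₀` a noetherian UFD (for instance a DVR: `A₀ = A ∩ K0`, the valuation ring of the inertia
field), `K₀ = Frac A₀` of characteristic `0`, `F / K₀` a function field in one variable with a
transcendental element `j` such that `F` is finite over `K₀(j)`.

* `isNoetherianRing_integralClosure`, `finite_integralClosure` : the integral closure of
  `A₀[j]` in `F` is a noetherian ring, finite as an `A₀[j]`-module;
* `isNoetherianRing_of_isIntegral` : every `A₀`-subalgebra `B ∋ j` of `F` whose elements are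
  integral over `A₀[j]` is a noetherian ring;
* `fg_of_denominator` : a `B`-submodule of `F` with a common denominator is finitely generated;
* `fg_span_of_fg`, `fg_span_of_denominator` : the same after enlarging the ring inside `F`
  (localisation at a point).
-/
import Mathlib

set_option autoImplicit false

noncomputable section

namespace Fermat.Agent.S36.NoethClosure

open Polynomial IntermediateField

section Core

variable {A₀ K₀ F : Type*} [CommRing A₀] [IsDomain A₀]
  [Field K₀] [Algebra A₀ K₀] [IsFractionRing A₀ K₀]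
  [Field F] [Algebra K₀ F] [Algebra A₀ F] [IsScalarTower A₀ K₀ F]

omit [IsDomain A₀] in
/-- The elements of `K₀(j)` lie in every subfield of `F` containing `j` and the image of `A₀`. -/
theorem mem_subfield_of_mem_adjoin (j : F) (E : Subfield F) (hjE : j ∈ E)
    (hA : ∀ a : A₀, algebraMap A₀ F a ∈ E) {z : F} (hz : z ∈ K₀⟮j⟯) : z ∈ E := by
  have hle : (K₀⟮j⟯).toSubfield ≤ E := by
    rw [IntermediateField.adjoin_toSubfield, Subfield.closure_le]
    rintro x (⟨c, rfl⟩ | hx)
    · obtain ⟨a, b, hb, rfl⟩ := IsFractionRing.div_surjective (A := A₀) c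
      rw [map_div₀, ← IsScalarTower.algebraMap_apply, ← IsScalarTower.algebraMap_apply]
      exact E.div_mem (hA a) (hA b)
    · rw [Set.mem_singleton_iff] at hx
      rw [hx]
      exact hjE
  exact hle hz

variable [IsNoetherianRing A₀] [UniqueFactorizationMonoid A₀] [CharZero K₀]

/-- Core statement, for the range of `aeval j`. -/
theorem core_range (j : F) (hj : Transcendental K₀ j) [FiniteDimensional K₀⟮j⟯ F] :
    IsNoetherianRing (aeval (R := A₀) j).range ∧ IsIntegrallyClosed (aeval (R := A₀) j).range ∧
      IsNoetherianRing (integralClosure (aeval (R := A₀) j).range F) ∧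
      Module.Finite (aeval (R := A₀) j).range (integralClosure (aeval (R := A₀) j).range F) := by
  have hinjA : Function.Injective (algebraMap A₀ K₀) := IsFractionRing.injective A₀ K₀
  have : CharZero A₀ := (algebraMap A₀ K₀).charZero
  have hjA : Transcendental A₀ j := hj.restrictScalars hinjA
  have hinj : Function.Injective (aeval (R := A₀) j) := transcendental_iff_injective.mp hjA
  set S : Subalgebra A₀ F := (aeval (R := A₀) j).range with hS
  let e : A₀[X] ≃ₐ[A₀] S := AlgEquiv.ofInjective (aeval (R := A₀) j) hinj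
  have hSn : IsNoetherianRing S := isNoetherianRing_of_ringEquiv A₀[X] e.toRingEquiv
  have hSc : IsIntegrallyClosed S := IsIntegrallyClosed.of_equiv e.toRingEquiv
  let _ : Algebra (FractionRing S) F := FractionRing.liftAlgebra S F
  have : IsScalarTower S (FractionRing S) F := FractionRing.isScalarTower_liftAlgebra S F
  have : CharZero (FractionRing S) := by
    have : CharZero S := charZero_of_injective_algebraMap (R := A₀) (A := S)
      (fun a b h => by
        have := congrArg (fun x : S => (x : F)) h
        have h2 : algebraMap A₀ F a = algebraMap A₀ F b := this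
        rw [IsScalarTower.algebraMap_apply A₀ K₀ F, IsScalarTower.algebraMap_apply A₀ K₀ F] at h2
        exact hinjA ((algebraMap K₀ F).injective h2))
    exact charZero_of_injective_algebraMap (IsFractionRing.injective S (FractionRing S))
  -- finiteness over `Frac S`
  have hfin : FiniteDimensional (FractionRing S) F := by
    obtain ⟨s, hs⟩ := (Module.finite_def.mp (inferInstance : Module.Finite K₀⟮j⟯ F))
    refine Module.finite_def.mpr ⟨s, ?_⟩
    rw [eq_top_iff]
    rintro x -
    have hx : x ∈ Submodule.span K₀⟮j⟯ (s : Set F) := by rw [hs]; trivial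
    -- the range of `Frac S → F` contains `K₀(j)`
    have hrange : ∀ z : F, z ∈ K₀⟮j⟯ → ∃ d : FractionRing S, algebraMap (FractionRing S) F d = z := by
      intro z hz
      have := mem_subfield_of_mem_adjoin (A₀ := A₀) (K₀ := K₀) j
        (algebraMap (FractionRing S) F).fieldRange ?_ ?_ hz
      · exact this
      · refine ⟨algebraMap S (FractionRing S) ⟨j, ⟨X, by simp⟩⟩, ?_⟩
        rw [← IsScalarTower.algebraMap_apply S (FractionRing S) F]
        rfl
      · intro a
        refine ⟨algebraMap S (FractionRing S) (algebraMap A₀ S a), ?_⟩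
        rw [← IsScalarTower.algebraMap_apply S (FractionRing S) F]
        rfl
    induction hx using Submodule.span_induction with
    | mem y hy => exact Submodule.subset_span hy
    | zero => exact Submodule.zero_mem _
    | add y z _ _ hy hz => exact Submodule.add_mem _ hy hz
    | smul c y _ hy =>
      obtain ⟨d, hd⟩ := hrange (c : F) c.2
      have : c • y = d • y := by
        rw [Algebra.smul_def d y, hd]
        rfl
      rw [this]
      exact Submodule.smul_mem _ d hy
  refine ⟨hSn, hSc, ?_, ?_⟩
  · exact IsIntegralClosure.isNoetherianRing S (FractionRing S) F (integralClosure S F)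
  · exact IsIntegralClosure.finite S (FractionRing S) F (integralClosure S F)

/-- Core statement for any subalgebra equal to `A₀[j]`. -/
theorem core_of_eq (j : F) (hj : Transcendental K₀ j) [FiniteDimensional K₀⟮j⟯ F]
    (S : Subalgebra A₀ F) (hS : S = Algebra.adjoin A₀ {j}) :
    IsNoetherianRing S ∧ IsIntegrallyClosed S ∧ IsNoetherianRing (integralClosure S F) ∧
      Module.Finite S (integralClosure S F) := by
  rw [Algebra.adjoin_singleton_eq_range_aeval] at hS
  subst hS
  exact core_range (K₀ := K₀) j hj

/-- **[NOETH] (N0)** `A₀[j]` is a noetherian ring. -/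
theorem isNoetherianRing_adjoin (j : F) (hj : Transcendental K₀ j) [FiniteDimensional K₀⟮j⟯ F] :
    IsNoetherianRing (Algebra.adjoin A₀ {j}) :=
  (core_of_eq (K₀ := K₀) j hj _ rfl).1

/-- **[NOETH] (N0')** `A₀[j]` is integrally closed. -/
theorem isIntegrallyClosed_adjoin (j : F) (hj : Transcendental K₀ j)
    [FiniteDimensional K₀⟮j⟯ F] :
    IsIntegrallyClosed (Algebra.adjoin A₀ {j}) :=
  (core_of_eq (K₀ := K₀) j hj _ rfl).2.1

/-- **[NOETH] (N1)** The integral closure of `A₀[j]` in `F` is a noetherian ring. -/
theorem isNoetherianRing_integralClosure (j : F) (hj : Transcendental K₀ j)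
    [FiniteDimensional K₀⟮j⟯ F] :
    IsNoetherianRing (integralClosure (Algebra.adjoin A₀ {j}) F) :=
  (core_of_eq (K₀ := K₀) j hj _ rfl).2.2.1

/-- **[NOETH] (N1')** The integral closure of `A₀[j]` in `F` is a finite `A₀[j]`-module. -/
theorem finite_integralClosure (j : F) (hj : Transcendental K₀ j)
    [FiniteDimensional K₀⟮j⟯ F] :
    Module.Finite (Algebra.adjoin A₀ {j}) (integralClosure (Algebra.adjoin A₀ {j}) F) :=
  (core_of_eq (K₀ := K₀) j hj _ rfl).2.2.2

/-- **[NOETH] (N2)** Every `A₀`-subalgebra `B ∋ j` of `F` all of whose elements are integral over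
`A₀[j]` is a noetherian ring (it is an `A₀[j]`-submodule of the integral closure). -/
theorem isNoetherianRing_of_isIntegral (j : F) (hj : Transcendental K₀ j)
    [FiniteDimensional K₀⟮j⟯ F] (B : Subalgebra A₀ F) (hjB : j ∈ B)
    (hint : ∀ b ∈ B, IsIntegral (Algebra.adjoin A₀ {j}) b) : IsNoetherianRing B := by
  have hSB : Algebra.adjoin A₀ {j} ≤ B := Algebra.adjoin_le (Set.singleton_subset_iff.mpr hjB)
  have hSn : IsNoetherianRing (Algebra.adjoin A₀ {j}) := isNoetherianRing_adjoin (K₀ := K₀) j hj
  have hfin : Module.Finite (Algebra.adjoin A₀ {j}) (integralClosure (Algebra.adjoin A₀ {j}) F) :=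
    finite_integralClosure (K₀ := K₀) j hj
  have hN : IsNoetherian (Algebra.adjoin A₀ {j}) (integralClosure (Algebra.adjoin A₀ {j}) F) :=
    isNoetherian_of_isNoetherianRing_of_finite _ _
  let _ : Algebra (Algebra.adjoin A₀ {j}) B := (Subalgebra.inclusion hSB).toAlgebra
  let f : B →ₗ[Algebra.adjoin A₀ {j}] integralClosure (Algebra.adjoin A₀ {j}) F :=
    { toFun := fun b => ⟨(b : F), hint b b.2⟩
      map_add' := fun _ _ => rfl
      map_smul' := fun _ _ => rfl }
  have hf : Function.Injective f := fun a b h => Subtype.ext (by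
    have := congrArg (fun z : integralClosure (Algebra.adjoin A₀ {j}) F => (z : F)) h
    exact this)
  have hNB : IsNoetherian (Algebra.adjoin A₀ {j}) B := isNoetherian_of_injective f hf
  exact isNoetherianRing_iff.mpr (isNoetherian_of_tower (Algebra.adjoin A₀ {j}) hNB)

/-- **[NOETH] (N3)** Fractional ideals are finitely generated: a `B`-submodule `I` of `F` with a
common denominator `d` (`d ≠ 0`, `d * I ⊆ B`) is finitely generated. -/
theorem fg_of_denominator (j : F) (hj : Transcendental K₀ j)
    [FiniteDimensional K₀⟮j⟯ F] (B : Subalgebra A₀ F) (hjB : j ∈ B)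
    (hint : ∀ b ∈ B, IsIntegral (Algebra.adjoin A₀ {j}) b)
    (I : Submodule B F) (d : F) (hd : d ≠ 0) (hdI : ∀ x ∈ I, d * x ∈ B) : I.FG := by
  have hB : IsNoetherianRing B := isNoetherianRing_of_isIntegral (K₀ := K₀) j hj B hjB hint
  let g : I →ₗ[B] B :=
    { toFun := fun x => ⟨d * (x : F), hdI x x.2⟩
      map_add' := fun x y => Subtype.ext (by simp [mul_add])
      map_smul' := fun b x => Subtype.ext (by
        simp only [Submodule.coe_smul, RingHom.id_apply, Subalgebra.smul_def, smul_eq_mul,
          Subalgebra.coe_mul]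
        ring) }
  have hg : Function.Injective g := fun x y h =>
    Subtype.ext (mul_left_cancel₀ hd (congrArg Subtype.val h))
  have hNI : IsNoetherian B I := isNoetherian_of_injective g hg
  exact Module.Finite.iff_fg.mp inferInstance

end Core

section Span

variable {A₀ F : Type*} [CommRing A₀] [Field F] [Algebra A₀ F]

/-- **[NOETH] (N4)** Enlarging the ring inside `F` (e.g. localising at a point): if `I` is a
finitely generated `B`-submodule of `F` and `R ⊇ B` is a subring of `F`, the `R`-span of `I` is
finitely generated. -/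
theorem fg_span_of_fg (B : Subalgebra A₀ F) (R : Subring F) (hBR : ∀ b ∈ B, b ∈ R)
    (I : Submodule B F) (hI : I.FG) : (Submodule.span R (I : Set F)).FG := by
  obtain ⟨s, hs⟩ := hI
  refine ⟨s, le_antisymm (Submodule.span_mono ?_) (Submodule.span_le.mpr ?_)⟩
  · intro x hx
    rw [← hs]
    exact Submodule.subset_span hx
  · intro x hx
    have hx' : x ∈ Submodule.span B (s : Set F) := by rw [hs]; exact hx
    clear hx
    induction hx' using Submodule.span_induction with
    | mem y hy => exact Submodule.subset_span hy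
    | zero => exact Submodule.zero_mem _
    | add y z _ _ hy hz => exact Submodule.add_mem _ hy hz
    | smul b y _ hy =>
      have : b • y = (⟨(b : F), hBR b b.2⟩ : R) • y := rfl
      rw [this]
      exact Submodule.smul_mem _ _ hy

/-- **[NOETH] (N5)** A ring of fractions of a noetherian ring inside `F` is noetherian: `R ⊇ B`
a subring of `F` each of whose elements `r` has a denominator `d ∈ B`, `d ≠ 0`, `d⁻¹ ∈ R`, `d * r ∈ B`. -/
theorem isNoetherianRing_of_fractions (B : Subalgebra A₀ F) [IsNoetherianRing B] (R : Subring F)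
    (hBR : ∀ b ∈ B, b ∈ R)
    (hfrac : ∀ r ∈ R, ∃ d ∈ B, d ≠ 0 ∧ d⁻¹ ∈ R ∧ d * r ∈ B) : IsNoetherianRing R := by
  rw [isNoetherianRing_iff_ideal_fg]
  intro J
  -- the contraction of `J` to `B`
  let J₀ : Ideal B :=
    { carrier := {b | ∃ h : (b : F) ∈ R, (⟨(b : F), h⟩ : R) ∈ J}
      add_mem' := by
        rintro a b ⟨ha, ha'⟩ ⟨hb, hb'⟩
        exact ⟨R.add_mem ha hb, J.add_mem ha' hb'⟩
      zero_mem' := ⟨R.zero_mem, J.zero_mem⟩
      smul_mem' := by
        rintro c b ⟨hb, hb'⟩
        refine ⟨R.mul_mem (hBR c c.2) hb, ?_⟩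
        exact J.mul_mem_left ⟨(c : F), hBR c c.2⟩ hb' }
  obtain ⟨s, hs⟩ := (isNoetherianRing_iff_ideal_fg B).mp inferInstance J₀
  classical
  refine ⟨s.image (fun b : B => (⟨(b : F), hBR b b.2⟩ : R)), le_antisymm ?_ ?_⟩
  · rw [Ideal.span_le]
    intro x hx
    rw [Finset.coe_image] at hx
    obtain ⟨b, hb, rfl⟩ := hx
    have hbJ : b ∈ J₀ := by rw [← hs]; exact Submodule.subset_span hb
    obtain ⟨_, h⟩ := hbJ
    exact h
  · intro r hr
    obtain ⟨d, hdB, hd0, hdinv, hdr⟩ := hfrac r r.2
    have hmem : (⟨d * (r : F), hdr⟩ : B) ∈ J₀ := by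
      refine ⟨R.mul_mem (hBR d hdB) r.2, ?_⟩
      exact J.mul_mem_left ⟨d, hBR d hdB⟩ hr
    rw [← hs] at hmem
    have key : ∀ b : B, b ∈ Submodule.span B (s : Set B) →
        (⟨(b : F), hBR b b.2⟩ : R) ∈
          Submodule.span R ((s.image (fun b : B => (⟨(b : F), hBR b b.2⟩ : R)) : Finset R) : Set R) := by
      intro b hb
      induction hb using Submodule.span_induction with
      | mem y hy =>
        exact Submodule.subset_span (by
          rw [Finset.coe_image]; exact ⟨y, hy, rfl⟩)
      | zero => exact Submodule.zero_mem _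
      | add y z _ _ hy hz => exact Submodule.add_mem _ hy hz
      | smul c y _ hy => exact Submodule.smul_mem _ (⟨(c : F), hBR c c.2⟩ : R) hy
    have h1 := key _ hmem
    have h2 := Submodule.smul_mem _ (⟨d⁻¹, hdinv⟩ : R) h1
    have : (⟨d⁻¹, hdinv⟩ : R) • (⟨d * (r : F), R.mul_mem (hBR d hdB) r.2⟩ : R) = r := by
      apply Subtype.ext
      show d⁻¹ * (d * (r : F)) = r
      rw [← mul_assoc, inv_mul_cancel₀ hd0, one_mul]
    rw [← this]
    exact h2

end Span


end Fermat.Agent.S36.NoethClosure
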