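import Mathlib
import Fermat.Agent.S36.NoethClosure
import Fermat.Agent.S36.K0DVR
import Fermat.Agent.S36.K0Red
import Fermat.Agent.Lib.BaseChangeDegree
import Fermat.Agent.P5.Desc.BaseChange
import Fermat.Agent.S18.FibreCount
import Fermat.Agent.S37.IntDescent

/-!
# S36 (P8) — [FG-K0]: the instance of [NOETH] in the inertia-field frame (helper87)

`A` a valuation subring of `Q̄` over `q`, `K0 = Q̄^{I_A}` the inertia field, `A0 = A ∩ K0` (a DVR,
`S36/K0DVR`).  The ring `B'` of `K0`-rational integral functions regular off the cusps and the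
divisorial modules `M_D` over it enter the local chain (Lemma R, Nakayama:
`LocalDenom.exists_generator_of_reduction`, `LocalPrincipal.cyclic_of_reduction`) through
`hfg : I.FG`.  This file proves it, for ANY subring `B` of `Q̄((q))` with the listed properties.

* `exists_monic_fixed` : [INT-A] every `a ∈ A` is a root of a monic polynomial with inertia-fixed
  coefficients in `A` (product over the finite inertia orbit);
* `A0J`, `isIntegral_A0J_of_AJ` : integral over `A[j]` ⟹ integral over `A0[j]`;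
* `FK`, `bm`, `j0`, `transcendental_j0`, `finiteDimensional_K0` : the `K0`-function field
  `laurentBaseChange K0 F_N^0` is finite over `K0(j)`;
* `exists_of_fixed` : an inertia-fixed element of `F_N` comes from the `K0`-function field;
* `isIntegral_of_map`, `isNoetherianRing_of_injective`, `fg_of_injective` : the abstract transfer
  of `S36/NoethClosure` along an embedding of fields (Mathlib only);
* `isNoetherianRing_of_fixed`, `fg_of_fixed` : **the exports**.

In the application `hBint` comes from "`O` is integral over `O_M`" and integrality over `Q̄[j]`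
via `S34.Incl.isIntegral_AJ` / `S36.InclGen.isIntegral_AJ_gen`.
-/

set_option autoImplicit false

noncomputable section

namespace Fermat.Agent.S36.FgK0

open ModularCurve AlgebraicCurve Fermat.Agent.S24 Fermat.Agent.S18.Content Fermat.Agent.S18.Plan
open Fermat.Agent.S37.Plan2 Fermat.Agent.S18 Polynomial IntermediateField
open Fermat.Agent.S36.K0DVR Fermat.Agent.Lib.InertiaGlue
open scoped Pointwise

section Transfer

variable {A₀ K₀ F L : Type*} [CommRing A₀] [IsDomain A₀]
  [Field K₀] [Algebra A₀ K₀] [IsFractionRing A₀ K₀]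
  [Field F] [Algebra K₀ F] [Algebra A₀ F] [IsScalarTower A₀ K₀ F] [Field L]

omit [IsDomain A₀] in
/-- Integrality pulls back along an injective ring homomorphism: if the subring `R` of `L` is
contained in the image of the subalgebra `S` of `F`, an element of `F` whose image is integral over
`R` is integral over `S`. -/
theorem isIntegral_of_map (φ : F →+* L) (S : Subalgebra A₀ F) (R : Subring L)
    (hR : ∀ c ∈ R, ∃ s ∈ S, φ s = c) {y : F} (hy : IsIntegral R (φ y)) : IsIntegral S y := by
  obtain ⟨P, hPm, hPy⟩ := hy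
  let f : S →+* L := φ.comp (algebraMap S F)
  have hlift : P.map R.subtype ∈ Polynomial.lifts f := by
    rw [Polynomial.lifts_iff_coeff_lifts]
    intro n
    rw [Polynomial.coeff_map]
    obtain ⟨s, hs, hsc⟩ := hR _ (P.coeff n).2
    exact ⟨⟨s, hs⟩, hsc⟩
  obtain ⟨Q, hQmap, -, hQm⟩ := Polynomial.lifts_and_degree_eq_and_monic hlift (hPm.map _)
  refine ⟨Q, hQm, ?_⟩
  apply φ.injective
  rw [map_zero, Polynomial.hom_eval₂, ← Polynomial.eval_map]
  show Polynomial.eval (φ y) (Q.map f) = 0
  rw [hQmap, Polynomial.eval_map]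
  exact hPy

/-- The pull-back of a subring of `L` along `φ : F → L`, as an `A₀`-subalgebra of `F`. -/
def pullSub (φ : F →+* L) (B : Subring L) (hBc : ∀ a : A₀, φ (algebraMap A₀ F a) ∈ B) :
    Subalgebra A₀ F where
  carrier := {y | φ y ∈ B}
  mul_mem' := fun {x y} hx hy => by
    show φ (x * y) ∈ B
    rw [map_mul]; exact B.mul_mem hx hy
  one_mem' := by
    show φ 1 ∈ B
    rw [map_one]; exact B.one_mem
  add_mem' := fun {x y} hx hy => by
    show φ (x + y) ∈ B
    rw [map_add]; exact B.add_mem hx hy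
  zero_mem' := by
    show φ 0 ∈ B
    rw [map_zero]; exact B.zero_mem
  algebraMap_mem' := hBc

omit [IsDomain A₀] [Field K₀] [Algebra A₀ K₀] [IsFractionRing A₀ K₀] [Algebra K₀ F]
  [IsScalarTower A₀ K₀ F] in
theorem mem_pullSub (φ : F →+* L) (B : Subring L) (hBc : ∀ a : A₀, φ (algebraMap A₀ F a) ∈ B)
    (y : F) : y ∈ pullSub φ B hBc ↔ φ y ∈ B := Iff.rfl

variable [IsNoetherianRing A₀] [UniqueFactorizationMonoid A₀] [CharZero K₀]

/-- **Noetherianity transfers.** `φ : F → L` a homomorphism of fields, `F` a function field over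
`K₀ = Frac A₀` with coordinate `j`; a subring `B` of `L` contained in `φ(F)`, containing `φ(A₀)` and
`φ j`, all of whose elements are integral over `A₀[j]`, is noetherian. -/
theorem isNoetherianRing_of_injective (φ : F →+* L) (j : F) (hj : Transcendental K₀ j)
    [FiniteDimensional K₀⟮j⟯ F] (B : Subring L) (hBc : ∀ a : A₀, φ (algebraMap A₀ F a) ∈ B)
    (hBj : φ j ∈ B) (hBF : ∀ b ∈ B, ∃ y : F, φ y = b)
    (hBint : ∀ y : F, φ y ∈ B → IsIntegral (Algebra.adjoin A₀ {j}) y) : IsNoetherianRing B := by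
  have hN : IsNoetherianRing (pullSub φ B hBc) :=
    NoethClosure.isNoetherianRing_of_isIntegral (K₀ := K₀) j hj (pullSub φ B hBc) hBj
      (fun b hb => hBint b hb)
  let g : pullSub φ B hBc →+* B :=
    { toFun := fun y => ⟨φ y, y.2⟩
      map_one' := Subtype.ext (by show φ 1 = 1; exact map_one φ)
      map_mul' := fun x y => Subtype.ext (by show φ ((x : F) * y) = φ x * φ y; exact map_mul φ _ _)
      map_zero' := Subtype.ext (by show φ 0 = 0; exact map_zero φ)
      map_add' := fun x y => Subtype.ext (by show φ ((x : F) + y) = φ x + φ y; exact map_add φ _ _) }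
  have hg : Function.Surjective g := by
    intro b
    obtain ⟨y, hy⟩ := hBF b b.2
    exact ⟨⟨y, by show φ y ∈ B; rw [hy]; exact b.2⟩, Subtype.ext hy⟩
  exact isNoetherianRing_of_surjective (pullSub φ B hBc) B g hg

/-- **Finite generation transfers.** In the situation of `isNoetherianRing_of_injective`, a
`B`-submodule `I` of `L` contained in `φ(F)` with a common denominator `d` is finitely
generated. -/
theorem fg_of_injective (φ : F →+* L) (j : F) (hj : Transcendental K₀ j)
    [FiniteDimensional K₀⟮j⟯ F] (B : Subring L) (hBc : ∀ a : A₀, φ (algebraMap A₀ F a) ∈ B)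
    (hBj : φ j ∈ B) (hBF : ∀ b ∈ B, ∃ y : F, φ y = b)
    (hBint : ∀ y : F, φ y ∈ B → IsIntegral (Algebra.adjoin A₀ {j}) y)
    (I : Submodule B L) (hIF : ∀ x ∈ I, ∃ y : F, φ y = x) (d : L) (hd : d ≠ 0)
    (hdI : ∀ x ∈ I, d * x ∈ B) : I.FG := by
  classical
  by_cases hI : I = ⊥
  · rw [hI]; exact Submodule.fg_bot
  obtain ⟨x₀, hx₀I, hx₀⟩ := (Submodule.ne_bot_iff I).1 hI
  obtain ⟨y₀, hy₀⟩ := hIF x₀ hx₀I
  obtain ⟨z₀, hz₀⟩ := hBF _ (hdI x₀ hx₀I)
  have hd₀ : φ (z₀ / y₀) = d := by
    rw [map_div₀, hz₀, hy₀, mul_div_assoc, div_self hx₀, mul_one]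
  have hd₀0 : z₀ / y₀ ≠ 0 := by
    intro h0
    rw [h0, map_zero] at hd₀
    exact hd hd₀.symm
  let I₀ : Submodule (pullSub φ B hBc) F :=
    { carrier := {y | φ y ∈ I}
      add_mem' := fun {x y} hx hy => by
        show φ (x + y) ∈ I
        rw [map_add]; exact I.add_mem hx hy
      zero_mem' := by
        show φ 0 ∈ I
        rw [map_zero]; exact I.zero_mem
      smul_mem' := fun b y hy => by
        show φ ((b : F) * y) ∈ I
        rw [map_mul]
        exact I.smul_mem (⟨φ b, b.2⟩ : B) hy }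
  have hfg₀ : I₀.FG :=
    NoethClosure.fg_of_denominator (K₀ := K₀) j hj (pullSub φ B hBc) hBj (fun b hb => hBint b hb)
      I₀ (z₀ / y₀) hd₀0 (fun y hy => by
        show φ (z₀ / y₀ * y) ∈ B
        rw [map_mul, hd₀]
        exact hdI _ hy)
  obtain ⟨s, hs⟩ := hfg₀
  refine ⟨s.image φ, le_antisymm ?_ ?_⟩
  · rw [Submodule.span_le]
    intro x hx
    obtain ⟨y, hy, rfl⟩ := Finset.mem_image.1 (Finset.mem_coe.1 hx)
    have hyI : y ∈ I₀ := by rw [← hs]; exact Submodule.subset_span hy
    exact hyI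
  · have key : ∀ y ∈ Submodule.span (pullSub φ B hBc) (s : Set F),
        φ y ∈ Submodule.span B ((s.image φ : Finset L) : Set L) := by
      intro y hy
      induction hy using Submodule.span_induction with
      | mem y hy => exact Submodule.subset_span (Finset.mem_coe.2 (Finset.mem_image_of_mem φ hy))
      | zero => rw [map_zero]; exact Submodule.zero_mem _
      | add y z _ _ hy hz => rw [map_add]; exact Submodule.add_mem _ hy hz
      | smul b y _ hy =>
        have : φ (b • y) = (⟨φ b, b.2⟩ : B) • φ y := by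
          show φ ((b : F) * y) = φ b * φ y
          exact map_mul φ _ _
        rw [this]
        exact Submodule.smul_mem _ _ hy
    intro x hx
    obtain ⟨y, rfl⟩ := hIF x hx
    have hy : y ∈ I₀ := hx
    rw [← hs] at hy
    exact key y hy

end Transfer

set_option synthInstance.maxHeartbeats 400000
set_option maxHeartbeats 1600000

variable (A : ValuationSubring Kbar)

/-! ## [INT-A]: `A` is integral over `A ∩ K0` -/

/-- Elements of the inertia group map `A` into itself. -/
theorem map_mem_of_mem_inertia {τ : Kbar ≃ₐ[ℚ] Kbar} (hτ : τ ∈ A.inertiaSubgroupIn ℚ) {x : Kbar}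
    (hx : x ∈ A) : τ x ∈ A := by
  obtain ⟨σ, -, rfl⟩ := hτ
  have h : (σ : Kbar ≃ₐ[ℚ] Kbar) • A = A := σ.2
  have h2 : (σ : Kbar ≃ₐ[ℚ] Kbar) • x ∈ (σ : Kbar ≃ₐ[ℚ] Kbar) • A :=
    ValuationSubring.smul_mem_pointwise_smul _ _ _ hx
  rw [h] at h2
  exact h2

/-- **[INT-A]** Every element of `A` is a root of a monic polynomial whose coefficients lie in `A`
and are fixed by the inertia group (the product over the finite inertia orbit). -/
theorem exists_monic_fixed (a : Kbar) (ha : a ∈ A) :
    ∃ P : Polynomial Kbar, P.Monic ∧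
      (∀ i, P.coeff i ∈ A ∧ ∀ τ ∈ A.inertiaSubgroupIn ℚ, τ (P.coeff i) = P.coeff i) ∧
      P.eval a = 0 := by
  classical
  -- the orbit
  set S : Set Kbar := {b | ∃ τ ∈ A.inertiaSubgroupIn ℚ, τ a = b} with hS
  have hint : IsIntegral ℚ a := by
    have := isGalois_rat_Qb
    exact Algebra.IsIntegral.isIntegral a
  have hSfin : S.Finite := by
    refine Set.Finite.subset ((minpoly ℚ a).rootSet_finite Kbar) ?_
    rintro b ⟨τ, -, rfl⟩
    rw [Polynomial.mem_rootSet]
    refine ⟨minpoly.ne_zero hint, ?_⟩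
    rw [Polynomial.aeval_algEquiv, AlgHom.coe_comp, Function.comp_apply, minpoly.aeval]
    exact map_zero _
  set s : Finset Kbar := hSfin.toFinset with hs
  have hmem : ∀ b, b ∈ s ↔ ∃ τ ∈ A.inertiaSubgroupIn ℚ, τ a = b := fun b => by
    rw [hs, Set.Finite.mem_toFinset]
    exact Iff.rfl
  have hsA : ∀ b ∈ s, b ∈ A := by
    intro b hb
    obtain ⟨τ, hτ, rfl⟩ := (hmem b).1 hb
    exact map_mem_of_mem_inertia A hτ ha
  -- the polynomial over `A`
  let P' : Polynomial A := ∏ b ∈ s.attach, (X - C (⟨(b : Kbar), hsA b b.2⟩ : A))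
  have hP'map : P'.map A.subtype = ∏ b ∈ s, (X - C b) := by
    rw [Polynomial.map_prod, ← Finset.prod_attach s (fun b => (X - C b : Polynomial Kbar))]
    refine Finset.prod_congr rfl fun b _ => ?_
    rw [Polynomial.map_sub, Polynomial.map_X, Polynomial.map_C]
    rfl
  refine ⟨P'.map A.subtype, ?_, fun i => ⟨?_, fun τ hτ => ?_⟩, ?_⟩
  · exact (Polynomial.monic_prod_of_monic _ _ fun b _ => Polynomial.monic_X_sub_C _).map _
  · rw [Polynomial.coeff_map]
    exact (P'.coeff i).2
  · -- invariance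
    have hperm : s.image (fun b => τ b) = s := by
      ext b
      rw [Finset.mem_image]
      constructor
      · rintro ⟨c, hc, rfl⟩
        obtain ⟨σ, hσ, rfl⟩ := (hmem c).1 hc
        exact (hmem _).2 ⟨τ * σ, Subgroup.mul_mem _ hτ hσ, rfl⟩
      · intro hb
        obtain ⟨σ, hσ, rfl⟩ := (hmem b).1 hb
        refine ⟨τ⁻¹ (σ a), (hmem _).2 ⟨τ⁻¹ * σ, Subgroup.mul_mem _ (Subgroup.inv_mem _ hτ) hσ, rfl⟩,
          ?_⟩
        show τ (τ⁻¹ (σ a)) = σ a
        exact τ.apply_symm_apply _
    have hmapτ : (P'.map A.subtype).map (τ : Kbar →+* Kbar) = P'.map A.subtype := by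
      rw [hP'map, Polynomial.map_prod]
      have h1 : ∀ b ∈ s, ((X - C b : Polynomial Kbar)).map (τ : Kbar →+* Kbar) = X - C (τ b) := by
        intro b _
        rw [Polynomial.map_sub, Polynomial.map_X, Polynomial.map_C]
        rfl
      rw [Finset.prod_congr rfl h1]
      conv_rhs => rw [← hperm]
      rw [Finset.prod_image]
      intro x _ y _ hxy
      exact τ.injective hxy
    have h2 := congrArg (fun p => p.coeff i) hmapτ
    simp only [Polynomial.coeff_map] at h2
    simpa using h2
  · rw [hP'map, Polynomial.eval_prod]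
    refine Finset.prod_eq_zero ((hmem a).2 ⟨1, Subgroup.one_mem _, rfl⟩) ?_
    simp

/-! ## `A0[j] ⊆ A[j]` and integrality -/

/-- `A0[j] ⊂ Q̄((q))`, `A0 = A ∩ K0`. -/
def A0J : Subring Om :=
  Subring.closure
    (Set.range (fun a : A0 A => (HahnSeries.C (((a : K0 A) : Kbar)) : Om)) ∪ {jK})

theorem C_mem_A0J {a : Kbar} (ha : a ∈ A) (hfix : ∀ τ ∈ A.inertiaSubgroupIn ℚ, τ a = a) :
    (HahnSeries.C a : Om) ∈ A0J A :=
  Subring.subset_closure (Or.inl ⟨⟨⟨a, (mem_K0_iff A a).2 hfix⟩, ha⟩, rfl⟩)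

theorem jK_mem_A0J : jK ∈ A0J A := Subring.subset_closure (Or.inr rfl)

theorem A0J_le_AJ : A0J A ≤ AJ A := by
  rw [A0J, AJ]
  refine Subring.closure_mono (Set.union_subset_union_left _ ?_)
  rintro _ ⟨a, rfl⟩
  exact ⟨⟨((a : K0 A) : Kbar), a.2⟩, rfl⟩

/-- A constant of `A` is integral over `A0[j]`. -/
theorem isIntegral_C (a : Kbar) (ha : a ∈ A) : IsIntegral (A0J A) (HahnSeries.C a : Om) := by
  obtain ⟨P, hPm, hPc, hPa⟩ := exists_monic_fixed A a ha
  set Q : Polynomial Om := P.map (HahnSeries.C : Kbar →+* Om) with hQ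
  have hQm : Q.Monic := hPm.map _
  have hcoe : (↑Q.coeffs : Set Om) ⊆ A0J A := by
    intro c hc
    obtain ⟨i, -, rfl⟩ := Polynomial.mem_coeffs_iff.1 (Finset.mem_coe.1 hc)
    rw [hQ, Polynomial.coeff_map]
    exact C_mem_A0J A (hPc i).1 (hPc i).2
  refine ⟨Q.toSubring (A0J A) hcoe, (Polynomial.monic_toSubring _ _ _).2 hQm, ?_⟩
  have h1 : (Q.toSubring (A0J A) hcoe).map (A0J A).subtype = Q := Polynomial.map_toSubring _ _ _
  show Polynomial.eval₂ (A0J A).subtype _ _ = 0
  rw [← Polynomial.eval_map, h1, hQ, Polynomial.eval_map, Polynomial.eval₂_at_apply, hPa, map_zero]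

/-- Every element of `A[j]` is integral over `A0[j]`. -/
theorem AJ_le_integralClosure : AJ A ≤ (integralClosure (A0J A) Om).toSubring := by
  rw [AJ, Subring.closure_le]
  rintro x (⟨a, rfl⟩ | hx)
  · exact isIntegral_C A _ a.2
  · rw [Set.mem_singleton_iff] at hx
    subst hx
    exact isIntegral_algebraMap (R := A0J A) (x := ⟨jK, jK_mem_A0J A⟩)

/-- **Integrality over `A[j]` implies integrality over `A0[j]`.** -/
theorem isIntegral_A0J_of_AJ {z : Om} (hz : IsIntegral (AJ A) z) : IsIntegral (A0J A) z := by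
  obtain ⟨p, hp, hpz⟩ := hz
  let φ : AJ A →+* integralClosure (A0J A) Om :=
    { toFun := fun r => ⟨(r : Om), AJ_le_integralClosure A r.2⟩
      map_one' := rfl
      map_mul' := fun _ _ => rfl
      map_zero' := rfl
      map_add' := fun _ _ => rfl }
  have h1 : IsIntegral (integralClosure (A0J A) Om) z := by
    refine ⟨p.map φ, hp.map φ, ?_⟩
    rw [Polynomial.eval₂_map]
    exact hpz
  exact isIntegral_trans z h1

/-! ## The `K0`-function field -/

variable (N : ℕ) [NeZero N]

/-- The inclusion `K0 → Q̄`. -/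
abbrev iota0 : K0 A →+* Kbar := algebraMap (K0 A) Kbar

/-- The function field of `X₀(N)` over the inertia field `K0`. -/
abbrev FK : IntermediateField (K0 A) (LaurentSeries (K0 A)) :=
  laurentBaseChange (K0 A) (modularFunctionFieldFull N)

/-- The coefficientwise base change `F_{K0} → F_N`. -/
abbrev bm : FK A N →+* FN N := Fermat.Agent.P5.Desc.baseMap (iota0 A) (modularFunctionFieldFull N)

/-- `j` in the `K0`-function field. -/
def j0 : FK A N :=
  ⟨coeffEmb (K0 A) jq, coeffEmb_mem_laurentBaseChange (K0 A) (jq_mem_full N)⟩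

theorem bm_j0 : bm A N (j0 A N) = jBar N :=
  Subtype.ext (Fermat.Agent.P5.Desc.coeffMap_coeffEmb' (iota0 A) jq)

theorem coe_bm_j0 : ((bm A N (j0 A N) : FN N) : Om) = jK := by
  rw [bm_j0, Fermat.Agent.S18.Main.coe_jBar]

omit [NeZero N] in
theorem bm_injective : Function.Injective (bm A N) := (bm A N).injective

omit [NeZero N] in
theorem bm_algebraMap (c : K0 A) :
    bm A N (algebraMap (K0 A) (FK A N) c) = algebraMap Kbar (FN N) (iota0 A c) :=
  Fermat.Agent.P5.Desc.baseMap_algebraMap (iota0 A) (modularFunctionFieldFull N) c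

omit [NeZero N] in
theorem hLD (n : ℕ) (v : Fin n → FK A N) (hv : LinearIndependent (K0 A) v) :
    LinearIndependent Kbar (fun i => bm A N (v i)) :=
  Fermat.Agent.P5.Desc.linearIndependent_baseMap (iota0 A) (modularFunctionFieldFull N) v hv

theorem transcendental_j0 : Transcendental (K0 A) (j0 A N) := by
  intro halg
  obtain ⟨p, hp0, hp⟩ := halg
  have h1 := Fermat.Agent.Lib.BaseChangeDegree.map_aeval (iota0 A) (bm A N) (bm_algebraMap A N) p
    (j0 A N)
  rw [hp, map_zero, bm_j0] at h1
  have htr := FibreCount.transcendental_jBar N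
  exact htr ⟨p.map (iota0 A), (Polynomial.map_ne_zero_iff (iota0 A).injective).2 hp0, h1.symm⟩

theorem finiteDimensional_K0 : FiniteDimensional (K0 A)⟮j0 A N⟯ (FK A N) := by
  classical
  have : FiniteDimensional Kbar⟮jBar N⟯ (FN N) := FibreCount.finiteDimensional N
  have hLD' : ∀ (n : ℕ) (v : Fin n → FK A N), LinearIndependent (K0 A)⟮j0 A N⟯ v →
      LinearIndependent Kbar⟮jBar N⟯ (fun i => bm A N (v i)) := by
    intro n v hv
    have h := Fermat.Agent.Lib.BaseChangeDegree.linearIndependent_adjoin_map (bm A N) (hLD A N)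
      (transcendental_j0 A N) v hv
    rw [bm_j0] at h
    exact h
  have hrank : Module.rank (K0 A)⟮j0 A N⟯ (FK A N) ≤
      ((Module.finrank Kbar⟮jBar N⟯ (FN N) : ℕ) : Cardinal) := by
    apply rank_le
    intro s hs
    have h2 := Fermat.Agent.Lib.BaseChangeDegree.linearIndependent_map_of_fin (bm A N) hLD'
      (fun i : s => (i : FK A N)) hs
    have h3 := h2.fintype_card_le_finrank
    simpa using h3
  exact Module.rank_lt_aleph0_iff.1 (lt_of_le_of_lt hrank (Cardinal.natCast_lt_aleph0))

/-! ## Descent of inertia-fixed elements -/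

omit [NeZero N] in
/-- A Laurent series with coefficients in `K0` comes from `K0((q))`. -/
theorem exists_coeffMap_eq (x : Om) (hx : ∀ n, x.coeff n ∈ K0 A) :
    ∃ y : LaurentSeries (K0 A), coeffMap (iota0 A) y = x := by
  have hsupp : (Function.support fun n : ℤ => (⟨x.coeff n, hx n⟩ : K0 A)) = x.support := by
    ext n
    simp only [Function.mem_support, ne_eq, HahnSeries.mem_support]
    exact not_congr (by rw [Subtype.ext_iff]; rfl)
  refine ⟨⟨fun n => ⟨x.coeff n, hx n⟩, hsupp ▸ x.isPWO_support⟩, ?_⟩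
  ext n
  rfl

omit [NeZero N] in
/-- **Descent.** An element of `F_N` fixed by the inertia group comes from the `K0`-function
field. -/
theorem exists_of_fixed {x : Om} (hx : x ∈ modularFunctionFieldBar N)
    (hfix : K0Red.Fixed A x) : ∃ y : FK A N, ((bm A N y : FN N) : Om) = x := by
  obtain ⟨y, hy⟩ := exists_coeffMap_eq A x fun n => (mem_K0_iff A _).2 (hfix.coeff n)
  have hy' : coeffMap (iota0 A) y ∈ laurentBaseChange Kbar (modularFunctionFieldFull N) := by
    rw [hy]; exact hx
  exact ⟨⟨y, Fermat.Agent.P5.Desc.mem_laurentBaseChange_of_coeffMap_mem (iota0 A)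
    (modularFunctionFieldFull N) y hy'⟩, hy⟩

omit [NeZero N] in
/-- Elements coming from the `K0`-function field are fixed by the inertia group. -/
theorem fixed_bm (y : FK A N) : K0Red.Fixed A ((bm A N y : FN N) : Om) := by
  refine K0Red.fixed_of_coeff fun n τ hτ => ?_
  exact fixed_coe A ((y : LaurentSeries (K0 A)).coeff n) τ hτ

/-! ## The exports -/

/-- The embedding `F_{K0} → Q̄((q))` (coefficientwise inclusion `K0 ⊆ Q̄`). -/
def Phi : FK A N →+* Om := (algebraMap (FN N) Om).comp (bm A N)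

omit [NeZero N] in
theorem Phi_apply (y : FK A N) : Phi A N y = ((bm A N y : FN N) : Om) := rfl

omit [NeZero N] in
theorem Phi_mem (y : FK A N) : Phi A N y ∈ modularFunctionFieldBar N := (bm A N y).2

theorem Phi_j0 : Phi A N (j0 A N) = jK := coe_bm_j0 A N

omit [NeZero N] in
theorem Phi_algebraMap (a : A0 A) :
    Phi A N (algebraMap (A0 A) (FK A N) a) = HahnSeries.C (((a : K0 A)) : Kbar) := by
  show coeffMap (iota0 A) (algebraMap (K0 A) (LaurentSeries (K0 A)) (a : K0 A)) = _
  rw [Fermat.Agent.P5.Desc.coeffMap_algebraMap', algebraMap_laurentSeries_eq_single]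
  rfl

/-- `A0[j] ⊆ Q̄((q))` is the image of `A0[j0] ⊆ F_{K0}`. -/
theorem exists_mem_adjoin_of_mem_A0J {c : Om} (hc : c ∈ A0J A) :
    ∃ s ∈ Algebra.adjoin (A0 A) {j0 A N}, Phi A N s = c := by
  rw [A0J] at hc
  induction hc using Subring.closure_induction with
  | mem x hx =>
    rcases hx with ⟨a, rfl⟩ | hx
    · exact ⟨algebraMap (A0 A) (FK A N) a, Subalgebra.algebraMap_mem _ a, Phi_algebraMap A N a⟩
    · rw [Set.mem_singleton_iff] at hx
      subst hx
      exact ⟨j0 A N, Algebra.subset_adjoin rfl, Phi_j0 A N⟩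
  | zero => exact ⟨0, zero_mem _, map_zero _⟩
  | one => exact ⟨1, one_mem _, map_one _⟩
  | add x y _ _ hx hy =>
    obtain ⟨s, hs, rfl⟩ := hx
    obtain ⟨t, ht, rfl⟩ := hy
    exact ⟨s + t, add_mem hs ht, map_add _ _ _⟩
  | neg x _ hx =>
    obtain ⟨s, hs, rfl⟩ := hx
    exact ⟨-s, neg_mem hs, map_neg _ _⟩
  | mul x y _ _ hx hy =>
    obtain ⟨s, hs, rfl⟩ := hx
    obtain ⟨t, ht, rfl⟩ := hy
    exact ⟨s * t, mul_mem hs ht, map_mul _ _ _⟩

/-- An element of the `K0`-function field whose image is integral over `A[j]` is integral over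
`A0[j0]`. -/
theorem isIntegral_adjoin_of_isIntegral_AJ (y : FK A N) (hy : IsIntegral (AJ A) (Phi A N y)) :
    IsIntegral (Algebra.adjoin (A0 A) {j0 A N}) y :=
  isIntegral_of_map (Phi A N) _ (A0J A) (fun _ hc => exists_mem_adjoin_of_mem_A0J A N hc)
    (isIntegral_A0J_of_AJ A hy)

variable {q : ℕ}

/-- **[FG-K0], noetherian form.** Any subring `B` of `Q̄((q))` consisting of inertia-fixed elements
of `F_N` integral over `A[j]`, and containing `j` and the inertia-fixed constants of `A`, is a
noetherian ring. -/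
theorem isNoetherianRing_of_fixed (hq : q.Prime) (hAq : A.LiesOverPrime q) (B : Subring Om)
    (hBC : ∀ a : Kbar, a ∈ A → (∀ τ ∈ A.inertiaSubgroupIn ℚ, τ a = a) → (HahnSeries.C a : Om) ∈ B)
    (hBj : jK ∈ B) (hBN : ∀ b ∈ B, b ∈ modularFunctionFieldBar N)
    (hBfix : ∀ b ∈ B, K0Red.Fixed A b) (hBint : ∀ b ∈ B, IsIntegral (AJ A) b) :
    IsNoetherianRing B := by
  have hdvr : IsDiscreteValuationRing (A0 A) := isDiscreteValuationRing_A0 A q hq hAq
  have hfd : FiniteDimensional (K0 A)⟮j0 A N⟯ (FK A N) := finiteDimensional_K0 A N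
  exact isNoetherianRing_of_injective (K₀ := K0 A) (Phi A N) (j0 A N) (transcendental_j0 A N) B
    (fun a => by rw [Phi_algebraMap]; exact hBC _ a.2 (fixed_coe A _))
    (by rw [Phi_j0]; exact hBj)
    (fun b hb => exists_of_fixed A N (hBN b hb) (hBfix b hb))
    (fun y hy => isIntegral_adjoin_of_isIntegral_AJ A N y (hBint _ hy))

/-- **[FG-K0], the block export** (`hfg` of `LocalDenom.exists_generator_of_reduction`). With `B`
as in `isNoetherianRing_of_fixed`: a `B`-submodule `I` of `Q̄((q))` consisting of inertia-fixed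
elements of `F_N` and having a common denominator `d` (`d • I ⊆ B`, `d ≠ 0`) is finitely
generated. -/
theorem fg_of_fixed (hq : q.Prime) (hAq : A.LiesOverPrime q) (B : Subring Om)
    (hBC : ∀ a : Kbar, a ∈ A → (∀ τ ∈ A.inertiaSubgroupIn ℚ, τ a = a) → (HahnSeries.C a : Om) ∈ B)
    (hBj : jK ∈ B) (hBN : ∀ b ∈ B, b ∈ modularFunctionFieldBar N)
    (hBfix : ∀ b ∈ B, K0Red.Fixed A b) (hBint : ∀ b ∈ B, IsIntegral (AJ A) b)
    (I : Submodule B Om) (hIN : ∀ x ∈ I, x ∈ modularFunctionFieldBar N)
    (hIfix : ∀ x ∈ I, K0Red.Fixed A x) (d : Om) (hd : d ≠ 0) (hdI : ∀ x ∈ I, d * x ∈ B) :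
    I.FG := by
  have hdvr : IsDiscreteValuationRing (A0 A) := isDiscreteValuationRing_A0 A q hq hAq
  have hfd : FiniteDimensional (K0 A)⟮j0 A N⟯ (FK A N) := finiteDimensional_K0 A N
  exact fg_of_injective (K₀ := K0 A) (Phi A N) (j0 A N) (transcendental_j0 A N) B
    (fun a => by rw [Phi_algebraMap]; exact hBC _ a.2 (fixed_coe A _))
    (by rw [Phi_j0]; exact hBj)
    (fun b hb => exists_of_fixed A N (hBN b hb) (hBfix b hb))
    (fun y hy => isIntegral_adjoin_of_isIntegral_AJ A N y (hBint _ hy))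
    I (fun x hx => exists_of_fixed A N (hIN x hx) (hIfix x hx)) d hd hdI

end Fermat.Agent.S36.FgK0
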