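import Mathlib
import Fermat.Agent.S36.FgK0
import Fermat.Agent.S36.K0Plan
import Fermat.Agent.S36.CondK0
import Fermat.Agent.S36.InclInst
import Fermat.Agent.S34.CuspRegInst

/-!
# S36 (P8) — [FG-LAM]: `Λ'(D)` is a finitely generated `B'`-module (helper87)

The instance of `S36/FgK0` in the vocabulary of `S36/K0Plan`: `B' = K0Plan.Bp`, `Λ'(D) = K0Plan.Lam`.

* `mul_mem_Lam`, `add_mem_Lam`, `zero_mem_Lam` : `Λ'(D₁) Λ'(D₂) ⊆ Λ'(D₁ + D₂)`, `Λ'(D)` is a group;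
* `BpOm`  : `B'` as a `Subring` of `Q̄((q))`;  `LamOm D` : `Λ'(D)` as a `B'`-submodule of `Q̄((q))`;
* `isIntegral_AJ_of_mem_Bp` : every element of `B'` is integral over `A[j]`
  (from "`O` is integral over `O_M`" and the pole bound `E ≤ (q² + q + 1)(j)_∞`);
* `isNoetherianRing_BpOm` : `B'` is a noetherian ring;
* `fg_LamOm` : `Λ'(D)` is a finitely generated `B'`-module (given one nonzero element of `Λ'(-D)`);
* `fg_of_range_eq` : the same for ANY ring `R` acting on `Q̄((q))` with image `B'` and any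
  `R`-submodule with underlying set `Λ'(D)`.
-/

set_option autoImplicit false

noncomputable section

namespace Fermat.Agent.S36.FgLam

open ModularCurve AlgebraicCurve Fermat.Agent.S24 Fermat.Agent.S18 Fermat.Agent.S18.Content
  Fermat.Agent.S18.Plan Fermat.Agent.S36.Plan Fermat.Agent.S36.K0Plan
open Fermat.Agent.S37.Plan2 Fermat.Agent.S34.Incl

set_option synthInstance.maxHeartbeats 400000
set_option maxHeartbeats 1600000
set_option linter.unusedSectionVars false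

variable {A : ValuationSubring Kbar} {N' M q : ℕ} [NeZero N'] [NeZero M] [NeZero q]
  {O : Subring Om} {ρ : O →+* Rq A q}

/-! ## `Λ'(D)` is a `B'`-module -/

theorem zero_mem_Lam (E D : Divisor Kbar (FN (N' * q))) : (0 : O) ∈ Lam A N' M q O E D :=
  ⟨fun _ _ => map_zero _, 0, Submodule.zero_mem _⟩

theorem pullRR_add_le {E : Divisor Kbar (FN (N' * q))} (hE0 : ∀ P, 0 ≤ E P)
    (D : Divisor Kbar (FN (N' * q))) {c c' : ℕ} (hc : c ≤ c') :
    pullRR (N' * q) (M * q * q) (D + c • E) ≤ pullRR (N' * q) (M * q * q) (D + c' • E) := by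
  apply Main.pullRR_mono
  intro P
  rw [Finsupp.add_apply, Finsupp.add_apply, Finsupp.smul_apply, Finsupp.smul_apply, nsmul_eq_mul,
    nsmul_eq_mul]
  have := mul_le_mul_of_nonneg_right (show (c : ℤ) ≤ c' by exact_mod_cast hc) (hE0 P)
  linarith

theorem add_mem_Lam {E : Divisor Kbar (FN (N' * q))} (hE0 : ∀ P, 0 ≤ E P)
    {D : Divisor Kbar (FN (N' * q))} {f g : O} (hf : f ∈ Lam A N' M q O E D)
    (hg : g ∈ Lam A N' M q O E D) : f + g ∈ Lam A N' M q O E D := by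
  obtain ⟨hf1, c, hc⟩ := hf
  obtain ⟨hg1, c', hc'⟩ := hg
  refine ⟨fun τ hτ => ?_, c + c', ?_⟩
  · show coeffMap (τ : Kbar →+* Kbar) ((f : Om) + (g : Om)) = (f : Om) + (g : Om)
    rw [map_add, hf1 τ hτ, hg1 τ hτ]
  · exact Submodule.add_mem _ (pullRR_add_le hE0 D (Nat.le_add_right c c') hc)
      (pullRR_add_le hE0 D (Nat.le_add_left c' c) hc')

theorem mul_mem_Lam {E D₁ D₂ : Divisor Kbar (FN (N' * q))} {f g : O}
    (hf : f ∈ Lam A N' M q O E D₁) (hg : g ∈ Lam A N' M q O E D₂) :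
    f * g ∈ Lam A N' M q O E (D₁ + D₂) := by
  obtain ⟨hf1, c, hc⟩ := hf
  obtain ⟨hg1, c', hc'⟩ := hg
  refine ⟨fun τ hτ => ?_, c + c', ?_⟩
  · show coeffMap (τ : Kbar →+* Kbar) ((f : Om) * (g : Om)) = (f : Om) * (g : Om)
    rw [map_mul, hf1 τ hτ, hg1 τ hτ]
  · have h := Fermat.Agent.S34.NodeInst.mul_mem_pullRR_add hc hc'
    have e : (D₁ + c • E) + (D₂ + c' • E) = (D₁ + D₂) + (c + c') • E := by
      rw [add_smul]; abel
    rw [e] at h
    exact h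

theorem bp_mul_mem_Lam {E D : Divisor Kbar (FN (N' * q))} {b g : O}
    (hb : b ∈ Bp A N' M q O E) (hg : g ∈ Lam A N' M q O E D) : b * g ∈ Lam A N' M q O E D := by
  have h := mul_mem_Lam hb hg
  rwa [zero_add] at h

/-- `B'` as a subring of `Q̄((q))`. -/
def BpOm (A : ValuationSubring Kbar) (N' M q : ℕ) [NeZero N'] [NeZero M] [NeZero q]
    (O : Subring Om) (E : Divisor Kbar (FN (N' * q))) (hE0 : ∀ P, 0 ≤ E P) : Subring Om where
  carrier := {x | ∃ b ∈ Bp A N' M q O E, (b : Om) = x}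
  mul_mem' := by
    rintro _ _ ⟨b, hb, rfl⟩ ⟨b', hb', rfl⟩
    exact ⟨b * b', CondK0.mul_mem_Bp hb hb', rfl⟩
  one_mem' := ⟨1, CondK0.one_mem_Bp, rfl⟩
  add_mem' := by
    rintro _ _ ⟨b, hb, rfl⟩ ⟨b', hb', rfl⟩
    exact ⟨b + b', CondK0.add_mem_Bp hE0 hb hb', rfl⟩
  zero_mem' := ⟨0, CondK0.zero_mem_Bp E, rfl⟩
  neg_mem' := by
    rintro _ ⟨b, hb, rfl⟩
    exact ⟨-b, CondK0.neg_mem_Bp hb, rfl⟩

theorem mem_BpOm {E : Divisor Kbar (FN (N' * q))} {hE0 : ∀ P, 0 ≤ E P} {x : Om} :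
    x ∈ BpOm A N' M q O E hE0 ↔ ∃ b ∈ Bp A N' M q O E, (b : Om) = x := Iff.rfl

/-- `Λ'(D)` as a `B'`-submodule of `Q̄((q))`. -/
def LamOm (A : ValuationSubring Kbar) (N' M q : ℕ) [NeZero N'] [NeZero M] [NeZero q]
    (O : Subring Om) (E : Divisor Kbar (FN (N' * q))) (hE0 : ∀ P, 0 ≤ E P)
    (D : Divisor Kbar (FN (N' * q))) : Submodule ↥(BpOm A N' M q O E hE0) Om where
  carrier := {x | ∃ g ∈ Lam A N' M q O E D, (g : Om) = x}
  add_mem' := by
    rintro _ _ ⟨f, hf, rfl⟩ ⟨g, hg, rfl⟩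
    exact ⟨f + g, add_mem_Lam hE0 hf hg, rfl⟩
  zero_mem' := ⟨0, zero_mem_Lam E D, rfl⟩
  smul_mem' := by
    rintro ⟨_, b, hb, rfl⟩ _ ⟨g, hg, rfl⟩
    exact ⟨b * g, bp_mul_mem_Lam hb hg, rfl⟩

theorem mem_LamOm {E : Divisor Kbar (FN (N' * q))} {hE0 : ∀ P, 0 ≤ E P}
    {D : Divisor Kbar (FN (N' * q))} {x : Om} :
    x ∈ LamOm A N' M q O E hE0 D ↔ ∃ g ∈ Lam A N' M q O E D, (g : Om) = x := Iff.rfl

/-! ## Integrality of `B'` over `A[j]` -/

/-- The pole bound `c E ≤ c (q² + q + 1) (j)_∞`. -/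
theorem smul_E_le (hq' : q ∣ N') {E : Divisor Kbar (FN (N' * q))}
    (hE : IsE3 (N' * q) q (Dvd.intro_left N' rfl) (Nat.mul_dvd_mul_right hq' q) E) (c : ℕ)
    (v : Place Kbar (FN (N' * q))) :
    ((0 : Divisor Kbar (FN (N' * q))) + c • E) v ≤
      ((c * (q * q + q + 1) : ℕ) : ℤ) * max 0 (-(v.ord (jBar (N' * q)))) := by
  rw [zero_add, Finsupp.smul_apply, nsmul_eq_mul]
  exact InclInst.smul_le_of_three (hE v) (le_max_left _ _)
    (PoleQ2.max_le_of_min_le (PoleQ2.ord_jq_ge (Dvd.intro_left N' rfl) v))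
    (PoleQ2.max_le_of_min_le (PoleQ2.ord_jqq_ge (Nat.mul_dvd_mul_right hq' q) v))

/-- **Every element of `B'` is integral over `A[j]`.** -/
theorem isIntegral_AJ_of_mem_Bp (hqp : q.Prime) (hA : A.LiesOverPrime q) (hqM : ¬ q ∣ M)
    (hq' : q ∣ N') (hNdvd : N' * q ∣ M * q * q)
    (hint : ∀ g : O, IsIntegral (OM A M) (g : Om)) {E : Divisor Kbar (FN (N' * q))}
    (hE : IsE3 (N' * q) q (Dvd.intro_left N' rfl) (Nat.mul_dvd_mul_right hq' q) E) {b : O}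
    (hb : b ∈ Bp A N' M q O E) : IsIntegral (AJ A) (b : Om) := by
  have : Fact q.Prime := ⟨hqp⟩
  obtain ⟨-, c, hc⟩ := hb
  have h1 := (Fermat.Agent.S34.InclPull.isIntegral_adjoin_of_mem_pullRR (N' * q) (M * q * q) hNdvd
    (FibreCount.transcendental_jBar (N' * q)) (c * (q * q + q + 1)) _ (smul_E_le hq' hE c) hc).1
  rw [Main.coe_jBar] at h1
  exact InclGen.isIntegral_AJ_gen A M q hqM hA (hint b) h1

/-! ## Noetherianity and finite generation -/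

section Frame

variable {h : Nat.Coprime M q} {F : Plan.Frame M q h}

/-- Inertia-fixed constants of `A` lie in `B'`. -/
theorem C_mem_BpOm (hS : IsSetup A F O ρ) {E : Divisor Kbar (FN (N' * q))}
    (hE0 : ∀ P, 0 ≤ E P) {a : Kbar} (ha : a ∈ A)
    (hfix : ∀ τ ∈ A.inertiaSubgroupIn ℚ, τ a = a) :
    (HahnSeries.C a : Om) ∈ BpOm A N' M q O E hE0 := by
  have hO : (HahnSeries.C a : Om) ∈ O := (SetupQ2.IsSetup.C_mem_iff hS a).2 ha
  refine ⟨⟨_, hO⟩, ⟨fun τ hτ => K0Red.fixed_C hfix τ hτ, 0, ?_⟩, rfl⟩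
  show (HahnSeries.C a : Om) ∈ pullRR (N' * q) (M * q * q) (0 + 0 • E)
  have h1 : (1 : Om) ∈ pullRR (N' * q) (M * q * q) (0 + 0 • E) :=
    Main.one_mem_pullRR fun P => by rw [zero_add, zero_smul]; exact le_rfl
  have h2 := Main.C_mul_mem_pullRR a h1
  rwa [mul_one] at h2

/-- `j ∈ B'`. -/
theorem jK_mem_BpOm (hqp : q.Prime) (hA : A.LiesOverPrime q) (hS : IsSetup A F O ρ)
    (hq' : q ∣ N') (hNdvd : N' * q ∣ M * q * q) {E : Divisor Kbar (FN (N' * q))}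
    (hE : IsE3 (N' * q) q (Dvd.intro_left N' rfl) (Nat.mul_dvd_mul_right hq' q) E)
    (hE0 : ∀ P, 0 ≤ E P) : (jK : Om) ∈ BpOm A N' M q O E hE0 := by
  obtain ⟨hO, -⟩ := PhiQ2.rho_j A hqp hA hS
  refine ⟨⟨_, hO⟩, ⟨fun τ _ => coeffMap_jqModC _, 1, ?_⟩, rfl⟩
  show (jK : Om) ∈ pullRR (N' * q) (M * q * q) (0 + 1 • E)
  rw [← Main.coe_jBar (N' * q)]
  refine Fermat.Agent.S34.CuspReg.coe_mem_pullRR_of_pole (CharStmt.bar_le hNdvd)
    (Main.jBar_ne_zero _) fun P => ?_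
  rw [zero_add, one_smul, hE P]
  have h1 := le_max_right (0 : ℤ) (-(P.ord (jBar (N' * q))))
  have h2 := le_max_left (0 : ℤ) (-(P.ord (jBarLevel (N' * q) q (Dvd.intro_left N' rfl))))
  have h3 := le_max_left (0 : ℤ)
    (-(P.ord (jBarLevel (N' * q) (q * q) (Nat.mul_dvd_mul_right hq' q))))
  linarith

/-- **`B'` is a noetherian ring.** -/
theorem isNoetherianRing_BpOm (hqp : q.Prime) (hA : A.LiesOverPrime q) (hS : IsSetup A F O ρ)
    (hq' : q ∣ N') (hNdvd : N' * q ∣ M * q * q)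
    (hint : ∀ g : O, IsIntegral (OM A M) (g : Om)) {E : Divisor Kbar (FN (N' * q))}
    (hE : IsE3 (N' * q) q (Dvd.intro_left N' rfl) (Nat.mul_dvd_mul_right hq' q) E)
    (hE0 : ∀ P, 0 ≤ E P) : IsNoetherianRing ↥(BpOm A N' M q O E hE0) := by
  have hqM : ¬ q ∣ M := (Nat.Prime.coprime_iff_not_dvd hqp).mp h.symm
  refine FgK0.isNoetherianRing_of_fixed A (M * q * q) hqp hA (BpOm A N' M q O E hE0)
    (fun a ha hfix => C_mem_BpOm hS hE0 ha hfix) (jK_mem_BpOm hqp hA hS hq' hNdvd hE hE0)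
    ?_ ?_ ?_
  · rintro _ ⟨b, ⟨-, c, hc⟩, rfl⟩
    exact hc.1
  · rintro _ ⟨b, ⟨hf, -⟩, rfl⟩
    exact fun τ hτ => hf τ hτ
  · rintro _ ⟨b, hb, rfl⟩
    exact isIntegral_AJ_of_mem_Bp hqp hA hqM hq' hNdvd hint hE hb

/-- **[FG-LAM]** `Λ'(D)` is a finitely generated `B'`-module, as soon as `Λ'(-D) ≠ 0`. -/
theorem fg_LamOm (hqp : q.Prime) (hA : A.LiesOverPrime q) (hS : IsSetup A F O ρ)
    (hq' : q ∣ N') (hNdvd : N' * q ∣ M * q * q)
    (hint : ∀ g : O, IsIntegral (OM A M) (g : Om)) {E : Divisor Kbar (FN (N' * q))}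
    (hE : IsE3 (N' * q) q (Dvd.intro_left N' rfl) (Nat.mul_dvd_mul_right hq' q) E)
    (hE0 : ∀ P, 0 ≤ E P) (D : Divisor Kbar (FN (N' * q)))
    (hd : ∃ d ∈ Lam A N' M q O E (-D), (d : Om) ≠ 0) : (LamOm A N' M q O E hE0 D).FG := by
  have hqM : ¬ q ∣ M := (Nat.Prime.coprime_iff_not_dvd hqp).mp h.symm
  obtain ⟨d, hdL, hd0⟩ := hd
  refine FgK0.fg_of_fixed A (M * q * q) hqp hA (BpOm A N' M q O E hE0)
    (fun a ha hfix => C_mem_BpOm hS hE0 ha hfix) (jK_mem_BpOm hqp hA hS hq' hNdvd hE hE0)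
    ?_ ?_ ?_ (LamOm A N' M q O E hE0 D) ?_ ?_ (d : Om) hd0 ?_
  · rintro _ ⟨b, ⟨-, c, hc⟩, rfl⟩
    exact hc.1
  · rintro _ ⟨b, ⟨hf, -⟩, rfl⟩
    exact fun τ hτ => hf τ hτ
  · rintro _ ⟨b, hb, rfl⟩
    exact isIntegral_AJ_of_mem_Bp hqp hA hqM hq' hNdvd hint hE hb
  · rintro _ ⟨g, ⟨-, c, hc⟩, rfl⟩
    exact hc.1
  · rintro _ ⟨g, ⟨hf, -⟩, rfl⟩
    exact fun τ hτ => hf τ hτ
  · rintro _ ⟨g, hg, rfl⟩
    have h1 := mul_mem_Lam hdL hg
    rw [neg_add_cancel] at h1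
    exact ⟨d * g, h1, rfl⟩

/-- **[FG-LAM], generic-ring form.** For ANY commutative ring `R` acting on `Q̄((q))` with image
`B'` and any `R`-submodule `I` of `Q̄((q))` whose underlying set is `Λ'(D)`: `I` is finitely
generated. -/
theorem fg_of_range_eq (hqp : q.Prime) (hA : A.LiesOverPrime q) (hS : IsSetup A F O ρ)
    (hq' : q ∣ N') (hNdvd : N' * q ∣ M * q * q)
    (hint : ∀ g : O, IsIntegral (OM A M) (g : Om)) {E : Divisor Kbar (FN (N' * q))}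
    (hE : IsE3 (N' * q) q (Dvd.intro_left N' rfl) (Nat.mul_dvd_mul_right hq' q) E)
    (hE0 : ∀ P, 0 ≤ E P) (D : Divisor Kbar (FN (N' * q)))
    (hd : ∃ d ∈ Lam A N' M q O E (-D), (d : Om) ≠ 0)
    {R : Type*} [CommRing R] [Algebra R Om]
    (hR : ∀ x : Om, x ∈ (algebraMap R Om).range ↔ ∃ b ∈ Bp A N' M q O E, (b : Om) = x)
    (I : Submodule R Om) (hI : ∀ x : Om, x ∈ I ↔ ∃ g ∈ Lam A N' M q O E D, (g : Om) = x) :
    I.FG := by
  classical
  obtain ⟨s, hs⟩ := fg_LamOm hqp hA hS hq' hNdvd hint hE hE0 D hd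
  refine ⟨s, le_antisymm ?_ ?_⟩
  · rw [Submodule.span_le]
    intro x hx
    have hx' : x ∈ LamOm A N' M q O E hE0 D := by
      rw [← hs]; exact Submodule.subset_span hx
    exact (hI x).2 hx'
  · have key : ∀ x ∈ Submodule.span ↥(BpOm A N' M q O E hE0) (s : Set Om),
        x ∈ Submodule.span R (s : Set Om) := by
      intro x hx
      induction hx using Submodule.span_induction with
      | mem y hy => exact Submodule.subset_span hy
      | zero => exact Submodule.zero_mem _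
      | add y z _ _ hy hz => exact Submodule.add_mem _ hy hz
      | smul b y _ hy =>
        obtain ⟨r, hr⟩ := (hR (b : Om)).2 b.2
        have e : b • y = r • y := by
          show (b : Om) * y = r • y
          rw [Algebra.smul_def, hr]
        rw [e]
        exact Submodule.smul_mem _ r hy
    intro x hx
    have hx' : x ∈ LamOm A N' M q O E hE0 D := (hI x).1 hx
    rw [← hs] at hx'
    exact key x hx'

end Frame

end Fermat.Agent.S36.FgLam
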