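import Mathlib
import Fermat.Agent.S36.LocalDenom
import Fermat.Agent.S36.MaxPoint

/-!
# S36 (P8) — [REG-JCT], abstract form: Lemma R ⟹ invertibility at every point (helper20)

The algebra between "Lemma R" (`S36/LemmaR`, helper81) and the contract `K0Plan.InvKStmt`.

`B` (`= B'`, the ring of `K₀`-rational integral functions regular off the cusps; a ring of
characteristic `0`, NOT a `k`-algebra) has three surjective reductions `ρ i : B →+* D` (`D = B_κ`,
a Dedekind `k`-algebra whose closed points are `k`-rational; coordinates `(∞, mid, 0) = (0, 1, 2)`)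
and every constant `c ∈ k` is the simultaneous reduction of an element of `B` (`hconst`);
`M` (`= Λ'(D)`) and `M'` (`= Λ'(-D)`) are `B`-submodules of a field `F ⊇ B` with `(B : M) ⊆ M'`,
`M` finitely generated, with `ρ i`-semilinear reductions `r i : M → Frac D`.

Inputs:
* `hker₂` (Lemma R): `x₂` vanishes on the middle coordinate, `ρ 1 r₂` vanishes nowhere, and
  `r₂ · ker (r 1) ⊆ x₂ · M`;
* `hker₁`, `hker₃`: where an element `c` vanishing identically on the two other coordinates does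
  not vanish, `π` (`= q`) is a local equation of the outer coordinate: `c ^ N · ker (r 0) ⊆ π · M`;
* `htrA`, `htrB` (trace elements `α^* Tr_α b`, `β^* Tr_β b`): for every `b` there are elements of
  `B` with coordinates `(ρ₀ b - ρ₁ b, ρ₀ b - ρ₁ b, 0)` and `(0, ρ₂ b - ρ₁ b, ρ₂ b - ρ₁ b)`.

Output (`exists_mul_not_mem_point`): for every coordinate `i` and every point `z : D → k` there are
`f ∈ M`, `g ∈ M'` with `f g = b ∈ B` and `z (ρ i b) ≠ 0`.

Proof.  At a point of the middle coordinate: `S36/LocalDenom.exists_generator_of_reduction` with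
`t = x₂`, `s = r₂` gives a generator `g₀` of `M` up to a denominator `d` outside the maximal ideal;
then `d / g₀ ∈ (B : M) ⊆ M'`.  At a point `P = (∞, z)`: either some `c` vanishing on the two other
coordinates has `c(P) ≠ 0` (same argument with `t = π`, `s = c ^ N`), or the maximal ideal `m_P`
contains `ker ρ₁ ∩ ker ρ₂`, hence (lying over in `B / (ker ρ₁ ∩ ker ρ₂) ⊆ D × D`, `S36/MaxPoint`)
`m_P = m_{P'}` for a point `P'` of the middle coordinate or of the coordinate `0`; in the second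
case the trace element shows `m_P = m_{(mid, z)}`.  So the middle case applies.

Also exported: `exists_reduction_ne_zero` — the reduction `r` does not vanish identically on `M`
as soon as `s · ker r ⊆ t · M` with `π t = 0`, `π s ≠ 0` (Nakayama with denominators at the prime
`ker π`; `S36/LocalDenom.exists_annihilator_not_mem`).
-/

set_option autoImplicit false
set_option linter.style.haveILetI false

namespace Fermat.Agent.S36.InvKAbs

variable {k B D L F : Type*} [Field k] [CommRing B] [CommRing D] [IsDedekindDomain D]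
  [Algebra k D] [Field L] [Algebra D L] [IsFractionRing D L] [Field F] [Algebra B F]

omit [IsDedekindDomain D] in
/-- The maximal ideal of the point `z ∘ π`. -/
theorem ker_comp_isMaximal (π : B →+* D) (hπ : Function.Surjective π) (z : D →ₐ[k] k) :
    (RingHom.ker ((z : D →+* k).comp π)).IsMaximal := by
  apply RingHom.ker_isMaximal_of_surjective
  intro c
  obtain ⟨b, hb⟩ := hπ (algebraMap k D c)
  refine ⟨b, ?_⟩
  show z (π b) = c
  rw [hb, AlgHom.commutes]
  rfl

omit [IsDedekindDomain D] in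
theorem mem_ker_comp (π : B →+* D) (z : D →ₐ[k] k) (b : B) :
    b ∈ RingHom.ker ((z : D →+* k).comp π) ↔ z (π b) = 0 :=
  RingHom.mem_ker

/-- **The local step**: a local generator of `M` at `m` (with denominator) gives `f ∈ M`,
`g ∈ M'` with `f g ∈ B ∖ m`. -/
theorem exists_of_local (hBF : Function.Injective (algebraMap B F))
    (m : Ideal B) [hmax : m.IsMaximal] (π : B →+* D) (hπ : Function.Surjective π)
    (hm : RingHom.ker π ≤ m) (t : B) (htm : t ∈ m)
    (M M' : Submodule B F) (hM0 : ∃ f ∈ M, f ≠ 0) (hfg : M.FG)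
    (r : M →+ L) (hr : ∀ (b : B) (x : M), r (b • x) = algebraMap D L (π b) * r x)
    (hker : ∀ x : M, r x = 0 → ∃ s : B, s ∉ m ∧ ∃ y : M, s • x = t • y)
    (hinv : ∀ h : F, (∀ f ∈ M, ∃ b : B, h * f = algebraMap B F b) → h ∈ M') :
    ∃ f ∈ M, ∃ g ∈ M', ∃ b : B, f * g = algebraMap B F b ∧ b ∉ m := by
  obtain ⟨g₀, hg₀, d, hd, hgen⟩ :=
    LocalDenom.exists_generator_of_reduction π hπ m hm t htm M hfg r hr hker
  have hd0 : d ≠ 0 := fun h => hd (h ▸ m.zero_mem)
  have hdF : algebraMap B F d ≠ 0 := fun h => hd0 (hBF (h.trans (map_zero _).symm))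
  have hg₀0 : g₀ ≠ 0 := by
    rintro rfl
    obtain ⟨f, hf, hf0⟩ := hM0
    have h1 := hgen f hf
    rw [Submodule.span_zero_singleton, Submodule.mem_bot, Algebra.smul_def] at h1
    rcases mul_eq_zero.mp h1 with h | h
    · exact hdF h
    · exact hf0 h
  refine ⟨g₀, hg₀, algebraMap B F d / g₀, hinv _ (fun f hf => ?_), d, ?_, hd⟩
  · obtain ⟨a, ha⟩ := Submodule.mem_span_singleton.mp (hgen f hf)
    refine ⟨a, ?_⟩
    rw [Algebra.smul_def, Algebra.smul_def] at ha
    rw [div_mul_eq_mul_div, ← ha, mul_div_assoc, div_self hg₀0, mul_one]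
  · rw [mul_div_cancel₀ _ hg₀0]

/-- **Points of the middle coordinate** (Lemma R + Nakayama in denominator form). -/
theorem exists_mid (hBF : Function.Injective (algebraMap B F))
    (ρm : B →+* D) (hρm : Function.Surjective ρm)
    (M M' : Submodule B F) (hM0 : ∃ f ∈ M, f ≠ 0) (hfg : M.FG)
    (rm : M →+ L) (hrm : ∀ (b : B) (x : M), rm (b • x) = algebraMap D L (ρm b) * rm x)
    (x₂ r₂ : B) (hx₂ : ρm x₂ = 0) (hr₂ : ∀ z : D →ₐ[k] k, z (ρm r₂) ≠ 0)
    (hker₂ : ∀ f : M, rm f = 0 → ∃ y : M, r₂ • f = x₂ • y)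
    (hinv : ∀ h : F, (∀ f ∈ M, ∃ b : B, h * f = algebraMap B F b) → h ∈ M')
    (z : D →ₐ[k] k) :
    ∃ f ∈ M, ∃ g ∈ M', ∃ b : B, f * g = algebraMap B F b ∧ z (ρm b) ≠ 0 := by
  haveI := ker_comp_isMaximal ρm hρm z
  obtain ⟨f, hf, g, hg, b, hfg', hb⟩ := exists_of_local hBF
    (RingHom.ker ((z : D →+* k).comp ρm)) ρm hρm
    (fun b hb => by
      rw [mem_ker_comp]
      have hb' : ρm b = 0 := hb
      rw [hb', map_zero])
    x₂ (by rw [mem_ker_comp, hx₂, map_zero]) M M' hM0 hfg rm hrm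
    (fun f hf => ⟨r₂, fun h => hr₂ z ((mem_ker_comp ρm z r₂).mp h), hker₂ f hf⟩) hinv
  exact ⟨f, hf, g, hg, b, hfg', fun h => hb ((mem_ker_comp ρm z b).mpr h)⟩

omit [IsDedekindDomain D] in
/-- The image of `B` in `D × D` (as `Fin 2 → D`), a `k`-subalgebra thanks to the constants. -/
def pairImage (ρm ρc : B →+* D)
    (hconst : ∀ c : k, ∃ b : B, ρm b = algebraMap k D c ∧ ρc b = algebraMap k D c) :
    Subalgebra k (Fin 2 → D) :=
  { (RingHom.pi (fun i : Fin 2 => (![ρm, ρc] i : B →+* D))).range.toSubsemiring with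
    algebraMap_mem' := fun c => by
      obtain ⟨b, h0, h1⟩ := hconst c
      refine ⟨b, ?_⟩
      funext i
      fin_cases i
      · exact h0
      · exact h1 }

omit [IsDedekindDomain D] in
theorem mem_pairImage (ρm ρc : B →+* D)
    (hconst : ∀ c : k, ∃ b : B, ρm b = algebraMap k D c ∧ ρc b = algebraMap k D c)
    (x : Fin 2 → D) :
    x ∈ pairImage ρm ρc hconst ↔ ∃ b : B, ρm b = x 0 ∧ ρc b = x 1 := by
  constructor
  · rintro ⟨b, rfl⟩
    exact ⟨b, rfl, rfl⟩
  · rintro ⟨b, h0, h1⟩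
    refine ⟨b, ?_⟩
    funext i
    fin_cases i
    · exact h0
    · exact h1

omit [IsDedekindDomain D] in
/-- `D × D` (as `Fin 2 → D`) is integral over the image of `B` when both coordinates are onto. -/
theorem isIntegral_pair (ρm ρc : B →+* D) (hρm : Function.Surjective ρm)
    (hρc : Function.Surjective ρc)
    (hconst : ∀ c : k, ∃ b : B, ρm b = algebraMap k D c ∧ ρc b = algebraMap k D c)
    (x : Fin 2 → D) : IsIntegral (pairImage ρm ρc hconst) x := by
  obtain ⟨a₀, ha₀⟩ := hρm (x 0)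
  obtain ⟨a₁, ha₁⟩ := hρc (x 1)
  let α₀ : pairImage ρm ρc hconst :=
    ⟨![ρm a₀, ρc a₀], (mem_pairImage ρm ρc hconst _).mpr ⟨a₀, rfl, rfl⟩⟩
  let α₁ : pairImage ρm ρc hconst :=
    ⟨![ρm a₁, ρc a₁], (mem_pairImage ρm ρc hconst _).mpr ⟨a₁, rfl, rfl⟩⟩
  refine ⟨(Polynomial.X - Polynomial.C α₀) * (Polynomial.X - Polynomial.C α₁),
    (Polynomial.monic_X_sub_C α₀).mul (Polynomial.monic_X_sub_C α₁), ?_⟩
  rw [Polynomial.eval₂_mul, Polynomial.eval₂_sub, Polynomial.eval₂_sub, Polynomial.eval₂_X,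
    Polynomial.eval₂_C, Polynomial.eval₂_C]
  have h0 : (algebraMap (pairImage ρm ρc hconst) (Fin 2 → D) α₀) 0 = x 0 := ha₀
  have h1 : (algebraMap (pairImage ρm ρc hconst) (Fin 2 → D) α₁) 1 = x 1 := ha₁
  funext i
  fin_cases i
  · show (x 0 - (algebraMap (pairImage ρm ρc hconst) (Fin 2 → D) α₀) 0) *
      (x 0 - (algebraMap (pairImage ρm ρc hconst) (Fin 2 → D) α₁) 0) = 0
    rw [h0, sub_self, zero_mul]
  · show (x 1 - (algebraMap (pairImage ρm ρc hconst) (Fin 2 → D) α₀) 1) *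
      (x 1 - (algebraMap (pairImage ρm ρc hconst) (Fin 2 → D) α₁) 1) = 0
    rw [h1, sub_self, mul_zero]

omit [IsDedekindDomain D] in
/-- **Lying over for two coordinates.** If the maximal ideal `m` of `B` contains
`ker ρm ∩ ker ρc`, it is the ideal of a point of one of the two coordinates. -/
theorem exists_point_of_ker_le
    (hres : ∀ P : Ideal D, P.IsMaximal → Function.Surjective (algebraMap k (D ⧸ P)))
    (ρm ρc : B →+* D) (hρm : Function.Surjective ρm) (hρc : Function.Surjective ρc)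
    (hconst : ∀ c : k, ∃ b : B, ρm b = algebraMap k D c ∧ ρc b = algebraMap k D c)
    (m : Ideal B) [hmax : m.IsMaximal] (hle : ∀ c : B, ρm c = 0 → ρc c = 0 → c ∈ m) :
    ∃ z' : D →ₐ[k] k, (∀ b : B, b ∈ m ↔ z' (ρm b) = 0) ∨ (∀ b : B, b ∈ m ↔ z' (ρc b) = 0) := by
  set S : Subalgebra k (Fin 2 → D) := pairImage ρm ρc hconst with hS
  let φ : B →+* (Fin 2 → D) := RingHom.pi (fun i : Fin 2 => (![ρm, ρc] i : B →+* D))
  have hφ0 : ∀ b : B, φ b 0 = ρm b := fun _ => rfl
  have hφ1 : ∀ b : B, φ b 1 = ρc b := fun _ => rfl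
  have hφS : ∀ b : B, φ b ∈ S := fun b => ⟨b, rfl⟩
  let ψ : B →+* S := φ.codRestrict S hφS
  have hψ : Function.Surjective ψ := by
    rintro ⟨x, b, rfl⟩
    exact ⟨b, rfl⟩
  have hkerψ : RingHom.ker ψ ≤ m := by
    intro c hc
    have hc' : φ c = 0 := by
      have := congrArg (fun a : S => (a : Fin 2 → D)) (RingHom.mem_ker.mp hc)
      exact this
    refine hle c ?_ ?_
    · rw [← hφ0, hc']; rfl
    · rw [← hφ1, hc']; rfl
  have hcomap : Ideal.comap ψ (Ideal.map ψ m) = m := by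
    rw [Ideal.comap_map_of_surjective ψ hψ]
    exact sup_eq_left.2 hkerψ
  have hmax' : (Ideal.map ψ m).IsMaximal := by
    rcases Ideal.map_eq_top_or_isMaximal_of_surjective ψ hψ hmax with h | h
    · exfalso
      rw [h, Ideal.comap_top] at hcomap
      exact hmax.ne_top hcomap.symm
    · exact h
  obtain ⟨i, z', hz'⟩ := MaxPoint.exists_point_of_isMaximal_fun hres S
    (isIntegral_pair ρm ρc hρm hρc hconst) (Ideal.map ψ m) hmax'
  have hmem : ∀ b : B, b ∈ m ↔ z' (φ b i) = 0 := by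
    intro b
    have hzb : ψ b ∈ Ideal.map ψ m ↔ z' (φ b i) = 0 := hz' (ψ b)
    refine Iff.trans ?_ hzb
    constructor
    · exact fun hb => Ideal.mem_map_of_mem ψ hb
    · intro hb
      have : b ∈ Ideal.comap ψ (Ideal.map ψ m) := hb
      rwa [hcomap] at this
  refine ⟨z', ?_⟩
  fin_cases i
  · exact Or.inl fun b => by rw [hmem b]; rfl
  · exact Or.inr fun b => by rw [hmem b]; rfl

/-- **Points of an outer coordinate** `a` (with `m` the middle coordinate and `c` the other outer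
one), given the statement at the points of the middle coordinate. -/
theorem exists_outer (hBF : Function.Injective (algebraMap B F))
    (hres : ∀ P : Ideal D, P.IsMaximal → Function.Surjective (algebraMap k (D ⧸ P)))
    (ρa ρm ρc : B →+* D) (hρa : Function.Surjective ρa) (hρm : Function.Surjective ρm)
    (hρc : Function.Surjective ρc)
    (hconst : ∀ c : k, ∃ b : B,
      ρa b = algebraMap k D c ∧ ρm b = algebraMap k D c ∧ ρc b = algebraMap k D c)
    (M M' : Submodule B F) (hM0 : ∃ f ∈ M, f ≠ 0) (hfg : M.FG)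
    (ra : M →+ L) (hra : ∀ (b : B) (x : M), ra (b • x) = algebraMap D L (ρa b) * ra x)
    (π : B) (hπ : ρa π = 0) (N : ℕ)
    (hker : ∀ c : B, ρm c = 0 → ρc c = 0 → ∀ f : M, ra f = 0 → ∃ y : M, c ^ N • f = π • y)
    (htr : ∀ b : B, ∃ c : B, ρa c = ρa b - ρm b ∧ ρc c = 0)
    (hinv : ∀ h : F, (∀ f ∈ M, ∃ b : B, h * f = algebraMap B F b) → h ∈ M')
    (hmid : ∀ z : D →ₐ[k] k, ∃ f ∈ M, ∃ g ∈ M', ∃ b : B, f * g = algebraMap B F b ∧ z (ρm b) ≠ 0)
    (z : D →ₐ[k] k) :
    ∃ f ∈ M, ∃ g ∈ M', ∃ b : B, f * g = algebraMap B F b ∧ z (ρa b) ≠ 0 := by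
  haveI hmax := ker_comp_isMaximal ρa hρa z
  set m : Ideal B := RingHom.ker ((z : D →+* k).comp ρa) with hm
  have hmem : ∀ b : B, b ∈ m ↔ z (ρa b) = 0 := mem_ker_comp ρa z
  by_cases hc : ∃ c : B, ρm c = 0 ∧ ρc c = 0 ∧ z (ρa c) ≠ 0
  · -- `π` is a local equation of the coordinate `a` at the point
    obtain ⟨c, hcm, hcc, hcz⟩ := hc
    obtain ⟨f, hf, g, hg, b, hfg', hb⟩ := exists_of_local hBF m ρa hρa
      (fun b hb => by
        rw [hmem]
        have hb' : ρa b = 0 := hb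
        rw [hb', map_zero])
      π (by rw [hmem, hπ, map_zero]) M M' hM0 hfg ra hra
      (fun f hf => ⟨c ^ N, fun h => by
        rw [hmem, map_pow, map_pow] at h
        exact hcz (pow_eq_zero_iff (M₀ := k) (n := N) (by
          rintro rfl
          rw [pow_zero] at h
          exact one_ne_zero h) |>.mp h), hker c hcm hcc f hf⟩) hinv
    exact ⟨f, hf, g, hg, b, hfg', fun h => hb ((hmem b).mpr h)⟩
  · -- the point is glued to a point of the middle coordinate
    push Not at hc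
    obtain ⟨z', hz' | hz'⟩ := exists_point_of_ker_le hres ρm ρc hρm hρc
      (fun c => by
        obtain ⟨b, -, h1, h2⟩ := hconst c
        exact ⟨b, h1, h2⟩) m
      (fun c h1 h2 => (hmem c).mpr (hc c h1 h2))
    · obtain ⟨f, hf, g, hg, b, hfg', hb⟩ := hmid z'
      exact ⟨f, hf, g, hg, b, hfg', fun h => hb ((hz' b).mp ((hmem b).mpr h))⟩
    · -- glued to a point of the other outer coordinate: the trace element moves it to the middle
      have hval : ∀ b : B, z (ρa b) = z' (ρc b) := by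
        intro b
        obtain ⟨e, hea, -, hec⟩ := hconst (z (ρa b))
        have h1 : b - e ∈ m := by
          rw [hmem, map_sub, map_sub, hea, AlgHom.commutes]
          exact sub_self _
        have h2 := (hz' _).mp h1
        rw [map_sub, map_sub, hec, AlgHom.commutes, sub_eq_zero] at h2
        exact h2.symm
      have heq : ∀ b : B, z (ρa b) = z (ρm b) := by
        intro b
        obtain ⟨c, hca, hcc⟩ := htr b
        have h1 := hval c
        rw [hca, hcc, map_zero, map_sub, sub_eq_zero] at h1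
        exact h1
      obtain ⟨f, hf, g, hg, b, hfg', hb⟩ := hmid z
      exact ⟨f, hf, g, hg, b, hfg', fun h => hb (by rw [← heq b]; exact h)⟩

/-- **[REG-JCT], abstract form.** See the header. Coordinates `(∞, mid, 0) = (0, 1, 2)`. -/
theorem exists_mul_not_mem_point (hBF : Function.Injective (algebraMap B F))
    (hres : ∀ P : Ideal D, P.IsMaximal → Function.Surjective (algebraMap k (D ⧸ P)))
    (ρ : Fin 3 → (B →+* D)) (hρ : ∀ i, Function.Surjective (ρ i))
    (hconst : ∀ c : k, ∃ b : B, ∀ i, ρ i b = algebraMap k D c)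
    (M M' : Submodule B F) (hM0 : ∃ f ∈ M, f ≠ 0) (hfg : M.FG)
    (r : Fin 3 → (M →+ L))
    (hr : ∀ (i : Fin 3) (b : B) (x : M), r i (b • x) = algebraMap D L (ρ i b) * r i x)
    (x₂ r₂ : B) (hx₂ : ρ 1 x₂ = 0) (hr₂ : ∀ z : D →ₐ[k] k, z (ρ 1 r₂) ≠ 0)
    (hker₂ : ∀ f : M, r 1 f = 0 → ∃ y : M, r₂ • f = x₂ • y)
    (π : B) (hπ : ∀ i, ρ i π = 0) (N : ℕ)
    (hker₁ : ∀ c : B, ρ 1 c = 0 → ρ 2 c = 0 → ∀ f : M, r 0 f = 0 → ∃ y : M, c ^ N • f = π • y)
    (hker₃ : ∀ c : B, ρ 0 c = 0 → ρ 1 c = 0 → ∀ f : M, r 2 f = 0 → ∃ y : M, c ^ N • f = π • y)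
    (htrA : ∀ b : B, ∃ c : B, ρ 0 c = ρ 0 b - ρ 1 b ∧ ρ 1 c = ρ 0 b - ρ 1 b ∧ ρ 2 c = 0)
    (htrB : ∀ b : B, ∃ c : B, ρ 0 c = 0 ∧ ρ 1 c = ρ 2 b - ρ 1 b ∧ ρ 2 c = ρ 2 b - ρ 1 b)
    (hinv : ∀ h : F, (∀ f ∈ M, ∃ b : B, h * f = algebraMap B F b) → h ∈ M')
    (i : Fin 3) (z : D →ₐ[k] k) :
    ∃ f ∈ M, ∃ g ∈ M', ∃ b : B, f * g = algebraMap B F b ∧ z (ρ i b) ≠ 0 := by
  have hmid := exists_mid hBF (ρ 1) (hρ 1) M M' hM0 hfg (r 1) (hr 1) x₂ r₂ hx₂ hr₂ hker₂ hinv
  fin_cases i
  · exact exists_outer hBF hres (ρ 0) (ρ 1) (ρ 2) (hρ 0) (hρ 1) (hρ 2)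
      (fun c => by
        obtain ⟨b, hb⟩ := hconst c
        exact ⟨b, hb 0, hb 1, hb 2⟩) M M' hM0 hfg (r 0) (hr 0)
      π (hπ 0) N hker₁ (fun b => by
        obtain ⟨c, h0, -, h2⟩ := htrA b
        exact ⟨c, h0, h2⟩) hinv hmid z
  · exact hmid z
  · exact exists_outer hBF hres (ρ 2) (ρ 1) (ρ 0) (hρ 2) (hρ 1) (hρ 0)
      (fun c => by
        obtain ⟨b, hb⟩ := hconst c
        exact ⟨b, hb 2, hb 1, hb 0⟩) M M' hM0 hfg (r 2) (hr 2)
      π (hπ 2) N (fun c h1 h0 => hker₃ c h0 h1) (fun b => by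
        obtain ⟨c, h0, -, h2⟩ := htrB b
        exact ⟨c, h2, h0⟩) hinv hmid z

omit [Algebra k D] [IsDedekindDomain D] [IsFractionRing D L] [Algebra D L] in
/-- **The reduction does not vanish identically** on a nonzero finitely generated `M ⊆ F` when
`s · ker r ⊆ t · M` with `π t = 0` and `π s ≠ 0` (`D` a domain): Nakayama with denominators at the
prime `ker π`. -/
theorem exists_reduction_ne_zero [IsDomain D] (hBF : Function.Injective (algebraMap B F))
    (π : B →+* D) (M : Submodule B F) (hM0 : ∃ f ∈ M, f ≠ 0) (hfg : M.FG) (r : M →+ L)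
    (s t : B) (hs : π s ≠ 0) (ht : π t = 0)
    (hker : ∀ f : M, r f = 0 → ∃ y : M, s • f = t • y) : ∃ f : M, r f ≠ 0 := by
  by_contra hcon
  push Not at hcon
  haveI hprime : (RingHom.ker π).IsPrime := RingHom.ker_isPrime π
  haveI hfin : Module.Finite B M := Module.Finite.iff_fg.2 hfg
  obtain ⟨d, hd, hkill⟩ := LocalDenom.exists_annihilator_not_mem (Q := M) (RingHom.ker π) t s
    (RingHom.mem_ker.mpr ht) (fun h => hs (RingHom.mem_ker.mp h)) (fun z => by
      obtain ⟨y, hy⟩ := hker z (hcon z)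
      rw [hy]
      exact Submodule.smul_mem_smul (Ideal.mem_span_singleton_self t) Submodule.mem_top)
  obtain ⟨f, hf, hf0⟩ := hM0
  have h1 := congrArg (fun x : M => (x : F)) (hkill ⟨f, hf⟩)
  have h2 : algebraMap B F d * f = 0 := by
    rw [← Algebra.smul_def]
    exact h1
  rcases mul_eq_zero.mp h2 with h | h
  · have hd0 : d = 0 := hBF (h.trans (map_zero _).symm)
    exact hd (hd0 ▸ (RingHom.ker π).zero_mem)
  · exact hf0 h

end Fermat.Agent.S36.InvKAbs
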