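import Mathlib
import Fermat.Agent.S36.K0Plan
import Fermat.Agent.S36.SetupQ2
import Fermat.Agent.S36.K0ScaleFrame
import Fermat.Agent.S34.GalPull
import Fermat.Agent.S18.ContentMain

/-!
# P8 [QDIV]: the local equation `q` at a point off the other two components (helper2)

`K0Plan` vocabulary (`Fixed`, `Lam`, `Bp`), a frame `F` and a setup `(O, ρ)`.

* `div_q_inf`, `div_q_zero`, `div_mid` : a `K₀`-rational element of `O` with zero reduction at a
  coordinate is divisible there by `q` (resp. by `ξ - 1` at a middle coordinate);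
* `qdiv_inf`  : `c ∈ B'` with `ρ_mid c = 0 = ρ_0 c`, `f ∈ Λ'(D)` with `ρ_∞ f = 0`
                ⟹ `c^(q-1) f = q · y` with `y ∈ Λ'(D)`;
* `qdiv_zero` : the same with `∞` and `0` exchanged;
* `natCast_mem_Bp`, `rho_natCast` : `q ∈ B'` and `ρ q = 0`.

These are the instances of the hypotheses `hker₁`, `hker₃` (and `π := q`) of the abstract [REG]
junction (`S36/InvKAbs`).
-/

set_option autoImplicit false

noncomputable section

namespace Fermat.Agent.S36.QDivK0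

open ModularCurve AlgebraicCurve Fermat.Agent.S24 Fermat.Agent.S18 Fermat.Agent.S18.Content
  Fermat.Agent.S18.Plan Fermat.Agent.S34 Fermat.Agent.S36.Plan

section Scale

variable {A : ValuationSubring Kbar}

/-- If `y ∈ Ocal` has zero reduction and some `π^m · y` (`π ∈ A`) is a unit of `Ocal`, then
`π⁻¹ · y ∈ Ocal`. -/
theorem div_mem_Ocal_of_scale {π : Kbar} (hπA : π ∈ A) {y : Om} (hy : y ∈ Ocal A)
    (h0 : red A ⟨y, hy⟩ = 0) (m : ℤ) (hm : HahnSeries.C (π ^ m) * y ∈ Ocal A)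
    (hred : red A ⟨_, hm⟩ ≠ 0) : HahnSeries.C π⁻¹ * y ∈ Ocal A := by
  rcases le_or_gt 0 m with hm0 | hm0
  · exfalso
    obtain ⟨k, rfl⟩ := Int.eq_ofNat_of_zero_le hm0
    have hk : π ^ (k : ℤ) ∈ A := by
      rw [zpow_natCast]
      exact pow_mem hπA k
    apply hred
    have e : (⟨_, hm⟩ : Ocal A) = ⟨HahnSeries.C (π ^ (k : ℤ)), C_mem_Ocal A hk⟩ * ⟨y, hy⟩ :=
      Subtype.ext rfl
    rw [e, map_mul, h0, mul_zero]
  · obtain ⟨k, hk⟩ : ∃ k : ℕ, -1 - m = (k : ℤ) := ⟨(-1 - m).toNat, by omega⟩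
    have hkA : π ^ k ∈ A := pow_mem hπA k
    have e : HahnSeries.C π⁻¹ * y = HahnSeries.C (π ^ k) * (HahnSeries.C (π ^ m) * y) := by
      rw [← mul_assoc, ← map_mul]
      congr 2
      by_cases hπ0 : π = 0
      · subst hπ0
        have hm' : m ≠ 0 := by omega
        rw [zero_zpow m hm', mul_zero, inv_zero]
      · rw [← zpow_natCast, ← hk, ← zpow_add₀ hπ0, ← zpow_neg_one]
        congr 1
        omega
    rw [e]
    exact (Ocal A).mul_mem (C_mem_Ocal A hkA) hm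

end Scale

variable {M q : ℕ} [NeZero M] [NeZero q] {h : Nat.Coprime M q}
variable {A : ValuationSubring Kbar} {F : Plan.Frame M q h}
variable {O : Subring Om} {ρ : O →+* Plan.Rq A q}

omit [NeZero M] [NeZero q] in
/-- `K₀`-rational (coefficientwise) ⟹ fixed by the arithmetic Galois action of the inertia
group. -/
theorem gal_smul_eq_of_fixed {N : ℕ} [NeZero N] {x : FN N} (hx : K0Plan.Fixed A (x : Om))
    (τ : Kbar ≃ₐ[ℚ] Kbar) (hτ : τ ∈ A.inertiaSubgroupIn ℚ) : S34.Plan.gal N τ • x = x :=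
  Subtype.ext (hx τ hτ)

/-- The field element of a nonzero element of `O` is nonzero. -/
theorem toField_ne_zero (hS : Plan.IsSetup A F O ρ) {g : O} (hg : g ≠ 0) :
    SetupQ2.IsSetup.toField hS g ≠ 0 := by
  intro h0
  apply hg
  apply Subtype.ext
  exact congrArg (fun y : FN (M * q * q) => (y : Om)) h0

/-- **Divisibility by `q` at `∞`.** -/
theorem div_q_inf (hq : q.Prime) (hA : A.LiesOverPrime q) (hS : Plan.IsSetup A F O ρ) {g : O}
    (hg : K0Plan.Fixed A (g : Om)) (h0 : ρ g Coord.inf = 0) :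
    HahnSeries.C ((q : Kbar)⁻¹) * F.emb Coord.inf (SetupQ2.IsSetup.toField hS g) ∈ Ocal A := by
  by_cases hg0 : g = 0
  · subst hg0
    have : SetupQ2.IsSetup.toField hS (0 : O) = 0 := Subtype.ext rfl
    rw [this, map_zero, mul_zero]
    exact (Ocal A).zero_mem
  · have hx0 := toField_ne_zero hS hg0
    obtain ⟨m, hm, hred⟩ := K0ScaleFrame.exists_scale_inf A hq hA F
      (SetupQ2.IsSetup.toField hS g) hx0 (gal_smul_eq_of_fixed hg)
    have hqA : (q : Kbar) ∈ A := natCast_mem A q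
    refine div_mem_Ocal_of_scale hqA (SetupQ2.IsSetup.emb_mem hS g Coord.inf) ?_ m hm hred
    rw [← SetupQ2.IsSetup.rho_coe hS g Coord.inf]
    exact h0

/-- **Divisibility by `q` at `0`.** -/
theorem div_q_zero (hq : q.Prime) (hA : A.LiesOverPrime q) (hS : Plan.IsSetup A F O ρ) {g : O}
    (hg : K0Plan.Fixed A (g : Om)) (h0 : ρ g Coord.zero = 0) :
    HahnSeries.C ((q : Kbar)⁻¹) * F.emb Coord.zero (SetupQ2.IsSetup.toField hS g) ∈ Ocal A := by
  by_cases hg0 : g = 0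
  · subst hg0
    have : SetupQ2.IsSetup.toField hS (0 : O) = 0 := Subtype.ext rfl
    rw [this, map_zero, mul_zero]
    exact (Ocal A).zero_mem
  · have hx0 := toField_ne_zero hS hg0
    obtain ⟨m, hm, hred⟩ := K0ScaleFrame.exists_scale_zero A hq hA F
      (SetupQ2.IsSetup.toField hS g) hx0 (gal_smul_eq_of_fixed hg)
    have hqA : (q : Kbar) ∈ A := natCast_mem A q
    refine div_mem_Ocal_of_scale hqA (SetupQ2.IsSetup.emb_mem hS g Coord.zero) ?_ m hm hred
    rw [← SetupQ2.IsSetup.rho_coe hS g Coord.zero]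
    exact h0

/-- **Divisibility by `ξ - 1` at a middle coordinate.** -/
theorem div_mid (hq : q.Prime) (hA : A.LiesOverPrime q) (hS : Plan.IsSetup A F O ρ) {g : O}
    (hg : K0Plan.Fixed A (g : Om)) (ξ : Plan.MidIdx q) (h0 : ρ g (Coord.mid ξ) = 0) :
    HahnSeries.C (((ξ.1 : Kbar) - 1)⁻¹) * F.emb (Coord.mid ξ) (SetupQ2.IsSetup.toField hS g)
      ∈ Ocal A := by
  refine K0ScaleFrame.div_mid_mem_Ocal A hq hA F (SetupQ2.IsSetup.toField hS g)
    (gal_smul_eq_of_fixed hg) ξ (SetupQ2.IsSetup.emb_mem hS g (Coord.mid ξ)) ?_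
  rw [← SetupQ2.IsSetup.rho_coe hS g (Coord.mid ξ)]
  exact h0


/-! ## `q ∈ B'` and `ρ q = 0` -/

section NatCast

variable (N' : ℕ) [NeZero N']

omit [NeZero M] [NeZero q] [NeZero N'] in
/-- `q ∈ B'`. -/
theorem natCast_mem_Bp (A : ValuationSubring Kbar) (M : ℕ) (O : Subring Om)
    (E : Divisor Kbar (FN (N' * q))) (n : ℕ) : ((n : ℕ) : O) ∈ K0Plan.Bp A N' M q O E := by
  refine ⟨?_, 0, ?_⟩
  · intro τ _
    show coeffMap (τ : Kbar →+* Kbar) ((n : ℕ) : Om) = ((n : ℕ) : Om)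
    rw [map_natCast]
  · show ((n : ℕ) : Om) ∈ pullRR (N' * q) (M * q * q) (0 + 0 • E)
    have e : ((n : ℕ) : Om) = HahnSeries.C (n : Kbar) * 1 := by
      rw [mul_one, map_natCast]
    rw [e]
    refine Main.C_mul_mem_pullRR _ (Main.one_mem_pullRR fun P => ?_)
    rw [zero_smul, add_zero]
    exact le_rfl

omit [NeZero M] [NeZero q] in
/-- `ρ q = 0` at every coordinate. -/
theorem rho_natCast (hq : q.Prime) (hA : A.LiesOverPrime q) (i : Coord q) :
    ρ ((q : ℕ) : O) i = 0 := by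
  have : Fact q.Prime := ⟨hq⟩
  have : CharP (kk A) q := charP_residueField_of_liesOverPrime A q hA
  rw [map_natCast]
  show ((q : ℕ) : Omk A) = 0
  rw [← map_natCast (HahnSeries.C : kk A →+* Omk A), CharP.cast_eq_zero, map_zero]

end NatCast

/-! ## The local equation `q` -/

section QDiv

omit [NeZero M] [NeZero q] in
/-- `(ξ - 1)^(q-1) / q ∈ A`. -/
theorem zeta_pow_div_mem (A : ValuationSubring Kbar) (hq : q.Prime) (ξ : Plan.MidIdx q) :
    ((ξ.1 : Kbar) - 1) ^ (q - 1) * (q : Kbar)⁻¹ ∈ A := by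
  have hξ' : IsPrimitiveRoot (ξ.1 : Kbar) q := IsPrimitiveRoot.coe_units_iff.mpr ξ.2
  have hq0 : (q : Kbar) ≠ 0 := Nat.cast_ne_zero.mpr hq.ne_zero
  have hval : A.valuation (((ξ.1 : Kbar) - 1) ^ (q - 1) * (q : Kbar)⁻¹) = 1 := by
    rw [map_mul, map_pow, InertiaFieldZeta.val_zeta_sub_one_pow A q hq _ hξ', map_inv₀]
    exact mul_inv_cancel₀ ((Valuation.ne_zero_iff _).mpr hq0)
  exact (A.valuation_le_one_iff _).mp hval.le

variable (N' : ℕ) [NeZero N']

/-- **Core of [QDIV].**  `c ∈ B'` vanishing on all middle coordinates; at each of `∞`, `0` one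
of `c`, `f` vanishes ⟹ `c^(q-1) f ∈ q · Λ'(D)`. -/
theorem qdiv_core (hq : q.Prime) (hA : A.LiesOverPrime q) (hS : Plan.IsSetup A F O ρ)
    (E D : Divisor Kbar (FN (N' * q))) {c f : O}
    (hc : c ∈ K0Plan.Bp A N' M q O E) (hf : f ∈ K0Plan.Lam A N' M q O E D)
    (hmid : ∀ ξ : Plan.MidIdx q, ρ c (Coord.mid ξ) = 0)
    (hinf : ρ c Coord.inf = 0 ∨ ρ f Coord.inf = 0)
    (hzero : ρ c Coord.zero = 0 ∨ ρ f Coord.zero = 0) :
    ∃ y ∈ K0Plan.Lam A N' M q O E D, c ^ (q - 1) * f = ((q : ℕ) : O) * y := by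
  obtain ⟨hcF, kc, hcR⟩ := hc
  obtain ⟨hfF, kf, hfR⟩ := hf
  have hq0 : (q : Kbar) ≠ 0 := Nat.cast_ne_zero.mpr hq.ne_zero
  have hq1 : q - 1 = (q - 2) + 1 := by have := hq.two_le; omega
  have hc_mem := fun i => SetupQ2.IsSetup.emb_mem hS c i
  have hf_mem := fun i => SetupQ2.IsSetup.emb_mem hS f i
  -- the candidate, as an element of the field
  let y₀ : FN (M * q * q) := algebraMap Kbar (FN (M * q * q)) (q : Kbar)⁻¹ *
    (SetupQ2.IsSetup.toField hS c ^ (q - 1) * SetupQ2.IsSetup.toField hS f)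
  have hy₀ : ((y₀ : FN (M * q * q)) : Om) =
      HahnSeries.C ((q : Kbar)⁻¹) * ((c : Om) ^ (q - 1) * (f : Om)) := by
    show ((algebraMap Kbar (FN (M * q * q)) (q : Kbar)⁻¹ : FN (M * q * q)) : Om) *
      ((c : Om) ^ (q - 1) * (f : Om)) = _
    rw [SetupQ2.coe_algebraMap_FN]
  have hemb : ∀ i, F.emb i y₀ = HahnSeries.C ((q : Kbar)⁻¹) *
      (F.emb i (SetupQ2.IsSetup.toField hS c) ^ (q - 1) *
        F.emb i (SetupQ2.IsSetup.toField hS f)) := by
    intro i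
    show F.emb i (algebraMap Kbar (FN (M * q * q)) (q : Kbar)⁻¹ *
      (SetupQ2.IsSetup.toField hS c ^ (q - 1) * SetupQ2.IsSetup.toField hS f)) = _
    rw [map_mul, map_mul, map_pow, SetupQ2.emb_algebraMap]
  -- generic divisibility pattern at a one-component coordinate
  have key : ∀ i : Coord q,
      (HahnSeries.C ((q : Kbar)⁻¹) * F.emb i (SetupQ2.IsSetup.toField hS c) ∈ Ocal A ∨
        HahnSeries.C ((q : Kbar)⁻¹) * F.emb i (SetupQ2.IsSetup.toField hS f) ∈ Ocal A) →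
      HahnSeries.C ((q : Kbar)⁻¹) * (F.emb i (SetupQ2.IsSetup.toField hS c) ^ (q - 1) *
        F.emb i (SetupQ2.IsSetup.toField hS f)) ∈ Ocal A := by
    intro i hi
    rcases hi with h1 | h1
    · have e : HahnSeries.C ((q : Kbar)⁻¹) * (F.emb i (SetupQ2.IsSetup.toField hS c) ^ (q - 1) *
          F.emb i (SetupQ2.IsSetup.toField hS f)) =
          (HahnSeries.C ((q : Kbar)⁻¹) * F.emb i (SetupQ2.IsSetup.toField hS c)) *
            (F.emb i (SetupQ2.IsSetup.toField hS c) ^ (q - 2) *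
              F.emb i (SetupQ2.IsSetup.toField hS f)) := by
        rw [hq1, pow_succ]
        ring
      rw [e]
      exact (Ocal A).mul_mem h1 ((Ocal A).mul_mem ((Ocal A).pow_mem (hc_mem i) _) (hf_mem i))
    · have e : HahnSeries.C ((q : Kbar)⁻¹) * (F.emb i (SetupQ2.IsSetup.toField hS c) ^ (q - 1) *
          F.emb i (SetupQ2.IsSetup.toField hS f)) =
          F.emb i (SetupQ2.IsSetup.toField hS c) ^ (q - 1) *
            (HahnSeries.C ((q : Kbar)⁻¹) * F.emb i (SetupQ2.IsSetup.toField hS f)) := by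
        ring
      rw [e]
      exact (Ocal A).mul_mem ((Ocal A).pow_mem (hc_mem i) _) h1
  have hyO : ((y₀ : FN (M * q * q)) : Om) ∈ O := by
    rw [hS.mem_iff]
    intro i
    rw [hemb i]
    cases i with
    | inf =>
      refine key Coord.inf ?_
      rcases hinf with h0 | h0
      · exact Or.inl (div_q_inf hq hA hS hcF h0)
      · exact Or.inr (div_q_inf hq hA hS hfF h0)
    | zero =>
      refine key Coord.zero ?_
      rcases hzero with h0 | h0
      · exact Or.inl (div_q_zero hq hA hS hcF h0)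
      · exact Or.inr (div_q_zero hq hA hS hfF h0)
    | mid ξ =>
      have h1 := div_mid hq hA hS hcF ξ (hmid ξ)
      have hA' := zeta_pow_div_mem A hq ξ
      have hξ' : IsPrimitiveRoot (ξ.1 : Kbar) q := IsPrimitiveRoot.coe_units_iff.mpr ξ.2
      have hπ0 : (ξ.1 : Kbar) - 1 ≠ 0 := InertiaFieldZeta.zeta_sub_one_ne_zero q hq _ hξ'
      have e0 : (HahnSeries.C (((ξ.1 : Kbar) - 1) ^ (q - 1) * (q : Kbar)⁻¹) : Om) *
          HahnSeries.C (((ξ.1 : Kbar) - 1)⁻¹) ^ (q - 1) = HahnSeries.C ((q : Kbar)⁻¹) := by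
        rw [← map_pow, ← map_mul]
        congr 1
        rw [inv_pow, mul_comm, ← mul_assoc, inv_mul_cancel₀ (pow_ne_zero _ hπ0), one_mul]
      have e : HahnSeries.C ((q : Kbar)⁻¹) *
          (F.emb (Coord.mid ξ) (SetupQ2.IsSetup.toField hS c) ^ (q - 1) *
            F.emb (Coord.mid ξ) (SetupQ2.IsSetup.toField hS f)) =
          HahnSeries.C (((ξ.1 : Kbar) - 1) ^ (q - 1) * (q : Kbar)⁻¹) *
            ((HahnSeries.C (((ξ.1 : Kbar) - 1)⁻¹) *
              F.emb (Coord.mid ξ) (SetupQ2.IsSetup.toField hS c)) ^ (q - 1) *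
              F.emb (Coord.mid ξ) (SetupQ2.IsSetup.toField hS f)) := by
        rw [← e0, mul_pow]
        ring
      rw [e]
      exact (Ocal A).mul_mem (C_mem_Ocal A hA')
        ((Ocal A).mul_mem ((Ocal A).pow_mem h1 _) (hf_mem _))
  refine ⟨⟨_, hyO⟩, ⟨?_, (q - 1) * kc + kf, ?_⟩, ?_⟩
  · -- `K₀`-rational
    intro τ hτ
    show coeffMap (τ : Kbar →+* Kbar) ((y₀ : FN (M * q * q)) : Om) = ((y₀ : FN (M * q * q)) : Om)
    rw [hy₀, map_mul, map_mul, map_pow, hcF τ hτ, hfF τ hτ, K0ScaleFrame.coeffMap_C,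
      map_inv₀, map_natCast]
  · -- the pole bound
    show ((y₀ : FN (M * q * q)) : Om) ∈ pullRR (N' * q) (M * q * q) (D + ((q - 1) * kc + kf) • E)
    rw [hy₀]
    refine Main.C_mul_mem_pullRR _ ?_
    have h1 : (c : Om) ^ (q - 1) ∈ pullRR (N' * q) (M * q * q) (((q - 1) * kc) • E) := by
      refine Main.pow_mem_pullRR (q - 1) (fun P => ?_) hcR
      rw [Finsupp.add_apply, Finsupp.smul_apply, Finsupp.smul_apply, Finsupp.zero_apply,
        zero_add, nsmul_eq_mul, nsmul_eq_mul]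
      push_cast
      ring
    refine Main.pullRR_mono (fun P => ?_) (GalPull.mul_mem_pullRR_add h1 hfR)
    simp only [Finsupp.add_apply, Finsupp.smul_apply, nsmul_eq_mul]
    push_cast
    apply le_of_eq
    ring
  · -- the equation
    apply Subtype.ext
    show (c : Om) ^ (q - 1) * (f : Om) = ((q : ℕ) : Om) * ((y₀ : FN (M * q * q)) : Om)
    rw [hy₀, ← map_natCast (HahnSeries.C : Kbar →+* Om), ← mul_assoc, ← map_mul,
      mul_inv_cancel₀ hq0, map_one, one_mul]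

/-- **[QDIV] at `∞`** (`hker₁`): `c ∈ B'` with `ρ_mid c = 0 = ρ_0 c`, `f ∈ Λ'(D)` with
`ρ_∞ f = 0` ⟹ `c^(q-1) f = q y` with `y ∈ Λ'(D)`. -/
theorem qdiv_inf (hq : q.Prime) (hA : A.LiesOverPrime q) (hS : Plan.IsSetup A F O ρ)
    (E D : Divisor Kbar (FN (N' * q))) (ξ₀ : Plan.MidIdx q)
    (hMid : K0Plan.MidEqStmt A q O ρ) {c f : O}
    (hc : c ∈ K0Plan.Bp A N' M q O E) (hf : f ∈ K0Plan.Lam A N' M q O E D)
    (hc1 : ρ c (Coord.mid ξ₀) = 0) (hc2 : ρ c Coord.zero = 0) (hf0 : ρ f Coord.inf = 0) :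
    ∃ y ∈ K0Plan.Lam A N' M q O E D, c ^ (q - 1) * f = ((q : ℕ) : O) * y :=
  qdiv_core N' hq hA hS E D hc hf (fun ξ => (hMid c hc.1 ξ ξ₀).trans hc1) (Or.inr hf0)
    (Or.inl hc2)

/-- **[QDIV] at `0`** (`hker₃`): `c ∈ B'` with `ρ_∞ c = 0 = ρ_mid c`, `f ∈ Λ'(D)` with
`ρ_0 f = 0` ⟹ `c^(q-1) f = q y` with `y ∈ Λ'(D)`. -/
theorem qdiv_zero (hq : q.Prime) (hA : A.LiesOverPrime q) (hS : Plan.IsSetup A F O ρ)
    (E D : Divisor Kbar (FN (N' * q))) (ξ₀ : Plan.MidIdx q)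
    (hMid : K0Plan.MidEqStmt A q O ρ) {c f : O}
    (hc : c ∈ K0Plan.Bp A N' M q O E) (hf : f ∈ K0Plan.Lam A N' M q O E D)
    (hc1 : ρ c (Coord.mid ξ₀) = 0) (hc0 : ρ c Coord.inf = 0) (hf0 : ρ f Coord.zero = 0) :
    ∃ y ∈ K0Plan.Lam A N' M q O E D, c ^ (q - 1) * f = ((q : ℕ) : O) * y :=
  qdiv_core N' hq hA hS E D hc hf (fun ξ => (hMid c hc.1 ξ ξ₀).trans hc1) (Or.inl hc0)
    (Or.inr hf0)

end QDiv

end Fermat.Agent.S36.QDivK0

end
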