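/-
P8 / S36 — block [K0-TRACE] (owner: helper33): the provider of `TwistK0.TraceStmt`.

For `b ∈ B'` (the `K₀`-rational elements of `O` regular off the cusps) with three-coordinate
reduction `ρ₃(b) = (t₁, t₂, t₃) ∈ A₃`:

* `α^* Tr_α b ∈ B'` has reduction `(t₁ - t₂, t₁ - t₂, 0)`;
* `β^* Tr_β b ∈ B'` has reduction `(0, t₃ - t₂, t₃ - t₂)`.

Proof: the `q` conjugates of `b` over `α(F_{Mq})` are the expansions `ε_∞` and `ε_mid ξ`
(`ConnInst.trA_red`), all middle reductions of a `K₀`-rational element coincide ([MID-EQ]), and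
`q - 1 = -1` in characteristic `q`; the second level-`q` coordinate of the trace reduces to
`q · (…) = 0`; finally `α^*(x₁, x₂) = (x₁, x₁, x₂(T^q))` (`PullRed.alpha_mem`).  The trace of a
`K₀`-rational element is `K₀`-rational (the degeneracy maps are defined over `ℚ`), and a trace
of an element integral over `Q̄[j]` is integral over `Q̄[j]`, hence lies in some `L(m E)`.
-/
import Mathlib
import Fermat.Agent.S36.K0Plan
import Fermat.Agent.S36.ConnInst
import Fermat.Agent.S36.PullRed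

set_option autoImplicit false

noncomputable section

namespace Fermat.Agent.S36.TraceK0

open ModularCurve AlgebraicCurve
open Fermat.Agent.S24 Fermat.Agent.S18 Fermat.Agent.S18.Content Fermat.Agent.S18.Plan
open Fermat.Agent.Lib.KroneckerCong Fermat.Agent.S37.Conj Fermat.Agent.S34

set_option synthInstance.maxHeartbeats 400000
set_option maxHeartbeats 1600000
set_option linter.unusedSectionVars false

/-! ## The trace commutes with the coefficientwise Galois action -/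

section Gal

variable {N N₂ : ℕ} [NeZero N] [NeZero N₂]

/-- The trace along a map commuting with the coefficientwise action of `τ` commutes with it. -/
theorem coeffMap_trAlong (γ : FN N →ₐ[Kbar] FN N₂) (τ : Kbar ≃ₐ[ℚ] Kbar)
    (hγ : ∀ x : FN N, γ (arithmeticRingAut (modularFunctionFieldFull N) τ x) =
      arithmeticRingAut (modularFunctionFieldFull N₂) τ (γ x))
    (y : FN N₂) :
    coeffMap (τ : Kbar →+* Kbar) ((ConnInst.trAlong γ y : FN N) : Om) =
      ((ConnInst.trAlong γ (arithmeticRingAut (modularFunctionFieldFull N₂) τ y) : FN N) : Om) := by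
  have h1 := @Algebra.trace_eq_of_equiv_equiv (FN N) (FN N₂) (FN N) (FN N₂) _ _ _ _
    (algebraAlong γ) (algebraAlong γ) (arithmeticRingAut (modularFunctionFieldFull N) τ)
    (arithmeticRingAut (modularFunctionFieldFull N₂) τ) (RingHom.ext fun x => hγ x) y
  have h2 : arithmeticRingAut (modularFunctionFieldFull N) τ (ConnInst.trAlong γ y) =
      ConnInst.trAlong γ (arithmeticRingAut (modularFunctionFieldFull N₂) τ y) := by
    show arithmeticRingAut (modularFunctionFieldFull N) τ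
      (@Algebra.trace (FN N) (FN N₂) _ _ (algebraAlong γ) y) = _
    rw [h1, RingEquiv.apply_symm_apply]
    rfl
  rw [← h2]
  rfl

/-- The trace of a `K₀`-rational element along a map defined over `ℚ` is `K₀`-rational. -/
theorem fixed_trAlong (A : ValuationSubring Kbar) (γ : FN N →ₐ[Kbar] FN N₂)
    (hγ : ∀ (τ : Kbar ≃ₐ[ℚ] Kbar) (x : FN N),
      γ (arithmeticRingAut (modularFunctionFieldFull N) τ x) =
        arithmeticRingAut (modularFunctionFieldFull N₂) τ (γ x))
    (y : FN N₂) (hy : K0Plan.Fixed A (y : Om)) :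
    K0Plan.Fixed A ((ConnInst.trAlong γ y : FN N) : Om) := by
  intro τ hτ
  rw [coeffMap_trAlong γ τ (hγ τ) y]
  have e : arithmeticRingAut (modularFunctionFieldFull N₂) τ y = y := Subtype.ext (hy τ hτ)
  rw [e]

variable (N) in
theorem alpha_gal (q : ℕ) [NeZero q] (τ : Kbar ≃ₐ[ℚ] Kbar) (x : FN N) :
    heckeAlphaBar Kbar N q (arithmeticRingAut (modularFunctionFieldFull N) τ x) =
      arithmeticRingAut (modularFunctionFieldFull (N * q)) τ (heckeAlphaBar Kbar N q x) := by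
  apply Subtype.ext
  show ((heckeAlphaBar Kbar N q (arithmeticRingAut (modularFunctionFieldFull N) τ x) :
      FN (N * q)) : Om) =
    coeffMap (τ : Kbar →+* Kbar) ((heckeAlphaBar Kbar N q x : FN (N * q)) : Om)
  rw [coe_heckeAlphaBar, coe_heckeAlphaBar]
  rfl

variable (N) in
theorem beta_gal (q : ℕ) [NeZero q] (τ : Kbar ≃ₐ[ℚ] Kbar) (x : FN N) :
    heckeBetaBar Kbar N q (arithmeticRingAut (modularFunctionFieldFull N) τ x) =
      arithmeticRingAut (modularFunctionFieldFull (N * q)) τ (heckeBetaBar Kbar N q x) := by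
  apply Subtype.ext
  show ((heckeBetaBar Kbar N q (arithmeticRingAut (modularFunctionFieldFull N) τ x) :
      FN (N * q)) : Om) =
    coeffMap (τ : Kbar →+* Kbar) ((heckeBetaBar Kbar N q x : FN (N * q)) : Om)
  rw [coe_heckeBetaBar, coe_heckeBetaBar, ModularCurve.coeffMap_qExpand]
  rfl

end Gal

/-! ## Integral elements of the top field lie in some `L(m E)` -/

section Pull

/-- An element of `F_{N₂}` integral over `Q̄[j]` lies in `L(0 + m E)` for some `m`
(`E = (j)_∞ + (j_q)_∞ + (j_{q²})_∞` on `F_N`). -/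
theorem exists_mem_pullRR_of_isIntegral_top {N N₂ q : ℕ} [NeZero N] [NeZero N₂] [NeZero q]
    (hq : q ∣ N) (hqq : q * q ∣ N) (E : Divisor Kbar (FN N)) (hE : Plan.IsE3 N q hq hqq E)
    {x : Om} (hx : x ∈ modularFunctionFieldBar N₂) (hint : IsIntegral (polyJ Kbar) x) :
    ∃ m : ℕ, x ∈ pullRR N N₂ ((0 : Divisor Kbar (FN N)) + m • E) := by
  have hj : jqModC Kbar ∈ modularFunctionFieldBar N₂ := by
    have := (jBar N₂).2
    rwa [Fermat.Agent.S37.Conj.coe_jBar] at this
  obtain ⟨m, hm⟩ := TauAdapt.exists_mem_WJ_of_isIntegral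
    (L := modularFunctionFieldBar N₂) hj hx hint
  obtain ⟨Cj, hCj⟩ := PlanTop.exists_isPoleJ N
  refine ⟨m, ?_⟩
  have h1 := CuspPole.mem_pullRR_of_mem_WJ (N := N) (N₂ := N₂) Cj hCj m
    (modularFunctionFieldBar N₂) le_rfl hm
  rw [zero_add]
  refine Fermat.Agent.S18.PullPlan.pullRR_mono ?_ h1
  intro P
  rw [Finsupp.smul_apply, Finsupp.smul_apply, hCj P, hE P]
  have h0 : (0 : ℤ) ≤ max 0 (-(P.ord (jBarLevel N q hq))) := le_max_left _ _
  have h0' : (0 : ℤ) ≤ max 0 (-(P.ord (jBarLevel N (q * q) hqq))) := le_max_left _ _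
  exact smul_le_smul_of_nonneg_left (by linarith) (Nat.zero_le m)

end Pull

/-! ## Characteristic `q` -/

section CharQ

variable (A : ValuationSubring Kbar)

/-- `(q - 1) • x = -x` in `k((T))`, `k` of characteristic `q`. -/
theorem pred_nsmul (q : ℕ) (hq : q.Prime) [CharP (kk A) q] (x : Omk A) :
    (q - 1) • x = -x := by
  have h1 : ((q : ℕ) : Omk A) = 0 := by
    rw [← map_natCast (HahnSeries.C : kk A →+* Omk A) q, CharP.cast_eq_zero, map_zero]
  have h2 : ((q - 1 : ℕ) : Omk A) = -1 := by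
    rw [Nat.cast_sub hq.one_le, h1, Nat.cast_one, zero_sub]
  rw [nsmul_eq_mul, h2, neg_one_mul]

end CharQ

/-! ## The trace statement -/

section Main

variable (A : ValuationSubring Kbar) {N' M q : ℕ} [NeZero N'] [NeZero M] [NeZero q]
  {O : Subring Om} {ρ : O →+* Plan.Rq A q}

/-- **[K0-TRACE]** (`TwistK0.TraceStmt`): for `t = (t₁, t₂, t₃) ∈ A₃`, the triples
`(t₁ - t₂, t₁ - t₂, 0)` (`= ρ₃(α^* Tr_α b)`) and `(0, t₃ - t₂, t₃ - t₂)` (`= ρ₃(β^* Tr_β b)`)
lie in `A₃`. -/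
theorem traceStmt (hqp : q.Prime) (hA : A.LiesOverPrime q) {h : Nat.Coprime M q}
    (F : Plan.Frame M q h) (hS : Plan.IsSetup A F O ρ) (hq' : q ∣ N')
    (hdiv : N' * q ∣ M * q * q) (E : Divisor Kbar (FN (N' * q)))
    (hE : Plan.IsE3 (N' * q) q (Dvd.intro_left N' rfl) (Nat.mul_dvd_mul_right hq' q) E)
    (ξ₀ : Plan.MidIdx q) (hMid : K0Plan.MidEqStmt A q O ρ) :
    ∀ t ∈ K0Plan.A3 A N' M q O ρ E ξ₀,
      (t.1 - t.2.1, t.1 - t.2.1, (0 : ↥(K0Plan.BKM A M))) ∈ K0Plan.A3 A N' M q O ρ E ξ₀ ∧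
      ((0 : ↥(K0Plan.BKM A M)), t.2.2 - t.2.1, t.2.2 - t.2.1) ∈
        K0Plan.A3 A N' M q O ρ E ξ₀ := by
  classical
  have : Fact q.Prime := ⟨hqp⟩
  have : CharP (kk A) q := charP_residueField_of_liesOverPrime A q hA
  obtain ⟨ζ, hζ⟩ := Fermat.Agent.S37.KronMain.exists_primitiveRoot_unit q
  rintro t ⟨b, ⟨hbfix, c, hbc⟩, hbt⟩
  have ht1 : ρ b .inf = (t.1 : Omk A) := congrArg Prod.fst hbt
  have ht2 : ρ b (.mid ξ₀) = (t.2.1 : Omk A) := congrArg (fun x => x.2.1) hbt
  have ht3 : ρ b .zero = (t.2.2 : Omk A) := congrArg (fun x => x.2.2) hbt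
  -- the element `y` of the top field
  set y : FN (M * q * q) := ⟨(b : Om), hS.mem_field b⟩ with hy
  have hyO : ∀ i, F.emb i y ∈ Ocal A := (hS.mem_iff y).mp b.2
  have hρ : ∀ i, ρ b i = red A ⟨F.emb i y, hyO i⟩ := fun i => hS.ρ_apply y b.2 i (hyO i)
  have hyfix : K0Plan.Fixed A (y : Om) := hbfix
  have hyint : IsIntegral (polyJ Kbar) (y : Om) := by
    rw [zero_add] at hbc
    exact ConnInst.isIntegral_of_mem_pullRR (N' * q) (M * q * q) (Dvd.intro_left N' rfl)
      (Nat.mul_dvd_mul_right hq' q) hdiv E hE c hbc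
  -- the middle sum
  have hmidsum : ∑ b' : Fin (q - 1),
      red A ⟨F.emb (.mid (ConnInst.midOf hqp ζ hζ b')) y, hyO _⟩ = -(t.2.1 : Omk A) := by
    have e : ∀ b' : Fin (q - 1),
        red A ⟨F.emb (.mid (ConnInst.midOf hqp ζ hζ b')) y, hyO _⟩ = (t.2.1 : Omk A) := by
      intro b'
      rw [← hρ, hMid b hbfix _ ξ₀, ht2]
    rw [Finset.sum_congr rfl (fun b' _ => e b'), Finset.sum_const, Finset.card_univ,
      Fintype.card_fin, pred_nsmul A q hqp]
  refine ⟨?_, ?_⟩
  · -- the trace along `α`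
    obtain ⟨h1, h2, hr1, hr2⟩ := ConnInst.trA_red A F hqp hA ζ hζ y hyO
    set T : FN (M * q) := ConnInst.trAlong (heckeAlphaBar Kbar (M * q) q) y with hT
    obtain ⟨hO2, hRed⟩ := Val.Red_of_mem A M q (Sigma.sigma M q h) T.2 h1 h2
    obtain ⟨hO, hρT⟩ := PullRed.alpha_mem hS ⟨(T : Om), hO2⟩
    have hsum : red A ⟨(T : Om), h1⟩ = (t.1 : Omk A) - (t.2.1 : Omk A) := by
      rw [hr1, Fintype.sum_option]
      have e0 : red A ⟨F.emb (ConnInst.cA hqp ζ hζ none) y, hyO _⟩ = (t.1 : Omk A) := by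
        rw [← ht1, hρ]
        rfl
      rw [e0]
      have e1 : ∑ b' : Fin (q - 1),
          red A ⟨F.emb (ConnInst.cA hqp ζ hζ (some b')) y, hyO _⟩ = -(t.2.1 : Omk A) := hmidsum
      rw [e1, sub_eq_add_neg]
    have hTtop : (T : Om) ∈ modularFunctionFieldBar (M * q * q) := by
      have := (heckeAlphaBar Kbar (M * q) q T).2
      rwa [coe_heckeAlphaBar] at this
    have hTfix : K0Plan.Fixed A (T : Om) :=
      fixed_trAlong A (heckeAlphaBar Kbar (M * q) q) (fun τ x => alpha_gal (M * q) q τ x) y hyfix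
    have hTint : IsIntegral (polyJ Kbar) (T : Om) := ConnInst.isIntegral_trA F hqp ζ hζ y hyint
    obtain ⟨m, hm⟩ := exists_mem_pullRR_of_isIntegral_top (N := N' * q) (N₂ := M * q * q)
      (Dvd.intro_left N' rfl) (Nat.mul_dvd_mul_right hq' q) E hE hTtop hTint
    refine ⟨⟨(T : Om), hO⟩, ⟨hTfix, m, hm⟩, ?_⟩
    have hρT' : ρ ⟨(T : Om), hO⟩ = PullRed.pullA A q (red A ⟨(T : Om), h1⟩, red A ⟨_, h2⟩) := by
      rw [hρT, hRed]
    refine Prod.ext ?_ (Prod.ext ?_ ?_)
    · show ρ ⟨(T : Om), hO⟩ .inf = ((t.1 - t.2.1 : ↥(K0Plan.BKM A M)) : Omk A)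
      rw [hρT', PullRed.pullA_inf, hsum]
      rfl
    · show ρ ⟨(T : Om), hO⟩ (.mid ξ₀) = ((t.1 - t.2.1 : ↥(K0Plan.BKM A M)) : Omk A)
      rw [hρT', PullRed.pullA_mid, hsum]
      rfl
    · show ρ ⟨(T : Om), hO⟩ .zero = ((0 : ↥(K0Plan.BKM A M)) : Omk A)
      rw [hρT', PullRed.pullA_zero, hr2, map_zero]
      rfl
  · -- the trace along `β`
    obtain ⟨h1, h2, hr1, hr2⟩ := ConnInst.trB_red A F hqp hA ζ hζ y hyO
    set T : FN (M * q) := ConnInst.trAlong (heckeBetaBar Kbar (M * q) q) y with hT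
    obtain ⟨hO2, hRed⟩ := Val.Red_of_mem A M q (Sigma.sigma M q h) T.2 h1 h2
    obtain ⟨hO, hρT⟩ := PullRed.beta_mem hqp hA hS ⟨(T : Om), hO2⟩
    have hsum : red A ⟨_, h2⟩ = (t.2.2 : Omk A) - (t.2.1 : Omk A) := by
      rw [hr2, Fintype.sum_option]
      have e0 : red A ⟨F.emb (ConnInst.cB hqp ζ hζ none) y, hyO _⟩ = (t.2.2 : Omk A) := by
        rw [← ht3, hρ]
        rfl
      rw [e0]
      have e1 : ∑ b' : Fin (q - 1),
          red A ⟨F.emb (ConnInst.cB hqp ζ hζ (some b')) y, hyO _⟩ = -(t.2.1 : Omk A) := hmidsum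
      rw [e1, sub_eq_add_neg]
    have hcoe : ((heckeBetaBar Kbar (M * q) q T : FN (M * q * q)) : Om) =
        qExpand Kbar q (T : Om) := coe_heckeBetaBar (M * q) q T
    have hTtop : qExpand Kbar q (T : Om) ∈ modularFunctionFieldBar (M * q * q) := by
      have := (heckeBetaBar Kbar (M * q) q T).2
      rwa [hcoe] at this
    have hTfix0 : K0Plan.Fixed A (T : Om) :=
      fixed_trAlong A (heckeBetaBar Kbar (M * q) q) (fun τ x => beta_gal (M * q) q τ x) y hyfix
    have hTfix : K0Plan.Fixed A (qExpand Kbar q (T : Om)) := by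
      intro τ hτ
      rw [ModularCurve.coeffMap_qExpand, hTfix0 τ hτ]
    have hTint : IsIntegral (polyJ Kbar) (qExpand Kbar q (T : Om)) := by
      have h0 : IsIntegral (polyJ Kbar) (T : Om) := ConnInst.isIntegral_trB F hqp ζ hζ y hyint
      have h3 := BKappa.isIntegral_adjoin_map (heckeBetaBar Kbar (M * q) q) (jBar (M * q)) T
        ((ConnInst.isIntegral_polyJ_iff T).mp h0)
      have h4 : IsIntegral (Algebra.adjoin Kbar {jBar (M * q * q)})
          (heckeBetaBar Kbar (M * q) q (jBar (M * q))) := by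
        refine (ConnInst.isIntegral_polyJ_iff _).mp ?_
        have e : ((heckeBetaBar Kbar (M * q) q (jBar (M * q)) : FN (M * q * q)) : Om) =
            qExpand Kbar q (jqModC Kbar) := by
          rw [coe_heckeBetaBar, Fermat.Agent.S37.Conj.coe_jBar]
        rw [e]
        exact PoleBound.isIntegral_jq q
      have h5 := (ConnInst.isIntegral_polyJ_iff _).mpr (ConnInst.isIntegral_adjoin_trans h3 h4)
      rwa [hcoe] at h5
    obtain ⟨m, hm⟩ := exists_mem_pullRR_of_isIntegral_top (N := N' * q) (N₂ := M * q * q)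
      (Dvd.intro_left N' rfl) (Nat.mul_dvd_mul_right hq' q) E hE hTtop hTint
    refine ⟨⟨qExpand Kbar q (T : Om), hO⟩, ⟨hTfix, m, hm⟩, ?_⟩
    have hρT' : ρ ⟨qExpand Kbar q (T : Om), hO⟩ =
        PullRed.pullB A q (red A ⟨(T : Om), h1⟩, red A ⟨_, h2⟩) := by
      rw [hρT, hRed]
    refine Prod.ext ?_ (Prod.ext ?_ ?_)
    · show ρ ⟨qExpand Kbar q (T : Om), hO⟩ .inf = ((0 : ↥(K0Plan.BKM A M)) : Omk A)
      rw [hρT', PullRed.pullB_inf, hr1, map_zero]
      rfl
    · show ρ ⟨qExpand Kbar q (T : Om), hO⟩ (.mid ξ₀) =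
        ((t.2.2 - t.2.1 : ↥(K0Plan.BKM A M)) : Omk A)
      rw [hρT', PullRed.pullB_mid, hsum]
      rfl
    · show ρ ⟨qExpand Kbar q (T : Om), hO⟩ .zero =
        ((t.2.2 - t.2.1 : ↥(K0Plan.BKM A M)) : Omk A)
      rw [hρT', PullRed.pullB_zero, hsum]
      rfl

end Main

end Fermat.Agent.S36.TraceK0

end
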