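import Mathlib
import Fermat.Agent.S36.InvKAbs
import Fermat.Agent.S36.FgLam
import Fermat.Agent.S36.QDivK0
import Fermat.Agent.S36.ColonK0
import Fermat.Agent.S36.TraceK0
import Fermat.Agent.S36.SurjK0
import Fermat.Agent.S36.K0Range
import Fermat.Agent.S36.K0Const
import Fermat.Agent.S36.CondK0Inst
import Fermat.Agent.S36.BpInt
import Fermat.Agent.S36.BKFrac
import Fermat.Agent.S18.WJPlaces

/-!
# S36 (P8) — [REG-JCT], the instance: `K0Plan.InvKStmt` (helper20)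

The instance of `S36/InvKAbs.exists_mul_not_mem_point` in the vocabulary of `S36/K0Plan`:
`B := B'` (`FgLam.BpOm`), `M := Λ'(D)`, `M' := Λ'(-D)` (`FgLam.LamOm`), `D := B_κ`,
`L := F_{M,k}`, `F := Q̄((T))`, coordinates `(∞, mid ξ₀, 0)`.

Landed inputs: `FgLam.fg_LamOm` (helper87), `SurjK0.surjStmt` (helper89), `K0Range.rangeStmt`
(helper78), `InclInst.inclStmt` (helper23), `K0Const.constStmt`, `QDivK0.qdiv_inf/zero` (helper2),
`TraceK0.traceStmt` (helper33), `ColonK0.colon` (helper7), `CondK0.midEqStmt`,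
`CondK0Inst.oneCompK0` (helper70, helper17), `BpInt.mem_Bp_iff_of_setup` (helper28),
`BKFrac` (helper36), `MaxPoint` (helper87).

Named hypotheses (each VERBATIM the announced conclusion of its provider):
* `hint`        : `O` is integral over `O_M` (helper5);
* `LemmaRFrame` : the conclusion of `LemmaR.lemmaR` (helper81);
* `ApproxStmt`  : the conclusion of `ApproxK0.exists_lam_ord_eq` (helper30), for `D` and `-D`.

Exports: `lemmaRK0_of_frame`, `invK_of`, `invKStmt_of`.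
-/

set_option autoImplicit false

noncomputable section

namespace Fermat.Agent.S36.InvKInst

open ModularCurve AlgebraicCurve Fermat.Agent.S24 Fermat.Agent.S18 Fermat.Agent.S18.Content
  Fermat.Agent.S18.Plan Fermat.Agent.S36.Plan Fermat.Agent.S36.K0Plan
open Fermat.Agent.S34

set_option synthInstance.maxHeartbeats 400000
set_option maxHeartbeats 1600000
set_option linter.unusedSectionVars false
set_option linter.style.haveILetI false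

variable {A : ValuationSubring Kbar} {N' M q : ℕ} [NeZero N'] [NeZero M] [NeZero q]
  {O : Subring Om} {ρ : O →+* Rq A q}

/-! ## The named hypotheses -/

/-- **Lemma R, frame form**: the conclusion of `LemmaR.lemmaR` (helper81), verbatim. -/
def LemmaRFrame (A : ValuationSubring Kbar) {h : Nat.Coprime M q} (F : Plan.Frame M q h) : Prop :=
  ∃ x r : FN (M * q * q),
    K0Red.Fixed A (x : Om) ∧ K0Red.Fixed A (r : Om) ∧
    (∀ i, F.emb i x ∈ Ocal A) ∧ (∀ i, F.emb i r ∈ Ocal A) ∧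
    (∀ w : Place Kbar (FN (M * q * q)), 0 ≤ w.ord (jBar (M * q * q)) → 0 ≤ w.ord x) ∧
    (∀ w : Place Kbar (FN (M * q * q)), 0 ≤ w.ord (jBar (M * q * q)) → 0 ≤ w.ord r) ∧
    (∀ (ξ : MidIdx q) (hx : F.emb (.mid ξ) x ∈ Ocal A), red A ⟨_, hx⟩ = 0) ∧
    (∃ u ∈ S34.Plan.BK A M, ∃ v ∈ S34.Plan.BK A M, u * v = 1 ∧
      ∀ (ξ : MidIdx q) (hr : F.emb (.mid ξ) r ∈ Ocal A), red A ⟨_, hr⟩ = u) ∧
    ∀ f : FN (M * q * q), K0Red.Fixed A (f : Om) → (∀ i, F.emb i f ∈ Ocal A) →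
      (∀ (ξ : MidIdx q) (hf : F.emb (.mid ξ) f ∈ Ocal A), red A ⟨_, hf⟩ = 0) →
      ∃ y : FN (M * q * q), r * f = x * y ∧ K0Red.Fixed A (y : Om) ∧ (∀ i, F.emb i y ∈ Ocal A) ∧
        ∀ w : Place Kbar (FN (M * q * q)), 0 ≤ w.ord (jBar (M * q * q)) → w.ord f ≤ w.ord y

variable (A N' M q O ρ) in
/-- **Lemma R, `K0Plan` form**: `x, r ∈ B'` with `ρ_mid x = 0`, `ρ_mid r` a unit of `B_κ`, and
`r · ker(ρ_mid | Λ'(D)) ⊆ x · Λ'(D)` for every divisor `D`. -/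
def LemmaRK0 (ξ₀ : MidIdx q) (E : Divisor Kbar (FN (N' * q))) : Prop :=
  ∃ x r : O, x ∈ Bp A N' M q O E ∧ r ∈ Bp A N' M q O E ∧ ρ x (Coord.mid ξ₀) = 0 ∧
    (∃ u ∈ BKM A M, ∃ v ∈ BKM A M, u * v = 1 ∧ ρ r (Coord.mid ξ₀) = u) ∧
    ∀ D : Divisor Kbar (FN (N' * q)), ∀ f ∈ Lam A N' M q O E D, ρ f (Coord.mid ξ₀) = 0 →
      ∃ y ∈ Lam A N' M q O E D, r * f = x * y

variable (A N' M q O) in
/-- **[APPROX]** (the conclusion of `ApproxK0.exists_lam_ord_eq`, = `happ` of `ColonK0.colon`):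
at every non-cuspidal place `P` of `F_{N'q}` some `f ∈ Λ'(D) ∩ F_{N'q}` has `ord_P f = -D P`. -/
def ApproxStmt (E D : Divisor Kbar (FN (N' * q))) : Prop :=
  ∀ P : Place Kbar (FN (N' * q)), E P = 0 →
    ∃ (f : FN (N' * q)) (hf : (f : Om) ∈ O), f ≠ 0 ∧
      (⟨(f : Om), hf⟩ : O) ∈ Lam A N' M q O E D ∧ P.ord f = -D P

/-! ## Lemma R: from the frame form to the `K0Plan` form -/

/-- Regular at the places where `j` is regular ⟹ integral over `Q̄[j]`. -/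
theorem isIntegral_of_finite_regular (N : ℕ) [NeZero N] (z : FN N)
    (hz : ∀ w : Place Kbar (FN N), 0 ≤ w.ord (jBar N) → 0 ≤ w.ord z) :
    IsIntegral (polyJ Kbar) (z : Om) := by
  haveI hfd := FibreCount.finiteDimensional N
  haveI hsep := Char0.isSeparable_jBar N
  refine WJPlaces.isIntegral_polyJ_of_forall_mem (ι := (modularFunctionFieldBar N).val)
    (x := jBar N) (Main.coe_jBar N) z (fun v hv => ?_)
  rcases eq_or_ne z 0 with rfl | hz0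
  · exact zero_mem _
  · rw [Fermat.Agent.Lib.FFPlaces.mem_iff_ord_nonneg v hz0]
    exact hz v ((Fermat.Agent.Lib.FFPlaces.mem_iff_ord_nonneg v (Main.jBar_ne_zero N)).mp hv)

theorem lemmaRK0_of_frame {h : Nat.Coprime M q} {F : Plan.Frame M q h}
    (hS : IsSetup A F O ρ) (hq' : q ∣ N') (hNdvd : N' * q ∣ M * q * q) (ξ₀ : MidIdx q)
    {E : Divisor Kbar (FN (N' * q))}
    (hE : IsE3 (N' * q) q (Dvd.intro_left N' rfl) (Nat.mul_dvd_mul_right hq' q) E)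
    (hMid : MidEqStmt A q O ρ) (hR : LemmaRFrame A F) : LemmaRK0 A N' M q O ρ ξ₀ E := by
  obtain ⟨x, r, hxfix, hrfix, hxO, hrO, hxreg, hrreg, hxmid, ⟨u, hu, v, hv, huv, hrmid⟩, hker⟩ :=
    hR
  have hxmem : (x : Om) ∈ O := (hS.mem_iff x).2 hxO
  have hrmem : (r : Om) ∈ O := (hS.mem_iff r).2 hrO
  have hxB : (⟨_, hxmem⟩ : O) ∈ Bp A N' M q O E :=
    (BpInt.mem_Bp_iff_of_setup hq' hS hNdvd hE _).2
      ⟨fun τ hτ => hxfix τ hτ, isIntegral_of_finite_regular _ x hxreg⟩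
  have hrB : (⟨_, hrmem⟩ : O) ∈ Bp A N' M q O E :=
    (BpInt.mem_Bp_iff_of_setup hq' hS hNdvd hE _).2
      ⟨fun τ hτ => hrfix τ hτ, isIntegral_of_finite_regular _ r hrreg⟩
  have hρx : ρ ⟨_, hxmem⟩ (Coord.mid ξ₀) = 0 := by
    rw [hS.ρ_apply x hxmem _ (hxO _)]
    exact hxmid ξ₀ _
  have hρr : ρ ⟨_, hrmem⟩ (Coord.mid ξ₀) = u := by
    rw [hS.ρ_apply r hrmem _ (hrO _)]
    exact hrmid ξ₀ _
  -- `r ≠ 0`
  have hu0 : u ≠ 0 := by
    rintro rfl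
    rw [zero_mul] at huv
    exact zero_ne_one huv
  have hr0 : r ≠ 0 := by
    rintro rfl
    apply hu0
    rw [← hρr]
    have e : (⟨((0 : FN (M * q * q)) : Om), hrmem⟩ : O) = 0 := Subtype.ext rfl
    rw [e, map_zero]
    rfl
  refine ⟨⟨_, hxmem⟩, ⟨_, hrmem⟩, hxB, hrB, hρx, ⟨u, hu, v, hv, huv, hρr⟩, ?_⟩
  intro D f hf hf0
  set f' : FN (M * q * q) := SetupQ2.IsSetup.toField hS f with hf'
  have hf'O : ∀ i, F.emb i f' ∈ Ocal A := SetupQ2.IsSetup.emb_mem hS f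
  have hf'mid : ∀ (ξ : MidIdx q) (hfξ : F.emb (.mid ξ) f' ∈ Ocal A), red A ⟨_, hfξ⟩ = 0 := by
    intro ξ hfξ
    have h1 := SetupQ2.IsSetup.rho_coe hS f (.mid ξ)
    rw [hMid f hf.1 ξ ξ₀, hf0] at h1
    exact h1.symm
  obtain ⟨y, hy, hyfix, hyO, -⟩ := hker f' (fun τ hτ => hf.1 τ hτ) hf'O hf'mid
  by_cases hx0 : x = 0
  · -- then `f = 0`
    rw [hx0, zero_mul] at hy
    have hf'0 : f' = 0 := (mul_eq_zero.mp hy).resolve_left hr0
    have hf0' : f = 0 := Subtype.ext (congrArg (fun t : FN (M * q * q) => (t : Om)) hf'0)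
    refine ⟨0, FgLam.zero_mem_Lam E D, ?_⟩
    rw [hf0', mul_zero, mul_zero]
  · -- `g := r / x` is regular at the finite places
    obtain ⟨y₀, hy₀, -, -, hy₀ord⟩ := hker x hxfix hxO hxmid
    have hy₀r : y₀ = r := by
      have h1 : x * y₀ = x * r := hy₀.symm.trans (mul_comm r x)
      exact mul_left_cancel₀ hx0 h1
    rw [hy₀r] at hy₀ord
    set g : FN (M * q * q) := r / x with hg
    have hg0 : g ≠ 0 := div_ne_zero hr0 hx0
    have hrg : r = g * x := by rw [hg, div_mul_cancel₀ _ hx0]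
    have hgreg : ∀ w : Place Kbar (FN (M * q * q)), 0 ≤ w.ord (jBar (M * q * q)) →
        0 ≤ w.ord g := by
      intro w hw
      have h1 := hy₀ord w hw
      have h2 : w.ord r = w.ord g + w.ord x := by
        conv_lhs => rw [hrg]
        exact w.ord_mul hg0 hx0
      omega
    have hgint : IsIntegral (polyJ Kbar) (g : Om) := isIntegral_of_finite_regular _ g hgreg
    obtain ⟨c₀, hc₀⟩ := BpInt.exists_mem_pullRR_of_isIntegral hE g.2 hgint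
    have hyg : y = f' * g := by
      have h1 : x * y = x * (f' * g) := by
        rw [← hy, hrg]; ring
      exact mul_left_cancel₀ hx0 h1
    have hymem : (y : Om) ∈ O := (hS.mem_iff y).2 hyO
    refine ⟨⟨_, hymem⟩, ⟨fun τ hτ => hyfix τ hτ, ?_⟩, ?_⟩
    · obtain ⟨c, hc⟩ := hf.2
      refine ⟨c + c₀, ?_⟩
      have h1 := NodeInst.mul_mem_pullRR_add hc hc₀
      have e : D + c • E + c₀ • E = D + (c + c₀) • E := by rw [add_smul]; abel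
      rw [e] at h1
      have e2 : ((y : FN (M * q * q)) : Om) = (f : Om) * (g : Om) := by
        rw [hyg]; rfl
      show ((y : FN (M * q * q)) : Om) ∈ _
      rw [e2]
      exact h1
    · apply Subtype.ext
      show (r : Om) * (f : Om) = (x : Om) * (y : Om)
      have h1 := congrArg (fun t : FN (M * q * q) => (t : Om)) hy
      exact h1

/-! ## `B'` and `Λ'(D)` inside `Q̄((T))`: the maps to `O` -/

section Maps

variable {E : Divisor Kbar (FN (N' * q))} (hE0 : ∀ P, 0 ≤ E P)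

/-- `B' → O`. -/
def toO : ↥(FgLam.BpOm A N' M q O E hE0) →+* O where
  toFun x := ⟨(x : Om), by
    obtain ⟨b, -, hb⟩ := FgLam.mem_BpOm.mp x.2
    rw [← hb]
    exact b.2⟩
  map_one' := rfl
  map_mul' _ _ := rfl
  map_zero' := rfl
  map_add' _ _ := rfl

theorem coe_toO (x : ↥(FgLam.BpOm A N' M q O E hE0)) : ((toO hE0 x : O) : Om) = (x : Om) := rfl

theorem toO_mem (x : ↥(FgLam.BpOm A N' M q O E hE0)) : toO hE0 x ∈ Bp A N' M q O E := by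
  obtain ⟨b, hb, hbx⟩ := FgLam.mem_BpOm.mp x.2
  have e : toO hE0 x = b := Subtype.ext hbx.symm
  rw [e]
  exact hb

/-- An element of `B'` as an element of `BpOm`. -/
def ofBp (b : O) (hb : b ∈ Bp A N' M q O E) : ↥(FgLam.BpOm A N' M q O E hE0) :=
  ⟨(b : Om), FgLam.mem_BpOm.mpr ⟨b, hb, rfl⟩⟩

theorem toO_ofBp (b : O) (hb : b ∈ Bp A N' M q O E) : toO hE0 (ofBp hE0 b hb) = b :=
  Subtype.ext rfl

variable (D : Divisor Kbar (FN (N' * q)))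

/-- `Λ'(D) → O`. -/
def lamToO : ↥(FgLam.LamOm A N' M q O E hE0 D) →+ O where
  toFun x := ⟨(x : Om), by
    obtain ⟨g, -, hg⟩ := FgLam.mem_LamOm.mp x.2
    rw [← hg]
    exact g.2⟩
  map_zero' := rfl
  map_add' _ _ := rfl

theorem coe_lamToO (x : ↥(FgLam.LamOm A N' M q O E hE0 D)) :
    ((lamToO hE0 D x : O) : Om) = (x : Om) := rfl

theorem lamToO_mem (x : ↥(FgLam.LamOm A N' M q O E hE0 D)) :
    lamToO hE0 D x ∈ Lam A N' M q O E D := by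
  obtain ⟨g, hg, hgx⟩ := FgLam.mem_LamOm.mp x.2
  have e : lamToO hE0 D x = g := Subtype.ext hgx.symm
  rw [e]
  exact hg

/-- An element of `Λ'(D)` as an element of `LamOm D`. -/
def ofLam (g : O) (hg : g ∈ Lam A N' M q O E D) : ↥(FgLam.LamOm A N' M q O E hE0 D) :=
  ⟨(g : Om), FgLam.mem_LamOm.mpr ⟨g, hg, rfl⟩⟩

theorem lamToO_ofLam (g : O) (hg : g ∈ Lam A N' M q O E D) :
    lamToO hE0 D (ofLam hE0 D g hg) = g := Subtype.ext rfl

end Maps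

/-! ## The three coordinates -/

/-- The coordinates `(∞, mid ξ₀, 0)`. -/
def coord (ξ₀ : MidIdx q) : Fin 3 → Coord q := ![Coord.inf, Coord.mid ξ₀, Coord.zero]

@[simp] theorem coord_zero (ξ₀ : MidIdx q) : coord ξ₀ 0 = Coord.inf := rfl
@[simp] theorem coord_one (ξ₀ : MidIdx q) : coord ξ₀ 1 = Coord.mid ξ₀ := rfl
@[simp] theorem coord_two (ξ₀ : MidIdx q) : coord ξ₀ 2 = Coord.zero := rfl

theorem rho_mem_Fk (ξ₀ : MidIdx q) (hRange : RangeStmt A M q O ρ ξ₀) (g : O)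
    (hg : Fixed A (g : Om)) (i : Fin 3) : ρ g (coord ξ₀ i) ∈ Fk A M := by
  obtain ⟨h1, h2, h3⟩ := hRange g hg
  fin_cases i
  · exact h1
  · exact h2
  · exact h3

/-- **[K0-RED]** the three reductions of an element of `B'` lie in `B_κ`. -/
theorem rho_mem_BKM (hq' : q ∣ N') (ξ₀ : MidIdx q) (hRange : RangeStmt A M q O ρ ξ₀)
    (hIncl : Plan.InclStmt A (N' * q) M q (Dvd.intro_left N' rfl)
      (Nat.mul_dvd_mul_right hq' q) O ρ)
    {E : Divisor Kbar (FN (N' * q))}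
    (hE : IsE3 (N' * q) q (Dvd.intro_left N' rfl) (Nat.mul_dvd_mul_right hq' q) E)
    (b : O) (hb : b ∈ Bp A N' M q O E) (i : Fin 3) : ρ b (coord ξ₀ i) ∈ BKM A M := by
  obtain ⟨hfix, c, hc⟩ := hb
  rw [zero_add] at hc
  have h1 := hIncl E hE c b hc (coord ξ₀ i)
  rw [BKPlan.mem_planBK]
  exact ⟨rho_mem_Fk ξ₀ hRange b hfix i, (mem_WJ.mp h1).2.1⟩

section Coordinates

variable {E : Divisor Kbar (FN (N' * q))} (hE0 : ∀ P, 0 ≤ E P) (ξ₀ : MidIdx q)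
  (hBK : ∀ b ∈ Bp A N' M q O E, ∀ i : Fin 3, ρ b (coord ξ₀ i) ∈ BKM A M)

/-- The `i`-th coordinate reduction `B' → B_κ`. -/
def rhoB (i : Fin 3) : ↥(FgLam.BpOm A N' M q O E hE0) →+* ↥(BKM A M) :=
  RingHom.codRestrict ((pr A q (coord ξ₀ i)).comp (ρ.comp (toO hE0))) (BKM A M)
    (fun x => hBK _ (toO_mem hE0 x) i)

theorem coe_rhoB (i : Fin 3) (x : ↥(FgLam.BpOm A N' M q O E hE0)) :
    ((rhoB hE0 ξ₀ hBK i x : ↥(BKM A M)) : Omk A) = ρ (toO hE0 x) (coord ξ₀ i) := rfl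

variable (D : Divisor Kbar (FN (N' * q))) (hRange : RangeStmt A M q O ρ ξ₀)

/-- The `i`-th coordinate reduction `Λ'(D) → F_{M,k}`. -/
def redLam (i : Fin 3) : ↥(FgLam.LamOm A N' M q O E hE0 D) →+ ↥(Fk A M) where
  toFun x := ⟨ρ (lamToO hE0 D x) (coord ξ₀ i),
    rho_mem_Fk ξ₀ hRange _ (lamToO_mem hE0 D x).1 i⟩
  map_zero' := Subtype.ext (by
    show ρ (lamToO hE0 D 0) (coord ξ₀ i) = 0
    rw [map_zero, map_zero]
    rfl)
  map_add' x y := Subtype.ext (by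
    show ρ (lamToO hE0 D (x + y)) (coord ξ₀ i) =
      ρ (lamToO hE0 D x) (coord ξ₀ i) + ρ (lamToO hE0 D y) (coord ξ₀ i)
    rw [map_add, map_add]
    rfl)

theorem coe_redLam (i : Fin 3) (x : ↥(FgLam.LamOm A N' M q O E hE0 D)) :
    ((redLam hE0 ξ₀ D hRange i x : ↥(Fk A M)) : Omk A) = ρ (lamToO hE0 D x) (coord ξ₀ i) := rfl

end Coordinates

/-! ## The junction -/

section Main

variable {h : Nat.Coprime M q} {F : Plan.Frame M q h}

/-- The residue fields of `B_κ = Plan.BK A M` are `k`. -/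
theorem residue_surjective_planBK (A : ValuationSubring Kbar) (M : ℕ) :
    ∀ P : Ideal ↥(S34.Plan.BK A M), P.IsMaximal →
      Function.Surjective (algebraMap (kk A) (↥(S34.Plan.BK A M) ⧸ P)) := by
  rw [BKPlan.planBK_eq]
  exact fun P hP => BKappa.residue_surjective_kk A M P hP

/-- **[REG-JCT], one divisor.** From Lemma R (`K0Plan` form) and [APPROX] for `D` and `-D`:
at every point `P` of `B_κ³` there are `f ∈ Λ'(D)`, `g ∈ Λ'(-D)` with `ρ₃(f g)(P) ≠ 0`. -/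
theorem invK_of (hqp : q.Prime) (hA : A.LiesOverPrime q) (hTF : 4 ∣ M ∨ 9 ∣ M)
    (hS : IsSetup A F O ρ) (hq' : q ∣ N') (hNdvd : N' * q ∣ M * q * q)
    (hint : ∀ g : O, IsIntegral (S34.Incl.OM A M) (g : Om))
    (ξ₀ : MidIdx q) (E : Divisor Kbar (FN (N' * q)))
    (hE : IsE3 (N' * q) q (Dvd.intro_left N' rfl) (Nat.mul_dvd_mul_right hq' q) E)
    (hR : LemmaRK0 A N' M q O ρ ξ₀ E)
    (D : Divisor Kbar (FN (N' * q)))
    (happ : ApproxStmt A N' M q O E D) (happ' : ApproxStmt A N' M q O E (-D))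
    (P : BK3 A M →+* kk A) (hP : IsPt A M P) :
    ∃ f ∈ Lam A N' M q O E D, ∃ g ∈ Lam A N' M q O E (-D), ∃ t : BK3 A M,
      rho3 A q O ρ ξ₀ (f * g) = iota3 A M t ∧ P t ≠ 0 := by
  classical
  haveI : Fact q.Prime := ⟨hqp⟩
  have hqM : ¬ q ∣ M := (Nat.Prime.coprime_iff_not_dvd hqp).mp h.symm
  have hle : modularFunctionFieldBar (N' * q) ≤ modularFunctionFieldBar (M * q * q) :=
    CharStmt.bar_le hNdvd
  have hE0 : ∀ P, 0 ≤ E P := OneCompBp.E3_nonneg _ _ hE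
  -- the landed contracts
  have hMid : MidEqStmt A q O ρ := CondK0.midEqStmt hqp hA hS
  have hConst : ConstStmt A q O ρ := K0Const.constStmt hqp hA F hS
  have hRange : RangeStmt A M q O ρ ξ₀ := K0Range.rangeStmt hqp hA hS ξ₀
  have hSurj : SurjStmt A N' M q O ρ ξ₀ E := SurjK0.surjStmt hqp hA hTF hS N' hq' hNdvd ξ₀ E hE
  have hIncl : Plan.InclStmt A (N' * q) M q (Dvd.intro_left N' rfl)
      (Nat.mul_dvd_mul_right hq' q) O ρ := InclInst.inclStmt A hqp hA _ _ hNdvd hS hint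
  have hTrace := TraceK0.traceStmt A hqp hA F hS hq' hNdvd E hE ξ₀ hMid
  obtain ⟨ε₁, ε₂, ε₃, a₁, a₂, a₃, hε₁, hε₂, hε₃, ha₁, ha₂, ha₃, hρ₁, hρ₂, hρ₃⟩ :=
    CondK0Inst.oneCompK0 hqp hA hS hq' hle hE ξ₀
  have hBK := rho_mem_BKM hq' ξ₀ hRange hIncl hE
  -- the Dedekind domain `B_κ` and its fraction field
  haveI hDed : IsDedekindDomain ↥(BKM A M) := BKPlan.isDedekindDomain_planBK A M q hqM hA
  letI algL : Algebra ↥(BKM A M) ↥(Fk A M) := (BKFrac.toFkPlan A M).toAlgebra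
  haveI hFrac : IsFractionRing ↥(BKM A M) ↥(Fk A M) := BKFrac.isFractionRing_planBK A M q hqM hA
  have hres := residue_surjective_planBK A M
  -- the objects
  let Bs : Subring Om := FgLam.BpOm A N' M q O E hE0
  let MD : Submodule ↥Bs Om := FgLam.LamOm A N' M q O E hE0 D
  let MD' : Submodule ↥Bs Om := FgLam.LamOm A N' M q O E hE0 (-D)
  let ρB : Fin 3 → (↥Bs →+* ↥(BKM A M)) := rhoB hE0 ξ₀ hBK
  let rL : Fin 3 → (↥MD →+ ↥(Fk A M)) := redLam hE0 ξ₀ D hRange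
  have hBF : Function.Injective (algebraMap ↥Bs Om) := fun a b hab => Subtype.ext hab
  -- surjectivity
  have hρsurj : ∀ i, Function.Surjective (ρB i) := by
    intro i d
    obtain ⟨⟨b, hb, h1⟩, ⟨b2, hb2, h2⟩, ⟨b3, hb3, h3⟩⟩ := hSurj d
    fin_cases i
    · exact ⟨ofBp hE0 b hb, Subtype.ext h1⟩
    · exact ⟨ofBp hE0 b2 hb2, Subtype.ext h2⟩
    · exact ⟨ofBp hE0 b3 hb3, Subtype.ext h3⟩
  -- constants
  have hconst : ∀ c : kk A, ∃ b : ↥Bs, ∀ i, ρB i b = algebraMap (kk A) ↥(BKM A M) c := by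
    intro c
    obtain ⟨a, ha, hfix, hρa⟩ := hConst c
    have hB : (⟨_, ha⟩ : O) ∈ Bp A N' M q O E := by
      refine ⟨hfix, 0, ?_⟩
      have h1 : (1 : Om) ∈ pullRR (N' * q) (M * q * q) (0 + 0 • E) := by
        apply Main.one_mem_pullRR
        intro P
        rw [zero_add, zero_smul]
        exact le_rfl
      have h2 := Main.C_mul_mem_pullRR a h1
      rwa [mul_one] at h2
    refine ⟨ofBp hE0 _ hB, fun i => Subtype.ext ?_⟩
    show ρ (toO hE0 (ofBp hE0 _ hB)) (coord ξ₀ i) = _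
    rw [toO_ofBp, hρa, CondK0.coe_algebraMap_BKM]
  -- `Λ'(D) ≠ 0`, finitely generated
  obtain ⟨P₀, hP₀⟩ := ColonK0.exists_place_eq_zero (N' * q) E
  have hM0 : ∃ f ∈ MD, f ≠ 0 := by
    obtain ⟨f, hf, hf0, hfL, -⟩ := happ P₀ hP₀
    exact ⟨(f : Om), FgLam.mem_LamOm.mpr ⟨_, hfL, rfl⟩, fun h0 => hf0 (Subtype.ext h0)⟩
  have hd : ∃ d ∈ Lam A N' M q O E (-D), (d : Om) ≠ 0 := by
    obtain ⟨f, hf, hf0, hfL, -⟩ := happ' P₀ hP₀
    exact ⟨_, hfL, fun h0 => hf0 (Subtype.ext h0)⟩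
  have hfg : MD.FG := FgLam.fg_LamOm hqp hA hS hq' hNdvd hint hE hE0 D hd
  -- semilinearity
  have hr : ∀ (i : Fin 3) (b : ↥Bs) (x : ↥MD),
      rL i (b • x) = algebraMap ↥(BKM A M) ↥(Fk A M) (ρB i b) * rL i x := by
    intro i b x
    apply Subtype.ext
    show ρ (lamToO hE0 D (b • x)) (coord ξ₀ i) =
      ρ (toO hE0 b) (coord ξ₀ i) * ρ (lamToO hE0 D x) (coord ξ₀ i)
    have e : lamToO hE0 D (b • x) = toO hE0 b * lamToO hE0 D x := Subtype.ext rfl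
    rw [e, map_mul]
    rfl
  -- Lemma R
  obtain ⟨x, r, hxB, hrB, hρx, ⟨u, hu, v, hv, huv, hρr⟩, hkerR⟩ := hR
  let x₂ : ↥Bs := ofBp hE0 x hxB
  let r₂ : ↥Bs := ofBp hE0 r hrB
  have hx₂ : ρB 1 x₂ = 0 := Subtype.ext hρx
  have hr₂e : ρB 1 r₂ = ⟨u, hu⟩ := Subtype.ext hρr
  have huv' : (⟨u, hu⟩ : ↥(BKM A M)) * ⟨v, hv⟩ = 1 := Subtype.ext huv
  have hr₂ : ∀ z : ↥(BKM A M) →ₐ[kk A] kk A, z (ρB 1 r₂) ≠ 0 := by
    intro z hz
    have h3 := congrArg z huv'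
    rw [map_mul, map_one, ← hr₂e, hz, zero_mul] at h3
    exact zero_ne_one h3
  have hr₂0 : ρB 1 r₂ ≠ 0 := by
    intro h0
    rw [hr₂e] at h0
    rw [h0, zero_mul] at huv'
    exact zero_ne_one huv'
  have hker₂ : ∀ f : ↥MD, rL 1 f = 0 → ∃ y : ↥MD, r₂ • f = x₂ • y := by
    intro f hf
    have hf0 : ρ (lamToO hE0 D f) (Coord.mid ξ₀) = 0 := congrArg Subtype.val hf
    obtain ⟨y, hy, hyeq⟩ := hkerR D _ (lamToO_mem hE0 D f) hf0
    refine ⟨ofLam hE0 D y hy, Subtype.ext ?_⟩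
    exact congrArg (fun t : O => (t : Om)) hyeq
  -- the local equation `q`
  let πq : ↥Bs := ofBp hE0 ((q : ℕ) : O) (QDivK0.natCast_mem_Bp N' A M O E q)
  have hπ : ∀ i, ρB i πq = 0 := fun i => Subtype.ext (QDivK0.rho_natCast hqp hA _)
  have hker₁ : ∀ c : ↥Bs, ρB 1 c = 0 → ρB 2 c = 0 → ∀ f : ↥MD, rL 0 f = 0 →
      ∃ y : ↥MD, c ^ (q - 1) • f = πq • y := by
    intro c hc1 hc2 f hf
    have h1 : ρ (toO hE0 c) (Coord.mid ξ₀) = 0 := congrArg Subtype.val hc1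
    have h2 : ρ (toO hE0 c) Coord.zero = 0 := congrArg Subtype.val hc2
    have h0 : ρ (lamToO hE0 D f) Coord.inf = 0 := congrArg Subtype.val hf
    obtain ⟨y, hy, hyeq⟩ := QDivK0.qdiv_inf N' hqp hA hS E D ξ₀ hMid (toO_mem hE0 c)
      (lamToO_mem hE0 D f) h1 h2 h0
    refine ⟨ofLam hE0 D y hy, Subtype.ext ?_⟩
    exact congrArg (fun t : O => (t : Om)) hyeq
  have hker₃ : ∀ c : ↥Bs, ρB 0 c = 0 → ρB 1 c = 0 → ∀ f : ↥MD, rL 2 f = 0 →
      ∃ y : ↥MD, c ^ (q - 1) • f = πq • y := by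
    intro c hc0 hc1 f hf
    have h1 : ρ (toO hE0 c) (Coord.mid ξ₀) = 0 := congrArg Subtype.val hc1
    have h0 : ρ (toO hE0 c) Coord.inf = 0 := congrArg Subtype.val hc0
    have h2 : ρ (lamToO hE0 D f) Coord.zero = 0 := congrArg Subtype.val hf
    obtain ⟨y, hy, hyeq⟩ := QDivK0.qdiv_zero N' hqp hA hS E D ξ₀ hMid (toO_mem hE0 c)
      (lamToO_mem hE0 D f) h1 h0 h2
    refine ⟨ofLam hE0 D y hy, Subtype.ext ?_⟩
    exact congrArg (fun t : O => (t : Om)) hyeq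
  -- the trace elements
  have hA3 : ∀ b : ↥Bs, (ρB 0 b, ρB 1 b, ρB 2 b) ∈ A3 A N' M q O ρ E ξ₀ :=
    fun b => ⟨toO hE0 b, toO_mem hE0 b, rfl⟩
  have hofA3 : ∀ t ∈ A3 A N' M q O ρ E ξ₀,
      ∃ c : ↥Bs, ρB 0 c = t.1 ∧ ρB 1 c = t.2.1 ∧ ρB 2 c = t.2.2 := by
    rintro t ⟨b, hb, hbt⟩
    refine ⟨ofBp hE0 b hb, Subtype.ext ?_, Subtype.ext ?_, Subtype.ext ?_⟩
    · exact congrArg Prod.fst hbt
    · exact congrArg (fun x => x.2.1) hbt
    · exact congrArg (fun x => x.2.2) hbt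
  have htrA : ∀ b : ↥Bs, ∃ c : ↥Bs,
      ρB 0 c = ρB 0 b - ρB 1 b ∧ ρB 1 c = ρB 0 b - ρB 1 b ∧ ρB 2 c = 0 :=
    fun b => hofA3 _ (hTrace _ (hA3 b)).1
  have htrB : ∀ b : ↥Bs, ∃ c : ↥Bs,
      ρB 0 c = 0 ∧ ρB 1 c = ρB 2 b - ρB 1 b ∧ ρB 2 c = ρB 2 b - ρB 1 b :=
    fun b => hofA3 _ (hTrace _ (hA3 b)).2
  -- the reductions do not vanish identically on `Λ'(D)`
  have hu1 : ∃ f : ↥MD, rL 1 f ≠ 0 :=
    InvKAbs.exists_reduction_ne_zero hBF (ρB 1) MD hM0 hfg (rL 1) r₂ x₂ hr₂0 hx₂ hker₂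
  let e₁ : ↥Bs := ofBp hE0 ε₁ hε₁
  let e₃ : ↥Bs := ofBp hE0 ε₃ hε₃
  have he₁0 : ρB 0 e₁ = a₁ := Subtype.ext (congrArg Prod.fst hρ₁)
  have he₁1 : ρB 1 e₁ = 0 := Subtype.ext (congrArg (fun x => x.2.1) hρ₁)
  have he₁2 : ρB 2 e₁ = 0 := Subtype.ext (congrArg (fun x => x.2.2) hρ₁)
  have he₃0 : ρB 0 e₃ = 0 := Subtype.ext (congrArg Prod.fst hρ₃)
  have he₃1 : ρB 1 e₃ = 0 := Subtype.ext (congrArg (fun x => x.2.1) hρ₃)
  have he₃2 : ρB 2 e₃ = a₃ := Subtype.ext (congrArg (fun x => x.2.2) hρ₃)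
  have hu0 : ∃ f : ↥MD, rL 0 f ≠ 0 :=
    InvKAbs.exists_reduction_ne_zero hBF (ρB 0) MD hM0 hfg (rL 0) (e₁ ^ (q - 1)) πq
      (by rw [map_pow, he₁0]; exact pow_ne_zero _ ha₁) (hπ 0) (hker₁ e₁ he₁1 he₁2)
  have hu2 : ∃ f : ↥MD, rL 2 f ≠ 0 :=
    InvKAbs.exists_reduction_ne_zero hBF (ρB 2) MD hM0 hfg (rL 2) (e₃ ^ (q - 1)) πq
      (by rw [map_pow, he₃2]; exact pow_ne_zero _ ha₃) (hπ 2) (hker₃ e₃ he₃0 he₃1)
  have hunit : ∀ i : Coord q, ∃ f ∈ Lam A N' M q O E D, ρ f i ≠ 0 := by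
    intro i
    cases i with
    | inf =>
      obtain ⟨f, hf⟩ := hu0
      exact ⟨lamToO hE0 D f, lamToO_mem hE0 D f, fun h0 => hf (Subtype.ext h0)⟩
    | zero =>
      obtain ⟨f, hf⟩ := hu2
      exact ⟨lamToO hE0 D f, lamToO_mem hE0 D f, fun h0 => hf (Subtype.ext h0)⟩
    | mid ξ =>
      obtain ⟨f, hf⟩ := hu1
      refine ⟨lamToO hE0 D f, lamToO_mem hE0 D f, fun h0 => hf (Subtype.ext ?_)⟩
      show ρ (lamToO hE0 D f) (Coord.mid ξ₀) = 0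
      rw [← hMid _ (lamToO_mem hE0 D f).1 ξ ξ₀]
      exact h0
  -- the colon
  have hinv : ∀ x : Om, (∀ f ∈ MD, ∃ b : ↥Bs, x * f = algebraMap ↥Bs Om b) → x ∈ MD' := by
    intro x hx
    obtain ⟨g, hg, hgx⟩ := ColonK0.colon hS hq' E hE D happ hunit x (fun f hf => by
      obtain ⟨b, hb⟩ := hx (f : Om) (FgLam.mem_LamOm.mpr ⟨f, hf, rfl⟩)
      exact ⟨toO hE0 b, toO_mem hE0 b, hb⟩)
    exact FgLam.mem_LamOm.mpr ⟨g, hg, hgx⟩
  -- the abstract junction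
  have key : ∀ (i : Fin 3) (z : ↥(BKM A M) →ₐ[kk A] kk A),
      ∃ f ∈ Lam A N' M q O E D, ∃ g ∈ Lam A N' M q O E (-D), ∃ b : ↥Bs,
        f * g = toO hE0 b ∧ z (ρB i b) ≠ 0 := by
    intro i z
    obtain ⟨f, hf, g, hg, b, hfgb, hb⟩ := InvKAbs.exists_mul_not_mem_point (k := kk A) hBF hres ρB
      hρsurj hconst MD MD' hM0 hfg rL hr x₂ r₂ hx₂ hr₂ hker₂ πq hπ (q - 1) hker₁ hker₃ htrA htrB
      hinv i z
    obtain ⟨f₀, hf₀, rfl⟩ := FgLam.mem_LamOm.mp hf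
    obtain ⟨g₀, hg₀, rfl⟩ := FgLam.mem_LamOm.mp hg
    exact ⟨f₀, hf₀, g₀, hg₀, b, Subtype.ext hfgb, hb⟩
  have hrho3 : ∀ b : ↥Bs, rho3 A q O ρ ξ₀ (toO hE0 b) = iota3 A M (ρB 0 b, ρB 1 b, ρB 2 b) :=
    fun b => rfl
  obtain ⟨z, rfl | rfl | rfl⟩ := hP
  · obtain ⟨f, hf, g, hg, b, hfgb, hb⟩ := key 0 z
    exact ⟨f, hf, g, hg, (ρB 0 b, ρB 1 b, ρB 2 b), by rw [hfgb, hrho3], hb⟩
  · obtain ⟨f, hf, g, hg, b, hfgb, hb⟩ := key 1 z
    exact ⟨f, hf, g, hg, (ρB 0 b, ρB 1 b, ρB 2 b), by rw [hfgb, hrho3], hb⟩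
  · obtain ⟨f, hf, g, hg, b, hfgb, hb⟩ := key 2 z
    exact ⟨f, hf, g, hg, (ρB 0 b, ρB 1 b, ρB 2 b), by rw [hfgb, hrho3], hb⟩

/-- **[REG-JCT]** `K0Plan.InvKStmt` (contract (5)), from Lemma R (`K0Plan` form) and [APPROX] for
the inertia-stable divisors. -/
theorem invKStmt_of_k0 (hqp : q.Prime) (hA : A.LiesOverPrime q) (hTF : 4 ∣ M ∨ 9 ∣ M)
    (hS : IsSetup A F O ρ) (hq' : q ∣ N') (hNdvd : N' * q ∣ M * q * q)
    (hint : ∀ g : O, IsIntegral (S34.Incl.OM A M) (g : Om))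
    (ξ₀ : MidIdx q) (E : Divisor Kbar (FN (N' * q)))
    (hE : IsE3 (N' * q) q (Dvd.intro_left N' rfl) (Nat.mul_dvd_mul_right hq' q) E)
    (hR : LemmaRK0 A N' M q O ρ ξ₀ E)
    (happ : ∀ D : Divisor Kbar (FN (N' * q)),
      (∀ τ : Kbar ≃ₐ[ℚ] Kbar, τ ∈ A.inertiaSubgroupIn ℚ →
        Fermat.Agent.S34.Plan.gal (N' * q) τ • D = D) → ApproxStmt A N' M q O E D) :
    InvKStmt A N' M q O ρ ξ₀ E := by
  intro D hD P hP
  refine invK_of hqp hA hTF hS hq' hNdvd hint ξ₀ E hE hR D (happ D hD) (happ (-D) ?_) P hP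
  intro τ hτ
  rw [smul_neg, hD τ hτ]

/-- **[REG-JCT]** `K0Plan.InvKStmt` from the frame form of Lemma R (`LemmaR.lemmaR`). -/
theorem invKStmt_of (hqp : q.Prime) (hA : A.LiesOverPrime q) (hTF : 4 ∣ M ∨ 9 ∣ M)
    (hS : IsSetup A F O ρ) (hq' : q ∣ N') (hNdvd : N' * q ∣ M * q * q)
    (hint : ∀ g : O, IsIntegral (S34.Incl.OM A M) (g : Om))
    (ξ₀ : MidIdx q) (E : Divisor Kbar (FN (N' * q)))
    (hE : IsE3 (N' * q) q (Dvd.intro_left N' rfl) (Nat.mul_dvd_mul_right hq' q) E)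
    (hR : LemmaRFrame A F)
    (happ : ∀ D : Divisor Kbar (FN (N' * q)),
      (∀ τ : Kbar ≃ₐ[ℚ] Kbar, τ ∈ A.inertiaSubgroupIn ℚ →
        Fermat.Agent.S34.Plan.gal (N' * q) τ • D = D) → ApproxStmt A N' M q O E D) :
    InvKStmt A N' M q O ρ ξ₀ E :=
  invKStmt_of_k0 hqp hA hTF hS hq' hNdvd hint ξ₀ E hE
    (lemmaRK0_of_frame hS hq' hNdvd ξ₀ hE (CondK0.midEqStmt hqp hA hS) hR) happ

end Main

end Fermat.Agent.S36.InvKInst
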