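/-
S36 / P8, block (T) of Lemma R (helper81): the theta-derivative of the auxiliary Hauptmoduln.

For the formal `q`-expansions over ANY field `k` (`θ = q d/dq`, `Δ = deltaS k`):

* `theta_t4_pow_six : (θ t₄)⁶ = t₄² (t₄ + 16)⁵ Δ`,
* `theta_t9_pow_six : (θ t₉)⁶ t₉³ = (t₉² + 9 t₉ + 27)⁵ Δ`.

Proof: apply `θ` to `j · D(t) = Num(t)` (landed `t4_rel_one`, `t9_rel_one`), use the landed
`(θ j)⁶ = j⁴ (j - 1728)³ Δ`, and the polynomial identities `Num - 1728 D = E²`,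
`Num' D - Num D' = t^a N² E` (`Num = N³`).

Consequence (Lemma R): for `τ := t` the Hauptmodul, `(θ τ̄)⁶ / Δ̄` is an explicit unit of the
coordinate ring of the good-reduction curve away from the cusps.
-/
import Mathlib
import Fermat.Agent.S18.Haupt.Level4
import Fermat.Agent.S18.Haupt.Level9
import Fermat.Agent.S28.Theta

set_option autoImplicit false

noncomputable section

namespace Fermat.Agent.S36.ThetaHaupt

open ModularCurve Fermat.Agent.S28 Fermat.Agent.S18.Haupt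

/-- The algebraic core: from `J D = N³`, `(J - 1728) D = E²`, `θJ D² = θt (P N² E)` and
`θJ⁶ = J⁴ (J - 1728)³ Δ` one gets `θt⁶ P⁶ = D⁵ Δ`. -/
theorem core {L : Type*} [Field L] (J θJ θt Δ D N E P : L) (h1 : J * D = N ^ 3)
    (hB : (J - 1728) * D = E ^ 2) (hA : θJ * D ^ 2 = θt * (P * N ^ 2 * E))
    (h3 : θJ ^ 6 = J ^ 4 * (J - 1728) ^ 3 * Δ) (hN : N ≠ 0) (hE : E ≠ 0) :
    θt ^ 6 * P ^ 6 = D ^ 5 * Δ := by
  have hX : θJ ^ 6 * D ^ 7 = N ^ 12 * E ^ 6 * Δ := by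
    calc θJ ^ 6 * D ^ 7 = (J * D) ^ 4 * ((J - 1728) * D) ^ 3 * Δ := by rw [h3]; ring
      _ = N ^ 12 * E ^ 6 * Δ := by rw [h1, hB]; ring
  have hY : θJ ^ 6 * D ^ 12 = θt ^ 6 * (P * N ^ 2 * E) ^ 6 := by
    calc θJ ^ 6 * D ^ 12 = (θJ * D ^ 2) ^ 6 := by ring
      _ = θt ^ 6 * (P * N ^ 2 * E) ^ 6 := by rw [hA]; ring
  have h : N ^ 12 * E ^ 6 * (θt ^ 6 * P ^ 6 - D ^ 5 * Δ) = 0 := by
    linear_combination (-1 : L) * hY + D ^ 5 * hX
  have h0 : N ^ 12 * E ^ 6 ≠ 0 := mul_ne_zero (pow_ne_zero _ hN) (pow_ne_zero _ hE)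
  exact sub_eq_zero.mp ((mul_eq_zero.mp h).resolve_left h0)

variable (k : Type*) [Field k]

theorem theta_ofNat (n : ℕ) [n.AtLeastTwo] : theta k (ofNat(n) : LaurentSeries k) = 0 := by
  have h := (ThetaAux.thetaDer k).map_natCast n
  rw [ThetaAux.thetaDer_apply] at h
  rw [← h]
  congr 1

theorem theta_pow (f : LaurentSeries k) (n : ℕ) :
    theta k (f ^ n) = (n : LaurentSeries k) * f ^ (n - 1) * theta k f := by
  have h := (ThetaAux.thetaDer k).leibniz_pow (a := f) n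
  rw [ThetaAux.thetaDer_apply, ThetaAux.thetaDer_apply, smul_eq_mul, nsmul_eq_mul] at h
  rw [h, mul_assoc]

theorem jq_sub_ne_zero : jqModC k - 1728 ≠ 0 := by
  intro h
  have h1 : (jqModC k - 1728).coeff (-1 : ℤ) = 0 := by rw [h, HahnSeries.coeff_zero]
  have h2 : ((1728 : LaurentSeries k)).coeff (-1 : ℤ) = 0 := by
    have e : (1728 : LaurentSeries k) = HahnSeries.C (1728 : k) := (map_ofNat _ 1728).symm
    rw [e, HahnSeries.C_apply, HahnSeries.coeff_single_of_ne (by norm_num)]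
  rw [HahnSeries.coeff_sub, coeff_jqModC_neg_one, h2, sub_zero] at h1
  exact one_ne_zero h1

theorem jq_ne_zero : jqModC k ≠ 0 := by
  intro h
  have h1 : (jqModC k).coeff (-1 : ℤ) = 0 := by rw [h, HahnSeries.coeff_zero]
  rw [coeff_jqModC_neg_one] at h1
  exact one_ne_zero h1

/-- **`(θ t₄)⁶ = t₄² (t₄ + 16)⁵ Δ`.** -/
theorem theta_t4_pow_six :
    theta k (t4 k) ^ 6 = t4 k ^ 2 * (t4 k + 16) ^ 5 * deltaS k := by
  have h1 := t4_rel_one k
  have ht0 := t4_ne_zero k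
  have ht16 := t4_add_ne_zero k
  have h3 := theta_jqModC_pow_six k
  -- apply `θ` to the relation
  have h2 := congrArg (theta k) h1
  simp only [theta_mul, map_add, theta_ofNat, theta_pow, Nat.add_one_sub_one] at h2
  push_cast at h2
  set t := t4 k with ht
  set J := jqModC k with hJ
  set θt := theta k t with hθt
  set θJ := theta k J with hθJ
  have hD0 : t ^ 4 * (t + 16) ≠ 0 := mul_ne_zero (pow_ne_zero _ ht0) ht16
  have hB : (J - 1728) * (t ^ 4 * (t + 16)) =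
      (t ^ 3 - 480 * t ^ 2 - 24576 * t - 262144) ^ 2 := by
    linear_combination h1
  have hA : θJ * (t ^ 4 * (t + 16)) ^ 2 =
      θt * (t ^ 3 * (t ^ 2 + 256 * t + 4096) ^ 2 *
        (t ^ 3 - 480 * t ^ 2 - 24576 * t - 262144)) := by
    linear_combination (t ^ 4 * (t + 16)) * h2 - (5 * t ^ 4 + 64 * t ^ 3) * θt * h1
  have hN : t ^ 2 + 256 * t + 4096 ≠ 0 := by
    intro h
    rw [h] at h1
    exact mul_ne_zero (jq_ne_zero k) hD0 (by rw [h1]; ring)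
  have hE : t ^ 3 - 480 * t ^ 2 - 24576 * t - 262144 ≠ 0 := by
    intro h
    rw [h] at hB
    exact mul_ne_zero (jq_sub_ne_zero k) hD0 (by rw [hB]; ring)
  have hc := core J θJ θt (deltaS k) _ _ _ _ h1 hB hA h3 hN hE
  have h18 : t ^ 18 ≠ 0 := pow_ne_zero _ ht0
  have : t ^ 18 * (θt ^ 6 - t ^ 2 * (t + 16) ^ 5 * deltaS k) = 0 := by
    linear_combination hc
  exact sub_eq_zero.mp ((mul_eq_zero.mp this).resolve_left h18)

/-- **`(θ t₉)⁶ t₉³ = (t₉² + 9 t₉ + 27)⁵ Δ`.** -/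
theorem theta_t9_pow_six :
    theta k (t9 k) ^ 6 * t9 k ^ 3 = (t9 k ^ 2 + 9 * t9 k + 27) ^ 5 * deltaS k := by
  have h1 := t9_rel_one k
  have ht0 := t9_ne_zero k
  have hS := s9_ne_zero k
  have h3 := theta_jqModC_pow_six k
  have h2 := congrArg (theta k) h1
  simp only [theta_mul, map_add, theta_ofNat, theta_pow, Nat.add_one_sub_one] at h2
  push_cast at h2
  set t := t9 k with ht
  set J := jqModC k with hJ
  set θt := theta k t with hθt
  set θJ := theta k J with hθJ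
  have hD0 : t ^ 9 * (t ^ 2 + 9 * t + 27) ≠ 0 := mul_ne_zero (pow_ne_zero _ ht0) hS
  have h1' : J * (t ^ 9 * (t ^ 2 + 9 * t + 27)) =
      ((t + 9) * (t ^ 3 + 243 * t ^ 2 + 2187 * t + 6561)) ^ 3 := by
    linear_combination h1
  have hB : (J - 1728) * (t ^ 9 * (t ^ 2 + 9 * t + 27)) =
      (t ^ 6 - 486 * t ^ 5 - 24057 * t ^ 4 - 367416 * t ^ 3 - 2657205 * t ^ 2 - 9565938 * t
        - 14348907) ^ 2 := by
    linear_combination h1
  have hA : θJ * (t ^ 9 * (t ^ 2 + 9 * t + 27)) ^ 2 =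
      θt * (t ^ 8 * ((t + 9) * (t ^ 3 + 243 * t ^ 2 + 2187 * t + 6561)) ^ 2 *
        (t ^ 6 - 486 * t ^ 5 - 24057 * t ^ 4 - 367416 * t ^ 3 - 2657205 * t ^ 2 - 9565938 * t
          - 14348907)) := by
    linear_combination (t ^ 9 * (t ^ 2 + 9 * t + 27)) * h2 -
      (11 * t ^ 10 + 90 * t ^ 9 + 243 * t ^ 8) * θt * h1
  have hN : (t + 9) * (t ^ 3 + 243 * t ^ 2 + 2187 * t + 6561) ≠ 0 := by
    intro h
    rw [h] at h1'
    exact mul_ne_zero (jq_ne_zero k) hD0 (by rw [h1']; ring)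
  have hE : t ^ 6 - 486 * t ^ 5 - 24057 * t ^ 4 - 367416 * t ^ 3 - 2657205 * t ^ 2 - 9565938 * t
      - 14348907 ≠ 0 := by
    intro h
    rw [h] at hB
    exact mul_ne_zero (jq_sub_ne_zero k) hD0 (by rw [hB]; ring)
  have hc := core J θJ θt (deltaS k) _ _ _ _ h1' hB hA h3 hN hE
  have h45 : t ^ 45 ≠ 0 := pow_ne_zero _ ht0
  have : t ^ 45 * (θt ^ 6 * t ^ 3 - (t ^ 2 + 9 * t + 27) ^ 5 * deltaS k) = 0 := by
    linear_combination hc
  exact sub_eq_zero.mp ((mul_eq_zero.mp this).resolve_left h45)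

end Fermat.Agent.S36.ThetaHaupt

end
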