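/-
S36 / P8, Lemma R (helper81): the theta-unit of the auxiliary Hauptmodul is a unit of `B_κ`.

Over any field `k` (`polyJ k = k[j̄]`, `F_{M,k} = modularFunctionFieldFullC k M`):

* level 4 (`2 ≠ 0` in `k`, `4 ∣ M`): `u₄ = t₄² (t₄ + 16)⁵` and `v₄ = t₄⁻² (t₄ + 16)⁻⁵` lie in
  `F_{M,k}`, are integral over `k[j̄]`, `u₄ v₄ = 1`, and `(θ t₄)⁶ = u₄ Δ`;
* level 9 (`3 ≠ 0` in `k`, `9 ∣ M`): `u₉ = (t₉² + 9 t₉ + 27)⁵ t₉⁻³`, `v₉ = t₉³ (t₉² + 9 t₉ + 27)⁻⁵`,
  same statements.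

Integrality: `t₄`, `256 / t₄`, `h₂` (and `t₉`, `81 / t₉`, `h₃`) are roots of monic polynomials
over `ℤ[j]` (the landed relations and their Fricke transforms).
-/
import Mathlib
import Fermat.Agent.S18.Haupt.Level4
import Fermat.Agent.S18.Haupt.Level9
import Fermat.Agent.S18.Plan
import Fermat.Agent.S36.ThetaHaupt

set_option autoImplicit false

noncomputable section

namespace Fermat.Agent.S36.HauptUnit

open ModularCurve Polynomial Fermat.Agent.S28 Fermat.Agent.S18.Haupt Fermat.Agent.S18.Plan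

/-! ### Generic integrality from the modular relations -/

section Generic

variable {R S : Type*} [CommRing R] [CommRing S] [Algebra R S]

theorem isIntegral_of_rel4 (J : R) (t : S)
    (h : algebraMap R S J * (t ^ 4 * (t + 16)) = (t ^ 2 + 256 * t + 4096) ^ 3) :
    IsIntegral R t := by
  refine ⟨(X ^ 2 + 256 * X + 4096) ^ 3 - C J * (X ^ 4 * (X + 16)), ?_, ?_⟩
  · monicity!
  · simp only [eval₂_sub, eval₂_pow, eval₂_add, eval₂_mul, eval₂_X, eval₂_C, eval₂_ofNat]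
    linear_combination -h

theorem isIntegral_of_rel4_fricke (J : R) (z : S)
    (h : algebraMap R S J * (z * (z + 16)) = (z ^ 2 + 16 * z + 16) ^ 3) : IsIntegral R z := by
  refine ⟨(X ^ 2 + 16 * X + 16) ^ 3 - C J * (X * (X + 16)), ?_, ?_⟩
  · monicity!
  · simp only [eval₂_sub, eval₂_pow, eval₂_add, eval₂_mul, eval₂_X, eval₂_C, eval₂_ofNat]
    linear_combination -h

theorem isIntegral_of_rel2 (J : R) (x : S)
    (h : algebraMap R S J * x ^ 2 = (x + 256) ^ 3) : IsIntegral R x := by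
  refine ⟨(X + 256) ^ 3 - C J * X ^ 2, ?_, ?_⟩
  · monicity!
  · simp only [eval₂_sub, eval₂_pow, eval₂_add, eval₂_mul, eval₂_X, eval₂_C, eval₂_ofNat]
    linear_combination -h

theorem isIntegral_of_rel9 (J : R) (t : S)
    (h : algebraMap R S J * (t ^ 9 * (t ^ 2 + 9 * t + 27)) =
      (t + 9) ^ 3 * (t ^ 3 + 243 * t ^ 2 + 2187 * t + 6561) ^ 3) : IsIntegral R t := by
  refine ⟨(X + 9) ^ 3 * (X ^ 3 + 243 * X ^ 2 + 2187 * X + 6561) ^ 3
    - C J * (X ^ 9 * (X ^ 2 + 9 * X + 27)), ?_, ?_⟩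
  · monicity!
  · simp only [eval₂_sub, eval₂_pow, eval₂_add, eval₂_mul, eval₂_X, eval₂_C, eval₂_ofNat]
    linear_combination -h

theorem isIntegral_of_rel9_fricke (J : R) (z : S)
    (h : 19683 * algebraMap R S J * (z * (z ^ 2 + 27 * z + 243)) =
      (z + 9) ^ 3 * (z ^ 3 + 27 * z ^ 2 + 243 * z + 81) ^ 3) : IsIntegral R z := by
  refine ⟨(X + 9) ^ 3 * (X ^ 3 + 27 * X ^ 2 + 243 * X + 81) ^ 3
    - C (19683 * J) * (X * (X ^ 2 + 27 * X + 243)), ?_, ?_⟩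
  · monicity!
  · simp only [eval₂_sub, eval₂_pow, eval₂_add, eval₂_mul, eval₂_X, eval₂_C, eval₂_ofNat,
      map_mul, map_ofNat]
    linear_combination -h

theorem isIntegral_of_rel3 (J : R) (x : S)
    (h : algebraMap R S J * x ^ 3 = (x + 27) * (x + 243) ^ 3) : IsIntegral R x := by
  refine ⟨(X + 27) * (X + 243) ^ 3 - C J * X ^ 3, ?_, ?_⟩
  · monicity!
  · simp only [eval₂_sub, eval₂_pow, eval₂_add, eval₂_mul, eval₂_X, eval₂_C, eval₂_ofNat]
    linear_combination -h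

end Generic

/-! ### Over a field: integrality over `k[j̄]` -/

section Field

variable (k : Type) [Field k]

/-- `j̄` as an element of `k[j̄]`. -/
def jP : polyJ k := ⟨jqModC k, Algebra.subset_adjoin (Set.mem_singleton _)⟩

theorem algebraMap_jP : algebraMap (polyJ k) (LaurentSeries k) (jP k) = jqModC k := rfl

theorem isIntegral_ofNat (n : ℕ) [n.AtLeastTwo] :
    IsIntegral (polyJ k) (OfNat.ofNat n : LaurentSeries k) := by
  have h : (OfNat.ofNat n : LaurentSeries k) = algebraMap (polyJ k) (LaurentSeries k)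
      (OfNat.ofNat n) := (map_ofNat _ n).symm
  rw [h]
  exact isIntegral_algebraMap

theorem isIntegral_const_mul (c : k) {x : LaurentSeries k} (hx : IsIntegral (polyJ k) x) :
    IsIntegral (polyJ k) (HahnSeries.C c * x) := by
  have h : (HahnSeries.C c : LaurentSeries k) = algebraMap (polyJ k) (LaurentSeries k)
      (algebraMap k (polyJ k) c) := by
    rw [← IsScalarTower.algebraMap_apply, ThetaAux.algebraMap_eq_C]
  rw [h]
  exact isIntegral_algebraMap.mul hx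

/-! #### Level 4 -/

theorem isIntegral_t4 : IsIntegral (polyJ k) (t4 k) :=
  isIntegral_of_rel4 (jP k) (t4 k) (t4_rel_one k)

theorem isIntegral_h2 : IsIntegral (polyJ k) (h2 k) :=
  isIntegral_of_rel2 (jP k) (h2 k) (h2_rel_a k)

theorem isIntegral_fricke4 : IsIntegral (polyJ k) (256 * (t4 k)⁻¹) := by
  have ht := t4_ne_zero k
  refine isIntegral_of_rel4_fricke (jP k) _ ?_
  rw [algebraMap_jP]
  have h := t4_rel_one k
  field_simp
  linear_combination (4096 : LaurentSeries k) * h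

theorem isIntegral_inv_t4 (h2ne : (2 : k) ≠ 0) : IsIntegral (polyJ k) (t4 k)⁻¹ := by
  have h := isIntegral_const_mul k ((256 : k)⁻¹) (isIntegral_fricke4 k)
  have h256 : (256 : k) ≠ 0 := by
    have : (256 : k) = 2 ^ 8 := by norm_num
    rw [this]
    exact pow_ne_zero _ h2ne
  have e : HahnSeries.C ((256 : k)⁻¹) * (256 * (t4 k)⁻¹) = (t4 k)⁻¹ := by
    have e1 : (256 : LaurentSeries k) = HahnSeries.C (256 : k) := (map_ofNat _ 256).symm
    rw [e1, ← mul_assoc, ← map_mul, inv_mul_cancel₀ h256, map_one, one_mul]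
  rwa [e] at h

theorem inv_t4_add : (t4 k + 16)⁻¹ = h2 k * ((t4 k)⁻¹) ^ 2 := by
  have ht := t4_ne_zero k
  have ht16 := t4_add_ne_zero k
  have h := h2_mul_t4 k
  field_simp
  linear_combination -h

theorem isIntegral_inv_t4_add (h2ne : (2 : k) ≠ 0) : IsIntegral (polyJ k) (t4 k + 16)⁻¹ := by
  rw [inv_t4_add]
  exact (isIntegral_h2 k).mul ((isIntegral_inv_t4 k h2ne).pow 2)

/-- `u₄ = t₄² (t₄ + 16)⁵`. -/
def u4 : LaurentSeries k := t4 k ^ 2 * (t4 k + 16) ^ 5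

/-- `v₄ = u₄⁻¹`. -/
def v4 : LaurentSeries k := ((t4 k)⁻¹) ^ 2 * ((t4 k + 16)⁻¹) ^ 5

theorem u4_mul_v4 : u4 k * v4 k = 1 := by
  have ht := t4_ne_zero k
  have ht16 := t4_add_ne_zero k
  unfold u4 v4
  field_simp

theorem theta_t4 : theta k (t4 k) ^ 6 = u4 k * deltaS k := ThetaHaupt.theta_t4_pow_six k

theorem isIntegral_u4 : IsIntegral (polyJ k) (u4 k) :=
  ((isIntegral_t4 k).pow 2).mul (((isIntegral_t4 k).add (isIntegral_ofNat k 16)).pow 5)

theorem isIntegral_v4 (h2ne : (2 : k) ≠ 0) : IsIntegral (polyJ k) (v4 k) :=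
  ((isIntegral_inv_t4 k h2ne).pow 2).mul ((isIntegral_inv_t4_add k h2ne).pow 5)

theorem u4_mem (h2ne : (2 : k) ≠ 0) (M : ℕ) [NeZero M] (h4 : 4 ∣ M) :
    u4 k ∈ modularFunctionFieldFullC k M := by
  have ht : t4 k ∈ modularFunctionFieldFullC k M := full_degeneracyC_le k h4 (t4_mem h2ne)
  exact mul_mem (pow_mem ht 2) (pow_mem (add_mem ht (ofNat_mem _ 16)) 5)

theorem v4_mem (h2ne : (2 : k) ≠ 0) (M : ℕ) [NeZero M] (h4 : 4 ∣ M) :
    v4 k ∈ modularFunctionFieldFullC k M := by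
  have ht : t4 k ∈ modularFunctionFieldFullC k M := full_degeneracyC_le k h4 (t4_mem h2ne)
  exact mul_mem (pow_mem (inv_mem ht) 2) (pow_mem (inv_mem (add_mem ht (ofNat_mem _ 16))) 5)

/-! #### Level 9 -/

theorem isIntegral_t9 : IsIntegral (polyJ k) (t9 k) :=
  isIntegral_of_rel9 (jP k) (t9 k) (t9_rel_one k)

theorem isIntegral_h3 : IsIntegral (polyJ k) (h3 k) :=
  isIntegral_of_rel3 (jP k) (h3 k) (h3_rel_a k)

theorem isIntegral_fricke9 : IsIntegral (polyJ k) (81 * (t9 k)⁻¹) := by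
  have ht := t9_ne_zero k
  refine isIntegral_of_rel9_fricke (jP k) _ ?_
  rw [algebraMap_jP]
  have h := t9_rel_one k
  field_simp
  linear_combination (387420489 : LaurentSeries k) * h

theorem isIntegral_inv_t9 (h3ne : (3 : k) ≠ 0) : IsIntegral (polyJ k) (t9 k)⁻¹ := by
  have h := isIntegral_const_mul k ((81 : k)⁻¹) (isIntegral_fricke9 k)
  have h81 : (81 : k) ≠ 0 := by
    have : (81 : k) = 3 ^ 4 := by norm_num
    rw [this]
    exact pow_ne_zero _ h3ne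
  have e : HahnSeries.C ((81 : k)⁻¹) * (81 * (t9 k)⁻¹) = (t9 k)⁻¹ := by
    have e1 : (81 : LaurentSeries k) = HahnSeries.C (81 : k) := (map_ofNat _ 81).symm
    rw [e1, ← mul_assoc, ← map_mul, inv_mul_cancel₀ h81, map_one, one_mul]
  rwa [e] at h

theorem inv_s9 : (t9 k ^ 2 + 9 * t9 k + 27)⁻¹ = h3 k * ((t9 k)⁻¹) ^ 3 := by
  have ht := t9_ne_zero k
  have h := h3_mul_t9 k
  apply inv_eq_of_mul_eq_one_right
  calc (t9 k ^ 2 + 9 * t9 k + 27) * (h3 k * ((t9 k)⁻¹) ^ 3)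
      = (h3 k * (t9 k ^ 2 + 9 * t9 k + 27)) * ((t9 k)⁻¹) ^ 3 := by ring
    _ = 1 := by rw [h, ← mul_pow, mul_inv_cancel₀ ht, one_pow]

theorem isIntegral_inv_s9 (h3ne : (3 : k) ≠ 0) :
    IsIntegral (polyJ k) (t9 k ^ 2 + 9 * t9 k + 27)⁻¹ := by
  rw [inv_s9]
  exact (isIntegral_h3 k).mul ((isIntegral_inv_t9 k h3ne).pow 3)

/-- `u₉ = (t₉² + 9 t₉ + 27)⁵ / t₉³`. -/
def u9 : LaurentSeries k := (t9 k ^ 2 + 9 * t9 k + 27) ^ 5 * ((t9 k)⁻¹) ^ 3

/-- `v₉ = u₉⁻¹`. -/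
def v9 : LaurentSeries k := t9 k ^ 3 * ((t9 k ^ 2 + 9 * t9 k + 27)⁻¹) ^ 5

theorem u9_mul_v9 : u9 k * v9 k = 1 := by
  have ht := t9_ne_zero k
  have hs := s9_ne_zero k
  unfold u9 v9
  calc (t9 k ^ 2 + 9 * t9 k + 27) ^ 5 * ((t9 k)⁻¹) ^ 3 *
        (t9 k ^ 3 * ((t9 k ^ 2 + 9 * t9 k + 27)⁻¹) ^ 5)
      = ((t9 k ^ 2 + 9 * t9 k + 27) * (t9 k ^ 2 + 9 * t9 k + 27)⁻¹) ^ 5
          * (t9 k * (t9 k)⁻¹) ^ 3 := by ring
    _ = 1 := by rw [mul_inv_cancel₀ hs, mul_inv_cancel₀ ht, one_pow, one_pow, one_mul]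

theorem theta_t9 : theta k (t9 k) ^ 6 = u9 k * deltaS k := by
  have ht := t9_ne_zero k
  have h := ThetaHaupt.theta_t9_pow_six k
  unfold u9
  have e : theta k (t9 k) ^ 6 = theta k (t9 k) ^ 6 * t9 k ^ 3 * ((t9 k)⁻¹) ^ 3 := by
    rw [mul_assoc, ← mul_pow, mul_inv_cancel₀ ht, one_pow, mul_one]
  rw [e, h]
  ring

theorem isIntegral_s9 : IsIntegral (polyJ k) (t9 k ^ 2 + 9 * t9 k + 27) :=
  (((isIntegral_t9 k).pow 2).add ((isIntegral_ofNat k 9).mul (isIntegral_t9 k))).add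
    (isIntegral_ofNat k 27)

theorem isIntegral_u9 (h3ne : (3 : k) ≠ 0) : IsIntegral (polyJ k) (u9 k) :=
  ((isIntegral_s9 k).pow 5).mul ((isIntegral_inv_t9 k h3ne).pow 3)

theorem isIntegral_v9 (h3ne : (3 : k) ≠ 0) : IsIntegral (polyJ k) (v9 k) :=
  ((isIntegral_t9 k).pow 3).mul ((isIntegral_inv_s9 k h3ne).pow 5)

theorem s9_mem (h3ne : (3 : k) ≠ 0) (M : ℕ) [NeZero M] (h9 : 9 ∣ M) :
    t9 k ^ 2 + 9 * t9 k + 27 ∈ modularFunctionFieldFullC k M := by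
  have ht : t9 k ∈ modularFunctionFieldFullC k M := full_degeneracyC_le k h9 (t9_mem h3ne)
  exact add_mem (add_mem (pow_mem ht 2) (mul_mem (ofNat_mem _ 9) ht)) (ofNat_mem _ 27)

theorem u9_mem (h3ne : (3 : k) ≠ 0) (M : ℕ) [NeZero M] (h9 : 9 ∣ M) :
    u9 k ∈ modularFunctionFieldFullC k M := by
  have ht : t9 k ∈ modularFunctionFieldFullC k M := full_degeneracyC_le k h9 (t9_mem h3ne)
  exact mul_mem (pow_mem (s9_mem k h3ne M h9) 5) (pow_mem (inv_mem ht) 3)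

theorem v9_mem (h3ne : (3 : k) ≠ 0) (M : ℕ) [NeZero M] (h9 : 9 ∣ M) :
    v9 k ∈ modularFunctionFieldFullC k M := by
  have ht : t9 k ∈ modularFunctionFieldFullC k M := full_degeneracyC_le k h9 (t9_mem h3ne)
  exact mul_mem (pow_mem ht 3) (pow_mem (inv_mem (s9_mem k h3ne M h9)) 5)

end Field

end Fermat.Agent.S36.HauptUnit

end
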