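/-
S36 / P8, Lemma R (helper81): the Hauptmodul as an element of `F_M` in characteristic zero.

* `coeffMap_t4`, `coeffMap_t9`: the Hauptmoduln commute with base change of fields;
* `t4_mem_Ocal`, `red_t4` (and `t9`): for a valuation subring `A` of a field `K`, `t₄ ∈ Ocal A`
  and its coefficientwise reduction is `t₄` over the residue field;
* `tau4 M h4 : FN M` (`4 ∣ M`), `tau9 M h9 : FN M` (`9 ∣ M`): the Hauptmodul in `F_M = Q̄ F_{M,ℚ}`,
  with its relation to `j`, its fixedness under every automorphism of `Q̄` and its regularity at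
  the finite places (`ord_tau4_nonneg`, `ord_tau9_nonneg`).
-/
import Mathlib
import Fermat.Agent.S18.Haupt.Level4
import Fermat.Agent.S18.Haupt.Level9
import Fermat.Agent.S18.ContentBase
import Fermat.Agent.S24.Defs
import Fermat.Agent.S34.PoleBound
import Fermat.Agent.Lib.RHSum
import Fermat.Agent.S36.HauptUnit

set_option autoImplicit false
set_option linter.style.haveILetI false

noncomputable section

namespace Fermat.Agent.S36.HauptLift

open ModularCurve AlgebraicCurve Fermat.Agent.S18.Haupt Fermat.Agent.S18.Content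
open Fermat.Agent.S24 Fermat.Agent.S34 Fermat.Agent.S18.Plan

/-! ### Base change -/

section BaseChange

variable {k k' : Type*} [Field k] [Field k'] (φ : k →+* k')

theorem coeffMap_y4 : coeffMap φ (y4 k) = y4 k' := by
  unfold y4
  rw [coeffMap_qExpand, coeffMap_h2]

theorem coeffMap_t4 : coeffMap φ (t4 k) = t4 k' := by
  unfold t4
  rw [map_div₀, map_mul, map_add, map_add, coeffMap_y4, coeffMap_h2, map_ofNat, map_ofNat]

theorem coeffMap_y9 : coeffMap φ (y9 k) = y9 k' := by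
  unfold y9
  rw [coeffMap_qExpand, coeffMap_h3]

theorem coeffMap_t9 : coeffMap φ (t9 k) = t9 k' := by
  unfold t9 nn9 dd9
  simp only [map_div₀, map_mul, map_add, map_sub, map_pow, coeffMap_y9, coeffMap_h3, map_ofNat]

end BaseChange

/-! ### Integrality and reduction -/

section Red

variable {K : Type*} [Field K] (A : ValuationSubring K)

theorem iota_h2 : iota A (h2 ↥A) = h2 K := coeffMap_h2 _

theorem rho_h2 : rho A (h2 ↥A) = h2 (IsLocalRing.ResidueField ↥A) := coeffMap_h2 _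

theorem iota_h3 : iota A (h3 ↥A) = h3 K := coeffMap_h3 _

theorem rho_h3 : rho A (h3 ↥A) = h3 (IsLocalRing.ResidueField ↥A) := coeffMap_h3 _

/-- numerator and denominator of `t₄` over `A`. -/
def n4A : LaurentSeries ↥A := qExpand ↥A 2 (h2 ↥A) * (h2 ↥A + 16)

def d4A : LaurentSeries ↥A := qExpand ↥A 2 (h2 ↥A) + 256

theorem iota_n4A : iota A (n4A A) = y4 K * (h2 K + 16) := by
  unfold n4A y4
  rw [map_mul, map_add, coeffMap_qExpand, iota_h2, map_ofNat]

theorem iota_d4A : iota A (d4A A) = y4 K + 256 := by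
  unfold d4A y4
  rw [map_add, coeffMap_qExpand, iota_h2, map_ofNat]

theorem rho_n4A : rho A (n4A A) = y4 (IsLocalRing.ResidueField ↥A) * (h2 (IsLocalRing.ResidueField ↥A) + 16) := by
  unfold n4A y4
  rw [map_mul, map_add, coeffMap_qExpand, rho_h2, map_ofNat]

theorem rho_d4A : rho A (d4A A) = y4 (IsLocalRing.ResidueField ↥A) + 256 := by
  unfold d4A y4
  rw [map_add, coeffMap_qExpand, rho_h2, map_ofNat]

theorem rho_d4A_ne_zero : rho A (d4A A) ≠ 0 := by
  rw [rho_d4A]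
  exact y4_add_ne_zero (IsLocalRing.ResidueField ↥A)

theorem t4_eq_div : t4 K = iota A (n4A A) / iota A (d4A A) := by
  rw [iota_n4A, iota_d4A]
  rfl

theorem t4_mem_Ocal : t4 K ∈ Ocal A := by
  rw [t4_eq_div A]
  exact div_mem_Ocal A _ _ (rho_d4A_ne_zero A)

theorem red_t4 : red A ⟨t4 K, t4_mem_Ocal A⟩ = t4 (IsLocalRing.ResidueField ↥A) := by
  rw [red_congr A (t4_eq_div A) (t4_mem_Ocal A) (div_mem_Ocal A _ _ (rho_d4A_ne_zero A)),
    red_div A _ _ (rho_d4A_ne_zero A), rho_n4A, rho_d4A]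
  rfl

/-- numerator and denominator of `t₉` over `A`. -/
def n9A : LaurentSeries ↥A :=
  (h3 ↥A ^ 2 + 18 * h3 ↥A + 27) * qExpand ↥A 3 (h3 ↥A) + 1458 * h3 ↥A

def d9A : LaurentSeries ↥A := (h3 ↥A + 9) * qExpand ↥A 3 (h3 ↥A) - 243 * h3 ↥A + 729

theorem iota_n9A : iota A (n9A A) = nn9 K := by
  unfold n9A nn9 y9
  simp only [map_mul, map_add, map_pow, coeffMap_qExpand, iota_h3, map_ofNat]

theorem iota_d9A : iota A (d9A A) = dd9 K := by
  unfold d9A dd9 y9
  simp only [map_mul, map_add, map_sub, coeffMap_qExpand, iota_h3, map_ofNat]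

theorem rho_n9A : rho A (n9A A) = nn9 (IsLocalRing.ResidueField ↥A) := by
  unfold n9A nn9 y9
  simp only [map_mul, map_add, map_pow, coeffMap_qExpand, rho_h3, map_ofNat]

theorem rho_d9A : rho A (d9A A) = dd9 (IsLocalRing.ResidueField ↥A) := by
  unfold d9A dd9 y9
  simp only [map_mul, map_add, map_sub, coeffMap_qExpand, rho_h3, map_ofNat]

theorem rho_d9A_ne_zero : rho A (d9A A) ≠ 0 := by
  rw [rho_d9A]
  exact dd9_ne_zero (IsLocalRing.ResidueField ↥A)

theorem t9_eq_div : t9 K = iota A (n9A A) / iota A (d9A A) := by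
  rw [iota_n9A, iota_d9A]
  rfl

theorem t9_mem_Ocal : t9 K ∈ Ocal A := by
  rw [t9_eq_div A]
  exact div_mem_Ocal A _ _ (rho_d9A_ne_zero A)

theorem red_t9 : red A ⟨t9 K, t9_mem_Ocal A⟩ = t9 (IsLocalRing.ResidueField ↥A) := by
  rw [red_congr A (t9_eq_div A) (t9_mem_Ocal A) (div_mem_Ocal A _ _ (rho_d9A_ne_zero A)),
    red_div A _ _ (rho_d9A_ne_zero A), rho_n9A, rho_d9A]
  rfl

end Red

/-! ### The Hauptmodul in `F_M` -/

section Level

variable (M : ℕ) [NeZero M]

theorem t4_mem_bar (h4 : 4 ∣ M) : t4 Kbar ∈ modularFunctionFieldBar M := by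
  have h1 : t4 ℚ ∈ modularFunctionFieldFull M :=
    full_degeneracyC_le ℚ h4 (t4_mem (by norm_num))
  have h2 := coeffEmb_mem_laurentBaseChange Kbar h1
  rwa [coeffEmb, coeffMap_t4] at h2

theorem t9_mem_bar (h9 : 9 ∣ M) : t9 Kbar ∈ modularFunctionFieldBar M := by
  have h1 : t9 ℚ ∈ modularFunctionFieldFull M :=
    full_degeneracyC_le ℚ h9 (t9_mem (by norm_num))
  have h2 := coeffEmb_mem_laurentBaseChange Kbar h1
  rwa [coeffEmb, coeffMap_t9] at h2

/-- `t₄` as an element of `F_M`, `4 ∣ M`. -/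
def tau4 (h4 : 4 ∣ M) : FN M := ⟨t4 Kbar, t4_mem_bar M h4⟩

/-- `t₉` as an element of `F_M`, `9 ∣ M`. -/
def tau9 (h9 : 9 ∣ M) : FN M := ⟨t9 Kbar, t9_mem_bar M h9⟩

theorem coe_tau4 (h4 : 4 ∣ M) : ((tau4 M h4 : FN M) : Om) = t4 Kbar := rfl

theorem coe_tau9 (h9 : 9 ∣ M) : ((tau9 M h9 : FN M) : Om) = t9 Kbar := rfl

theorem tau4_rel (h4 : 4 ∣ M) :
    jBar M * (tau4 M h4 ^ 4 * (tau4 M h4 + 16)) = (tau4 M h4 ^ 2 + 256 * tau4 M h4 + 4096) ^ 3 := by
  apply Subtype.ext
  push_cast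
  rw [PoleBound.coe_jBar', coe_tau4]
  exact t4_rel_one Kbar

theorem tau9_rel (h9 : 9 ∣ M) :
    jBar M * (tau9 M h9 ^ 9 * (tau9 M h9 ^ 2 + 9 * tau9 M h9 + 27)) =
      (tau9 M h9 + 9) ^ 3 * (tau9 M h9 ^ 3 + 243 * tau9 M h9 ^ 2 + 2187 * tau9 M h9 + 6561) ^ 3 := by
  apply Subtype.ext
  push_cast
  rw [PoleBound.coe_jBar', coe_tau9]
  exact t9_rel_one Kbar

/-- an element integral over the valuation ring of a place is regular at the place. -/
theorem ord_nonneg_of_isIntegral {K F : Type*} [Field K] [Field F] [Algebra K F]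
    (v : Place K F) {t : F} (ht : IsIntegral ↥v.toValuationSubring t) : 0 ≤ v.ord t := by
  obtain ⟨z, hz⟩ := IsIntegrallyClosed.isIntegral_iff.mp ht
  rw [← hz]
  exact Fermat.Agent.Lib.RHSum.ord_nonneg_of_mem v z.2

/-- **`t₄` is regular at the finite places of `F_M`.** -/
theorem ord_tau4_nonneg (h4 : 4 ∣ M) (v : Place Kbar (FN M)) (hv : 0 ≤ v.ord (jBar M)) :
    0 ≤ v.ord (tau4 M h4) := by
  have hj0 : jBar M ≠ 0 := fun h0 =>
    (S18.FibreCount.transcendental_jBar M) (by rw [h0]; exact isAlgebraic_zero)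
  have hj : jBar M ∈ v.toValuationSubring := Fermat.Agent.Lib.RHSum.mem_of_ord_nonneg v hj0 hv
  exact ord_nonneg_of_isIntegral v
    (HauptUnit.isIntegral_of_rel4 (⟨jBar M, hj⟩ : ↥v.toValuationSubring) (tau4 M h4)
      (tau4_rel M h4))

/-- **`t₉` is regular at the finite places of `F_M`.** -/
theorem ord_tau9_nonneg (h9 : 9 ∣ M) (v : Place Kbar (FN M)) (hv : 0 ≤ v.ord (jBar M)) :
    0 ≤ v.ord (tau9 M h9) := by
  have hj0 : jBar M ≠ 0 := fun h0 =>
    (S18.FibreCount.transcendental_jBar M) (by rw [h0]; exact isAlgebraic_zero)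
  have hj : jBar M ∈ v.toValuationSubring := Fermat.Agent.Lib.RHSum.mem_of_ord_nonneg v hj0 hv
  exact ord_nonneg_of_isIntegral v
    (HauptUnit.isIntegral_of_rel9 (⟨jBar M, hj⟩ : ↥v.toValuationSubring) (tau9 M h9)
      (tau9_rel M h9))

/-- `t₄` has rational coefficients: it is fixed by every automorphism of `Q̄`. -/
theorem coeffMap_tau4 (h4 : 4 ∣ M) (σ : Kbar →+* Kbar) :
    coeffMap σ ((tau4 M h4 : FN M) : Om) = ((tau4 M h4 : FN M) : Om) := coeffMap_t4 σ

theorem coeffMap_tau9 (h9 : 9 ∣ M) (σ : Kbar →+* Kbar) :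
    coeffMap σ ((tau9 M h9 : FN M) : Om) = ((tau9 M h9 : FN M) : Om) := coeffMap_t9 σ

end Level

end Fermat.Agent.S36.HauptLift

end
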