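/-
S36 / P8 — **Lemma R** (helper81): the `K₀`-model of `X₀(M q²)` is regular along the middle
component of the special fibre.

With `t` the auxiliary Hauptmodul (`t₄` for `q` odd, `t₉` for `q = 2`), `x := t - t(T^{q²})`,
`U₂ := Δ(T^q)² / (Δ(T) Δ(T^{q²}))` (`S36/DeltaUnit`) and `r := x^{12(q-1)} / U₂`:

* `x`, `r` are inertia-fixed, integral at all `q + 1` coordinates, regular at the finite places;
* the middle reductions of `x` vanish, those of `r` are ONE unit of `B_κ`;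
* if `f` is inertia-fixed, integral at all coordinates, with zero middle reductions, then
  `r f = x y` with `y` inertia-fixed, integral at all coordinates and `ord_w f ≤ ord_w y` at every
  finite place `w`.

Hence the ideal of the middle component is generated by `x` at every closed point of it, which is
the hypothesis `hker` of `S36/LocalDenom.exists_generator_of_reduction`.
-/
import Mathlib
import Fermat.Agent.S36.Plan
import Fermat.Agent.S36.DeltaUnit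
import Fermat.Agent.S36.MidRed
import Fermat.Agent.S36.K0Gauss
import Fermat.Agent.S36.K0Red
import Fermat.Agent.S36.HauptUnit
import Fermat.Agent.S36.HauptLift
import Fermat.Agent.Lib.PlaceEmbed
import Fermat.Agent.Lib.KroneckerCongOcal
import Fermat.Agent.S18.ContentMain

set_option autoImplicit false
set_option linter.style.haveILetI false
set_option synthInstance.maxHeartbeats 400000
set_option maxHeartbeats 1600000

noncomputable section

namespace Fermat.Agent.S36.LemmaR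

open AlgebraicCurve ModularCurve KaehlerDifferential
open Fermat.Agent.S24 Fermat.Agent.S28 Fermat.Agent.S34 Fermat.Agent Fermat.Agent.S18.Plan
  Fermat.Agent.S18.Content Fermat.Agent.S36.Plan

/-! ### `Δ`-quotients are units of `Ocal` -/

section DeltaQuot

variable {K : Type*} [Field K] (A : ValuationSubring K)

theorem expand_deltaS_ne_zero' (k : Type*) [Field k] (m : ℕ) : expand k m (deltaS k) ≠ 0 := by
  have h := Der.deltaY_ne_zero (K := k) 1 m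
  unfold Der.deltaY at h
  rwa [scale_one] at h

theorem deltaS_ne_zero' (k : Type*) [Field k] : deltaS k ≠ 0 := by
  have h := expand_deltaS_ne_zero' k 1
  rwa [expand_one] at h

/-- `V = Δ(T^q)² / (Δ(T) Δ(T^{q²}))` is a unit of `Ocal A`. -/
theorem deltaQuot_unit (q : ℕ) (V : LaurentSeries K)
    (hV : V * (deltaS K * expand K (q * q) (deltaS K)) = expand K q (deltaS K) ^ 2) :
    ∃ h : V ∈ Ocal A, red A ⟨V, h⟩ ≠ 0 := by
  set u : LaurentSeries ↥A := expand ↥A q (deltaS ↥A) ^ 2 with hu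
  set w : LaurentSeries ↥A := deltaS ↥A * expand ↥A (q * q) (deltaS ↥A) with hw
  have hiu : iota A u = expand K q (deltaS K) ^ 2 := by
    rw [hu, map_pow, coeffMap_expand, coeffMap_deltaS]
  have hiw : iota A w = deltaS K * expand K (q * q) (deltaS K) := by
    rw [hw, map_mul, coeffMap_expand, coeffMap_deltaS]
  have hru : rho A u = expand (IsLocalRing.ResidueField ↥A) q (deltaS _) ^ 2 := by
    rw [hu, map_pow, coeffMap_expand, coeffMap_deltaS]
  have hrw : rho A w = deltaS (IsLocalRing.ResidueField ↥A) *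
      expand (IsLocalRing.ResidueField ↥A) (q * q) (deltaS _) := by
    rw [hw, map_mul, coeffMap_expand, coeffMap_deltaS]
  have hrw0 : rho A w ≠ 0 := by
    rw [hrw]
    exact mul_ne_zero (deltaS_ne_zero' _) (expand_deltaS_ne_zero' _ _)
  have hru0 : rho A u ≠ 0 := by
    rw [hru]
    exact pow_ne_zero _ (expand_deltaS_ne_zero' _ _)
  have hiw0 : iota A w ≠ 0 := rho_ne_zero_imp A w hrw0
  have hVeq : V = iota A u / iota A w := by
    rw [eq_div_iff hiw0, hiu, hiw]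
    exact hV
  have hmem : V ∈ Ocal A := by
    rw [hVeq]
    exact div_mem_Ocal A u w hrw0
  refine ⟨hmem, ?_⟩
  rw [red_congr A hVeq hmem (div_mem_Ocal A u w hrw0), red_div A u w hrw0]
  exact div_ne_zero hru0 hrw0

end DeltaQuot

/-! ### Regularity at the finite places along a degeneracy map -/

section Places

/-- a function regular at the finite places stays so along a map whose image of `j` is
finite at the finite places. -/
theorem ord_map_nonneg {N N' : ℕ} [NeZero N] [NeZero N'] (φ : FN N →ₐ[Kbar] FN N')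
    (hφ : φ.toRingHom.IsIntegral) (u : FN N)
    (hu : ∀ v : Place Kbar (FN N), 0 ≤ v.ord (jBar N) → 0 ≤ v.ord u)
    (w : Place Kbar (FN N')) (hw : 0 ≤ w.ord (φ (jBar N))) : 0 ≤ w.ord (φ u) := by
  have h1 := Place.ord_restrictAlong φ hφ w u
  have h2 := Place.ord_restrictAlong φ hφ w (jBar N)
  rcases Nat.eq_zero_or_pos (Place.ramificationIndexAlong φ w) with he | he
  · rw [h1, he]
    simp
  · have he' : (0 : ℤ) < (Place.ramificationIndexAlong φ w : ℤ) := by exact_mod_cast he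
    have h3 : 0 ≤ (w.restrictAlong φ hφ).ord (jBar N) := by
      rw [h2] at hw
      exact nonneg_of_mul_nonneg_right hw he'
    rw [h1]
    exact mul_nonneg he'.le (hu _ h3)

end Places

/-! ### The elements `a = t(T)`, `b = t(T^{q²})` of the top level -/

section Elements

variable {M q : ℕ} [NeZero M] [NeZero q]

/-- `t(T)` at the top level. -/
def aEl (τ₀ : FN M) : FN (M * q * q) :=
  heckeAlphaBar Kbar (M * q) q (heckeAlphaBar Kbar M q τ₀)

/-- `t(T^{q²})` at the top level. -/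
def bEl (τ₀ : FN M) : FN (M * q * q) :=
  heckeBetaBar Kbar (M * q) q (heckeBetaBar Kbar M q τ₀)

theorem coe_aEl (τ₀ : FN M) : ((aEl (q := q) τ₀ : FN (M * q * q)) : Om) = (τ₀ : Om) :=
  (Sigma.coe_alpha _).trans (Sigma.coe_alpha τ₀)

theorem coe_bEl (τ₀ : FN M) :
    ((bEl (q := q) τ₀ : FN (M * q * q)) : Om) = qExpand Kbar q (qExpand Kbar q (τ₀ : Om)) := by
  unfold bEl
  rw [Sigma.coe_beta, Sigma.coe_beta]

variable {h : Nat.Coprime M q} (F : Frame M q h)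

theorem w_aEl (τ₀ : FN M) : F.w (aEl τ₀) = bEl τ₀ := by
  unfold aEl bEl
  rw [F.w_alpha, Sigma.sigma_alpha]

theorem w_bEl (τ₀ : FN M) : F.w (bEl τ₀) = aEl τ₀ := by
  unfold aEl bEl
  rw [F.w_beta, Sigma.sigma_beta]

theorem r_aEl (ξ : MidIdx q) (τ₀ : FN M) : F.r ξ (aEl τ₀) = (τ₀ : Om) := by
  unfold aEl
  rw [F.r_alpha, Sigma.coe_alpha]

theorem r_bEl (ξ : MidIdx q) (τ₀ : FN M) : F.r ξ (bEl τ₀) = scale ξ.1 (τ₀ : Om) := by
  unfold bEl
  rw [F.r_beta]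

/-- `a`, `b` are regular at the finite places. -/
theorem ord_aEl_nonneg (τ₀ : FN M)
    (hτ : ∀ v : Place Kbar (FN M), 0 ≤ v.ord (jBar M) → 0 ≤ v.ord τ₀)
    (w : Place Kbar (FN (M * q * q))) (hw : 0 ≤ w.ord (jBar (M * q * q))) :
    0 ≤ w.ord (aEl τ₀) := by
  have h1 : ∀ v : Place Kbar (FN (M * q)), 0 ≤ v.ord (jBar (M * q)) →
      0 ≤ v.ord (heckeAlphaBar Kbar M q τ₀) := by
    intro v hv
    refine ord_map_nonneg _ (Fermat.Agent.S37.HeckeInputs.heckeAlphaBarIntegral M q) τ₀ hτ v ?_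
    rw [PoleBound.alpha_jBar]
    exact hv
  refine ord_map_nonneg _ (Fermat.Agent.S37.HeckeInputs.heckeAlphaBarIntegral (M * q) q) _ h1 w ?_
  rw [PoleBound.alpha_jBar]
  exact hw

theorem ord_bEl_nonneg (τ₀ : FN M)
    (hτ : ∀ v : Place Kbar (FN M), 0 ≤ v.ord (jBar M) → 0 ≤ v.ord τ₀)
    (w : Place Kbar (FN (M * q * q))) (hw : 0 ≤ w.ord (jBar (M * q * q))) :
    0 ≤ w.ord (bEl τ₀) := by
  have h1 : ∀ v : Place Kbar (FN (M * q)), 0 ≤ v.ord (jBar (M * q)) →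
      0 ≤ v.ord (heckeBetaBar Kbar M q τ₀) := by
    intro v hv
    refine ord_map_nonneg _ (Fermat.Agent.S37.HeckeInputs.heckeBetaBarIntegral M q) τ₀ hτ v ?_
    rw [PoleBound.beta_jBar]
    have h3 := PoleBound.ord_jBarLevel_ge (M * q) q (Dvd.intro_left M rfl) v
    rw [min_eq_left hv, mul_zero] at h3
    exact h3
  refine ord_map_nonneg _ (Fermat.Agent.S37.HeckeInputs.heckeBetaBarIntegral (M * q) q) _ h1 w ?_
  rw [PoleBound.beta_jBar]
  have h3 := PoleBound.ord_jBarLevel_ge (M * q * q) q (Dvd.intro_left (M * q) rfl) w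
  rw [min_eq_left hw, mul_zero] at h3
  exact h3

end Elements

/-! ### The expansions of `U₂` at the coordinates `0` and `mid ξ` -/

section UExp

open DeltaUnit

variable {M q : ℕ} [NeZero M] [NeZero q] {h : Nat.Coprime M q} (F : Frame M q h)

theorem w_xT : F.w (xT M q) = f2T M q := by
  have e : xT M q = heckeAlphaBar Kbar (M * q) q (jBar (M * q)) :=
    (PoleBound.alpha_jBar (M * q) q).symm
  rw [e, F.w_alpha, Sigma.sigma_jBar]

theorem w_f1T : F.w (f1T M q) = heckeBetaBar Kbar (M * q) q (jBar (M * q)) := by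
  show F.w (heckeAlphaBar Kbar (M * q) q (Sigma.jQ M q)) = _
  rw [F.w_alpha, Sigma.sigma_jQ]

theorem w_f2T : F.w (f2T M q) = xT M q := by
  show F.w (heckeBetaBar Kbar (M * q) q (Sigma.jQ M q)) = _
  rw [F.w_beta, Sigma.sigma_jQ, PoleBound.alpha_jBar]

theorem coe_beta_jBar :
    ((heckeBetaBar Kbar (M * q) q (jBar (M * q)) : FN (M * q * q)) : Om) = yS Kbar 1 q := by
  rw [Sigma.coe_beta, PoleBound.coe_jBar', yS_one_left, expand_eq_qExpand q]

/-- **`U₂` at the coordinate `0`**: the same expansion as at `∞` (`U₂` is `w`-invariant). -/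
theorem coe_w_U2 (g₁ g₂ : FN (M * q * q))
    (hg₁ : D Kbar (FN (M * q * q)) (f1T M q) = g₁ • D Kbar (FN (M * q * q)) (xT M q))
    (hg₂ : D Kbar (FN (M * q * q)) (f2T M q) = g₂ • D Kbar (FN (M * q * q)) (xT M q)) :
    ((F.w (U2 M q g₁ g₂) : FN (M * q * q)) : Om)
        * (deltaS Kbar * expand Kbar (q * q) (deltaS Kbar))
      = expand Kbar q (deltaS Kbar) ^ 2 := by
  have hq0 : q ≠ 0 := NeZero.ne q
  have hx : ((incl (M * q * q)).comp (F.w : FN (M * q * q) →ₐ[Kbar] FN (M * q * q))) (xT M q)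
      = yS Kbar 1 (q * q) := by
    show ((F.w (xT M q) : FN (M * q * q)) : Om) = _
    rw [w_xT, coe_f2T]
  have hf1 : ((incl (M * q * q)).comp (F.w : FN (M * q * q) →ₐ[Kbar] FN (M * q * q))) (f1T M q)
      = yS Kbar 1 q := by
    show ((F.w (f1T M q) : FN (M * q * q)) : Om) = _
    rw [w_f1T, coe_beta_jBar]
  have hf2 : ((incl (M * q * q)).comp (F.w : FN (M * q * q) →ₐ[Kbar] FN (M * q * q))) (f2T M q)
      = yS Kbar 1 1 := by
    show ((F.w (f2T M q) : FN (M * q * q)) : Om) = _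
    rw [w_f2T]
    exact coe_jBar_yS (M * q * q)
  have h0 := Der.map_U_mul
    ((incl (M * q * q)).comp (F.w : FN (M * q * q) →ₐ[Kbar] FN (M * q * q))) hg₁ hg₂ 1 1 1
    (q * q) q 1 (Nat.mul_ne_zero hq0 hq0) hq0 one_ne_zero hx hf1 hf2
  rw [deltaY_one, deltaY_one, deltaY_one, expand_one, Nat.cast_one, one_pow, one_mul] at h0
  have h' : ((F.w (U2 M q g₁ g₂) : FN (M * q * q)) : Om) *
      (((q * q : ℕ) : Om) ^ 6 * expand Kbar (q * q) (deltaS Kbar) * deltaS Kbar)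
      = ((q : Om) ^ 6 * expand Kbar q (deltaS Kbar)) ^ 2 := h0
  rw [Nat.cast_mul] at h'
  have hQ : ((q : Om)) ^ 12 ≠ 0 := pow_ne_zero _ (DeltaUnit.natCast_ne_zero q hq0)
  have h2 : ((q : Om)) ^ 12 * (((F.w (U2 M q g₁ g₂) : FN (M * q * q)) : Om)
      * (deltaS Kbar * expand Kbar (q * q) (deltaS Kbar)) - expand Kbar q (deltaS Kbar) ^ 2) = 0 := by
    linear_combination h'
  exact sub_eq_zero.mp ((mul_eq_zero.mp h2).resolve_left hQ)

/-- `U₂` has the same expansion at `0` and at `∞`. -/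
theorem coe_w_U2_eq (g₁ g₂ : FN (M * q * q))
    (hg₁ : D Kbar (FN (M * q * q)) (f1T M q) = g₁ • D Kbar (FN (M * q * q)) (xT M q))
    (hg₂ : D Kbar (FN (M * q * q)) (f2T M q) = g₂ • D Kbar (FN (M * q * q)) (xT M q)) :
    ((F.w (U2 M q g₁ g₂) : FN (M * q * q)) : Om) = ((U2 M q g₁ g₂ : FN (M * q * q)) : Om) := by
  have h1 := coe_w_U2 F g₁ g₂ hg₁ hg₂
  have h2 := coe_U2_mul M q g₁ g₂ hg₁ hg₂
  have hne : deltaS Kbar * expand Kbar (q * q) (deltaS Kbar) ≠ 0 :=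
    mul_ne_zero deltaS_ne_zero (expand_deltaS_ne_zero (q * q))
  exact mul_right_cancel₀ hne (h1.trans h2.symm)

/-- **`U₂` at a middle coordinate**, in the shape consumed by `MidRed.rRed_of_map_U`. -/
theorem r_U2 (ξ : MidIdx q) (g₁ g₂ : FN (M * q * q))
    (hg₁ : D Kbar (FN (M * q * q)) (f1T M q) = g₁ • D Kbar (FN (M * q * q)) (xT M q))
    (hg₂ : D Kbar (FN (M * q * q)) (f2T M q) = g₂ • D Kbar (FN (M * q * q)) (xT M q)) :
    F.r ξ (U2 M q g₁ g₂) * (((1 : ℕ) : Om) ^ 6 * Der.deltaY Kbar 1 1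
        * (((1 : ℕ) : Om) ^ 6 * Der.deltaY Kbar ξ.1 1))
      = ((q : Om) ^ 6 * Der.deltaY Kbar 1 q) ^ 2 := by
  have hq0 : q ≠ 0 := NeZero.ne q
  have hx : F.r ξ (xT M q) = yS Kbar 1 1 := by
    have e : xT M q = heckeAlphaBar Kbar (M * q) q (jBar (M * q)) :=
      (PoleBound.alpha_jBar (M * q) q).symm
    rw [e, F.r_alpha]
    exact coe_jBar_yS (M * q)
  have hf1 : F.r ξ (f1T M q) = yS Kbar 1 q := by
    show F.r ξ (heckeAlphaBar Kbar (M * q) q (Sigma.jQ M q)) = _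
    rw [F.r_alpha]
    exact coe_jQ_yS M q
  have hf2 : F.r ξ (f2T M q) = yS Kbar ξ.1 1 := by
    show F.r ξ (heckeBetaBar Kbar (M * q) q (heckeBetaBar Kbar M q (jBar M))) = _
    rw [F.r_beta, PoleBound.coe_jBar']
    unfold yS
    rw [expand_one]
  exact Der.map_U_mul (F.r ξ) hg₁ hg₂ 1 1 ξ.1 1 q 1 one_ne_zero hq0 one_ne_zero hx hf1 hf2

end UExp

/-! ### Small tools -/

section Tools

variable (A : ValuationSubring Kbar)

theorem div_unit_mem {n V : Om} (hn : n ∈ Ocal A)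
    (hV : ∃ h : V ∈ Ocal A, red A ⟨V, h⟩ ≠ 0) : n / V ∈ Ocal A := by
  obtain ⟨h, hr⟩ := hV
  rw [div_eq_mul_inv]
  exact (Ocal A).mul_mem hn (inv_mem_Ocal A ⟨V, h⟩ hr)

theorem fixed_of_forall {x : Om} (hx : ∀ σ : Kbar →+* Kbar, coeffMap σ x = x) :
    K0Red.Fixed A x := fun _ _ => hx _

variable {A} in
theorem fixed_div {a b : Om} (ha : K0Red.Fixed A a) (hb : K0Red.Fixed A b) :
    K0Red.Fixed A (a / b) := fun τ hτ => by rw [map_div₀, ha τ hτ, hb τ hτ]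

variable {A} in
theorem fixed_pow {a : Om} (ha : K0Red.Fixed A a) (n : ℕ) : K0Red.Fixed A (a ^ n) :=
  fun τ hτ => by rw [map_pow, ha τ hτ]

theorem exists_midIdx (q : ℕ) [NeZero q] : Nonempty (MidIdx q) := by
  haveI : NeZero ((q : ℕ) : Kbar) := ⟨by exact_mod_cast NeZero.ne q⟩
  obtain ⟨ζ, hζ⟩ := HasEnoughRootsOfUnity.exists_primitiveRoot Kbar q
  exact ⟨⟨(hζ.isUnit (NeZero.ne q)).unit, IsPrimitiveRoot.coe_units_iff.mp (by simpa using hζ)⟩⟩

end Tools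

/-! ### The element `x = t(T) - t(T^{q²})` -/

section XEl

open DeltaUnit

variable {M q : ℕ} [NeZero M] [NeZero q] {h : Nat.Coprime M q} (F : Frame M q h)
  (A : ValuationSubring Kbar)

/-- `x = t(T) - t(T^{q²})`. -/
def xEl (τ₀ : FN M) : FN (M * q * q) := aEl τ₀ - bEl τ₀

theorem coe_xEl (τ₀ : FN M) : ((xEl (q := q) τ₀ : FN (M * q * q)) : Om)
    = (τ₀ : Om) - qExpand Kbar q (qExpand Kbar q (τ₀ : Om)) := by
  show ((aEl (q := q) τ₀ : FN (M * q * q)) : Om) - ((bEl (q := q) τ₀ : FN (M * q * q)) : Om) = _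
  rw [coe_aEl, coe_bEl]

theorem w_xEl (τ₀ : FN M) : F.w (xEl τ₀) = -xEl τ₀ := by
  unfold xEl
  rw [map_sub, w_aEl, w_bEl]
  ring

theorem r_xEl (ξ : MidIdx q) (τ₀ : FN M) :
    F.r ξ (xEl τ₀) = (τ₀ : Om) - scale ξ.1 (τ₀ : Om) := by
  unfold xEl
  rw [map_sub, r_aEl, r_bEl]

theorem coeffMap_xEl (τ₀ : FN M)
    (hτfix : ∀ σ : Kbar →+* Kbar, coeffMap σ (τ₀ : Om) = (τ₀ : Om)) (σ : Kbar →+* Kbar) :
    coeffMap σ ((xEl (q := q) τ₀ : FN (M * q * q)) : Om)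
      = ((xEl (q := q) τ₀ : FN (M * q * q)) : Om) := by
  rw [coe_xEl, map_sub, coeffMap_qExpand, coeffMap_qExpand, hτfix]

theorem coeffMap_U2 (g₁ g₂ : FN (M * q * q))
    (hg₁ : D Kbar (FN (M * q * q)) (f1T M q) = g₁ • D Kbar (FN (M * q * q)) (xT M q))
    (hg₂ : D Kbar (FN (M * q * q)) (f2T M q) = g₂ • D Kbar (FN (M * q * q)) (xT M q))
    (σ : Kbar →+* Kbar) :
    coeffMap σ ((U2 M q g₁ g₂ : FN (M * q * q)) : Om) = ((U2 M q g₁ g₂ : FN (M * q * q)) : Om) := by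
  have h2 := coe_U2_mul M q g₁ g₂ hg₁ hg₂
  have h1 := congrArg (coeffMap σ) h2
  rw [map_mul, map_mul, map_pow, coeffMap_expand, coeffMap_expand, coeffMap_deltaS] at h1
  have hne : deltaS Kbar * expand Kbar (q * q) (deltaS Kbar) ≠ 0 :=
    mul_ne_zero deltaS_ne_zero (expand_deltaS_ne_zero (q * q))
  exact mul_right_cancel₀ hne (h1.trans h2.symm)

theorem xEl_mem (τ₀ : FN M) (hτO : (τ₀ : Om) ∈ Ocal A) :
    ((xEl (q := q) τ₀ : FN (M * q * q)) : Om) ∈ Ocal A := by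
  rw [coe_xEl]
  exact (Ocal A).sub_mem hτO
    (Fermat.Agent.Lib.KroneckerCong.qExpand_mem_Ocal A q
      (Fermat.Agent.Lib.KroneckerCong.qExpand_mem_Ocal A q hτO))

theorem ord_xEl_nonneg (τ₀ : FN M)
    (hτ : ∀ v : Place Kbar (FN M), 0 ≤ v.ord (jBar M) → 0 ≤ v.ord τ₀)
    (w : Place Kbar (FN (M * q * q))) (hw : 0 ≤ w.ord (jBar (M * q * q))) :
    0 ≤ w.ord (xEl τ₀) := by
  have ha := Fermat.Agent.Lib.PlaceEmbed.mem_of_ord_nonneg w (ord_aEl_nonneg τ₀ hτ w hw)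
  have hb := Fermat.Agent.Lib.PlaceEmbed.mem_of_ord_nonneg w (ord_bEl_nonneg τ₀ hτ w hw)
  exact Fermat.Agent.Lib.PlaceEmbed.ord_nonneg_of_mem w (sub_mem ha hb)

end XEl

/-! ### The middle coordinate (pure series) -/

section MidCore

variable (A : ValuationSubring Kbar) (q : ℕ) [Fact q.Prime]

/-- At a middle coordinate: `r = (t - t(ξT))^{12(q-1)} / U_ξ` is integral with reduction
`u^{2(q-1)}`, `t - t(ξT) ≠ 0`, and `f (t - t(ξT))^{12(q-1)-1} / U_ξ` is integral as soon as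
`f / (ξ - 1)` is. -/
theorem mid_core (hκ : CharP (kk A) q) (ξ : Kbarˣ) (hξ : IsPrimitiveRoot ξ q) (τ : Ocal A)
    (Uξ : Om)
    (hU : Uξ * (((1 : ℕ) : Om) ^ 6 * Der.deltaY Kbar 1 1
        * (((1 : ℕ) : Om) ^ 6 * Der.deltaY Kbar ξ 1))
      = ((q : Om) ^ 6 * Der.deltaY Kbar 1 q) ^ 2)
    (u : Omk A) (hu0 : u ≠ 0) (hθ : theta (kk A) (red A τ) ^ 6 = u * deltaS (kk A)) :
    (∃ hR : ((τ : Om) - scale ξ (τ : Om)) ^ (12 * (q - 1)) / Uξ ∈ Ocal A,
      red A ⟨_, hR⟩ = u ^ (2 * (q - 1))) ∧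
    (τ : Om) - scale ξ (τ : Om) ≠ 0 ∧
    ∀ fξ : Om, HahnSeries.C (((ξ : Kbar) - 1)⁻¹) * fξ ∈ Ocal A →
      fξ * ((τ : Om) - scale ξ (τ : Om)) ^ (12 * (q - 1) - 1) / Uξ ∈ Ocal A := by
  have hq : q.Prime := Fact.out
  have hq2 := hq.two_le
  have hΔ : deltaS (kk A) ≠ 0 := deltaS_ne_zero' _
  have hθ0 : theta (kk A) (red A τ) ≠ 0 := by
    intro h0
    rw [h0, zero_pow (by norm_num)] at hθ
    exact mul_ne_zero hu0 hΔ hθ.symm
  have hNeven : Even (12 * (q - 1)) := (by decide : Even 12).mul_right _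
  have hNodd : Odd (12 * (q - 1) - 1) := ⟨6 * (q - 1) - 1, by omega⟩
  have hNs : 12 * (q - 1) = (12 * (q - 1) - 1) + 1 := by omega
  obtain ⟨hR, hRred⟩ := MidRed.rRed_of_map_U A q hκ ξ hξ τ Uξ hU
  obtain ⟨w', hw', -⟩ := MidRed.exists_inv_scale_sub_xi A q hκ ξ hξ.pow_eq_one τ hθ0
  have hneg : ((τ : Om) - scale ξ (τ : Om)) = -(scale ξ (τ : Om) - (τ : Om)) := by ring
  have hξ1 : (ξ : Kbar) - 1 ≠ 0 := by
    have h1 : ξ ≠ 1 := hξ.ne_one hq.one_lt
    intro h0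
    exact h1 (Units.ext (sub_eq_zero.mp h0))
  have hc : (HahnSeries.C ((ξ : Kbar) - 1) : Om) ≠ 0 := by
    rw [Ne, map_eq_zero_iff _ HahnSeries.C_injective]
    exact hξ1
  have hd0 : scale ξ (τ : Om) - (τ : Om) ≠ 0 := by
    intro h0
    rw [h0, zero_mul] at hw'
    exact hc hw'.symm
  refine ⟨?_, ?_, ?_⟩
  · have e : ((τ : Om) - scale ξ (τ : Om)) ^ (12 * (q - 1)) / Uξ
        = (scale ξ (τ : Om) - (τ : Om)) ^ (12 * (q - 1)) / Uξ := by
      rw [hneg, hNeven.neg_pow]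
    have hmem : ((τ : Om) - scale ξ (τ : Om)) ^ (12 * (q - 1)) / Uξ ∈ Ocal A := by
      rw [e]; exact hR
    refine ⟨hmem, ?_⟩
    rw [red_congr A e hmem hR]
    have h1 : theta (kk A) (red A τ) ^ (12 * (q - 1))
        = u ^ (2 * (q - 1)) * deltaS (kk A) ^ (2 * (q - 1)) := by
      have e6 : 12 * (q - 1) = 6 * (2 * (q - 1)) := by ring
      rw [e6, pow_mul, hθ, mul_pow]
    rw [h1] at hRred
    exact mul_right_cancel₀ (pow_ne_zero _ hΔ) hRred
  · rw [hneg]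
    exact neg_ne_zero.mpr hd0
  · intro fξ hf
    have hcinv : (HahnSeries.C (((ξ : Kbar) - 1)⁻¹) : Om) = (HahnSeries.C ((ξ : Kbar) - 1))⁻¹ :=
      map_inv₀ _ _
    have hpow : (scale ξ (τ : Om) - (τ : Om)) ^ (12 * (q - 1))
        = (scale ξ (τ : Om) - (τ : Om)) ^ (12 * (q - 1) - 1) * (scale ξ (τ : Om) - (τ : Om)) := by
      conv_lhs => rw [hNs]
      exact pow_succ _ _
    have key : fξ * ((τ : Om) - scale ξ (τ : Om)) ^ (12 * (q - 1) - 1) / Uξ
        = -((HahnSeries.C (((ξ : Kbar) - 1)⁻¹) * fξ)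
            * ((scale ξ (τ : Om) - (τ : Om)) ^ (12 * (q - 1)) / Uξ) * (w' : Om)) := by
      rw [hneg, hNodd.neg_pow, hcinv, hpow]
      have e1 : (HahnSeries.C ((ξ : Kbar) - 1))⁻¹ * fξ
          * ((scale ξ (τ : Om) - (τ : Om)) ^ (12 * (q - 1) - 1)
              * (scale ξ (τ : Om) - (τ : Om)) / Uξ) * (w' : Om)
          = fξ * (scale ξ (τ : Om) - (τ : Om)) ^ (12 * (q - 1) - 1) / Uξ
              * ((HahnSeries.C ((ξ : Kbar) - 1))⁻¹
                * ((scale ξ (τ : Om) - (τ : Om)) * (w' : Om))) := by ring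
      rw [e1, hw', inv_mul_cancel₀ hc, mul_one]
      ring
    rw [key]
    exact (Ocal A).neg_mem ((Ocal A).mul_mem ((Ocal A).mul_mem hf hR) w'.2)

end MidCore

/-! ### Lemma R -/

section Main

open DeltaUnit

variable {M q : ℕ} [NeZero M] [NeZero q]

/-- **Lemma R for an abstract Hauptmodul datum** `τ₀ ∈ F_M`: integral, rational, regular at the
finite places, with `(θ τ̄₀)⁶ = u Δ̄` for a unit `u` of `B_κ`. -/
theorem lemmaR_of_datum (hq : q.Prime) (h : Nat.Coprime M q) (hM : 4 ∣ M ∨ 9 ∣ M)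
    (A : ValuationSubring Kbar) (hA : A.LiesOverPrime q) (F : Frame M q h)
    (τ₀ : FN M) (hτO : (τ₀ : Om) ∈ Ocal A)
    (hτfix : ∀ σ : Kbar →+* Kbar, coeffMap σ (τ₀ : Om) = (τ₀ : Om))
    (hτreg : ∀ v : Place Kbar (FN M), 0 ≤ v.ord (jBar M) → 0 ≤ v.ord τ₀)
    (u v : Omk A) (hu : u ∈ S34.Plan.BK A M) (hv : v ∈ S34.Plan.BK A M) (huv : u * v = 1)
    (hθ : theta (kk A) (red A ⟨_, hτO⟩) ^ 6 = u * deltaS (kk A)) :
    ∃ x r : FN (M * q * q),
      K0Red.Fixed A (x : Om) ∧ K0Red.Fixed A (r : Om) ∧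
      (∀ i, F.emb i x ∈ Ocal A) ∧ (∀ i, F.emb i r ∈ Ocal A) ∧
      (∀ w : Place Kbar (FN (M * q * q)), 0 ≤ w.ord (jBar (M * q * q)) → 0 ≤ w.ord x) ∧
      (∀ w : Place Kbar (FN (M * q * q)), 0 ≤ w.ord (jBar (M * q * q)) → 0 ≤ w.ord r) ∧
      (∀ (ξ : MidIdx q) (hx : F.emb (.mid ξ) x ∈ Ocal A), red A ⟨_, hx⟩ = 0) ∧
      (∃ u ∈ S34.Plan.BK A M, ∃ v ∈ S34.Plan.BK A M, u * v = 1 ∧
        ∀ (ξ : MidIdx q) (hr : F.emb (.mid ξ) r ∈ Ocal A), red A ⟨_, hr⟩ = u) ∧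
      ∀ f : FN (M * q * q), K0Red.Fixed A (f : Om) → (∀ i, F.emb i f ∈ Ocal A) →
        (∀ (ξ : MidIdx q) (hf : F.emb (.mid ξ) f ∈ Ocal A), red A ⟨_, hf⟩ = 0) →
        ∃ y : FN (M * q * q), r * f = x * y ∧ K0Red.Fixed A (y : Om) ∧
          (∀ i, F.emb i y ∈ Ocal A) ∧
          ∀ w : Place Kbar (FN (M * q * q)), 0 ≤ w.ord (jBar (M * q * q)) → w.ord f ≤ w.ord y := by
  haveI : Fact q.Prime := ⟨hq⟩
  have hq2 := hq.two_le
  have hκ : CharP (kk A) q := charP_residueField_of_liesOverPrime A q hA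
  obtain ⟨g₁, g₂, hg₁, hg₂, hU0, hUinf, hUord⟩ := exists_U2 M q h hM
  have hu0 : u ≠ 0 := left_ne_zero_of_mul_eq_one huv
  have hNs : 12 * (q - 1) = (12 * (q - 1) - 1) + 1 := by omega
  -- the units of `Ocal` at `∞` and `0`
  have hVinf : ∃ hh : F.emb .inf (U2 M q g₁ g₂) ∈ Ocal A, red A ⟨_, hh⟩ ≠ 0 :=
    deltaQuot_unit A q _ hUinf
  have hVzero : ∃ hh : F.emb .zero (U2 M q g₁ g₂) ∈ Ocal A, red A ⟨_, hh⟩ ≠ 0 :=
    deltaQuot_unit A q _ (coe_w_U2 F g₁ g₂ hg₁ hg₂)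
  -- `x` at the coordinates
  have hxinf : F.emb .inf (xEl (q := q) τ₀) ∈ Ocal A := xEl_mem A τ₀ hτO
  have hxzero : F.emb .zero (xEl (q := q) τ₀) ∈ Ocal A := by
    rw [Frame.emb_zero, w_xEl]
    exact (Ocal A).neg_mem (xEl_mem A τ₀ hτO)
  have hxmid : ∀ ξ : MidIdx q, F.emb (.mid ξ) (xEl (q := q) τ₀)
      = (τ₀ : Om) - scale ξ.1 (τ₀ : Om) := fun ξ => r_xEl F ξ τ₀
  have hscale : ∀ ξ : MidIdx q, scale ξ.1 (τ₀ : Om) ∈ Ocal A := fun ξ =>
    MidRed.scale_xi_mem_Ocal A ξ.1 hq.ne_zero ξ.2.pow_eq_one hτO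
  -- the middle coordinates
  have hmid := fun ξ : MidIdx q =>
    mid_core A q hκ ξ.1 ξ.2 ⟨(τ₀ : Om), hτO⟩ (F.r ξ (U2 M q g₁ g₂)) (r_U2 F ξ g₁ g₂ hg₁ hg₂)
      u hu0 hθ
  -- fixedness
  have hxfix : K0Red.Fixed A ((xEl (q := q) τ₀ : FN (M * q * q)) : Om) :=
    fixed_of_forall A (coeffMap_xEl τ₀ hτfix)
  have hUfix : K0Red.Fixed A ((U2 M q g₁ g₂ : FN (M * q * q)) : Om) :=
    fixed_of_forall A (coeffMap_U2 g₁ g₂ hg₁ hg₂)
  -- `x ≠ 0`
  have hx0 : xEl (q := q) τ₀ ≠ 0 := by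
    obtain ⟨ξ⟩ := exists_midIdx q
    intro h0
    have h1 := hxmid ξ
    rw [h0, map_zero] at h1
    exact (hmid ξ).2.1 h1.symm
  refine ⟨xEl (q := q) τ₀, xEl (q := q) τ₀ ^ (12 * (q - 1)) / U2 M q g₁ g₂,
    hxfix, fixed_div (fixed_pow hxfix _) hUfix, ?_, ?_, ?_, ?_, ?_, ?_, ?_⟩
  · -- x integral
    intro i
    cases i with
    | inf => exact hxinf
    | zero => exact hxzero
    | mid ξ =>
      rw [hxmid ξ]
      exact (Ocal A).sub_mem hτO (hscale ξ)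
  · -- r integral
    intro i
    cases i with
    | inf =>
      rw [map_div₀, map_pow]
      exact div_unit_mem A (pow_mem hxinf _) hVinf
    | zero =>
      rw [map_div₀, map_pow]
      exact div_unit_mem A (pow_mem hxzero _) hVzero
    | mid ξ =>
      rw [map_div₀, map_pow, hxmid ξ]
      exact (hmid ξ).1.1
  · -- x regular
    exact fun w hw => ord_xEl_nonneg τ₀ hτreg w hw
  · -- r regular
    intro w hw
    have hxw := Fermat.Agent.Lib.PlaceEmbed.mem_of_ord_nonneg w (ord_xEl_nonneg τ₀ hτreg w hw)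
    have hUw : (U2 M q g₁ g₂)⁻¹ ∈ w.toValuationSubring := by
      apply Fermat.Agent.Lib.PlaceEmbed.mem_of_ord_nonneg w
      rw [Place.ord_inv, hUord w hw, neg_zero]
    rw [div_eq_mul_inv]
    exact Fermat.Agent.Lib.PlaceEmbed.ord_nonneg_of_mem w (mul_mem (pow_mem hxw _) hUw)
  · -- middle reductions of x vanish
    intro ξ hx
    have e := hxmid ξ
    have hmem : (τ₀ : Om) - scale ξ.1 (τ₀ : Om) ∈ Ocal A := (Ocal A).sub_mem hτO (hscale ξ)
    rw [red_congr A e hx hmem]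
    have h1 : (⟨(τ₀ : Om) - scale ξ.1 (τ₀ : Om), hmem⟩ : Ocal A)
        = ⟨(τ₀ : Om), hτO⟩ - ⟨scale ξ.1 (τ₀ : Om), hscale ξ⟩ := rfl
    rw [h1, map_sub, MidRed.red_scale_xi A q hκ ξ.1 ξ.2.pow_eq_one ⟨(τ₀ : Om), hτO⟩ (hscale ξ),
      sub_self]
  · -- the unit
    refine ⟨u ^ (2 * (q - 1)), pow_mem hu _, v ^ (2 * (q - 1)), pow_mem hv _, ?_, ?_⟩
    · rw [← mul_pow, huv, one_pow]
    · intro ξ hr
      have e : F.emb (.mid ξ) (xEl (q := q) τ₀ ^ (12 * (q - 1)) / U2 M q g₁ g₂)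
          = ((τ₀ : Om) - scale ξ.1 (τ₀ : Om)) ^ (12 * (q - 1)) / F.r ξ (U2 M q g₁ g₂) := by
        rw [map_div₀, map_pow, hxmid ξ]
        rfl
      rw [red_congr A e hr (hmid ξ).1.1]
      exact (hmid ξ).1.2
  · -- division by x
    intro f hffix hfO hfmid
    refine ⟨f * xEl (q := q) τ₀ ^ (12 * (q - 1) - 1) / U2 M q g₁ g₂, ?_,
      fixed_div (K0Red.Fixed.mul hffix (fixed_pow hxfix _)) hUfix, ?_, ?_⟩
    · have hp : xEl (q := q) τ₀ ^ (12 * (q - 1))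
          = xEl (q := q) τ₀ ^ (12 * (q - 1) - 1) * xEl (q := q) τ₀ := by
        conv_lhs => rw [hNs]
        exact pow_succ _ _
      rw [hp]
      ring
    · intro i
      cases i with
      | inf =>
        rw [map_div₀, map_mul, map_pow]
        exact div_unit_mem A ((Ocal A).mul_mem (hfO .inf) (pow_mem hxinf _)) hVinf
      | zero =>
        rw [map_div₀, map_mul, map_pow]
        exact div_unit_mem A ((Ocal A).mul_mem (hfO .zero) (pow_mem hxzero _)) hVzero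
      | mid ξ =>
        rw [map_div₀, map_mul, map_pow, hxmid ξ]
        refine (hmid ξ).2.2 _ ?_
        have hIsMid : MidEmb.IsMid M q ξ.1 (F.r ξ : FN (M * q * q) →+* Om) :=
          ⟨fun c => (F.r ξ).commutes c, fun x => F.r_alpha ξ x, fun x => F.r_beta ξ x⟩
        have hfix' : ∀ τ' ∈ A.inertiaSubgroupIn ℚ,
            arithmeticRingAut (modularFunctionFieldFull (M * q * q)) τ' f = f := fun τ' hτ' =>
          Subtype.ext (by rw [coe_arithmeticRingAut_apply]; exact hffix τ' hτ')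
        exact K0Gauss.div_mid_mem_Ocal A hq hA ξ.1 ξ.2 (F.r ξ : FN (M * q * q) →+* Om) hIsMid f
          hfix' (hfO (.mid ξ)) (hfmid ξ (hfO (.mid ξ)))
    · intro w hw
      by_cases hf0 : f = 0
      · rw [hf0, zero_mul, zero_div]
      · have hxw := ord_xEl_nonneg τ₀ hτreg w hw
        rw [div_eq_mul_inv, Place.ord_mul w (mul_ne_zero hf0 (pow_ne_zero _ hx0)) (inv_ne_zero hU0),
          Place.ord_mul w hf0 (pow_ne_zero _ hx0), ord_pow, Place.ord_inv, hUord w hw, neg_zero,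
          add_zero]
        have : (0 : ℤ) ≤ ((12 * (q - 1) - 1 : ℕ) : ℤ) * w.ord (xEl (q := q) τ₀) :=
          mul_nonneg (Int.natCast_nonneg _) hxw
        linarith

omit [NeZero M] in
theorem mem_planBK {A : ValuationSubring Kbar} {x : Omk A}
    (h1 : x ∈ modularFunctionFieldFullC (kk A) M) (h2 : IsIntegral (polyJ (kk A)) x) :
    x ∈ S34.Plan.BK A M := by
  unfold S34.Plan.BK
  rw [Algebra.mem_inf, Subalgebra.mem_restrictScalars, mem_integralClosure_iff]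
  exact ⟨h1, h2⟩

omit [NeZero q] in
theorem ofNat_ne_zero_of_prime (A : ValuationSubring Kbar) (hq : q.Prime)
    (hA : A.LiesOverPrime q) (p : ℕ) (hp : p.Prime) (hne : q ≠ p) : ((p : ℕ) : kk A) ≠ 0 := by
  haveI : Fact q.Prime := ⟨hq⟩
  haveI : CharP (kk A) q := charP_residueField_of_liesOverPrime A q hA
  intro h0
  rw [CharP.cast_eq_zero_iff (kk A) q] at h0
  exact hne ((Nat.prime_dvd_prime_iff_eq hq hp).mp h0)

/-- **Lemma R** (regularity of the `K₀`-model along the middle component). -/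
theorem lemmaR (hq : q.Prime) (h : Nat.Coprime M q)
    (hM : (4 ∣ M ∧ q ≠ 2) ∨ (9 ∣ M ∧ q ≠ 3))
    (A : ValuationSubring Kbar) (hA : A.LiesOverPrime q) (F : Frame M q h) :
    ∃ x r : FN (M * q * q),
      K0Red.Fixed A (x : Om) ∧ K0Red.Fixed A (r : Om) ∧
      (∀ i, F.emb i x ∈ Ocal A) ∧ (∀ i, F.emb i r ∈ Ocal A) ∧
      (∀ w : Place Kbar (FN (M * q * q)), 0 ≤ w.ord (jBar (M * q * q)) → 0 ≤ w.ord x) ∧
      (∀ w : Place Kbar (FN (M * q * q)), 0 ≤ w.ord (jBar (M * q * q)) → 0 ≤ w.ord r) ∧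
      (∀ (ξ : MidIdx q) (hx : F.emb (.mid ξ) x ∈ Ocal A), red A ⟨_, hx⟩ = 0) ∧
      (∃ u ∈ S34.Plan.BK A M, ∃ v ∈ S34.Plan.BK A M, u * v = 1 ∧
        ∀ (ξ : MidIdx q) (hr : F.emb (.mid ξ) r ∈ Ocal A), red A ⟨_, hr⟩ = u) ∧
      ∀ f : FN (M * q * q), K0Red.Fixed A (f : Om) → (∀ i, F.emb i f ∈ Ocal A) →
        (∀ (ξ : MidIdx q) (hf : F.emb (.mid ξ) f ∈ Ocal A), red A ⟨_, hf⟩ = 0) →
        ∃ y : FN (M * q * q), r * f = x * y ∧ K0Red.Fixed A (y : Om) ∧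
          (∀ i, F.emb i y ∈ Ocal A) ∧
          ∀ w : Place Kbar (FN (M * q * q)), 0 ≤ w.ord (jBar (M * q * q)) → w.ord f ≤ w.ord y := by
  rcases hM with ⟨h4, hq2⟩ | ⟨h9, hq3⟩
  · have h2ne : (2 : kk A) ≠ 0 := by
      have := ofNat_ne_zero_of_prime A hq hA 2 Nat.prime_two hq2
      exact_mod_cast this
    refine lemmaR_of_datum hq h (Or.inl h4) A hA F (HauptLift.tau4 M h4)
      (HauptLift.t4_mem_Ocal A) (HauptLift.coeffMap_tau4 M h4) (HauptLift.ord_tau4_nonneg M h4)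
      (HauptUnit.u4 (kk A)) (HauptUnit.v4 (kk A))
      (mem_planBK (HauptUnit.u4_mem (kk A) h2ne M h4) (HauptUnit.isIntegral_u4 (kk A)))
      (mem_planBK (HauptUnit.v4_mem (kk A) h2ne M h4) (HauptUnit.isIntegral_v4 (kk A) h2ne))
      (HauptUnit.u4_mul_v4 (kk A)) ?_
    have e : red A ⟨((HauptLift.tau4 M h4 : FN M) : Om), HauptLift.t4_mem_Ocal A⟩
        = Fermat.Agent.S18.Haupt.t4 (kk A) := HauptLift.red_t4 A
    rw [e]
    exact HauptUnit.theta_t4 (kk A)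
  · have h3ne : (3 : kk A) ≠ 0 := by
      have := ofNat_ne_zero_of_prime A hq hA 3 Nat.prime_three hq3
      exact_mod_cast this
    refine lemmaR_of_datum hq h (Or.inr h9) A hA F (HauptLift.tau9 M h9)
      (HauptLift.t9_mem_Ocal A) (HauptLift.coeffMap_tau9 M h9) (HauptLift.ord_tau9_nonneg M h9)
      (HauptUnit.u9 (kk A)) (HauptUnit.v9 (kk A))
      (mem_planBK (HauptUnit.u9_mem (kk A) h3ne M h9) (HauptUnit.isIntegral_u9 (kk A) h3ne))
      (mem_planBK (HauptUnit.v9_mem (kk A) h3ne M h9) (HauptUnit.isIntegral_v9 (kk A) h3ne))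
      (HauptUnit.u9_mul_v9 (kk A)) ?_
    have e : red A ⟨((HauptLift.tau9 M h9 : FN M) : Om), HauptLift.t9_mem_Ocal A⟩
        = Fermat.Agent.S18.Haupt.t9 (kk A) := HauptLift.red_t9 A
    rw [e]
    exact HauptUnit.theta_t9 (kk A)

end Main

end Fermat.Agent.S36.LemmaR

end
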