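/-
S36 / P8 — **Lemma R at the spine levels** (helper81).

`LemmaR.lemmaR` needs `(4 ∣ M ∧ q ≠ 2) ∨ (9 ∣ M ∧ q ≠ 3)`; at the levels of `Plan.OneAllStmt`
(`M = S34.Plan.aux q * N₀`, `aux q = 9` for `q = 2` and `4` otherwise) this holds.  This file
records that and the resulting hypothesis-free form of Lemma R, for ANY frame at such a level.
-/
import Mathlib
import Fermat.Agent.S36.LemmaR

set_option autoImplicit false
set_option synthInstance.maxHeartbeats 400000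
set_option maxHeartbeats 1600000

noncomputable section

namespace Fermat.Agent.S36.LemmaRAll

open AlgebraicCurve ModularCurve
open Fermat.Agent.S24 Fermat.Agent.S28 Fermat.Agent.S34 Fermat.Agent Fermat.Agent.S18.Plan
  Fermat.Agent.S18.Content Fermat.Agent.S36.Plan

/-- The auxiliary level is good for Lemma R: `4 ∣ M` and `q ≠ 2`, or `9 ∣ M` and `q ≠ 3`. -/
theorem good_level {N₀ M q : ℕ} (hM : M = S34.Plan.aux q * N₀) :
    (4 ∣ M ∧ q ≠ 2) ∨ (9 ∣ M ∧ q ≠ 3) := by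
  by_cases h2 : q = 2
  · right
    refine ⟨⟨N₀, ?_⟩, ?_⟩
    · rw [hM, S34.Plan.aux, if_pos h2]
    · omega
  · left
    refine ⟨⟨N₀, ?_⟩, h2⟩
    rw [hM, S34.Plan.aux, if_neg h2]

/-- **Lemma R at the spine levels**: the conclusion of `LemmaR.lemmaR` for every frame at a level
`M = aux q * N₀`. -/
theorem lemmaR_all {N₀ M q : ℕ} [NeZero M] [NeZero q] {h : Nat.Coprime M q} (hq : q.Prime)
    (hM : M = S34.Plan.aux q * N₀) (A : ValuationSubring Kbar) (hA : A.LiesOverPrime q)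
    (F : Frame M q h) :
    ∃ x r : FN (M * q * q),
      K0Red.Fixed A (x : Om) ∧ K0Red.Fixed A (r : Om) ∧
      (∀ i, F.emb i x ∈ Ocal A) ∧ (∀ i, F.emb i r ∈ Ocal A) ∧
      (∀ w : Place Kbar (FN (M * q * q)), 0 ≤ w.ord (jBar (M * q * q)) → 0 ≤ w.ord x) ∧
      (∀ w : Place Kbar (FN (M * q * q)), 0 ≤ w.ord (jBar (M * q * q)) → 0 ≤ w.ord r) ∧
      (∀ (ξ : MidIdx q) (hx : F.emb (.mid ξ) x ∈ Ocal A), red A ⟨_, hx⟩ = 0) ∧
      (∃ u ∈ S34.Plan.BK A M, ∃ v ∈ S34.Plan.BK A M, u * v = 1 ∧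
        ∀ (ξ : MidIdx q) (hr : F.emb (.mid ξ) r ∈ Ocal A), red A ⟨_, hr⟩ = u) ∧
      ∀ f : FN (M * q * q), K0Red.Fixed A (f : Om) → (∀ i, F.emb i f ∈ Ocal A) →
        (∀ (ξ : MidIdx q) (hf : F.emb (.mid ξ) f ∈ Ocal A), red A ⟨_, hf⟩ = 0) →
        ∃ y : FN (M * q * q), r * f = x * y ∧ K0Red.Fixed A (y : Om) ∧
          (∀ i, F.emb i y ∈ Ocal A) ∧
          ∀ w : Place Kbar (FN (M * q * q)), 0 ≤ w.ord (jBar (M * q * q)) → w.ord f ≤ w.ord y :=
  LemmaR.lemmaR hq h (good_level hM) A hA F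

end Fermat.Agent.S36.LemmaRAll

end
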