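import Mathlib
import Fermat.Agent.S36.InvKInst
import Fermat.Agent.S36.LemmaRAll
import Fermat.Agent.S36.InclFinal
import Fermat.Agent.S36.OneAllOf
import Fermat.Agent.S36.LiftAllOf

/-!
# S36 (P8) — [REG] at all levels: `OneAllOf.InvKAllStmt` (helper20)

`K0Plan.InvKStmt` at the binders of `Plan.OneAllStmt`, from ONE named hypothesis:

* `ApproxAllStmt` : **[APPROX]** at all levels (the conclusion of `ApproxK0.exists_lam_ord_eq`,
  `= happ` of `ColonK0.colon`): for every inertia-stable divisor `D` of `F_{N'q}` and every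
  non-cuspidal place `P`, some `f ∈ Λ'(D) ∩ F_{N'q}` has `ord_P f = -D P`.

Discharged inside: Lemma R (`LemmaRAll.lemmaR_all`, helper81), `O` integral over `O_M`
(`InclFinal.isIntegral_OM`, helper23), the level arithmetic (`LiftAllOf.level_dvd`,
`LemmaRAll.good_level`), and everything of `S36/InvKInst`.
-/

set_option autoImplicit false

noncomputable section

namespace Fermat.Agent.S36.InvKAll

open ModularCurve AlgebraicCurve Fermat.Agent.S24 Fermat.Agent.S18 Fermat.Agent.S18.Content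
  Fermat.Agent.S18.Plan Fermat.Agent.S34 Fermat.Agent.S36.Plan

set_option synthInstance.maxHeartbeats 400000
set_option maxHeartbeats 1600000

/-- **[APPROX] at all levels.** -/
def ApproxAllStmt : Prop :=
  ∀ (N₀ N' M q : ℕ) [NeZero N'] [NeZero M] [NeZero q] (hq' : q ∣ N') (h : Nat.Coprime M q),
    q.Prime → Nat.Coprime N₀ q → N' = N₀ * q → M = S34.Plan.aux q * N₀ →
    ∀ A : ValuationSubring Kbar, A.LiesOverPrime q →
    ∀ (F : Frame M q h) (O : Subring Om) (ρ : O →+* Rq A q), IsSetup A F O ρ →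
    ∀ E : Divisor Kbar (FN (N' * q)),
      IsE3 (N' * q) q (Dvd.intro_left N' rfl) (Nat.mul_dvd_mul_right hq' q) E →
    ∀ D : Divisor Kbar (FN (N' * q)),
      (∀ τ : Kbar ≃ₐ[ℚ] Kbar, τ ∈ A.inertiaSubgroupIn ℚ →
        S34.Plan.gal (N' * q) τ • D = D) →
      InvKInst.ApproxStmt A N' M q O E D

/-- **[REG] at all levels**, from [APPROX] at all levels. -/
theorem invKAllStmt_of (hApp : ApproxAllStmt) : OneAllOf.InvKAllStmt := by
  intro N₀ N' M q _ _ _ hq' h hqp hcop hN' hM A hA F O ρ hS ξ₀ E hE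
  have hTF : 4 ∣ M ∨ 9 ∣ M := (LemmaRAll.good_level hM).imp And.left And.left
  exact InvKInst.invKStmt_of hqp hA hTF hS hq' (LiftAllOf.level_dvd hN' hM)
    (InclFinal.isIntegral_OM hqp hA hS) ξ₀ E hE (LemmaRAll.lemmaR_all hqp hM A hA F)
    (hApp N₀ N' M q hq' h hqp hcop hN' hM A hA F O ρ hS E hE)

end Fermat.Agent.S36.InvKAll

end
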