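import Mathlib
import Fermat.Agent.S36.OneAllOf
import Fermat.Agent.S36.LiftAllOf
import Fermat.Agent.S36.SetupQ2
import Fermat.Agent.S36.K0Const
import Fermat.Agent.S36.CoordFin
import Fermat.Agent.S36.OneGen

/-!
# S36 / P8 — [ONE-CONST-ALL], hypothesis form (helper3)

`OneAllOf.OneConstAllStmt` (the third input of `OneAllOf.oneAllStmt_of`) from the contracts of
`S36/K0Plan` at all levels, through the junction `OneGen.oneConstStmt_of_k0` (helper27):

`oneConstAllStmt_of_k0 : InclAllStmt → RangeAllStmt → MidEqAllStmt → SurjAllStmt → InvKAllStmt →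
  CondAllStmt → TwistAllStmt → OneConstAllStmt`.

Discharged inside: `CharP (kk A) q` (the residue field of a place over `q`), the inclusion of the
divisor level in the top level, a middle index `ξ₀` (a primitive `q`-th root of unity), [INV]
(`SetupQ2.invStmt`), [K0-CONST] (`K0Const.constStmt`, helper2).
-/

set_option autoImplicit false

noncomputable section

namespace Fermat.Agent.S36.OneConstAllOf

open ModularCurve AlgebraicCurve Fermat.Agent.S24 Fermat.Agent.S18 Fermat.Agent.S18.Content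
  Fermat.Agent.S18.Plan Fermat.Agent.S34 Fermat.Agent.S36.Plan

/-- The residue field of a place over `q` has characteristic `q`. -/
theorem charP_kk {q : ℕ} (hqp : q.Prime) (A : ValuationSubring Kbar) (hA : A.LiesOverPrime q) :
    CharP (kk A) q :=
  haveI : Fact q.Prime := ⟨hqp⟩
  charP_residueField_of_liesOverPrime A q hA

/-- The divisor level is below the top level. -/
theorem level_le {N₀ N' M q : ℕ} [NeZero N'] [NeZero M] [NeZero q] (hN' : N' = N₀ * q)
    (hM : M = S34.Plan.aux q * N₀) :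
    modularFunctionFieldBar (N' * q) ≤ modularFunctionFieldBar (M * q * q) :=
  S18.RR0.modularFunctionFieldBar_le (LiftAllOf.level_dvd hN' hM)

/-- There is a middle index. -/
theorem exists_midIdx (q : ℕ) [NeZero q] : Nonempty (MidIdx q) := by
  obtain ⟨ζ, hζ⟩ := CoordFin.exists_primitiveRoot q
  exact ⟨⟨ζ, hζ⟩⟩

/-- `q` does not divide the good level. -/
theorem not_dvd_level {M q : ℕ} (hqp : q.Prime) (h : Nat.Coprime M q) : ¬ q ∣ M := fun hd =>
  hqp.one_lt.ne' (Nat.dvd_one.mp (h ▸ Nat.dvd_gcd hd dvd_rfl))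

/-- **[ONE-CONST-ALL]**, hypothesis form: `OneAllOf.OneConstAllStmt` from the `K0Plan` contracts
at all levels (junction: `OneGen.oneConstStmt_of_k0`). -/
theorem oneConstAllStmt_of_k0 (hIncl : LiftAllOf.InclAllStmt) (hRange : OneAllOf.RangeAllStmt)
    (hMid : OneAllOf.MidEqAllStmt) (hSurj : OneAllOf.SurjAllStmt) (hInv : OneAllOf.InvKAllStmt)
    (hCond : OneAllOf.CondAllStmt) (hTwist : OneAllOf.TwistAllStmt) :
    OneAllOf.OneConstAllStmt := by
  intro N₀ N' M q _ _ _ hq' h hqp hcop hN' hM A hA F O ρ hS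
  haveI : CharP (kk A) q := charP_kk hqp A hA
  obtain ⟨ξ₀⟩ := exists_midIdx q
  obtain ⟨cb, hcb, hTw⟩ := hTwist N₀ N' M q hq' h hqp hcop hN' hM A hA F O ρ hS ξ₀
  exact ⟨cb, hcb, OneGen.oneConstStmt_of_k0 hqp hq' (level_le hN' hM) ξ₀ cb (SetupQ2.invStmt hS)
    (hIncl N₀ N' M q hq' h hqp hcop hN' hM A hA F O ρ hS)
    (hRange N₀ N' M q hq' h hqp hcop hN' hM A hA F O ρ hS ξ₀)
    (hMid N₀ N' M q hq' h hqp hcop hN' hM A hA F O ρ hS)
    (K0Const.constStmt hqp hA F hS)
    (hSurj N₀ N' M q hq' h hqp hcop hN' hM A hA F O ρ hS ξ₀)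
    (hInv N₀ N' M q hq' h hqp hcop hN' hM A hA F O ρ hS ξ₀)
    (hCond N₀ N' M q hq' h hqp hcop hN' hM A hA F O ρ hS ξ₀)
    hTw⟩

end Fermat.Agent.S36.OneConstAllOf

end
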