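import Mathlib
import Fermat.Agent.S36.InvKAll
import Fermat.Agent.S36.ApproxK0
import Fermat.Agent.S36.OneConstAllOf

/-!
# S36 (P8) — [REG] closed: `OneAllOf.InvKAllStmt`, hypothesis-free (helper20)

`InvKAll.invKAllStmt_of` applied to [APPROX] at all levels
(`ApproxK0.exists_lam_ord_eq_levels`, helper30).
-/

set_option autoImplicit false

noncomputable section

namespace Fermat.Agent.S36.InvKFinal

open ModularCurve AlgebraicCurve Fermat.Agent.S24 Fermat.Agent.S18 Fermat.Agent.S18.Content
  Fermat.Agent.S18.Plan Fermat.Agent.S34 Fermat.Agent.S36.Plan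

set_option synthInstance.maxHeartbeats 400000
set_option maxHeartbeats 1600000

/-- **[APPROX] at all levels.** -/
theorem approxAllStmt : InvKAll.ApproxAllStmt := by
  intro N₀ N' M q _ _ _ hq' h hqp hcop hN' hM A hA F O ρ hS E hE D hD
  exact ApproxK0.exists_lam_ord_eq_levels hqp hcop hN' hA F hS hq'
    (OneConstAllOf.level_le hN' hM) E hE D hD

/-- **[REG] at all levels** (`K0Plan` contract (5)), unconditional. -/
theorem invKAllStmt : OneAllOf.InvKAllStmt := InvKAll.invKAllStmt_of approxAllStmt

end Fermat.Agent.S36.InvKFinal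

end
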