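import Mathlib
import Fermat.Agent.S34.NodeAlg

/-!
# S36 / P8 — [TWIST-ABS]: the twist constant is independent of the supersingular point (helper9)

Frame-independent core of the block [TWIST] of the `K'`-chain, in the three-component picture
`B × B × B` (`B = B_κ`, components `∞`, `mid`, `0`), on top of P6's node algebra
(`S34/NodeAlg.IsNode R Z θ`: `R = B̄_Y ⊆ B × B` the reduction ring of level `qM`, `Z` the node
points on the first component, `θ z` the partner point on the second one).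

Data: `V : B →ₐ[k] B` (the substitution `T ↦ T^q`) and `Fr : B → B` (the coefficientwise
Frobenius) with `V (Fr x) = x ^ q`; the reductions of `α^* f`, `β^* f` (`f` of the good level) give
`(f, V f) ∈ R` and `(V f, f) ∈ R`; the Atkin–Lehner involution of level `qM` gives the swap
symmetry of `R`.

* `theta_eq_comp`, `eq_theta_comp` : `θ z = z ∘ V` and `z = θ z ∘ V` on `Z`;
* `theta_mem`, `exists_theta_eq`   : the node set is Frobenius-stable (from the swap symmetry),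
                                     hence `θ` permutes `Z`;
* `alpha_rel`, `beta_rel`          : the two norm relations at a node point `z`: for a triple
  `G = (G_∞, G_mid, G_0)` with `(η₁ G_∞ G_mid^(q-1), η₂ Fr G_0) ∈ R`
  (resp. `(η₁' Fr G_∞, η₂' G_mid^(q-1) G_0) ∈ R`):
  `η₁ a b^(q-1) = η₂ c^q` (resp. `η₁' a^q = η₂' b^(q-1) c`), `(a, b, c) = G(z)`;
* `twist_const`                    : **[TWIST-ABS]** `a^(q²-1) = ζ₁ c^(q²-1)`, `b^(q²-1) = ζ₂ c^(q²-1)`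
  with `ζ₁ = zeta₁`, `ζ₂ = zeta₂` depending only on the four constants `η`;
* `zeta_pow`                       : compatibility of `ζ₁, ζ₂` with the Kummer constants;
* `glue_eq`                        : **[GLUE]** an element `x` of `B × B × B` all of whose shifted
  `α`-norms lie in `R` takes ONE value at the three points over a node point;
* `mem_of_pair`, `eq_of_agree`     : conversely two distinct points of `B × B × B` which are not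
  separated by `α^* R` and `β^* R` are `(i, z)`, `(i', z)` with `z ∈ Z`.
-/

set_option autoImplicit false

namespace Fermat.Agent.S36.TwistNorm

open Fermat.Agent.S34.NodeAlg

variable {k B : Type*} [Field k] [CommRing B] [Algebra k B]
variable {R : Subalgebra k (B × B)} {Z : Finset (B →ₐ[k] k)}
variable {θ : (B →ₐ[k] k) → (B →ₐ[k] k)} {V : B →ₐ[k] B}

/-! ## The node points and the Frobenius -/

/-- `θ z = z ∘ V` at a node point (from `(V f, f) ∈ R`). -/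
theorem theta_eq_comp (hR : IsNode R Z θ) (hβY : ∀ f : B, (V f, f) ∈ R)
    {z : B →ₐ[k] k} (hz : z ∈ Z) : θ z = z.comp V :=
  AlgHom.ext fun f => ((hR.2 (V f) f).1 (hβY f) z hz).symm

/-- `z = θ z ∘ V` at a node point (from `(f, V f) ∈ R`). -/
theorem eq_theta_comp (hR : IsNode R Z θ) (hαY : ∀ f : B, (f, V f) ∈ R)
    {z : B →ₐ[k] k} (hz : z ∈ Z) : z = (θ z).comp V :=
  AlgHom.ext fun f => (hR.2 f (V f)).1 (hαY f) z hz

/-- The node set is stable under `θ` if `R` is swap-symmetric. -/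
theorem theta_mem (hR : IsNode R Z θ) (hsw : ∀ a b : B, (a, b) ∈ R → (b, a) ∈ R)
    {z : B →ₐ[k] k} (hz : z ∈ Z) : θ z ∈ Z := by
  classical
  by_contra hnot
  obtain ⟨e, he1, he0⟩ := exists_delta (insert (θ z) Z) (θ z)
  have hmem : (e, (0 : B)) ∈ R := by
    refine (hR.2 e 0).2 fun z' hz' => ?_
    rw [he0 z' (Finset.mem_insert_of_mem hz') (fun h => hnot (h ▸ hz')), map_zero]
  have h2 := (hR.2 0 e).1 (hsw _ _ hmem) z hz
  rw [map_zero, he1] at h2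
  exact zero_ne_one h2

/-- `θ` permutes a `θ`-stable node set. -/
theorem exists_theta_eq (hR : IsNode R Z θ) (hθZ : ∀ z ∈ Z, θ z ∈ Z)
    {z : B →ₐ[k] k} (hz : z ∈ Z) : ∃ z' ∈ Z, θ z' = z := by
  classical
  have himg : Z.image θ = Z := by
    apply Finset.eq_of_subset_of_card_le
    · intro y hy
      obtain ⟨z', hz', rfl⟩ := Finset.mem_image.1 hy
      exact hθZ z' hz'
    · rw [Finset.card_image_of_injOn hR.1]
  have hz2 : z ∈ Z.image θ := by rw [himg]; exact hz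
  obtain ⟨z', hz', h⟩ := Finset.mem_image.1 hz2
  exact ⟨z', hz', h⟩

/-- The value of the partner point on a Frobenius twist. -/
theorem theta_Fr (q : ℕ) (hR : IsNode R Z θ) (hβY : ∀ f : B, (V f, f) ∈ R) {Fr : B → B}
    (hVF : ∀ x, V (Fr x) = x ^ q) {z : B →ₐ[k] k} (hz : z ∈ Z) (x : B) :
    θ z (Fr x) = z x ^ q := by
  rw [theta_eq_comp hR hβY hz, AlgHom.comp_apply, hVF, map_pow]

/-- The value of a node point on a Frobenius twist, in terms of the partner point. -/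
theorem apply_Fr (q : ℕ) (hR : IsNode R Z θ) (hαY : ∀ f : B, (f, V f) ∈ R) {Fr : B → B}
    (hVF : ∀ x, V (Fr x) = x ^ q) {z : B →ₐ[k] k} (hz : z ∈ Z) (x : B) :
    z (Fr x) = θ z x ^ q := by
  have e0 := AlgHom.congr_fun (eq_theta_comp hR hαY hz) (Fr x)
  rw [AlgHom.comp_apply, hVF, map_pow] at e0
  exact e0

/-- `V` is injective on points (characteristic `q`). -/
theorem eq_of_comp_eq (q : ℕ) [Fact q.Prime] [CharP k q] {Fr : B → B}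
    (hVF : ∀ x, V (Fr x) = x ^ q) {z z' : B →ₐ[k] k} (h : z.comp V = z'.comp V) : z = z' := by
  refine AlgHom.ext fun f => ?_
  have h1 := AlgHom.congr_fun h (Fr f)
  rw [AlgHom.comp_apply, AlgHom.comp_apply, hVF, map_pow, map_pow] at h1
  exact frobenius_inj k q h1

/-! ## The two norm relations at a node point -/

/-- **The `α`-relation** at a node point `z ∈ Z`. -/
theorem alpha_rel (q : ℕ) (hR : IsNode R Z θ) (hβY : ∀ f : B, (V f, f) ∈ R) {Fr : B → B}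
    (hVF : ∀ x, V (Fr x) = x ^ q) (G : B × B × B) (η₁ η₂ : k)
    (hα : (η₁ • (G.1 * G.2.1 ^ (q - 1)), η₂ • Fr G.2.2) ∈ R) {z : B →ₐ[k] k} (hz : z ∈ Z) :
    η₁ * (z G.1 * z G.2.1 ^ (q - 1)) = η₂ * z G.2.2 ^ q := by
  have h := (hR.2 _ _).1 hα z hz
  rw [map_smul, map_smul, theta_Fr q hR hβY hVF hz, smul_eq_mul, smul_eq_mul, map_mul,
    map_pow] at h
  exact h

/-- **The `β`-relation** at the partner `θ z'` of a node point `z' ∈ Z`. -/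
theorem beta_rel_theta (q : ℕ) (hR : IsNode R Z θ) (hαY : ∀ f : B, (f, V f) ∈ R) {Fr : B → B}
    (hVF : ∀ x, V (Fr x) = x ^ q) (G : B × B × B) (η₁' η₂' : k)
    (hβ : (η₁' • Fr G.1, η₂' • (G.2.1 ^ (q - 1) * G.2.2)) ∈ R) {z' : B →ₐ[k] k} (hz' : z' ∈ Z) :
    η₁' * θ z' G.1 ^ q = η₂' * (θ z' G.2.1 ^ (q - 1) * θ z' G.2.2) := by
  have h := (hR.2 _ _).1 hβ z' hz'
  rw [map_smul, map_smul, apply_Fr q hR hαY hVF hz', smul_eq_mul, smul_eq_mul, map_mul,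
    map_pow] at h
  exact h

/-- **The `β`-relation** at a node point `z ∈ Z` (the node set being `θ`-stable). -/
theorem beta_rel (q : ℕ) (hR : IsNode R Z θ) (hαY : ∀ f : B, (f, V f) ∈ R)
    (hθZ : ∀ z ∈ Z, θ z ∈ Z) {Fr : B → B}
    (hVF : ∀ x, V (Fr x) = x ^ q) (G : B × B × B) (η₁' η₂' : k)
    (hβ : (η₁' • Fr G.1, η₂' • (G.2.1 ^ (q - 1) * G.2.2)) ∈ R) {z : B →ₐ[k] k} (hz : z ∈ Z) :
    η₁' * z G.1 ^ q = η₂' * (z G.2.1 ^ (q - 1) * z G.2.2) := by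
  obtain ⟨z', hz', rfl⟩ := exists_theta_eq hR hθZ hz
  exact beta_rel_theta q hR hαY hVF G η₁' η₂' hβ hz'

/-! ## The twist constants -/

/-- The twist constant of the `∞`-branch against the `0`-branch. -/
noncomputable def zeta₁ (q : ℕ) (η₁ η₂ η₁' η₂' : k) : k := ((η₂ * η₂') / (η₁ * η₁')) ^ (q - 1)

/-- The twist constant of the middle branch against the `0`-branch. -/
noncomputable def zeta₂ (q : ℕ) (η₁ η₂ η₁' η₂' : k) : k := (η₂ / η₁) ^ q * (η₁' / η₂')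

theorem zeta₁_ne_zero (q : ℕ) {η₁ η₂ η₁' η₂' : k} (h1 : η₁ ≠ 0) (h2 : η₂ ≠ 0) (h1' : η₁' ≠ 0)
    (h2' : η₂' ≠ 0) : zeta₁ q η₁ η₂ η₁' η₂' ≠ 0 :=
  pow_ne_zero _ (div_ne_zero (mul_ne_zero h2 h2') (mul_ne_zero h1 h1'))

theorem zeta₂_ne_zero (q : ℕ) {η₁ η₂ η₁' η₂' : k} (h1 : η₁ ≠ 0) (h2 : η₂ ≠ 0) (h1' : η₁' ≠ 0)
    (h2' : η₂' ≠ 0) : zeta₂ q η₁ η₂ η₁' η₂' ≠ 0 :=
  mul_ne_zero (pow_ne_zero _ (div_ne_zero h2 h1)) (div_ne_zero h1' h2')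

theorem sq_sub_one (m : ℕ) : (m + 1) ^ 2 - 1 = (m + 2) * m := by
  have e : (m + 1) ^ 2 = (m + 2) * m + 1 := by ring
  rw [e, Nat.add_sub_cancel]

/-- The field computation behind [TWIST-ABS], with `q = m + 1`. -/
theorem pow_rel_aux {m : ℕ} (hm : m ≠ 0) {η₁ η₂ η₁' η₂' a b c : k} (h1 : η₁ ≠ 0) (h2 : η₂ ≠ 0)
    (h1' : η₁' ≠ 0) (h2' : η₂' ≠ 0)
    (hα : η₁ * (a * b ^ m) = η₂ * c ^ (m + 1)) (hβ : η₁' * a ^ (m + 1) = η₂' * (b ^ m * c))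
    (hac : a ≠ 0 ∨ c ≠ 0) :
    a ≠ 0 ∧ b ≠ 0 ∧ c ≠ 0 ∧
      a ^ ((m + 2) * m) = ((η₂ * η₂') / (η₁ * η₁')) ^ m * c ^ ((m + 2) * m) ∧
      b ^ ((m + 2) * m) = ((η₂ / η₁) ^ (m + 1) * (η₁' / η₂')) * c ^ ((m + 2) * m) := by
  -- nonvanishing
  have hnz : a ≠ 0 ∧ b ^ m ≠ 0 ∧ c ≠ 0 := by
    rcases hac with ha | hc
    · have h : η₂' * (b ^ m * c) ≠ 0 := by
        rw [← hβ]; exact mul_ne_zero h1' (pow_ne_zero _ ha)
      have h' := (mul_ne_zero_iff.1 h).2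
      exact ⟨ha, (mul_ne_zero_iff.1 h').1, (mul_ne_zero_iff.1 h').2⟩
    · have h : η₁ * (a * b ^ m) ≠ 0 := by
        rw [hα]; exact mul_ne_zero h2 (pow_ne_zero _ hc)
      have h' := (mul_ne_zero_iff.1 h).2
      exact ⟨(mul_ne_zero_iff.1 h').1, (mul_ne_zero_iff.1 h').2, hc⟩
  obtain ⟨ha, hX, hc⟩ := hnz
  have hb : b ≠ 0 := fun h0 => hX (by rw [h0, zero_pow hm])
  refine ⟨ha, hb, hc, ?_, ?_⟩
  · -- `η₁ η₁' a^(m+2) = η₂ η₂' c^(m+2)`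
    have key : (η₁ * η₁') * a ^ (m + 2) = (η₂ * η₂') * c ^ (m + 2) := by
      apply mul_right_cancel₀ hX
      calc (η₁ * η₁') * a ^ (m + 2) * b ^ m
          = (η₁ * (a * b ^ m)) * (η₁' * a ^ (m + 1)) := by ring
        _ = (η₂ * c ^ (m + 1)) * (η₂' * (b ^ m * c)) := by rw [hα, hβ]
        _ = (η₂ * η₂') * c ^ (m + 2) * b ^ m := by ring
    have key' : a ^ (m + 2) = ((η₂ * η₂') / (η₁ * η₁')) * c ^ (m + 2) := by
      rw [div_mul_eq_mul_div, eq_div_iff (mul_ne_zero h1 h1')]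
      linear_combination key
    rw [pow_mul, key', mul_pow, ← pow_mul]
  · -- `η₁^(m+1) η₂' (b^m)^(m+2) = η₂^(m+1) η₁' c^((m+2) m)`
    have key : (η₁ ^ (m + 1) * η₂') * (b ^ m) ^ (m + 2) = (η₂ ^ (m + 1) * η₁') * c ^ ((m + 2) * m) := by
      apply mul_right_cancel₀ hc
      have e1 : (η₁ * (a * b ^ m)) ^ (m + 1) = (η₂ * c ^ (m + 1)) ^ (m + 1) := by rw [hα]
      have e2 : c ^ ((m + 2) * m) * c = (c ^ (m + 1)) ^ (m + 1) := by
        rw [← pow_mul, ← pow_succ]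
        congr 1
        ring
      calc (η₁ ^ (m + 1) * η₂') * (b ^ m) ^ (m + 2) * c
          = η₁ ^ (m + 1) * (η₂' * (b ^ m * c)) * (b ^ m) ^ (m + 1) := by ring
        _ = η₁ ^ (m + 1) * (η₁' * a ^ (m + 1)) * (b ^ m) ^ (m + 1) := by rw [hβ]
        _ = η₁' * (η₁ * (a * b ^ m)) ^ (m + 1) := by ring
        _ = η₁' * (η₂ * c ^ (m + 1)) ^ (m + 1) := by rw [e1]
        _ = (η₂ ^ (m + 1) * η₁') * (c ^ ((m + 2) * m) * c) := by rw [e2]; ring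
        _ = (η₂ ^ (m + 1) * η₁') * c ^ ((m + 2) * m) * c := by ring
    have hpow : b ^ ((m + 2) * m) = (b ^ m) ^ (m + 2) := by
      rw [← pow_mul, mul_comm]
    rw [hpow, div_pow, div_mul_div_comm, div_mul_eq_mul_div,
      eq_div_iff (mul_ne_zero (pow_ne_zero _ h1) h2')]
    linear_combination key

/-- **[TWIST-ABS]** At a node point `z`, a triple `G` satisfying the two norm relations has
`G_∞(z)^(q²-1) = ζ₁ G_0(z)^(q²-1)` and `G_mid(z)^(q²-1) = ζ₂ G_0(z)^(q²-1)`, with constants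
`ζ₁, ζ₂` depending only on `η₁, η₂, η₁', η₂'` (not on `z`, not on `G`). -/
theorem twist_const (q : ℕ) [Fact q.Prime] (hR : IsNode R Z θ)
    (hαY : ∀ f : B, (f, V f) ∈ R) (hβY : ∀ f : B, (V f, f) ∈ R) (hθZ : ∀ z ∈ Z, θ z ∈ Z)
    {Fr : B → B} (hVF : ∀ x, V (Fr x) = x ^ q)
    {η₁ η₂ η₁' η₂' : k} (h1 : η₁ ≠ 0) (h2 : η₂ ≠ 0) (h1' : η₁' ≠ 0) (h2' : η₂' ≠ 0)
    (G : B × B × B)
    (hα : (η₁ • (G.1 * G.2.1 ^ (q - 1)), η₂ • Fr G.2.2) ∈ R)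
    (hβ : (η₁' • Fr G.1, η₂' • (G.2.1 ^ (q - 1) * G.2.2)) ∈ R)
    {z : B →ₐ[k] k} (hz : z ∈ Z) (hne : z G.1 ≠ 0 ∨ z G.2.2 ≠ 0) :
    z G.1 ≠ 0 ∧ z G.2.1 ≠ 0 ∧ z G.2.2 ≠ 0 ∧
      z G.1 ^ (q ^ 2 - 1) = zeta₁ q η₁ η₂ η₁' η₂' * z G.2.2 ^ (q ^ 2 - 1) ∧
      z G.2.1 ^ (q ^ 2 - 1) = zeta₂ q η₁ η₂ η₁' η₂' * z G.2.2 ^ (q ^ 2 - 1) := by
  have hq2 : 2 ≤ q := (Fact.out : q.Prime).two_le
  have ra := alpha_rel q hR hβY hVF G η₁ η₂ hα hz
  have rb := beta_rel q hR hαY hθZ hVF G η₁' η₂' hβ hz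
  obtain ⟨m, rfl⟩ : ∃ m, q = m + 1 := ⟨q - 1, by omega⟩
  have hm : m ≠ 0 := by omega
  rw [Nat.add_sub_cancel] at ra rb
  have := pow_rel_aux hm h1 h2 h1' h2' ra rb hne
  unfold zeta₁ zeta₂
  rw [Nat.add_sub_cancel, sq_sub_one]
  exact this

/-- [TWIST-ABS] with the swap symmetry of `R` as input. -/
theorem twist_const_of_swap (q : ℕ) [Fact q.Prime] (hR : IsNode R Z θ)
    (hαY : ∀ f : B, (f, V f) ∈ R) (hβY : ∀ f : B, (V f, f) ∈ R)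
    (hsw : ∀ a b : B, (a, b) ∈ R → (b, a) ∈ R)
    {Fr : B → B} (hVF : ∀ x, V (Fr x) = x ^ q)
    {η₁ η₂ η₁' η₂' : k} (h1 : η₁ ≠ 0) (h2 : η₂ ≠ 0) (h1' : η₁' ≠ 0) (h2' : η₂' ≠ 0)
    (G : B × B × B)
    (hα : (η₁ • (G.1 * G.2.1 ^ (q - 1)), η₂ • Fr G.2.2) ∈ R)
    (hβ : (η₁' • Fr G.1, η₂' • (G.2.1 ^ (q - 1) * G.2.2)) ∈ R)
    {z : B →ₐ[k] k} (hz : z ∈ Z) (hne : z G.1 ≠ 0 ∨ z G.2.2 ≠ 0) :
    z G.1 ≠ 0 ∧ z G.2.1 ≠ 0 ∧ z G.2.2 ≠ 0 ∧
      z G.1 ^ (q ^ 2 - 1) = zeta₁ q η₁ η₂ η₁' η₂' * z G.2.2 ^ (q ^ 2 - 1) ∧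
      z G.2.1 ^ (q ^ 2 - 1) = zeta₂ q η₁ η₂ η₁' η₂' * z G.2.2 ^ (q ^ 2 - 1) :=
  twist_const q hR hαY hβY (fun _ hz' => theta_mem hR hsw hz') hVF h1 h2 h1' h2' G hα hβ hz hne

/-- The values of `G ^ (q² - 1)` at the three points over a node point are proportional to
`(ζ₁, ζ₂, 1)`. -/
theorem exists_eval_pow (q : ℕ) [Fact q.Prime] (hR : IsNode R Z θ)
    (hαY : ∀ f : B, (f, V f) ∈ R) (hβY : ∀ f : B, (V f, f) ∈ R) (hθZ : ∀ z ∈ Z, θ z ∈ Z)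
    {Fr : B → B} (hVF : ∀ x, V (Fr x) = x ^ q)
    {η₁ η₂ η₁' η₂' : k} (h1 : η₁ ≠ 0) (h2 : η₂ ≠ 0) (h1' : η₁' ≠ 0) (h2' : η₂' ≠ 0)
    (G : B × B × B)
    (hα : (η₁ • (G.1 * G.2.1 ^ (q - 1)), η₂ • Fr G.2.2) ∈ R)
    (hβ : (η₁' • Fr G.1, η₂' • (G.2.1 ^ (q - 1) * G.2.2)) ∈ R)
    {z : B →ₐ[k] k} (hz : z ∈ Z) (hne : z G.1 ≠ 0 ∨ z G.2.2 ≠ 0) :
    ∃ μ : k, μ ≠ 0 ∧ z (G.1 ^ (q ^ 2 - 1)) = μ * zeta₁ q η₁ η₂ η₁' η₂' ∧
      z (G.2.1 ^ (q ^ 2 - 1)) = μ * zeta₂ q η₁ η₂ η₁' η₂' ∧ z (G.2.2 ^ (q ^ 2 - 1)) = μ := by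
  obtain ⟨-, -, hc, e1, e2⟩ := twist_const q hR hαY hβY hθZ hVF h1 h2 h1' h2' G hα hβ hz hne
  refine ⟨z G.2.2 ^ (q ^ 2 - 1), pow_ne_zero _ hc, ?_, ?_, ?_⟩
  · rw [map_pow, e1, mul_comm]
  · rw [map_pow, e2, mul_comm]
  · rw [map_pow]

/-- Compatibility of the twist constants with the Kummer constants: if the reductions
`(γ₁, γ₂, γ₃)` of the Kummer function and the constants `η` of the two norms satisfy
`c η₁ⁿ = γ₁ γ₂^(q-1)`, `c η₂ⁿ = γ₃^q`, `c' η₁'ⁿ = γ₁^q`, `c' η₂'ⁿ = γ₂^(q-1) γ₃`, then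
`ζ₁ⁿ γ₁^(q²-1) = γ₃^(q²-1)` and `ζ₂ⁿ γ₂^(q²-1) = γ₃^(q²-1)`. -/
theorem zeta_pow (q n : ℕ) (hq : 1 ≤ q) {η₁ η₂ η₁' η₂' γ₁ γ₂ γ₃ c c' : k}
    (h1 : η₁ ≠ 0) (h1' : η₁' ≠ 0) (h2' : η₂' ≠ 0) (hc : c ≠ 0) (hc' : c' ≠ 0)
    (e1 : c * η₁ ^ n = γ₁ * γ₂ ^ (q - 1)) (e2 : c * η₂ ^ n = γ₃ ^ q)
    (e1' : c' * η₁' ^ n = γ₁ ^ q) (e2' : c' * η₂' ^ n = γ₂ ^ (q - 1) * γ₃) :
    zeta₁ q η₁ η₂ η₁' η₂' ^ n * γ₁ ^ (q ^ 2 - 1) = γ₃ ^ (q ^ 2 - 1) ∧
      zeta₂ q η₁ η₂ η₁' η₂' ^ n * γ₂ ^ (q ^ 2 - 1) = γ₃ ^ (q ^ 2 - 1) := by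
  obtain ⟨m, rfl⟩ : ∃ m, q = m + 1 := ⟨q - 1, by omega⟩
  rw [Nat.add_sub_cancel] at e1 e2'
  unfold zeta₁ zeta₂
  rw [Nat.add_sub_cancel, sq_sub_one]
  have hA1 : η₁ ^ n ≠ 0 := pow_ne_zero _ h1
  have hA1' : η₁' ^ n ≠ 0 := pow_ne_zero _ h1'
  have hA2' : η₂' ^ n ≠ 0 := pow_ne_zero _ h2'
  constructor
  · -- `(A₂ A₂') γ₁^(m+2) = (A₁ A₁') γ₃^(m+2)`
    have key : (η₂ ^ n * η₂' ^ n) * γ₁ ^ (m + 2) = (η₁ ^ n * η₁' ^ n) * γ₃ ^ (m + 2) := by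
      apply mul_left_cancel₀ (mul_ne_zero hc hc')
      calc c * c' * ((η₂ ^ n * η₂' ^ n) * γ₁ ^ (m + 2))
          = (c * η₂ ^ n) * (c' * η₂' ^ n) * γ₁ ^ (m + 2) := by ring
        _ = γ₃ ^ (m + 1) * (γ₂ ^ m * γ₃) * γ₁ ^ (m + 2) := by rw [e2, e2']
        _ = (γ₁ * γ₂ ^ m) * γ₁ ^ (m + 1) * γ₃ ^ (m + 2) := by ring
        _ = (c * η₁ ^ n) * (c' * η₁' ^ n) * γ₃ ^ (m + 2) := by rw [e1, e1']
        _ = c * c' * ((η₁ ^ n * η₁' ^ n) * γ₃ ^ (m + 2)) := by ring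
    have key' : ((η₂ * η₂') / (η₁ * η₁')) ^ n * γ₁ ^ (m + 2) = γ₃ ^ (m + 2) := by
      rw [div_pow, mul_pow, mul_pow, div_mul_eq_mul_div, div_eq_iff (mul_ne_zero hA1 hA1')]
      linear_combination key
    calc (((η₂ * η₂') / (η₁ * η₁')) ^ m) ^ n * γ₁ ^ ((m + 2) * m)
        = (((η₂ * η₂') / (η₁ * η₁')) ^ n * γ₁ ^ (m + 2)) ^ m := by
          rw [mul_pow, ← pow_mul, ← pow_mul, ← pow_mul, mul_comm m n]
      _ = γ₃ ^ ((m + 2) * m) := by rw [key', ← pow_mul]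
  · -- `A₂^(m+1) A₁' γ₂^((m+2) m) = A₁^(m+1) A₂' γ₃^((m+2) m)`
    have key : (η₂ ^ n) ^ (m + 1) * η₁' ^ n * γ₂ ^ ((m + 2) * m)
        = (η₁ ^ n) ^ (m + 1) * η₂' ^ n * γ₃ ^ ((m + 2) * m) := by
      apply mul_left_cancel₀ (mul_ne_zero (pow_ne_zero (m + 1) hc) hc')
      have e3 : γ₂ ^ ((m + 2) * m) = (γ₂ ^ m) ^ (m + 1) * γ₂ ^ m := by
        rw [← pow_mul, ← pow_add]; congr 1; ring
      have e4 : (γ₃ ^ (m + 1)) ^ (m + 1) = γ₃ ^ ((m + 2) * m) * γ₃ := by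
        rw [← pow_mul, ← pow_succ]; congr 1; ring
      calc c ^ (m + 1) * c' * ((η₂ ^ n) ^ (m + 1) * η₁' ^ n * γ₂ ^ ((m + 2) * m))
          = (c * η₂ ^ n) ^ (m + 1) * (c' * η₁' ^ n) * γ₂ ^ ((m + 2) * m) := by ring
        _ = (γ₃ ^ (m + 1)) ^ (m + 1) * γ₁ ^ (m + 1) * ((γ₂ ^ m) ^ (m + 1) * γ₂ ^ m) := by
          rw [e2, e1', e3]
        _ = (γ₁ * γ₂ ^ m) ^ (m + 1) * (γ₂ ^ m * γ₃) * γ₃ ^ ((m + 2) * m) := by rw [e4]; ring
        _ = (c * η₁ ^ n) ^ (m + 1) * (c' * η₂' ^ n) * γ₃ ^ ((m + 2) * m) := by rw [e1, e2']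
        _ = c ^ (m + 1) * c' * ((η₁ ^ n) ^ (m + 1) * η₂' ^ n * γ₃ ^ ((m + 2) * m)) := by ring
    rw [mul_pow, div_pow, div_pow, ← pow_mul, ← pow_mul, mul_comm (m + 1) n, pow_mul, pow_mul,
      div_pow, div_mul_div_comm, div_mul_eq_mul_div,
      div_eq_iff (mul_ne_zero (pow_ne_zero _ hA1) hA2')]
    linear_combination key

/-! ## Gluing over the node points -/

/-- **[GLUE]** An element `x = (x_∞, x_mid, x_0)` all of whose shifted `α`-norms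
`((x_∞ - c)(x_mid - c)^(q-1), Fr (x_0 - c))` lie in `R` takes one and the same value at the three
points `(∞, z)`, `(mid, z)`, `(0, z)` over a node point `z`. -/
theorem glue_eq (q : ℕ) (hq : 2 ≤ q) (hR : IsNode R Z θ) (hβY : ∀ f : B, (V f, f) ∈ R)
    {Fr : B → B} (hVF : ∀ x, V (Fr x) = x ^ q) (x : B × B × B)
    (hN : ∀ c : k, ((x.1 - algebraMap k B c) * (x.2.1 - algebraMap k B c) ^ (q - 1),
      Fr (x.2.2 - algebraMap k B c)) ∈ R)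
    {z : B →ₐ[k] k} (hz : z ∈ Z) : z x.1 = z x.2.2 ∧ z x.2.1 = z x.2.2 := by
  have key : ∀ c : k, (z x.1 - c) * (z x.2.1 - c) ^ (q - 1) = (z x.2.2 - c) ^ q := by
    intro c
    have h := (hR.2 _ _).1 (hN c) z hz
    rw [theta_Fr q hR hβY hVF hz] at h
    simpa only [map_mul, map_pow, map_sub, AlgHom.commutes, Algebra.algebraMap_self,
      RingHom.id_apply] using h
  have hq0 : q ≠ 0 := by omega
  have hq1 : q - 1 ≠ 0 := by omega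
  constructor
  · have h1 := key (z x.1)
    rw [sub_self, zero_mul] at h1
    exact (sub_eq_zero.1 (pow_eq_zero_iff hq0 |>.1 h1.symm)).symm
  · have h2 := key (z x.2.1)
    rw [sub_self, zero_pow hq1, mul_zero] at h2
    exact (sub_eq_zero.1 (pow_eq_zero_iff hq0 |>.1 h2.symm)).symm

/-- Two points `p₁` (first component), `p₂` (second component) which agree on `R` form a node. -/
theorem mem_of_pair (hR : IsNode R Z θ) (hβY : ∀ f : B, (V f, f) ∈ R) {p₁ p₂ : B →ₐ[k] k}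
    (h : ∀ x y : B, (x, y) ∈ R → p₁ x = p₂ y) : p₁ ∈ Z ∧ p₂ = θ p₁ := by
  classical
  have hp₁ : p₁ ∈ Z := by
    by_contra hnot
    obtain ⟨e, he1, he0⟩ := exists_delta (insert p₁ Z) p₁
    have hmem : (e, (0 : B)) ∈ R := by
      refine (hR.2 e 0).2 fun z' hz' => ?_
      rw [he0 z' (Finset.mem_insert_of_mem hz') (fun h => hnot (h ▸ hz')), map_zero]
    have h2 := h e 0 hmem
    rw [map_zero, he1] at h2
    exact one_ne_zero h2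
  refine ⟨hp₁, AlgHom.ext fun b => ?_⟩
  rw [← h (V b) b (hβY b)]
  exact (hR.2 (V b) b).1 (hβY b) p₁ hp₁

/-- Evaluation of a triple at the point `z` of the component `i` (`0 = ∞`, `1 = mid`, `2 = 0`). -/
def ev (i : Fin 3) (z : B →ₐ[k] k) (x : B × B × B) : k := z (![x.1, x.2.1, x.2.2] i)

@[simp] theorem ev_zero (z : B →ₐ[k] k) (x : B × B × B) : ev 0 z x = z x.1 := rfl
@[simp] theorem ev_one (z : B →ₐ[k] k) (x : B × B × B) : ev 1 z x = z x.2.1 := rfl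
@[simp] theorem ev_two (z : B →ₐ[k] k) (x : B × B × B) : ev 2 z x = z x.2.2 := rfl

/-- **No other gluing.** Two distinct points `(i, z) ≠ (i', z')` of `B × B × B` which agree on
the pull-backs `α^*(x, y) = (x, x, V y)` and `β^*(x, y) = (V x, y, y)` of all `(x, y) ∈ R` lie
over one node point: `z = z' ∈ Z`. -/
theorem eq_of_agree (q : ℕ) [Fact q.Prime] [CharP k q] (hR : IsNode R Z θ)
    (hαY : ∀ f : B, (f, V f) ∈ R) (hβY : ∀ f : B, (V f, f) ∈ R) (hθZ : ∀ z ∈ Z, θ z ∈ Z)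
    {Fr : B → B} (hVF : ∀ x, V (Fr x) = x ^ q)
    (i i' : Fin 3) (z z' : B →ₐ[k] k) (hne : i ≠ i' ∨ z ≠ z')
    (hα : ∀ x y : B, (x, y) ∈ R → ev i z (x, x, V y) = ev i' z' (x, x, V y))
    (hβ : ∀ x y : B, (x, y) ∈ R → ev i z (V x, y, y) = ev i' z' (V x, y, y)) :
    z = z' ∧ z ∈ Z := by
  -- the basic consequences
  have h11 : (∀ x y : B, (x, y) ∈ R → z x = z' x) → z = z' := fun h =>
    AlgHom.ext fun x => h x (V x) (hαY x)
  have h22 : (∀ x y : B, (x, y) ∈ R → z y = z' y) → z = z' := fun h =>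
    AlgHom.ext fun y => h (V y) y (hβY y)
  -- `z x = z (V y)` on `R` ⟹ `z ∈ Z`
  have hA : ∀ w : B →ₐ[k] k, (∀ x y : B, (x, y) ∈ R → w x = w (V y)) → w ∈ Z := fun w h =>
    (mem_of_pair (p₂ := w.comp V) hR hβY h).1
  -- `z (V x) = z y` on `R` ⟹ `z ∈ Z`
  have hB : ∀ w : B →ₐ[k] k, (∀ x y : B, (x, y) ∈ R → w (V x) = w y) → w ∈ Z := fun w h => by
    obtain ⟨h1, h2⟩ := mem_of_pair (p₁ := w.comp V) (p₂ := w) hR hβY h
    rw [h2]
    exact hθZ _ h1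
  -- `z x = z' (V y)` on `R` ⟹ `z = z' ∈ Z`
  have hC : ∀ w w' : B →ₐ[k] k, (∀ x y : B, (x, y) ∈ R → w x = w' (V y)) → w = w' ∧ w ∈ Z :=
    fun w w' h => by
      obtain ⟨h1, h2⟩ := mem_of_pair (p₁ := w) (p₂ := w'.comp V) hR hβY h
      have h3 : w'.comp V = w.comp V := by rw [h2, theta_eq_comp hR hβY h1]
      exact ⟨(eq_of_comp_eq q hVF h3).symm, h1⟩
  fin_cases i <;> fin_cases i'
  · -- (∞, ∞)
    have e := h11 fun x y hxy => by simpa using hα x y hxy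
    exact absurd e (by rcases hne with h | h; exact absurd rfl h; exact h)
  · -- (∞, mid)
    have e := h11 fun x y hxy => by simpa using hα x y hxy
    subst e
    exact ⟨rfl, hB z fun x y hxy => by simpa using hβ x y hxy⟩
  · -- (∞, 0)
    exact hC z z' fun x y hxy => by simpa using hα x y hxy
  · -- (mid, ∞)
    have e := h11 fun x y hxy => by simpa using hα x y hxy
    subst e
    exact ⟨rfl, hB z fun x y hxy => by simpa using (hβ x y hxy).symm⟩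
  · -- (mid, mid)
    have e := h11 fun x y hxy => by simpa using hα x y hxy
    exact absurd e (by rcases hne with h | h; exact absurd rfl h; exact h)
  · -- (mid, 0)
    have e := h22 fun x y hxy => by simpa using hβ x y hxy
    subst e
    exact ⟨rfl, hA z fun x y hxy => by simpa using hα x y hxy⟩
  · -- (0, ∞)
    obtain ⟨e, hz'⟩ := hC z' z fun x y hxy => by simpa using (hα x y hxy).symm
    exact ⟨e.symm, e ▸ hz'⟩
  · -- (0, mid)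
    have e := h22 fun x y hxy => by simpa using hβ x y hxy
    subst e
    exact ⟨rfl, hA z fun x y hxy => by simpa using (hα x y hxy).symm⟩
  · -- (0, 0)
    have e := h22 fun x y hxy => by simpa using hβ x y hxy
    exact absurd e (by rcases hne with h | h; exact absurd rfl h; exact h)

end Fermat.Agent.S36.TwistNorm
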