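import Mathlib
import Fermat.Agent.S36.K0Plan
import Fermat.Agent.S36.TwistNorm
import Fermat.Agent.S34.NodeInst
import Fermat.Agent.S18.PullPlan

/-!
# S36 / P8 — [TWIST] in the `K0Plan` vocabulary (helper9)

The junction proving the contract `K0Plan.TwistStmt … (q² - 1)` from three intrinsic contracts
about the reduction ring `A₃ = ρ₃(B') ⊆ B_κ³` (coordinates `(∞, mid, 0)`):

* `DiagStmt`   : **[K0-DIAG]** `A₃` contains, for every `d ∈ B_κ`, an element with first two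
                 coordinates `d` and an element with last two coordinates `d`
                 (`ρ₃(α α f) = (d, d, Fr² d)`, `ρ₃(β β f) = (Fr² d, d, d)`);
* `TraceStmt`  : **[K0-TRACE]** `A₃` is stable under `t ↦ (t₁ - t₂, t₁ - t₂, 0)` and
                 `t ↦ (0, t₃ - t₂, t₃ - t₂)`  (`α^* Tr_α`, `β^* Tr_β`);
* `NormTwStmt` : **[NORM-TW]** for a normalised Kummer pair `(w, ξ)` of a stable datum `(D, n)`
                 there are constants `η₁, η₂, η₁', η₂'` with `η₁ⁿ = η₂ⁿ`, `η₁'ⁿ = η₂'ⁿ` such that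
                 for every `f ∈ Λ'(D)` with `ρ₃ f = y ξ`:
                 `(η₁ y₁ y₂^(q-1), η₁ y₁ y₂^(q-1), η₂ y₃^q) ∈ A₃` and
                 `(η₁' y₁^q, η₂' y₂^(q-1) y₃, η₂' y₂^(q-1) y₃) ∈ A₃`
                 (`α^*(N_α f · w_α)`, `β^*(N_β f · w_β)`).

`twistStmt_of` : `InclStmt + RangeStmt + InvKStmt + DiagStmt + TraceStmt + NormTwStmt ⟹
K0Plan.TwistStmt (q² - 1)`.

By-products: `lam_mul`, `lam_pow`, `lam_fn_mul` (`Λ'` is multiplicative), `bp_range`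
(`ρ₃(B') ⊆ B_κ³`), `kummer_int` (`ρ₃(f)/ξ ∈ B_κ³` for `f ∈ Λ'(D)`), `glued_cases` (two distinct
glued points lie over one `z`, and then the whole triple over `z` is glued).
-/

set_option autoImplicit false
set_option maxHeartbeats 400000
set_option synthInstance.maxHeartbeats 400000
set_option linter.unusedSectionVars false

noncomputable section

namespace Fermat.Agent.S36.TwistK0

open ModularCurve AlgebraicCurve Fermat.Agent.S24 Fermat.Agent.S18 Fermat.Agent.S18.Content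
  Fermat.Agent.S18.Plan Fermat.Agent.S36.Plan Fermat.Agent.S36.K0Plan

/-! ## `K₀`-rational elements -/

section Fixed

variable {A : ValuationSubring Kbar}

theorem fixed_mul {x y : Om} (hx : Fixed A x) (hy : Fixed A y) : Fixed A (x * y) :=
  fun τ hτ => by rw [map_mul, hx τ hτ, hy τ hτ]

theorem fixed_one : Fixed A (1 : Om) := fun _ _ => map_one _

theorem fixed_inv {x : Om} (hx : Fixed A x) : Fixed A x⁻¹ :=
  fun τ hτ => by rw [map_inv₀, hx τ hτ]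

theorem fixed_pow {x : Om} (hx : Fixed A x) (m : ℕ) : Fixed A (x ^ m) :=
  fun τ hτ => by rw [map_pow, hx τ hτ]

end Fixed


/-! ## `Λ'` is multiplicative -/

section Lam

variable {A : ValuationSubring Kbar} {N' M q : ℕ} [NeZero N'] [NeZero M] [NeZero q]
variable {O : Subring Om}

theorem lam_mul {E D₁ D₂ : Divisor Kbar (FN (N' * q))} {f g : O}
    (hf : f ∈ Lam A N' M q O E D₁) (hg : g ∈ Lam A N' M q O E D₂) :
    f * g ∈ Lam A N' M q O E (D₁ + D₂) := by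
  obtain ⟨hf1, c₁, hf2⟩ := hf
  obtain ⟨hg1, c₂, hg2⟩ := hg
  refine ⟨fixed_mul hf1 hg1, c₁ + c₂, ?_⟩
  have h := Fermat.Agent.S34.NodeInst.mul_mem_pullRR_add hf2 hg2
  have e : D₁ + c₁ • E + (D₂ + c₂ • E) = D₁ + D₂ + (c₁ + c₂) • E := by
    rw [add_smul]; abel
  rw [e] at h
  exact h

theorem one_mem_bp
    (hle : modularFunctionFieldBar (N' * q) ≤ modularFunctionFieldBar (M * q * q))
    (E : Divisor Kbar (FN (N' * q))) : (1 : O) ∈ Bp A N' M q O E := by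
  refine ⟨fixed_one, 0, ?_⟩
  rw [zero_smul, add_zero]
  exact Fermat.Agent.S18.PullPlan.one_mem_pullRR hle le_rfl

theorem lam_pow (hle : modularFunctionFieldBar (N' * q) ≤ modularFunctionFieldBar (M * q * q))
    {E D : Divisor Kbar (FN (N' * q))} {f : O} (hf : f ∈ Lam A N' M q O E D) (m : ℕ) :
    f ^ m ∈ Lam A N' M q O E (m • D) := by
  induction m with
  | zero =>
    rw [pow_zero, zero_smul]
    exact one_mem_bp hle E
  | succ m ih =>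
    rw [pow_succ, succ_nsmul]
    exact lam_mul ih hf

/-- Multiplication by a `K₀`-rational function `h` of level `N' q` lying in `O`. -/
theorem lam_fn_mul (hle : modularFunctionFieldBar (N' * q) ≤ modularFunctionFieldBar (M * q * q))
    {E D Dh : Divisor Kbar (FN (N' * q))} {h : FN (N' * q)} (hh : h ≠ 0)
    (hDh : ∀ P : Place Kbar (FN (N' * q)), Dh P = P.ord h) (hO : (h : Om) ∈ O)
    (hfix : Fixed A (h : Om)) {f : O} (hf : f ∈ Lam A N' M q O E D) :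
    (⟨(h : Om), hO⟩ : O) * f ∈ Lam A N' M q O E (D - Dh) := by
  obtain ⟨hf1, c, hf2⟩ := hf
  refine ⟨fixed_mul hfix hf1, c, ?_⟩
  have h1 := Fermat.Agent.S18.PullPlan.mul_mem_pullRR_sub hle hh hDh hf2
  have e : D + c • E - Dh = D - Dh + c • E := by abel
  rw [e] at h1
  exact h1

end Lam


/-! ## `B_κ³`: coordinates, points -/

section BK

variable {A : ValuationSubring Kbar} {M : ℕ}

theorem mem_BKM_iff {x : Omk A} :
    x ∈ BKM A M ↔ x ∈ Fk A M ∧ IsIntegral (polyJ (kk A)) x := by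
  show x ∈ Fermat.Agent.S34.Plan.BK A M ↔ _
  unfold Fermat.Agent.S34.Plan.BK
  rw [Algebra.mem_inf, Subalgebra.mem_restrictScalars, mem_integralClosure_iff]
  rfl

theorem iota3_apply (t : BK3 A M) :
    iota3 A M t = ((t.1 : Omk A), (t.2.1 : Omk A), (t.2.2 : Omk A)) := rfl

theorem iota3_injective : Function.Injective (iota3 A M) := by
  intro t t' h
  have h1 : (t.1 : Omk A) = t'.1 := congrArg Prod.fst h
  have h2 : (t.2.1 : Omk A) = t'.2.1 := congrArg (fun x : R3 A => x.2.1) h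
  have h3 : (t.2.2 : Omk A) = t'.2.2 := congrArg (fun x : R3 A => x.2.2) h
  exact Prod.ext (Subtype.ext h1) (Prod.ext (Subtype.ext h2) (Subtype.ext h3))

/-- The point `(∞, z)`. -/
def pt1 (z : ↥(BKM A M) →ₐ[kk A] kk A) : BK3 A M →+* kk A :=
  (z : ↥(BKM A M) →+* kk A).comp (RingHom.fst _ _)

/-- The point `(mid, z)`. -/
def pt2 (z : ↥(BKM A M) →ₐ[kk A] kk A) : BK3 A M →+* kk A :=
  (z : ↥(BKM A M) →+* kk A).comp ((RingHom.fst _ _).comp (RingHom.snd _ _))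

/-- The point `(0, z)`. -/
def pt3 (z : ↥(BKM A M) →ₐ[kk A] kk A) : BK3 A M →+* kk A :=
  (z : ↥(BKM A M) →+* kk A).comp ((RingHom.snd _ _).comp (RingHom.snd _ _))

@[simp] theorem pt1_apply (z : ↥(BKM A M) →ₐ[kk A] kk A) (t : BK3 A M) : pt1 z t = z t.1 := rfl
@[simp] theorem pt2_apply (z : ↥(BKM A M) →ₐ[kk A] kk A) (t : BK3 A M) : pt2 z t = z t.2.1 := rfl
@[simp] theorem pt3_apply (z : ↥(BKM A M) →ₐ[kk A] kk A) (t : BK3 A M) : pt3 z t = z t.2.2 := rfl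

/-- `P` is one of the three points over `z`. -/
def Over (z : ↥(BKM A M) →ₐ[kk A] kk A) (P : BK3 A M →+* kk A) : Prop :=
  P = pt1 z ∨ P = pt2 z ∨ P = pt3 z

theorem isPt_iff {P : BK3 A M →+* kk A} : IsPt A M P ↔ ∃ z, Over z P := Iff.rfl

/-- One coordinate of the Kummer integrality: `a / x ∈ B_κ` if `a, x ∈ F_{M,k}`, `u xⁿ = 1` and
`u aⁿ ∈ B_κ`. -/
theorem coord_aux {a x u : Omk A} {t : ↥(BKM A M)} {n : ℕ} (hn : 0 < n) (ha : a ∈ Fk A M)
    (hx : x ∈ Fk A M) (hux : u * x ^ n = 1) (ht : u * a ^ n = (t : Omk A)) :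
    ∃ y : ↥(BKM A M), a = (y : Omk A) * x ∧ ((y ^ n : ↥(BKM A M)) : Omk A) = (t : Omk A) := by
  have hx0 : x ≠ 0 := by
    rintro rfl
    rw [zero_pow hn.ne', mul_zero] at hux
    exact zero_ne_one hux
  have hu : u = (x ^ n)⁻¹ := eq_inv_of_mul_eq_one_left hux
  have hyn : (a * x⁻¹) ^ n = (t : Omk A) := by
    rw [mul_pow, inv_pow, ← hu, mul_comm, ht]
  have hint : IsIntegral (polyJ (kk A)) (a * x⁻¹) := by
    refine IsIntegral.of_pow hn ?_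
    rw [hyn]
    exact (mem_BKM_iff.1 t.2).2
  have hmem : a * x⁻¹ ∈ BKM A M :=
    mem_BKM_iff.2 ⟨(Fk A M).mul_mem ha ((Fk A M).inv_mem hx), hint⟩
  refine ⟨⟨a * x⁻¹, hmem⟩, ?_, ?_⟩
  · show a = a * x⁻¹ * x
    rw [inv_mul_cancel_right₀ hx0]
  · show (a * x⁻¹) ^ n = (t : Omk A)
    exact hyn

/-- The constants of `B_κ` (the algebra structure of `k((T))` found by instance search is
`HahnSeries.powerSeriesAlgebra`; its `algebraMap` is `HahnSeries.C` only propositionally). -/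
theorem coe_algebraMap_BKM (κ : kk A) :
    ((algebraMap (kk A) ↥(BKM A M) κ : ↥(BKM A M)) : Omk A) = HahnSeries.C κ := by
  rw [Subalgebra.coe_algebraMap, HahnSeries.algebraMap_apply', PowerSeries.algebraMap_apply,
    Algebra.algebraMap_self, RingHom.id_apply, HahnSeries.ofPowerSeries_C]

/-- The scalar action on `B_κ`, read in `k((T))`. -/
theorem coe_smul_BKM (κ : kk A) (x : ↥(BKM A M)) :
    ((κ • x : ↥(BKM A M)) : Omk A) = HahnSeries.C κ * (x : Omk A) := by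
  rw [Algebra.smul_def, ← coe_algebraMap_BKM (M := M) κ]
  rfl

theorem apply_algebraMap (z : ↥(BKM A M) →ₐ[kk A] kk A) (κ : kk A) :
    z (algebraMap (kk A) ↥(BKM A M) κ) = κ := by
  rw [AlgHom.commutes]
  rfl

end BK


/-! ## The three contracts -/

section Contracts

variable (A : ValuationSubring Kbar) (N' M q : ℕ) [NeZero N'] [NeZero M] [NeZero q]
variable (hq' : q ∣ N')
variable (O : Subring Om) (ρ : O →+* Rq A q) (ξ₀ : MidIdx q)

/-- **[K0-DIAG]** for every `d ∈ B_κ` the ring `A₃` contains an element with first two coordinates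
`d` and an element with last two coordinates `d`
(`ρ₃(α α f) = (d, d, Fr² d)`, `ρ₃(β β f) = (Fr² d, d, d)` for a `K₀`-lift `f` of `d`). -/
def DiagStmt (E : Divisor Kbar (FN (N' * q))) : Prop :=
  ∀ d : ↥(BKM A M),
    (∃ t ∈ A3 A N' M q O ρ E ξ₀, t.1 = d ∧ t.2.1 = d) ∧
    (∃ t ∈ A3 A N' M q O ρ E ξ₀, t.2.1 = d ∧ t.2.2 = d)

/-- **[K0-TRACE]** `A₃` is stable under `t ↦ (t₁ - t₂, t₁ - t₂, 0)` (`α^* Tr_α`) and under
`t ↦ (0, t₃ - t₂, t₃ - t₂)` (`β^* Tr_β`). -/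
def TraceStmt (E : Divisor Kbar (FN (N' * q))) : Prop :=
  ∀ t ∈ A3 A N' M q O ρ E ξ₀,
    ((t.1 - t.2.1, t.1 - t.2.1, 0) : BK3 A M) ∈ A3 A N' M q O ρ E ξ₀ ∧
    ((0, t.2.2 - t.2.1, t.2.2 - t.2.1) : BK3 A M) ∈ A3 A N' M q O ρ E ξ₀

/-- **[NORM-TW]** the two norm elements `α^*(N_α f · w_α)`, `β^*(N_β f · w_β)` of a section
`f ∈ Λ'(D)` with `ρ₃ f = y ξ`; the constants `η` do not depend on `f`. -/
def NormTwStmt : Prop :=
  ∀ (D : Divisor Kbar (FN (N' * q))) (n : ℕ), StableData A N' q D n →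
  ∀ E : Divisor Kbar (FN (N' * q)),
    IsE3 (N' * q) q (Dvd.intro_left N' rfl) (Nat.mul_dvd_mul_right hq' q) E →
  ∀ (w : FN (N' * q)) (hw : (w : Om) ∈ O) (ξ : R3 A),
    w ≠ 0 → (∀ P : Place Kbar (FN (N' * q)), P.ord w = n * D P) →
    Fixed A (w : Om) → ((w : Om))⁻¹ ∈ O →
    (ξ.1 ∈ Fk A M ∧ ξ.2.1 ∈ Fk A M ∧ ξ.2.2 ∈ Fk A M) →
    rho3 A q O ρ ξ₀ ⟨_, hw⟩ * ξ ^ n = 1 →
    ∃ η₁ η₂ η₁' η₂' : kk A, η₁ ≠ 0 ∧ η₂ ≠ 0 ∧ η₁' ≠ 0 ∧ η₂' ≠ 0 ∧
      η₁ ^ n = η₂ ^ n ∧ η₁' ^ n = η₂' ^ n ∧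
      ∀ f ∈ Lam A N' M q O E D, ∀ y : BK3 A M, rho3 A q O ρ ξ₀ f = iota3 A M y * ξ →
        ((η₁ • (y.1 * y.2.1 ^ (q - 1)), η₁ • (y.1 * y.2.1 ^ (q - 1)), η₂ • y.2.2 ^ q) :
          BK3 A M) ∈ A3 A N' M q O ρ E ξ₀ ∧
        ((η₁' • y.1 ^ q, η₂' • (y.2.1 ^ (q - 1) * y.2.2), η₂' • (y.2.1 ^ (q - 1) * y.2.2)) :
          BK3 A M) ∈ A3 A N' M q O ρ E ξ₀

end Contracts


/-! ## `ρ₃(B') ⊆ B_κ³` and the Kummer integrality -/

section Range

variable {A : ValuationSubring Kbar} {N' M q : ℕ} [NeZero N'] [NeZero M] [NeZero q]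
variable {hq' : q ∣ N'} {O : Subring Om} {ρ : O →+* Rq A q} {ξ₀ : MidIdx q}

theorem rho3_apply (g : O) :
    rho3 A q O ρ ξ₀ g = (ρ g Coord.inf, ρ g (Coord.mid ξ₀), ρ g Coord.zero) := rfl

/-- `ρ₃(B') ⊆ B_κ³`. -/
theorem bp_range
    (hIncl : Plan.InclStmt A (N' * q) M q (Dvd.intro_left N' rfl)
      (Nat.mul_dvd_mul_right hq' q) O ρ)
    (hRange : RangeStmt A M q O ρ ξ₀) {E : Divisor Kbar (FN (N' * q))}
    (hE : IsE3 (N' * q) q (Dvd.intro_left N' rfl) (Nat.mul_dvd_mul_right hq' q) E)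
    {b : O} (hb : b ∈ Bp A N' M q O E) :
    ∃ t : BK3 A M, rho3 A q O ρ ξ₀ b = iota3 A M t := by
  obtain ⟨hfix, c, hc⟩ := hb
  rw [zero_add] at hc
  have hI := hIncl E hE c b hc
  obtain ⟨r1, r2, r3⟩ := hRange b hfix
  exact ⟨(⟨ρ b Coord.inf, mem_BKM_iff.2 ⟨r1, (hI Coord.inf).2.1⟩⟩,
    ⟨ρ b (Coord.mid ξ₀), mem_BKM_iff.2 ⟨r2, (hI (Coord.mid ξ₀)).2.1⟩⟩,
    ⟨ρ b Coord.zero, mem_BKM_iff.2 ⟨r3, (hI Coord.zero).2.1⟩⟩), rfl⟩

/-- **Kummer integrality**: for `f ∈ Λ'(D)` and a normalised Kummer pair `(w, ξ)` of `(D, n)`,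
`y = ρ₃(f)/ξ` lies in `B_κ³`, and `yⁿ = ρ₃(w fⁿ) ∈ A₃`. -/
theorem kummer_int
    (hle : modularFunctionFieldBar (N' * q) ≤ modularFunctionFieldBar (M * q * q))
    (hIncl : Plan.InclStmt A (N' * q) M q (Dvd.intro_left N' rfl)
      (Nat.mul_dvd_mul_right hq' q) O ρ)
    (hRange : RangeStmt A M q O ρ ξ₀) {E : Divisor Kbar (FN (N' * q))}
    (hE : IsE3 (N' * q) q (Dvd.intro_left N' rfl) (Nat.mul_dvd_mul_right hq' q) E)
    {D : Divisor Kbar (FN (N' * q))} {n : ℕ} (hn : 0 < n)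
    {w : FN (N' * q)} (hw : (w : Om) ∈ O) (hw0 : w ≠ 0)
    (hord : ∀ P : Place Kbar (FN (N' * q)), P.ord w = n * D P) (hfix : Fixed A (w : Om))
    {ξ : R3 A} (hξ : ξ.1 ∈ Fk A M ∧ ξ.2.1 ∈ Fk A M ∧ ξ.2.2 ∈ Fk A M)
    (hρ : rho3 A q O ρ ξ₀ ⟨_, hw⟩ * ξ ^ n = 1) {f : O} (hf : f ∈ Lam A N' M q O E D) :
    ∃ y : BK3 A M, rho3 A q O ρ ξ₀ f = iota3 A M y * ξ ∧
      y ^ n ∈ A3 A N' M q O ρ E ξ₀ := by
  -- `e = w fⁿ ∈ B'`
  have he : (⟨(w : Om), hw⟩ : O) * f ^ n ∈ Bp A N' M q O E := by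
    have h1 := lam_fn_mul (A := A) (M := M) (O := O) hle hw0
      (Dh := n • D) (fun P => by rw [hord P, Finsupp.smul_apply, nsmul_eq_mul]) hw hfix
      (lam_pow hle hf n)
    rwa [sub_self] at h1
  obtain ⟨t, ht⟩ := bp_range (hq' := hq') hIncl hRange hE he
  obtain ⟨r1, r2, r3⟩ := hRange f hf.1
  -- coordinates
  have e1 : ρ ⟨(w : Om), hw⟩ Coord.inf * ξ.1 ^ n = 1 := congrArg Prod.fst hρ
  have e2 : ρ ⟨(w : Om), hw⟩ (Coord.mid ξ₀) * ξ.2.1 ^ n = 1 :=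
    congrArg (fun x : R3 A => x.2.1) hρ
  have e3 : ρ ⟨(w : Om), hw⟩ Coord.zero * ξ.2.2 ^ n = 1 :=
    congrArg (fun x : R3 A => x.2.2) hρ
  have t1 : ρ ⟨(w : Om), hw⟩ Coord.inf * ρ f Coord.inf ^ n = (t.1 : Omk A) := by
    have := congrArg Prod.fst ht
    rw [rho3_apply, iota3_apply, map_mul, map_pow] at this
    exact this
  have t2 : ρ ⟨(w : Om), hw⟩ (Coord.mid ξ₀) * ρ f (Coord.mid ξ₀) ^ n = (t.2.1 : Omk A) := by
    have := congrArg (fun x : R3 A => x.2.1) ht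
    rw [rho3_apply, iota3_apply, map_mul, map_pow] at this
    exact this
  have t3 : ρ ⟨(w : Om), hw⟩ Coord.zero * ρ f Coord.zero ^ n = (t.2.2 : Omk A) := by
    have := congrArg (fun x : R3 A => x.2.2) ht
    rw [rho3_apply, iota3_apply, map_mul, map_pow] at this
    exact this
  obtain ⟨y1, hy1, hy1n⟩ := coord_aux hn r1 hξ.1 e1 t1
  obtain ⟨y2, hy2, hy2n⟩ := coord_aux hn r2 hξ.2.1 e2 t2
  obtain ⟨y3, hy3, hy3n⟩ := coord_aux hn r3 hξ.2.2 e3 t3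
  refine ⟨(y1, y2, y3), ?_, ⟨_, he, ?_⟩⟩
  · rw [rho3_apply, iota3_apply]
    exact Prod.ext hy1 (Prod.ext hy2 hy3)
  · rw [ht, iota3_apply, iota3_apply]
    exact Prod.ext hy1n.symm (Prod.ext hy2n.symm hy3n.symm)

end Range


/-! ## Gluing: all or nothing over a point `z` -/

section Glue

variable {A : ValuationSubring Kbar} {N' M q : ℕ} [NeZero N'] [NeZero M] [NeZero q]
variable {O : Subring Om} {ρ : O →+* Rq A q} {ξ₀ : MidIdx q} {E : Divisor Kbar (FN (N' * q))}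

variable (A N' M q O ρ E ξ₀) in
/-- The whole triple `(∞, z)`, `(mid, z)`, `(0, z)` is glued. -/
def FullGlue (z : ↥(BKM A M) →ₐ[kk A] kk A) : Prop :=
  ∀ t ∈ A3 A N' M q O ρ E ξ₀, z t.1 = z t.2.1 ∧ z t.2.2 = z t.2.1

theorem glued_symm {P Q : BK3 A M →+* kk A} (h : Glued A N' M q O ρ E ξ₀ P Q) :
    Glued A N' M q O ρ E ξ₀ Q P := fun t ht => (h t ht).symm

/-- Over a fully glued `z`, every element of `A₃` takes one value at the three points. -/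
theorem FullGlue.apply_eq {z : ↥(BKM A M) →ₐ[kk A] kk A} (hz : FullGlue A N' M q O ρ ξ₀ E z)
    {R : BK3 A M →+* kk A} (hR : Over z R) {t : BK3 A M} (ht : t ∈ A3 A N' M q O ρ E ξ₀) :
    R t = z t.2.1 := by
  rcases hR with rfl | rfl | rfl
  · exact (hz t ht).1
  · rfl
  · exact (hz t ht).2

theorem eq_of_glued11 (hDiag : DiagStmt A N' M q O ρ ξ₀ E) {z z' : ↥(BKM A M) →ₐ[kk A] kk A}
    (h : Glued A N' M q O ρ E ξ₀ (pt1 z) (pt1 z')) : z' = z := by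
  refine AlgHom.ext fun d => ?_
  obtain ⟨⟨t, ht, h1, -⟩, -⟩ := hDiag d
  have := h t ht
  rw [pt1_apply, pt1_apply, h1] at this
  exact this

theorem eq_of_glued22 (hDiag : DiagStmt A N' M q O ρ ξ₀ E) {z z' : ↥(BKM A M) →ₐ[kk A] kk A}
    (h : Glued A N' M q O ρ E ξ₀ (pt2 z) (pt2 z')) : z' = z := by
  refine AlgHom.ext fun d => ?_
  obtain ⟨⟨t, ht, -, h2⟩, -⟩ := hDiag d
  have := h t ht
  rw [pt2_apply, pt2_apply, h2] at this
  exact this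

theorem eq_of_glued33 (hDiag : DiagStmt A N' M q O ρ ξ₀ E) {z z' : ↥(BKM A M) →ₐ[kk A] kk A}
    (h : Glued A N' M q O ρ E ξ₀ (pt3 z) (pt3 z')) : z' = z := by
  refine AlgHom.ext fun d => ?_
  obtain ⟨-, ⟨t, ht, -, h3⟩⟩ := hDiag d
  have := h t ht
  rw [pt3_apply, pt3_apply, h3] at this
  exact this

theorem full_of_glued12 (hDiag : DiagStmt A N' M q O ρ ξ₀ E) (hTrace : TraceStmt A N' M q O ρ ξ₀ E)
    {z z' : ↥(BKM A M) →ₐ[kk A] kk A} (h : Glued A N' M q O ρ E ξ₀ (pt1 z) (pt2 z')) :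
    z' = z ∧ FullGlue A N' M q O ρ ξ₀ E z := by
  have hzz : z' = z := by
    refine AlgHom.ext fun d => ?_
    obtain ⟨⟨t, ht, h1, h2⟩, -⟩ := hDiag d
    have := h t ht
    rw [pt2_apply, pt1_apply, h1, h2] at this
    exact this
  subst hzz
  refine ⟨rfl, fun t ht => ⟨?_, ?_⟩⟩
  · have := h t ht
    rw [pt2_apply, pt1_apply] at this
    exact this.symm
  · have := h _ (hTrace t ht).2
    rw [pt2_apply, pt1_apply] at this
    simp only [map_sub, map_zero] at this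
    exact sub_eq_zero.1 this

theorem full_of_glued23 (hDiag : DiagStmt A N' M q O ρ ξ₀ E) (hTrace : TraceStmt A N' M q O ρ ξ₀ E)
    {z z' : ↥(BKM A M) →ₐ[kk A] kk A} (h : Glued A N' M q O ρ E ξ₀ (pt2 z) (pt3 z')) :
    z' = z ∧ FullGlue A N' M q O ρ ξ₀ E z := by
  have hzz : z' = z := by
    refine AlgHom.ext fun d => ?_
    obtain ⟨-, ⟨t, ht, h2, h3⟩⟩ := hDiag d
    have := h t ht
    rw [pt3_apply, pt2_apply, h2, h3] at this
    exact this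
  subst hzz
  refine ⟨rfl, fun t ht => ⟨?_, ?_⟩⟩
  · have := h _ (hTrace t ht).1
    rw [pt3_apply, pt2_apply] at this
    simp only [map_sub, map_zero] at this
    exact (sub_eq_zero.1 this.symm)
  · have := h t ht
    rw [pt3_apply, pt2_apply] at this
    exact this

theorem full_of_glued13 (hDiag : DiagStmt A N' M q O ρ ξ₀ E) (hTrace : TraceStmt A N' M q O ρ ξ₀ E)
    {z z' : ↥(BKM A M) →ₐ[kk A] kk A} (h : Glued A N' M q O ρ E ξ₀ (pt1 z) (pt3 z')) :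
    z' = z ∧ FullGlue A N' M q O ρ ξ₀ E z := by
  have h12 : ∀ t ∈ A3 A N' M q O ρ E ξ₀, z t.1 = z t.2.1 := by
    intro t ht
    have := h _ (hTrace t ht).1
    rw [pt3_apply, pt1_apply] at this
    simp only [map_sub, map_zero] at this
    exact sub_eq_zero.1 this.symm
  have hzz : z' = z := by
    refine AlgHom.ext fun d => ?_
    obtain ⟨-, ⟨t, ht, h2, h3⟩⟩ := hDiag d
    have := h t ht
    rw [pt3_apply, pt1_apply, h12 t ht, h2, h3] at this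
    exact this
  subst hzz
  refine ⟨rfl, fun t ht => ⟨h12 t ht, ?_⟩⟩
  have := h t ht
  rw [pt3_apply, pt1_apply, h12 t ht] at this
  exact this

/-- **Gluing is all or nothing**: two glued points are equal, or they lie over one `z` and the
whole triple over `z` is glued. -/
theorem glued_cases (hDiag : DiagStmt A N' M q O ρ ξ₀ E) (hTrace : TraceStmt A N' M q O ρ ξ₀ E)
    {P Q : BK3 A M →+* kk A} (hP : IsPt A M P) (hQ : IsPt A M Q)
    (hPQ : Glued A N' M q O ρ E ξ₀ P Q) :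
    Q = P ∨ ∃ z : ↥(BKM A M) →ₐ[kk A] kk A, FullGlue A N' M q O ρ ξ₀ E z ∧ Over z P ∧ Over z Q := by
  obtain ⟨z, hz⟩ := hP
  obtain ⟨z', hz'⟩ := hQ
  rcases hz with rfl | rfl | rfl <;> rcases hz' with rfl | rfl | rfl
  · exact Or.inl (by rw [eq_of_glued11 hDiag hPQ])
  · obtain ⟨rfl, hf⟩ := full_of_glued12 hDiag hTrace hPQ
    exact Or.inr ⟨_, hf, Or.inl rfl, Or.inr (Or.inl rfl)⟩
  · obtain ⟨rfl, hf⟩ := full_of_glued13 hDiag hTrace hPQ
    exact Or.inr ⟨_, hf, Or.inl rfl, Or.inr (Or.inr rfl)⟩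
  · obtain ⟨rfl, hf⟩ := full_of_glued12 hDiag hTrace (glued_symm hPQ)
    exact Or.inr ⟨_, hf, Or.inr (Or.inl rfl), Or.inl rfl⟩
  · exact Or.inl (by rw [eq_of_glued22 hDiag hPQ])
  · obtain ⟨rfl, hf⟩ := full_of_glued23 hDiag hTrace hPQ
    exact Or.inr ⟨_, hf, Or.inr (Or.inl rfl), Or.inr (Or.inr rfl)⟩
  · obtain ⟨rfl, hf⟩ := full_of_glued13 hDiag hTrace (glued_symm hPQ)
    exact Or.inr ⟨_, hf, Or.inr (Or.inr rfl), Or.inl rfl⟩
  · obtain ⟨rfl, hf⟩ := full_of_glued23 hDiag hTrace (glued_symm hPQ)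
    exact Or.inr ⟨_, hf, Or.inr (Or.inr rfl), Or.inr (Or.inl rfl)⟩
  · exact Or.inl (by rw [eq_of_glued33 hDiag hPQ])

end Glue


/-! ## The junction -/

section Main

variable {A : ValuationSubring Kbar} {N' M q : ℕ} [NeZero N'] [NeZero M] [NeZero q]
variable {hq' : q ∣ N'} {O : Subring Om} {ρ : O →+* Rq A q} {ξ₀ : MidIdx q}

theorem isUnit_of_mul_pow_eq_one {R : Type*} [CommMonoid R] {u x : R} {n : ℕ} (hn : 0 < n)
    (h : u * x ^ n = 1) : IsUnit x := by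
  obtain ⟨m, rfl⟩ : ∃ m, n = m + 1 := ⟨n - 1, by omega⟩
  exact IsUnit.of_mul_eq_one (u * x ^ m) (by rw [← h, pow_succ, mul_left_comm, mul_comm x])

/-- **[TWIST]** in the `K0Plan` vocabulary: the contract `K0Plan.TwistStmt` with `c_b = q² - 1`,
from `[INCL]`, `[K0-RANGE]`, `[REG]` (`InvKStmt`), `[K0-DIAG]`, `[K0-TRACE]` and `[NORM-TW]`. -/
theorem twistStmt_of (hq : q.Prime)
    (hle : modularFunctionFieldBar (N' * q) ≤ modularFunctionFieldBar (M * q * q))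
    (hIncl : Plan.InclStmt A (N' * q) M q (Dvd.intro_left N' rfl)
      (Nat.mul_dvd_mul_right hq' q) O ρ)
    (hRange : RangeStmt A M q O ρ ξ₀)
    (hInv : ∀ E : Divisor Kbar (FN (N' * q)),
      IsE3 (N' * q) q (Dvd.intro_left N' rfl) (Nat.mul_dvd_mul_right hq' q) E →
        InvKStmt A N' M q O ρ ξ₀ E)
    (hDiag : ∀ E : Divisor Kbar (FN (N' * q)),
      IsE3 (N' * q) q (Dvd.intro_left N' rfl) (Nat.mul_dvd_mul_right hq' q) E →
        DiagStmt A N' M q O ρ ξ₀ E)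
    (hTrace : ∀ E : Divisor Kbar (FN (N' * q)),
      IsE3 (N' * q) q (Dvd.intro_left N' rfl) (Nat.mul_dvd_mul_right hq' q) E →
        TraceStmt A N' M q O ρ ξ₀ E)
    (hNT : NormTwStmt A N' M q hq' O ρ ξ₀) :
    TwistStmt A N' M q hq' O ρ ξ₀ (q ^ 2 - 1) := by
  intro D n hD E hE w hw ξ hw0 hord hfix hwinv hξ hρ
  obtain ⟨η₁, η₂, η₁', η₂', h1, h2, h1', h2', hηn, hηn', hNT'⟩ :=
    hNT D n hD E hE w hw ξ hw0 hord hfix hwinv hξ hρ
  have hn : 0 < n := hD.pos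
  obtain ⟨m, hm1⟩ : ∃ m, m + 1 = q := ⟨q - 1, by have := hq.two_le; omega⟩
  have hm : m ≠ 0 := by have := hq.two_le; omega
  have hq1 : q - 1 = m := by omega
  have hcb : q ^ 2 - 1 = (m + 2) * m := by rw [← hm1]; exact TwistNorm.sq_sub_one m
  have e1 : (η₂ / η₁) ^ n = 1 := by rw [div_pow, hηn, div_self (pow_ne_zero _ h2)]
  have e2 : (η₁' / η₂') ^ n = 1 := by rw [div_pow, hηn', div_self (pow_ne_zero _ h2')]
  have e3 : (η₂' / η₁') ^ n = 1 := by rw [div_pow, hηn', div_self (pow_ne_zero _ h2')]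
  refine ⟨(((η₂ * η₂') / (η₁ * η₁')) ^ m, (η₂ / η₁) ^ (m + 1) * (η₁' / η₂'), 1), ?_, ?_,
    one_pow n, ?_⟩
  · show (((η₂ * η₂') / (η₁ * η₁')) ^ m) ^ n = 1
    rw [← pow_mul, mul_comm m n, pow_mul, mul_div_mul_comm, mul_pow, e1, e3, one_mul, one_pow]
  · show ((η₂ / η₁) ^ (m + 1) * (η₁' / η₂')) ^ n = 1
    rw [mul_pow, ← pow_mul, mul_comm (m + 1) n, pow_mul, e1, one_pow, e2, one_mul]
  rw [hcb]
  generalize hζ₁ : ((η₂ * η₂') / (η₁ * η₁')) ^ m = ζ₁ at *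
  generalize hζ₂ : (η₂ / η₁) ^ (m + 1) * (η₁' / η₂') = ζ₂ at *
  generalize hcbdef : (m + 2) * m = cb at *
  show TwistCompat A N' M q O ρ ξ₀ E (cb • D)
    ((HahnSeries.C ζ₁, HahnSeries.C ζ₂, HahnSeries.C 1) * ξ ^ cb)
  have hζ₁0 : ζ₁ ≠ 0 := by
    rw [← hζ₁]
    exact pow_ne_zero _ (div_ne_zero (mul_ne_zero h2 h2') (mul_ne_zero h1 h1'))
  have hζ₂0 : ζ₂ ≠ 0 := by
    rw [← hζ₂]
    exact mul_ne_zero (pow_ne_zero _ (div_ne_zero h2 h1)) (div_ne_zero h1' h2')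
  intro P hP f hf g hg t y hfg hPt hfy Q hQ hPQ
  rcases glued_cases (hDiag E hE) (hTrace E hE) hP hQ hPQ with rfl | ⟨z, hz, hPz, hQz⟩
  · rfl
  -- a generator of `Λ'(D)` at `P`
  obtain ⟨f₀, hf₀, g₀, hg₀, t₀, hfg₀, hPt₀⟩ := hInv E hE D hD.stable P hP
  obtain ⟨y₀, hy₀, hy₀n⟩ :=
    kummer_int (hq' := hq') hle hIncl hRange hE hn hw hw0 hord hfix hξ hρ hf₀
  have hξu : IsUnit ξ := isUnit_of_mul_pow_eq_one hn hρ
  -- `e₂ = w⁻¹ g₀ⁿ ∈ B'`
  have hwinv' : ((w⁻¹ : FN (N' * q)) : Om) ∈ O := hwinv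
  have hfixinv : Fixed A ((w⁻¹ : FN (N' * q)) : Om) := fixed_inv hfix
  have he₂ : (⟨((w⁻¹ : FN (N' * q)) : Om), hwinv'⟩ : O) * g₀ ^ n ∈ Bp A N' M q O E := by
    have h1 := lam_fn_mul (A := A) (M := M) (O := O) hle (inv_ne_zero hw0) (Dh := n • -D)
      (fun P => by
        rw [Place.ord_inv, hord P, Finsupp.smul_apply, Finsupp.neg_apply, nsmul_eq_mul, mul_neg])
      hwinv' hfixinv (lam_pow hle hg₀ n)
    rwa [sub_self] at h1
  obtain ⟨s₂, hs₂⟩ := bp_range (hq' := hq') hIncl hRange hE he₂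
  have hww : (⟨(w : Om), hw⟩ : O) * ⟨((w⁻¹ : FN (N' * q)) : Om), hwinv'⟩ = 1 := by
    apply Subtype.ext
    show (w : Om) * (w : Om)⁻¹ = 1
    exact mul_inv_cancel₀ (fun h0 => hw0 (Subtype.ext h0))
  have hξn : rho3 A q O ρ ξ₀ ⟨((w⁻¹ : FN (N' * q)) : Om), hwinv'⟩ = ξ ^ n := by
    have h1 : rho3 A q O ρ ξ₀ ⟨(w : Om), hw⟩ *
        rho3 A q O ρ ξ₀ ⟨((w⁻¹ : FN (N' * q)) : Om), hwinv'⟩ = 1 := by
      rw [← map_mul, hww, map_one]
    calc rho3 A q O ρ ξ₀ ⟨((w⁻¹ : FN (N' * q)) : Om), hwinv'⟩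
        = rho3 A q O ρ ξ₀ ⟨((w⁻¹ : FN (N' * q)) : Om), hwinv'⟩ *
            (rho3 A q O ρ ξ₀ ⟨(w : Om), hw⟩ * ξ ^ n) := by rw [hρ, mul_one]
      _ = (rho3 A q O ρ ξ₀ ⟨(w : Om), hw⟩ *
            rho3 A q O ρ ξ₀ ⟨((w⁻¹ : FN (N' * q)) : Om), hwinv'⟩) * ξ ^ n := by ring
      _ = ξ ^ n := by rw [h1, one_mul]
  have hkey : t₀ ^ n = y₀ ^ n * s₂ := by
    apply iota3_injective
    have hL : iota3 A M (t₀ ^ n) = (rho3 A q O ρ ξ₀ f₀ * rho3 A q O ρ ξ₀ g₀) ^ n := by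
      rw [map_pow, ← hfg₀, map_mul]
    have hR : iota3 A M (y₀ ^ n * s₂) =
        (iota3 A M y₀) ^ n * (ξ ^ n * rho3 A q O ρ ξ₀ g₀ ^ n) := by
      rw [map_mul, map_pow, ← hs₂, map_mul, map_pow, hξn]
    rw [hL, hR, hy₀]
    ring
  have hPy₀ : P y₀ ≠ 0 := by
    intro h0
    have := congrArg P hkey
    rw [map_pow, map_mul, map_pow, h0, zero_pow hn.ne', zero_mul] at this
    exact hPt₀ ((pow_eq_zero_iff hn.ne').1 this)
  -- the three values of `y₀` over `z`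
  have hyn := hz _ hy₀n
  have hab : z y₀.1 ^ n = z y₀.2.1 ^ n := by
    have := hyn.1
    rw [show (y₀ ^ n).1 = y₀.1 ^ n from rfl, show (y₀ ^ n).2.1 = y₀.2.1 ^ n from rfl, map_pow,
      map_pow] at this
    exact this
  have hb0 : z y₀.2.1 ≠ 0 := by
    have h1 := hz.apply_eq hPz hy₀n
    rw [map_pow, show (y₀ ^ n).2.1 = y₀.2.1 ^ n from rfl, map_pow] at h1
    intro h0
    rw [h0, zero_pow hn.ne'] at h1
    exact hPy₀ ((pow_eq_zero_iff hn.ne').1 h1)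
  have ha0 : z y₀.1 ≠ 0 := by
    intro h0
    rw [h0, zero_pow hn.ne'] at hab
    exact hb0 ((pow_eq_zero_iff hn.ne').1 hab.symm)
  -- the two norm relations
  obtain ⟨hTα, hTβ⟩ := hNT' f₀ hf₀ y₀ hy₀
  have hα : η₁ * (z y₀.1 * z y₀.2.1 ^ m) = η₂ * z y₀.2.2 ^ (m + 1) := by
    have := (hz _ hTα).2
    simp only [map_smul, smul_eq_mul, map_mul, map_pow] at this
    rw [hq1, ← hm1] at this
    exact this.symm
  have hβ : η₁' * z y₀.1 ^ (m + 1) = η₂' * (z y₀.2.1 ^ m * z y₀.2.2) := by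
    have := (hz _ hTβ).1
    simp only [map_smul, smul_eq_mul, map_mul, map_pow] at this
    rw [hq1, ← hm1] at this
    exact this
  obtain ⟨-, -, hc0, hrel1, hrel2⟩ :=
    TwistNorm.pow_rel_aux hm h1 h2 h1' h2' hα hβ (Or.inl ha0)
  rw [hζ₁, hcbdef] at hrel1
  rw [hζ₂, hcbdef] at hrel2
  -- comparison of `f` with `f₀ ^ cb`
  have hf₁ : f₀ ^ cb ∈ Lam A N' M q O E (cb • D) := lam_pow hle hf₀ cb
  have hg₁ : g₀ ^ cb ∈ Lam A N' M q O E (cb • -D) := lam_pow hle hg₀ cb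
  have hzero : cb • D + cb • -D = 0 := by rw [smul_neg, add_neg_cancel]
  have hb₁ : f * g₀ ^ cb ∈ Bp A N' M q O E := by
    have := lam_mul hf hg₁
    rwa [hzero] at this
  have hb₂ : f₀ ^ cb * g₀ ^ cb ∈ Bp A N' M q O E := by
    have := lam_mul hf₁ hg₁
    rwa [hzero] at this
  obtain ⟨t₁, ht₁⟩ := bp_range (hq' := hq') hIncl hRange hE hb₁
  obtain ⟨t₂, ht₂⟩ := bp_range (hq' := hq') hIncl hRange hE hb₂
  have hA1 : t₁ ∈ A3 A N' M q O ρ E ξ₀ := ⟨_, hb₁, ht₁⟩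
  have hA2 : t₂ ∈ A3 A N' M q O ρ E ξ₀ := ⟨_, hb₂, ht₂⟩
  have ht₂' : t₂ = t₀ ^ cb := by
    apply iota3_injective
    rw [← ht₂, map_pow, ← hfg₀, ← mul_pow, map_pow]
  have hζB : iota3 A M (algebraMap (kk A) ↥(BKM A M) ζ₁, algebraMap (kk A) ↥(BKM A M) ζ₂, 1) =
      (HahnSeries.C ζ₁, HahnSeries.C ζ₂, HahnSeries.C 1) := by
    rw [iota3_apply]
    refine Prod.ext ?_ (Prod.ext ?_ ?_)
    · exact coe_algebraMap_BKM (M := M) ζ₁
    · exact coe_algebraMap_BKM (M := M) ζ₂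
    · exact (map_one (HahnSeries.C : kk A →+* Omk A)).symm
  have hmain : y * (algebraMap (kk A) ↥(BKM A M) ζ₁, algebraMap (kk A) ↥(BKM A M) ζ₂, 1) * t₂ =
      y₀ ^ cb * t₁ := by
    apply iota3_injective
    apply (hξu.pow cb).mul_left_cancel
    have hL : rho3 A q O ρ ξ₀ (f * (f₀ ^ cb * g₀ ^ cb)) =
        iota3 A M y * ((HahnSeries.C ζ₁, HahnSeries.C ζ₂, HahnSeries.C 1) * ξ ^ cb) *
          iota3 A M t₂ := by
      rw [map_mul (rho3 A q O ρ ξ₀) f, ht₂, hfy]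
    have hR : rho3 A q O ρ ξ₀ (f₀ ^ cb * (f * g₀ ^ cb)) =
        (iota3 A M y₀ * ξ) ^ cb * iota3 A M t₁ := by
      rw [map_mul (rho3 A q O ρ ξ₀) (f₀ ^ cb), ht₁, map_pow, hy₀]
    have h1 : f * (f₀ ^ cb * g₀ ^ cb) = f₀ ^ cb * (f * g₀ ^ cb) := by ring
    rw [h1, hR] at hL
    rw [map_mul, map_mul, map_mul, map_pow, hζB]
    linear_combination hL.symm
  have key : ∀ R : BK3 A M →+* kk A, Over z R →
      R y * z t₂.2.1 = z y₀.2.2 ^ cb * z t₁.2.1 := by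
    intro R hR
    have e := congrArg R hmain
    rw [map_mul, map_mul, map_mul, map_pow, hz.apply_eq hR hA1, hz.apply_eq hR hA2] at e
    rcases hR with rfl | rfl | rfl
    · simp only [pt1_apply] at e ⊢
      rw [apply_algebraMap, hrel1] at e
      apply mul_left_cancel₀ hζ₁0
      linear_combination e
    · simp only [pt2_apply] at e ⊢
      rw [apply_algebraMap, hrel2] at e
      apply mul_left_cancel₀ hζ₂0
      linear_combination e
    · simp only [pt3_apply] at e ⊢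
      rw [map_one, mul_one] at e
      exact e
  have hτ₂ : z t₂.2.1 ≠ 0 := by
    rw [← hz.apply_eq hPz hA2, ht₂', map_pow]
    exact pow_ne_zero _ hPt₀
  exact mul_right_cancel₀ hτ₂ ((key Q hQz).trans (key P hPz).symm)

end Main

end Fermat.Agent.S36.TwistK0
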