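import Mathlib
import Fermat.Agent.S36.OneAllOf
import Fermat.Agent.S36.LiftAllOf
import Fermat.Agent.S36.TwistK0
import Fermat.Agent.S36.TraceK0
import Fermat.Agent.S36.SurjAll
import Fermat.Agent.S36.K0RangeAll
import Fermat.Agent.S36.CondK0All

/-!
# S36 / P8 — [TWIST] at all levels, hypothesis form (helper57, reviewer of the [TWIST] block)

`OneAllOf.TwistAllStmt` (the all-level form of `K0Plan.TwistStmt`, constant `c_b = q ^ 2 - 1`)
from helper9's landed junction `TwistK0.twistStmt_of`, with every landed input discharged: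

* [K0-RANGE]  `K0RangeAll.rangeAllStmt`        (helper78);
* [MID-EQ]    `CondK0All.midEqAllStmt`         (helper70);
* [K0-DIAG]   `SurjAll.diag_all`               (helper89);
* [K0-TRACE]  `TraceK0.traceStmt`              (helper33);
* the level arithmetic (`N' q ∣ M q q`, `F_{N'q} ≤ F_{Mq²}`, `q ^ 2 - 1 ≠ 0`).

The remaining inputs are exactly

* `LiftAllOf.InclAllStmt`  ([INCL] at all levels),
* `OneAllOf.InvKAllStmt`   ([REG] = Lemma R in [INV] form, at all levels),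
* `NormTwAllStmt`          ([NORM-TW] = `TwistK0.NormTwStmt` at all levels; defined here).
-/

set_option autoImplicit false

noncomputable section

namespace Fermat.Agent.S36.TwistAllOf

open ModularCurve AlgebraicCurve Fermat.Agent.S24 Fermat.Agent.S18 Fermat.Agent.S18.Content
  Fermat.Agent.S18.Plan Fermat.Agent.S34 Fermat.Agent.S36.Plan

/-- **[NORM-TW] at all levels**: `TwistK0.NormTwStmt` with the binders of `Plan.OneAllStmt`. -/
def NormTwAllStmt : Prop :=
  ∀ (N₀ N' M q : ℕ) [NeZero N'] [NeZero M] [NeZero q] (hq' : q ∣ N') (h : Nat.Coprime M q),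
    q.Prime → Nat.Coprime N₀ q → N' = N₀ * q → M = S34.Plan.aux q * N₀ →
    ∀ A : ValuationSubring Kbar, A.LiesOverPrime q →
    ∀ (F : Frame M q h) (O : Subring Om) (ρ : O →+* Rq A q), IsSetup A F O ρ →
    ∀ ξ₀ : MidIdx q, TwistK0.NormTwStmt A N' M q hq' O ρ ξ₀

/-- `q ^ 2 - 1 ≠ 0` for a prime `q`. -/
theorem sq_sub_one_ne_zero {q : ℕ} (hq : q.Prime) : q ^ 2 - 1 ≠ 0 := by
  have h2 : 2 ≤ q := hq.two_le
  have h4 : 4 ≤ q ^ 2 := by nlinarith
  omega

/-- **[K0-TRACE] at all levels** (`TwistK0.TraceStmt` with the binders of `Plan.OneAllStmt`). -/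
theorem trace_all (N₀ N' M q : ℕ) [NeZero N'] [NeZero M] [NeZero q] (hq' : q ∣ N')
    (h : Nat.Coprime M q) (hqp : q.Prime) (hN' : N' = N₀ * q) (hM : M = S34.Plan.aux q * N₀)
    (A : ValuationSubring Kbar) (hA : A.LiesOverPrime q) (F : Frame M q h) (O : Subring Om)
    (ρ : O →+* Rq A q) (hS : IsSetup A F O ρ) (ξ₀ : MidIdx q) (E : Divisor Kbar (FN (N' * q)))
    (hE : IsE3 (N' * q) q (Dvd.intro_left N' rfl) (Nat.mul_dvd_mul_right hq' q) E) :
    TwistK0.TraceStmt A N' M q O ρ ξ₀ E :=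
  TraceK0.traceStmt A hqp hA F hS hq' (SurjAll.divisor_level_dvd hN' hM) E hE ξ₀
    (CondK0.midEqStmt hqp hA hS)

/-- **[TWIST] at all levels**, general hypothesis form: every K0Plan input as an all-level
hypothesis. -/
theorem twistAllStmt_of' (hIncl : LiftAllOf.InclAllStmt) (hRange : OneAllOf.RangeAllStmt)
    (hInv : OneAllOf.InvKAllStmt) (hNT : NormTwAllStmt) : OneAllOf.TwistAllStmt := by
  intro N₀ N' M q _ _ _ hq' h hqp hcop hN' hM A hA F O ρ hS ξ₀
  have hdvd : N' * q ∣ M * q * q := SurjAll.divisor_level_dvd hN' hM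
  refine ⟨q ^ 2 - 1, sq_sub_one_ne_zero hqp, ?_⟩
  exact TwistK0.twistStmt_of hqp (RR0.modularFunctionFieldBar_le hdvd)
    (hIncl N₀ N' M q hq' h hqp hcop hN' hM A hA F O ρ hS)
    (hRange N₀ N' M q hq' h hqp hcop hN' hM A hA F O ρ hS ξ₀)
    (fun E hE => hInv N₀ N' M q hq' h hqp hcop hN' hM A hA F O ρ hS ξ₀ E hE)
    (fun E hE => SurjAll.diag_all N₀ N' M q hq' h hqp hN' hM A hA F O ρ hS ξ₀ E hE)
    (fun E hE => trace_all N₀ N' M q hq' h hqp hN' hM A hA F O ρ hS ξ₀ E hE)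
    (hNT N₀ N' M q hq' h hqp hcop hN' hM A hA F O ρ hS ξ₀)

/-- **[TWIST] at all levels** from [INCL], [REG] (`InvKAllStmt`) and [NORM-TW] at all levels
(the landed [K0-RANGE] is used). -/
theorem twistAllStmt_of (hIncl : LiftAllOf.InclAllStmt) (hInv : OneAllOf.InvKAllStmt)
    (hNT : NormTwAllStmt) : OneAllOf.TwistAllStmt :=
  twistAllStmt_of' hIncl K0RangeAll.rangeAllStmt hInv hNT

end Fermat.Agent.S36.TwistAllOf

end
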