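import Mathlib
import Fermat.Agent.S36.Final3
import Fermat.Agent.S36.InvKFinal
import Fermat.Agent.S36.TwistAllOf

/-!
# S36 — final assembly, two-residual form (owner: helper74, P8 lead)

`[REG]` (`InvKFinal.invKAllStmt`) and the all-level `[TWIST]` glue (`TwistAllOf.twistAllStmt_of`)
are discharged here.  What is left of S36 is exactly TWO all-level Props:

* `OneAllK0.NormAllStmt`     — [VNORM] + [NORM-RED] (or `VNormAllStmt` + `NormRedAllStmt` through
                               `OneAllK0.normAllStmt_of_chain`);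
* `TwistAllOf.NormTwAllStmt` — [NORM-TW].

`twistAllStmt_of2` : `OneAllOf.TwistAllStmt` from `NormTwAllStmt`;
`oneAllStmt_of2`   : `Plan.OneAllStmt` from the two Props;
`result_of2`       : the frozen conclusion of S36 from the two Props;
`result_of_chain`  : the same from `VNormAllStmt`, `NormRedAllStmt`, `NormTwAllStmt`.
-/

set_option autoImplicit false

open Polynomial CuspForm ModularCurve AlgebraicCurve

namespace Fermat.Agent.S36.Final4

open Fermat.Agent.S36

/-- **[TWIST]** at all levels from **[NORM-TW]** at all levels. -/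
theorem twistAllStmt_of2 (hNT : TwistAllOf.NormTwAllStmt) : OneAllOf.TwistAllStmt :=
  TwistAllOf.twistAllStmt_of InclFinal.inclAllStmt InvKFinal.invKAllStmt hNT

/-- **[ONE-ALL]** from the two residual contracts. -/
theorem oneAllStmt_of2 (hNorm : OneAllK0.NormAllStmt) (hNT : TwistAllOf.NormTwAllStmt) :
    Plan.OneAllStmt :=
  Final3.oneAllStmt_of3 hNorm InvKFinal.invKAllStmt (twistAllStmt_of2 hNT)

/-- **The frozen conclusion of S36** from the two residual contracts. -/
theorem result_of2 (hNorm : OneAllK0.NormAllStmt) (hNT : TwistAllOf.NormTwAllStmt)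
    {M : ℕ} [NeZero M] {g : CuspForm (CongruenceSubgroup.Gamma0 M) 2} (hg : g.IsNewform)
    (lam : ℕ) [Fact lam.Prime]
    (S : Finset ℕ)
    (O' : Type) [CommRing O'] [IsDomain O'] [IsDiscreteValuationRing O']
    [IsAdicComplete (IsLocalRing.maximalIdeal O') O'] [Finite (IsLocalRing.ResidueField O')]
    [CharZero O'] (hlamO' : (lam : O') ∈ IsLocalRing.maximalIdeal O')
    (hlam2 : lam ≠ 2)
    (chig : CuspForm.heckeAlgebra M 2 (↑S : Set ℕ) →+* ℂ)
    (hchig : ∀ (ℓ : ℕ) (hℓ : ℓ.Prime) (hℓM : ¬ ℓ ∣ M) (hℓS : ℓ ∉ (↑S : Set ℕ)),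
      chig (CuspForm.heckeAlgebra.T hℓ hℓM hℓS) = ModularFormClass.qCoeff g ℓ)
    (iota : chig.range →+* O')
    (hlamS : lam ∈ S) (hMS : ∀ q : ℕ, q.Prime → q ∣ M → q ∈ S) :
    ∃ (O'' : Type) (_ : CommRing O'') (_ : IsDomain O'') (_ : IsDiscreteValuationRing O'')
      (_ : IsAdicComplete (IsLocalRing.maximalIdeal O'') O'')
      (_ : Finite (IsLocalRing.ResidueField O''))
      (_ : CharZero O'') (_ : Algebra O' O'') (_ : Module.Finite O' O'')
      (_ : IsLocalHom (algebraMap O' O'')),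
      Function.Injective (algebraMap O' O'') ∧
      ∃ ρ : GaloisRepAdic O'',
        (∀ (ℓ : ℕ) (hℓ : ℓ.Prime) (hℓM : ¬ ℓ ∣ M) (hℓS : ℓ ∉ (↑S : Set ℕ)),
          ∀ A : ValuationSubring (AlgebraicClosure ℚ), A.LiesOverPrime ℓ →
            ∀ σ : AlgebraicClosure ℚ ≃ₐ[ℚ] AlgebraicClosure ℚ, A.IsFrobeniusAt σ ℓ →
              LinearMap.charpoly (ρ.ρ σ) =
                X ^ 2 - C (algebraMap O' O'' ((iota.comp chig.rangeRestrict)
                  (CuspForm.heckeAlgebra.T hℓ hℓM hℓS))) * X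
                  + C ((ℓ : O''))) ∧
        (∀ q : ℕ, q.Prime → q ≠ lam → M.factorization q = 2 →
          ¬ ρ.IsUnipotentOnInertiaAt q) :=
  Final3.result_of3 hNorm InvKFinal.invKAllStmt (twistAllStmt_of2 hNT) hg lam S O' hlamO' hlam2
    chig hchig iota hlamS hMS

/-- **The frozen conclusion of S36** from `[VNORM]`, `[NORM-RED]`, `[NORM-TW]` at all levels. -/
theorem result_of_chain (hV : OneAllOf.VNormAllStmt) (hR : OneAllOf.NormRedAllStmt)
    (hNT : TwistAllOf.NormTwAllStmt)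
    {M : ℕ} [NeZero M] {g : CuspForm (CongruenceSubgroup.Gamma0 M) 2} (hg : g.IsNewform)
    (lam : ℕ) [Fact lam.Prime]
    (S : Finset ℕ)
    (O' : Type) [CommRing O'] [IsDomain O'] [IsDiscreteValuationRing O']
    [IsAdicComplete (IsLocalRing.maximalIdeal O') O'] [Finite (IsLocalRing.ResidueField O')]
    [CharZero O'] (hlamO' : (lam : O') ∈ IsLocalRing.maximalIdeal O')
    (hlam2 : lam ≠ 2)
    (chig : CuspForm.heckeAlgebra M 2 (↑S : Set ℕ) →+* ℂ)
    (hchig : ∀ (ℓ : ℕ) (hℓ : ℓ.Prime) (hℓM : ¬ ℓ ∣ M) (hℓS : ℓ ∉ (↑S : Set ℕ)),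
      chig (CuspForm.heckeAlgebra.T hℓ hℓM hℓS) = ModularFormClass.qCoeff g ℓ)
    (iota : chig.range →+* O')
    (hlamS : lam ∈ S) (hMS : ∀ q : ℕ, q.Prime → q ∣ M → q ∈ S) :
    ∃ (O'' : Type) (_ : CommRing O'') (_ : IsDomain O'') (_ : IsDiscreteValuationRing O'')
      (_ : IsAdicComplete (IsLocalRing.maximalIdeal O'') O'')
      (_ : Finite (IsLocalRing.ResidueField O''))
      (_ : CharZero O'') (_ : Algebra O' O'') (_ : Module.Finite O' O'')
      (_ : IsLocalHom (algebraMap O' O'')),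
      Function.Injective (algebraMap O' O'') ∧
      ∃ ρ : GaloisRepAdic O'',
        (∀ (ℓ : ℕ) (hℓ : ℓ.Prime) (hℓM : ¬ ℓ ∣ M) (hℓS : ℓ ∉ (↑S : Set ℕ)),
          ∀ A : ValuationSubring (AlgebraicClosure ℚ), A.LiesOverPrime ℓ →
            ∀ σ : AlgebraicClosure ℚ ≃ₐ[ℚ] AlgebraicClosure ℚ, A.IsFrobeniusAt σ ℓ →
              LinearMap.charpoly (ρ.ρ σ) =
                X ^ 2 - C (algebraMap O' O'' ((iota.comp chig.rangeRestrict)
                  (CuspForm.heckeAlgebra.T hℓ hℓM hℓS))) * X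
                  + C ((ℓ : O''))) ∧
        (∀ q : ℕ, q.Prime → q ≠ lam → M.factorization q = 2 →
          ¬ ρ.IsUnipotentOnInertiaAt q) :=
  result_of2 (OneAllK0.normAllStmt_of_chain hV hR) hNT hg lam S O' hlamO' hlam2
    chig hchig iota hlamS hMS

end Fermat.Agent.S36.Final4
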