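/-
P8 / S36 [NORM-Q2] (helper94): **the norm formulas for the two degeneracy maps at a level `N`
with `q ∣ N`** (degree `q`; levels `N q → N`; in P8: `N = q M`, `N q = q² M`).  The level-`q²`
twin of helper97's `S35/NormTwo` (which treats `q ∤ N`, degree `q + 1`).

Everything is in hypothesis form: the two degrees
`finrankAlong Kbar (heckeAlphaBar Kbar N q) = q`, `finrankAlong Kbar (heckeBetaBar Kbar N q) = q`
(true for `q ∣ N`) and, for `α`, the family `r` of the `q` embeddings of `F_{Nq}` into `Q̄((T))`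
over `α F_N` (the inclusion and the `q - 1` "middle" embeddings) are hypotheses.

* `qExpand_norm_beta`   : `(N_β y)(T^q) = ∏_{b < q} y(ζ^b T)`  (characteristic `0`);
* `red_norm_beta`       : `y ∈ Ocal → N_β y ∈ Ocal` and `red (N_β y) = (red y)^{(q)}`
                          (coefficientwise Frobenius);
* `coe_norm_alpha`      : `N_α y = ∏_i r_i y`  (characteristic `0`);
* `red_norm_alpha`      : `(∀ i, r_i y ∈ Ocal) → N_α y ∈ Ocal` and `red (N_α y) = ∏_i red (r_i y)`;
* `norm_beta_swap`, `norm_alpha_swap` : for automorphisms `σ` of `F_N`, `w` of `F_{Nq}` with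
                          `w ∘ α = β ∘ σ` (resp. `w ∘ β = α ∘ σ`): `N_β (w z) = σ (N_α z)`
                          (resp. `N_α (w z) = σ (N_β z)`);
* `red_sigma_norm_alpha`, `red_sigma_norm_beta` : the second components
                          `red (σ (N_α z)) = (red (w z))^{(q)}`, `red (σ (N_β z)) = ∏_i red (r_i (w z))`.

So with `ρ = (red, red ∘ σ)` at level `N` and the coordinates `g_∞ = red g`, `g_i = red (r_i g)`,
`g_0 = red (w g)` at level `N q`:
`ρ (N_α g) = (∏_i g_i, Frob g_0)` and `ρ (N_β g) = (Frob g_∞, ∏_i red (r_i (w g)))`.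
-/
import Mathlib
import Fermat.Agent.S35.NormTwo

set_option autoImplicit false

noncomputable section

namespace Fermat.Agent.S36.NormQ2

open ModularCurve AlgebraicCurve
open Fermat.Agent.S24 Fermat.Agent.S18.Content Fermat.Agent.S18.Plan
open Fermat.Agent.Lib.KroneckerCong Fermat.Agent.S37.Conj

set_option synthInstance.maxHeartbeats 400000
set_option maxHeartbeats 1600000

variable (N q : ℕ) [NeZero N] [NeZero q]

/-! ## The embeddings over `β F_N` -/

/-- The `q` embeddings `σ_b : y ↦ y(ζ^b T)` of `F_{Nq}` into `Q̄((T))`. -/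
def embB (ζ : Kbarˣ) : Fin q → (FN (N * q) →+* Om) :=
  fun b => (Fermat.Agent.S28.scale (ζ ^ (b : ℕ))).comp (algebraMap (FN (N * q)) Om)

variable {N q}

omit [NeZero N] [NeZero q] in
theorem embB_apply (ζ : Kbarˣ) (b : Fin q) (y : FN (N * q)) :
    embB N q ζ b y = Fermat.Agent.S28.scale (ζ ^ (b : ℕ)) (y : Om) := rfl

omit [NeZero N] in
/-- All the `σ_b` restrict to `x ↦ x(T^q)` on `β F_N`. -/
theorem embB_beta (ζ : Kbarˣ) (hζ : ζ ^ q = 1) (b : Fin q) (x : FN N) :
    embB N q ζ b (heckeBetaBar Kbar N q x) = qExpand Kbar q (x : Om) := by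
  rw [embB_apply, coe_heckeBetaBar]
  refine Fermat.Agent.S28.scale_eq_self_of_mem_range_expand (ζ ^ (b : ℕ)) (NeZero.ne q) ?_ ?_
  · rw [← pow_mul, mul_comm, pow_mul, hζ, one_pow]
  · rw [Fermat.Agent.S28.expand_eq_qExpand]
    exact ⟨_, rfl⟩

/-- The `σ_b` are pairwise distinct: they differ on `j`. -/
theorem embB_injective (ζ : Kbarˣ) (hζ : IsPrimitiveRoot ζ q) :
    Function.Injective (embB N q ζ) := by
  intro b b' hbb
  have hval := RingHom.congr_fun hbb (jBar (N * q))
  rw [embB_apply, embB_apply, coe_jBar] at hval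
  have hb := Fermat.Agent.S28.Prime.scale_pow_jq_injOn hζ
    (Finset.mem_coe.mpr (Finset.mem_range.mpr b.2))
    (Finset.mem_coe.mpr (Finset.mem_range.mpr b'.2)) hval
  exact Fin.ext hb

variable (N q)

/-! ## The norm along `β` -/

/-- **Product formula for the norm along `β`** (characteristic `0`, degree `q`): for every
`y ∈ F_{Nq}`, `(N_β y)(T^q) = ∏_{b < q} y(ζ^b T)`. -/
theorem qExpand_norm_beta (hfr : finrankAlong Kbar (heckeBetaBar Kbar N q) = q)
    (ζ : Kbarˣ) (hζ : IsPrimitiveRoot ζ q) (y : FN (N * q)) :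
    qExpand Kbar q ((@Algebra.norm (FN N) (FN (N * q)) _ _
        (algebraAlong (heckeBetaBar Kbar N q)) y : FN N) : Om) =
      ∏ b ∈ Finset.range q, Fermat.Agent.S28.scale (ζ ^ b) (y : Om) := by
  let _ : Algebra (FN N) (FN (N * q)) := algebraAlong (heckeBetaBar Kbar N q)
  have h1 : Module.finrank (FN N) (FN (N * q)) = q := hfr
  have : Module.Finite (FN N) (FN (N * q)) :=
    Module.finite_of_finrank_pos (by rw [h1]; exact Nat.pos_of_ne_zero (NeZero.ne q))
  have hcard : Fintype.card (Fin q) = Module.finrank (FN N) (FN (N * q)) := by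
    rw [Fintype.card_fin, h1]
  have key := map_norm_eq_prod_of_card (K := FN N) (L := FN (N * q)) (Ω := Om)
    ((qExpand Kbar q).comp (algebraMap (FN N) Om))
    (embB N q ζ)
    (fun i x => embB_beta ζ hζ.pow_eq_one i x)
    (embB_injective ζ hζ) hcard y
  have h := Fin.prod_univ_eq_prod_range
    (fun b : ℕ => Fermat.Agent.S28.scale (ζ ^ b) (y : Om)) q
  rw [← h]
  exact key

section Reduction

variable (A : ValuationSubring Kbar)

/-- **Kronecker norm congruence along `β` at `q ∣ N`**: for `y ∈ Ocal`, `N_β y ∈ Ocal` and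
`red (N_β y) = (red y)^{(q)}` (coefficientwise Frobenius). -/
theorem red_norm_beta (hq : q.Prime) (hfr : finrankAlong Kbar (heckeBetaBar Kbar N q) = q)
    (hA : A.LiesOverPrime q) (τ : kk A →+* kk A) (hτ : ∀ x, τ x = x ^ q)
    (y : FN (N * q)) (hy : (y : Om) ∈ Ocal A) :
    ∃ hn : ((@Algebra.norm (FN N) (FN (N * q)) _ _
        (algebraAlong (heckeBetaBar Kbar N q)) y : FN N) : Om) ∈ Ocal A,
      red A ⟨_, hn⟩ = coeffMap τ (red A ⟨(y : Om), hy⟩) := by
  have : Fact q.Prime := ⟨hq⟩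
  have : CharP (kk A) q := charP_residueField_of_liesOverPrime A q hA
  have hτF : τ = frobenius (kk A) q := RingHom.ext fun x => by rw [frobenius_def]; exact hτ x
  obtain ⟨ζ, hζ⟩ := Fermat.Agent.S37.KronMain.exists_primitiveRoot_unit q
  obtain ⟨ζA, hζA⟩ := exists_unit_of_pow_eq_one A (NeZero.ne q) hζ.pow_eq_one
  have hζAq : ζA ^ q = 1 := by
    apply Units.map_injective (f := ((A.subtype : A →+* Kbar) : A →* Kbar)) Subtype.val_injective
    show unitK A (ζA ^ q) = unitK A 1
    rw [map_pow, hζA, hζ.pow_eq_one, map_one]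
  set Y : Ocal A := ⟨(y : Om), hy⟩ with hY
  have hsc : ∀ b : ℕ, Fermat.Agent.S28.scale (ζ ^ b) (y : Om) =
      ((twistO A (ζA ^ b) Y : Ocal A) : Om) := by
    intro b
    rw [coe_twistO, map_pow, hζA, Fermat.Agent.S37.KronMain.twist_eq_scale]
  have hredsc : ∀ b : ℕ, red A (twistO A (ζA ^ b) Y) = red A Y := by
    intro b
    rw [red_twistO, unitk_eq_one_of_pow_eq_one A (ζA ^ b)
      (by rw [← pow_mul, mul_comm, pow_mul, hζAq, one_pow]), twist_one]
  have key := qExpand_norm_beta N q hfr ζ hζ y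
  set nb : FN N := @Algebra.norm (FN N) (FN (N * q)) _ _
    (algebraAlong (heckeBetaBar Kbar N q)) y with hnb
  set P : Ocal A := ∏ b ∈ Finset.range q, twistO A (ζA ^ b) Y with hP
  have hPcoe : qExpand Kbar q ((nb : FN N) : Om) = (P : Om) := by
    rw [key, hP, SubmonoidClass.coe_finsetProd]
    exact Finset.prod_congr rfl fun b _ => hsc b
  have hn : ((nb : FN N) : Om) ∈ Ocal A :=
    mem_Ocal_of_qExpand_mem A q (hPcoe ▸ P.2)
  refine ⟨hn, ?_⟩
  apply qExpand_injective (R := kk A) (N := q)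
  rw [← red_qExpand A q ⟨_, hn⟩, red_congr A hPcoe (qExpand_mem_Ocal A q hn) P.2]
  show red A P = _
  rw [hP, map_prod, Finset.prod_congr rfl (fun b _ => hredsc b),
    Finset.prod_const, Finset.card_range, pow_char_eq, hτF]

end Reduction

/-! ## The norm along `α` -/

/-- **Product formula for the norm along `α`** (characteristic `0`, degree `q`): if `r` is a
family of `q` pairwise distinct embeddings of `F_{Nq}` into `Q̄((T))` restricting to the inclusion
on `α F_N`, then `N_α y = ∏_i r_i y`. -/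
theorem coe_norm_alpha (hfr : finrankAlong Kbar (heckeAlphaBar Kbar N q) = q)
    {ι : Type} [Fintype ι] (r : ι → (FN (N * q) →+* Om))
    (hr : ∀ (i : ι) (x : FN N), r i (heckeAlphaBar Kbar N q x) = (x : Om))
    (hinj : Function.Injective r) (hcard : Fintype.card ι = q) (y : FN (N * q)) :
    ((@Algebra.norm (FN N) (FN (N * q)) _ _
        (algebraAlong (heckeAlphaBar Kbar N q)) y : FN N) : Om) = ∏ i, r i y := by
  let _ : Algebra (FN N) (FN (N * q)) := algebraAlong (heckeAlphaBar Kbar N q)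
  have h1 : Module.finrank (FN N) (FN (N * q)) = q := hfr
  have : Module.Finite (FN N) (FN (N * q)) :=
    Module.finite_of_finrank_pos (by rw [h1]; exact Nat.pos_of_ne_zero (NeZero.ne q))
  exact map_norm_eq_prod_of_card (K := FN N) (L := FN (N * q)) (Ω := Om)
    (algebraMap (FN N) Om) r (fun i x => hr i x) hinj (by rw [hcard, h1]) y

section ReductionAlpha

variable (A : ValuationSubring Kbar)

/-- **Reduction of the norm along `α`**: if all conjugates `r_i y` are integral, then `N_α y` is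
integral and `red (N_α y) = ∏_i red (r_i y)`. -/
theorem red_norm_alpha (hfr : finrankAlong Kbar (heckeAlphaBar Kbar N q) = q)
    {ι : Type} [Fintype ι] (r : ι → (FN (N * q) →+* Om))
    (hr : ∀ (i : ι) (x : FN N), r i (heckeAlphaBar Kbar N q x) = (x : Om))
    (hinj : Function.Injective r) (hcard : Fintype.card ι = q) (y : FN (N * q))
    (hy : ∀ i, r i y ∈ Ocal A) :
    ∃ hn : ((@Algebra.norm (FN N) (FN (N * q)) _ _
        (algebraAlong (heckeAlphaBar Kbar N q)) y : FN N) : Om) ∈ Ocal A,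
      red A ⟨_, hn⟩ = ∏ i, red A ⟨r i y, hy i⟩ := by
  have key := coe_norm_alpha N q hfr r hr hinj hcard y
  set P : Ocal A := ∏ i, (⟨r i y, hy i⟩ : Ocal A) with hP
  have hPcoe : ((@Algebra.norm (FN N) (FN (N * q)) _ _
      (algebraAlong (heckeAlphaBar Kbar N q)) y : FN N) : Om) = (P : Om) := by
    rw [key, hP, SubmonoidClass.coe_finsetProd]
  have hn : ((@Algebra.norm (FN N) (FN (N * q)) _ _
      (algebraAlong (heckeAlphaBar Kbar N q)) y : FN N) : Om) ∈ Ocal A := hPcoe ▸ P.2
  refine ⟨hn, ?_⟩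
  rw [red_congr A hPcoe hn P.2, hP, map_prod]

end ReductionAlpha

/-! ## Swapping the two norms by an Atkin–Lehner pair -/

/-- If `w ∘ α = β ∘ σ` then `N_β (w z) = σ (N_α z)`. -/
theorem norm_beta_swap (σ : FN N ≃+* FN N) (w : FN (N * q) ≃+* FN (N * q))
    (h : ∀ x : FN N, w (heckeAlphaBar Kbar N q x) = heckeBetaBar Kbar N q (σ x))
    (z : FN (N * q)) :
    @Algebra.norm (FN N) (FN (N * q)) _ _ (algebraAlong (heckeBetaBar Kbar N q)) (w z) =
      σ (@Algebra.norm (FN N) (FN (N * q)) _ _ (algebraAlong (heckeAlphaBar Kbar N q)) z) := by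
  have h1 := @Algebra.norm_eq_of_equiv_equiv (FN N) (FN (N * q)) (FN N) (FN (N * q)) _ _ _ _
    (algebraAlong (heckeAlphaBar Kbar N q)) (algebraAlong (heckeBetaBar Kbar N q)) σ w
    (RingHom.ext fun x => (h x).symm) z
  rw [h1, RingEquiv.apply_symm_apply]

/-- If `w ∘ β = α ∘ σ` then `N_α (w z) = σ (N_β z)`. -/
theorem norm_alpha_swap (σ : FN N ≃+* FN N) (w : FN (N * q) ≃+* FN (N * q))
    (h : ∀ x : FN N, w (heckeBetaBar Kbar N q x) = heckeAlphaBar Kbar N q (σ x))
    (z : FN (N * q)) :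
    @Algebra.norm (FN N) (FN (N * q)) _ _ (algebraAlong (heckeAlphaBar Kbar N q)) (w z) =
      σ (@Algebra.norm (FN N) (FN (N * q)) _ _ (algebraAlong (heckeBetaBar Kbar N q)) z) := by
  have h1 := @Algebra.norm_eq_of_equiv_equiv (FN N) (FN (N * q)) (FN N) (FN (N * q)) _ _ _ _
    (algebraAlong (heckeBetaBar Kbar N q)) (algebraAlong (heckeAlphaBar Kbar N q)) σ w
    (RingHom.ext fun x => (h x).symm) z
  rw [h1, RingEquiv.apply_symm_apply]

section Second

variable (A : ValuationSubring Kbar)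

/-- **Second component of `N_α`**: `red (σ (N_α z)) = (red (w z))^{(q)}` for `w z ∈ Ocal`. -/
theorem red_sigma_norm_alpha (hq : q.Prime)
    (hfr : finrankAlong Kbar (heckeBetaBar Kbar N q) = q) (hA : A.LiesOverPrime q)
    (τ : kk A →+* kk A) (hτ : ∀ x, τ x = x ^ q)
    (σ : FN N ≃+* FN N) (w : FN (N * q) ≃+* FN (N * q))
    (h : ∀ x : FN N, w (heckeAlphaBar Kbar N q x) = heckeBetaBar Kbar N q (σ x))
    (z : FN (N * q)) (hwz : ((w z : FN (N * q)) : Om) ∈ Ocal A) :
    ∃ hn : ((σ (@Algebra.norm (FN N) (FN (N * q)) _ _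
        (algebraAlong (heckeAlphaBar Kbar N q)) z) : FN N) : Om) ∈ Ocal A,
      red A ⟨_, hn⟩ = coeffMap τ (red A ⟨((w z : FN (N * q)) : Om), hwz⟩) := by
  obtain ⟨hn, hred⟩ := red_norm_beta N q A hq hfr hA τ hτ (w z) hwz
  have hcoe : ((σ (@Algebra.norm (FN N) (FN (N * q)) _ _
      (algebraAlong (heckeAlphaBar Kbar N q)) z) : FN N) : Om) =
      ((@Algebra.norm (FN N) (FN (N * q)) _ _
        (algebraAlong (heckeBetaBar Kbar N q)) (w z) : FN N) : Om) := by
    rw [norm_beta_swap N q σ w h z]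
  refine ⟨hcoe ▸ hn, ?_⟩
  rw [red_congr A hcoe (hcoe ▸ hn) hn, hred]

/-- **Second component of `N_β`**: `red (σ (N_β z)) = ∏_i red (r_i (w z))`. -/
theorem red_sigma_norm_beta (hfr : finrankAlong Kbar (heckeAlphaBar Kbar N q) = q)
    {ι : Type} [Fintype ι] (r : ι → (FN (N * q) →+* Om))
    (hr : ∀ (i : ι) (x : FN N), r i (heckeAlphaBar Kbar N q x) = (x : Om))
    (hinj : Function.Injective r) (hcard : Fintype.card ι = q)
    (σ : FN N ≃+* FN N) (w : FN (N * q) ≃+* FN (N * q))
    (h : ∀ x : FN N, w (heckeBetaBar Kbar N q x) = heckeAlphaBar Kbar N q (σ x))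
    (z : FN (N * q)) (hy : ∀ i, r i (w z) ∈ Ocal A) :
    ∃ hn : ((σ (@Algebra.norm (FN N) (FN (N * q)) _ _
        (algebraAlong (heckeBetaBar Kbar N q)) z) : FN N) : Om) ∈ Ocal A,
      red A ⟨_, hn⟩ = ∏ i, red A ⟨r i (w z), hy i⟩ := by
  obtain ⟨hn, hred⟩ := red_norm_alpha N q A hfr r hr hinj hcard (w z) hy
  have hcoe : ((σ (@Algebra.norm (FN N) (FN (N * q)) _ _
      (algebraAlong (heckeBetaBar Kbar N q)) z) : FN N) : Om) =
      ((@Algebra.norm (FN N) (FN (N * q)) _ _
        (algebraAlong (heckeAlphaBar Kbar N q)) (w z) : FN N) : Om) := by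
    rw [norm_alpha_swap N q σ w h z]
  refine ⟨hcoe ▸ hn, ?_⟩
  rw [red_congr A hcoe (hcoe ▸ hn) hn, hred]

end Second

end Fermat.Agent.S36.NormQ2
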