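/-
P8 / S36 frame (helper58): **the two degeneracy norms `N_α, N_β : F_{Mq²} → F_{Mq}` in the
coordinates of the level-`q²` frame**, unconditional.

`Nα y := Algebra.norm` along `heckeAlphaBar Kbar (M*q) q`, `Nβ y` along `heckeBetaBar`;
`σ = S34.Sigma.sigma M q h` the Atkin–Lehner involution of `F_{Mq}`; `F : Plan.Frame M q h`.

Characteristic `0`:
* `coe_norm_alpha`      : `N_α y = y · ∏_ξ r_ξ y`   (in `Q̄((T))`);
* `qExpand_norm_beta`   : `(N_β y)(T^q) = ∏_{b<q} y(ζ^b T)`;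
* `norm_beta_w`, `norm_alpha_w` : `N_β (w y) = σ (N_α y)`, `N_α (w y) = σ (N_β y)`;
* `coe_sigma_norm_beta` : `σ (N_β y) = (w y) · ∏_ξ (r_{ξ⁻¹} y)(ξ T)`.

Reductions, for `(O, ρ)` with `Plan.IsSetup A F O ρ`, `A` over `q`, `y ∈ O`
(with the level-`Mq` reduction `ρ_Y = (red, red ∘ σ)`):
* `red_norm_alpha`, `red_sigma_norm_alpha` : `ρ_Y (N_α y) = (y_∞ · ∏_ξ y_ξ , Frob y_0)`;
* `red_norm_beta`, `red_sigma_norm_beta`   : `ρ_Y (N_β y) = (Frob y_∞ , y_0 · ∏_ξ y_ξ)`.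
(`Frob` = the coefficientwise `x ↦ x^q`.)
-/
import Mathlib
import Fermat.Agent.S36.Plan
import Fermat.Agent.S36.MidFam
import Fermat.Agent.S36.MidRed
import Fermat.Agent.S36.FrameInst
import Fermat.Agent.S36.FrameFinal
import Fermat.Agent.S36.CoordFin
import Fermat.Agent.S36.NormQ2
import Fermat.Agent.S36.DegNCDeg

set_option autoImplicit false
set_option linter.unusedSectionVars false
set_option linter.style.haveILetI false

noncomputable section

namespace Fermat.Agent.S36.MidNorm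

open ModularCurve AlgebraicCurve
open Fermat.Agent.S24 Fermat.Agent.S18.Content Fermat.Agent.S18.Plan Fermat.Agent.S34
open Fermat.Agent.Lib.KroneckerCong Fermat.Agent.S37.Conj

set_option synthInstance.maxHeartbeats 400000
set_option maxHeartbeats 1600000

variable {M q : ℕ} [NeZero M] [NeZero q] {h : Nat.Coprime M q}

/-! ### Degrees -/

/-- `[F_{Mq²} : α F_{Mq}] = q`. -/
theorem finrank_alpha (hq : q.Prime) : finrankAlong Kbar (heckeAlphaBar Kbar (M * q) q) = q :=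
  DegNCDeg.finrankAlong_alpha_of_dvd (M * q) q hq (Dvd.intro_left M rfl)

/-- `[F_{Mq²} : β F_{Mq}] = q`. -/
theorem finrank_beta (hq : q.Prime) : finrankAlong Kbar (heckeBetaBar Kbar (M * q) q) = q :=
  DegNCDeg.finrankAlong_beta_of_dvd q hq (M * q) (Dvd.intro_left M rfl)

/-! ### Characteristic `0` -/

/-- `N_α y = ∏_i fam_i y` over the family `MidFam.fam`. -/
theorem coe_norm_alpha_fam (hq : q.Prime) (hqM : ¬ q ∣ M) (ζ : Kbarˣ) (hζ : IsPrimitiveRoot ζ q)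
    (y : FN (M * q * q)) :
    ((@Algebra.norm (FN (M * q)) (FN (M * q * q)) _ _
        (algebraAlong (heckeAlphaBar Kbar (M * q) q)) y : FN (M * q)) : Om) =
      ∏ i : Option (Fin (q - 1)), MidFam.fam M q hq hqM ζ hζ i y :=
  NormQ2.coe_norm_alpha (M * q) q (finrank_alpha hq)
    (fun i : Option (Fin (q - 1)) =>
      ((MidFam.fam M q hq hqM ζ hζ i : FN (M * q * q) →ₐ[Kbar] Om) : FN (M * q * q) →+* Om))
    (fun i x => MidFam.fam_alpha hq hqM ζ hζ i x) (MidFam.fam_injective hq hqM ζ hζ)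
    (MidFam.card_index hq) y

/-- **`N_α y = y · ∏_ξ r_ξ y`** in `Q̄((T))`. -/
theorem coe_norm_alpha [Fintype (Plan.MidIdx q)] (hq : q.Prime) (F : Plan.Frame M q h)
    (y : FN (M * q * q)) :
    ((@Algebra.norm (FN (M * q)) (FN (M * q * q)) _ _
        (algebraAlong (heckeAlphaBar Kbar (M * q) q)) y : FN (M * q)) : Om) =
      (y : Om) * ∏ ξ : Plan.MidIdx q, F.r ξ y := by
  obtain ⟨ζ, hζ⟩ := CoordFin.exists_primitiveRoot q
  have hqM := FrameInst.not_dvd_of_coprime hq h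
  rw [coe_norm_alpha_fam hq hqM ζ hζ y, CoordFin.prod_inf_mid_eq hq hqM ζ hζ F y]

/-- **`(N_β y)(T^q) = ∏_{b<q} y(ζ^b T)`**. -/
theorem qExpand_norm_beta (hq : q.Prime) (ζ : Kbarˣ) (hζ : IsPrimitiveRoot ζ q)
    (y : FN (M * q * q)) :
    qExpand Kbar q ((@Algebra.norm (FN (M * q)) (FN (M * q * q)) _ _
        (algebraAlong (heckeBetaBar Kbar (M * q) q)) y : FN (M * q)) : Om) =
      ∏ b ∈ Finset.range q, Fermat.Agent.S28.scale (ζ ^ b) (y : Om) :=
  NormQ2.qExpand_norm_beta (M * q) q (finrank_beta hq) ζ hζ y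

/-- `N_β (w y) = σ (N_α y)`. -/
theorem norm_beta_w (F : Plan.Frame M q h) (y : FN (M * q * q)) :
    @Algebra.norm (FN (M * q)) (FN (M * q * q)) _ _
        (algebraAlong (heckeBetaBar Kbar (M * q) q)) (F.w y) =
      Sigma.sigma M q h (@Algebra.norm (FN (M * q)) (FN (M * q * q)) _ _
        (algebraAlong (heckeAlphaBar Kbar (M * q) q)) y) :=
  NormQ2.norm_beta_swap (M * q) q (Sigma.sigma M q h : FN (M * q) ≃+* FN (M * q))
    (F.w : FN (M * q * q) ≃+* FN (M * q * q)) (fun x => F.w_alpha x) y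

/-- `N_α (w y) = σ (N_β y)`. -/
theorem norm_alpha_w (F : Plan.Frame M q h) (y : FN (M * q * q)) :
    @Algebra.norm (FN (M * q)) (FN (M * q * q)) _ _
        (algebraAlong (heckeAlphaBar Kbar (M * q) q)) (F.w y) =
      Sigma.sigma M q h (@Algebra.norm (FN (M * q)) (FN (M * q * q)) _ _
        (algebraAlong (heckeBetaBar Kbar (M * q) q)) y) :=
  NormQ2.norm_alpha_swap (M * q) q (Sigma.sigma M q h : FN (M * q) ≃+* FN (M * q))
    (F.w : FN (M * q * q) ≃+* FN (M * q * q)) (fun x => F.w_beta x) y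

/-- **`σ (N_β y) = (w y) · ∏_ξ (r_{ξ⁻¹} y)(ξ T)`** in `Q̄((T))`. -/
theorem coe_sigma_norm_beta [Fintype (Plan.MidIdx q)] (hq : q.Prime) (F : Plan.Frame M q h)
    (y : FN (M * q * q)) :
    ((Sigma.sigma M q h (@Algebra.norm (FN (M * q)) (FN (M * q * q)) _ _
        (algebraAlong (heckeBetaBar Kbar (M * q) q)) y) : FN (M * q)) : Om) =
      ((F.w y : FN (M * q * q)) : Om) *
        ∏ ξ : Plan.MidIdx q, Fermat.Agent.S28.scale ξ.1 (F.r (FrameFinal.invMid ξ) y) := by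
  rw [← norm_alpha_w F y, coe_norm_alpha hq F (F.w y)]
  congr 1
  refine Finset.prod_congr rfl fun ξ _ => ?_
  exact FrameFinal.emb_mid_w hq F ξ y

/-! ### Reductions -/

section Reduction

variable {A : ValuationSubring Kbar} {O : Subring Om} {ρ : O →+* Plan.Rq A q}

/-- `invMid` as a permutation of the middle index. -/
def invMidEquiv (q : ℕ) : Plan.MidIdx q ≃ Plan.MidIdx q where
  toFun := FrameFinal.invMid
  invFun := FrameFinal.invMid
  left_inv := fun ξ => Subtype.ext (inv_inv ξ.1)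
  right_inv := fun ξ => Subtype.ext (inv_inv ξ.1)

/-- **First component of `N_α`**: `red (N_α y) = y_∞ · ∏_ξ y_ξ`. -/
theorem red_norm_alpha [Fintype (Plan.MidIdx q)] (hq : q.Prime) (F : Plan.Frame M q h)
    (hS : Plan.IsSetup A F O ρ) (y : FN (M * q * q)) (hy : (y : Om) ∈ O) :
    ∃ hn : ((@Algebra.norm (FN (M * q)) (FN (M * q * q)) _ _
        (algebraAlong (heckeAlphaBar Kbar (M * q) q)) y : FN (M * q)) : Om) ∈ Ocal A,
      red A ⟨_, hn⟩ = ρ ⟨_, hy⟩ .inf * ∏ ξ : Plan.MidIdx q, ρ ⟨_, hy⟩ (.mid ξ) := by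
  have hmem := (hS.mem_iff y).mp hy
  have key := coe_norm_alpha hq F y
  set P : Ocal A := (⟨(y : Om), hmem .inf⟩ : Ocal A) *
    ∏ ξ : Plan.MidIdx q, (⟨F.r ξ y, hmem (.mid ξ)⟩ : Ocal A) with hP
  have hPcoe : ((@Algebra.norm (FN (M * q)) (FN (M * q * q)) _ _
      (algebraAlong (heckeAlphaBar Kbar (M * q) q)) y : FN (M * q)) : Om) = (P : Om) := by
    rw [key, hP, Subring.coe_mul, SubmonoidClass.coe_finsetProd]
  have hn : ((@Algebra.norm (FN (M * q)) (FN (M * q * q)) _ _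
      (algebraAlong (heckeAlphaBar Kbar (M * q) q)) y : FN (M * q)) : Om) ∈ Ocal A := hPcoe ▸ P.2
  refine ⟨hn, ?_⟩
  rw [red_congr A hPcoe hn P.2, hP, map_mul, map_prod, hS.ρ_apply y hy .inf (hmem .inf)]
  congr 1
  refine Finset.prod_congr rfl fun ξ _ => ?_
  rw [hS.ρ_apply y hy (.mid ξ) (hmem (.mid ξ))]
  rfl

/-- **Second component of `N_α`**: `red (σ (N_α y)) = Frob y_0`. -/
theorem red_sigma_norm_alpha (hq : q.Prime) (hA : A.LiesOverPrime q) (F : Plan.Frame M q h)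
    (hS : Plan.IsSetup A F O ρ) (τ : kk A →+* kk A) (hτ : ∀ x, τ x = x ^ q)
    (y : FN (M * q * q)) (hy : (y : Om) ∈ O) :
    ∃ hn : ((Sigma.sigma M q h (@Algebra.norm (FN (M * q)) (FN (M * q * q)) _ _
        (algebraAlong (heckeAlphaBar Kbar (M * q) q)) y) : FN (M * q)) : Om) ∈ Ocal A,
      red A ⟨_, hn⟩ = coeffMap τ (ρ ⟨_, hy⟩ .zero) := by
  have hmem := (hS.mem_iff y).mp hy
  have h0 : ((F.w y : FN (M * q * q)) : Om) ∈ Ocal A := hmem .zero
  obtain ⟨hn, hred⟩ := NormQ2.red_sigma_norm_alpha (M * q) q A hq (finrank_beta hq) hA τ hτ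
    (Sigma.sigma M q h : FN (M * q) ≃+* FN (M * q))
    (F.w : FN (M * q * q) ≃+* FN (M * q * q)) (fun x => F.w_alpha x) y h0
  refine ⟨hn, ?_⟩
  rw [hS.ρ_apply y hy .zero h0]
  exact hred

/-- **First component of `N_β`**: `red (N_β y) = Frob y_∞`. -/
theorem red_norm_beta (hq : q.Prime) (hA : A.LiesOverPrime q) (F : Plan.Frame M q h)
    (hS : Plan.IsSetup A F O ρ) (τ : kk A →+* kk A) (hτ : ∀ x, τ x = x ^ q)
    (y : FN (M * q * q)) (hy : (y : Om) ∈ O) :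
    ∃ hn : ((@Algebra.norm (FN (M * q)) (FN (M * q * q)) _ _
        (algebraAlong (heckeBetaBar Kbar (M * q) q)) y : FN (M * q)) : Om) ∈ Ocal A,
      red A ⟨_, hn⟩ = coeffMap τ (ρ ⟨_, hy⟩ .inf) := by
  have hmem := (hS.mem_iff y).mp hy
  have h0 : (y : Om) ∈ Ocal A := hmem .inf
  obtain ⟨hn, hred⟩ := NormQ2.red_norm_beta (M * q) q A hq (finrank_beta hq) hA τ hτ y h0
  refine ⟨hn, ?_⟩
  rw [hS.ρ_apply y hy .inf h0]
  exact hred

/-- **Second component of `N_β`**: `red (σ (N_β y)) = y_0 · ∏_ξ y_ξ`. -/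
theorem red_sigma_norm_beta [Fintype (Plan.MidIdx q)] (hq : q.Prime) (hA : A.LiesOverPrime q)
    (F : Plan.Frame M q h) (hS : Plan.IsSetup A F O ρ) (y : FN (M * q * q))
    (hy : (y : Om) ∈ O) :
    ∃ hn : ((Sigma.sigma M q h (@Algebra.norm (FN (M * q)) (FN (M * q * q)) _ _
        (algebraAlong (heckeBetaBar Kbar (M * q) q)) y) : FN (M * q)) : Om) ∈ Ocal A,
      red A ⟨_, hn⟩ = ρ ⟨_, hy⟩ .zero * ∏ ξ : Plan.MidIdx q, ρ ⟨_, hy⟩ (.mid ξ) := by
  haveI : Fact q.Prime := ⟨hq⟩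
  have hκ : CharP (kk A) q := charP_residueField_of_liesOverPrime A q hA
  have hmem := (hS.mem_iff y).mp hy
  have h0 : ((F.w y : FN (M * q * q)) : Om) ∈ Ocal A := hmem .zero
  have hsc : ∀ ξ : Plan.MidIdx q,
      Fermat.Agent.S28.scale ξ.1 (F.r (FrameFinal.invMid ξ) y) ∈ Ocal A := fun ξ =>
    MidRed.scale_xi_mem_Ocal A ξ.1 hq.ne_zero ξ.2.pow_eq_one (hmem (.mid (FrameFinal.invMid ξ)))
  have key := coe_sigma_norm_beta hq F y
  set P : Ocal A := (⟨((F.w y : FN (M * q * q)) : Om), h0⟩ : Ocal A) *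
    ∏ ξ : Plan.MidIdx q,
      (⟨Fermat.Agent.S28.scale ξ.1 (F.r (FrameFinal.invMid ξ) y), hsc ξ⟩ : Ocal A) with hP
  have hPcoe : ((Sigma.sigma M q h (@Algebra.norm (FN (M * q)) (FN (M * q * q)) _ _
      (algebraAlong (heckeBetaBar Kbar (M * q) q)) y) : FN (M * q)) : Om) = (P : Om) := by
    rw [key, hP, Subring.coe_mul, SubmonoidClass.coe_finsetProd]
  have hn : ((Sigma.sigma M q h (@Algebra.norm (FN (M * q)) (FN (M * q * q)) _ _
      (algebraAlong (heckeBetaBar Kbar (M * q) q)) y) : FN (M * q)) : Om) ∈ Ocal A :=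
    hPcoe ▸ P.2
  refine ⟨hn, ?_⟩
  rw [red_congr A hPcoe hn P.2, hP, map_mul, map_prod, hS.ρ_apply y hy .zero h0]
  congr 1
  rw [← Equiv.prod_comp (invMidEquiv q) (fun ξ : Plan.MidIdx q => ρ ⟨_, hy⟩ (.mid ξ))]
  refine Finset.prod_congr rfl fun ξ _ => ?_
  rw [hS.ρ_apply y hy (.mid (invMidEquiv q ξ)) (hmem (.mid (FrameFinal.invMid ξ)))]
  exact MidRed.red_scale_xi A q hκ ξ.1 ξ.2.pow_eq_one
    ⟨F.r (FrameFinal.invMid ξ) y, hmem (.mid (FrameFinal.invMid ξ))⟩ (hsc ξ)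

end Reduction

end Fermat.Agent.S36.MidNorm
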