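/-
P8 / S36 leaf [NORM-BC] (helper33): **base change of the two degeneracy norms between the divisor
level and the top level**.

Levels: `N₀ ∣ M`, `q` prime, `q ∤ M`.  For `y ∈ F_{N₀ q²}` and `y' ∈ F_{M q²}` with the same
`q`-expansion (i.e. `y'` is the image of `y` under the level inclusion):

* `coe_norm_alpha_eq` : `N_α y' = N_α y` (norms along `α : F_{Mq} → F_{Mq²}` resp.
  `α : F_{N₀q} → F_{N₀q²}`), as series in `Q̄((T))`;
* `coe_norm_beta_eq`  : the same for `β` (ANY two levels divisible by `q`);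
* `fam_eq_of_coe_eq`  : the `q` expansions `{∞, r_ξ}` of `S36/MidFam` at the level `M` restrict
  to those at the level `N₀`;
* `norm_alpha_top_eq_of`, `norm_beta_top_eq_of` : a relation `N y = c · aⁿ` at the divisor level
  gives the same relation at the top level.

Proof: both norms are the product over the same `q` embeddings (`S36/NormProd`).
-/
import Mathlib
import Fermat.Agent.S36.NormProd
import Fermat.Agent.S36.MidFam
import Fermat.Agent.S36.DegNCDeg
import Fermat.Agent.S18.RR0.Tower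

set_option autoImplicit false

noncomputable section

namespace Fermat.Agent.S36.NormBC

open ModularCurve AlgebraicCurve
open Fermat.Agent.S24 Fermat.Agent.S18.Content Fermat.Agent.S18.Plan
open Fermat.Agent.Lib.KroneckerCong Fermat.Agent.S37.Conj

set_option synthInstance.maxHeartbeats 400000
set_option maxHeartbeats 1600000

/-! ## The middle expansions are compatible with the level inclusion -/

section Fam

variable (N₀ M q : ℕ) [NeZero N₀] [NeZero M] [NeZero q]

/-- The middle embedding at the level `M`, restricted to `F_{N₀ q²}`, is the middle embedding at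
the level `N₀`. -/
theorem midEmb_eq_of_coe_eq (hq : q.Prime) (hqM : ¬ q ∣ M) (hqN : ¬ q ∣ N₀) (hdiv : N₀ ∣ M)
    (ξ : Kbarˣ) (hξ : IsPrimitiveRoot ξ q)
    (y : FN (N₀ * q * q)) (y' : FN (M * q * q)) (h : (y' : Om) = (y : Om)) :
    MidFam.midEmb M q hq hqM ξ hξ y' = MidFam.midEmb N₀ q hq hqN ξ hξ y := by
  have hdiv2 : N₀ * q * q ∣ M * q * q := Nat.mul_dvd_mul_right (Nat.mul_dvd_mul_right hdiv q) q
  have hdiv1 : N₀ * q ∣ M * q := Nat.mul_dvd_mul_right hdiv q
  let ι2 : FN (N₀ * q * q) →ₐ[Kbar] FN (M * q * q) :=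
    IntermediateField.inclusion (Fermat.Agent.S18.RR0.modularFunctionFieldBar_le hdiv2)
  let ι1 : FN (N₀ * q) →ₐ[Kbar] FN (M * q) :=
    IntermediateField.inclusion (Fermat.Agent.S18.RR0.modularFunctionFieldBar_le hdiv1)
  let ι0 : FN N₀ →ₐ[Kbar] FN M :=
    IntermediateField.inclusion (Fermat.Agent.S18.RR0.modularFunctionFieldBar_le hdiv)
  have hι2 : ∀ x : FN (N₀ * q * q), ((ι2 x : FN (M * q * q)) : Om) = (x : Om) :=
    fun x => IntermediateField.coe_inclusion _ x
  have hι1 : ∀ x : FN (N₀ * q), ((ι1 x : FN (M * q)) : Om) = (x : Om) :=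
    fun x => IntermediateField.coe_inclusion _ x
  have hι0 : ∀ x : FN N₀, ((ι0 x : FN M) : Om) = (x : Om) :=
    fun x => IntermediateField.coe_inclusion _ x
  have hM := MidFam.midEmb_isMid M q hq hqM ξ hξ
  have hN := MidFam.midEmb_isMid N₀ q hq hqN ξ hξ
  have hr : MidEmb.IsMid N₀ q ξ
      ((MidFam.midEmb M q hq hqM ξ hξ).toRingHom.comp ι2.toRingHom) := by
    refine ⟨fun c => ?_, fun x => ?_, fun x => ?_⟩
    · show MidFam.midEmb M q hq hqM ξ hξ (ι2 (algebraMap Kbar (FN (N₀ * q * q)) c)) = _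
      rw [AlgHom.commutes, AlgHom.commutes]
    · show MidFam.midEmb M q hq hqM ξ hξ (ι2 (heckeAlphaBar Kbar (N₀ * q) q x)) = _
      have e : ι2 (heckeAlphaBar Kbar (N₀ * q) q x) = heckeAlphaBar Kbar (M * q) q (ι1 x) := by
        apply Subtype.ext
        rw [hι2, coe_heckeAlphaBar, coe_heckeAlphaBar, hι1]
      rw [e]
      exact (hM.2.1 (ι1 x)).trans (hι1 x)
    · show MidFam.midEmb M q hq hqM ξ hξ
        (ι2 (heckeBetaBar Kbar (N₀ * q) q (heckeBetaBar Kbar N₀ q x))) = _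
      have e : ι2 (heckeBetaBar Kbar (N₀ * q) q (heckeBetaBar Kbar N₀ q x)) =
          heckeBetaBar Kbar (M * q) q (heckeBetaBar Kbar M q (ι0 x)) := by
        apply Subtype.ext
        rw [hι2, coe_heckeBetaBar, coe_heckeBetaBar, coe_heckeBetaBar, coe_heckeBetaBar, hι0]
      rw [e]
      exact (hM.2.2 (ι0 x)).trans (by rw [hι0])
  have hext := MidEmb.IsMid.ext hq hr hN
  have hy : y' = ι2 y := Subtype.ext (h.trans (hι2 y).symm)
  rw [hy]
  exact RingHom.congr_fun hext y

/-- **The `q` expansions `{∞, r_ξ}` at the level `M` restrict to those at the level `N₀`.** -/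
theorem fam_eq_of_coe_eq (hq : q.Prime) (hqM : ¬ q ∣ M) (hqN : ¬ q ∣ N₀) (hdiv : N₀ ∣ M)
    (ζ : Kbarˣ) (hζ : IsPrimitiveRoot ζ q) (i : Option (Fin (q - 1)))
    (y : FN (N₀ * q * q)) (y' : FN (M * q * q)) (h : (y' : Om) = (y : Om)) :
    MidFam.fam M q hq hqM ζ hζ i y' = MidFam.fam N₀ q hq hqN ζ hζ i y := by
  cases i with
  | none => rw [MidFam.fam_none, MidFam.fam_none, h]
  | some u =>
      rw [MidFam.fam_some, MidFam.fam_some]
      exact midEmb_eq_of_coe_eq N₀ M q hq hqM hqN hdiv _ _ y y' h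

end Fam

/-! ## Base change of the norm along `α` -/

section Alpha

variable (N₀ M q : ℕ) [NeZero N₀] [NeZero M] [NeZero q]

/-- The norm along `α` at the level `M q` as the product over the family `{∞, r_ξ}`. -/
theorem coe_norm_alpha_eq_prod (hq : q.Prime) (hqM : ¬ q ∣ M)
    (ζ : Kbarˣ) (hζ : IsPrimitiveRoot ζ q) (y : FN (M * q * q)) :
    ((@Algebra.norm (FN (M * q)) (FN (M * q * q)) _ _
        (algebraAlong (heckeAlphaBar Kbar (M * q) q)) y : FN (M * q)) : Om) =
      ∏ i : Option (Fin (q - 1)), MidFam.fam M q hq hqM ζ hζ i y := by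
  have hfr : finrankAlong Kbar (heckeAlphaBar Kbar (M * q) q) = q :=
    DegNCDeg.finrankAlong_alpha_of_dvd (M * q) q hq (Dvd.intro_left M rfl)
  exact NormProd.norm_alpha_eq_prod_of_degree (M * q) q hq.pos hfr (MidFam.card_index hq)
    (fun i => ((MidFam.fam M q hq hqM ζ hζ i : FN (M * q * q) →ₐ[Kbar] Om) :
      FN (M * q * q) →+* Om))
    (fun i f => MidFam.fam_alpha hq hqM ζ hζ i f) (MidFam.fam_injective hq hqM ζ hζ) y

/-- **[NORM-BC] for `α`**: for `y ∈ F_{N₀ q²}` and `y' ∈ F_{M q²}` with the same expansion,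
`N_α y' = N_α y` in `Q̄((T))`. -/
theorem coe_norm_alpha_eq (hq : q.Prime) (hqM : ¬ q ∣ M) (hdiv : N₀ ∣ M)
    (y : FN (N₀ * q * q)) (y' : FN (M * q * q)) (h : (y' : Om) = (y : Om)) :
    ((@Algebra.norm (FN (M * q)) (FN (M * q * q)) _ _
        (algebraAlong (heckeAlphaBar Kbar (M * q) q)) y' : FN (M * q)) : Om) =
      ((@Algebra.norm (FN (N₀ * q)) (FN (N₀ * q * q)) _ _
        (algebraAlong (heckeAlphaBar Kbar (N₀ * q) q)) y : FN (N₀ * q)) : Om) := by
  have hqN : ¬ q ∣ N₀ := fun h' => hqM (h'.trans hdiv)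
  obtain ⟨ζ, hζ⟩ := Fermat.Agent.S37.KronMain.exists_primitiveRoot_unit q
  rw [coe_norm_alpha_eq_prod M q hq hqM ζ hζ y', coe_norm_alpha_eq_prod N₀ q hq hqN ζ hζ y]
  exact Finset.prod_congr rfl
    (fun i _ => fam_eq_of_coe_eq N₀ M q hq hqM hqN hdiv ζ hζ i y y' h)

end Alpha

/-! ## Base change of the norm along `β` -/

section Beta

variable (N M q : ℕ) [NeZero N] [NeZero M] [NeZero q]

/-- **[NORM-BC] for `β`**: for two levels `N`, `M` divisible by the prime `q`, `y ∈ F_{N q}` and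
`y' ∈ F_{M q}` with the same expansion: `N_β y' = N_β y` in `Q̄((T))`. -/
theorem coe_norm_beta_eq (hq : q.Prime) (hqN : q ∣ N) (hqM : q ∣ M)
    (y : FN (N * q)) (y' : FN (M * q)) (h : (y' : Om) = (y : Om)) :
    ((@Algebra.norm (FN M) (FN (M * q)) _ _
        (algebraAlong (heckeBetaBar Kbar M q)) y' : FN M) : Om) =
      ((@Algebra.norm (FN N) (FN (N * q)) _ _
        (algebraAlong (heckeBetaBar Kbar N q)) y : FN N) : Om) := by
  obtain ⟨ζ, hζ⟩ := Fermat.Agent.S37.KronMain.exists_primitiveRoot_unit q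
  have hM := NormProd.qExpand_norm_beta_of_degree (N := M) (q := q)
    (DegNCDeg.finrankAlong_beta_of_dvd q hq M hqM) ζ hζ y'
  have hN := NormProd.qExpand_norm_beta_of_degree (N := N) (q := q)
    (DegNCDeg.finrankAlong_beta_of_dvd q hq N hqN) ζ hζ y
  rw [h, ← hN] at hM
  exact qExpand_injective (R := Kbar) (N := q) hM

end Beta

/-! ## The relation `N y = c · aⁿ` at the top level -/

section Relations

variable (N₀ M q : ℕ) [NeZero N₀] [NeZero M] [NeZero q]

/-- A relation `N_α u₀ = c₀ · a₀ⁿ` at the divisor level `N₀ q²` gives the same relation for the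
norm along `α` at the top level `M q²`. -/
theorem norm_alpha_top_eq_of (hq : q.Prime) (hqM : ¬ q ∣ M) (hdiv : N₀ ∣ M)
    (u₀ : FN (N₀ * q * q)) (a₀ : FN (N₀ * q)) (c₀ : Kbar) (n : ℕ)
    (h₀ : @Algebra.norm (FN (N₀ * q)) (FN (N₀ * q * q)) _ _
        (algebraAlong (heckeAlphaBar Kbar (N₀ * q) q)) u₀ =
      algebraMap Kbar (FN (N₀ * q)) c₀ * a₀ ^ n)
    (u : FN (M * q * q)) (hu : (u : Om) = (u₀ : Om))
    (a : FN (M * q)) (ha : (a : Om) = (a₀ : Om)) :
    @Algebra.norm (FN (M * q)) (FN (M * q * q)) _ _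
        (algebraAlong (heckeAlphaBar Kbar (M * q) q)) u =
      algebraMap Kbar (FN (M * q)) c₀ * a ^ n := by
  apply Subtype.ext
  rw [coe_norm_alpha_eq N₀ M q hq hqM hdiv u₀ u hu, h₀]
  push_cast
  rw [ha]

/-- A relation `N_β u₀ = c₀ · a₀ⁿ` at the divisor level gives the same relation for the norm
along `β` at the top level. -/
theorem norm_beta_top_eq_of (hq : q.Prime)
    (u₀ : FN (N₀ * q * q)) (a₀ : FN (N₀ * q)) (c₀ : Kbar) (n : ℕ)
    (h₀ : @Algebra.norm (FN (N₀ * q)) (FN (N₀ * q * q)) _ _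
        (algebraAlong (heckeBetaBar Kbar (N₀ * q) q)) u₀ =
      algebraMap Kbar (FN (N₀ * q)) c₀ * a₀ ^ n)
    (u : FN (M * q * q)) (hu : (u : Om) = (u₀ : Om))
    (a : FN (M * q)) (ha : (a : Om) = (a₀ : Om)) :
    @Algebra.norm (FN (M * q)) (FN (M * q * q)) _ _
        (algebraAlong (heckeBetaBar Kbar (M * q) q)) u =
      algebraMap Kbar (FN (M * q)) c₀ * a ^ n := by
  apply Subtype.ext
  rw [coe_norm_beta_eq (N₀ * q) (M * q) q hq (Dvd.intro_left N₀ rfl) (Dvd.intro_left M rfl)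
    u₀ u hu, h₀]
  push_cast
  rw [ha]

end Relations

end Fermat.Agent.S36.NormBC

end
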