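import Mathlib
import Fermat.Agent.S36.OnePlan
import Fermat.Agent.S36.K0Plan
import Fermat.Agent.S18.PlacesModL

/-!
# S36 / P8 — [NORM-K0]: `K0Plan.NormStmt` from the two `OnePlan` contracts (helper94)

`K0Plan.NormStmt c_a` (contract (7) of `S36/K0Plan`, consumed by the junction `S36/OneGen`) asks
for a stable datum `D' ~ c_a • D` with a `K₀`-rational Kummer function `w`, a unit of `O`, whose
three reductions are constants times `n`-th powers in `F_{M,k}`.  The providers of the chain type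
against `Plan.VNormStmt c₁` ([VNORM]) and `Plan.NormRedStmt c₂` ([NORM-RED]) of `S36/OnePlan`
(reductions coordinatewise CONSTANT).  This file is the adapter:

* `fixed_of_iFix`     : the two spellings of "`K₀`-rational" (`Plan.IFix`, `K0Plan.Fixed`);
* `normStmt_of_chain` : `InvStmt → VNormStmt c₁ → NormRedStmt c₂ → K0Plan.NormStmt (c₂ * c₁)`
  (`ξ` := coordinatewise constants `μ_i` with `μ_iⁿ = κ_i⁻¹`; `k` is algebraically closed).
-/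

set_option autoImplicit false

noncomputable section

namespace Fermat.Agent.S36.NormK0

open ModularCurve AlgebraicCurve Fermat.Agent.S24 Fermat.Agent.S18 Fermat.Agent.S18.Content
  Fermat.Agent.S18.Plan Fermat.Agent.S36.Plan

/-- An inertia-fixed function of level `N` is `K₀`-rational in the coefficientwise spelling. -/
theorem fixed_of_iFix {A : ValuationSubring Kbar} {N : ℕ} [NeZero N] {g : FN N}
    (h : IFix A N g) : K0Plan.Fixed A (g : Om) := fun τ hτ =>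
  congrArg (fun y : FN N => (y : Om)) (h τ hτ)

/-- Constants lie in `F_{M,k}`. -/
theorem C_mem_Fk (A : ValuationSubring Kbar) (M : ℕ) (κ : kk A) :
    (HahnSeries.C κ : Omk A) ∈ Fk A M := by
  rw [← algebraMap_LS_eq_C]
  exact (Fk A M).algebraMap_mem κ

section Chain

variable {A : ValuationSubring Kbar} {N' M q : ℕ} [NeZero N'] [NeZero M] [NeZero q]
variable {O : Subring Om} {ρ : O →+* Rq A q}

omit [NeZero M] in
/-- **[NORM-K0]** `K0Plan.NormStmt` from [VNORM] and [NORM-RED] in the `OnePlan` spelling. -/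
theorem normStmt_of_chain (ξ₀ : MidIdx q) {c₁ c₂ : ℕ} (hInv : InvStmt A q O ρ)
    (hV : VNormStmt A N' q O ρ c₁) (hN : NormRedStmt A N' q O ρ c₂) :
    K0Plan.NormStmt A N' M q O ρ ξ₀ (c₂ * c₁) := by
  intro D n hD
  have : IsAlgClosed (kk A) := Fermat.Agent.S18.PlacesModL.isAlgClosed_kk A
  obtain ⟨u, hP⟩ := exists_pairData hD
  obtain ⟨D₁, u₁, hcls₁, hP₁, hu₁, hunit₁⟩ := hV D n u hP
  obtain ⟨D₂, u₂, hcls₂, hP₂, hu₂, hconst₂⟩ := hN D₁ n u₁ hP₁ hu₁ hunit₁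
  have hn : 0 < n := hD.pos
  -- the three constants and their `n`-th roots
  obtain ⟨κ₁, hκ₁0, hκ₁⟩ := hconst₂ Coord.inf
  obtain ⟨κ₂, hκ₂0, hκ₂⟩ := hconst₂ (Coord.mid ξ₀)
  obtain ⟨κ₃, hκ₃0, hκ₃⟩ := hconst₂ Coord.zero
  obtain ⟨μ₁, hμ₁⟩ := IsAlgClosed.exists_pow_nat_eq κ₁⁻¹ hn
  obtain ⟨μ₂, hμ₂⟩ := IsAlgClosed.exists_pow_nat_eq κ₂⁻¹ hn
  obtain ⟨μ₃, hμ₃⟩ := IsAlgClosed.exists_pow_nat_eq κ₃⁻¹ hn
  have hone : ∀ (κ μ : kk A), κ ≠ 0 → μ ^ n = κ⁻¹ →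
      (HahnSeries.C κ : Omk A) * (HahnSeries.C μ) ^ n = 1 := by
    intro κ μ hκ hμ
    rw [← map_pow, ← map_mul, hμ, mul_inv_cancel₀ hκ, map_one]
  refine ⟨D₂, u₂, hu₂, (HahnSeries.C μ₁, HahnSeries.C μ₂, HahnSeries.C μ₃), ?_, hP₂.stable,
    hP₂.ne, hP₂.ord, fixed_of_iFix hP₂.fix, ?_, ⟨C_mem_Fk A M μ₁, C_mem_Fk A M μ₂,
      C_mem_Fk A M μ₃⟩, ?_⟩
  · -- the class
    have h : D₂ - (c₂ * c₁) • D = (D₂ - c₂ • D₁) + c₂ • (D₁ - c₁ • D) := by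
      rw [mul_smul, smul_sub]
      abel
    rw [h]
    exact AddSubgroup.add_mem _ hcls₂ (AddSubgroup.nsmul_mem _ hcls₁ c₂)
  · -- `u₂` is a unit of `O`
    refine hInv ⟨_, hu₂⟩ (fun i => ?_)
    obtain ⟨κ, hκ0, hκ⟩ := hconst₂ i
    rw [hκ]
    exact fun h0 => hκ0 (HahnSeries.C_injective (by rw [h0, map_zero]))
  · -- `ρ₃(u₂) ξⁿ = 1`
    have e : K0Plan.rho3 A q O ρ ξ₀ ⟨_, hu₂⟩ =
        (ρ ⟨_, hu₂⟩ Coord.inf, ρ ⟨_, hu₂⟩ (Coord.mid ξ₀), ρ ⟨_, hu₂⟩ Coord.zero) := rfl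
    rw [e, hκ₁, hκ₂, hκ₃]
    refine Prod.ext ?_ (Prod.ext ?_ ?_)
    · exact hone κ₁ μ₁ hκ₁0 hμ₁
    · exact hone κ₂ μ₂ hκ₂0 hμ₂
    · exact hone κ₃ μ₃ hκ₃0 hμ₃

end Chain

end Fermat.Agent.S36.NormK0

end
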