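import Mathlib
import Fermat.Agent.S18.Main
import Fermat.Agent.S34.FkFrob
import Fermat.Agent.S35.NormPush
import Fermat.Agent.S35.ValFStmt
import Fermat.Agent.S36.OnePlan
import Fermat.Agent.S36.K0Plan
import Fermat.Agent.S36.NormK0
import Fermat.Agent.S36.MidNorm
import Fermat.Agent.S36.NormBC
import Fermat.Agent.S36.CondK0
import Fermat.Agent.S36.SetupQ2
import Fermat.Agent.S36.OneAllK0

/-!
# S36 / P8 — [NORM-POW]: `K0Plan.NormStmt` directly from [VNORM] (helper45)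

A second provider of the contract (7) `K0Plan.NormStmt` of `S36/K0Plan`, which does NOT go
through [NORM-RED] (`Plan.NormRedStmt`): the reductions of the Kummer function are not made
constant, only `n`-th powers in `F_{M,k}` up to constants, which is all that `NormStmt` asks.

Let `(D₁, u₁)` be the output of [VNORM]: `u₁ ∈ O` inertia-fixed with all `q + 1` reductions
`y_i ≠ 0`.  The two push-forwards of `D₁` are principal, so `N_α u₁ = c · aⁿ`, `N_β u₁ = c' · bⁿ`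
(`S35/NormPush`, transported to the top level by `S36/NormBC`).  Scaling `a`, `b` into the
two-coordinate ring of level `q` (`Setup2.scale`) and reducing with `S36/MidNorm`:

  `a₁ⁿ = δ · y_∞ · y_mid^(q-1)`,   `a₂ⁿ = δ · Frob y_0`,   `b₁ⁿ = δ' · Frob y_∞`

with `a₁, a₂, b₁ ∈ F_{M,k}` and constants `δ, δ' ≠ 0`.  Since `y^q = (Frob y)(T^q)` and `F_{M,k}`
is stable under `T ↦ T^q`, the `q (q - 1)`-th powers of `y_∞, y_mid, y_0` are `n`-th powers in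
`F_{M,k}` up to constants: `w := u₁ ^ (q (q - 1))` satisfies `ρ₃(w) · ξⁿ = 1` with `ξ ∈ F_{M,k}³`.

* `exists_inv_root`, `exists_xi` : the algebra core (Mathlib only);
* `exists_scaled`                : scaling a Kummer generator into the level-`q` ring;
* `exists_rel`                   : the three relations at the top level;
* `normStmt_of_vnorm`            : **[NORM-POW]** `VNormStmt c₁ → K0Plan.NormStmt (q (q-1) c₁)`;
* `normAllStmt_of_vnorm`         : the all-level form `VNormAllStmt → OneAllK0.NormAllStmt`.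
-/

set_option autoImplicit false
set_option linter.style.haveILetI false

noncomputable section

namespace Fermat.Agent.S36.NormPow

open ModularCurve AlgebraicCurve Fermat.Agent.S24 Fermat.Agent.S18 Fermat.Agent.S18.Content
  Fermat.Agent.S18.Plan Fermat.Agent.S34 Fermat.Agent.S36.Plan

/-! ### The algebra core -/

/-- `X = C κ · Zⁿ` with `κ ≠ 0`, `Z ≠ 0` in a subfield `Fs` containing the constants: some
`ξ ∈ Fs` has `X · ξⁿ = 1` (`k` algebraically closed). -/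
theorem exists_inv_root {k K : Type*} [Field k] [IsAlgClosed k] [Field K] (C : k →+* K)
    (Fs : Subfield K) (hC : ∀ κ : k, C κ ∈ Fs) {n : ℕ} (hn : 0 < n) {X Z : K} {κ : k}
    (hκ : κ ≠ 0) (hZ : Z ∈ Fs) (hZ0 : Z ≠ 0) (hX : X = C κ * Z ^ n) :
    ∃ ξ ∈ Fs, X * ξ ^ n = 1 := by
  obtain ⟨μ, hμ⟩ := IsAlgClosed.exists_pow_nat_eq κ⁻¹ hn
  refine ⟨C μ * Z⁻¹, Fs.mul_mem (hC μ) (Fs.inv_mem hZ), ?_⟩
  rw [hX, mul_pow, ← map_pow, hμ, inv_pow, map_inv₀]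
  have hCκ : C κ ≠ 0 := (map_ne_zero C).mpr hκ
  have hZn : Z ^ n ≠ 0 := pow_ne_zero n hZ0
  field_simp

/-- **The algebra core of [NORM-POW].**  `V`, `φ` ring endomorphisms of `K` with
`x ^ q = V (φ x)` (`V` = the substitution `T ↦ T^q`, `φ` = the coefficientwise Frobenius), `V`
fixing the constants and preserving `Fs`.  From the three norm relations the `q (q - 1)`-th
powers of `y₁, y₂, y₃` are `n`-th powers in `Fs` up to constants. -/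
theorem exists_xi {k K : Type*} [Field k] [IsAlgClosed k] [Field K] (C : k →+* K)
    (Fs : Subfield K) (hC : ∀ κ : k, C κ ∈ Fs) (V φ : K →+* K) (q n : ℕ) (hq : 0 < q)
    (hn : 0 < n) (hVφ : ∀ x : K, x ^ q = V (φ x)) (hVC : ∀ κ : k, V (C κ) = C κ)
    (hVF : ∀ x ∈ Fs, V x ∈ Fs)
    (y₁ y₂ y₃ : K) (hy₁ : y₁ ≠ 0) (hy₂ : y₂ ≠ 0) (hy₃ : y₃ ≠ 0)
    (a₁ a₂ b₁ : K) (ha₁ : a₁ ∈ Fs) (ha₂ : a₂ ∈ Fs) (hb₁ : b₁ ∈ Fs)
    (δ δ' : k) (hδ : δ ≠ 0) (hδ' : δ' ≠ 0)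
    (h1 : a₁ ^ n = C δ * (y₁ * y₂ ^ (q - 1)))
    (h2 : a₂ ^ n = C δ * φ y₃)
    (h3 : b₁ ^ n = C δ' * φ y₁) :
    ∃ ξ₁ ∈ Fs, ∃ ξ₂ ∈ Fs, ∃ ξ₃ ∈ Fs,
      y₁ ^ (q * (q - 1)) * ξ₁ ^ n = 1 ∧ y₂ ^ (q * (q - 1)) * ξ₂ ^ n = 1 ∧
        y₃ ^ (q * (q - 1)) * ξ₃ ^ n = 1 := by
  have hCδ : C δ ≠ 0 := (map_ne_zero C).mpr hδ
  have hCδ' : C δ' ≠ 0 := (map_ne_zero C).mpr hδ'
  -- `y₁ ^ q = C δ'⁻¹ · (V b₁)ⁿ`
  have e1 : y₁ ^ q = C δ'⁻¹ * V b₁ ^ n := by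
    have hφ : φ y₁ = C δ'⁻¹ * b₁ ^ n := by
      rw [h3, map_inv₀, ← mul_assoc, inv_mul_cancel₀ hCδ', one_mul]
    rw [hVφ, hφ, map_mul, hVC, map_pow]
  -- `y₃ ^ q = C δ⁻¹ · (V a₂)ⁿ`
  have e3 : y₃ ^ q = C δ⁻¹ * V a₂ ^ n := by
    have hφ : φ y₃ = C δ⁻¹ * a₂ ^ n := by
      rw [h2, map_inv₀, ← mul_assoc, inv_mul_cancel₀ hCδ, one_mul]
    rw [hVφ, hφ, map_mul, hVC, map_pow]
  have hB0 : V b₁ ≠ 0 := by
    intro h0
    rw [h0, zero_pow hn.ne', mul_zero] at e1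
    exact hy₁ ((pow_eq_zero_iff hq.ne').mp e1)
  have hA0 : V a₂ ≠ 0 := by
    intro h0
    rw [h0, zero_pow hn.ne', mul_zero] at e3
    exact hy₃ ((pow_eq_zero_iff hq.ne').mp e3)
  -- first coordinate
  have f1 : y₁ ^ (q * (q - 1)) = C ((δ'⁻¹) ^ (q - 1)) * (V b₁ ^ (q - 1)) ^ n := by
    rw [pow_mul, e1, mul_pow, map_pow, ← pow_mul, ← pow_mul, mul_comm n (q - 1)]
  -- third coordinate
  have f3 : y₃ ^ (q * (q - 1)) = C ((δ⁻¹) ^ (q - 1)) * (V a₂ ^ (q - 1)) ^ n := by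
    rw [pow_mul, e3, mul_pow, map_pow, ← pow_mul, ← pow_mul, mul_comm n (q - 1)]
  -- middle coordinate
  have f2 : y₂ ^ (q * (q - 1)) = C (δ' * (δ⁻¹) ^ q) * (a₁ ^ q * (V b₁)⁻¹) ^ n := by
    have hpow : a₁ ^ (n * q) = C δ ^ q * (C δ'⁻¹ * V b₁ ^ n * y₂ ^ (q * (q - 1))) := by
      rw [pow_mul, h1, mul_pow, mul_pow, e1, ← pow_mul, mul_comm (q - 1) q]
    have hBn : V b₁ ^ n ≠ 0 := pow_ne_zero n hB0
    rw [mul_pow, ← pow_mul, mul_comm q n, hpow]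
    simp only [map_mul, map_pow, map_inv₀, inv_pow]
    field_simp
  have hA1 : a₁ ≠ 0 := by
    intro h0
    rw [h0, zero_pow hn.ne'] at h1
    exact (mul_ne_zero hCδ (mul_ne_zero hy₁ (pow_ne_zero _ hy₂))) h1.symm
  obtain ⟨ξ₁, hξ₁, e₁⟩ := exists_inv_root C Fs hC hn (pow_ne_zero (q - 1) (inv_ne_zero hδ'))
    (Fs.pow_mem (hVF b₁ hb₁) (q - 1)) (pow_ne_zero _ hB0) f1
  obtain ⟨ξ₃, hξ₃, e₃⟩ := exists_inv_root C Fs hC hn (pow_ne_zero (q - 1) (inv_ne_zero hδ))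
    (Fs.pow_mem (hVF a₂ ha₂) (q - 1)) (pow_ne_zero _ hA0) f3
  obtain ⟨ξ₂, hξ₂, e₂⟩ := exists_inv_root C Fs hC hn
    (mul_ne_zero hδ' (pow_ne_zero q (inv_ne_zero hδ)))
    (Fs.mul_mem (Fs.pow_mem ha₁ q) (Fs.inv_mem (hVF b₁ hb₁)))
    (mul_ne_zero (pow_ne_zero q hA1) (inv_ne_zero hB0)) f2
  exact ⟨ξ₁, hξ₁, ξ₂, hξ₂, ξ₃, hξ₃, e₁, e₂, e₃⟩

/-! ### Scaling a Kummer generator into the level-`q` ring -/

section Scale

variable {A : ValuationSubring Kbar} {N M q : ℕ} [NeZero N] [NeZero q] {hqN : q ∣ N}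
variable {O₂ : Subring Om} {ρ₂ : O₂ →+* Fermat.Agent.S34.Plan.R2 A}

/-- If `X ∈ O₂` has both reductions nonzero and `X = c · aⁿ` with `a ∈ F_{Mq}`, then the two
reductions of `X` are `n`-th powers in `F_{M,k}` up to ONE common nonzero constant. -/
theorem exists_scaled (hS2 : Fermat.Agent.S34.Plan.Setup2 A N q M hqN O₂ ρ₂) {n : ℕ} (hn : 0 < n)
    (X : O₂) (hX1 : (ρ₂ X).1 ≠ 0) (hX2 : (ρ₂ X).2 ≠ 0)
    (c : Kbar) (hc : c ≠ 0) (a : Om) (ha : a ∈ modularFunctionFieldBar (M * q)) (ha0 : a ≠ 0)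
    (hXa : (X : Om) = HahnSeries.C c * a ^ n) :
    ∃ r₁ ∈ Fk A M, ∃ r₂ ∈ Fk A M, ∃ δ : kk A, δ ≠ 0 ∧
      r₁ ^ n = HahnSeries.C δ * (ρ₂ X).1 ∧ r₂ ^ n = HahnSeries.C δ * (ρ₂ X).2 := by
  obtain ⟨s, hs, hg, hρg⟩ := hS2.scale a ha ha0
  set g : O₂ := ⟨HahnSeries.C s * a, hg⟩ with hgdef
  have hXinv : ((X : Om))⁻¹ ∈ O₂ := hS2.inv_mem X hX1 hX2
  have hCc : (HahnSeries.C c : Om) ≠ 0 := fun h0 =>
    hc (HahnSeries.C_injective (by rw [h0, map_zero]))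
  have han : a ^ n ≠ 0 := pow_ne_zero n ha0
  -- the constant `sⁿ / c` lies in `O₂`, hence in `A`
  have hδeq : (HahnSeries.C (s ^ n * c⁻¹) : Om) = ((g ^ n : O₂) : Om) * ((X : Om))⁻¹ := by
    rw [hXa, hgdef]
    push_cast
    rw [map_mul, map_pow, map_inv₀, mul_pow]
    field_simp
  have hδmem : (HahnSeries.C (s ^ n * c⁻¹) : Om) ∈ O₂ := by
    rw [hδeq]
    exact O₂.mul_mem (g ^ n).2 hXinv
  have hδA : s ^ n * c⁻¹ ∈ A := (hS2.C_mem_iff _).mp hδmem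
  have hprod : g ^ n = (⟨_, hδmem⟩ : O₂) * X := by
    apply Subtype.ext
    rw [hgdef]
    push_cast
    rw [hXa, map_mul, map_pow, map_inv₀, mul_pow]
    field_simp
  have hρ := congrArg ρ₂ hprod
  rw [map_pow, map_mul, hS2.ρ_C ⟨_, hδA⟩ hδmem] at hρ
  have h1 : (ρ₂ g).1 ^ n = HahnSeries.C (IsLocalRing.residue A ⟨_, hδA⟩) * (ρ₂ X).1 := by
    have := congrArg Prod.fst hρ
    simpa using this
  have h2 : (ρ₂ g).2 ^ n = HahnSeries.C (IsLocalRing.residue A ⟨_, hδA⟩) * (ρ₂ X).2 := by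
    have := congrArg Prod.snd hρ
    simpa using this
  refine ⟨(ρ₂ g).1, (hS2.range g).1, (ρ₂ g).2, (hS2.range g).2,
    IsLocalRing.residue A ⟨_, hδA⟩, ?_, h1, h2⟩
  intro h0
  rw [h0, map_zero, zero_mul] at h1 h2
  exact hρg (Prod.ext ((pow_eq_zero_iff hn.ne').mp h1) ((pow_eq_zero_iff hn.ne').mp h2))

end Scale

/-! ### The three relations at the top level -/

section Frame

variable {M q : ℕ} [NeZero M] [NeZero q] {h : Nat.Coprime M q} {A : ValuationSubring Kbar}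
variable {F : Frame M q h} {O : Subring Om} {ρ : O →+* Rq A q}

/-- One norm: `X ∈ F_{Mq}` with both level-`q` reductions nonzero and `X = c · aⁿ`. -/
theorem exists_rel_one {N : ℕ} [NeZero N] {hqN : q ∣ N}
    (hS2 : Fermat.Agent.S34.Plan.Setup2 A N q M hqN (Val.O2 A M q (Sigma.sigma M q h))
      (Val.Red A M q (Sigma.sigma M q h)))
    {n : ℕ} (hn : 0 < n) (X : FN (M * q)) (h1 : (X : Om) ∈ Ocal A)
    (h2 : ((Sigma.sigma M q h X : FN (M * q)) : Om) ∈ Ocal A)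
    (hx1 : red A ⟨_, h1⟩ ≠ 0) (hx2 : red A ⟨_, h2⟩ ≠ 0)
    (c : Kbar) (hc : c ≠ 0) (a : FN (M * q)) (ha0 : a ≠ 0)
    (hXa : X = algebraMap Kbar (FN (M * q)) c * a ^ n) :
    ∃ r₁ ∈ Fk A M, ∃ r₂ ∈ Fk A M, ∃ δ : kk A, δ ≠ 0 ∧
      r₁ ^ n = HahnSeries.C δ * red A ⟨_, h1⟩ ∧ r₂ ^ n = HahnSeries.C δ * red A ⟨_, h2⟩ := by
  obtain ⟨hg, hRed⟩ := Val.Red_of_mem A M q (Sigma.sigma M q h) X.2 h1 h2
  have e1 : (Val.Red A M q (Sigma.sigma M q h) ⟨(X : Om), hg⟩).1 = red A ⟨_, h1⟩ := by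
    rw [hRed]
  have e2 : (Val.Red A M q (Sigma.sigma M q h) ⟨(X : Om), hg⟩).2 = red A ⟨_, h2⟩ := by
    rw [hRed]
  have ha0' : (a : Om) ≠ 0 := fun h0 => ha0 (Subtype.ext h0)
  have hXa' : (X : Om) = HahnSeries.C c * (a : Om) ^ n := by
    rw [hXa]
    push_cast
    rw [algebraMap_LS_eq_C]
  have key := exists_scaled hS2 hn ⟨(X : Om), hg⟩ (by rw [e1]; exact hx1) (by rw [e2]; exact hx2)
    c hc (a : Om) a.2 ha0' hXa'
  rwa [e1, e2] at key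

/-- **The three relations**: for `u ∈ O` with all reductions nonzero, equal middle reductions,
and `N_α u = c · aⁿ`, `N_β u = c' · bⁿ`. -/
theorem exists_rel {N : ℕ} [NeZero N] {hqN : q ∣ N} (hq : q.Prime) (hA : A.LiesOverPrime q)
    (hS : IsSetup A F O ρ)
    (hS2 : Fermat.Agent.S34.Plan.Setup2 A N q M hqN (Val.O2 A M q (Sigma.sigma M q h))
      (Val.Red A M q (Sigma.sigma M q h)))
    (τ : kk A →+* kk A) (hτ : ∀ x, τ x = x ^ q) (ξ₀ : MidIdx q) {n : ℕ} (hn : 0 < n)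
    (u : FN (M * q * q)) (hu : (u : Om) ∈ O)
    (hmid : ∀ ξ : MidIdx q, ρ ⟨_, hu⟩ (Coord.mid ξ) = ρ ⟨_, hu⟩ (Coord.mid ξ₀))
    (hunit : ∀ i : Coord q, ρ ⟨_, hu⟩ i ≠ 0)
    (c : Kbar) (hc : c ≠ 0) (a : FN (M * q)) (ha0 : a ≠ 0)
    (hNα : @Algebra.norm (FN (M * q)) (FN (M * q * q)) _ _
        (algebraAlong (heckeAlphaBar Kbar (M * q) q)) u =
      algebraMap Kbar (FN (M * q)) c * a ^ n)
    (c' : Kbar) (hc' : c' ≠ 0) (b : FN (M * q)) (hb0 : b ≠ 0)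
    (hNβ : @Algebra.norm (FN (M * q)) (FN (M * q * q)) _ _
        (algebraAlong (heckeBetaBar Kbar (M * q) q)) u =
      algebraMap Kbar (FN (M * q)) c' * b ^ n) :
    ∃ a₁ ∈ Fk A M, ∃ a₂ ∈ Fk A M, ∃ b₁ ∈ Fk A M, ∃ δ δ' : kk A, δ ≠ 0 ∧ δ' ≠ 0 ∧
      a₁ ^ n = HahnSeries.C δ *
        (ρ ⟨_, hu⟩ Coord.inf * ρ ⟨_, hu⟩ (Coord.mid ξ₀) ^ (q - 1)) ∧
      a₂ ^ n = HahnSeries.C δ * coeffMap τ (ρ ⟨_, hu⟩ Coord.zero) ∧
      b₁ ^ n = HahnSeries.C δ' * coeffMap τ (ρ ⟨_, hu⟩ Coord.inf) := by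
  letI : Fintype (MidIdx q) := CoordFin.fintypeMidIdx q
  obtain ⟨hα1, rα1⟩ := MidNorm.red_norm_alpha hq F hS u hu
  obtain ⟨hα2, rα2⟩ := MidNorm.red_sigma_norm_alpha hq hA F hS τ hτ u hu
  obtain ⟨hβ1, rβ1⟩ := MidNorm.red_norm_beta hq hA F hS τ hτ u hu
  obtain ⟨hβ2, rβ2⟩ := MidNorm.red_sigma_norm_beta hq hA F hS u hu
  have hprod : ∏ ξ : MidIdx q, ρ ⟨_, hu⟩ (Coord.mid ξ) =
      ρ ⟨_, hu⟩ (Coord.mid ξ₀) ^ (q - 1) := by
    rw [Finset.prod_congr rfl (fun ξ _ => hmid ξ), Finset.prod_const, Finset.card_univ,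
      CoordFin.fintype_card_midIdx hq]
  have hτne : ∀ x : Omk A, x ≠ 0 → coeffMap τ x ≠ 0 := fun x hx =>
    (map_ne_zero (coeffMap τ)).mpr hx
  rw [hprod] at rα1 rβ2
  have hm0 : ρ ⟨_, hu⟩ (Coord.mid ξ₀) ^ (q - 1) ≠ 0 := pow_ne_zero _ (hunit _)
  obtain ⟨a₁, ha₁, a₂, ha₂, δ, hδ, ra1, ra2⟩ := exists_rel_one hS2 hn _ hα1 hα2
    (by rw [rα1]; exact mul_ne_zero (hunit _) hm0) (by rw [rα2]; exact hτne _ (hunit _))
    c hc a ha0 hNα
  obtain ⟨b₁, hb₁, b₂, _, δ', hδ', rb1, _⟩ := exists_rel_one hS2 hn _ hβ1 hβ2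
    (by rw [rβ1]; exact hτne _ (hunit _)) (by rw [rβ2]; exact mul_ne_zero (hunit _) hm0)
    c' hc' b hb0 hNβ
  rw [rα1] at ra1
  rw [rα2] at ra2
  rw [rβ1] at rb1
  exact ⟨a₁, ha₁, a₂, ha₂, b₁, hb₁, δ, δ', hδ, hδ', ra1, ra2, rb1⟩

end Frame

/-! ### [NORM-POW] -/

section Stable

variable {A : ValuationSubring Kbar} {N' q : ℕ} [NeZero N'] [NeZero q]

/-- Multiples of a stable datum are stable data. -/
theorem stableData_nsmul {D : Divisor Kbar (FN (N' * q))} {n : ℕ} (hD : StableData A N' q D n)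
    (m : ℕ) : StableData A N' q (m • D) n := by
  refine ⟨?_, hD.pos, hD.not_dvd, ?_, ?_, ?_, ?_⟩
  · rw [map_nsmul, hD.deg, smul_zero]
  · rw [smul_comm]
    exact AddSubgroup.nsmul_mem _ hD.tors m
  · rw [map_nsmul]
    exact AddSubgroup.nsmul_mem _ hD.pushA m
  · rw [map_nsmul]
    exact AddSubgroup.nsmul_mem _ hD.pushB m
  · intro τ hτ
    rw [smul_comm, hD.stable τ hτ]

end Stable

section Levels

variable {N₀ M q : ℕ} [NeZero N₀] [NeZero M] [NeZero q] {h : Nat.Coprime M q}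
variable {A : ValuationSubring Kbar} {F : Frame M q h} {O : Subring Om} {ρ : O →+* Rq A q}

/-- **[NORM-POW]** `K0Plan.NormStmt` from [VNORM] alone: the `q (q - 1)`-th power of the
normalised Kummer function has reductions which are `n`-th powers in `F_{M,k}` up to constants. -/
theorem normStmt_of_vnorm (hL : Fermat.Agent.S34.Plan.Levels q N₀ (N₀ * q) M)
    (hA : A.LiesOverPrime q) (hS : IsSetup A F O ρ) (ξ₀ : MidIdx q) {c₁ : ℕ}
    (hV : VNormStmt A (N₀ * q) q O ρ c₁) :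
    K0Plan.NormStmt A (N₀ * q) M q O ρ ξ₀ (q * (q - 1) * c₁) := by
  intro D n hD
  have hq : q.Prime := hL.prime
  haveI : Fact q.Prime := ⟨hq⟩
  haveI : CharP (kk A) q := charP_residueField_of_liesOverPrime A q hA
  haveI : IsAlgClosed (kk A) := Fermat.Agent.S18.PlacesModL.isAlgClosed_kk A
  have hqM : ¬ q ∣ M := FrameInst.not_dvd_of_coprime hq h
  have hdiv : N₀ ∣ M := ⟨Fermat.Agent.S34.Plan.aux q, by rw [hL.M_eq, mul_comm]⟩
  obtain ⟨u, hP⟩ := exists_pairData hD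
  obtain ⟨D₁, u₁, hcls₁, hP₁, hu₁, hunit₁⟩ := hV D n u hP
  have hn : 0 < n := hD.pos
  -- the top-level copies
  set uO : O := ⟨(u₁ : Om), hu₁⟩ with huO
  set ut : FN (M * q * q) := ⟨(u₁ : Om), hS.mem_field uO⟩ with hut
  -- the two norm relations, at the divisor level and at the top level
  obtain ⟨c, a₀, hc, ha₀, hα⟩ := Fermat.Agent.S35.NormPush.norm_alpha_eq (N₀ * q) q D₁ n u₁
    hP₁.ne hP₁.ord hP₁.stable.pushA
  obtain ⟨c', b₀, hc', hb₀, hβ⟩ := Fermat.Agent.S35.NormPush.norm_beta_eq (N₀ * q) q D₁ n u₁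
    hP₁.ne hP₁.ord hP₁.stable.pushB
  have hle : modularFunctionFieldBar (N₀ * q) ≤ modularFunctionFieldBar (M * q) :=
    Fermat.Agent.S18.Main.fieldBar_le (Nat.mul_dvd_mul_right hdiv q)
  set at' : FN (M * q) := ⟨(a₀ : Om), hle a₀.2⟩ with hat
  set bt' : FN (M * q) := ⟨(b₀ : Om), hle b₀.2⟩ with hbt
  have hat0 : at' ≠ 0 := by
    intro h0
    apply ha₀
    apply Subtype.ext
    have h1 : (at' : Om) = ((0 : FN (M * q)) : Om) := congrArg Subtype.val h0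
    rw [ZeroMemClass.coe_zero] at h1 ⊢
    exact h1
  have hbt0 : bt' ≠ 0 := by
    intro h0
    apply hb₀
    apply Subtype.ext
    have h1 : (bt' : Om) = ((0 : FN (M * q)) : Om) := congrArg Subtype.val h0
    rw [ZeroMemClass.coe_zero] at h1 ⊢
    exact h1
  have hαt := NormBC.norm_alpha_top_eq_of N₀ M q hq hqM hdiv u₁ a₀ c n hα ut rfl at' rfl
  have hβt := NormBC.norm_beta_top_eq_of N₀ M q hq u₁ b₀ c' n hβ ut rfl bt' rfl
  -- the level-`q` setup and [MID-EQ]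
  have hS2 := (Fermat.Agent.S35.ValFStmt.valF_val A hL hA h).1
  have hfix : K0Plan.Fixed A (uO : Om) := NormK0.fixed_of_iFix hP₁.fix
  have hmid : ∀ ξ : MidIdx q, ρ uO (Coord.mid ξ) = ρ uO (Coord.mid ξ₀) := fun ξ =>
    CondK0.midEqStmt hq hA hS uO hfix ξ ξ₀
  obtain ⟨a₁, ha₁, a₂, ha₂, b₁, hb₁, δ, δ', hδ, hδ', r1, r2, r3⟩ :=
    exists_rel hq hA hS hS2 (frobenius (kk A) q) (fun x => frobenius_def q x) ξ₀ hn ut hu₁
      hmid hunit₁ c hc at' hat0 hαt c' hc' bt' hbt0 hβt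
  obtain ⟨ξ₁, hξ₁, ξ₂, hξ₂, ξ₃, hξ₃, e₁, e₂, e₃⟩ :=
    exists_xi (HahnSeries.C : kk A →+* Omk A) (Fk A M).toSubfield
      (fun κ => NormK0.C_mem_Fk A M κ)
      (qExpand (kk A) q) (coeffMap (frobenius (kk A) q)) q n hq.pos hn
      (fun x => Fermat.Agent.Lib.KroneckerCong.pow_char_eq q x) (fun κ => qExpand_C q κ)
      (fun x hx => FkFrob.qExpand_mem_Fk A q M hq hA x hx)
      (ρ uO Coord.inf) (ρ uO (Coord.mid ξ₀)) (ρ uO Coord.zero) (hunit₁ _) (hunit₁ _) (hunit₁ _)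
      a₁ a₂ b₁ ha₁ ha₂ hb₁ δ δ' hδ hδ' r1 r2 r3
  -- the output
  set m : ℕ := q * (q - 1) with hm
  have hwO : ((u₁ ^ m : FN (N₀ * q * q)) : Om) ∈ O := by
    push_cast
    exact O.pow_mem hu₁ m
  have hwe : (⟨_, hwO⟩ : O) = uO ^ m := by
    apply Subtype.ext
    show ((u₁ ^ m : FN (N₀ * q * q)) : Om) = ((uO ^ m : O) : Om)
    rw [SubmonoidClass.coe_pow, SubmonoidClass.coe_pow]
  refine ⟨m • D₁, u₁ ^ m, hwO, (ξ₁, ξ₂, ξ₃), ?_, stableData_nsmul hP₁.stable m,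
    pow_ne_zero m hP₁.ne, ?_, ?_, ?_, ⟨hξ₁, hξ₂, hξ₃⟩, ?_⟩
  · -- the class
    have e : ∀ k : ℕ, k • D₁ - (k * c₁) • D = k • (D₁ - c₁ • D) := fun k => by
      rw [smul_sub, mul_smul]
    rw [e m]
    exact AddSubgroup.nsmul_mem _ hcls₁ m
  · -- the divisor of `w`
    intro P
    rw [ord_pow, hP₁.ord P, Finsupp.smul_apply, nsmul_eq_mul]
    ring
  · -- `w` is `K₀`-rational
    intro τ hτ
    push_cast
    rw [map_pow, hfix τ hτ]
  · -- `w` is a unit of `O`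
    have hunit : ∀ i : Coord q, ρ (uO ^ m) i ≠ 0 := fun i => by
      rw [map_pow, Pi.pow_apply]
      exact pow_ne_zero m (hunit₁ i)
    have := SetupQ2.invStmt hS (uO ^ m) hunit
    rw [← hwe] at this
    exact this
  · -- `ρ₃(w) ξⁿ = 1`
    rw [hwe, map_pow]
    refine Prod.ext ?_ (Prod.ext ?_ ?_)
    · simp only [Prod.fst_mul, Prod.pow_fst, Prod.fst_one, CondK0.rho3_fst]
      exact e₁
    · simp only [Prod.fst_mul, Prod.snd_mul, Prod.pow_fst, Prod.pow_snd, Prod.fst_one,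
        Prod.snd_one, CondK0.rho3_snd_fst]
      exact e₂
    · simp only [Prod.snd_mul, Prod.pow_snd, Prod.snd_one, CondK0.rho3_snd_snd]
      exact e₃

end Levels

/-! ### All levels -/

/-- **[NORM-POW] at all levels**: helper74's residual `OneAllK0.NormAllStmt` (contract (7) of
`K0Plan` at all levels) from [VNORM] at all levels, without [NORM-RED]. -/
theorem normAllStmt_of_vnorm (hV : OneAllOf.VNormAllStmt) : OneAllK0.NormAllStmt := by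
  intro N₀ N' M q _ _ _ hq' h hqp hcop hN' hM A hA F O ρ hS ξ₀
  obtain ⟨c₁, hc₁, hV'⟩ := hV N₀ N' M q hq' h hqp hcop hN' hM A hA F O ρ hS
  subst hN'
  have hN₀pos : 0 < N₀ := by
    rcases Nat.eq_zero_or_pos N₀ with h0 | h0
    · subst h0
      exact absurd (zero_mul q) (NeZero.ne (0 * q))
    · exact h0
  haveI : NeZero N₀ := ⟨hN₀pos.ne'⟩
  have hL : Fermat.Agent.S34.Plan.Levels q N₀ (N₀ * q) M :=
    ⟨hqp, hN₀pos, fun hd => hqp.one_lt.ne' (Nat.eq_one_of_dvd_coprimes hcop.symm dvd_rfl hd),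
      rfl, hM⟩
  have hq1 : q - 1 ≠ 0 := by have := hqp.two_le; omega
  exact ⟨q * (q - 1) * c₁, Nat.mul_ne_zero (Nat.mul_ne_zero hqp.ne_zero hq1) hc₁,
    normStmt_of_vnorm hL hA hS ξ₀ hV'⟩

end Fermat.Agent.S36.NormPow

end
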