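import Mathlib
import Fermat.Agent.S34.Plan
import Fermat.Agent.P5.GalHecke
import Fermat.Agent.S36.OnePlan
import Fermat.Agent.S36.K0Plan

/-!
# S36 / P8 — [NORM-GAL]: norms and traces commute with the coefficientwise Galois action
(helper97)

For a `Q̄`-algebra map `φ : F_L → F_{L'}` intertwining the coefficientwise Galois actions
(`SemilinearAut.IntertwinesAlong`; e.g. the two degeneracy maps `α`, `β` by `P5/GalHecke`),
the norm and the trace along `φ` commute with `S34.Plan.gal`:

* `gal_smul_norm`, `gal_smul_trace`            : the generic statements;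
* `gal_smul_norm_alpha/_beta`, `gal_smul_trace_alpha/_beta` : the four degeneracy instances, at
                                                 ANY level `L` (so `(N', N' q)` and `(M q, M q²)`);
* `iFix_norm_alpha/_beta`, `iFix_trace_alpha/_beta`   : consumer forms, `Plan.IFix` spelling;
* `fixed_norm_alpha/_beta`, `fixed_trace_alpha/_beta` : consumer forms, `K0Plan.Fixed` spelling;
* `iFix_iff_fixed`                             : the two spellings of "`K₀`-rational" agree.
-/

set_option autoImplicit false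
set_option linter.unusedSectionVars false

noncomputable section

namespace Fermat.Agent.S36.NormGal

open ModularCurve AlgebraicCurve Fermat.Agent.S24 Fermat.Agent.S18 Fermat.Agent.S18.Content
  Fermat.Agent.S18.Plan Fermat.Agent.S34

section Generic

variable {L L' : ℕ} [NeZero L] [NeZero L']

/-- The norm along `φ` commutes with the coefficientwise Galois action. -/
theorem gal_smul_norm (φ : FN L →ₐ[Kbar] FN L') (τ : Kbar ≃ₐ[ℚ] Kbar)
    (h : SemilinearAut.IntertwinesAlong (φ : FN L →+* FN L') (Plan.gal L τ) (Plan.gal L' τ))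
    (y : FN L') :
    Plan.gal L τ • (@Algebra.norm (FN L) (FN L') _ _ (algebraAlong φ) y) =
      @Algebra.norm (FN L) (FN L') _ _ (algebraAlong φ) (Plan.gal L' τ • y) := by
  have h1 := @Algebra.norm_eq_of_equiv_equiv (FN L) (FN L') (FN L) (FN L') _ _ _ _
    (algebraAlong φ) (algebraAlong φ) (SemilinearAut.toRingAut (Plan.gal L τ))
    (SemilinearAut.toRingAut (Plan.gal L' τ)) (RingHom.ext fun x => (h x).symm) y
  rw [h1]
  show SemilinearAut.toRingAut (Plan.gal L τ) ((SemilinearAut.toRingAut (Plan.gal L τ)).symm _) = _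
  rw [RingEquiv.apply_symm_apply]
  rfl

/-- The trace along `φ` commutes with the coefficientwise Galois action. -/
theorem gal_smul_trace (φ : FN L →ₐ[Kbar] FN L') (τ : Kbar ≃ₐ[ℚ] Kbar)
    (h : SemilinearAut.IntertwinesAlong (φ : FN L →+* FN L') (Plan.gal L τ) (Plan.gal L' τ))
    (y : FN L') :
    Plan.gal L τ • (@Algebra.trace (FN L) (FN L') _ _ (algebraAlong φ) y) =
      @Algebra.trace (FN L) (FN L') _ _ (algebraAlong φ) (Plan.gal L' τ • y) := by
  have h1 := @Algebra.trace_eq_of_equiv_equiv (FN L) (FN L') (FN L) (FN L') _ _ _ _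
    (algebraAlong φ) (algebraAlong φ) (SemilinearAut.toRingAut (Plan.gal L τ))
    (SemilinearAut.toRingAut (Plan.gal L' τ)) (RingHom.ext fun x => (h x).symm) y
  rw [h1]
  show SemilinearAut.toRingAut (Plan.gal L τ) ((SemilinearAut.toRingAut (Plan.gal L τ)).symm _) = _
  rw [RingEquiv.apply_symm_apply]
  rfl

end Generic

section Degeneracy

variable (L q : ℕ) [NeZero L] [NeZero q]

/-- `gal τ • N_α y = N_α (gal τ • y)`. -/
theorem gal_smul_norm_alpha (τ : Kbar ≃ₐ[ℚ] Kbar) (y : FN (L * q)) :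
    Plan.gal L τ • (@Algebra.norm (FN L) (FN (L * q)) _ _
        (algebraAlong (heckeAlphaBar Kbar L q)) y) =
      @Algebra.norm (FN L) (FN (L * q)) _ _ (algebraAlong (heckeAlphaBar Kbar L q))
        (Plan.gal (L * q) τ • y) :=
  gal_smul_norm (heckeAlphaBar Kbar L q) τ (Fermat.Agent.P5.GalHecke.intertwines_alpha L q τ) y

/-- `gal τ • N_β y = N_β (gal τ • y)`. -/
theorem gal_smul_norm_beta (τ : Kbar ≃ₐ[ℚ] Kbar) (y : FN (L * q)) :
    Plan.gal L τ • (@Algebra.norm (FN L) (FN (L * q)) _ _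
        (algebraAlong (heckeBetaBar Kbar L q)) y) =
      @Algebra.norm (FN L) (FN (L * q)) _ _ (algebraAlong (heckeBetaBar Kbar L q))
        (Plan.gal (L * q) τ • y) :=
  gal_smul_norm (heckeBetaBar Kbar L q) τ (Fermat.Agent.P5.GalHecke.intertwines_beta L q τ) y

/-- `gal τ • Tr_α y = Tr_α (gal τ • y)`. -/
theorem gal_smul_trace_alpha (τ : Kbar ≃ₐ[ℚ] Kbar) (y : FN (L * q)) :
    Plan.gal L τ • (@Algebra.trace (FN L) (FN (L * q)) _ _
        (algebraAlong (heckeAlphaBar Kbar L q)) y) =
      @Algebra.trace (FN L) (FN (L * q)) _ _ (algebraAlong (heckeAlphaBar Kbar L q))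
        (Plan.gal (L * q) τ • y) :=
  gal_smul_trace (heckeAlphaBar Kbar L q) τ (Fermat.Agent.P5.GalHecke.intertwines_alpha L q τ) y

/-- `gal τ • Tr_β y = Tr_β (gal τ • y)`. -/
theorem gal_smul_trace_beta (τ : Kbar ≃ₐ[ℚ] Kbar) (y : FN (L * q)) :
    Plan.gal L τ • (@Algebra.trace (FN L) (FN (L * q)) _ _
        (algebraAlong (heckeBetaBar Kbar L q)) y) =
      @Algebra.trace (FN L) (FN (L * q)) _ _ (algebraAlong (heckeBetaBar Kbar L q))
        (Plan.gal (L * q) τ • y) :=
  gal_smul_trace (heckeBetaBar Kbar L q) τ (Fermat.Agent.P5.GalHecke.intertwines_beta L q τ) y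

end Degeneracy

section Consumers

variable (A : ValuationSubring Kbar)

/-- The two spellings of "`K₀`-rational" agree. -/
theorem iFix_iff_fixed (N : ℕ) [NeZero N] (g : FN N) :
    Plan.IFix A N g ↔ K0Plan.Fixed A (g : Om) :=
  ⟨fun h τ hτ => congrArg (fun y : FN N => (y : Om)) (h τ hτ),
    fun h τ hτ => Subtype.ext (h τ hτ)⟩

variable (L q : ℕ) [NeZero L] [NeZero q]

theorem iFix_norm_alpha {y : FN (L * q)} (hy : Plan.IFix A (L * q) y) :
    Plan.IFix A L (@Algebra.norm (FN L) (FN (L * q)) _ _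
      (algebraAlong (heckeAlphaBar Kbar L q)) y) := fun τ hτ => by
  rw [gal_smul_norm_alpha, hy τ hτ]

theorem iFix_norm_beta {y : FN (L * q)} (hy : Plan.IFix A (L * q) y) :
    Plan.IFix A L (@Algebra.norm (FN L) (FN (L * q)) _ _
      (algebraAlong (heckeBetaBar Kbar L q)) y) := fun τ hτ => by
  rw [gal_smul_norm_beta, hy τ hτ]

theorem iFix_trace_alpha {y : FN (L * q)} (hy : Plan.IFix A (L * q) y) :
    Plan.IFix A L (@Algebra.trace (FN L) (FN (L * q)) _ _
      (algebraAlong (heckeAlphaBar Kbar L q)) y) := fun τ hτ => by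
  rw [gal_smul_trace_alpha, hy τ hτ]

theorem iFix_trace_beta {y : FN (L * q)} (hy : Plan.IFix A (L * q) y) :
    Plan.IFix A L (@Algebra.trace (FN L) (FN (L * q)) _ _
      (algebraAlong (heckeBetaBar Kbar L q)) y) := fun τ hτ => by
  rw [gal_smul_trace_beta, hy τ hτ]

theorem fixed_norm_alpha {y : FN (L * q)} (hy : K0Plan.Fixed A (y : Om)) :
    K0Plan.Fixed A ((@Algebra.norm (FN L) (FN (L * q)) _ _
      (algebraAlong (heckeAlphaBar Kbar L q)) y : FN L) : Om) :=
  (iFix_iff_fixed A L _).1 (iFix_norm_alpha A L q ((iFix_iff_fixed A (L * q) y).2 hy))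

theorem fixed_norm_beta {y : FN (L * q)} (hy : K0Plan.Fixed A (y : Om)) :
    K0Plan.Fixed A ((@Algebra.norm (FN L) (FN (L * q)) _ _
      (algebraAlong (heckeBetaBar Kbar L q)) y : FN L) : Om) :=
  (iFix_iff_fixed A L _).1 (iFix_norm_beta A L q ((iFix_iff_fixed A (L * q) y).2 hy))

theorem fixed_trace_alpha {y : FN (L * q)} (hy : K0Plan.Fixed A (y : Om)) :
    K0Plan.Fixed A ((@Algebra.trace (FN L) (FN (L * q)) _ _
      (algebraAlong (heckeAlphaBar Kbar L q)) y : FN L) : Om) :=
  (iFix_iff_fixed A L _).1 (iFix_trace_alpha A L q ((iFix_iff_fixed A (L * q) y).2 hy))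

theorem fixed_trace_beta {y : FN (L * q)} (hy : K0Plan.Fixed A (y : Om)) :
    K0Plan.Fixed A ((@Algebra.trace (FN L) (FN (L * q)) _ _
      (algebraAlong (heckeBetaBar Kbar L q)) y : FN L) : Om) :=
  (iFix_iff_fixed A L _).1 (iFix_trace_beta A L q ((iFix_iff_fixed A (L * q) y).2 hy))

end Consumers

end Fermat.Agent.S36.NormGal

end
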