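/-
P8 / S36 leaf [VNORM] (helper67): the component-group step of Carayol's lemma, abstract form.

Setting (informal).  `M = q² M'`, `x` an inertia-invariant `n`-torsion class of `J₀(M)` which is
`q`-new (killed by the two push-forwards `α_*`, `β_*` to level `M / q`), represented by an
inertia-stable divisor `D` with `n • D = div u`, `u` rational over the inertia field `K₀`.  On the
`K₀`-model the special fibre is `C₁ + (q - 1) C₂ + C₃`; the three Gauss valuations of `u`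
(in units of `v(q)`: `m₁`, `m₂ / (q - 1)`, `m₃`) need not vanish, and they can be removed by a
vertical *principal* divisor only if they are divisible by `n` modulo the lattice of such divisors:
this is the image of `x` in the component group.  For `q`-new classes the two norm relations
`N_α u = c hⁿ`, `N_β u = c' h'ⁿ` (with `h`, `h'` rational over `K₀` at level `M / q`, where both
Gauss valuations are unramified) give, by comparing the two Gauss valuations of each norm,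

  `m₁ + m₂ - q m₃ ≡ 0`,  `q m₁ - m₂ - m₃ ≡ 0`  (mod `n`),

hence `(q + 1)(m₁ - m₃) ≡ 0 ≡ (q + 1)(m₂ - (q - 1) m₃)`, and `u ^ (q² - 1)` becomes a unit at all
three valuations after division by a power of the constant `q` and by `Hⁿ` for a function `H`
with prescribed vertical valuations (class `(q² - 1) x` unchanged).

Everything is stated in the vocabulary "`y` times a power of the constant `q` is a unit at a
coordinate", i.e. membership in a subgroup; no value group is needed.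

* `arith_core`            : the integer arithmetic;
* `exp_eq_of_norm`        : comparing exponents through a relation `X = c hⁿ`;
* `exists_normalised`     : the step, subgroup form;
* `exists_normalised_hom` : the same with group homomorphisms (valuations) instead of subgroups;
* `val_sum_eq`, `exists_H`: functions with prescribed vertical valuations from one-component
  elements (for three valuations of a field).
-/
import Mathlib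

set_option autoImplicit false

namespace Fermat.Agent.S36.VNorm

/-! ### Arithmetic core -/

/-- The two norm congruences give divisibility by `n` after multiplication by `q² - 1`. -/
theorem arith_core {n d d' q m1 m2 m3 : ℤ} (hα : m1 + m2 - q * m3 = n * d)
    (hβ : q * m1 - m2 - m3 = n * d') :
    (q ^ 2 - 1) * m1 - (q ^ 2 - 1) * m3 = n * ((q - 1) * (d + d')) ∧
      (q ^ 2 - 1) * m2 - (q - 1) * ((q ^ 2 - 1) * m3) = n * ((q - 1) * (q * d - d')) := by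
  constructor
  · linear_combination (q - 1) * hα + (q - 1) * hβ
  · linear_combination (q - 1) * q * hα - (q - 1) * hβ

/-! ### Congruences modulo a subgroup -/

section Quot

variable {G : Type*} [CommGroup G] (U : Subgroup G)

/-- `x ≡ p ^ m` modulo `U`, in the quotient group. -/
theorem mk_eq_zpow_iff (x p : G) (m : ℤ) :
    (QuotientGroup.mk x : G ⧸ U) = (QuotientGroup.mk p : G ⧸ U) ^ m ↔ x * (p ^ m)⁻¹ ∈ U := by
  rw [← QuotientGroup.mk_zpow, eq_comm, QuotientGroup.eq, mul_comm]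

/-- In a commutative group: `(P ^ a) ^ N * (P ^ b)⁻¹ * ((P ^ c) ^ n)⁻¹ = 1` when the exponents
cancel. -/
theorem zpow_combine {Q : Type*} [CommGroup Q] (P : Q) (a b c : ℤ) (N n : ℕ)
    (h : a * N - b - c * n = 0) : (P ^ a) ^ N * (P ^ b)⁻¹ * ((P ^ c) ^ n)⁻¹ = 1 := by
  rw [← zpow_natCast (P ^ a) N, ← zpow_mul, ← zpow_natCast (P ^ c) n, ← zpow_mul, ← zpow_neg,
    ← zpow_neg, ← zpow_add, ← zpow_add]
  have h0 : a * N + -b + -(c * n) = 0 := by linarith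
  rw [h0, zpow_zero]

/-- **Comparing exponents through a norm relation.**  If `X ≡ π ^ a`, `c ≡ π ^ e`, `h ≡ π ^ d`
modulo `W`, `X = c hⁿ`, and no nontrivial power of `π` lies in `W`, then `a = e + n d`. -/
theorem exp_eq_of_norm (π : G) (hW : ∀ m : ℤ, π ^ m ∈ U → m = 0) (n : ℕ) (X c h : G)
    (a e d : ℤ) (hX : X * (π ^ a)⁻¹ ∈ U) (hc : c * (π ^ e)⁻¹ ∈ U) (hh : h * (π ^ d)⁻¹ ∈ U)
    (hN : X = c * h ^ n) : a = e + n * d := by
  have h1 := (mk_eq_zpow_iff U X π a).mpr hX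
  have h2 := (mk_eq_zpow_iff U c π e).mpr hc
  have h3 := (mk_eq_zpow_iff U h π d).mpr hh
  have h4 : (QuotientGroup.mk π : G ⧸ U) ^ (a - (e + n * d)) = 1 := by
    rw [zpow_sub, ← h1, zpow_add, ← h2, mul_comm (n : ℤ) d, zpow_mul, ← h3, zpow_natCast, hN,
      QuotientGroup.mk_mul, QuotientGroup.mk_pow]
    exact mul_inv_cancel _
  have h5 : π ^ (a - (e + n * d)) ∈ U := by
    rw [← QuotientGroup.eq_one_iff, QuotientGroup.mk_zpow]
    exact h4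
  have h6 := hW _ h5
  linarith

end Quot

/-! ### The normalisation step, subgroup form -/

/-- **[VNORM], subgroup form.**

`G` = nonzero functions of level `q² M'`, `U₁ U₂ U₃` = units at the `∞` / middle / `0` Gauss
coordinate; `G'` = nonzero functions of level `q M'`, `W₁ W₂` = units at its two Gauss
coordinates; `π`, `π'` = the constant `q` at the two levels.

* `hu1 hu2 hu3` : the three valuations of `u` are `m₁`, `m₂ / (q - 1)`, `m₃` (units of `v(q)`);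
* `hα1 hα2 hβ1 hβ2` : the Gauss valuations of the norms `N_α u`, `N_β u`
  (`N_α u = u ∏ₐ rₐ u` at `∞`, Frobenius at `0`; symmetric for `β`);
* `hc*`, `hh*` : the constants have equal valuations at both coordinates, and `h`, `h'` have
  integral valuations (they are rational over the inertia field);
* `hH` : functions with prescribed vertical valuations `(k₁, k₂, 0)`.

Conclusion: `u ^ (q² - 1) / (q ^ k Hⁿ)` is a unit at the three coordinates. -/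
theorem exists_normalised {G G' : Type*} [CommGroup G] [CommGroup G']
    (U1 U2 U3 : Subgroup G) (W1 W2 : Subgroup G') (q : ℕ) (hq : 1 < q)
    (hsat : ∀ x : G, x ^ (q - 1) ∈ U2 → x ∈ U2) (π : G) (π' : G')
    (hW1 : ∀ m : ℤ, π' ^ m ∈ W1 → m = 0) (hW2 : ∀ m : ℤ, π' ^ m ∈ W2 → m = 0)
    (hH : ∀ k1 k2 : ℤ, ∃ H : G, H * (π ^ k1)⁻¹ ∈ U1 ∧ H * (π ^ k2)⁻¹ ∈ U2 ∧ H ∈ U3)
    (n : ℕ) (u : G) (m1 m2 m3 : ℤ)
    (hu1 : u * (π ^ m1)⁻¹ ∈ U1) (hu2 : u ^ (q - 1) * (π ^ m2)⁻¹ ∈ U2)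
    (hu3 : u * (π ^ m3)⁻¹ ∈ U3)
    (Nα Nβ c h c' h' : G')
    (hα1 : Nα * (π' ^ (m1 + m2))⁻¹ ∈ W1) (hα2 : Nα * (π' ^ ((q : ℤ) * m3))⁻¹ ∈ W2)
    (hβ1 : Nβ * (π' ^ ((q : ℤ) * m1))⁻¹ ∈ W1) (hβ2 : Nβ * (π' ^ (m2 + m3))⁻¹ ∈ W2)
    (e e' : ℤ) (hc1 : c * (π' ^ e)⁻¹ ∈ W1) (hc2 : c * (π' ^ e)⁻¹ ∈ W2)
    (hc1' : c' * (π' ^ e')⁻¹ ∈ W1) (hc2' : c' * (π' ^ e')⁻¹ ∈ W2)
    (d1 d2 d1' d2' : ℤ) (hh1 : h * (π' ^ d1)⁻¹ ∈ W1) (hh2 : h * (π' ^ d2)⁻¹ ∈ W2)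
    (hh1' : h' * (π' ^ d1')⁻¹ ∈ W1) (hh2' : h' * (π' ^ d2')⁻¹ ∈ W2)
    (hNα : Nα = c * h ^ n) (hNβ : Nβ = c' * h' ^ n) :
    ∃ (H : G) (k : ℤ), u ^ (q ^ 2 - 1) * (π ^ k)⁻¹ * (H ^ n)⁻¹ ∈ U1 ∧
      u ^ (q ^ 2 - 1) * (π ^ k)⁻¹ * (H ^ n)⁻¹ ∈ U2 ∧
      u ^ (q ^ 2 - 1) * (π ^ k)⁻¹ * (H ^ n)⁻¹ ∈ U3 := by
  have e1 := exp_eq_of_norm W1 π' hW1 n Nα c h (m1 + m2) e d1 hα1 hc1 hh1 hNα
  have e2 := exp_eq_of_norm W2 π' hW2 n Nα c h ((q : ℤ) * m3) e d2 hα2 hc2 hh2 hNα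
  have e3 := exp_eq_of_norm W1 π' hW1 n Nβ c' h' ((q : ℤ) * m1) e' d1' hβ1 hc1' hh1' hNβ
  have e4 := exp_eq_of_norm W2 π' hW2 n Nβ c' h' (m2 + m3) e' d2' hβ2 hc2' hh2' hNβ
  have hA : m1 + m2 - (q : ℤ) * m3 = n * (d1 - d2) := by linarith
  have hB : (q : ℤ) * m1 - m2 - m3 = n * (d1' - d2') := by linarith
  obtain ⟨a1, a2⟩ := arith_core hA hB
  obtain ⟨H, hH1, hH2, hH3⟩ :=
    hH (((q : ℤ) - 1) * ((d1 - d2) + (d1' - d2'))) ((q : ℤ) * (d1 - d2) - (d1' - d2'))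
  have hq2 : 1 ≤ q ^ 2 := Nat.one_le_pow _ _ (by omega)
  have hN : ((q ^ 2 - 1 : ℕ) : ℤ) = (q : ℤ) ^ 2 - 1 := by
    rw [Nat.cast_sub hq2]; push_cast; ring
  have hq1 : ((q - 1 : ℕ) : ℤ) = (q : ℤ) - 1 := by
    rw [Nat.cast_sub (by omega)]; push_cast; ring
  refine ⟨H, ((q : ℤ) ^ 2 - 1) * m3, ?_, ?_, ?_⟩
  · -- the coordinate `∞`
    have x1 := (mk_eq_zpow_iff U1 u π m1).mpr hu1
    have x2 := (mk_eq_zpow_iff U1 H π _).mpr hH1
    rw [← QuotientGroup.eq_one_iff, QuotientGroup.mk_mul, QuotientGroup.mk_mul,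
      QuotientGroup.mk_inv, QuotientGroup.mk_inv, QuotientGroup.mk_pow, QuotientGroup.mk_pow,
      QuotientGroup.mk_zpow, x1, x2]
    apply zpow_combine
    rw [hN]
    linear_combination a1
  · -- the middle coordinate
    apply hsat
    have x1 := (mk_eq_zpow_iff U2 (u ^ (q - 1)) π m2).mpr hu2
    have x2 := (mk_eq_zpow_iff U2 H π _).mpr hH2
    rw [QuotientGroup.mk_pow] at x1
    have key : (u ^ (q ^ 2 - 1) * (π ^ (((q : ℤ) ^ 2 - 1) * m3))⁻¹ * (H ^ n)⁻¹) ^ (q - 1) =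
        (u ^ (q - 1)) ^ (q ^ 2 - 1) * (π ^ ((((q : ℤ) ^ 2 - 1) * m3) * ((q : ℤ) - 1)))⁻¹ *
          ((H ^ (q - 1)) ^ n)⁻¹ := by
      rw [mul_pow, mul_pow, inv_pow, inv_pow, pow_right_comm u, pow_right_comm H,
        ← zpow_natCast (π ^ (((q : ℤ) ^ 2 - 1) * m3)) (q - 1), ← zpow_mul, hq1]
    rw [key, ← QuotientGroup.eq_one_iff, QuotientGroup.mk_mul, QuotientGroup.mk_mul,
      QuotientGroup.mk_inv, QuotientGroup.mk_inv, QuotientGroup.mk_pow, QuotientGroup.mk_pow,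
      QuotientGroup.mk_pow, QuotientGroup.mk_pow, QuotientGroup.mk_zpow, x1, x2,
      ← zpow_natCast (_ ^ ((q : ℤ) * (d1 - d2) - (d1' - d2'))) (q - 1), ← zpow_mul]
    apply zpow_combine
    rw [hN, hq1]
    linear_combination a2
  · -- the coordinate `0`
    have x1 := (mk_eq_zpow_iff U3 u π m3).mpr hu3
    have x2 : (QuotientGroup.mk H : G ⧸ U3) = (QuotientGroup.mk π : G ⧸ U3) ^ (0 : ℤ) := by
      rw [zpow_zero, QuotientGroup.eq_one_iff]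
      exact hH3
    rw [← QuotientGroup.eq_one_iff, QuotientGroup.mk_mul, QuotientGroup.mk_mul,
      QuotientGroup.mk_inv, QuotientGroup.mk_inv, QuotientGroup.mk_pow, QuotientGroup.mk_pow,
      QuotientGroup.mk_zpow, x1, x2]
    apply zpow_combine
    rw [hN]
    ring

/-! ### The normalisation step, homomorphism form -/

/-- `x ≡ p ^ m` modulo the kernel of `v`. -/
theorem mul_inv_mem_ker_iff {G Γ : Type*} [CommGroup G] [CommGroup Γ] (v : G →* Γ) (x p : G)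
    (m : ℤ) : x * (p ^ m)⁻¹ ∈ v.ker ↔ v x = v p ^ m := by
  rw [MonoidHom.mem_ker, map_mul, map_inv, map_zpow, mul_inv_eq_one]

/-- **[VNORM], homomorphism form**: the same statement as `exists_normalised` with the unit groups
given as kernels of "valuations" `v₁ v₂ v₃ : G →* Γ`, `w₁ w₂ : G' →* Γ` into a commutative group
without `(q - 1)`-torsion.  (`v₂ u ^ (q - 1) = v₂ π ^ m₂`: the middle valuation of `u` is
`m₂ / (q - 1)` in units of the valuation of `π`.) -/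
theorem exists_normalised_hom {G G' Γ : Type*} [CommGroup G] [CommGroup G'] [CommGroup Γ]
    (v1 v2 v3 : G →* Γ) (w1 w2 : G' →* Γ) (q : ℕ) (hq : 1 < q)
    (htf : ∀ g : Γ, g ^ (q - 1) = 1 → g = 1) (π : G) (π' : G')
    (hW1 : ∀ m : ℤ, w1 π' ^ m = 1 → m = 0) (hW2 : ∀ m : ℤ, w2 π' ^ m = 1 → m = 0)
    (hH : ∀ k1 k2 : ℤ, ∃ H : G, v1 H = v1 π ^ k1 ∧ v2 H = v2 π ^ k2 ∧ v3 H = 1)
    (n : ℕ) (u : G) (m1 m2 m3 : ℤ)
    (hu1 : v1 u = v1 π ^ m1) (hu2 : v2 u ^ (q - 1) = v2 π ^ m2) (hu3 : v3 u = v3 π ^ m3)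
    (Nα Nβ c h c' h' : G')
    (hα1 : w1 Nα = w1 π' ^ (m1 + m2)) (hα2 : w2 Nα = w2 π' ^ ((q : ℤ) * m3))
    (hβ1 : w1 Nβ = w1 π' ^ ((q : ℤ) * m1)) (hβ2 : w2 Nβ = w2 π' ^ (m2 + m3))
    (e e' : ℤ) (hc1 : w1 c = w1 π' ^ e) (hc2 : w2 c = w2 π' ^ e)
    (hc1' : w1 c' = w1 π' ^ e') (hc2' : w2 c' = w2 π' ^ e')
    (d1 d2 d1' d2' : ℤ) (hh1 : w1 h = w1 π' ^ d1) (hh2 : w2 h = w2 π' ^ d2)
    (hh1' : w1 h' = w1 π' ^ d1') (hh2' : w2 h' = w2 π' ^ d2')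
    (hNα : Nα = c * h ^ n) (hNβ : Nβ = c' * h' ^ n) :
    ∃ (H : G) (k : ℤ), v1 (u ^ (q ^ 2 - 1) * (π ^ k)⁻¹ * (H ^ n)⁻¹) = 1 ∧
      v2 (u ^ (q ^ 2 - 1) * (π ^ k)⁻¹ * (H ^ n)⁻¹) = 1 ∧
      v3 (u ^ (q ^ 2 - 1) * (π ^ k)⁻¹ * (H ^ n)⁻¹) = 1 := by
  have hsat : ∀ x : G, x ^ (q - 1) ∈ v2.ker → x ∈ v2.ker := by
    intro x hx
    rw [MonoidHom.mem_ker, map_pow] at hx
    exact MonoidHom.mem_ker.mpr (htf _ hx)
  have hW1' : ∀ m : ℤ, π' ^ m ∈ w1.ker → m = 0 := by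
    intro m hm
    rw [MonoidHom.mem_ker, map_zpow] at hm
    exact hW1 m hm
  have hW2' : ∀ m : ℤ, π' ^ m ∈ w2.ker → m = 0 := by
    intro m hm
    rw [MonoidHom.mem_ker, map_zpow] at hm
    exact hW2 m hm
  have hH' : ∀ k1 k2 : ℤ, ∃ H : G, H * (π ^ k1)⁻¹ ∈ v1.ker ∧ H * (π ^ k2)⁻¹ ∈ v2.ker ∧
      H ∈ v3.ker := by
    intro k1 k2
    obtain ⟨H, h1, h2, h3⟩ := hH k1 k2
    exact ⟨H, (mul_inv_mem_ker_iff v1 H π k1).mpr h1, (mul_inv_mem_ker_iff v2 H π k2).mpr h2,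
      MonoidHom.mem_ker.mpr h3⟩
  have hu2' : u ^ (q - 1) * (π ^ m2)⁻¹ ∈ v2.ker := by
    rw [mul_inv_mem_ker_iff, map_pow]
    exact hu2
  obtain ⟨H, k, r1, r2, r3⟩ := exists_normalised v1.ker v2.ker v3.ker w1.ker w2.ker q hq hsat π π'
    hW1' hW2' hH' n u m1 m2 m3 ((mul_inv_mem_ker_iff v1 u π m1).mpr hu1) hu2'
    ((mul_inv_mem_ker_iff v3 u π m3).mpr hu3) Nα Nβ c h c' h'
    ((mul_inv_mem_ker_iff w1 Nα π' _).mpr hα1) ((mul_inv_mem_ker_iff w2 Nα π' _).mpr hα2)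
    ((mul_inv_mem_ker_iff w1 Nβ π' _).mpr hβ1) ((mul_inv_mem_ker_iff w2 Nβ π' _).mpr hβ2)
    e e' ((mul_inv_mem_ker_iff w1 c π' e).mpr hc1) ((mul_inv_mem_ker_iff w2 c π' e).mpr hc2)
    ((mul_inv_mem_ker_iff w1 c' π' e').mpr hc1') ((mul_inv_mem_ker_iff w2 c' π' e').mpr hc2')
    d1 d2 d1' d2' ((mul_inv_mem_ker_iff w1 h π' d1).mpr hh1)
    ((mul_inv_mem_ker_iff w2 h π' d2).mpr hh2) ((mul_inv_mem_ker_iff w1 h' π' d1').mpr hh1')
    ((mul_inv_mem_ker_iff w2 h' π' d2').mpr hh2') hNα hNβ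
  exact ⟨H, k, MonoidHom.mem_ker.mp r1, MonoidHom.mem_ker.mp r2, MonoidHom.mem_ker.mp r3⟩

/-! ### Functions with prescribed vertical valuations -/

/-- For a valuation `v` with `v p < 1`, `v a = 1`, `v b, v c ≤ v p` and `N` large:
`v (a ^ N p ^ k + b ^ N p ^ kb + c ^ N p ^ kc) = v p ^ k`. -/
theorem val_sum_eq {F Γ : Type*} [Field F] [LinearOrderedCommGroupWithZero Γ] (v : Valuation F Γ)
    (p : F) (hp : v p < 1) (hp0 : p ≠ 0) (a b c : F) (k kb kc : ℤ) (N : ℕ)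
    (ha : v a = 1) (hb : v b ≤ v p) (hc : v c ≤ v p) (hkb : k < N + kb) (hkc : k < N + kc) :
    v (a ^ N * p ^ k + b ^ N * p ^ kb + c ^ N * p ^ kc) = v p ^ k := by
  have hv0' : v p ≠ 0 := (Valuation.ne_zero_iff v).mpr hp0
  have hv0 : 0 < v p := zero_lt_iff.mpr hv0'
  have h1 : v (a ^ N * p ^ k) = v p ^ k := by
    rw [map_mul, map_pow, ha, one_pow, one_mul, map_zpow₀]
  have aux : ∀ (b : F) (kb : ℤ), v b ≤ v p → k < N + kb → v (b ^ N * p ^ kb) < v p ^ k := by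
    intro b kb hb hkb
    have h : v (b ^ N * p ^ kb) ≤ v p ^ ((N : ℤ) + kb) := by
      rw [map_mul, map_pow, map_zpow₀, zpow_add₀ hv0', zpow_natCast]
      exact mul_le_mul_left (pow_le_pow_left₀ zero_le hb N) _
    exact lt_of_le_of_lt h (zpow_lt_zpow_right_of_lt_one₀ hv0 hp hkb)
  have h2 := aux b kb hb hkb
  have h3 := aux c kc hc hkc
  rw [add_assoc, Valuation.map_add_eq_of_lt_left, h1]
  rw [h1]
  exact lt_of_le_of_lt (Valuation.map_add _ _ _) (max_lt h2 h3)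

/-- **Functions with prescribed vertical valuations.**  Let `v₁ v₂ v₃` be valuations of a field `F`,
`p` with `vᵢ p < 1` (the constant `q`), and `z₁ z₂ z₃` "one-component elements": `vᵢ zᵢ = 1` and
`vⱼ zᵢ ≤ vⱼ p` for `j ≠ i`.  Then for all integers `k₁ k₂` there is `H` with
`v₁ H = v₁ p ^ k₁`, `v₂ H = v₂ p ^ k₂`, `v₃ H = 1`
(`H = z₁ ^ N p ^ k₁ + z₂ ^ N p ^ k₂ + z₃ ^ N`, `N = |k₁| + |k₂| + 1`). -/
theorem exists_H {F Γ₁ Γ₂ Γ₃ : Type*} [Field F] [LinearOrderedCommGroupWithZero Γ₁]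
    [LinearOrderedCommGroupWithZero Γ₂] [LinearOrderedCommGroupWithZero Γ₃]
    (v1 : Valuation F Γ₁) (v2 : Valuation F Γ₂) (v3 : Valuation F Γ₃) (p z1 z2 z3 : F)
    (hp0 : p ≠ 0) (hp1 : v1 p < 1) (hp2 : v2 p < 1) (hp3 : v3 p < 1)
    (h11 : v1 z1 = 1) (h12 : v2 z1 ≤ v2 p) (h13 : v3 z1 ≤ v3 p)
    (h21 : v1 z2 ≤ v1 p) (h22 : v2 z2 = 1) (h23 : v3 z2 ≤ v3 p)
    (h31 : v1 z3 ≤ v1 p) (h32 : v2 z3 ≤ v2 p) (h33 : v3 z3 = 1) (k1 k2 : ℤ) :
    ∃ H : F, H ≠ 0 ∧ v1 H = v1 p ^ k1 ∧ v2 H = v2 p ^ k2 ∧ v3 H = 1 := by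
  obtain ⟨N, hN⟩ : ∃ N : ℕ, (N : ℤ) = |k1| + |k2| + 1 :=
    ⟨(|k1| + |k2| + 1).toNat, Int.toNat_of_nonneg (by positivity)⟩
  have a1 := le_abs_self k1
  have a2 := neg_abs_le k1
  have b1 := le_abs_self k2
  have b2 := neg_abs_le k2
  have r1 : v1 (z1 ^ N * p ^ k1 + z2 ^ N * p ^ k2 + z3 ^ N * p ^ (0 : ℤ)) = v1 p ^ k1 :=
    val_sum_eq v1 p hp1 hp0 z1 z2 z3 k1 k2 0 N h11 h21 h31 (by linarith) (by linarith)
  have r2 : v2 (z2 ^ N * p ^ k2 + z1 ^ N * p ^ k1 + z3 ^ N * p ^ (0 : ℤ)) = v2 p ^ k2 :=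
    val_sum_eq v2 p hp2 hp0 z2 z1 z3 k2 k1 0 N h22 h12 h32 (by linarith) (by linarith)
  have r3 : v3 (z3 ^ N * p ^ (0 : ℤ) + z1 ^ N * p ^ k1 + z2 ^ N * p ^ k2) = v3 p ^ (0 : ℤ) :=
    val_sum_eq v3 p hp3 hp0 z3 z1 z2 0 k1 k2 N h33 h13 h23 (by linarith) (by linarith)
  have c2 : z2 ^ N * p ^ k2 + z1 ^ N * p ^ k1 + z3 ^ N * p ^ (0 : ℤ) =
      z1 ^ N * p ^ k1 + z2 ^ N * p ^ k2 + z3 ^ N * p ^ (0 : ℤ) := by ring
  have c3 : z3 ^ N * p ^ (0 : ℤ) + z1 ^ N * p ^ k1 + z2 ^ N * p ^ k2 =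
      z1 ^ N * p ^ k1 + z2 ^ N * p ^ k2 + z3 ^ N * p ^ (0 : ℤ) := by ring
  rw [c2] at r2
  rw [c3] at r3
  have r3' : v3 (z1 ^ N * p ^ k1 + z2 ^ N * p ^ k2 + z3 ^ N * p ^ (0 : ℤ)) = 1 := by
    rw [r3, zpow_zero]
  refine ⟨_, ?_, r1, r2, r3'⟩
  intro h0
  rw [h0, map_zero] at r3'
  exact zero_ne_one r3'

end Fermat.Agent.S36.VNorm
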