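import Mathlib
import Fermat.Agent.S35.NormPush
import Fermat.Agent.S36.OnePlan
import Fermat.Agent.S36.K0ScaleFrame
import Fermat.Agent.S36.MidNorm
import Fermat.Agent.S36.PullRed
import Fermat.Agent.S36.NormBC
import Fermat.Agent.S36.NormGal
import Fermat.Agent.S36.VNorm
import Fermat.Agent.S36.CoordFin

/-!
# S36 / P8 — [VNORM], the junction (helper97)

The component-group step of the [ONE] chain in the vocabulary of the frame: for a pair `(D, u)`
at the divisor level `N₀ q²` the three Gauss exponents of `u` (in units of `v(q)`; at the middle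
coordinates the exponent of `u ^ (q - 1)`) are compared through the two norm relations
`N_α u = c aⁿ`, `N_β u = c' bⁿ`, and `u ^ (q² - 1) · q ^ k · Hⁿ` is a unit at every coordinate for
a function `H` with prescribed vertical exponents.

* `IsU`, `E`            : units of `Ocal A`, and "`y` has `q`-exponent `m`";
* `HasExp`              : the exponent triple of an element of `F_{Mq²}`;
* `hasExp_alpha_norm`, `hasExp_beta_norm` : the exponents of `α (N_α x)`, `β (N_β x)`;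
* `hasExp_alpha`, `hasExp_beta`           : the exponents of `α y`, `β y`;
* `HStmt`               : functions with prescribed vertical exponents (hypothesis);
* `pack`                : the packaging into `Plan.PairData`;
* `vnormStmt_of_H`      : `Plan.VNormStmt` with `c = q² - 1` from `HStmt`.
-/

set_option autoImplicit false
set_option linter.unusedSectionVars false
set_option linter.unusedVariables false
set_option linter.style.haveILetI false

noncomputable section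

namespace Fermat.Agent.S36.VNormCore

open ModularCurve AlgebraicCurve Fermat.Agent.S24 Fermat.Agent.S18 Fermat.Agent.S18.Content
  Fermat.Agent.S18.Plan Fermat.Agent.S34

/-! ### Units of `Ocal A` -/

section Units

variable (A : ValuationSubring Kbar)

/-- A unit of the Gauss coordinate: integral with nonzero reduction. -/
def IsU (y : Om) : Prop := ∃ h : y ∈ Ocal A, red A ⟨y, h⟩ ≠ 0

variable {A}

theorem isU_one : IsU A (1 : Om) := by
  refine ⟨(Ocal A).one_mem, ?_⟩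
  have e : (⟨1, (Ocal A).one_mem⟩ : Ocal A) = 1 := rfl
  rw [e, map_one]
  exact one_ne_zero

theorem IsU.mul {x y : Om} (hx : IsU A x) (hy : IsU A y) : IsU A (x * y) := by
  obtain ⟨h1, r1⟩ := hx
  obtain ⟨h2, r2⟩ := hy
  refine ⟨(Ocal A).mul_mem h1 h2, ?_⟩
  have e : (⟨x * y, (Ocal A).mul_mem h1 h2⟩ : Ocal A) = ⟨x, h1⟩ * ⟨y, h2⟩ := rfl
  rw [e, map_mul]
  exact mul_ne_zero r1 r2

theorem IsU.inv {x : Om} (hx : IsU A x) : IsU A x⁻¹ := by
  obtain ⟨h1, r1⟩ := hx
  refine ⟨inv_mem_Ocal A ⟨x, h1⟩ r1, ?_⟩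
  rw [red_inv A ⟨x, h1⟩ r1]
  exact inv_ne_zero r1

theorem IsU.pow {x : Om} (hx : IsU A x) (n : ℕ) : IsU A (x ^ n) := by
  induction n with
  | zero => rw [pow_zero]; exact isU_one
  | succ n ih => rw [pow_succ]; exact ih.mul hx

theorem IsU.ne_zero {x : Om} (hx : IsU A x) : x ≠ 0 := by
  obtain ⟨h1, r1⟩ := hx
  exact ne_zero_of_red_ne_zero A ⟨x, h1⟩ r1

theorem IsU.congr {x y : Om} (hx : IsU A x) (h : x = y) : IsU A y := h ▸ hx

/-- A constant multiple of a unit is a unit only if the constant has valuation one. -/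
theorem val_eq_one_of_isU {κ : Kbar} {y : Om} (hy : IsU A y)
    (hκy : IsU A (HahnSeries.C κ * y)) : A.valuation κ = 1 := by
  obtain ⟨h1, r1⟩ := hy
  obtain ⟨h2, r2⟩ := hκy
  have hκ : κ ∈ A := (C_mul_mem_Ocal_iff A κ ⟨y, h1⟩ r1).mp h2
  have h3 := (red_C_mul_eq_zero_iff A hκ ⟨y, h1⟩ r1 h2).not.mp r2
  have h4 : IsUnit (⟨κ, hκ⟩ : A) := by
    by_contra hnu
    exact h3 ((IsLocalRing.mem_maximalIdeal _).mpr hnu)
  exact (A.valuation_eq_one_iff _).mp h4

theorem IsU.qExpand {y : Om} (ℓ : ℕ) [NeZero ℓ] (hy : IsU A y) : IsU A (qExpand Kbar ℓ y) := by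
  obtain ⟨h1, r1⟩ := hy
  refine ⟨Fermat.Agent.Lib.KroneckerCong.qExpand_mem_Ocal A ℓ h1, ?_⟩
  have e := Fermat.Agent.Lib.KroneckerCong.red_qExpand A ℓ ⟨y, h1⟩
  rw [e]
  intro h0
  exact r1 (qExpand_injective (R := kk A) (N := ℓ) (h0.trans (map_zero _).symm))

theorem IsU.scale {y : Om} (ζ : Kbarˣ) (hζ : (ζ : Kbar) - 1 ∈ A.nonunits) (hy : IsU A y) :
    IsU A (Fermat.Agent.S28.scale ζ y) := by
  obtain ⟨h1, r1⟩ := hy
  refine ⟨PullRed.scale_mem_Ocal A ζ hζ h1, ?_⟩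
  rw [PullRed.red_scale A ζ hζ h1]
  exact r1

end Units

/-! ### `q`-exponents -/

section Exponents

variable (A : ValuationSubring Kbar) (q : ℕ)

/-- `y` has `q`-exponent `m`: `q ^ (-m) · y` is a unit of `Ocal A`. -/
def E (y : Om) (m : ℤ) : Prop := IsU A (HahnSeries.C ((q : Kbar) ^ (-m)) * y)

variable {A q}

theorem E.ne_zero {y : Om} {m : ℤ} (h : E A q y m) : y ≠ 0 := by
  intro h0
  have h1 := IsU.ne_zero h
  rw [h0, mul_zero] at h1
  exact h1 rfl

theorem E.congr {y y' : Om} {m : ℤ} (h : E A q y m) (e : y = y') : E A q y' m := e ▸ h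

theorem E.congr_exp {y : Om} {m m' : ℤ} (h : E A q y m) (e : m = m') : E A q y m' := e ▸ h

theorem isU_iff_E_zero {y : Om} : E A q y 0 ↔ IsU A y := by
  unfold E
  rw [neg_zero, zpow_zero, map_one, one_mul]

variable [NeZero q]

theorem cast_ne_zero' : (q : Kbar) ≠ 0 := Nat.cast_ne_zero.mpr (NeZero.ne q)

theorem E.mul {y y' : Om} {m m' : ℤ} (h : E A q y m) (h' : E A q y' m') :
    E A q (y * y') (m + m') := by
  have h1 := IsU.mul h h'
  have e : HahnSeries.C ((q : Kbar) ^ (-(m + m'))) * (y * y') =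
      HahnSeries.C ((q : Kbar) ^ (-m)) * y * (HahnSeries.C ((q : Kbar) ^ (-m')) * y') := by
    rw [neg_add, zpow_add₀ (cast_ne_zero' (q := q)), map_mul]
    ring
  unfold E
  rw [e]
  exact h1

theorem E.inv {y : Om} {m : ℤ} (h : E A q y m) : E A q y⁻¹ (-m) := by
  have h1 := IsU.inv h
  have e : HahnSeries.C ((q : Kbar) ^ (-(-m))) * y⁻¹ =
      (HahnSeries.C ((q : Kbar) ^ (-m)) * y)⁻¹ := by
    rw [mul_inv, ← map_inv₀, ← zpow_neg]
  unfold E
  rw [e]
  exact h1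

theorem e_one : E A q (1 : Om) 0 := isU_iff_E_zero.mpr isU_one

theorem E.pow {y : Om} {m : ℤ} (h : E A q y m) (n : ℕ) : E A q (y ^ n) (n * m) := by
  induction n with
  | zero =>
    rw [pow_zero, Nat.cast_zero, zero_mul]
    exact e_one
  | succ n ih =>
    rw [pow_succ]
    exact (ih.mul h).congr_exp (by push_cast; ring)

theorem E.prod {ι : Type*} (s : Finset ι) (f : ι → Om) (m : ℤ) (hf : ∀ i ∈ s, E A q (f i) m) :
    E A q (∏ i ∈ s, f i) (s.card * m) := by
  classical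
  induction s using Finset.induction_on with
  | empty =>
    rw [Finset.prod_empty, Finset.card_empty, Nat.cast_zero, zero_mul]
    exact e_one
  | insert a s ha ih =>
    rw [Finset.prod_insert ha, Finset.card_insert_of_notMem ha]
    exact ((hf a (Finset.mem_insert_self a s)).mul
      (ih fun i hi => hf i (Finset.mem_insert_of_mem hi))).congr_exp (by push_cast; ring)

theorem e_C_zpow (k : ℤ) : E A q (HahnSeries.C ((q : Kbar) ^ k) : Om) k := by
  unfold E
  rw [← map_mul, ← zpow_add₀ (cast_ne_zero' (q := q)), neg_add_cancel, zpow_zero, map_one]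
  exact isU_one

theorem E.qExpand {y : Om} {m : ℤ} (ℓ : ℕ) [NeZero ℓ] (h : E A q y m) :
    E A q (qExpand Kbar ℓ y) m := by
  have h1 := IsU.qExpand ℓ h
  rw [map_mul, qExpand_C] at h1
  exact h1

theorem E.scale {y : Om} {m : ℤ} (ζ : Kbarˣ) (hζ : (ζ : Kbar) - 1 ∈ A.nonunits)
    (h : E A q y m) : E A q (Fermat.Agent.S28.scale ζ y) m := by
  have h1 := IsU.scale ζ hζ h
  rw [map_mul, Fermat.Agent.S28.scale_C] at h1
  exact h1

/-- No nontrivial power of `q` is a unit. -/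
theorem zpow_eq_zero_of_val (hA : A.LiesOverPrime q) {k : ℤ}
    (hk : A.valuation ((q : Kbar) ^ k) = 1) : k = 0 := by
  have hq0 : (q : Kbar) ≠ 0 := cast_ne_zero'
  have hvq0 : A.valuation (q : Kbar) ≠ 0 := (Valuation.ne_zero_iff _).mpr hq0
  have hvqpos : 0 < A.valuation (q : Kbar) := zero_lt_iff.mpr hvq0
  have hvq : A.valuation (q : Kbar) < 1 := by
    have hA' : ((q : ℕ) : Kbar) ∈ A.nonunits := hA
    rwa [ValuationSubring.mem_nonunits_iff] at hA'
  rw [map_zpow₀] at hk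
  by_contra hne
  rcases lt_or_gt_of_ne hne with hlt | hgt
  · have := zpow_lt_zpow_right_of_lt_one₀ hvqpos hvq hlt
    rw [zpow_zero, hk] at this
    exact lt_irrefl _ this
  · have := zpow_lt_zpow_right_of_lt_one₀ hvqpos hvq hgt
    rw [zpow_zero, hk] at this
    exact lt_irrefl _ this

/-- The exponent is unique. -/
theorem E.unique (hA : A.LiesOverPrime q) {y : Om} {m m' : ℤ} (h : E A q y m)
    (h' : E A q y m') : m = m' := by
  have e : HahnSeries.C ((q : Kbar) ^ (-m')) * y =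
      HahnSeries.C ((q : Kbar) ^ (m - m')) * (HahnSeries.C ((q : Kbar) ^ (-m)) * y) := by
    rw [← mul_assoc, ← map_mul, ← zpow_add₀ (cast_ne_zero' (q := q))]
    congr 3
    ring
  have h1 : IsU A (HahnSeries.C ((q : Kbar) ^ (m - m')) *
      (HahnSeries.C ((q : Kbar) ^ (-m)) * y)) := e ▸ h'
  have h2 := zpow_eq_zero_of_val hA (val_eq_one_of_isU h h1)
  omega

/-- Saturation: the exponent of a power determines the exponent. -/
theorem E.of_pow (hA : A.LiesOverPrime q) {y : Om} {m m' : ℤ} {n : ℕ} (hn : n ≠ 0)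
    (h : E A q (y ^ n) (n * m)) (h' : E A q y m') : E A q y m := by
  have h1 := E.unique hA h (h'.pow n)
  have hn' : (n : ℤ) ≠ 0 := Nat.cast_ne_zero.mpr hn
  have h2 : m = m' := mul_left_cancel₀ hn' h1
  exact h2 ▸ h'

end Exponents

/-! ### Exponent triples on the frame -/

section Frame

variable {M q : ℕ} [NeZero M] [NeZero q] {h : Nat.Coprime M q} (A : ValuationSubring Kbar)
  (F : Plan.Frame M q h)

/-- The exponent triple of `x ∈ F_{Mq²}` in units of `v(q)`: at `∞`, at the middle coordinates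
(the exponent of `x ^ (q - 1)`), at `0`. -/
def HasExp (x : FN (M * q * q)) (m1 m2 m3 : ℤ) : Prop :=
  E A q (F.emb .inf x) m1 ∧ (∀ ξ : Plan.MidIdx q, E A q (F.emb (.mid ξ) x ^ (q - 1)) m2) ∧
    E A q (F.emb .zero x) m3

variable {A F}

/-- **(i)** a nonzero inertia-fixed function has an exponent triple. -/
theorem exists_hasExp (hq : q.Prime) (hA : A.LiesOverPrime q) (x : FN (M * q * q)) (hx0 : x ≠ 0)
    (hfix : Plan.IFix A (M * q * q) x) : ∃ m1 m2 m3 : ℤ, HasExp A F x m1 m2 m3 := by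
  obtain ⟨a, ha, ha'⟩ := K0ScaleFrame.exists_scale_inf A hq hA F x hx0 hfix
  obtain ⟨b, hb⟩ := K0ScaleFrame.exists_scale_mid_pow A hq hA F x hx0 hfix
  obtain ⟨c, hc, hc'⟩ := K0ScaleFrame.exists_scale_zero A hq hA F x hx0 hfix
  refine ⟨-a, -b, -c, ?_, fun ξ => ?_, ?_⟩
  · show IsU A (HahnSeries.C ((q : Kbar) ^ (-(-a))) * F.emb .inf x)
    rw [neg_neg]
    exact ⟨ha, ha'⟩
  · obtain ⟨h1, h2⟩ := hb ξ
    show IsU A (HahnSeries.C ((q : Kbar) ^ (-(-b))) * F.emb (.mid ξ) x ^ (q - 1))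
    rw [neg_neg]
    exact ⟨h1, h2⟩
  · show IsU A (HahnSeries.C ((q : Kbar) ^ (-(-c))) * F.emb .zero x)
    rw [neg_neg]
    exact ⟨hc, hc'⟩

theorem HasExp.ne_zero {x : FN (M * q * q)} {m1 m2 m3 : ℤ} (hx : HasExp A F x m1 m2 m3) :
    x ≠ 0 := by
  rintro rfl
  exact hx.1.ne_zero (map_zero _)

/-- A `q`-th root of unity is congruent to `1`. -/
theorem zeta_sub_one_mem (hq : q.Prime) (hA : A.LiesOverPrime q) (ζ : Kbarˣ) (hζ : ζ ^ q = 1) :
    (ζ : Kbar) - 1 ∈ A.nonunits := by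
  rw [ValuationSubring.mem_nonunits_iff]
  by_cases h1 : ζ = 1
  · rw [h1, Units.val_one, sub_self, map_zero]
    exact zero_lt_one
  · have h2 : orderOf ζ = q := by
      rcases (Nat.dvd_prime hq).mp (orderOf_dvd_of_pow_eq_one hζ) with h3 | h3
      · exact absurd (orderOf_eq_one_iff.mp h3) h1
      · exact h3
    have h4 : IsPrimitiveRoot ζ q := h2 ▸ IsPrimitiveRoot.orderOf ζ
    exact InertiaFieldZeta.val_zeta_sub_one_lt_one A q hq hA (ζ : Kbar)
      (IsPrimitiveRoot.coe_units_iff.mpr h4)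

/-- The exponents of a function whose expansions are those of `α (N_α x)`. -/
theorem hasExp_of_alpha_shape [Fintype (Plan.MidIdx q)] (hq : q.Prime) (hA : A.LiesOverPrime q)
    (ζ : Kbarˣ) (hζ : ζ ^ q = 1) (x X : FN (M * q * q)) (hX0 : X ≠ 0)
    (hXfix : Plan.IFix A (M * q * q) X)
    (e1 : F.emb .inf X = (x : Om) * ∏ ξ : Plan.MidIdx q, F.r ξ x)
    (e2 : ∀ ξ : Plan.MidIdx q, F.emb (.mid ξ) X = F.emb .inf X)
    (e3 : F.emb .zero X = ∏ b ∈ Finset.range q,
      Fermat.Agent.S28.scale (ζ ^ b) ((F.w x : FN (M * q * q)) : Om))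
    {m1 m2 m3 : ℤ} (hx : HasExp A F x m1 m2 m3) :
    HasExp A F X (m1 + m2) (((q : ℤ) - 1) * (m1 + m2)) ((q : ℤ) * m3) := by
  obtain ⟨h1, h2, h3⟩ := hx
  have hq1 : ((q - 1 : ℕ) : ℤ) = (q : ℤ) - 1 := by rw [Nat.cast_sub hq.one_le, Nat.cast_one]
  have hq1' : q - 1 ≠ 0 := by have := hq.two_le; omega
  have hx0 : (x : Om) ≠ 0 := h1.ne_zero
  have hP : E A q ((∏ ξ : Plan.MidIdx q, F.r ξ x) ^ (q - 1)) (((q - 1 : ℕ) : ℤ) * m2) := by
    have h4 := E.prod (A := A) (q := q) Finset.univ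
      (fun ξ : Plan.MidIdx q => F.r ξ x ^ (q - 1)) m2 (fun ξ _ => h2 ξ)
    rw [Finset.prod_pow, Finset.card_univ, CoordFin.fintype_card_midIdx hq] at h4
    exact h4
  obtain ⟨a, _, _, ha, -⟩ := exists_hasExp (F := F) hq hA X hX0 hXfix
  have hPa : E A q (∏ ξ : Plan.MidIdx q, F.r ξ x) (a - m1) := by
    have h5 := (ha.congr e1).mul h1.inv
    refine (h5.congr ?_).congr_exp (by ring)
    rw [Plan.Frame.emb_inf, mul_comm ((x : FN (M * q * q)) : Om), mul_assoc,
      mul_inv_cancel₀ hx0, mul_one]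
  have ha' : a = m1 + m2 := by
    have h7 := E.unique hA (hPa.pow (q - 1)) hP
    have h8 : a - m1 = m2 := mul_left_cancel₀ (Nat.cast_ne_zero.mpr hq1') h7
    omega
  subst ha'
  refine ⟨ha, fun ξ => ?_, ?_⟩
  · rw [e2 ξ]
    exact (ha.pow (q - 1)).congr_exp (by rw [hq1])
  · rw [e3]
    have h9 := E.prod (A := A) (q := q) (Finset.range q)
      (fun b => Fermat.Agent.S28.scale (ζ ^ b) ((F.w x : FN (M * q * q)) : Om)) m3
      (fun b _ => h3.scale (ζ ^ b) (zeta_sub_one_mem hq hA (ζ ^ b)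
        (by rw [← pow_mul, mul_comm, pow_mul, hζ, one_pow])))
    rw [Finset.card_range] at h9
    exact h9

/-- The exponents of a function whose expansions are those of `β (N_β x)`. -/
theorem hasExp_of_beta_shape [Fintype (Plan.MidIdx q)] (hq : q.Prime) (hA : A.LiesOverPrime q)
    (ζ : Kbarˣ) (hζ : ζ ^ q = 1) (x X : FN (M * q * q)) (hX0 : X ≠ 0)
    (hXfix : Plan.IFix A (M * q * q) X)
    (e1 : F.emb .inf X = ∏ b ∈ Finset.range q, Fermat.Agent.S28.scale (ζ ^ b) (x : Om))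
    (e2 : ∀ ξ : Plan.MidIdx q, F.emb (.mid ξ) X = Fermat.Agent.S28.scale ξ.1 (F.emb .zero X))
    (e3 : F.emb .zero X = ((F.w x : FN (M * q * q)) : Om) *
      ∏ ξ : Plan.MidIdx q, Fermat.Agent.S28.scale ξ.1 (F.r (FrameFinal.invMid ξ) x))
    {m1 m2 m3 : ℤ} (hx : HasExp A F x m1 m2 m3) :
    HasExp A F X ((q : ℤ) * m1) (((q : ℤ) - 1) * (m2 + m3)) (m2 + m3) := by
  obtain ⟨h1, h2, h3⟩ := hx
  have hq1 : ((q - 1 : ℕ) : ℤ) = (q : ℤ) - 1 := by rw [Nat.cast_sub hq.one_le, Nat.cast_one]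
  have hq1' : q - 1 ≠ 0 := by have := hq.two_le; omega
  have hw0 : ((F.w x : FN (M * q * q)) : Om) ≠ 0 := h3.ne_zero
  have hξ : ∀ ξ : Plan.MidIdx q, (ξ.1 : Kbar) - 1 ∈ A.nonunits := fun ξ =>
    zeta_sub_one_mem hq hA ξ.1 ξ.2.pow_eq_one
  have hP : E A q ((∏ ξ : Plan.MidIdx q,
      Fermat.Agent.S28.scale ξ.1 (F.r (FrameFinal.invMid ξ) x)) ^ (q - 1))
      (((q - 1 : ℕ) : ℤ) * m2) := by
    have h4 := E.prod (A := A) (q := q) Finset.univ
      (fun ξ : Plan.MidIdx q =>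
        Fermat.Agent.S28.scale ξ.1 (F.r (FrameFinal.invMid ξ) x) ^ (q - 1)) m2
      (fun ξ _ => ((h2 (FrameFinal.invMid ξ)).scale ξ.1 (hξ ξ)).congr (map_pow _ _ _))
    rw [Finset.prod_pow, Finset.card_univ, CoordFin.fintype_card_midIdx hq] at h4
    exact h4
  obtain ⟨_, _, c, -, -, hc⟩ := exists_hasExp (F := F) hq hA X hX0 hXfix
  have hPc : E A q (∏ ξ : Plan.MidIdx q,
      Fermat.Agent.S28.scale ξ.1 (F.r (FrameFinal.invMid ξ) x)) (c - m3) := by
    have h5 := (hc.congr e3).mul h3.inv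
    refine (h5.congr ?_).congr_exp (by ring)
    rw [Plan.Frame.emb_zero, mul_comm ((F.w x : FN (M * q * q)) : Om), mul_assoc,
      mul_inv_cancel₀ hw0, mul_one]
  have hc' : c = m2 + m3 := by
    have h7 := E.unique hA (hPc.pow (q - 1)) hP
    have h8 : c - m3 = m2 := mul_left_cancel₀ (Nat.cast_ne_zero.mpr hq1') h7
    omega
  subst hc'
  refine ⟨?_, fun ξ => ?_, hc⟩
  · rw [e1]
    have h9 := E.prod (A := A) (q := q) (Finset.range q)
      (fun b => Fermat.Agent.S28.scale (ζ ^ b) ((x : FN (M * q * q)) : Om)) m1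
      (fun b _ => h1.scale (ζ ^ b) (zeta_sub_one_mem hq hA (ζ ^ b)
        (by rw [← pow_mul, mul_comm, pow_mul, hζ, one_pow])))
    rw [Finset.card_range] at h9
    exact h9
  · rw [e2 ξ]
    exact ((hc.scale ξ.1 (hξ ξ)).pow (q - 1)).congr_exp (by rw [hq1])

end Frame

/-! ### (ii) The exponents of the norms and of the pull-backs -/

section Degeneracy

variable {A : ValuationSubring Kbar}

theorem iFix_alpha (L ℓ : ℕ) [NeZero L] [NeZero ℓ] {y : FN L} (hy : Plan.IFix A L y) :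
    Plan.IFix A (L * ℓ) (heckeAlphaBar Kbar L ℓ y) := fun τ hτ => by
  have h1 := Fermat.Agent.P5.GalHecke.intertwines_alpha L ℓ τ y
  have h2 : arithmeticGalois (modularFunctionFieldFull L) τ • y = y := hy τ hτ
  rw [h2] at h1
  exact h1

theorem iFix_beta (L ℓ : ℕ) [NeZero L] [NeZero ℓ] {y : FN L} (hy : Plan.IFix A L y) :
    Plan.IFix A (L * ℓ) (heckeBetaBar Kbar L ℓ y) := fun τ hτ => by
  have h1 := Fermat.Agent.P5.GalHecke.intertwines_beta L ℓ τ y
  have h2 : arithmeticGalois (modularFunctionFieldFull L) τ • y = y := hy τ hτ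
  rw [h2] at h1
  exact h1

variable (M q : ℕ) [NeZero M] [NeZero q]

/-- The norm along `α : F_{Mq} → F_{Mq²}` (the spelling of `S36/MidNorm`). -/
abbrev normA (x : FN (M * q * q)) : FN (M * q) :=
  @Algebra.norm (FN (M * q)) (FN (M * q * q)) _ _ (algebraAlong (heckeAlphaBar Kbar (M * q) q)) x

/-- The norm along `β : F_{Mq} → F_{Mq²}` (the spelling of `S36/MidNorm`). -/
abbrev normB (x : FN (M * q * q)) : FN (M * q) :=
  @Algebra.norm (FN (M * q)) (FN (M * q * q)) _ _ (algebraAlong (heckeBetaBar Kbar (M * q) q)) x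

variable {M q} {h : Nat.Coprime M q} {F : Plan.Frame M q h}

/-- **(ii), `α`**: the exponent triple of `α (N_α x)`. -/
theorem hasExp_alpha_norm (hq : q.Prime) (hA : A.LiesOverPrime q) (x : FN (M * q * q))
    (hfix : Plan.IFix A (M * q * q) x) {m1 m2 m3 : ℤ} (hx : HasExp A F x m1 m2 m3) :
    HasExp A F (heckeAlphaBar Kbar (M * q) q (normA M q x))
      (m1 + m2) (((q : ℤ) - 1) * (m1 + m2)) ((q : ℤ) * m3) := by
  letI := CoordFin.fintypeMidIdx q
  obtain ⟨ζ, hζ⟩ := CoordFin.exists_primitiveRoot q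
  have e1 : F.emb .inf (heckeAlphaBar Kbar (M * q) q (normA M q x)) =
      (x : Om) * ∏ ξ : Plan.MidIdx q, F.r ξ x := by
    rw [PullRed.emb_inf_alpha]
    exact MidNorm.coe_norm_alpha hq F x
  have e2 : ∀ ξ : Plan.MidIdx q, F.emb (.mid ξ) (heckeAlphaBar Kbar (M * q) q (normA M q x)) =
      F.emb .inf (heckeAlphaBar Kbar (M * q) q (normA M q x)) := fun ξ => by
    rw [PullRed.emb_mid_alpha, PullRed.emb_inf_alpha]
  have e3 : F.emb .zero (heckeAlphaBar Kbar (M * q) q (normA M q x)) =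
      ∏ b ∈ Finset.range q,
        Fermat.Agent.S28.scale (ζ ^ b) ((F.w x : FN (M * q * q)) : Om) := by
    rw [PullRed.emb_zero_alpha]
    have h1 := MidNorm.norm_beta_w F x
    have h2 := MidNorm.qExpand_norm_beta hq ζ hζ (F.w x)
    rw [h1] at h2
    exact h2
  have hX0 : heckeAlphaBar Kbar (M * q) q (normA M q x) ≠ 0 := by
    intro h0
    have h5 : F.emb .inf (heckeAlphaBar Kbar (M * q) q (normA M q x)) = 0 := by
      rw [h0, map_zero]
    rw [e1] at h5
    rcases mul_eq_zero.mp h5 with h6 | h6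
    · exact hx.1.ne_zero h6
    · obtain ⟨ξ, -, hξ0⟩ := Finset.prod_eq_zero_iff.mp h6
      refine (hx.2.1 ξ).ne_zero ?_
      show F.r ξ x ^ (q - 1) = 0
      rw [hξ0]
      exact zero_pow (by have := hq.two_le; omega)
  exact hasExp_of_alpha_shape hq hA ζ hζ.pow_eq_one x _ hX0
    (iFix_alpha (M * q) q (NormGal.iFix_norm_alpha A (M * q) q hfix)) e1 e2 e3 hx

/-- **(ii), `β`**: the exponent triple of `β (N_β x)`. -/
theorem hasExp_beta_norm (hq : q.Prime) (hA : A.LiesOverPrime q) (x : FN (M * q * q))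
    (hfix : Plan.IFix A (M * q * q) x) {m1 m2 m3 : ℤ} (hx : HasExp A F x m1 m2 m3) :
    HasExp A F (heckeBetaBar Kbar (M * q) q (normB M q x))
      ((q : ℤ) * m1) (((q : ℤ) - 1) * (m2 + m3)) (m2 + m3) := by
  letI := CoordFin.fintypeMidIdx q
  obtain ⟨ζ, hζ⟩ := CoordFin.exists_primitiveRoot q
  have e1 : F.emb .inf (heckeBetaBar Kbar (M * q) q (normB M q x)) =
      ∏ b ∈ Finset.range q, Fermat.Agent.S28.scale (ζ ^ b) (x : Om) := by
    rw [PullRed.emb_inf_beta]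
    exact MidNorm.qExpand_norm_beta hq ζ hζ x
  have e3 : F.emb .zero (heckeBetaBar Kbar (M * q) q (normB M q x)) =
      ((F.w x : FN (M * q * q)) : Om) *
        ∏ ξ : Plan.MidIdx q, Fermat.Agent.S28.scale ξ.1 (F.r (FrameFinal.invMid ξ) x) := by
    rw [PullRed.emb_zero_beta]
    exact MidNorm.coe_sigma_norm_beta hq F x
  have e2 : ∀ ξ : Plan.MidIdx q, F.emb (.mid ξ) (heckeBetaBar Kbar (M * q) q (normB M q x)) =
      Fermat.Agent.S28.scale ξ.1 (F.emb .zero (heckeBetaBar Kbar (M * q) q (normB M q x))) :=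
    fun ξ => by
      rw [PullRed.emb_mid_beta hq, PullRed.emb_zero_beta]
  have hX0 : heckeBetaBar Kbar (M * q) q (normB M q x) ≠ 0 := by
    intro h0
    have h5 : F.emb .zero (heckeBetaBar Kbar (M * q) q (normB M q x)) = 0 := by
      rw [h0, map_zero]
    rw [e3] at h5
    rcases mul_eq_zero.mp h5 with h6 | h6
    · exact hx.2.2.ne_zero h6
    · obtain ⟨ξ, -, hξ0⟩ := Finset.prod_eq_zero_iff.mp h6
      have h7 : F.r (FrameFinal.invMid ξ) x = 0 :=
        (Fermat.Agent.S28.scale ξ.1).injective (hξ0.trans (map_zero _).symm)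
      refine (hx.2.1 (FrameFinal.invMid ξ)).ne_zero ?_
      show F.r (FrameFinal.invMid ξ) x ^ (q - 1) = 0
      rw [h7]
      exact zero_pow (by have := hq.two_le; omega)
  exact hasExp_of_beta_shape hq hA ζ hζ.pow_eq_one x _ hX0
    (iFix_beta (M * q) q (NormGal.iFix_norm_beta A (M * q) q hfix)) e1 e2 e3 hx

/-- The exponent triple of `α y`, `y ∈ F_{Mq}` fixed by inertia. -/
theorem hasExp_alpha (hq : q.Prime) (hA : A.LiesOverPrime q) (y : FN (M * q)) (hy0 : y ≠ 0)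
    (hfix : Plan.IFix A (M * q) y) :
    ∃ d1 d2 : ℤ, HasExp A F (heckeAlphaBar Kbar (M * q) q y) d1 (((q : ℤ) - 1) * d1) d2 := by
  have hq1 : ((q - 1 : ℕ) : ℤ) = (q : ℤ) - 1 := by rw [Nat.cast_sub hq.one_le, Nat.cast_one]
  obtain ⟨d1, _, d2, h1, -, h3⟩ := exists_hasExp (F := F) hq hA (heckeAlphaBar Kbar (M * q) q y)
    ((map_ne_zero _).mpr hy0) (iFix_alpha (M * q) q hfix)
  refine ⟨d1, d2, h1, fun ξ => ?_, h3⟩
  have e2 : F.emb (.mid ξ) (heckeAlphaBar Kbar (M * q) q y) =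
      F.emb .inf (heckeAlphaBar Kbar (M * q) q y) := by
    rw [PullRed.emb_mid_alpha, PullRed.emb_inf_alpha]
  rw [e2]
  exact (h1.pow (q - 1)).congr_exp (by rw [hq1])

/-- The exponent triple of `β y`, `y ∈ F_{Mq}` fixed by inertia. -/
theorem hasExp_beta (hq : q.Prime) (hA : A.LiesOverPrime q) (y : FN (M * q)) (hy0 : y ≠ 0)
    (hfix : Plan.IFix A (M * q) y) :
    ∃ d1 d2 : ℤ, HasExp A F (heckeBetaBar Kbar (M * q) q y) d1 (((q : ℤ) - 1) * d2) d2 := by
  have hq1 : ((q - 1 : ℕ) : ℤ) = (q : ℤ) - 1 := by rw [Nat.cast_sub hq.one_le, Nat.cast_one]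
  obtain ⟨d1, _, d2, h1, -, h3⟩ := exists_hasExp (F := F) hq hA (heckeBetaBar Kbar (M * q) q y)
    ((map_ne_zero _).mpr hy0) (iFix_beta (M * q) q hfix)
  refine ⟨d1, d2, h1, fun ξ => ?_, h3⟩
  have e2 : F.emb (.mid ξ) (heckeBetaBar Kbar (M * q) q y) =
      Fermat.Agent.S28.scale ξ.1 (F.emb .zero (heckeBetaBar Kbar (M * q) q y)) := by
    rw [PullRed.emb_mid_beta hq, PullRed.emb_zero_beta]
  rw [e2]
  exact ((h3.scale ξ.1 (zeta_sub_one_mem hq hA ξ.1 ξ.2.pow_eq_one)).pow (q - 1)).congr_exp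
    (by rw [hq1])

end Degeneracy

/-! ### The norm of a Kummer function, with a given generator of the push-forward -/

section Generic

variable {K F F' : Type*} [Field K] [Field F] [Field F'] [Algebra K F] [Algebra K F']

/-- `S35.NormPush.norm_eq_const_mul_pow_along` with the generator `a` of the push-forward GIVEN:
if `div f = n • D₀` and `div a = φ_* D₀`, then `N_φ f = c · aⁿ` for a constant `c ≠ 0`. -/
theorem norm_eq_const_mul_pow_of [IsAlgClosed K] [CharZero K] [IsFF1 K F]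
    (φ : F →ₐ[K] F') (hφ : φ.toRingHom.IsIntegral) (hfin : FiniteAlong K φ)
    (hN : NormFormulaAlong K φ hfin)
    (D₀ : Divisor K F') (n : ℕ) (f : F') (hf : f ≠ 0)
    (hfD : ∀ P : Place K F', P.ord f = n * D₀ P)
    (a : F) (ha0 : a ≠ 0)
    (ha : ∀ v : Place K F, v.ord a = Divisor.pushforwardAlong φ hφ D₀ v) :
    ∃ c : K, c ≠ 0 ∧
      (@Algebra.norm F F' _ _ (algebraAlong φ) f : F) = algebraMap K F c * a ^ n := by
  letI := algebraAlong φ
  haveI := isScalarTower_along φ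
  haveI := isIntegral_along φ hφ
  haveI : Module.Finite F F' := hfin
  have hNf0 : Algebra.norm F f ≠ 0 := Algebra.norm_ne_zero_iff.mpr hf
  have hpow0 : a ^ n ≠ 0 := pow_ne_zero n ha0
  have h1 : ∀ v : Place K F, Divisor.pushforward F (n • D₀) v = v.ord (Algebra.norm F f) :=
    hN f hf (n • D₀) (fun w => by
      rw [hfD w, Finsupp.smul_apply, nsmul_eq_mul])
  have h2 : ∀ v : Place K F, v.ord (Algebra.norm F f * (a ^ n)⁻¹) = 0 := by
    intro v
    have e1 : Divisor.pushforward F (n • D₀) v = n * v.ord a := by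
      rw [map_nsmul, Finsupp.smul_apply, nsmul_eq_mul]
      congr 1
      exact (ha v).symm
    rw [Place.ord_mul v hNf0 (inv_ne_zero hpow0), Place.ord_inv,
      Fermat.Agent.S35.NormPush.ord_pow', ← h1 v, e1]
    ring
  obtain ⟨c, hc⟩ := Fermat.Agent.P5.Kappa.exists_const_of_ord_eq_zero h2
  refine ⟨c, ?_, ?_⟩
  · rintro rfl
    rw [map_zero] at hc
    exact mul_ne_zero hNf0 (inv_ne_zero hpow0) hc
  · rw [← hc, mul_assoc, inv_mul_cancel₀ hpow0, mul_one]

end Generic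

/-! ### Inertia-fixed functions -/

section IFix

variable {A : ValuationSubring Kbar}

theorem iFix_mul {N : ℕ} [NeZero N] {x y : FN N} (hx : Plan.IFix A N x) (hy : Plan.IFix A N y) :
    Plan.IFix A N (x * y) := fun τ hτ => by
  rw [smul_mul', hx τ hτ, hy τ hτ]

theorem iFix_pow {N : ℕ} [NeZero N] {x : FN N} (hx : Plan.IFix A N x) (n : ℕ) :
    Plan.IFix A N (x ^ n) := fun τ hτ => by
  rw [smul_pow', hx τ hτ]

theorem iFix_const (N : ℕ) [NeZero N] (q : ℕ) (k : ℤ) :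
    Plan.IFix A N (algebraMap Kbar (FN N) ((q : Kbar) ^ k)) := fun τ _ => by
  rw [SemilinearAut.smul_algebraMap]
  congr 1
  show τ ((q : Kbar) ^ k) = (q : Kbar) ^ k
  rw [map_zpow₀, map_natCast]

theorem iFix_of_coe_eq {N N' : ℕ} [NeZero N] [NeZero N'] {x : FN N} {y : FN N'}
    (hxy : (y : Om) = (x : Om)) (hx : Plan.IFix A N x) : Plan.IFix A N' y :=
  (NormGal.iFix_iff_fixed A N' y).2 (by
    rw [hxy]
    exact (NormGal.iFix_iff_fixed A N x).1 hx)

end IFix

/-! ### The junction -/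

section Junction

variable {M q : ℕ} [NeZero M] [NeZero q] {h : Nat.Coprime M q} {A : ValuationSubring Kbar}
  {F : Plan.Frame M q h}

theorem E.of_isU {y : Om} {k : ℤ} (hy : IsU A (HahnSeries.C ((q : Kbar) ^ k) * y)) :
    E A q y (-k) := by
  unfold E
  rw [neg_neg]
  exact hy

/-- The exponent of the constant in a relation `X = c · Yⁿ`. -/
theorem e_const_of_rel {X Y : Om} {c : Kbar} {n : ℕ} {a d : ℤ} (hX : E A q X a)
    (hY : E A q Y d) (hrel : X = HahnSeries.C c * Y ^ n) :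
    E A q (HahnSeries.C c : Om) (a - n * d) := by
  have h1 := hX.mul (hY.pow n).inv
  refine (h1.congr ?_).congr_exp (by ring)
  rw [hrel, mul_assoc, mul_inv_cancel₀ (pow_ne_zero n hY.ne_zero), mul_one]

/-- Comparing the exponents at `∞` and at `0` through a relation `X = c · Yⁿ` in `F_{Mq²}`: the
unknown constant drops out. -/
theorem congr_of_rel (hA : A.LiesOverPrime q) {X Y : FN (M * q * q)} {c : Kbar} {n : ℕ}
    {a1 a2 a3 d1 d2 d3 : ℤ} (hX : HasExp A F X a1 a2 a3) (hY : HasExp A F Y d1 d2 d3)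
    (hrel : X = algebraMap Kbar (FN (M * q * q)) c * Y ^ n) :
    a1 - n * d1 = a3 - n * d3 := by
  have e : ∀ i : Plan.Coord q, F.emb i X = HahnSeries.C c * F.emb i Y ^ n := fun i => by
    rw [hrel, map_mul, map_pow, AlgHom.commutes, algebraMap_LS_eq_C]
  exact E.unique hA (e_const_of_rel hX.1 hY.1 (e .inf)) (e_const_of_rel hX.2.2 hY.2.2 (e .zero))

variable (A F) in
/-- **(iii) as a hypothesis**: functions of level `N` with prescribed vertical exponents
`(k₁, k₂, 0)` (the shape of `S36/VNormH.exists_H_q`). -/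
def HStmt (N : ℕ) [NeZero N] : Prop :=
  ∀ k1 k2 : ℤ, ∃ (H : FN N) (H' : FN (M * q * q)), (H' : Om) = (H : Om) ∧ H ≠ 0 ∧
    Plan.IFix A N H ∧
    IsU A (HahnSeries.C ((q : Kbar) ^ k1) * F.emb .inf H') ∧
    (∀ ξ : Plan.MidIdx q, IsU A (HahnSeries.C ((q : Kbar) ^ k2) * F.emb (.mid ξ) H')) ∧
    IsU A (F.emb .zero H')

/-- Saturation at a middle coordinate: for an inertia-fixed function, a unit `(q - 1)`-th power
is a unit. -/
theorem isU_mid_of_pow (hq : q.Prime) (hA : A.LiesOverPrime q) (w : FN (M * q * q)) (hw0 : w ≠ 0)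
    (hwfix : Plan.IFix A (M * q * q) w) (ξ : Plan.MidIdx q)
    (hpow : IsU A (F.emb (.mid ξ) w ^ (q - 1))) : IsU A (F.emb (.mid ξ) w) := by
  obtain ⟨m, hm, hm'⟩ := K0ScaleFrame.exists_scale_mid_one A hq hA F w hw0 hwfix ξ
  have hξ' : IsPrimitiveRoot (ξ.1 : Kbar) q := IsPrimitiveRoot.coe_units_iff.mpr ξ.2
  have hπ0 : (ξ.1 : Kbar) - 1 ≠ 0 := InertiaFieldZeta.zeta_sub_one_ne_zero q hq _ hξ'
  have hπ1 : A.valuation ((ξ.1 : Kbar) - 1) < 1 :=
    InertiaFieldZeta.val_zeta_sub_one_lt_one A q hq hA _ hξ'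
  have hv0 : A.valuation ((ξ.1 : Kbar) - 1) ≠ 0 := (Valuation.ne_zero_iff _).mpr hπ0
  have hvpos : 0 < A.valuation ((ξ.1 : Kbar) - 1) := zero_lt_iff.mpr hv0
  have h1 : IsU A (HahnSeries.C ((((ξ.1 : Kbar) - 1) ^ m) ^ (q - 1)) *
      F.emb (.mid ξ) w ^ (q - 1)) := by
    have h2 := IsU.pow (⟨hm, hm'⟩ : IsU A (HahnSeries.C (((ξ.1 : Kbar) - 1) ^ m) *
      F.emb (.mid ξ) w)) (q - 1)
    rw [mul_pow, ← map_pow] at h2
    exact h2
  have h3 := val_eq_one_of_isU hpow h1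
  rw [map_pow, map_zpow₀] at h3
  have hq1' : q - 1 ≠ 0 := by have := hq.two_le; omega
  have h4 : A.valuation ((ξ.1 : Kbar) - 1) ^ m = 1 := by
    by_contra hne
    rcases lt_or_gt_of_ne hne with hlt | hgt
    · have := pow_lt_one₀ (zero_le) hlt hq1'
      exact absurd h3 (ne_of_lt this)
    · have := one_lt_pow₀ hgt hq1'
      exact absurd h3 (ne_of_gt this)
  have hm0 : m = 0 := by
    by_contra hne
    rcases lt_or_gt_of_ne hne with hlt | hgt
    · have := zpow_lt_zpow_right_of_lt_one₀ hvpos hπ1 hlt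
      rw [zpow_zero, h4] at this
      exact lt_irrefl _ this
    · have := zpow_lt_zpow_right_of_lt_one₀ hvpos hπ1 hgt
      rw [zpow_zero, h4] at this
      exact lt_irrefl _ this
  have e : HahnSeries.C (((ξ.1 : Kbar) - 1) ^ m) * F.emb (.mid ξ) w = F.emb (.mid ξ) w := by
    rw [hm0, zpow_zero, map_one, one_mul]
  exact e ▸ (⟨hm, hm'⟩ : IsU A (HahnSeries.C (((ξ.1 : Kbar) - 1) ^ m) * F.emb (.mid ξ) w))

/-- The push-forward along `α` of an inertia-stable divisor is inertia-stable. -/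
theorem push_alpha_stable (L ℓ : ℕ) [NeZero L] [NeZero ℓ] (D : Divisor Kbar (FN (L * ℓ)))
    (hst : ∀ τ : Kbar ≃ₐ[ℚ] Kbar, τ ∈ A.inertiaSubgroupIn ℚ → S34.Plan.gal (L * ℓ) τ • D = D)
    (τ : Kbar ≃ₐ[ℚ] Kbar) (hτ : τ ∈ A.inertiaSubgroupIn ℚ) :
    S34.Plan.gal L τ • Divisor.pushforwardAlong (heckeAlphaBar Kbar L ℓ)
        (Fermat.Agent.S37.HeckeInputs.heckeAlphaBarIntegral L ℓ) D =
      Divisor.pushforwardAlong (heckeAlphaBar Kbar L ℓ)
        (Fermat.Agent.S37.HeckeInputs.heckeAlphaBarIntegral L ℓ) D :=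
  (Fermat.Agent.Lib.CorrSemilinear.smul_pushforwardAlong (heckeAlphaBar Kbar L ℓ)
    (Fermat.Agent.S37.HeckeInputs.heckeAlphaBarIntegral L ℓ)
    (Fermat.Agent.P5.GalHecke.intertwines_alpha L ℓ τ) D).trans
    (congrArg _ (hst τ hτ))

/-- The push-forward along `β` of an inertia-stable divisor is inertia-stable. -/
theorem push_beta_stable (L ℓ : ℕ) [NeZero L] [NeZero ℓ] (D : Divisor Kbar (FN (L * ℓ)))
    (hst : ∀ τ : Kbar ≃ₐ[ℚ] Kbar, τ ∈ A.inertiaSubgroupIn ℚ → S34.Plan.gal (L * ℓ) τ • D = D)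
    (τ : Kbar ≃ₐ[ℚ] Kbar) (hτ : τ ∈ A.inertiaSubgroupIn ℚ) :
    S34.Plan.gal L τ • Divisor.pushforwardAlong (heckeBetaBar Kbar L ℓ)
        (Fermat.Agent.S37.HeckeInputs.heckeBetaBarIntegral L ℓ) D =
      Divisor.pushforwardAlong (heckeBetaBar Kbar L ℓ)
        (Fermat.Agent.S37.HeckeInputs.heckeBetaBarIntegral L ℓ) D :=
  (Fermat.Agent.Lib.CorrSemilinear.smul_pushforwardAlong (heckeBetaBar Kbar L ℓ)
    (Fermat.Agent.S37.HeckeInputs.heckeBetaBarIntegral L ℓ)
    (Fermat.Agent.P5.GalHecke.intertwines_beta L ℓ τ) D).trans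
    (congrArg _ (hst τ hτ))

/-- The expansion of `x ^ c · κ · H' ^ n` only depends on the expansions of `x`, `H'`. -/
theorem coe_data {N N' : ℕ} [NeZero N] [NeZero N'] (u H : FN N) (x H' : FN N')
    (hxu : (x : Om) = (u : Om)) (hH : (H' : Om) = (H : Om)) (c n : ℕ) (κ : Kbar) :
    ((x ^ c * algebraMap Kbar (FN N') κ * H' ^ n : FN N') : Om) =
      ((u ^ c * algebraMap Kbar (FN N) κ * H ^ n : FN N) : Om) := by
  rw [MulMemClass.coe_mul, MulMemClass.coe_mul, SubmonoidClass.coe_pow, SubmonoidClass.coe_pow,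
    MulMemClass.coe_mul, MulMemClass.coe_mul, SubmonoidClass.coe_pow, SubmonoidClass.coe_pow,
    hxu, hH]
  rfl

theorem ne_zero_of_coe_eq {N N' : ℕ} [NeZero N] [NeZero N'] {x : FN N} {y : FN N'}
    (hxy : (y : Om) = (x : Om)) (hx : x ≠ 0) : y ≠ 0 := by
  intro h0
  apply hx
  apply Subtype.ext
  rw [← hxy, h0]
  exact (ZeroMemClass.coe_zero _).trans (ZeroMemClass.coe_zero _).symm

/-- **[VNORM], the junction**: for a pair `(D, u)` at the divisor level `N₀ q²` there are an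
integer `k` and a function `H` of the divisor level, fixed by inertia, such that
`u ^ (q² - 1) · q ^ k · Hⁿ` is a unit at every coordinate of the frame (as an element `w` of the
top level `M q²`). -/
theorem exists_unit_data (hq : q.Prime) (hA : A.LiesOverPrime q) (N₀ : ℕ) [NeZero N₀]
    [NeZero (N₀ * q)] (hdiv : N₀ ∣ M) (hH : HStmt A F (N₀ * q * q))
    {D : Divisor Kbar (FN (N₀ * q * q))} {n : ℕ} {u : FN (N₀ * q * q)}
    (hP : Plan.PairData A (N₀ * q) q D n u) :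
    ∃ (k : ℤ) (H : FN (N₀ * q * q)) (w : FN (M * q * q)), H ≠ 0 ∧
      Plan.IFix A (N₀ * q * q) H ∧
      (w : Om) = ((u ^ (q ^ 2 - 1) * algebraMap Kbar (FN (N₀ * q * q)) ((q : Kbar) ^ k) * H ^ n :
        FN (N₀ * q * q)) : Om) ∧
      ∀ i : Plan.Coord q, ∃ h' : F.emb i w ∈ Ocal A, red A ⟨_, h'⟩ ≠ 0 := by
  have hqM : ¬ q ∣ M := FrameInst.not_dvd_of_coprime hq h
  have hle : modularFunctionFieldBar (N₀ * q * q) ≤ modularFunctionFieldBar (M * q * q) :=
    PullStep.bar_le (Nat.mul_dvd_mul_right (Nat.mul_dvd_mul_right hdiv q) q)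
  have hle' : modularFunctionFieldBar (N₀ * q) ≤ modularFunctionFieldBar (M * q) :=
    PullStep.bar_le (Nat.mul_dvd_mul_right hdiv q)
  haveI : IsFF1 Kbar (FN (N₀ * q)) := Fermat.Agent.S37.HeckeInputs.isFF1_FN (N₀ * q)
  -- inertia-fixed generators of the two push-forwards
  obtain ⟨a, ha0, haord, hafix⟩ := B2Plan.exists_fixed_generator (N₀ * q) A _ hP.stable.pushA
    (push_alpha_stable (N₀ * q) q D hP.stable.stable)
  obtain ⟨b, hb0, hbord, hbfix⟩ := B2Plan.exists_fixed_generator (N₀ * q) A _ hP.stable.pushB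
    (push_beta_stable (N₀ * q) q D hP.stable.stable)
  obtain ⟨c, hc0, hαrel⟩ := norm_eq_const_mul_pow_of (heckeAlphaBar Kbar (N₀ * q) q)
    (Fermat.Agent.S37.HeckeInputs.heckeAlphaBarIntegral (N₀ * q) q)
    (Fermat.Agent.S37.HeckeInputs.finiteAlong_alpha (N₀ * q) q)
    (Fermat.Agent.S37.HeckeInputs.normFormulaAlong_alpha (N₀ * q) q) D n u hP.ne hP.ord a ha0
    haord
  obtain ⟨c', hc0', hβrel⟩ := norm_eq_const_mul_pow_of (heckeBetaBar Kbar (N₀ * q) q)
    (Fermat.Agent.S37.HeckeInputs.heckeBetaBarIntegral (N₀ * q) q)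
    (Fermat.Agent.S37.HeckeInputs.finiteAlong_beta (N₀ * q) q)
    (Fermat.Agent.S37.HeckeInputs.normFormulaAlong_beta (N₀ * q) q) D n u hP.ne hP.ord b hb0
    hbord
  -- the copies at the top level
  obtain ⟨x, hxu⟩ : ∃ x : FN (M * q * q), (x : Om) = (u : Om) := ⟨⟨(u : Om), hle u.2⟩, rfl⟩
  obtain ⟨a', ha'⟩ : ∃ a' : FN (M * q), (a' : Om) = (a : Om) := ⟨⟨(a : Om), hle' a.2⟩, rfl⟩
  obtain ⟨b', hb'⟩ : ∃ b' : FN (M * q), (b' : Om) = (b : Om) := ⟨⟨(b : Om), hle' b.2⟩, rfl⟩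
  have hxfix : Plan.IFix A (M * q * q) x := iFix_of_coe_eq hxu hP.fix
  have ha'fix : Plan.IFix A (M * q) a' := iFix_of_coe_eq ha' hafix
  have hb'fix : Plan.IFix A (M * q) b' := iFix_of_coe_eq hb' hbfix
  have hx0 : x ≠ 0 := ne_zero_of_coe_eq hxu hP.ne
  have ha'0 : a' ≠ 0 := ne_zero_of_coe_eq ha' ha0
  have hb'0 : b' ≠ 0 := ne_zero_of_coe_eq hb' hb0
  have hαtop : normA M q x = algebraMap Kbar (FN (M * q)) c * a' ^ n :=
    NormBC.norm_alpha_top_eq_of N₀ M q hq hqM hdiv u a c n hαrel x hxu a' ha'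
  have hβtop : normB M q x = algebraMap Kbar (FN (M * q)) c' * b' ^ n :=
    NormBC.norm_beta_top_eq_of N₀ M q hq u b c' n hβrel x hxu b' hb'
  -- the exponents and the two congruences
  obtain ⟨m1, m2, m3, hx⟩ := exists_hasExp (F := F) hq hA x hx0 hxfix
  obtain ⟨d1, d2, hαa⟩ := hasExp_alpha (F := F) hq hA a' ha'0 ha'fix
  obtain ⟨e1, e2, hβb⟩ := hasExp_beta (F := F) hq hA b' hb'0 hb'fix
  have hαN := hasExp_alpha_norm (F := F) hq hA x hxfix hx
  have hβN := hasExp_beta_norm (F := F) hq hA x hxfix hx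
  have r1 : m1 + m2 - n * d1 = (q : ℤ) * m3 - n * d2 :=
    congr_of_rel hA hαN hαa (by rw [hαtop, map_mul, map_pow, AlgHom.commutes])
  have r2 : (q : ℤ) * m1 - n * e1 = m2 + m3 - n * e2 :=
    congr_of_rel hA hβN hβb (by rw [hβtop, map_mul, map_pow, AlgHom.commutes])
  have hα : m1 + m2 - (q : ℤ) * m3 = n * (d1 - d2) := by linarith
  have hβ : (q : ℤ) * m1 - m2 - m3 = n * (e1 - e2) := by linarith
  obtain ⟨a1, a2⟩ := VNorm.arith_core hα hβ
  -- the function with prescribed vertical exponents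
  obtain ⟨H, H', hHcoe, hH0, hHfix, hH1, hH2, hH3⟩ :=
    hH (((q : ℤ) - 1) * ((d1 - d2) + (e1 - e2))) ((q : ℤ) * (d1 - d2) - (e1 - e2))
  have hH'fix : Plan.IFix A (M * q * q) H' := iFix_of_coe_eq hHcoe hHfix
  have hH'0 : H' ≠ 0 := ne_zero_of_coe_eq hHcoe hH0
  have hq2 : 1 ≤ q ^ 2 := Nat.one_le_pow _ _ hq.pos
  have hNc : ((q ^ 2 - 1 : ℕ) : ℤ) = (q : ℤ) ^ 2 - 1 := by
    rw [Nat.cast_sub hq2]
    push_cast
    ring
  have hq1 : ((q - 1 : ℕ) : ℤ) = (q : ℤ) - 1 := by rw [Nat.cast_sub hq.one_le, Nat.cast_one]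
  set k : ℤ := -(((q : ℤ) ^ 2 - 1) * m3) with hk
  set w : FN (M * q * q) :=
    x ^ (q ^ 2 - 1) * algebraMap Kbar (FN (M * q * q)) ((q : Kbar) ^ k) * H' ^ n with hw
  have hwfix : Plan.IFix A (M * q * q) w :=
    iFix_mul (iFix_mul (iFix_pow hxfix _) (iFix_const _ q k)) (iFix_pow hH'fix _)
  have hw0 : w ≠ 0 :=
    mul_ne_zero (mul_ne_zero (pow_ne_zero _ hx0)
      ((map_ne_zero _).mpr (zpow_ne_zero k (cast_ne_zero' (q := q))))) (pow_ne_zero _ hH'0)
  have hemb : ∀ i : Plan.Coord q, F.emb i w =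
      F.emb i x ^ (q ^ 2 - 1) * HahnSeries.C ((q : Kbar) ^ k) * F.emb i H' ^ n := fun i => by
    rw [hw, map_mul, map_mul, map_pow, map_pow, AlgHom.commutes, algebraMap_LS_eq_C]
  refine ⟨k, H, w, hH0, hHfix, ?_, ?_⟩
  · rw [hw]
    exact coe_data u H x H' hxu hHcoe _ _ _
  · intro i
    cases i with
    | inf =>
      have h1 := ((hx.1.pow (q ^ 2 - 1)).mul (e_C_zpow (A := A) (q := q) k)).mul
        ((E.of_isU hH1).pow n)
      have h2 : E A q (F.emb .inf w) 0 := by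
        refine ((h1.congr (hemb .inf).symm)).congr_exp ?_
        rw [hNc, hk]
        linear_combination a1
      exact isU_iff_E_zero.mp h2
    | zero =>
      have h1 := ((hx.2.2.pow (q ^ 2 - 1)).mul (e_C_zpow (A := A) (q := q) k)).mul
        ((isU_iff_E_zero.mpr hH3).pow n)
      have h2 : E A q (F.emb .zero w) 0 := by
        refine ((h1.congr (hemb .zero).symm)).congr_exp ?_
        rw [hNc, hk]
        ring
      exact isU_iff_E_zero.mp h2
    | mid ξ =>
      have h1 := (((hx.2.1 ξ).pow (q ^ 2 - 1)).mul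
        ((e_C_zpow (A := A) (q := q) k).pow (q - 1))).mul
        (((E.of_isU (hH2 ξ)).pow n).pow (q - 1))
      have h2 : E A q (F.emb (.mid ξ) w ^ (q - 1)) 0 := by
        refine (h1.congr ?_).congr_exp ?_
        · rw [hemb (.mid ξ)]
          ring
        · rw [hNc, hq1, hk]
          linear_combination a2
      exact isU_mid_of_pow hq hA w hw0 hwfix ξ (isU_iff_E_zero.mp h2)

end Junction

end Fermat.Agent.S36.VNormCore

end
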