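import Mathlib
import Fermat.Agent.S36.OneComp
import Fermat.Agent.S36.K0ScaleFrame
import Fermat.Agent.S36.MidRed
import Fermat.Agent.S36.EmbFrame
import Fermat.Agent.S36.SetupQ2
import Fermat.Agent.S18.RR0.Tower

/-!
# S36 / P8 — [VNORM], piece (iii): functions with prescribed vertical values, in the frame
(helper95)

`A` a valuation subring of `Q̄` over the prime `q`, `F : Plan.Frame M q h` the level-`q²` frame.

* `UnitAt A x`    : `x ∈ Ocal A` with nonzero reduction ("`x` is a unit at the coordinate");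
                    closed under products, inverses, powers (`UnitAt.mul/inv/pow/zpow`);
* `eq_zero_of_unitAt_mul` : uniqueness of the exponent (`y` and `C (c ^ m) * y` both units, with
                    `0 < v c < 1`, force `m = 0`);
* `exists_H`      : for all integers `k₁ k₂` a function `H` of level `N` (`q² ∣ N ∣ M q²`), fixed
                    by all of `Gal(Q̄/ℚ)`, with `q^k₁ · ε_∞ H`, `(ξ - 1)^k₂ · ε_ξ H` (all `ξ`) and
                    `ε_0 H` units;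
* `exists_H_q`    : the same with `q^k₂ · ε_ξ H` at the middle coordinates (the hypothesis `hH` of
                    `VNorm.exists_normalised`).

Construction: `H₁ := q · z_∞ + z_mid² + z_0²` (one-component elements of `S36/OneComp`) has
values `(1, 0, 0)`, `X := j - j_{q²}` has values `(0, v(ξ - 1), 0)`, `H := H₁^(-k₁) · X^(-k₂)`.
-/

set_option autoImplicit false
set_option linter.unusedSectionVars false
set_option linter.style.haveILetI false
set_option synthInstance.maxHeartbeats 400000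
set_option maxHeartbeats 1600000

noncomputable section

namespace Fermat.Agent.S36.VNormH

open ModularCurve AlgebraicCurve Fermat.Agent.S24 Fermat.Agent.S18 Fermat.Agent.S18.Content
  Fermat.Agent.S18.Plan Fermat.Agent.S34

/-! ## Units and non-units at a coordinate -/

section UnitAt

variable (A : ValuationSubring Kbar)

/-- `x` is integral with nonzero reduction. -/
def UnitAt (x : Om) : Prop := ∃ h : x ∈ Ocal A, red A ⟨x, h⟩ ≠ 0

/-- `x` is integral with zero reduction. -/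
def ZeroAt (x : Om) : Prop := ∃ h : x ∈ Ocal A, red A ⟨x, h⟩ = 0

variable {A}

theorem unitAt_iff (x : Om) : UnitAt A x ↔ ∃ h : x ∈ Ocal A, red A ⟨x, h⟩ ≠ 0 := Iff.rfl

theorem zeroAt_iff (x : Om) : ZeroAt A x ↔ ∃ h : x ∈ Ocal A, red A ⟨x, h⟩ = 0 := Iff.rfl

theorem UnitAt.congr {x y : Om} (hx : UnitAt A x) (h : x = y) : UnitAt A y := h ▸ hx

theorem ZeroAt.congr {x y : Om} (hx : ZeroAt A x) (h : x = y) : ZeroAt A y := h ▸ hx

theorem UnitAt.mem {x : Om} (hx : UnitAt A x) : x ∈ Ocal A := hx.1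

theorem ZeroAt.mem {x : Om} (hx : ZeroAt A x) : x ∈ Ocal A := hx.1

theorem UnitAt.ne_zero {x : Om} (hx : UnitAt A x) : x ≠ 0 := by
  obtain ⟨hx, hx'⟩ := hx
  exact ne_zero_of_red_ne_zero A ⟨x, hx⟩ hx'

theorem unitAt_one : UnitAt A (1 : Om) := by
  refine ⟨(Ocal A).one_mem, ?_⟩
  have e : (⟨1, (Ocal A).one_mem⟩ : Ocal A) = 1 := rfl
  rw [e, map_one]
  exact one_ne_zero

theorem UnitAt.mul {x y : Om} (hx : UnitAt A x) (hy : UnitAt A y) : UnitAt A (x * y) := by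
  obtain ⟨hx, hx'⟩ := hx
  obtain ⟨hy, hy'⟩ := hy
  refine ⟨(Ocal A).mul_mem hx hy, ?_⟩
  have e : (⟨x * y, (Ocal A).mul_mem hx hy⟩ : Ocal A) = ⟨x, hx⟩ * ⟨y, hy⟩ := rfl
  rw [e, map_mul]
  exact mul_ne_zero hx' hy'

theorem UnitAt.inv {x : Om} (hx : UnitAt A x) : UnitAt A x⁻¹ := by
  obtain ⟨hx, hx'⟩ := hx
  refine ⟨inv_mem_Ocal A ⟨x, hx⟩ hx', ?_⟩
  rw [red_inv A ⟨x, hx⟩ hx']
  exact inv_ne_zero hx'

theorem UnitAt.pow {x : Om} (hx : UnitAt A x) (n : ℕ) : UnitAt A (x ^ n) := by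
  induction n with
  | zero => rw [pow_zero]; exact unitAt_one
  | succ n ih => rw [pow_succ]; exact ih.mul hx

theorem UnitAt.zpow {x : Om} (hx : UnitAt A x) (n : ℤ) : UnitAt A (x ^ n) := by
  cases n with
  | ofNat n => rw [Int.ofNat_eq_natCast, zpow_natCast]; exact hx.pow n
  | negSucc n => rw [zpow_negSucc]; exact (hx.pow (n + 1)).inv

theorem UnitAt.neg {x : Om} (hx : UnitAt A x) : UnitAt A (-x) := by
  obtain ⟨hx, hx'⟩ := hx
  refine ⟨(Ocal A).neg_mem hx, ?_⟩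
  have e : (⟨-x, (Ocal A).neg_mem hx⟩ : Ocal A) = -⟨x, hx⟩ := rfl
  rw [e, map_neg]
  exact neg_ne_zero.mpr hx'

/-- A unit plus a non-unit is a unit. -/
theorem UnitAt.add_zeroAt {x y : Om} (hx : UnitAt A x) (hy : ZeroAt A y) : UnitAt A (x + y) := by
  obtain ⟨hx, hx'⟩ := hx
  obtain ⟨hy, hy'⟩ := hy
  refine ⟨(Ocal A).add_mem hx hy, ?_⟩
  have e : (⟨x + y, (Ocal A).add_mem hx hy⟩ : Ocal A) = ⟨x, hx⟩ + ⟨y, hy⟩ := rfl
  rw [e, map_add, hy', add_zero]
  exact hx'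

theorem ZeroAt.add {x y : Om} (hx : ZeroAt A x) (hy : ZeroAt A y) : ZeroAt A (x + y) := by
  obtain ⟨hx, hx'⟩ := hx
  obtain ⟨hy, hy'⟩ := hy
  refine ⟨(Ocal A).add_mem hx hy, ?_⟩
  have e : (⟨x + y, (Ocal A).add_mem hx hy⟩ : Ocal A) = ⟨x, hx⟩ + ⟨y, hy⟩ := rfl
  rw [e, map_add, hx', hy', add_zero]

/-- A non-unit times an integral element is a non-unit. -/
theorem ZeroAt.mul_mem {x y : Om} (hx : ZeroAt A x) (hy : y ∈ Ocal A) : ZeroAt A (x * y) := by
  obtain ⟨hx, hx'⟩ := hx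
  refine ⟨(Ocal A).mul_mem hx hy, ?_⟩
  have e : (⟨x * y, (Ocal A).mul_mem hx hy⟩ : Ocal A) = ⟨x, hx⟩ * ⟨y, hy⟩ := rfl
  rw [e, map_mul, hx', zero_mul]

theorem ZeroAt.mem_mul {x y : Om} (hy : y ∈ Ocal A) (hx : ZeroAt A x) : ZeroAt A (y * x) :=
  (hx.mul_mem hy).congr (mul_comm x y)

theorem ZeroAt.pow {x : Om} (hx : ZeroAt A x) {n : ℕ} (hn : n ≠ 0) : ZeroAt A (x ^ n) := by
  obtain ⟨m, rfl⟩ := Nat.exists_eq_succ_of_ne_zero hn
  rw [pow_succ]
  exact ZeroAt.mem_mul ((Ocal A).pow_mem hx.mem m) hx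

/-- Integral elements are units or non-units. -/
theorem unitAt_or_zeroAt {x : Om} (hx : x ∈ Ocal A) : UnitAt A x ∨ ZeroAt A x := by
  by_cases h : red A ⟨x, hx⟩ = 0
  · exact Or.inr ⟨hx, h⟩
  · exact Or.inl ⟨hx, h⟩

/-! ### Constants -/

/-- A constant of valuation `1` is a unit. -/
theorem unitAt_C {c : Kbar} (hc : A.valuation c = 1) : UnitAt A (HahnSeries.C c : Om) := by
  have hcA : c ∈ A := (A.valuation_le_one_iff _).mp hc.le
  have hcu : IsUnit (⟨c, hcA⟩ : A) := (A.valuation_eq_one_iff _).mpr hc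
  refine ⟨C_mem_Ocal A hcA, ?_⟩
  rw [red_C A hcA]
  intro h0
  have h1 : IsLocalRing.residue A ⟨c, hcA⟩ = 0 := HahnSeries.C_injective (by rw [h0, map_zero])
  exact ((IsLocalRing.mem_maximalIdeal _).mp ((IsLocalRing.residue_eq_zero_iff _).mp h1)) hcu

/-- A constant of valuation `< 1` is a non-unit. -/
theorem zeroAt_C {c : Kbar} (hc : A.valuation c < 1) : ZeroAt A (HahnSeries.C c : Om) := by
  have hcA : c ∈ A := (A.valuation_le_one_iff _).mp hc.le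
  refine ⟨C_mem_Ocal A hcA, ?_⟩
  rw [red_C A hcA]
  have h1 : IsLocalRing.residue A ⟨c, hcA⟩ = 0 := by
    rw [IsLocalRing.residue_eq_zero_iff, IsLocalRing.mem_maximalIdeal, mem_nonunits_iff]
    intro hu
    have := (A.valuation_eq_one_iff _).mp hu
    exact absurd this (ne_of_lt hc)
  rw [h1, map_zero]

/-- A constant which is a unit at a coordinate has valuation `1`. -/
theorem val_eq_one_of_unitAt_C {c : Kbar} (h : UnitAt A (HahnSeries.C c : Om)) :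
    A.valuation c = 1 := by
  obtain ⟨hmem, hred⟩ := h
  have hcA : c ∈ A := (C_mem_Ocal_iff A c).mp hmem
  rw [red_congr A rfl hmem (C_mem_Ocal A hcA), red_C A hcA] at hred
  have hres : IsLocalRing.residue A ⟨c, hcA⟩ ≠ 0 := fun h0 => hred (by rw [h0, map_zero])
  have hu : IsUnit (⟨c, hcA⟩ : A) := by
    by_contra hnu
    exact hres ((IsLocalRing.residue_eq_zero_iff _).mpr ((IsLocalRing.mem_maximalIdeal _).mpr hnu))
  exact (A.valuation_eq_one_iff _).mp hu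

/-- `v (c ^ m) = 1` with `0 < v c < 1` forces `m = 0`. -/
theorem zpow_eq_zero_of_val {c : Kbar} (hc : A.valuation c < 1) (hc0 : c ≠ 0) {m : ℤ}
    (h : A.valuation (c ^ m) = 1) : m = 0 := by
  rw [map_zpow₀] at h
  have hv0 : 0 < A.valuation c := zero_lt_iff.mpr ((Valuation.ne_zero_iff _).mpr hc0)
  rcases lt_trichotomy m 0 with hlt | h0 | hgt
  · have h1 := zpow_lt_zpow_right_of_lt_one₀ hv0 hc hlt
    rw [zpow_zero, h] at h1
    exact absurd h1 (lt_irrefl _)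
  · exact h0
  · have h1 := zpow_lt_zpow_right_of_lt_one₀ hv0 hc hgt
    rw [zpow_zero, h] at h1
    exact absurd h1 (lt_irrefl _)

/-- **Uniqueness of the exponent.** -/
theorem eq_zero_of_unitAt_mul {c : Kbar} (hc : A.valuation c < 1) (hc0 : c ≠ 0) {y : Om} {m : ℤ}
    (hy : UnitAt A y) (h : UnitAt A (HahnSeries.C (c ^ m) * y)) : m = 0 := by
  have h1 : UnitAt A (HahnSeries.C (c ^ m) : Om) := by
    refine (h.mul hy.inv).congr ?_
    rw [mul_assoc, mul_inv_cancel₀ hy.ne_zero, mul_one]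
  exact zpow_eq_zero_of_val hc hc0 (val_eq_one_of_unitAt_C h1)

/-- Nonnegative powers of an element of `A` are in `A`. -/
theorem zpow_mem_of_nonneg {c : Kbar} (hc : c ∈ A) {m : ℤ} (hm : 0 ≤ m) : c ^ m ∈ A := by
  obtain ⟨n, rfl⟩ := Int.eq_ofNat_of_zero_le hm
  rw [zpow_natCast]
  exact A.pow_mem hc n

/-- **Divisibility**: if some `c ^ m · x` is a unit (`v c < 1`) and `x` is a non-unit, then
`c⁻¹ · x` is integral. -/
theorem C_inv_mul_mem_of_zeroAt {c : Kbar} (hc : A.valuation c < 1) (hc0 : c ≠ 0) {x : Om}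
    {m : ℤ} (hm : UnitAt A (HahnSeries.C (c ^ m) * x)) (hx : ZeroAt A x) :
    HahnSeries.C c⁻¹ * x ∈ Ocal A := by
  have hcA : c ∈ A := (A.valuation_le_one_iff _).mp hc.le
  have hm' : m < 0 := by
    by_contra hcon
    rw [not_lt] at hcon
    have h1 : ZeroAt A (HahnSeries.C (c ^ m) * x) :=
      ZeroAt.mem_mul (C_mem_Ocal A (zpow_mem_of_nonneg hcA hcon)) hx
    obtain ⟨h2, h3⟩ := hm
    obtain ⟨h4, h5⟩ := h1
    exact h3 h5
  have e : HahnSeries.C c⁻¹ * x = HahnSeries.C (c ^ (-1 - m)) * (HahnSeries.C (c ^ m) * x) := by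
    rw [← mul_assoc, ← map_mul, ← zpow_add₀ hc0]
    congr 2
    rw [show -1 - m + m = -1 by ring, zpow_neg_one]
  rw [e]
  exact (Ocal A).mul_mem (C_mem_Ocal A (zpow_mem_of_nonneg hcA (by omega))) hm.mem

end UnitAt

/-! ## The frame -/

section Frame

variable {A : ValuationSubring Kbar} {M q : ℕ} [NeZero M] [NeZero q] {h : Nat.Coprime M q}

theorem val_q_lt_one (hA : A.LiesOverPrime q) : A.valuation (q : Kbar) < 1 := by
  have hA' : ((q : ℕ) : Kbar) ∈ A.nonunits := hA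
  rwa [ValuationSubring.mem_nonunits_iff] at hA'

theorem q_ne_zero' (hq : q.Prime) : (q : Kbar) ≠ 0 := Nat.cast_ne_zero.mpr hq.ne_zero

/-- **Divisibility by `q` at `∞`**: an inertia-fixed function whose `∞`-expansion is a non-unit
has `∞`-expansion divisible by `q`. -/
theorem div_q_inf (hq : q.Prime) (hA : A.LiesOverPrime q) (F : Plan.Frame M q h)
    (x : FN (M * q * q))
    (hfix : ∀ τ : Kbar ≃ₐ[ℚ] Kbar, τ ∈ A.inertiaSubgroupIn ℚ →
      S34.Plan.gal (M * q * q) τ • x = x)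
    (hx : ZeroAt A (F.emb .inf x)) :
    HahnSeries.C ((q : Kbar)⁻¹) * F.emb .inf x ∈ Ocal A := by
  by_cases hx0 : x = 0
  · rw [hx0, map_zero, mul_zero]
    exact (Ocal A).zero_mem
  · obtain ⟨m, hm⟩ := K0ScaleFrame.exists_scale_inf A hq hA F x hx0 hfix
    exact C_inv_mul_mem_of_zeroAt (val_q_lt_one hA) (q_ne_zero' hq) hm hx

/-- **Divisibility by `q` at `0`.** -/
theorem div_q_zero (hq : q.Prime) (hA : A.LiesOverPrime q) (F : Plan.Frame M q h)
    (x : FN (M * q * q))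
    (hfix : ∀ τ : Kbar ≃ₐ[ℚ] Kbar, τ ∈ A.inertiaSubgroupIn ℚ →
      S34.Plan.gal (M * q * q) τ • x = x)
    (hx : ZeroAt A (F.emb .zero x)) :
    HahnSeries.C ((q : Kbar)⁻¹) * F.emb .zero x ∈ Ocal A := by
  by_cases hx0 : x = 0
  · rw [hx0, map_zero, mul_zero]
    exact (Ocal A).zero_mem
  · obtain ⟨m, hm⟩ := K0ScaleFrame.exists_scale_zero A hq hA F x hx0 hfix
    exact C_inv_mul_mem_of_zeroAt (val_q_lt_one hA) (q_ne_zero' hq) hm hx

/-! ### The one-component elements at the top level -/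

/-- `z_∞` at the top level. -/
theorem emb_zInf (hq : q.Prime) (hA : A.LiesOverPrime q) (F : Plan.Frame M q h) :
    UnitAt A (F.emb .inf (OneComp.zInf (M * q * q) q (Emb.qq_dvd_level M q))) ∧
      ZeroAt A (F.emb .zero (OneComp.zInf (M * q * q) q (Emb.qq_dvd_level M q))) ∧
      ∀ ξ : Plan.MidIdx q,
        ZeroAt A (F.emb (.mid ξ) (OneComp.zInf (M * q * q) q (Emb.qq_dvd_level M q))) := by
  have hS := SetupQ2.isSetup A F
  have hmem := OneComp.zInf_mem (M * q * q) (Emb.qq_dvd_level M q) hq hA hS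
  have hi := (hS.mem_iff _).mp hmem
  refine ⟨⟨hi .inf, ?_⟩, ⟨hi .zero, ?_⟩, fun ξ => ⟨hi (.mid ξ), ?_⟩⟩
  · rw [← hS.ρ_apply _ hmem .inf (hi .inf)]
    exact OneComp.rho_zInf_inf_ne (M * q * q) (Emb.qq_dvd_level M q) hq hA hS
  · rw [← hS.ρ_apply _ hmem .zero (hi .zero)]
    exact OneComp.rho_zInf_zero (M * q * q) (Emb.qq_dvd_level M q) hq hA hS
  · rw [← hS.ρ_apply _ hmem (.mid ξ) (hi (.mid ξ))]
    exact OneComp.rho_zInf_mid (M * q * q) (Emb.qq_dvd_level M q) hq hA hS ξ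

/-- `z_0` at the top level. -/
theorem emb_zZero (hq : q.Prime) (hA : A.LiesOverPrime q) (F : Plan.Frame M q h) :
    ZeroAt A (F.emb .inf (OneComp.zZero (M * q * q) q (Emb.qq_dvd_level M q))) ∧
      UnitAt A (F.emb .zero (OneComp.zZero (M * q * q) q (Emb.qq_dvd_level M q))) ∧
      ∀ ξ : Plan.MidIdx q,
        ZeroAt A (F.emb (.mid ξ) (OneComp.zZero (M * q * q) q (Emb.qq_dvd_level M q))) := by
  have hS := SetupQ2.isSetup A F
  have hmem := OneComp.zZero_mem (M * q * q) (Emb.qq_dvd_level M q) hq hA hS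
  have hi := (hS.mem_iff _).mp hmem
  refine ⟨⟨hi .inf, ?_⟩, ⟨hi .zero, ?_⟩, fun ξ => ⟨hi (.mid ξ), ?_⟩⟩
  · rw [← hS.ρ_apply _ hmem .inf (hi .inf)]
    exact OneComp.rho_zZero_inf (M * q * q) (Emb.qq_dvd_level M q) hq hA hS
  · rw [← hS.ρ_apply _ hmem .zero (hi .zero)]
    exact OneComp.rho_zZero_zero_ne (M * q * q) (Emb.qq_dvd_level M q) hq hA hS
  · rw [← hS.ρ_apply _ hmem (.mid ξ) (hi (.mid ξ))]
    exact OneComp.rho_zZero_mid (M * q * q) (Emb.qq_dvd_level M q) hq hA hS ξ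

/-- `z_mid` at the top level. -/
theorem emb_zMid (hq : q.Prime) (hA : A.LiesOverPrime q) (F : Plan.Frame M q h) :
    ZeroAt A (F.emb .inf (OneComp.zMid (M * q * q) q (Emb.qq_dvd_level M q))) ∧
      ZeroAt A (F.emb .zero (OneComp.zMid (M * q * q) q (Emb.qq_dvd_level M q))) ∧
      ∀ ξ : Plan.MidIdx q,
        UnitAt A (F.emb (.mid ξ) (OneComp.zMid (M * q * q) q (Emb.qq_dvd_level M q))) := by
  have hS := SetupQ2.isSetup A F
  have hmem := OneComp.zMid_mem (M * q * q) (Emb.qq_dvd_level M q) hq hA hS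
  have hi := (hS.mem_iff _).mp hmem
  refine ⟨⟨hi .inf, ?_⟩, ⟨hi .zero, ?_⟩, fun ξ => ⟨hi (.mid ξ), ?_⟩⟩
  · rw [← hS.ρ_apply _ hmem .inf (hi .inf)]
    exact OneComp.rho_zMid_inf (M * q * q) (Emb.qq_dvd_level M q) hq hA hS
  · rw [← hS.ρ_apply _ hmem .zero (hi .zero)]
    exact OneComp.rho_zMid_zero (M * q * q) (Emb.qq_dvd_level M q) hq hA hS
  · rw [← hS.ρ_apply _ hmem (.mid ξ) (hi (.mid ξ))]
    exact OneComp.rho_zMid_mid_ne (M * q * q) (Emb.qq_dvd_level M q) hq hA hS ξ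

/-! ### `H₁ = q · z_∞ + z_mid² + z_0²` at the top level: values `(1, 0, 0)` -/

/-- `H₁` at the level `N`. -/
def H1 (N q : ℕ) [NeZero N] [NeZero q] (hqq : q * q ∣ N) : FN N :=
  algebraMap Kbar (FN N) (q : Kbar) * OneComp.zInf N q hqq + OneComp.zMid N q hqq ^ 2 +
    OneComp.zZero N q hqq ^ 2

theorem gal_smul_natCast (N : ℕ) [NeZero N] (τ : Kbar ≃ₐ[ℚ] Kbar) (n : ℕ) :
    S34.Plan.gal N τ • algebraMap Kbar (FN N) (n : Kbar) = algebraMap Kbar (FN N) (n : Kbar) := by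
  rw [SemilinearAut.smul_algebraMap]
  congr 1
  exact map_natCast τ n

theorem gal_smul_H1 (N q : ℕ) [NeZero N] [NeZero q] (hqq : q * q ∣ N) (τ : Kbar ≃ₐ[ℚ] Kbar) :
    S34.Plan.gal N τ • H1 N q hqq = H1 N q hqq := by
  rw [H1, smul_add, smul_add, smul_mul', smul_pow', smul_pow', gal_smul_natCast,
    OneComp.gal_smul_zInf, OneComp.gal_smul_zMid, OneComp.gal_smul_zZero]

theorem emb_H1 (F : Plan.Frame M q h) (i : Plan.Coord q) :
    F.emb i (H1 (M * q * q) q (Emb.qq_dvd_level M q)) =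
      HahnSeries.C (q : Kbar) * F.emb i (OneComp.zInf (M * q * q) q (Emb.qq_dvd_level M q)) +
        F.emb i (OneComp.zMid (M * q * q) q (Emb.qq_dvd_level M q)) ^ 2 +
        F.emb i (OneComp.zZero (M * q * q) q (Emb.qq_dvd_level M q)) ^ 2 := by
  rw [H1, map_add, map_add, map_mul, map_pow, map_pow, SetupQ2.emb_algebraMap]

theorem unitAt_H1_inf (hq : q.Prime) (hA : A.LiesOverPrime q) (F : Plan.Frame M q h) :
    UnitAt A (HahnSeries.C ((q : Kbar)⁻¹) *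
      F.emb .inf (H1 (M * q * q) q (Emb.qq_dvd_level M q))) := by
  obtain ⟨ha, -, -⟩ := emb_zInf hq hA F
  obtain ⟨hb, -, -⟩ := emb_zMid hq hA F
  obtain ⟨hc, -, -⟩ := emb_zZero hq hA F
  have hb' := div_q_inf hq hA F _
    (fun τ _ => OneComp.gal_smul_zMid (M * q * q) q (Emb.qq_dvd_level M q) τ) hb
  have hc' := div_q_inf hq hA F _
    (fun τ _ => OneComp.gal_smul_zZero (M * q * q) q (Emb.qq_dvd_level M q) τ) hc
  have e1 : (HahnSeries.C ((q : Kbar)⁻¹) : Om) * HahnSeries.C (q : Kbar) = 1 := by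
    rw [← map_mul, inv_mul_cancel₀ (q_ne_zero' hq), map_one]
  refine (ha.add_zeroAt ((ZeroAt.mem_mul hb' hb).add (ZeroAt.mem_mul hc' hc))).congr ?_
  rw [emb_H1]
  linear_combination
    (-(F.emb .inf (OneComp.zInf (M * q * q) q (Emb.qq_dvd_level M q)))) * e1

theorem unitAt_H1_mid (hq : q.Prime) (hA : A.LiesOverPrime q) (F : Plan.Frame M q h)
    (ξ : Plan.MidIdx q) :
    UnitAt A (F.emb (.mid ξ) (H1 (M * q * q) q (Emb.qq_dvd_level M q))) := by
  obtain ⟨-, -, ha⟩ := emb_zInf hq hA F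
  obtain ⟨-, -, hb⟩ := emb_zMid hq hA F
  obtain ⟨-, -, hc⟩ := emb_zZero hq hA F
  refine (((hb ξ).pow 2).add_zeroAt
    (((zeroAt_C (val_q_lt_one hA)).mul_mem (ha ξ).mem).add ((hc ξ).pow two_ne_zero))).congr ?_
  rw [emb_H1]
  ring

theorem unitAt_H1_zero (hq : q.Prime) (hA : A.LiesOverPrime q) (F : Plan.Frame M q h) :
    UnitAt A (F.emb .zero (H1 (M * q * q) q (Emb.qq_dvd_level M q))) := by
  obtain ⟨-, ha, -⟩ := emb_zInf hq hA F
  obtain ⟨-, hb, -⟩ := emb_zMid hq hA F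
  obtain ⟨-, hc, -⟩ := emb_zZero hq hA F
  refine ((hc.pow 2).add_zeroAt
    (((zeroAt_C (val_q_lt_one hA)).mul_mem ha.mem).add (hb.pow two_ne_zero))).congr ?_
  rw [emb_H1]
  ring

/-! ### `X = j - j_{q²}`: values `(0, v(ξ - 1), 0)` -/

/-- `X = j - j_{q²}` at the level `N`. -/
def X (N q : ℕ) [NeZero N] [NeZero q] (hqq : q * q ∣ N) : FN N :=
  jBar N - jBarLevel N (q * q) hqq

theorem gal_smul_X (N q : ℕ) [NeZero N] [NeZero q] (hqq : q * q ∣ N) (τ : Kbar ≃ₐ[ℚ] Kbar) :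
    S34.Plan.gal N τ • X N q hqq = X N q hqq := by
  rw [X, smul_sub, Sigma.galois_smul_jBar, OneComp.gal_smul_jBarLevel]

theorem X_top : X (M * q * q) q (Emb.qq_dvd_level M q) = jBar (M * q * q) - Emb.jQQ M q := rfl

theorem unitAt_X_inf (hq : q.Prime) (hA : A.LiesOverPrime q) (F : Plan.Frame M q h) :
    UnitAt A (F.emb .inf (X (M * q * q) q (Emb.qq_dvd_level M q))) := by
  haveI : Fact q.Prime := ⟨hq⟩
  haveI : CharP (kk A) q := charP_residueField_of_liesOverPrime A q hA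
  have h1 : (jK : Om) ∈ Ocal A := Main.jK_mem_Ocal A
  have h2 : qExpand Kbar (q * q) jK ∈ Ocal A :=
    Fermat.Agent.Lib.KroneckerCong.qExpand_mem_Ocal A (q * q) h1
  have e : F.emb .inf (X (M * q * q) q (Emb.qq_dvd_level M q)) =
      jK - qExpand Kbar (q * q) jK := by
    rw [X_top, map_sub, EmbFrame.emb_inf_jBar, EmbFrame.emb_inf_jQQ]
  rw [e]
  refine ⟨(Ocal A).sub_mem h1 h2, ?_⟩
  have e2 : (⟨_, (Ocal A).sub_mem h1 h2⟩ : Ocal A) = ⟨jK, h1⟩ - ⟨_, h2⟩ := rfl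
  rw [e2, map_sub, Main.red_jK,
    Fermat.Agent.Lib.KroneckerCong.red_qExpand A (q * q) ⟨jK, h1⟩, Main.red_jK,
    OneComp.qExpand_qq_jq (kk A) q]
  exact OneComp.jk_sub_pow_ne_zero A (OneComp.qq_ne_one hq)

theorem unitAt_X_zero (hq : q.Prime) (hA : A.LiesOverPrime q) (F : Plan.Frame M q h) :
    UnitAt A (F.emb .zero (X (M * q * q) q (Emb.qq_dvd_level M q))) := by
  haveI : Fact q.Prime := ⟨hq⟩
  haveI : CharP (kk A) q := charP_residueField_of_liesOverPrime A q hA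
  have h1 : (jK : Om) ∈ Ocal A := Main.jK_mem_Ocal A
  have h2 : qExpand Kbar (q * q) jK ∈ Ocal A :=
    Fermat.Agent.Lib.KroneckerCong.qExpand_mem_Ocal A (q * q) h1
  have e : F.emb .zero (X (M * q * q) q (Emb.qq_dvd_level M q)) =
      qExpand Kbar (q * q) jK - jK := by
    rw [X_top, map_sub, EmbFrame.emb_zero_jBar hq, EmbFrame.emb_zero_jQQ hq]
  rw [e]
  refine ⟨(Ocal A).sub_mem h2 h1, ?_⟩
  have e2 : (⟨_, (Ocal A).sub_mem h2 h1⟩ : Ocal A) = ⟨_, h2⟩ - ⟨jK, h1⟩ := rfl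
  rw [e2, map_sub, Main.red_jK,
    Fermat.Agent.Lib.KroneckerCong.red_qExpand A (q * q) ⟨jK, h1⟩, Main.red_jK,
    OneComp.qExpand_qq_jq (kk A) q]
  intro h0
  exact OneComp.jk_sub_pow_ne_zero A (OneComp.qq_ne_one hq) (by rw [← neg_sub, h0, neg_zero])

theorem unitAt_X_mid (hq : q.Prime) (hA : A.LiesOverPrime q) (F : Plan.Frame M q h)
    (ξ : Plan.MidIdx q) :
    UnitAt A (HahnSeries.C (((ξ.1 : Kbar) - 1)⁻¹) *
      F.emb (.mid ξ) (X (M * q * q) q (Emb.qq_dvd_level M q))) := by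
  haveI : Fact q.Prime := ⟨hq⟩
  have hκ : CharP (kk A) q := charP_residueField_of_liesOverPrime A q hA
  have h1 : (jK : Om) ∈ Ocal A := Main.jK_mem_Ocal A
  have hξ' : IsPrimitiveRoot (ξ.1 : Kbar) q := IsPrimitiveRoot.coe_units_iff.mpr ξ.2
  have hπ0 : (ξ.1 : Kbar) - 1 ≠ 0 := InertiaFieldZeta.zeta_sub_one_ne_zero q hq _ hξ'
  obtain ⟨w, hw, hwred⟩ := MidRed.exists_scale_sub_xi A q hκ ξ.1 ξ.2.pow_eq_one ⟨jK, h1⟩
  have hwu : UnitAt A (w : Om) := by
    refine ⟨w.2, ?_⟩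
    have e0 : (⟨(w : Om), w.2⟩ : Ocal A) = w := rfl
    rw [e0, hwred, Main.red_jK]
    exact Fermat.Agent.S28.theta_jqModC_ne_zero (kk A)
  have e : F.emb (.mid ξ) (X (M * q * q) q (Emb.qq_dvd_level M q)) =
      jK - Fermat.Agent.S28.scale ξ.1 jK := by
    rw [X_top, map_sub, EmbFrame.emb_mid_jBar, EmbFrame.emb_mid_jQQ]
  have e1 : (HahnSeries.C (((ξ.1 : Kbar) - 1)⁻¹) : Om) * HahnSeries.C ((ξ.1 : Kbar) - 1) = 1 := by
    rw [← map_mul, inv_mul_cancel₀ hπ0, map_one]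
  refine hwu.neg.congr ?_
  rw [e]
  have hw' : Fermat.Agent.S28.scale ξ.1 (jK : Om) - jK =
      HahnSeries.C ((ξ.1 : Kbar) - 1) * (w : Om) := hw
  linear_combination (HahnSeries.C (((ξ.1 : Kbar) - 1)⁻¹) : Om) * hw' + (w : Om) * e1

/-! ### Transport to a level `N` with `q² ∣ N ∣ M q²` -/

/-- The level inclusion `F_N → F_{M q²}`. -/
def incl (N : ℕ) [NeZero N] (hN : N ∣ M * q * q) : FN N →ₐ[Kbar] FN (M * q * q) :=
  IntermediateField.inclusion (Fermat.Agent.S18.RR0.modularFunctionFieldBar_le hN)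

theorem coe_incl (N : ℕ) [NeZero N] (hN : N ∣ M * q * q) (x : FN N) :
    ((incl N hN x : FN (M * q * q)) : Om) = (x : Om) :=
  IntermediateField.coe_inclusion _ x

theorem coe_H1 (N : ℕ) [NeZero N] (hqq : q * q ∣ N) :
    ((H1 N q hqq : FN N) : Om) =
      HahnSeries.C (q : Kbar) *
          ((jK - qExpand Kbar (q * q) jK ^ (q * q)) * (jK - qExpand Kbar (q * q) jK)) +
        ((qExpand Kbar (q * q) jK - jK ^ (q * q)) * (jK - qExpand Kbar (q * q) jK ^ (q * q))) ^ 2 +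
        ((qExpand Kbar (q * q) jK - jK ^ (q * q)) * (jK - qExpand Kbar (q * q) jK)) ^ 2 := by
  have e : ((H1 N q hqq : FN N) : Om) =
      ((algebraMap Kbar (FN N) (q : Kbar) : FN N) : Om) * ((OneComp.zInf N q hqq : FN N) : Om) +
        ((OneComp.zMid N q hqq : FN N) : Om) ^ 2 + ((OneComp.zZero N q hqq : FN N) : Om) ^ 2 := rfl
  rw [e, SetupQ2.coe_algebraMap_FN, OneComp.coe_zInf, OneComp.coe_zMid, OneComp.coe_zZero]

theorem coe_X (N : ℕ) [NeZero N] (hqq : q * q ∣ N) :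
    ((X N q hqq : FN N) : Om) = jK - qExpand Kbar (q * q) jK := by
  have e : ((X N q hqq : FN N) : Om) =
      ((jBar N : FN N) : Om) - ((jBarLevel N (q * q) hqq : FN N) : Om) := rfl
  rw [e, OneComp.coe_jBar', OneComp.coe_jBarLevel_qq]

theorem incl_H1 (N : ℕ) [NeZero N] (hqq : q * q ∣ N) (hN : N ∣ M * q * q) :
    incl N hN (H1 N q hqq) = H1 (M * q * q) q (Emb.qq_dvd_level M q) := by
  apply Subtype.ext
  rw [coe_incl, coe_H1, coe_H1]

theorem incl_X (N : ℕ) [NeZero N] (hqq : q * q ∣ N) (hN : N ∣ M * q * q) :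
    incl N hN (X N q hqq) = X (M * q * q) q (Emb.qq_dvd_level M q) := by
  apply Subtype.ext
  rw [coe_incl, coe_X, coe_X]

theorem gal_smul_zpow (N : ℕ) [NeZero N] (τ : Kbar ≃ₐ[ℚ] Kbar) {y : FN N}
    (hy : S34.Plan.gal N τ • y = y) (k : ℤ) : S34.Plan.gal N τ • y ^ k = y ^ k := by
  cases k with
  | ofNat n => rw [Int.ofNat_eq_natCast, zpow_natCast, smul_pow', hy]
  | negSucc n => rw [zpow_negSucc, smul_inv'', smul_pow', hy]

/-! ### Functions with prescribed vertical values -/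

/-- **[VNORM] (iii), finest form**: for all integers `k₁ k₂` there is a function `H` of level `N`
(`q² ∣ N ∣ M q²`), fixed by `Gal(Q̄/ℚ)`, such that `q^k₁ · ε_∞ H`, `(ξ - 1)^k₂ · ε_ξ H` (all middle
`ξ`) and `ε_0 H` are units.  (`H'` is the image of `H` at the top level.) -/
theorem exists_H (hq : q.Prime) (hA : A.LiesOverPrime q) (F : Plan.Frame M q h) (N : ℕ) [NeZero N]
    (hqq : q * q ∣ N) (hN : N ∣ M * q * q) (k₁ k₂ : ℤ) :
    ∃ (H : FN N) (H' : FN (M * q * q)), (H' : Om) = (H : Om) ∧ H ≠ 0 ∧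
      (∀ τ : Kbar ≃ₐ[ℚ] Kbar, S34.Plan.gal N τ • H = H) ∧
      UnitAt A (HahnSeries.C ((q : Kbar) ^ k₁) * F.emb .inf H') ∧
      (∀ ξ : Plan.MidIdx q,
        UnitAt A (HahnSeries.C (((ξ.1 : Kbar) - 1) ^ k₂) * F.emb (.mid ξ) H')) ∧
      UnitAt A (F.emb .zero H') := by
  have e : ∀ i, F.emb i (incl N hN (H1 N q hqq ^ (-k₁) * X N q hqq ^ (-k₂))) =
      F.emb i (H1 (M * q * q) q (Emb.qq_dvd_level M q)) ^ (-k₁) *
        F.emb i (X (M * q * q) q (Emb.qq_dvd_level M q)) ^ (-k₂) := by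
    intro i
    rw [map_mul, map_zpow₀, map_zpow₀, incl_H1, incl_X, map_mul, map_zpow₀, map_zpow₀]
  have hH1z := unitAt_H1_zero hq hA F
  have hXz := unitAt_X_zero hq hA F
  have hH1ne : H1 N q hqq ≠ 0 := by
    intro h0
    have h1 := hH1z.ne_zero
    rw [← incl_H1 N hqq hN, h0, map_zero, map_zero] at h1
    exact h1 rfl
  have hXne : X N q hqq ≠ 0 := by
    intro h0
    have h1 := hXz.ne_zero
    rw [← incl_X N hqq hN, h0, map_zero, map_zero] at h1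
    exact h1 rfl
  refine ⟨H1 N q hqq ^ (-k₁) * X N q hqq ^ (-k₂),
    incl N hN (H1 N q hqq ^ (-k₁) * X N q hqq ^ (-k₂)), coe_incl N hN _,
    mul_ne_zero (zpow_ne_zero _ hH1ne) (zpow_ne_zero _ hXne), fun τ => ?_, ?_, fun ξ => ?_, ?_⟩
  · rw [smul_mul', gal_smul_zpow N τ (gal_smul_H1 N q hqq τ),
      gal_smul_zpow N τ (gal_smul_X N q hqq τ)]
  · have ec : (HahnSeries.C ((q : Kbar)⁻¹) : Om) ^ (-k₁) = HahnSeries.C ((q : Kbar) ^ k₁) := by
      rw [← map_zpow₀, inv_zpow', neg_neg]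
    refine (((unitAt_H1_inf hq hA F).zpow (-k₁)).mul ((unitAt_X_inf hq hA F).zpow (-k₂))).congr ?_
    rw [e, mul_zpow, ec, mul_assoc]
  · have ec : (HahnSeries.C (((ξ.1 : Kbar) - 1)⁻¹) : Om) ^ (-k₂) =
        HahnSeries.C (((ξ.1 : Kbar) - 1) ^ k₂) := by
      rw [← map_zpow₀, inv_zpow', neg_neg]
    refine (((unitAt_H1_mid hq hA F ξ).zpow (-k₁)).mul
      ((unitAt_X_mid hq hA F ξ).zpow (-k₂))).congr ?_
    rw [e, mul_zpow, ec]
    ring
  · refine ((hH1z.zpow (-k₁)).mul (hXz.zpow (-k₂))).congr ?_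
    rw [e]

/-- `q = c · (ξ - 1)^(q-1)` with `c` a unit of `A`, in the form used for exponents. -/
theorem unitAt_q_mul_of_mid (hq : q.Prime) (ξ : Plan.MidIdx q) {y : Om} (k : ℤ)
    (hy : UnitAt A (HahnSeries.C (((ξ.1 : Kbar) - 1) ^ (((q - 1 : ℕ) : ℤ) * k)) * y)) :
    UnitAt A (HahnSeries.C ((q : Kbar) ^ k) * y) := by
  have hξ' : IsPrimitiveRoot (ξ.1 : Kbar) q := IsPrimitiveRoot.coe_units_iff.mpr ξ.2
  have hπ0 : (ξ.1 : Kbar) - 1 ≠ 0 := InertiaFieldZeta.zeta_sub_one_ne_zero q hq _ hξ'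
  have hq0 : (q : Kbar) ≠ 0 := q_ne_zero' hq
  have hval : A.valuation ((q : Kbar) / ((ξ.1 : Kbar) - 1) ^ (q - 1)) = 1 := by
    rw [map_div₀, map_pow, InertiaFieldZeta.val_zeta_sub_one_pow A q hq _ hξ']
    exact div_self ((Valuation.ne_zero_iff _).mpr hq0)
  have hcval : A.valuation (((q : Kbar) / ((ξ.1 : Kbar) - 1) ^ (q - 1)) ^ k) = 1 := by
    rw [map_zpow₀, hval, one_zpow]
  refine ((unitAt_C hcval).mul hy).congr ?_
  rw [← mul_assoc, ← map_mul]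
  congr 2
  rw [div_zpow, ← zpow_natCast ((ξ.1 : Kbar) - 1) (q - 1), ← zpow_mul, div_mul_cancel₀]
  exact zpow_ne_zero _ hπ0

/-- **[VNORM] (iii), `q`-form** (the hypothesis `hH` of `VNorm.exists_normalised`, with `π` the
constant `q` at the three coordinates): `q^k₁ · ε_∞ H`, `q^k₂ · ε_ξ H` (all `ξ`), `ε_0 H` units. -/
theorem exists_H_q (hq : q.Prime) (hA : A.LiesOverPrime q) (F : Plan.Frame M q h) (N : ℕ)
    [NeZero N] (hqq : q * q ∣ N) (hN : N ∣ M * q * q) (k₁ k₂ : ℤ) :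
    ∃ (H : FN N) (H' : FN (M * q * q)), (H' : Om) = (H : Om) ∧ H ≠ 0 ∧
      (∀ τ : Kbar ≃ₐ[ℚ] Kbar, S34.Plan.gal N τ • H = H) ∧
      UnitAt A (HahnSeries.C ((q : Kbar) ^ k₁) * F.emb .inf H') ∧
      (∀ ξ : Plan.MidIdx q, UnitAt A (HahnSeries.C ((q : Kbar) ^ k₂) * F.emb (.mid ξ) H')) ∧
      UnitAt A (F.emb .zero H') := by
  obtain ⟨H, H', hcoe, hne, hfix, h1, h2, h3⟩ :=
    exists_H (A := A) hq hA F N hqq hN k₁ (((q - 1 : ℕ) : ℤ) * k₂)
  exact ⟨H, H', hcoe, hne, hfix, h1, fun ξ => unitAt_q_mul_of_mid hq ξ k₂ (h2 ξ), h3⟩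

end Frame

end Fermat.Agent.S36.VNormH

end
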