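import Mathlib
import Fermat.Agent.S36.OneAllOf
import Fermat.Agent.S36.VNormCore
import Fermat.Agent.S36.VNormH

/-!
# S36 / P8 — [VNORM] at all levels (helper97)

`vnormAllStmt : OneAllOf.VNormAllStmt` (with `c = q² - 1`): the junction `VNormCore.exists_unit_data`,
the functions with prescribed vertical exponents `VNormH.exists_H_q`, and the packaging of the
normalised pair into `Plan.PairData`.
-/

set_option autoImplicit false
set_option linter.unusedSectionVars false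
set_option linter.unusedVariables false
set_option linter.style.haveILetI false

noncomputable section

namespace Fermat.Agent.S36.VNormAll

open ModularCurve AlgebraicCurve Fermat.Agent.S24 Fermat.Agent.S18 Fermat.Agent.S18.Content
  Fermat.Agent.S18.Plan Fermat.Agent.S34

/-- The packaging: `D' := c • D + div H`, `u' := u ^ c · q ^ k · H ^ n`. -/
theorem pack_unit {N' M q : ℕ} [NeZero N'] [NeZero M] [NeZero q] {h : Nat.Coprime M q}
    {A : ValuationSubring Kbar} {F : Plan.Frame M q h} {O : Subring Om} {ρ : O →+* Plan.Rq A q}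
    (hS : Plan.IsSetup A F O ρ) {D : Divisor Kbar (FN (N' * q))} {n : ℕ} {u : FN (N' * q)}
    (hP : Plan.PairData A N' q D n u) (c : ℕ) (k : ℤ) (H : FN (N' * q)) (hH0 : H ≠ 0)
    (hHfix : Plan.IFix A (N' * q) H) (w : FN (M * q * q))
    (hw : (w : Om) =
      ((u ^ c * algebraMap Kbar (FN (N' * q)) ((q : Kbar) ^ k) * H ^ n : FN (N' * q)) : Om))
    (hU : ∀ i : Plan.Coord q, ∃ h' : F.emb i w ∈ Ocal A, red A ⟨_, h'⟩ ≠ 0) :
    ∃ (D' : Divisor Kbar (FN (N' * q))) (u' : FN (N' * q)),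
      D' - c • D ∈ Divisor.principal (K := Kbar) (F := FN (N' * q)) ∧
      Plan.PairData A N' q D' n u' ∧
      ∃ hu' : (u' : Om) ∈ O, ∀ i : Plan.Coord q, ρ ⟨_, hu'⟩ i ≠ 0 := by
  haveI := Fermat.Agent.S37.HeckeInputs.hasPrincipalDivisors_FN (N' * q)
  obtain ⟨DH, hDH, -⟩ := HasPrincipalDivisors.exists_divisor (K := Kbar) H hH0
  have hκ0 : algebraMap Kbar (FN (N' * q)) ((q : Kbar) ^ k) ≠ 0 :=
    (map_ne_zero _).mpr (zpow_ne_zero k (Nat.cast_ne_zero.mpr (NeZero.ne q)))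
  have hu'0 : u ^ c * algebraMap Kbar (FN (N' * q)) ((q : Kbar) ^ k) * H ^ n ≠ 0 :=
    mul_ne_zero (mul_ne_zero (pow_ne_zero c hP.ne) hκ0) (pow_ne_zero n hH0)
  have hcls : (c • D + DH) - c • D ∈ Divisor.principal (K := Kbar) (F := FN (N' * q)) := by
    rw [add_sub_cancel_left]
    exact ⟨H, hH0, hDH⟩
  have hst : ∀ τ : Kbar ≃ₐ[ℚ] Kbar, τ ∈ A.inertiaSubgroupIn ℚ →
      S34.Plan.gal (N' * q) τ • (c • D + DH) = c • D + DH := by
    intro τ hτ
    rw [smul_add, smul_comm, hP.stable.stable τ hτ]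
    congr 1
    refine Finsupp.ext fun P => ?_
    rw [SemilinearAut.divisor_smul_apply, hDH, hDH]
    have h1 := SemilinearAut.ord_smul (S34.Plan.gal (N' * q) τ)
      ((S34.Plan.gal (N' * q) τ)⁻¹ • P) H
    rw [smul_inv_smul, hHfix τ hτ] at h1
    exact h1.symm
  have hord : ∀ P : Place Kbar (FN (N' * q)),
      P.ord (u ^ c * algebraMap Kbar (FN (N' * q)) ((q : Kbar) ^ k) * H ^ n) =
        n * (c • D + DH) P := by
    intro P
    rw [Place.ord_mul P (mul_ne_zero (pow_ne_zero c hP.ne) hκ0) (pow_ne_zero n hH0),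
      Place.ord_mul P (pow_ne_zero c hP.ne) hκ0, Fermat.Agent.S35.NormPush.ord_pow',
      Fermat.Agent.S35.NormPush.ord_pow', Fermat.Agent.Lib.FFPlaces.ord_algebraMap, hP.ord P,
      Finsupp.add_apply, Finsupp.smul_apply, nsmul_eq_mul, hDH P]
    ring
  have hfix : Plan.IFix A (N' * q)
      (u ^ c * algebraMap Kbar (FN (N' * q)) ((q : Kbar) ^ k) * H ^ n) :=
    VNormCore.iFix_mul (VNormCore.iFix_mul (VNormCore.iFix_pow hP.fix c)
      (VNormCore.iFix_const _ q k)) (VNormCore.iFix_pow hHfix n)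
  have hPD := hP.of_principal hcls hst hu'0 hord hfix
  have hmemw : (w : Om) ∈ O := (hS.mem_iff w).mpr (fun i => (hU i).1)
  have hmem : ((u ^ c * algebraMap Kbar (FN (N' * q)) ((q : Kbar) ^ k) * H ^ n :
      FN (N' * q)) : Om) ∈ O := by
    rw [← hw]
    exact hmemw
  refine ⟨c • D + DH, _, hcls, hPD, hmem, fun i => ?_⟩
  obtain ⟨hi, hne⟩ := hU i
  have e : (⟨_, hmem⟩ : O) = ⟨(w : Om), hmemw⟩ := Subtype.ext hw.symm
  rw [e, hS.ρ_apply w hmemw i hi]
  exact hne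

/-- **(iii)** in the shape consumed by the junction. -/
theorem hStmt {M q : ℕ} [NeZero M] [NeZero q] {h : Nat.Coprime M q} {A : ValuationSubring Kbar}
    (hq : q.Prime) (hA : A.LiesOverPrime q) (F : Plan.Frame M q h) (N : ℕ) [NeZero N]
    (hqq : q * q ∣ N) (hN : N ∣ M * q * q) : VNormCore.HStmt A F N := by
  intro k1 k2
  obtain ⟨H, H', h1, h2, h3, h4, h5, h6⟩ := VNormH.exists_H_q (A := A) hq hA F N hqq hN k1 k2
  exact ⟨H, H', h1, h2, fun τ _ => h3 τ, h4, h5, h6⟩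

/-- **[VNORM]** at the levels `N' = N₀ q`, `N₀ ∣ M`, with `c = q² - 1`. -/
theorem vnormStmt {M q : ℕ} [NeZero M] [NeZero q] {h : Nat.Coprime M q}
    {A : ValuationSubring Kbar} {F : Plan.Frame M q h} {O : Subring Om} {ρ : O →+* Plan.Rq A q}
    (hq : q.Prime) (hA : A.LiesOverPrime q) (N₀ : ℕ) [NeZero (N₀ * q)] (hdiv : N₀ ∣ M)
    (hS : Plan.IsSetup A F O ρ) : Plan.VNormStmt A (N₀ * q) q O ρ (q ^ 2 - 1) := by
  haveI : NeZero N₀ := ⟨fun h0 => NeZero.ne (N₀ * q) (by rw [h0, zero_mul])⟩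
  intro D n u hP
  obtain ⟨k, H, w, hH0, hHfix, hw, hU⟩ := VNormCore.exists_unit_data hq hA N₀ hdiv
    (hStmt hq hA F (N₀ * q * q) ⟨N₀, by ring⟩
      (Nat.mul_dvd_mul_right (Nat.mul_dvd_mul_right hdiv q) q)) hP
  exact pack_unit hS hP (q ^ 2 - 1) k H hH0 hHfix w hw hU

/-- **[VNORM] at all levels**: `OneAllOf.VNormAllStmt`, with `c = q² - 1`. -/
theorem vnormAllStmt : OneAllOf.VNormAllStmt := by
  intro N₀ N' M q _ _ _ hq' h hqp hcop hN' hM A hA F O ρ hS
  subst hN'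
  have hdiv : N₀ ∣ M := by
    rw [hM]
    exact Dvd.intro_left _ rfl
  refine ⟨q ^ 2 - 1, ?_, vnormStmt hqp hA N₀ hdiv hS⟩
  have h2 := hqp.two_le
  have h4 : 4 ≤ q ^ 2 := by nlinarith
  omega

end Fermat.Agent.S36.VNormAll

end
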