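import Mathlib
import Fermat.Agent.S36.Final4
import Fermat.Agent.S36.VNormAll
import Fermat.Agent.S36.NormPow

/-!
# S36 — final assembly, one-residual form (owner: helper74, P8 lead)

`[VNORM]` at all levels (`VNormAll.vnormAllStmt`) and `[NORM-POW]` (`NormPow.normAllStmt_of_vnorm`)
close the `[NORM]` contract.  What is left of S36 is exactly ONE all-level Prop:

* `TwistAllOf.NormTwAllStmt` — [NORM-TW].

`normAllStmt`  : `OneAllK0.NormAllStmt`, unconditional;
`oneAllStmt_of1` : `Plan.OneAllStmt` from `NormTwAllStmt`;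
`result_of1`   : the frozen conclusion of S36 from `NormTwAllStmt`.
-/

set_option autoImplicit false

open Polynomial CuspForm ModularCurve AlgebraicCurve

namespace Fermat.Agent.S36.Final5

open Fermat.Agent.S36

/-- **[NORM]** at all levels, unconditional. -/
theorem normAllStmt : OneAllK0.NormAllStmt :=
  NormPow.normAllStmt_of_vnorm VNormAll.vnormAllStmt

/-- **[ONE-ALL]** from the one residual contract. -/
theorem oneAllStmt_of1 (hNT : TwistAllOf.NormTwAllStmt) : Plan.OneAllStmt :=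
  Final4.oneAllStmt_of2 normAllStmt hNT

/-- **The frozen conclusion of S36** from the one residual contract `[NORM-TW]`. -/
theorem result_of1 (hNT : TwistAllOf.NormTwAllStmt)
    {M : ℕ} [NeZero M] {g : CuspForm (CongruenceSubgroup.Gamma0 M) 2} (hg : g.IsNewform)
    (lam : ℕ) [Fact lam.Prime]
    (S : Finset ℕ)
    (O' : Type) [CommRing O'] [IsDomain O'] [IsDiscreteValuationRing O']
    [IsAdicComplete (IsLocalRing.maximalIdeal O') O'] [Finite (IsLocalRing.ResidueField O')]
    [CharZero O'] (hlamO' : (lam : O') ∈ IsLocalRing.maximalIdeal O')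
    (hlam2 : lam ≠ 2)
    (chig : CuspForm.heckeAlgebra M 2 (↑S : Set ℕ) →+* ℂ)
    (hchig : ∀ (ℓ : ℕ) (hℓ : ℓ.Prime) (hℓM : ¬ ℓ ∣ M) (hℓS : ℓ ∉ (↑S : Set ℕ)),
      chig (CuspForm.heckeAlgebra.T hℓ hℓM hℓS) = ModularFormClass.qCoeff g ℓ)
    (iota : chig.range →+* O')
    (hlamS : lam ∈ S) (hMS : ∀ q : ℕ, q.Prime → q ∣ M → q ∈ S) :
    ∃ (O'' : Type) (_ : CommRing O'') (_ : IsDomain O'') (_ : IsDiscreteValuationRing O'')
      (_ : IsAdicComplete (IsLocalRing.maximalIdeal O'') O'')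
      (_ : Finite (IsLocalRing.ResidueField O''))
      (_ : CharZero O'') (_ : Algebra O' O'') (_ : Module.Finite O' O'')
      (_ : IsLocalHom (algebraMap O' O'')),
      Function.Injective (algebraMap O' O'') ∧
      ∃ ρ : GaloisRepAdic O'',
        (∀ (ℓ : ℕ) (hℓ : ℓ.Prime) (hℓM : ¬ ℓ ∣ M) (hℓS : ℓ ∉ (↑S : Set ℕ)),
          ∀ A : ValuationSubring (AlgebraicClosure ℚ), A.LiesOverPrime ℓ →
            ∀ σ : AlgebraicClosure ℚ ≃ₐ[ℚ] AlgebraicClosure ℚ, A.IsFrobeniusAt σ ℓ →
              LinearMap.charpoly (ρ.ρ σ) =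
                X ^ 2 - C (algebraMap O' O'' ((iota.comp chig.rangeRestrict)
                  (CuspForm.heckeAlgebra.T hℓ hℓM hℓS))) * X
                  + C ((ℓ : O''))) ∧
        (∀ q : ℕ, q.Prime → q ≠ lam → M.factorization q = 2 →
          ¬ ρ.IsUnipotentOnInertiaAt q) :=
  Final4.result_of2 normAllStmt hNT hg lam S O' hlamO' hlam2 chig hchig iota hlamS hMS

end Fermat.Agent.S36.Final5
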