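import Mathlib
import Fermat.Agent.S34.InclPull
import Fermat.Agent.S34.PullWJ
import Fermat.Agent.S34.PoleBound
import Fermat.Agent.S34.Plan
import Fermat.Agent.S37.HeckeInputs

/-!
# S36 / P8 — [NORM-PULL]: norms of pull-back Riemann–Roch spaces (helper53)

Levels: divisor level `N ∣ N₂` (top), target divisor level `NY`, target top level `N₂Y`, and a
`Q̄`-algebra map `φ : F_{N₂Y} → F_{N₂}` (in P8: `N = N' q`, `N₂ = M q q`, `NY = N'`,
`N₂Y = M q`, `φ = α` or `β`).  `N_φ` is the norm along `φ` (spelling of `S35/NormTwo`).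

The point: a section `g ∈ pullRR N N₂ B` lives at the TOP level, the divisor `B` at level `N`, so
"`div (N_φ g) ≥ -φ_* B`" cannot even be stated without a push–pull base-change identity.  We avoid
it: membership is transported through INTEGRALITY over `Q̄[x]` and `Q̄[x⁻¹]` for a coordinate `x`
with `φ (j) = x` (`x = j` for `α`, `x = j_q` for `β`), and Mathlib's `Algebra.isIntegral_norm`.

* `isIntegral_of_surjective_of_injective` : integrality descends along a surjection of base rings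
  and an injection of algebras;
* `isIntegral_of_coe` : integrality over `Q̄[x]` in `Q̄((T))` gives integrality in the subfield
  (converse of `S37.PoleClear.isIntegral_coe`);
* `isIntegral_norm_along` : `g` integral over `Q̄[φ x]` ⟹ `N_φ g` integral over `Q̄[x]`;
* `norm_mem_pullRR` : **[NORM-PULL]** `g ∈ pullRR N N₂ B`, `B ≤ m (x)_∞`, `φ (j) = x` ⟹
  `N_φ g ∈ pullRR NY N₂Y (m d (j)_∞)`, `d = [F_{N₂} : φ F_{N₂Y}]`;
* `mem_pullRR_of_pow_mem` : `pullRR NY N₂Y B` (`B ≥ 0`) is closed under `n`-th roots in `F_{N₂Y}`;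
* `norm_mul_mem_pullRR` : the junction with a divisor `D`: if `gⁿ u ∈ pullRR N N₂ B` and
  `N_φ u = c₀ aⁿ`, then `N_φ g · a ∈ pullRR NY N₂Y (m d (j)_∞)`;
* `norm_alpha_mem_pullRR`, `norm_beta_mem_pullRR`, `norm_alpha_mul_mem_pullRR`,
  `norm_beta_mul_mem_pullRR` : the instances `φ = α, β` at levels `N' q ∣ M q q`, `N' ∣ M q`.
-/

set_option autoImplicit false
set_option linter.style.haveILetI false

noncomputable section

namespace Fermat.Agent.S36.NormReg

open ModularCurve AlgebraicCurve Fermat.Agent.S24 Fermat.Agent.S18.Content Fermat.Agent.S18.Plan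
open Fermat.Agent.S18 Fermat.Agent.S34 Fermat.Agent.Lib Polynomial

/-! ## Integrality: descent along a surjection of base rings -/

/-- Integrality descends along a surjection `ψ : R → S` of base rings and an injection
`ι : A → B` of algebras compatible with the structure maps. -/
theorem isIntegral_of_surjective_of_injective {R S A B : Type*} [CommRing R] [CommRing S]
    [CommRing A] [CommRing B] [Algebra R A] [Algebra S B]
    (ψ : R →+* S) (hψ : Function.Surjective ψ) (ι : A →+* B) (hι : Function.Injective ι)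
    (hcomp : (algebraMap S B).comp ψ = ι.comp (algebraMap R A)) {a : A}
    (h : IsIntegral S (ι a)) : IsIntegral R a := by
  obtain ⟨p, hp, hpe⟩ := h
  have hlift : p ∈ Polynomial.lifts ψ := by
    rw [Polynomial.lifts_iff_coeff_lifts]
    intro n
    exact hψ (p.coeff n)
  obtain ⟨r, hr, -, hrm⟩ := Polynomial.lifts_and_natDegree_eq_and_monic hlift hp
  refine ⟨r, hrm, hι ?_⟩
  rw [map_zero, Polynomial.hom_eval₂, ← hcomp, ← Polynomial.eval₂_map, hr]
  exact hpe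

/-- Integrality over `K[x]` inside `Ω` of an element of a subfield `L ∋ x` gives integrality over
`K[x]` inside `L`. -/
theorem isIntegral_of_coe {K Ω : Type*} [Field K] [Field Ω] [Algebra K Ω]
    (L : IntermediateField K Ω) (x f : L)
    (h : IsIntegral (Algebra.adjoin K {(x : Ω)}) (f : Ω)) :
    IsIntegral (Algebra.adjoin K {x}) f := by
  have hmap : (Algebra.adjoin K {x}).map L.val = Algebra.adjoin K {(x : Ω)} := by
    rw [AlgHom.map_adjoin, Set.image_singleton]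
    rfl
  have hmem : ∀ r : Algebra.adjoin K {x}, ((r : L) : Ω) ∈ Algebra.adjoin K {(x : Ω)} := by
    intro r
    rw [← hmap]
    exact ⟨(r : L), r.2, rfl⟩
  let ψ : Algebra.adjoin K {x} →+* Algebra.adjoin K {(x : Ω)} :=
    { toFun := fun r => ⟨((r : L) : Ω), hmem r⟩
      map_one' := rfl
      map_mul' := fun _ _ => rfl
      map_zero' := rfl
      map_add' := fun _ _ => rfl }
  have hψ : Function.Surjective ψ := by
    rintro ⟨s, hs⟩
    rw [← hmap] at hs
    obtain ⟨r, hr, hrs⟩ := hs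
    exact ⟨⟨r, hr⟩, Subtype.ext hrs⟩
  exact isIntegral_of_surjective_of_injective ψ hψ (algebraMap L Ω) (algebraMap L Ω).injective
    (by ext r; rfl) h

/-- **Norm and integrality along `φ`**: if `g` is integral over `K₀[φ x]`, then the norm of `g`
along `φ` is integral over `K₀[x]`. -/
theorem isIntegral_norm_along {K₀ K L : Type*} [Field K₀] [Field K] [Field L] [Algebra K₀ K]
    [Algebra K₀ L] (φ : K →ₐ[K₀] L) (x : K) (g : L)
    (h : IsIntegral (Algebra.adjoin K₀ {φ x}) g) :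
    IsIntegral (Algebra.adjoin K₀ {x}) (@Algebra.norm K L _ _ (algebraAlong φ) g) := by
  letI := algebraAlong φ
  letI algRL : Algebra (Algebra.adjoin K₀ {x}) L :=
    ((algebraMap K L).comp (algebraMap (Algebra.adjoin K₀ {x}) K)).toAlgebra
  haveI tow : @IsScalarTower (Algebra.adjoin K₀ {x}) K L Algebra.toSMul Algebra.toSMul
      Algebra.toSMul :=
    IsScalarTower.of_algebraMap_eq fun _ => rfl
  have hmap : (Algebra.adjoin K₀ {x}).map φ = Algebra.adjoin K₀ {φ x} := by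
    rw [AlgHom.map_adjoin, Set.image_singleton]
  have hmem : ∀ r : Algebra.adjoin K₀ {x}, φ (r : K) ∈ Algebra.adjoin K₀ {φ x} := by
    intro r
    rw [← hmap]
    exact ⟨(r : K), r.2, rfl⟩
  let ψ : Algebra.adjoin K₀ {x} →+* Algebra.adjoin K₀ {φ x} :=
    { toFun := fun r => ⟨φ (r : K), hmem r⟩
      map_one' := Subtype.ext (map_one φ)
      map_mul' := fun a b => Subtype.ext (map_mul φ _ _)
      map_zero' := Subtype.ext (map_zero φ)
      map_add' := fun a b => Subtype.ext (map_add φ _ _) }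
  have hψ : Function.Surjective ψ := by
    rintro ⟨s, hs⟩
    rw [← hmap] at hs
    obtain ⟨r, hr, hrs⟩ := hs
    exact ⟨⟨r, hr⟩, Subtype.ext hrs⟩
  have hx : IsIntegral (Algebra.adjoin K₀ {x}) g :=
    isIntegral_of_surjective_of_injective ψ hψ (RingHom.id L) Function.injective_id
      (by ext r; rfl) h
  exact @Algebra.isIntegral_norm (Algebra.adjoin K₀ {x}) _ L K _ _ _ algRL _ tow g hx

/-- The norm along `φ` of `φ z ^ m * g`. -/
theorem norm_along_map_pow_mul {K₀ K L : Type*} [Field K₀] [Field K] [Field L] [Algebra K₀ K]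
    [Algebra K₀ L] (φ : K →ₐ[K₀] L) (z : K) (m : ℕ) (g : L) :
    @Algebra.norm K L _ _ (algebraAlong φ) (φ z ^ m * g) =
      z ^ (m * finrankAlong K₀ φ) * @Algebra.norm K L _ _ (algebraAlong φ) g := by
  letI := algebraAlong φ
  have hz : φ z = algebraMap K L z := rfl
  rw [map_mul, map_pow, hz, Algebra.norm_algebraMap, ← pow_mul, mul_comm m]
  rfl

/-! ## [NORM-PULL] -/

section NormPull

variable (N N₂ NY N₂Y : ℕ) [NeZero N] [NeZero N₂] [NeZero NY] [NeZero N₂Y]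

/-- **[NORM-PULL]**.  Let `φ : F_{N₂Y} → F_{N₂}` be a `Q̄`-algebra map with `φ (j) = x ∈ F_N`
(`N ∣ N₂`), `x` transcendental.  If `g ∈ pullRR N N₂ B` with `B ≤ m (x)_∞`, then
`N_φ g ∈ pullRR NY N₂Y (m d (j)_∞)`, `d = [F_{N₂} : φ F_{N₂Y}]`. -/
theorem norm_mem_pullRR (hdiv : N ∣ N₂) (φ : FN N₂Y →ₐ[Kbar] FN N₂) {x : FN N}
    (hxt : Transcendental Kbar x) (hφx : ((φ (jBar N₂Y) : FN N₂) : Om) = (x : Om)) (m : ℕ)
    (B : Divisor Kbar (FN N)) (hB : ∀ v : Place Kbar (FN N), B v ≤ m * max 0 (-(v.ord x)))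
    (Cj : Divisor Kbar (FN NY))
    (hCj : ∀ P : Place Kbar (FN NY), Cj P = max 0 (-(P.ord (jBar NY))))
    (g : FN N₂) (hg : (g : Om) ∈ pullRR N N₂ B) :
    ((@Algebra.norm (FN N₂Y) (FN N₂) _ _ (algebraAlong φ) g : FN N₂Y) : Om) ∈
      pullRR NY N₂Y ((m * finrankAlong Kbar φ) • Cj) := by
  obtain ⟨h1, h2⟩ := InclPull.isIntegral_adjoin_of_mem_pullRR N N₂ hdiv hxt m B hB hg
  have hxinv : ((φ (jBar N₂Y)⁻¹ : FN N₂) : Om) = (x : Om)⁻¹ := by
    rw [map_inv₀, IntermediateField.coe_inv, hφx]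
  have h1' : IsIntegral (Algebra.adjoin Kbar {φ (jBar N₂Y)}) g := by
    apply isIntegral_of_coe (modularFunctionFieldBar N₂) (φ (jBar N₂Y)) g
    rw [hφx]
    exact h1
  have h2' : IsIntegral (Algebra.adjoin Kbar {φ (jBar N₂Y)⁻¹}) (φ (jBar N₂Y)⁻¹ ^ m * g) := by
    apply isIntegral_of_coe (modularFunctionFieldBar N₂) (φ (jBar N₂Y)⁻¹)
      (φ (jBar N₂Y)⁻¹ ^ m * g)
    have hc : ((φ (jBar N₂Y)⁻¹ ^ m * g : FN N₂) : Om) = (x : Om)⁻¹ ^ m * (g : Om) := by
      rw [← hxinv]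
      rfl
    rw [hxinv, hc]
    exact h2
  have hn1 := isIntegral_norm_along φ (jBar N₂Y) g h1'
  have hn2 := isIntegral_norm_along φ (jBar N₂Y)⁻¹ _ h2'
  rw [norm_along_map_pow_mul] at hn2
  refine PullWJ.coe_mem_pullRR_of_isIntegral (m * finrankAlong Kbar φ) (jBar NY)
    (Fermat.Agent.S18.RR0.jBar_ne_zero NY) _ (fun P => ?_) (jBar N₂Y)
    ((PoleBound.coe_jBar' N₂Y).trans (PoleBound.coe_jBar' NY).symm) _ hn1 hn2
  rw [Finsupp.smul_apply, hCj, nsmul_eq_mul]

omit [NeZero NY] [NeZero N₂Y] in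
/-- **`n`-th roots**: for an effective `B`, `pullRR NY N₂Y B` is closed under `n`-th roots inside
`F_{N₂Y}`. -/
theorem mem_pullRR_of_pow_mem {B : Divisor Kbar (FN NY)} (hB : ∀ P : Place Kbar (FN NY), 0 ≤ B P)
    {n : ℕ} (hn : 0 < n) {y : Om} (hy : y ∈ modularFunctionFieldBar N₂Y)
    (h : y ^ n ∈ pullRR NY N₂Y B) : y ∈ pullRR NY N₂Y B := by
  refine ⟨hy, fun P t ht hBt => ?_⟩
  have hord : B P ≤ P.ord (t ^ n) := by
    have hpow : P.ord (t ^ n) = n * P.ord t := by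
      have h := P.ord_zpow t (n : ℤ)
      rwa [zpow_natCast] at h
    rw [hpow]
    have h0 := hB P
    have h1 : (1 : ℤ) ≤ n := by exact_mod_cast hn
    have h2 : 0 ≤ ((n : ℤ) - 1) * P.ord t := mul_nonneg (sub_nonneg.mpr h1) (le_trans h0 hBt)
    linarith
  have h2 := h.2 P (t ^ n) (pow_ne_zero n ht) hord
  have e : ((t ^ n : FN NY) : Om) * y ^ n = ((t : Om) * y) ^ n := by
    rw [mul_pow]
    rfl
  rw [e] at h2
  exact IsIntegral.of_pow hn h2

/-- **Junction with a divisor**: if `gⁿ u ∈ pullRR N N₂ B` (`B ≤ m (x)_∞`) and the norm of `u` is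
`c₀ aⁿ` (`c₀ ∈ Q̄^×`), then `N_φ g · a ∈ pullRR NY N₂Y (m d (j)_∞)`. -/
theorem norm_mul_mem_pullRR (hdiv : N ∣ N₂) (φ : FN N₂Y →ₐ[Kbar] FN N₂) {x : FN N}
    (hxt : Transcendental Kbar x) (hφx : ((φ (jBar N₂Y) : FN N₂) : Om) = (x : Om)) (m : ℕ)
    (B : Divisor Kbar (FN N)) (hB : ∀ v : Place Kbar (FN N), B v ≤ m * max 0 (-(v.ord x)))
    (Cj : Divisor Kbar (FN NY))
    (hCj : ∀ P : Place Kbar (FN NY), Cj P = max 0 (-(P.ord (jBar NY))))
    {n : ℕ} (hn : 0 < n) (g u : FN N₂) (hgu : ((g ^ n * u : FN N₂) : Om) ∈ pullRR N N₂ B)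
    (a : FN N₂Y) (c₀ : Kbar) (hc₀ : c₀ ≠ 0)
    (hnorm : @Algebra.norm (FN N₂Y) (FN N₂) _ _ (algebraAlong φ) u =
      algebraMap Kbar (FN N₂Y) c₀ * a ^ n) :
    ((@Algebra.norm (FN N₂Y) (FN N₂) _ _ (algebraAlong φ) g * a : FN N₂Y) : Om) ∈
      pullRR NY N₂Y ((m * finrankAlong Kbar φ) • Cj) := by
  have h1 := norm_mem_pullRR N N₂ NY N₂Y hdiv φ hxt hφx m B hB Cj hCj (g ^ n * u) hgu
  rw [map_mul, map_pow, hnorm] at h1
  have hnonneg : ∀ P : Place Kbar (FN NY), 0 ≤ ((m * finrankAlong Kbar φ) • Cj) P := by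
    intro P
    rw [Finsupp.smul_apply, hCj, nsmul_eq_mul]
    exact mul_nonneg (Nat.cast_nonneg _) (le_max_left _ _)
  refine mem_pullRR_of_pow_mem NY N₂Y hnonneg hn (SetLike.coe_mem _) ?_
  have hcoe : ((@Algebra.norm (FN N₂Y) (FN N₂) _ _ (algebraAlong φ) g ^ n *
        (algebraMap Kbar (FN N₂Y) c₀ * a ^ n) : FN N₂Y) : Om) =
      ((@Algebra.norm (FN N₂Y) (FN N₂) _ _ (algebraAlong φ) g : FN N₂Y) : Om) ^ n *
        (algebraMap Kbar Om c₀ * (a : Om) ^ n) := rfl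
  rw [hcoe] at h1
  have hCC : (HahnSeries.C c₀⁻¹ : Om) * HahnSeries.C c₀ = 1 := by
    rw [← map_mul, inv_mul_cancel₀ hc₀, map_one]
  have e' : ((@Algebra.norm (FN N₂Y) (FN N₂) _ _ (algebraAlong φ) g * a : FN N₂Y) : Om) ^ n =
      c₀⁻¹ • (((@Algebra.norm (FN N₂Y) (FN N₂) _ _ (algebraAlong φ) g : FN N₂Y) : Om) ^ n *
        (algebraMap Kbar Om c₀ * (a : Om) ^ n)) := by
    rw [← HahnSeries.C_mul_eq_smul, algebraMap_LS_eq_C]
    show (((@Algebra.norm (FN N₂Y) (FN N₂) _ _ (algebraAlong φ) g : FN N₂Y) : Om) *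
      (a : Om)) ^ n = _
    calc (((@Algebra.norm (FN N₂Y) (FN N₂) _ _ (algebraAlong φ) g : FN N₂Y) : Om) *
          (a : Om)) ^ n
        = (HahnSeries.C c₀⁻¹ * HahnSeries.C c₀) *
          (((@Algebra.norm (FN N₂Y) (FN N₂) _ _ (algebraAlong φ) g : FN N₂Y) : Om) ^ n *
            (a : Om) ^ n) := by rw [hCC, one_mul, mul_pow]
      _ = _ := by ring
  rw [e']
  exact (pullRR NY N₂Y _).smul_mem _ h1

end NormPull

/-! ## The instances `φ = α, β` -/

section Instances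

variable (N' M q : ℕ) [NeZero N'] [NeZero M] [NeZero q]

/-- `α (j) = j` at the top level, seen in `F_{N' q}`. -/
theorem coe_alpha_jBar :
    ((heckeAlphaBar Kbar (M * q) q (jBar (M * q)) : FN (M * q * q)) : Om) =
      ((jBar (N' * q) : FN (N' * q)) : Om) := by
  rw [PoleBound.alpha_jBar]
  exact (PoleBound.coe_jBar' _).trans (PoleBound.coe_jBar' _).symm

/-- `β (j) = j_q` at the top level, seen in `F_{N' q}`. -/
theorem coe_beta_jBar :
    ((heckeBetaBar Kbar (M * q) q (jBar (M * q)) : FN (M * q * q)) : Om) =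
      ((jBarLevel (N' * q) q (Dvd.intro_left N' rfl) : FN (N' * q)) : Om) := by
  rw [PoleBound.beta_jBar]
  exact (PoleBound.coe_jBarLevel' _ q _).trans (PoleBound.coe_jBarLevel' _ q _).symm

/-- **[NORM-PULL], `φ = α`**: `g ∈ pullRR (N' q) (M q q) B`, `B ≤ m (j)_∞` ⟹
`N_α g ∈ pullRR N' (M q) (m d_α (j)_∞)`. -/
theorem norm_alpha_mem_pullRR (hdiv : N' * q ∣ M * q * q) (m : ℕ)
    (B : Divisor Kbar (FN (N' * q)))
    (hB : ∀ v : Place Kbar (FN (N' * q)), B v ≤ m * max 0 (-(v.ord (jBar (N' * q)))))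
    (Cj : Divisor Kbar (FN N'))
    (hCj : ∀ P : Place Kbar (FN N'), Cj P = max 0 (-(P.ord (jBar N'))))
    (g : FN (M * q * q)) (hg : (g : Om) ∈ pullRR (N' * q) (M * q * q) B) :
    ((@Algebra.norm (FN (M * q)) (FN (M * q * q)) _ _
        (algebraAlong (heckeAlphaBar Kbar (M * q) q)) g : FN (M * q)) : Om) ∈
      pullRR N' (M * q) ((m * finrankAlong Kbar (heckeAlphaBar Kbar (M * q) q)) • Cj) :=
  norm_mem_pullRR (N' * q) (M * q * q) N' (M * q) hdiv (heckeAlphaBar Kbar (M * q) q)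
    (Fermat.Agent.S18.FibreCount.transcendental_jBar (N' * q)) (coe_alpha_jBar N' M q)
    m B hB Cj hCj g hg

/-- **[NORM-PULL], `φ = β`**: `g ∈ pullRR (N' q) (M q q) B`, `B ≤ m (j_q)_∞` ⟹
`N_β g ∈ pullRR N' (M q) (m d_β (j)_∞)`. -/
theorem norm_beta_mem_pullRR (hdiv : N' * q ∣ M * q * q) (m : ℕ)
    (B : Divisor Kbar (FN (N' * q)))
    (hB : ∀ v : Place Kbar (FN (N' * q)),
      B v ≤ m * max 0 (-(v.ord (jBarLevel (N' * q) q (Dvd.intro_left N' rfl)))))
    (Cj : Divisor Kbar (FN N'))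
    (hCj : ∀ P : Place Kbar (FN N'), Cj P = max 0 (-(P.ord (jBar N'))))
    (g : FN (M * q * q)) (hg : (g : Om) ∈ pullRR (N' * q) (M * q * q) B) :
    ((@Algebra.norm (FN (M * q)) (FN (M * q * q)) _ _
        (algebraAlong (heckeBetaBar Kbar (M * q) q)) g : FN (M * q)) : Om) ∈
      pullRR N' (M * q) ((m * finrankAlong Kbar (heckeBetaBar Kbar (M * q) q)) • Cj) :=
  norm_mem_pullRR (N' * q) (M * q * q) N' (M * q) hdiv (heckeBetaBar Kbar (M * q) q)
    (InclPull.transcendental_jBarLevel (N' * q) q _) (coe_beta_jBar N' M q)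
    m B hB Cj hCj g hg

/-- **Junction, `φ = α`**. -/
theorem norm_alpha_mul_mem_pullRR (hdiv : N' * q ∣ M * q * q) (m : ℕ)
    (B : Divisor Kbar (FN (N' * q)))
    (hB : ∀ v : Place Kbar (FN (N' * q)), B v ≤ m * max 0 (-(v.ord (jBar (N' * q)))))
    (Cj : Divisor Kbar (FN N'))
    (hCj : ∀ P : Place Kbar (FN N'), Cj P = max 0 (-(P.ord (jBar N'))))
    {n : ℕ} (hn : 0 < n) (g u : FN (M * q * q))
    (hgu : ((g ^ n * u : FN (M * q * q)) : Om) ∈ pullRR (N' * q) (M * q * q) B)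
    (a : FN (M * q)) (c₀ : Kbar) (hc₀ : c₀ ≠ 0)
    (hnorm : @Algebra.norm (FN (M * q)) (FN (M * q * q)) _ _
        (algebraAlong (heckeAlphaBar Kbar (M * q) q)) u =
      algebraMap Kbar (FN (M * q)) c₀ * a ^ n) :
    ((@Algebra.norm (FN (M * q)) (FN (M * q * q)) _ _
        (algebraAlong (heckeAlphaBar Kbar (M * q) q)) g * a : FN (M * q)) : Om) ∈
      pullRR N' (M * q) ((m * finrankAlong Kbar (heckeAlphaBar Kbar (M * q) q)) • Cj) :=
  norm_mul_mem_pullRR (N' * q) (M * q * q) N' (M * q) hdiv (heckeAlphaBar Kbar (M * q) q)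
    (Fermat.Agent.S18.FibreCount.transcendental_jBar (N' * q)) (coe_alpha_jBar N' M q)
    m B hB Cj hCj hn g u hgu a c₀ hc₀ hnorm

/-- **Junction, `φ = β`**. -/
theorem norm_beta_mul_mem_pullRR (hdiv : N' * q ∣ M * q * q) (m : ℕ)
    (B : Divisor Kbar (FN (N' * q)))
    (hB : ∀ v : Place Kbar (FN (N' * q)),
      B v ≤ m * max 0 (-(v.ord (jBarLevel (N' * q) q (Dvd.intro_left N' rfl)))))
    (Cj : Divisor Kbar (FN N'))
    (hCj : ∀ P : Place Kbar (FN N'), Cj P = max 0 (-(P.ord (jBar N'))))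
    {n : ℕ} (hn : 0 < n) (g u : FN (M * q * q))
    (hgu : ((g ^ n * u : FN (M * q * q)) : Om) ∈ pullRR (N' * q) (M * q * q) B)
    (a : FN (M * q)) (c₀ : Kbar) (hc₀ : c₀ ≠ 0)
    (hnorm : @Algebra.norm (FN (M * q)) (FN (M * q * q)) _ _
        (algebraAlong (heckeBetaBar Kbar (M * q) q)) u =
      algebraMap Kbar (FN (M * q)) c₀ * a ^ n) :
    ((@Algebra.norm (FN (M * q)) (FN (M * q * q)) _ _
        (algebraAlong (heckeBetaBar Kbar (M * q) q)) g * a : FN (M * q)) : Om) ∈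
      pullRR N' (M * q) ((m * finrankAlong Kbar (heckeBetaBar Kbar (M * q) q)) • Cj) :=
  norm_mul_mem_pullRR (N' * q) (M * q * q) N' (M * q) hdiv (heckeBetaBar Kbar (M * q) q)
    (InclPull.transcendental_jBarLevel (N' * q) q _) (coe_beta_jBar N' M q)
    m B hB Cj hCj hn g u hgu a c₀ hc₀ hnorm

end Instances

end Fermat.Agent.S36.NormReg

end
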