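import Mathlib
import Fermat.Agent.S36.NormReg
import Fermat.Agent.S36.Plan
import Fermat.Agent.S36.PoleQ2
import Fermat.Agent.S36.PoleChain
import Fermat.Agent.S34.Lift
import Fermat.Agent.S18.MainLemmas

/-!
# S36 / P8 — [NORM-E3]: the degeneracy norms on `L(D + cE)`, `E = (j)_∞ + (j_q)_∞ + (j_{q²})_∞`
(helper53)

`S36/NormReg` in the `IsE3` vocabulary of `S36/Plan`.  Levels: divisor level `N' q`, top level
`M q q`, target levels `N'` (divisors) and `M q` (functions); `N' ∣ M q`.  Frame-free, char. 0.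

* `j_le_isE3`, `jq_le_isE3`, `isE3_le_j`, `isE3_le_jq` : `(j)_∞, (j_q)_∞ ≤ E ≤ (1 + q + q²) (j)_∞`,
  `E ≤ (2q + 1) (j_q)_∞` at any level `N`, `q² ∣ N`;
* `norm_alpha_mem_of_E3`, `norm_beta_mem_of_E3` : `g ∈ L(cE)` at the top level ⟹
  `N_α g, N_β g ∈ pullRR N' (M q) (c' (j)_∞)`;
* `mul_pow_mem_of_ord` : `g ∈ L(D + cE)`, `ord u = n D` ⟹ `u gⁿ ∈ L(n c E)`;
* `norm_alpha_mul_mem_of_E3`, `norm_beta_mul_mem_of_E3` : the junction with a pair `(D, n, u)`:
  `g ∈ L(D + cE)`, `N_α u = c₀ aⁿ` ⟹ `N_α g · a ∈ pullRR N' (M q) (c' (j)_∞)`;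
* `alpha_mem_E3`, `beta_mem_E3` : back up: for `y ∈ pullRR N' (M q) (c (j)_∞)`, `α^* y = y` and
  `β^* y = y(T^q)` lie in `L(cE)` at the top level;
* `alpha_norm_alpha_mul_mem_E3`, `beta_norm_beta_mul_mem_E3`, `beta_norm_alpha_mul_mem_E3`,
  `alpha_norm_beta_mul_mem_E3` : the composites `α^*(N_α g · a)`, `β^*(N_β g · b)` (and the two
  mixed ones) in `L(c' E)` at the top level.
-/

set_option autoImplicit false
set_option linter.style.haveILetI false

noncomputable section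

namespace Fermat.Agent.S36.NormE3

open ModularCurve AlgebraicCurve Fermat.Agent.S24 Fermat.Agent.S18.Content Fermat.Agent.S18.Plan
open Fermat.Agent.S18 Fermat.Agent.S34 Fermat.Agent.Lib

/-! ## Pole comparisons -/

section Poles

variable (N q : ℕ) [NeZero N] [NeZero q] (hq : q ∣ N) (hqq : q * q ∣ N)

/-- `(j)_∞ ≤ E`. -/
theorem j_le_isE3 {E : Divisor Kbar (FN N)} (hE : Plan.IsE3 N q hq hqq E)
    (P : Place Kbar (FN N)) : max 0 (-(P.ord (jBar N))) ≤ E P := by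
  rw [hE P]
  have h1 := le_max_left 0 (-(P.ord (jBarLevel N q hq)))
  have h2 := le_max_left 0 (-(P.ord (jBarLevel N (q * q) hqq)))
  linarith

/-- `(j_q)_∞ ≤ E`. -/
theorem jq_le_isE3 {E : Divisor Kbar (FN N)} (hE : Plan.IsE3 N q hq hqq E)
    (P : Place Kbar (FN N)) : max 0 (-(P.ord (jBarLevel N q hq))) ≤ E P := by
  rw [hE P]
  have h1 := le_max_left 0 (-(P.ord (jBar N)))
  have h2 := le_max_left 0 (-(P.ord (jBarLevel N (q * q) hqq)))
  linarith

/-- `E ≤ (1 + q + q²) (j)_∞`. -/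
theorem isE3_le_j {E : Divisor Kbar (FN N)} (hE : Plan.IsE3 N q hq hqq E)
    (P : Place Kbar (FN N)) :
    E P ≤ ((1 + q + q * q : ℕ) : ℤ) * max 0 (-(P.ord (jBar N))) := by
  rw [hE P]
  have h1 := PoleQ2.max_le_of_min_le (PoleQ2.ord_jq_ge hq P)
  have h2 := PoleQ2.max_le_of_min_le (PoleQ2.ord_jqq_ge hqq P)
  push_cast at h2 ⊢
  linarith

/-- `E ≤ (2q + 1) (j_q)_∞` (`q` prime). -/
theorem isE3_le_jq (hqp : q.Prime) {E : Divisor Kbar (FN N)} (hE : Plan.IsE3 N q hq hqq E)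
    (P : Place Kbar (FN N)) :
    E P ≤ ((2 * q + 1 : ℕ) : ℤ) * max 0 (-(P.ord (jBarLevel N q hq))) := by
  rw [hE P]
  have hqq' : q ^ 2 ∣ N := by rw [sq]; exact hqq
  have h1 := PoleQ2.max_le_of_min_le (PoleChain.ord_chain N q hq hqq' hqp P).2.1
  have h2 := PoleQ2.max_le_of_min_le (PoleQ2.ord_jqq_ge_jq hq hqq P)
  push_cast
  linarith

end Poles

/-! ## Norms of sections of `L(cE)` and the junction with a pair `(D, n, u)` -/

section Norm

variable (N' M q : ℕ) [NeZero N'] [NeZero M] [NeZero q] (hq : q ∣ N' * q)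
  (hqq : q * q ∣ N' * q)

/-- **`N_α` on `L(cE)`**: `g ∈ L(cE)` at the top level ⟹
`N_α g ∈ pullRR N' (M q) (c (1 + q + q²) d_α (j)_∞)`. -/
theorem norm_alpha_mem_of_E3 (hdivY : N' ∣ M * q) {E : Divisor Kbar (FN (N' * q))}
    (hE : Plan.IsE3 (N' * q) q hq hqq E) (Cj : Divisor Kbar (FN N'))
    (hCj : ∀ P : Place Kbar (FN N'), Cj P = max 0 (-(P.ord (jBar N'))))
    (c : ℕ) (g : FN (M * q * q)) (hg : (g : Om) ∈ pullRR (N' * q) (M * q * q) (c • E)) :
    ((@Algebra.norm (FN (M * q)) (FN (M * q * q)) _ _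
        (algebraAlong (heckeAlphaBar Kbar (M * q) q)) g : FN (M * q)) : Om) ∈
      pullRR N' (M * q)
        ((c * (1 + q + q * q) * finrankAlong Kbar (heckeAlphaBar Kbar (M * q) q)) • Cj) := by
  refine NormReg.norm_alpha_mem_pullRR N' M q (Nat.mul_dvd_mul_right hdivY q)
    (c * (1 + q + q * q)) (c • E) (fun v => ?_) Cj hCj g hg
  rw [Finsupp.smul_apply, nsmul_eq_mul]
  have h := isE3_le_j (N' * q) q hq hqq hE v
  have hc : (0 : ℤ) ≤ c := Nat.cast_nonneg c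
  calc (c : ℤ) * E v
      ≤ c * (((1 + q + q * q : ℕ) : ℤ) * max 0 (-(v.ord (jBar (N' * q))))) :=
        mul_le_mul_of_nonneg_left h hc
    _ = ((c * (1 + q + q * q) : ℕ) : ℤ) * max 0 (-(v.ord (jBar (N' * q)))) := by
        push_cast
        ring

/-- **`N_β` on `L(cE)`**: `g ∈ L(cE)` at the top level ⟹
`N_β g ∈ pullRR N' (M q) (c (2q + 1) d_β (j)_∞)`. -/
theorem norm_beta_mem_of_E3 (hqp : q.Prime) (hdivY : N' ∣ M * q)
    {E : Divisor Kbar (FN (N' * q))}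
    (hE : Plan.IsE3 (N' * q) q hq hqq E) (Cj : Divisor Kbar (FN N'))
    (hCj : ∀ P : Place Kbar (FN N'), Cj P = max 0 (-(P.ord (jBar N'))))
    (c : ℕ) (g : FN (M * q * q)) (hg : (g : Om) ∈ pullRR (N' * q) (M * q * q) (c • E)) :
    ((@Algebra.norm (FN (M * q)) (FN (M * q * q)) _ _
        (algebraAlong (heckeBetaBar Kbar (M * q) q)) g : FN (M * q)) : Om) ∈
      pullRR N' (M * q)
        ((c * (2 * q + 1) * finrankAlong Kbar (heckeBetaBar Kbar (M * q) q)) • Cj) := by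
  refine NormReg.norm_beta_mem_pullRR N' M q (Nat.mul_dvd_mul_right hdivY q)
    (c * (2 * q + 1)) (c • E) (fun v => ?_) Cj hCj g hg
  rw [Finsupp.smul_apply, nsmul_eq_mul]
  have h := isE3_le_jq (N' * q) q hq hqq hqp hE v
  have hc : (0 : ℤ) ≤ c := Nat.cast_nonneg c
  calc (c : ℤ) * E v
      ≤ c * (((2 * q + 1 : ℕ) : ℤ) * max 0 (-(v.ord (jBarLevel (N' * q) q hq)))) :=
        mul_le_mul_of_nonneg_left h hc
    _ = ((c * (2 * q + 1) : ℕ) : ℤ) * max 0 (-(v.ord (jBarLevel (N' * q) q hq))) := by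
        push_cast
        ring

omit hq hqq in
/-- `g ∈ L(D + cE)` and `ord u = n D` (`u ∈ F_{N'q}^×`) ⟹ `u gⁿ ∈ L(n c E)` (any `E`). -/
theorem mul_pow_mem_of_ord (hdiv : N' * q ∣ M * q * q) (E D : Divisor Kbar (FN (N' * q)))
    (n : ℕ) (u : FN (N' * q)) (hu0 : u ≠ 0)
    (hord : ∀ P : Place Kbar (FN (N' * q)), P.ord u = n * D P) (c : ℕ) {g : Om}
    (hg : g ∈ pullRR (N' * q) (M * q * q) (D + c • E)) :
    (u : Om) * g ^ n ∈ pullRR (N' * q) (M * q * q) ((n * c) • E) := by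
  have h1 : g ^ n ∈ pullRR (N' * q) (M * q * q) (n • (D + c • E)) :=
    Fermat.Agent.S18.Main.pow_mem_pullRR n
      (fun P => by rw [Finsupp.smul_apply, nsmul_eq_mul]) hg
  refine Fermat.Agent.S34.Lift.mul_mem_pullRR_of_le (PullStep.bar_le hdiv) hu0 (fun P => ?_) h1
  rw [Finsupp.smul_apply, Finsupp.smul_apply, Finsupp.add_apply, Finsupp.smul_apply, hord P]
  simp only [nsmul_eq_mul]
  push_cast
  apply le_of_eq
  ring

/-- **Junction, `α`**: `g ∈ L(D + cE)` at the top level, `u ∈ F_{N'q}^×` with `ord u = n D`, `u'`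
its copy at the top level and `N_α u' = c₀ aⁿ` ⟹ `N_α g · a ∈ pullRR N' (M q) (c' (j)_∞)`,
`c' = n c (1 + q + q²) d_α`. -/
theorem norm_alpha_mul_mem_of_E3 (hdivY : N' ∣ M * q) {E : Divisor Kbar (FN (N' * q))}
    (hE : Plan.IsE3 (N' * q) q hq hqq E) (Cj : Divisor Kbar (FN N'))
    (hCj : ∀ P : Place Kbar (FN N'), Cj P = max 0 (-(P.ord (jBar N'))))
    (D : Divisor Kbar (FN (N' * q))) {n : ℕ} (hn : 0 < n) (u : FN (N' * q)) (hu0 : u ≠ 0)
    (hord : ∀ P : Place Kbar (FN (N' * q)), P.ord u = n * D P)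
    (u' : FN (M * q * q)) (hu' : (u' : Om) = (u : Om)) (c : ℕ) (g : FN (M * q * q))
    (hg : (g : Om) ∈ pullRR (N' * q) (M * q * q) (D + c • E))
    (a : FN (M * q)) (c₀ : Kbar) (hc₀ : c₀ ≠ 0)
    (hnorm : @Algebra.norm (FN (M * q)) (FN (M * q * q)) _ _
        (algebraAlong (heckeAlphaBar Kbar (M * q) q)) u' =
      algebraMap Kbar (FN (M * q)) c₀ * a ^ n) :
    ((@Algebra.norm (FN (M * q)) (FN (M * q * q)) _ _
        (algebraAlong (heckeAlphaBar Kbar (M * q) q)) g * a : FN (M * q)) : Om) ∈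
      pullRR N' (M * q)
        ((n * c * (1 + q + q * q) * finrankAlong Kbar (heckeAlphaBar Kbar (M * q) q)) • Cj) := by
  have hdiv : N' * q ∣ M * q * q := Nat.mul_dvd_mul_right hdivY q
  have h1 := mul_pow_mem_of_ord N' M q hdiv E D n u hu0 hord c hg
  have h2 : ((g ^ n * u' : FN (M * q * q)) : Om) ∈ pullRR (N' * q) (M * q * q) ((n * c) • E) := by
    have e : ((g ^ n * u' : FN (M * q * q)) : Om) = (u : Om) * (g : Om) ^ n := by
      rw [← hu']
      exact mul_comm ((g : Om) ^ n) (u' : Om)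
    rw [e]
    exact h1
  refine NormReg.norm_alpha_mul_mem_pullRR N' M q hdiv (n * c * (1 + q + q * q)) ((n * c) • E)
    (fun v => ?_) Cj hCj hn g u' h2 a c₀ hc₀ hnorm
  rw [Finsupp.smul_apply, nsmul_eq_mul]
  have h := isE3_le_j (N' * q) q hq hqq hE v
  have hc : (0 : ℤ) ≤ ((n * c : ℕ) : ℤ) := Nat.cast_nonneg _
  calc ((n * c : ℕ) : ℤ) * E v
      ≤ ((n * c : ℕ) : ℤ) * (((1 + q + q * q : ℕ) : ℤ) * max 0 (-(v.ord (jBar (N' * q))))) :=
        mul_le_mul_of_nonneg_left h hc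
    _ = ((n * c * (1 + q + q * q) : ℕ) : ℤ) * max 0 (-(v.ord (jBar (N' * q)))) := by
        push_cast
        ring

/-- **Junction, `β`**: `g ∈ L(D + cE)` at the top level, `u ∈ F_{N'q}^×` with `ord u = n D`, `u'`
its copy at the top level and `N_β u' = c₀ bⁿ` ⟹ `N_β g · b ∈ pullRR N' (M q) (c' (j)_∞)`,
`c' = n c (2q + 1) d_β`. -/
theorem norm_beta_mul_mem_of_E3 (hqp : q.Prime) (hdivY : N' ∣ M * q)
    {E : Divisor Kbar (FN (N' * q))}
    (hE : Plan.IsE3 (N' * q) q hq hqq E) (Cj : Divisor Kbar (FN N'))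
    (hCj : ∀ P : Place Kbar (FN N'), Cj P = max 0 (-(P.ord (jBar N'))))
    (D : Divisor Kbar (FN (N' * q))) {n : ℕ} (hn : 0 < n) (u : FN (N' * q)) (hu0 : u ≠ 0)
    (hord : ∀ P : Place Kbar (FN (N' * q)), P.ord u = n * D P)
    (u' : FN (M * q * q)) (hu' : (u' : Om) = (u : Om)) (c : ℕ) (g : FN (M * q * q))
    (hg : (g : Om) ∈ pullRR (N' * q) (M * q * q) (D + c • E))
    (b : FN (M * q)) (c₀ : Kbar) (hc₀ : c₀ ≠ 0)
    (hnorm : @Algebra.norm (FN (M * q)) (FN (M * q * q)) _ _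
        (algebraAlong (heckeBetaBar Kbar (M * q) q)) u' =
      algebraMap Kbar (FN (M * q)) c₀ * b ^ n) :
    ((@Algebra.norm (FN (M * q)) (FN (M * q * q)) _ _
        (algebraAlong (heckeBetaBar Kbar (M * q) q)) g * b : FN (M * q)) : Om) ∈
      pullRR N' (M * q)
        ((n * c * (2 * q + 1) * finrankAlong Kbar (heckeBetaBar Kbar (M * q) q)) • Cj) := by
  have hdiv : N' * q ∣ M * q * q := Nat.mul_dvd_mul_right hdivY q
  have h1 := mul_pow_mem_of_ord N' M q hdiv E D n u hu0 hord c hg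
  have h2 : ((g ^ n * u' : FN (M * q * q)) : Om) ∈ pullRR (N' * q) (M * q * q) ((n * c) • E) := by
    have e : ((g ^ n * u' : FN (M * q * q)) : Om) = (u : Om) * (g : Om) ^ n := by
      rw [← hu']
      exact mul_comm ((g : Om) ^ n) (u' : Om)
    rw [e]
    exact h1
  refine NormReg.norm_beta_mul_mem_pullRR N' M q hdiv (n * c * (2 * q + 1)) ((n * c) • E)
    (fun v => ?_) Cj hCj hn g u' h2 b c₀ hc₀ hnorm
  rw [Finsupp.smul_apply, nsmul_eq_mul]
  have h := isE3_le_jq (N' * q) q hq hqq hqp hE v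
  have hc : (0 : ℤ) ≤ ((n * c : ℕ) : ℤ) := Nat.cast_nonneg _
  calc ((n * c : ℕ) : ℤ) * E v
      ≤ ((n * c : ℕ) : ℤ) *
          (((2 * q + 1 : ℕ) : ℤ) * max 0 (-(v.ord (jBarLevel (N' * q) q hq)))) :=
        mul_le_mul_of_nonneg_left h hc
    _ = ((n * c * (2 * q + 1) : ℕ) : ℤ) * max 0 (-(v.ord (jBarLevel (N' * q) q hq))) := by
        push_cast
        ring

end Norm

/-! ## Back up to the top level -/

section Back

variable (N' M q : ℕ) [NeZero N'] [NeZero M] [NeZero q] (hq : q ∣ N' * q)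
  (hqq : q * q ∣ N' * q)

omit hq hqq in
/-- Integrality over `Q̄[j]` and `Q̄[j⁻¹]` (inside `F_{Mq}`) of a section of
`pullRR N' (M q) (c (j)_∞)`. -/
theorem isIntegral_of_mem (hdivY : N' ∣ M * q) (Cj : Divisor Kbar (FN N'))
    (hCj : ∀ P : Place Kbar (FN N'), Cj P = max 0 (-(P.ord (jBar N'))))
    (c : ℕ) (y : FN (M * q)) (hy : (y : Om) ∈ pullRR N' (M * q) (c • Cj)) :
    IsIntegral (Algebra.adjoin Kbar {jBar (M * q)}) y ∧
      IsIntegral (Algebra.adjoin Kbar {(jBar (M * q))⁻¹}) ((jBar (M * q))⁻¹ ^ c * y) := by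
  have hB : ∀ v : Place Kbar (FN N'), (c • Cj) v ≤ c * max 0 (-(v.ord (jBar N'))) := fun v => by
    rw [Finsupp.smul_apply, hCj, nsmul_eq_mul]
  obtain ⟨h1, h2⟩ := InclPull.isIntegral_adjoin_of_mem_pullRR N' (M * q) hdivY
    (Fermat.Agent.S18.FibreCount.transcendental_jBar N') c (c • Cj) hB hy
  have hj : ((jBar (M * q) : FN (M * q)) : Om) = ((jBar N' : FN N') : Om) :=
    (PoleBound.coe_jBar' _).trans (PoleBound.coe_jBar' _).symm
  refine ⟨?_, ?_⟩
  · apply NormReg.isIntegral_of_coe (modularFunctionFieldBar (M * q))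
    rw [hj]
    exact h1
  · apply NormReg.isIntegral_of_coe (modularFunctionFieldBar (M * q))
    have e1 : (((jBar (M * q))⁻¹ : FN (M * q)) : Om) = ((jBar N' : FN N') : Om)⁻¹ := by
      rw [IntermediateField.coe_inv, hj]
    have e2 : (((jBar (M * q))⁻¹ ^ c * y : FN (M * q)) : Om) =
        ((jBar N' : FN N') : Om)⁻¹ ^ c * (y : Om) := by
      rw [← e1]
      rfl
    rw [e1, e2]
    exact h2

/-- **`α^*`**: a section `y` of `pullRR N' (M q) (c (j)_∞)` lies in `L(cE)` at the top level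
(`(α y : Q̄((T))) = y`). -/
theorem alpha_mem_E3 (hdivY : N' ∣ M * q) {E : Divisor Kbar (FN (N' * q))}
    (hE : Plan.IsE3 (N' * q) q hq hqq E) (Cj : Divisor Kbar (FN N'))
    (hCj : ∀ P : Place Kbar (FN N'), Cj P = max 0 (-(P.ord (jBar N'))))
    (c : ℕ) (y : FN (M * q)) (hy : (y : Om) ∈ pullRR N' (M * q) (c • Cj)) :
    (y : Om) ∈ pullRR (N' * q) (M * q * q) (c • E) := by
  obtain ⟨hi1, hi2⟩ := isIntegral_of_mem N' M q hdivY Cj hCj c y hy
  have k1 := PullWJ.isIntegral_polyRing_map (heckeAlphaBar Kbar (M * q) q) (jBar (M * q)) y hi1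
  have k2 := PullWJ.isIntegral_polyRing_map (heckeAlphaBar Kbar (M * q) q) (jBar (M * q))⁻¹ _ hi2
  rw [map_mul, map_pow, map_inv₀, PoleBound.alpha_jBar] at k2
  rw [PoleBound.alpha_jBar] at k1
  obtain ⟨Cp, hCp⟩ := PullWJ.exists_poleDivisor (jBar (N' * q))
    (Fermat.Agent.S18.RR0.jBar_ne_zero (N' * q))
  have h3 := PullWJ.coe_mem_pullRR_of_isIntegral c (jBar (N' * q))
    (Fermat.Agent.S18.RR0.jBar_ne_zero (N' * q)) (c • Cp)
    (fun P => by rw [Finsupp.smul_apply, hCp, nsmul_eq_mul]) (jBar (M * q * q))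
    ((PoleBound.coe_jBar' _).trans (PoleBound.coe_jBar' _).symm)
    (heckeAlphaBar Kbar (M * q) q y) k1 k2
  rw [coe_heckeAlphaBar] at h3
  refine Fermat.Agent.S18.Main.pullRR_mono (fun P => ?_) h3
  rw [Finsupp.smul_apply, Finsupp.smul_apply, hCp]
  exact nsmul_le_nsmul_right (j_le_isE3 (N' * q) q hq hqq hE P) c

/-- **`β^*`**: for a section `y` of `pullRR N' (M q) (c (j)_∞)`, `β y = y(T^q)` lies in `L(cE)`
at the top level. -/
theorem beta_mem_E3 (hdivY : N' ∣ M * q) {E : Divisor Kbar (FN (N' * q))}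
    (hE : Plan.IsE3 (N' * q) q hq hqq E) (Cj : Divisor Kbar (FN N'))
    (hCj : ∀ P : Place Kbar (FN N'), Cj P = max 0 (-(P.ord (jBar N'))))
    (c : ℕ) (y : FN (M * q)) (hy : (y : Om) ∈ pullRR N' (M * q) (c • Cj)) :
    qExpand Kbar q (y : Om) ∈ pullRR (N' * q) (M * q * q) (c • E) := by
  obtain ⟨hi1, hi2⟩ := isIntegral_of_mem N' M q hdivY Cj hCj c y hy
  have k1 := PullWJ.isIntegral_polyRing_map (heckeBetaBar Kbar (M * q) q) (jBar (M * q)) y hi1
  have k2 := PullWJ.isIntegral_polyRing_map (heckeBetaBar Kbar (M * q) q) (jBar (M * q))⁻¹ _ hi2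
  rw [map_mul, map_pow, map_inv₀, PoleBound.beta_jBar] at k2
  rw [PoleBound.beta_jBar] at k1
  have hjq0 : jBarLevel (N' * q) q hq ≠ 0 := fun h =>
    InclPull.transcendental_jBarLevel (N' * q) q hq (h ▸ isAlgebraic_zero)
  obtain ⟨Cq, hCq⟩ := PullWJ.exists_poleDivisor (jBarLevel (N' * q) q hq) hjq0
  have h3 := PullWJ.coe_mem_pullRR_of_isIntegral c (jBarLevel (N' * q) q hq) hjq0 (c • Cq)
    (fun P => by rw [Finsupp.smul_apply, hCq, nsmul_eq_mul])
    (jBarLevel (M * q * q) q (Dvd.intro_left (M * q) rfl))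
    ((PoleBound.coe_jBarLevel' _ q _).trans (PoleBound.coe_jBarLevel' _ q _).symm)
    (heckeBetaBar Kbar (M * q) q y) k1 k2
  rw [coe_heckeBetaBar] at h3
  refine Fermat.Agent.S18.Main.pullRR_mono (fun P => ?_) h3
  rw [Finsupp.smul_apply, Finsupp.smul_apply, hCq]
  exact nsmul_le_nsmul_right (jq_le_isE3 (N' * q) q hq hqq hE P) c

end Back

/-! ## The composites `α^*(N_α g · a)`, `β^*(N_β g · b)` and the mixed ones -/

section Composite

variable (N' M q : ℕ) [NeZero N'] [NeZero M] [NeZero q] (hq : q ∣ N' * q)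
  (hqq : q * q ∣ N' * q)

/-- `α^*(N_α g · a) ∈ L(c' E)` at the top level. -/
theorem alpha_norm_alpha_mul_mem_E3 (hdivY : N' ∣ M * q) {E : Divisor Kbar (FN (N' * q))}
    (hE : Plan.IsE3 (N' * q) q hq hqq E)
    (D : Divisor Kbar (FN (N' * q))) {n : ℕ} (hn : 0 < n) (u : FN (N' * q)) (hu0 : u ≠ 0)
    (hord : ∀ P : Place Kbar (FN (N' * q)), P.ord u = n * D P)
    (u' : FN (M * q * q)) (hu' : (u' : Om) = (u : Om)) (c : ℕ) (g : FN (M * q * q))
    (hg : (g : Om) ∈ pullRR (N' * q) (M * q * q) (D + c • E))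
    (a : FN (M * q)) (c₀ : Kbar) (hc₀ : c₀ ≠ 0)
    (hnorm : @Algebra.norm (FN (M * q)) (FN (M * q * q)) _ _
        (algebraAlong (heckeAlphaBar Kbar (M * q) q)) u' =
      algebraMap Kbar (FN (M * q)) c₀ * a ^ n) :
    ((@Algebra.norm (FN (M * q)) (FN (M * q * q)) _ _
        (algebraAlong (heckeAlphaBar Kbar (M * q) q)) g * a : FN (M * q)) : Om) ∈
      pullRR (N' * q) (M * q * q)
        ((n * c * (1 + q + q * q) * finrankAlong Kbar (heckeAlphaBar Kbar (M * q) q)) • E) := by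
  obtain ⟨Cj, hCj⟩ := PullWJ.exists_poleDivisor (jBar N') (Fermat.Agent.S18.RR0.jBar_ne_zero N')
  exact alpha_mem_E3 N' M q hq hqq hdivY hE Cj hCj _ _
    (norm_alpha_mul_mem_of_E3 N' M q hq hqq hdivY hE Cj hCj D hn u hu0 hord u' hu' c g hg a c₀
      hc₀ hnorm)

/-- `β^*(N_α g · a) ∈ L(c' E)` at the top level. -/
theorem beta_norm_alpha_mul_mem_E3 (hdivY : N' ∣ M * q) {E : Divisor Kbar (FN (N' * q))}
    (hE : Plan.IsE3 (N' * q) q hq hqq E)
    (D : Divisor Kbar (FN (N' * q))) {n : ℕ} (hn : 0 < n) (u : FN (N' * q)) (hu0 : u ≠ 0)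
    (hord : ∀ P : Place Kbar (FN (N' * q)), P.ord u = n * D P)
    (u' : FN (M * q * q)) (hu' : (u' : Om) = (u : Om)) (c : ℕ) (g : FN (M * q * q))
    (hg : (g : Om) ∈ pullRR (N' * q) (M * q * q) (D + c • E))
    (a : FN (M * q)) (c₀ : Kbar) (hc₀ : c₀ ≠ 0)
    (hnorm : @Algebra.norm (FN (M * q)) (FN (M * q * q)) _ _
        (algebraAlong (heckeAlphaBar Kbar (M * q) q)) u' =
      algebraMap Kbar (FN (M * q)) c₀ * a ^ n) :
    qExpand Kbar q ((@Algebra.norm (FN (M * q)) (FN (M * q * q)) _ _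
        (algebraAlong (heckeAlphaBar Kbar (M * q) q)) g * a : FN (M * q)) : Om) ∈
      pullRR (N' * q) (M * q * q)
        ((n * c * (1 + q + q * q) * finrankAlong Kbar (heckeAlphaBar Kbar (M * q) q)) • E) := by
  obtain ⟨Cj, hCj⟩ := PullWJ.exists_poleDivisor (jBar N') (Fermat.Agent.S18.RR0.jBar_ne_zero N')
  exact beta_mem_E3 N' M q hq hqq hdivY hE Cj hCj _ _
    (norm_alpha_mul_mem_of_E3 N' M q hq hqq hdivY hE Cj hCj D hn u hu0 hord u' hu' c g hg a c₀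
      hc₀ hnorm)

/-- `β^*(N_β g · b) ∈ L(c' E)` at the top level. -/
theorem beta_norm_beta_mul_mem_E3 (hqp : q.Prime) (hdivY : N' ∣ M * q)
    {E : Divisor Kbar (FN (N' * q))} (hE : Plan.IsE3 (N' * q) q hq hqq E)
    (D : Divisor Kbar (FN (N' * q))) {n : ℕ} (hn : 0 < n) (u : FN (N' * q)) (hu0 : u ≠ 0)
    (hord : ∀ P : Place Kbar (FN (N' * q)), P.ord u = n * D P)
    (u' : FN (M * q * q)) (hu' : (u' : Om) = (u : Om)) (c : ℕ) (g : FN (M * q * q))
    (hg : (g : Om) ∈ pullRR (N' * q) (M * q * q) (D + c • E))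
    (b : FN (M * q)) (c₀ : Kbar) (hc₀ : c₀ ≠ 0)
    (hnorm : @Algebra.norm (FN (M * q)) (FN (M * q * q)) _ _
        (algebraAlong (heckeBetaBar Kbar (M * q) q)) u' =
      algebraMap Kbar (FN (M * q)) c₀ * b ^ n) :
    qExpand Kbar q ((@Algebra.norm (FN (M * q)) (FN (M * q * q)) _ _
        (algebraAlong (heckeBetaBar Kbar (M * q) q)) g * b : FN (M * q)) : Om) ∈
      pullRR (N' * q) (M * q * q)
        ((n * c * (2 * q + 1) * finrankAlong Kbar (heckeBetaBar Kbar (M * q) q)) • E) := by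
  obtain ⟨Cj, hCj⟩ := PullWJ.exists_poleDivisor (jBar N') (Fermat.Agent.S18.RR0.jBar_ne_zero N')
  exact beta_mem_E3 N' M q hq hqq hdivY hE Cj hCj _ _
    (norm_beta_mul_mem_of_E3 N' M q hq hqq hqp hdivY hE Cj hCj D hn u hu0 hord u' hu' c g hg b c₀
      hc₀ hnorm)

/-- `α^*(N_β g · b) ∈ L(c' E)` at the top level. -/
theorem alpha_norm_beta_mul_mem_E3 (hqp : q.Prime) (hdivY : N' ∣ M * q)
    {E : Divisor Kbar (FN (N' * q))} (hE : Plan.IsE3 (N' * q) q hq hqq E)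
    (D : Divisor Kbar (FN (N' * q))) {n : ℕ} (hn : 0 < n) (u : FN (N' * q)) (hu0 : u ≠ 0)
    (hord : ∀ P : Place Kbar (FN (N' * q)), P.ord u = n * D P)
    (u' : FN (M * q * q)) (hu' : (u' : Om) = (u : Om)) (c : ℕ) (g : FN (M * q * q))
    (hg : (g : Om) ∈ pullRR (N' * q) (M * q * q) (D + c • E))
    (b : FN (M * q)) (c₀ : Kbar) (hc₀ : c₀ ≠ 0)
    (hnorm : @Algebra.norm (FN (M * q)) (FN (M * q * q)) _ _
        (algebraAlong (heckeBetaBar Kbar (M * q) q)) u' =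
      algebraMap Kbar (FN (M * q)) c₀ * b ^ n) :
    ((@Algebra.norm (FN (M * q)) (FN (M * q * q)) _ _
        (algebraAlong (heckeBetaBar Kbar (M * q) q)) g * b : FN (M * q)) : Om) ∈
      pullRR (N' * q) (M * q * q)
        ((n * c * (2 * q + 1) * finrankAlong Kbar (heckeBetaBar Kbar (M * q) q)) • E) := by
  obtain ⟨Cj, hCj⟩ := PullWJ.exists_poleDivisor (jBar N') (Fermat.Agent.S18.RR0.jBar_ne_zero N')
  exact alpha_mem_E3 N' M q hq hqq hdivY hE Cj hCj _ _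
    (norm_beta_mul_mem_of_E3 N' M q hq hqq hqp hdivY hE Cj hCj D hn u hu0 hord u' hu' c g hg b c₀
      hc₀ hnorm)

end Composite

end Fermat.Agent.S36.NormE3

end
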