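/-
P8 / S36 frame (helper58): **the two norm operators of the level-`q²` frame in the vocabulary of
the setup `(O, ρ)` and of `K0Plan.rho3`**, unconditional.

`Nα x`, `Nβ x` : the norms `F_{Mq²} → F_{Mq}` along `α`, `β` (spelling of `S36/MidNorm`);
`σ = S34.Sigma.sigma M q h`; `(O₂, Red) = (S34.Val.O2 A M q σ, S34.Val.Red A M q σ)` the
two-component reduction of level `q` (`Red g = (red g, red (σ g))`).

For `x ∈ F_{Mq²}` with `x ∈ O`, coordinates `(x_∞; x_ξ; x_0) = ρ x`: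
* `norm_alpha_mem_O2`, `norm_beta_mem_O2` : `N_α x, N_β x ∈ O₂`,
    `Red (N_α x) = (x_∞ ∏_ξ x_ξ, Frob x_0)`, `Red (N_β x) = (Frob x_∞, x_0 ∏_ξ x_ξ)`
    (`Frob` coefficientwise);
* `alpha_norm_alpha` : `α^*(N_α x)` (the same series) lies in `O`, with
    `ρ = (x_∞ ∏_ξ x_ξ ; x_∞ ∏_ξ x_ξ at every middle coordinate ; x_0^q)`;
* `beta_norm_beta`   : `β^*(N_β x)` (`= (N_β x)(T^q)`) lies in `O`, with
    `ρ = (x_∞^q ; x_0 ∏_ξ x_ξ at every middle coordinate ; x_0 ∏_ξ x_ξ)`;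
* `fixed_norm_alpha`, `fixed_norm_beta` : the norms of a function fixed by the inertia group of
    `A` (`K0Plan.Fixed`) are fixed;
* `rho3_alpha_norm_alpha`, `rho3_beta_norm_beta` : for `x` fixed, with
    `(a, b, c) = K0Plan.rho3 x`:  `ρ₃(α^* N_α x) = (a b^(q-1), a b^(q-1), c^q)` and
    `ρ₃(β^* N_β x) = (a^q, b^(q-1) c, b^(q-1) c)`, both elements fixed and in `O`.
-/
import Mathlib
import Fermat.Agent.S36.Plan
import Fermat.Agent.S36.MidNorm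
import Fermat.Agent.S36.PullRed
import Fermat.Agent.S36.LevelRed
import Fermat.Agent.S36.K0Plan

set_option autoImplicit false
set_option linter.unusedSectionVars false
set_option linter.style.haveILetI false

noncomputable section

namespace Fermat.Agent.S36.NormPull

open ModularCurve AlgebraicCurve Fermat.Agent.S24 Fermat.Agent.S18 Fermat.Agent.S18.Content
  Fermat.Agent.S18.Plan Fermat.Agent.S34 Fermat.Agent.S36.Plan
open Fermat.Agent.Lib.KroneckerCong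

set_option synthInstance.maxHeartbeats 400000
set_option maxHeartbeats 1600000

variable {M q : ℕ} [NeZero M] [NeZero q] {h : Nat.Coprime M q}
variable {A : ValuationSubring Kbar} {O : Subring Om} {ρ : O →+* Rq A q}

/-! ### Level `q`: the norms in `O₂` -/

/-- `N_α x ∈ O₂` with `Red (N_α x) = (x_∞ ∏_ξ x_ξ, Frob x_0)`. -/
theorem norm_alpha_mem_O2 [Fintype (MidIdx q)] (hq : q.Prime) (hA : A.LiesOverPrime q)
    (F : Frame M q h) (hS : IsSetup A F O ρ) (τ : kk A →+* kk A) (hτ : ∀ c, τ c = c ^ q)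
    (x : FN (M * q * q)) (hx : (x : Om) ∈ O) :
    ∃ h2 : ((@Algebra.norm (FN (M * q)) (FN (M * q * q)) _ _
        (algebraAlong (heckeAlphaBar Kbar (M * q) q)) x : FN (M * q)) : Om) ∈
          Val.O2 A M q (Sigma.sigma M q h),
      Val.Red A M q (Sigma.sigma M q h) ⟨_, h2⟩ =
        (ρ ⟨_, hx⟩ .inf * ∏ ξ : MidIdx q, ρ ⟨_, hx⟩ (.mid ξ), coeffMap τ (ρ ⟨_, hx⟩ .zero)) := by
  obtain ⟨hn1, e1⟩ := MidNorm.red_norm_alpha hq F hS x hx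
  obtain ⟨hn2, e2⟩ := MidNorm.red_sigma_norm_alpha hq hA F hS τ hτ x hx
  have hF : (@Algebra.norm (FN (M * q)) (FN (M * q * q)) _ _
      (algebraAlong (heckeAlphaBar Kbar (M * q) q)) x : FN (M * q)) ∈
        Val.O2F A M q (Sigma.sigma M q h) := ⟨hn1, hn2⟩
  have h2 := Val.coe_mem_O2 A M q (Sigma.sigma M q h) hF
  refine ⟨h2, ?_⟩
  rw [Val.Red_mk A M q (Sigma.sigma M q h) _ hF h2, Val.RedF_apply, ← e1, ← e2]

/-- `N_β x ∈ O₂` with `Red (N_β x) = (Frob x_∞, x_0 ∏_ξ x_ξ)`. -/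
theorem norm_beta_mem_O2 [Fintype (MidIdx q)] (hq : q.Prime) (hA : A.LiesOverPrime q)
    (F : Frame M q h) (hS : IsSetup A F O ρ) (τ : kk A →+* kk A) (hτ : ∀ c, τ c = c ^ q)
    (x : FN (M * q * q)) (hx : (x : Om) ∈ O) :
    ∃ h2 : ((@Algebra.norm (FN (M * q)) (FN (M * q * q)) _ _
        (algebraAlong (heckeBetaBar Kbar (M * q) q)) x : FN (M * q)) : Om) ∈
          Val.O2 A M q (Sigma.sigma M q h),
      Val.Red A M q (Sigma.sigma M q h) ⟨_, h2⟩ =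
        (coeffMap τ (ρ ⟨_, hx⟩ .inf), ρ ⟨_, hx⟩ .zero * ∏ ξ : MidIdx q, ρ ⟨_, hx⟩ (.mid ξ)) := by
  obtain ⟨hn1, e1⟩ := MidNorm.red_norm_beta hq hA F hS τ hτ x hx
  obtain ⟨hn2, e2⟩ := MidNorm.red_sigma_norm_beta hq hA F hS x hx
  have hF : (@Algebra.norm (FN (M * q)) (FN (M * q * q)) _ _
      (algebraAlong (heckeBetaBar Kbar (M * q) q)) x : FN (M * q)) ∈
        Val.O2F A M q (Sigma.sigma M q h) := ⟨hn1, hn2⟩
  have h2 := Val.coe_mem_O2 A M q (Sigma.sigma M q h) hF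
  refine ⟨h2, ?_⟩
  rw [Val.Red_mk A M q (Sigma.sigma M q h) _ hF h2, Val.RedF_apply, ← e1, ← e2]

/-! ### Top level: the pull-backs of the norms in `O` -/

/-- **`α^*(N_α x) ∈ O`** with `ρ = (x_∞ ∏_ξ x_ξ ; the same at every middle coordinate ; x_0^q)`. -/
theorem alpha_norm_alpha [Fintype (MidIdx q)] (hq : q.Prime) (hA : A.LiesOverPrime q)
    (F : Frame M q h) (hS : IsSetup A F O ρ) (x : FN (M * q * q)) (hx : (x : Om) ∈ O) :
    ∃ hO : ((@Algebra.norm (FN (M * q)) (FN (M * q * q)) _ _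
        (algebraAlong (heckeAlphaBar Kbar (M * q) q)) x : FN (M * q)) : Om) ∈ O,
      ρ ⟨_, hO⟩ .inf = ρ ⟨_, hx⟩ .inf * ∏ ξ : MidIdx q, ρ ⟨_, hx⟩ (.mid ξ) ∧
      (∀ ξ' : MidIdx q,
        ρ ⟨_, hO⟩ (.mid ξ') = ρ ⟨_, hx⟩ .inf * ∏ ξ : MidIdx q, ρ ⟨_, hx⟩ (.mid ξ)) ∧
      ρ ⟨_, hO⟩ .zero = ρ ⟨_, hx⟩ .zero ^ q := by
  haveI : Fact q.Prime := ⟨hq⟩
  haveI : CharP (kk A) q := charP_residueField_of_liesOverPrime A q hA
  obtain ⟨h2, e⟩ := norm_alpha_mem_O2 hq hA F hS (frobenius (kk A) q)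
    (fun c => frobenius_def q c) x hx
  obtain ⟨hO, e'⟩ := PullRed.alpha_mem hS ⟨_, h2⟩
  refine ⟨hO, ?_, fun ξ' => ?_, ?_⟩
  · rw [e', PullRed.pullA_inf, e]
  · rw [e', PullRed.pullA_mid, e]
  · rw [e', PullRed.pullA_zero, e]
    exact (pow_char_eq q _).symm

/-- **`β^*(N_β x) = (N_β x)(T^q) ∈ O`** with
`ρ = (x_∞^q ; x_0 ∏_ξ x_ξ at every middle coordinate ; x_0 ∏_ξ x_ξ)`. -/
theorem beta_norm_beta [Fintype (MidIdx q)] (hq : q.Prime) (hA : A.LiesOverPrime q)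
    (F : Frame M q h) (hS : IsSetup A F O ρ) (x : FN (M * q * q)) (hx : (x : Om) ∈ O) :
    ∃ hO : qExpand Kbar q ((@Algebra.norm (FN (M * q)) (FN (M * q * q)) _ _
        (algebraAlong (heckeBetaBar Kbar (M * q) q)) x : FN (M * q)) : Om) ∈ O,
      ρ ⟨_, hO⟩ .inf = ρ ⟨_, hx⟩ .inf ^ q ∧
      (∀ ξ' : MidIdx q,
        ρ ⟨_, hO⟩ (.mid ξ') = ρ ⟨_, hx⟩ .zero * ∏ ξ : MidIdx q, ρ ⟨_, hx⟩ (.mid ξ)) ∧
      ρ ⟨_, hO⟩ .zero = ρ ⟨_, hx⟩ .zero * ∏ ξ : MidIdx q, ρ ⟨_, hx⟩ (.mid ξ) := by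
  haveI : Fact q.Prime := ⟨hq⟩
  haveI : CharP (kk A) q := charP_residueField_of_liesOverPrime A q hA
  obtain ⟨h2, e⟩ := norm_beta_mem_O2 hq hA F hS (frobenius (kk A) q)
    (fun c => frobenius_def q c) x hx
  obtain ⟨hO, e'⟩ := PullRed.beta_mem hq hA hS ⟨_, h2⟩
  refine ⟨hO, ?_, fun ξ' => ?_, ?_⟩
  · rw [e', PullRed.pullB_inf, e]
    exact (pow_char_eq q _).symm
  · rw [e', PullRed.pullB_mid, e]
  · rw [e', PullRed.pullB_zero, e]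

/-! ### `K₀`-rationality -/

/-- The Galois action on the middle index, as a permutation. -/
def galMidEquiv (q : ℕ) (τ : Kbar ≃ₐ[ℚ] Kbar) : MidIdx q ≃ MidIdx q where
  toFun := FrameInst.galMid τ
  invFun := FrameInst.galMid τ.symm
  left_inv := fun ξ => Subtype.ext (Units.ext (τ.symm_apply_apply (ξ.1 : Kbar)))
  right_inv := fun ξ => Subtype.ext (Units.ext (τ.apply_symm_apply (ξ.1 : Kbar)))

/-- **`N_α` preserves the functions fixed by the inertia group.** -/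
theorem fixed_norm_alpha (hq : q.Prime) (F : Frame M q h) (x : FN (M * q * q))
    (hfix : K0Plan.Fixed A (x : Om)) :
    K0Plan.Fixed A ((@Algebra.norm (FN (M * q)) (FN (M * q * q)) _ _
        (algebraAlong (heckeAlphaBar Kbar (M * q) q)) x : FN (M * q)) : Om) := by
  intro τ hτ
  letI := CoordFin.fintypeMidIdx q
  have hx' : arithmeticRingAut (modularFunctionFieldFull (M * q * q)) τ x = x := by
    apply Subtype.ext
    rw [coe_arithmeticRingAut_apply]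
    exact hfix τ hτ
  have hr : ∀ ξ : MidIdx q,
      coeffMap (τ : Kbar →+* Kbar) (F.r ξ x) = F.r (galMidEquiv q τ ξ) x := by
    intro ξ
    have := FrameInst.r_galois hq F τ ξ x
    rw [hx'] at this
    exact this
  rw [MidNorm.coe_norm_alpha hq F x, map_mul, map_prod, hfix τ hτ,
    Finset.prod_congr rfl (fun ξ _ => hr ξ)]
  congr 1
  exact Equiv.prod_comp (galMidEquiv q τ) (fun ξ : MidIdx q => F.r ξ x)

/-- **`N_β` preserves the functions fixed by the inertia group.** -/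
theorem fixed_norm_beta (hq : q.Prime) (x : FN (M * q * q))
    (hfix : K0Plan.Fixed A (x : Om)) :
    K0Plan.Fixed A ((@Algebra.norm (FN (M * q)) (FN (M * q * q)) _ _
        (algebraAlong (heckeBetaBar Kbar (M * q) q)) x : FN (M * q)) : Om) := by
  intro τ hτ
  obtain ⟨ζ, hζ⟩ := CoordFin.exists_primitiveRoot q
  have hζ' : IsPrimitiveRoot (Units.map ((τ : Kbar ≃ₐ[ℚ] Kbar) : Kbar →* Kbar) ζ) q :=
    (FrameInst.galMid τ ⟨ζ, hζ⟩).2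
  have e1 := MidNorm.qExpand_norm_beta (M := M) hq ζ hζ x
  have e2 := MidNorm.qExpand_norm_beta (M := M) hq _ hζ' x
  apply qExpand_injective (R := Kbar) (N := q)
  rw [← coeffMap_qExpand]
  conv_rhs => rw [e2]
  rw [e1, map_prod]
  refine Finset.prod_congr rfl fun b _ => ?_
  rw [Fermat.Agent.S36.MidEmb.coeffMap_scale_galois, hfix τ hτ, map_pow]

/-! ### `K0Plan.rho3` form -/

theorem rho3_apply (ξ₀ : MidIdx q) (g : O) :
    K0Plan.rho3 A q O ρ ξ₀ g = (ρ g .inf, ρ g (.mid ξ₀), ρ g .zero) := rfl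

/-- **`ρ₃(α^* N_α x) = (a b^(q-1), a b^(q-1), c^q)`** for `x` fixed, `(a, b, c) = ρ₃ x`. -/
theorem rho3_alpha_norm_alpha (hq : q.Prime) (hA : A.LiesOverPrime q) (F : Frame M q h)
    (hS : IsSetup A F O ρ) (ξ₀ : MidIdx q) (x : FN (M * q * q)) (hx : (x : Om) ∈ O)
    (hfix : K0Plan.Fixed A (x : Om)) :
    ∃ hO : ((@Algebra.norm (FN (M * q)) (FN (M * q * q)) _ _
        (algebraAlong (heckeAlphaBar Kbar (M * q) q)) x : FN (M * q)) : Om) ∈ O,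
      K0Plan.Fixed A ((@Algebra.norm (FN (M * q)) (FN (M * q * q)) _ _
        (algebraAlong (heckeAlphaBar Kbar (M * q) q)) x : FN (M * q)) : Om) ∧
      K0Plan.rho3 A q O ρ ξ₀ ⟨_, hO⟩ =
        (ρ ⟨_, hx⟩ .inf * ρ ⟨_, hx⟩ (.mid ξ₀) ^ (q - 1),
          ρ ⟨_, hx⟩ .inf * ρ ⟨_, hx⟩ (.mid ξ₀) ^ (q - 1), ρ ⟨_, hx⟩ .zero ^ q) := by
  letI := CoordFin.fintypeMidIdx q
  obtain ⟨hO, e1, e2, e3⟩ := alpha_norm_alpha hq hA F hS x hx
  have hprod : ∏ ξ : MidIdx q, ρ ⟨_, hx⟩ (.mid ξ) = ρ ⟨_, hx⟩ (.mid ξ₀) ^ (q - 1) := by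
    rw [Finset.prod_congr rfl
      (fun ξ _ => LevelRed.rho_mid_eq_of_fixed hq hA hS ⟨_, hx⟩ hfix ξ ξ₀),
      Finset.prod_const, Finset.card_univ, CoordFin.fintype_card_midIdx hq]
  refine ⟨hO, fixed_norm_alpha hq F x hfix, ?_⟩
  rw [rho3_apply, e1, e2 ξ₀, e3, hprod]

/-- **`ρ₃(β^* N_β x) = (a^q, b^(q-1) c, b^(q-1) c)`** for `x` fixed, `(a, b, c) = ρ₃ x`. -/
theorem rho3_beta_norm_beta (hq : q.Prime) (hA : A.LiesOverPrime q) (F : Frame M q h)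
    (hS : IsSetup A F O ρ) (ξ₀ : MidIdx q) (x : FN (M * q * q)) (hx : (x : Om) ∈ O)
    (hfix : K0Plan.Fixed A (x : Om)) :
    ∃ hO : qExpand Kbar q ((@Algebra.norm (FN (M * q)) (FN (M * q * q)) _ _
        (algebraAlong (heckeBetaBar Kbar (M * q) q)) x : FN (M * q)) : Om) ∈ O,
      K0Plan.Fixed A (qExpand Kbar q ((@Algebra.norm (FN (M * q)) (FN (M * q * q)) _ _
        (algebraAlong (heckeBetaBar Kbar (M * q) q)) x : FN (M * q)) : Om)) ∧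
      K0Plan.rho3 A q O ρ ξ₀ ⟨_, hO⟩ =
        (ρ ⟨_, hx⟩ .inf ^ q, ρ ⟨_, hx⟩ (.mid ξ₀) ^ (q - 1) * ρ ⟨_, hx⟩ .zero,
          ρ ⟨_, hx⟩ (.mid ξ₀) ^ (q - 1) * ρ ⟨_, hx⟩ .zero) := by
  letI := CoordFin.fintypeMidIdx q
  obtain ⟨hO, e1, e2, e3⟩ := beta_norm_beta hq hA F hS x hx
  have hprod : ∏ ξ : MidIdx q, ρ ⟨_, hx⟩ (.mid ξ) = ρ ⟨_, hx⟩ (.mid ξ₀) ^ (q - 1) := by
    rw [Finset.prod_congr rfl
      (fun ξ _ => LevelRed.rho_mid_eq_of_fixed hq hA hS ⟨_, hx⟩ hfix ξ ξ₀),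
      Finset.prod_const, Finset.card_univ, CoordFin.fintype_card_midIdx hq]
  refine ⟨hO, ?_, ?_⟩
  · intro τ hτ
    rw [coeffMap_qExpand, fixed_norm_beta hq x hfix τ hτ]
  · rw [rho3_apply, e1, e2 ξ₀, e3, hprod, mul_comm (ρ ⟨(x : Om), hx⟩ Coord.zero)]

/-! ### The same for elements of `O` -/

/-- `O`-form of `rho3_alpha_norm_alpha`: for `f ∈ O` fixed, `g := α^*(N_α f) ∈ O` is fixed and
`ρ₃ g = (a b^(q-1), a b^(q-1), c^q)`, `(a, b, c) = ρ₃ f`. -/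
theorem exists_alpha_norm (hq : q.Prime) (hA : A.LiesOverPrime q) (F : Frame M q h)
    (hS : IsSetup A F O ρ) (ξ₀ : MidIdx q) (f : O) (hfix : K0Plan.Fixed A (f : Om)) :
    ∃ g : O,
      (g : Om) = ((@Algebra.norm (FN (M * q)) (FN (M * q * q)) _ _
        (algebraAlong (heckeAlphaBar Kbar (M * q) q))
          (⟨(f : Om), hS.mem_field f⟩ : FN (M * q * q)) : FN (M * q)) : Om) ∧
      K0Plan.Fixed A (g : Om) ∧
      K0Plan.rho3 A q O ρ ξ₀ g =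
        ((K0Plan.rho3 A q O ρ ξ₀ f).1 * (K0Plan.rho3 A q O ρ ξ₀ f).2.1 ^ (q - 1),
          (K0Plan.rho3 A q O ρ ξ₀ f).1 * (K0Plan.rho3 A q O ρ ξ₀ f).2.1 ^ (q - 1),
          (K0Plan.rho3 A q O ρ ξ₀ f).2.2 ^ q) := by
  obtain ⟨hO, hfx, e⟩ := rho3_alpha_norm_alpha hq hA F hS ξ₀
    (⟨(f : Om), hS.mem_field f⟩ : FN (M * q * q)) f.2 hfix
  exact ⟨⟨_, hO⟩, rfl, hfx, e⟩

/-- `O`-form of `rho3_beta_norm_beta`: for `f ∈ O` fixed, `g := β^*(N_β f) ∈ O` is fixed and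
`ρ₃ g = (a^q, b^(q-1) c, b^(q-1) c)`, `(a, b, c) = ρ₃ f`. -/
theorem exists_beta_norm (hq : q.Prime) (hA : A.LiesOverPrime q) (F : Frame M q h)
    (hS : IsSetup A F O ρ) (ξ₀ : MidIdx q) (f : O) (hfix : K0Plan.Fixed A (f : Om)) :
    ∃ g : O,
      (g : Om) = qExpand Kbar q ((@Algebra.norm (FN (M * q)) (FN (M * q * q)) _ _
        (algebraAlong (heckeBetaBar Kbar (M * q) q))
          (⟨(f : Om), hS.mem_field f⟩ : FN (M * q * q)) : FN (M * q)) : Om) ∧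
      K0Plan.Fixed A (g : Om) ∧
      K0Plan.rho3 A q O ρ ξ₀ g =
        ((K0Plan.rho3 A q O ρ ξ₀ f).1 ^ q,
          (K0Plan.rho3 A q O ρ ξ₀ f).2.1 ^ (q - 1) * (K0Plan.rho3 A q O ρ ξ₀ f).2.2,
          (K0Plan.rho3 A q O ρ ξ₀ f).2.1 ^ (q - 1) * (K0Plan.rho3 A q O ρ ξ₀ f).2.2) := by
  obtain ⟨hO, hfx, e⟩ := rho3_beta_norm_beta hq hA F hS ξ₀
    (⟨(f : Om), hS.mem_field f⟩ : FN (M * q * q)) f.2 hfix
  exact ⟨⟨_, hO⟩, rfl, hfx, e⟩

end Fermat.Agent.S36.NormPull
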