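import Mathlib
import Fermat.Agent.S18.ConstWPlan
import Fermat.Agent.S35.ValFStmt
import Fermat.Agent.S36.K0Plan
import Fermat.Agent.S36.TwistK0
import Fermat.Agent.S36.NormPull
import Fermat.Agent.S36.NormE3
import Fermat.Agent.S36.NormBC
import Fermat.Agent.S36.NormK0
import Fermat.Agent.S36.CondK0
import Fermat.Agent.S36.VNormCore
import Fermat.Agent.S36.B2Plan
import Fermat.Agent.S36.K0ScaleFrame
import Fermat.Agent.S36.PullRed
import Fermat.Agent.S36.LevelRed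
import Fermat.Agent.S36.CoordFin
import Fermat.Agent.S36.TwistAllOf

/-!
# S36 / P8 — [NORM-TW], third (insurance) provider (helper89)

`TwistK0.NormTwStmt` at the levels of `Plan.OneAllStmt`, and its all-level form
`TwistAllOf.NormTwAllStmt`.
-/

set_option autoImplicit false
set_option linter.style.haveILetI false
set_option linter.unusedSectionVars false
set_option linter.unusedVariables false

noncomputable section

namespace Fermat.Agent.S36.NormTw3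

open ModularCurve AlgebraicCurve Fermat.Agent.S24 Fermat.Agent.S18 Fermat.Agent.S18.Content
  Fermat.Agent.S18.Plan Fermat.Agent.S34 Fermat.Agent.S36.Plan

/-! ### Constants -/

/-- An element of `k((T))` whose `n`-th power is a nonzero constant is a constant. -/
theorem exists_const_of_pow_eq {k : Type*} [Field k] {n : ℕ} (hn : 0 < n) {x : LaurentSeries k}
    {κ : k} (hx : x ^ n = HahnSeries.C κ) : ∃ η : k, x = HahnSeries.C η ∧ η ^ n = κ := by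
  have hint : IsIntegral k x := by
    refine ⟨Polynomial.X ^ n - Polynomial.C κ, Polynomial.monic_X_pow_sub_C κ hn.ne', ?_⟩
    rw [Polynomial.eval₂_sub, Polynomial.eval₂_pow, Polynomial.eval₂_X, Polynomial.eval₂_C, hx,
      Fermat.Agent.S18.Content.algebraMap_LS_eq_C, sub_self]
  obtain ⟨η, hη⟩ := Fermat.Agent.S18.ConstWPlan.eq_C_of_isIntegral hint
  refine ⟨η, hη, ?_⟩
  apply HahnSeries.C_injective (Γ := ℤ)
  rw [map_pow, ← hη, hx]

/-! ### Scaling a fixed Kummer generator into the level-`q` ring by a fixed constant -/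

section Scale

variable {A : ValuationSubring Kbar} {N M q : ℕ} [NeZero N] [NeZero M] [NeZero q] {hqN : q ∣ N}
variable {O₂ : Subring Om} {ρ₂ : O₂ →+* Fermat.Agent.S34.Plan.R2 A}

theorem exists_scaled_fixed (hq : q.Prime) (hA : A.LiesOverPrime q)
    (hS2 : Fermat.Agent.S34.Plan.Setup2 A N q M hqN O₂ ρ₂) {n : ℕ} (hn : 0 < n)
    (X : O₂) (hX1 : (ρ₂ X).1 ≠ 0) (hX2 : (ρ₂ X).2 ≠ 0)
    (c : Kbar) (hc : c ≠ 0) (a : FN (M * q)) (ha0 : a ≠ 0) (hafix : Plan.IFix A (M * q) a)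
    (hXa : (X : Om) = HahnSeries.C c * (a : Om) ^ n) :
    ∃ (d : Kbar) (hg : HahnSeries.C d * (a : Om) ∈ O₂) (κ : kk A), d ≠ 0 ∧ κ ≠ 0 ∧
      (∀ τ : Kbar ≃ₐ[ℚ] Kbar, τ ∈ A.inertiaSubgroupIn ℚ → τ d = d) ∧
      (ρ₂ ⟨_, hg⟩).1 ^ n = HahnSeries.C κ * (ρ₂ X).1 ∧
      (ρ₂ ⟨_, hg⟩).2 ^ n = HahnSeries.C κ * (ρ₂ X).2 := by
  have ha0' : (a : Om) ≠ 0 := fun h0 => ha0 (Subtype.ext h0)
  obtain ⟨s, hs, hg₀, hρg₀⟩ := hS2.scale (a : Om) a.2 ha0'
  set g₀ : O₂ := ⟨HahnSeries.C s * (a : Om), hg₀⟩ with hg₀def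
  have hXinv : ((X : Om))⁻¹ ∈ O₂ := hS2.inv_mem X hX1 hX2
  have hCc : (HahnSeries.C c : Om) ≠ 0 := fun h0 =>
    hc (HahnSeries.C_injective (by rw [h0, map_zero]))
  have hCs : (HahnSeries.C s : Om) ≠ 0 := fun h0 =>
    hs (HahnSeries.C_injective (by rw [h0, map_zero]))
  have han : (a : Om) ^ n ≠ 0 := pow_ne_zero n ha0'
  -- the constant `sⁿ / c` lies in `O₂`, hence in `A`
  have hδeq : (HahnSeries.C (s ^ n * c⁻¹) : Om) = ((g₀ ^ n : O₂) : Om) * ((X : Om))⁻¹ := by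
    rw [hXa, hg₀def]
    push_cast
    rw [map_mul, map_pow, map_inv₀, mul_pow]
    field_simp
  have hδmem : (HahnSeries.C (s ^ n * c⁻¹) : Om) ∈ O₂ := by
    rw [hδeq]
    exact O₂.mul_mem (g₀ ^ n).2 hXinv
  have hδA : s ^ n * c⁻¹ ∈ A := (hS2.C_mem_iff _).mp hδmem
  have hprod : g₀ ^ n = (⟨_, hδmem⟩ : O₂) * X := by
    apply Subtype.ext
    rw [hg₀def]
    push_cast
    rw [hXa, map_mul, map_pow, map_inv₀, mul_pow]
    field_simp
  have hρ := congrArg ρ₂ hprod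
  rw [map_pow, map_mul, hS2.ρ_C ⟨_, hδA⟩ hδmem] at hρ
  have h1 : (ρ₂ g₀).1 ^ n = HahnSeries.C (IsLocalRing.residue A ⟨_, hδA⟩) * (ρ₂ X).1 := by
    have := congrArg Prod.fst hρ
    simpa using this
  have h2 : (ρ₂ g₀).2 ^ n = HahnSeries.C (IsLocalRing.residue A ⟨_, hδA⟩) * (ρ₂ X).2 := by
    have := congrArg Prod.snd hρ
    simpa using this
  have hδ0 : IsLocalRing.residue A ⟨_, hδA⟩ ≠ 0 := by
    intro h0
    rw [h0, map_zero, zero_mul] at h1 h2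
    exact hρg₀ (Prod.ext ((pow_eq_zero_iff hn.ne').mp h1) ((pow_eq_zero_iff hn.ne').mp h2))
  have hCδ : (HahnSeries.C (IsLocalRing.residue A ⟨_, hδA⟩) : Omk A) ≠ 0 := fun h0 =>
    hδ0 (HahnSeries.C_injective (by rw [h0, map_zero]))
  have hg₀1 : (ρ₂ g₀).1 ≠ 0 := by
    intro h0
    rw [h0, zero_pow hn.ne'] at h1
    exact (mul_ne_zero hCδ hX1) h1.symm
  -- `C s * a` is a unit of `Ocal A`
  have hY : (g₀ : Om) ∈ Ocal A := hS2.mem_Ocal g₀
  have hYr : red A ⟨_, hY⟩ ≠ 0 := by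
    rw [← hS2.fst_eq g₀ hY]
    exact hg₀1
  -- the fixed scaling constant
  obtain ⟨d, hd0, hdfix, hdO, hdr⟩ :=
    K0ScaleFrame.exists_fixed_const_scale A q hq hA (M * q) a ha0 hafix
  have he : HahnSeries.C (d * s⁻¹) * (g₀ : Om) = HahnSeries.C d * (a : Om) := by
    show HahnSeries.C (d * s⁻¹) * (HahnSeries.C s * (a : Om)) = HahnSeries.C d * (a : Om)
    rw [← mul_assoc, ← map_mul, mul_assoc, inv_mul_cancel₀ hs, mul_one]
  have hval : A.valuation (d * s⁻¹) = 1 :=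
    VNormCore.val_eq_one_of_isU ⟨hY, hYr⟩ (VNormCore.IsU.congr ⟨hdO, hdr⟩ he.symm)
  have heA : d * s⁻¹ ∈ A := (A.valuation_le_one_iff _).mp hval.le
  have heU : IsUnit (⟨d * s⁻¹, heA⟩ : A) := (A.valuation_eq_one_iff _).mpr hval
  have hr0 : IsLocalRing.residue A ⟨_, heA⟩ ≠ 0 :=
    (IsLocalRing.residue_ne_zero_iff_isUnit _).mpr heU
  have heO : (HahnSeries.C (d * s⁻¹) : Om) ∈ O₂ := (hS2.C_mem_iff _).mpr heA
  have hgmem : HahnSeries.C d * (a : Om) ∈ O₂ := by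
    rw [← he]
    exact O₂.mul_mem heO g₀.2
  have hgeq : (⟨_, hgmem⟩ : O₂) = ⟨_, heO⟩ * g₀ := Subtype.ext he.symm
  have hρg : ρ₂ ⟨_, hgmem⟩ =
      (HahnSeries.C (IsLocalRing.residue A ⟨_, heA⟩),
        HahnSeries.C (IsLocalRing.residue A ⟨_, heA⟩)) * ρ₂ g₀ := by
    rw [hgeq, map_mul, hS2.ρ_C ⟨_, heA⟩ heO]
  refine ⟨d, hgmem, IsLocalRing.residue A ⟨_, heA⟩ ^ n * IsLocalRing.residue A ⟨_, hδA⟩, hd0,
    mul_ne_zero (pow_ne_zero n hr0) hδ0, hdfix, ?_, ?_⟩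
  · rw [hρg, Prod.fst_mul, mul_pow, h1, map_mul, map_pow, mul_assoc]
  · rw [hρg, Prod.snd_mul, mul_pow, h2, map_mul, map_pow, mul_assoc]

end Scale


/-! ### The `α`-half -/

section Alpha

variable {N₀ M q : ℕ} [NeZero N₀] [NeZero (N₀ * q)] [NeZero M] [NeZero q] {h : Nat.Coprime M q}
variable {A : ValuationSubring Kbar} {O : Subring Om} {ρ : O →+* Rq A q}

theorem normTw_alpha (hL : Fermat.Agent.S34.Plan.Levels q N₀ (N₀ * q) M)
    (hA : A.LiesOverPrime q) (F : Frame M q h) (hS : IsSetup A F O ρ) (ξ₀ : MidIdx q)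
    (hq' : q ∣ N₀ * q)
    {D : Divisor Kbar (FN (N₀ * q * q))} {n : ℕ} (hD : StableData A (N₀ * q) q D n)
    {E : Divisor Kbar (FN (N₀ * q * q))}
    (hE : IsE3 (N₀ * q * q) q (Dvd.intro_left (N₀ * q) rfl) (Nat.mul_dvd_mul_right hq' q) E)
    (w : FN (N₀ * q * q)) (hw : (w : Om) ∈ O) (ξ : K0Plan.R3 A) (hw0 : w ≠ 0)
    (hord : ∀ P : Place Kbar (FN (N₀ * q * q)), P.ord w = n * D P)
    (hwfix : K0Plan.Fixed A (w : Om)) (hwinv : ((w : Om))⁻¹ ∈ O)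
    (hrel : K0Plan.rho3 A q O ρ ξ₀ ⟨_, hw⟩ * ξ ^ n = 1) :
    ∃ η₁ η₂ : kk A, η₁ ≠ 0 ∧ η₂ ≠ 0 ∧ η₁ ^ n = η₂ ^ n ∧
      ∀ f ∈ K0Plan.Lam A (N₀ * q) M q O E D, ∀ y : K0Plan.BK3 A M,
        K0Plan.rho3 A q O ρ ξ₀ f = K0Plan.iota3 A M y * ξ →
        ((η₁ • (y.1 * y.2.1 ^ (q - 1)), η₁ • (y.1 * y.2.1 ^ (q - 1)), η₂ • y.2.2 ^ q) :
          K0Plan.BK3 A M) ∈ K0Plan.A3 A (N₀ * q) M q O ρ E ξ₀ := by
  classical
  have hq : q.Prime := hL.prime
  haveI : Fact q.Prime := ⟨hq⟩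
  haveI : CharP (kk A) q := charP_residueField_of_liesOverPrime A q hA
  letI : Fintype (MidIdx q) := CoordFin.fintypeMidIdx q
  have hqM : ¬ q ∣ M := FrameInst.not_dvd_of_coprime hq h
  have hdiv : N₀ ∣ M := ⟨Fermat.Agent.S34.Plan.aux q, by rw [hL.M_eq, mul_comm]⟩
  have hn : 0 < n := hD.pos
  have hle' : modularFunctionFieldBar (N₀ * q) ≤ modularFunctionFieldBar (M * q) :=
    PullStep.bar_le (Nat.mul_dvd_mul_right hdiv q)
  have hS2 := (Fermat.Agent.S35.ValFStmt.valF_val A hL hA h).1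
  have hτ : ∀ x : kk A, frobenius (kk A) q x = x ^ q := fun x => frobenius_def q x
  -- `w` as an element of `O` and of the top level
  set wO : O := ⟨(w : Om), hw⟩ with hwO
  set x : FN (M * q * q) := ⟨(w : Om), hS.mem_field wO⟩ with hx
  have hxu : (x : Om) = (w : Om) := rfl
  have hw0' : (w : Om) ≠ 0 := fun h0 => hw0 (Subtype.ext h0)
  -- `w` is a unit of `O`
  have hunit : ∀ i : Coord q, ρ wO i ≠ 0 := by
    intro i h0
    have h1 : wO * ⟨_, hwinv⟩ = 1 := Subtype.ext (mul_inv_cancel₀ hw0')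
    have h2 := congrFun (congrArg ρ h1) i
    rw [map_mul, map_one, Pi.mul_apply, h0, zero_mul] at h2
    exact zero_ne_one h2
  have hmid : ∀ ξ' : MidIdx q, ρ wO (Coord.mid ξ') = ρ wO (Coord.mid ξ₀) := fun ξ' =>
    CondK0.midEqStmt hq hA hS wO hwfix ξ' ξ₀
  have hprod : ∏ ξ' : MidIdx q, ρ wO (Coord.mid ξ') = ρ wO (Coord.mid ξ₀) ^ (q - 1) := by
    rw [Finset.prod_congr rfl (fun ξ' _ => hmid ξ'), Finset.prod_const, Finset.card_univ,
      CoordFin.fintype_card_midIdx hq]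
  -- the three relations `ρ_i(w) ξ_iⁿ = 1`
  have e1 : ρ wO Coord.inf * ξ.1 ^ n = 1 := congrArg Prod.fst hrel
  have e2 : ρ wO (Coord.mid ξ₀) * ξ.2.1 ^ n = 1 := congrArg (fun t : K0Plan.R3 A => t.2.1) hrel
  have e3 : ρ wO Coord.zero * ξ.2.2 ^ n = 1 := congrArg (fun t : K0Plan.R3 A => t.2.2) hrel
  -- the inertia-fixed generator of `α_* D` and the norm relation
  haveI : IsFF1 Kbar (FN (N₀ * q)) := Fermat.Agent.S37.HeckeInputs.isFF1_FN (N₀ * q)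
  obtain ⟨a, ha0, haord, hafix⟩ := B2Plan.exists_fixed_generator (N₀ * q) A _ hD.pushA
    (VNormCore.push_alpha_stable (N₀ * q) q D hD.stable)
  obtain ⟨c, hc0, hαrel⟩ := VNormCore.norm_eq_const_mul_pow_of (heckeAlphaBar Kbar (N₀ * q) q)
    (Fermat.Agent.S37.HeckeInputs.heckeAlphaBarIntegral (N₀ * q) q)
    (Fermat.Agent.S37.HeckeInputs.finiteAlong_alpha (N₀ * q) q)
    (Fermat.Agent.S37.HeckeInputs.normFormulaAlong_alpha (N₀ * q) q) D n w hw0 hord a ha0 haord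
  obtain ⟨a', ha'⟩ : ∃ a' : FN (M * q), (a' : Om) = (a : Om) := ⟨⟨(a : Om), hle' a.2⟩, rfl⟩
  have ha'fix : IFix A (M * q) a' := VNormCore.iFix_of_coe_eq ha' hafix
  have ha'0 : a' ≠ 0 := VNormCore.ne_zero_of_coe_eq ha' ha0
  have hαtop : VNormCore.normA M q x = algebraMap Kbar (FN (M * q)) c * a' ^ n :=
    NormBC.norm_alpha_top_eq_of N₀ M q hq hqM hdiv w a c n hαrel x hxu a' ha'
  -- `N_α w` in the level-`q` ring
  obtain ⟨hN2, hNred⟩ := NormPull.norm_alpha_mem_O2 hq hA F hS (frobenius (kk A) q) hτ x hw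
  rw [hprod] at hNred
  set X : Val.O2 A M q (Sigma.sigma M q h) := ⟨_, hN2⟩ with hXdef
  have hX1 : (Val.Red A M q (Sigma.sigma M q h) X).1 ≠ 0 := by
    rw [hNred]
    exact mul_ne_zero (hunit _) (pow_ne_zero _ (hunit _))
  have hX2 : (Val.Red A M q (Sigma.sigma M q h) X).2 ≠ 0 := by
    rw [hNred]
    exact (map_ne_zero (coeffMap (frobenius (kk A) q))).mpr (hunit _)
  have hXa : (X : Om) = HahnSeries.C c * (a' : Om) ^ n := by
    show ((VNormCore.normA M q x : FN (M * q)) : Om) = _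
    rw [hαtop]
    push_cast
    rw [algebraMap_LS_eq_C]
  obtain ⟨d, hg, κ, hd0, hκ0, hdfix, hr1, hr2⟩ :=
    exists_scaled_fixed hq hA hS2 hn X hX1 hX2 c hc0 a' ha'0 ha'fix hXa
  rw [hNred] at hr1 hr2
  set g : Val.O2 A M q (Sigma.sigma M q h) := ⟨_, hg⟩ with hgdef
  obtain ⟨hgO, hgρ⟩ := PullRed.alpha_mem hS g
  set gO : O := ⟨(g : Om), hgO⟩ with hgOdef
  have hgfix : K0Plan.Fixed A (gO : Om) := by
    intro σ hσ
    show coeffMap (σ : Kbar →+* Kbar) (HahnSeries.C d * (a' : Om)) = HahnSeries.C d * (a' : Om)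
    rw [map_mul, K0ScaleFrame.coeffMap_C, hdfix σ hσ, NormK0.fixed_of_iFix ha'fix σ hσ]
  set A₁ : Omk A := (Val.Red A M q (Sigma.sigma M q h) g).1 with hA₁
  set A₂ : Omk A := (Val.Red A M q (Sigma.sigma M q h) g).2 with hA₂
  have hg1 : ρ gO Coord.inf = A₁ := by rw [hgOdef, hgρ]; rfl
  have hg2 : ρ gO (Coord.mid ξ₀) = A₁ := by rw [hgOdef, hgρ]; rfl
  have hg3 : ρ gO Coord.zero = qExpand (kk A) q A₂ := by rw [hgOdef, hgρ]; rfl
  -- the two constants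
  have hη1 : (ξ.1 * ξ.2.1 ^ (q - 1) * A₁) ^ n = HahnSeries.C κ := by
    have e : (ξ.1 * ξ.2.1 ^ (q - 1) * A₁) ^ n =
        HahnSeries.C κ * (ρ wO Coord.inf * ξ.1 ^ n) *
          (ρ wO (Coord.mid ξ₀) * ξ.2.1 ^ n) ^ (q - 1) := by
      rw [mul_pow, mul_pow, hr1]
      ring
    rw [e, e1, e2, one_pow, mul_one, mul_one]
  have hη2 : (ξ.2.2 ^ q * qExpand (kk A) q A₂) ^ n = HahnSeries.C κ := by
    have hV : qExpand (kk A) q A₂ ^ n = HahnSeries.C κ * ρ wO Coord.zero ^ q := by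
      rw [← map_pow, hr2, map_mul, qExpand_C,
        Fermat.Agent.Lib.KroneckerCong.pow_char_eq q (ρ wO Coord.zero)]
    have e : (ξ.2.2 ^ q * qExpand (kk A) q A₂) ^ n =
        HahnSeries.C κ * (ρ wO Coord.zero * ξ.2.2 ^ n) ^ q := by
      rw [mul_pow, hV]
      ring
    rw [e, e3, one_pow, mul_one]
  obtain ⟨η₁, hη₁, hη₁n⟩ := exists_const_of_pow_eq hn hη1
  obtain ⟨η₂, hη₂, hη₂n⟩ := exists_const_of_pow_eq hn hη2
  have hη₁0 : η₁ ≠ 0 := by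
    intro h0
    rw [h0, zero_pow hn.ne'] at hη₁n
    exact hκ0 hη₁n.symm
  have hη₂0 : η₂ ≠ 0 := by
    intro h0
    rw [h0, zero_pow hn.ne'] at hη₂n
    exact hκ0 hη₂n.symm
  refine ⟨η₁, η₂, hη₁0, hη₂0, hη₁n.trans hη₂n.symm, ?_⟩
  intro f hf y hy
  obtain ⟨hffix, cf, hfc⟩ := hf
  obtain ⟨gN, hgN, hgNfix, hgNρ⟩ := NormPull.exists_alpha_norm hq hA F hS ξ₀ f hffix
  set fT : FN (M * q * q) := ⟨(f : Om), hS.mem_field f⟩ with hfT
  refine ⟨gN * gO, ⟨?_, ?_⟩, ?_⟩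
  · -- fixed
    intro σ hσ
    rw [Subring.coe_mul, map_mul, hgNfix σ hσ, hgfix σ hσ]
  · -- regular away from `E`
    have hnorm : VNormCore.normA M q x =
        algebraMap Kbar (FN (M * q)) (c * (d ^ n)⁻¹) *
          (algebraMap Kbar (FN (M * q)) d * a') ^ n := by
      rw [hαtop, mul_pow, ← map_pow, ← mul_assoc, ← map_mul, mul_assoc,
        inv_mul_cancel₀ (pow_ne_zero n hd0), mul_one]
    have key := NormE3.alpha_norm_alpha_mul_mem_E3 (N₀ * q) M q (Dvd.intro_left (N₀ * q) rfl)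
      (Nat.mul_dvd_mul_right hq' q) (Nat.mul_dvd_mul_right hdiv q) hE D hn w hw0 hord x hxu cf fT
      hfc (algebraMap Kbar (FN (M * q)) d * a') (c * (d ^ n)⁻¹)
      (mul_ne_zero hc0 (inv_ne_zero (pow_ne_zero n hd0))) hnorm
    have hcoe : ((gN * gO : O) : Om) =
        ((VNormCore.normA M q fT * (algebraMap Kbar (FN (M * q)) d * a') : FN (M * q)) : Om) := by
      rw [Subring.coe_mul, hgN, MulMemClass.coe_mul, MulMemClass.coe_mul,
        SetupQ2.coe_algebraMap_FN]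
    refine ⟨n * cf * (1 + q + q * q) * finrankAlong Kbar (heckeAlphaBar Kbar (M * q) q), ?_⟩
    rw [zero_add, hcoe]
    exact key
  · -- the reduction
    have hy1 : (K0Plan.rho3 A q O ρ ξ₀ f).1 = (y.1 : Omk A) * ξ.1 := by rw [hy]; rfl
    have hy2 : (K0Plan.rho3 A q O ρ ξ₀ f).2.1 = (y.2.1 : Omk A) * ξ.2.1 := by rw [hy]; rfl
    have hy3 : (K0Plan.rho3 A q O ρ ξ₀ f).2.2 = (y.2.2 : Omk A) * ξ.2.2 := by rw [hy]; rfl
    have hG : K0Plan.rho3 A q O ρ ξ₀ (gN * gO) =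
        (((y.1 : Omk A) * ξ.1) * ((y.2.1 : Omk A) * ξ.2.1) ^ (q - 1) * A₁,
          ((y.1 : Omk A) * ξ.1) * ((y.2.1 : Omk A) * ξ.2.1) ^ (q - 1) * A₁,
          ((y.2.2 : Omk A) * ξ.2.2) ^ q * qExpand (kk A) q A₂) := by
      rw [map_mul, hgNρ, hy1, hy2, hy3]
      refine Prod.ext ?_ (Prod.ext ?_ ?_)
      · show _ * ρ gO Coord.inf = _
        rw [hg1]
      · show _ * ρ gO (Coord.mid ξ₀) = _
        rw [hg2]
      · show _ * ρ gO Coord.zero = _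
        rw [hg3]
    rw [hG, TwistK0.iota3_apply]
    refine Prod.ext ?_ (Prod.ext ?_ ?_)
    · show _ = ((η₁ • (y.1 * y.2.1 ^ (q - 1)) : ↥(K0Plan.BKM A M)) : Omk A)
      rw [TwistK0.coe_smul_BKM, ← hη₁]
      push_cast
      ring
    · show _ = ((η₁ • (y.1 * y.2.1 ^ (q - 1)) : ↥(K0Plan.BKM A M)) : Omk A)
      rw [TwistK0.coe_smul_BKM, ← hη₁]
      push_cast
      ring
    · show _ = ((η₂ • y.2.2 ^ q : ↥(K0Plan.BKM A M)) : Omk A)
      rw [TwistK0.coe_smul_BKM, ← hη₂]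
      push_cast
      ring

end Alpha


/-! ### The `β`-half -/

section Beta

variable {N₀ M q : ℕ} [NeZero N₀] [NeZero (N₀ * q)] [NeZero M] [NeZero q] {h : Nat.Coprime M q}
variable {A : ValuationSubring Kbar} {O : Subring Om} {ρ : O →+* Rq A q}

theorem normTw_beta (hL : Fermat.Agent.S34.Plan.Levels q N₀ (N₀ * q) M)
    (hA : A.LiesOverPrime q) (F : Frame M q h) (hS : IsSetup A F O ρ) (ξ₀ : MidIdx q)
    (hq' : q ∣ N₀ * q)
    {D : Divisor Kbar (FN (N₀ * q * q))} {n : ℕ} (hD : StableData A (N₀ * q) q D n)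
    {E : Divisor Kbar (FN (N₀ * q * q))}
    (hE : IsE3 (N₀ * q * q) q (Dvd.intro_left (N₀ * q) rfl) (Nat.mul_dvd_mul_right hq' q) E)
    (w : FN (N₀ * q * q)) (hw : (w : Om) ∈ O) (ξ : K0Plan.R3 A) (hw0 : w ≠ 0)
    (hord : ∀ P : Place Kbar (FN (N₀ * q * q)), P.ord w = n * D P)
    (hwfix : K0Plan.Fixed A (w : Om)) (hwinv : ((w : Om))⁻¹ ∈ O)
    (hrel : K0Plan.rho3 A q O ρ ξ₀ ⟨_, hw⟩ * ξ ^ n = 1) :
    ∃ η₁ η₂ : kk A, η₁ ≠ 0 ∧ η₂ ≠ 0 ∧ η₁ ^ n = η₂ ^ n ∧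
      ∀ f ∈ K0Plan.Lam A (N₀ * q) M q O E D, ∀ y : K0Plan.BK3 A M,
        K0Plan.rho3 A q O ρ ξ₀ f = K0Plan.iota3 A M y * ξ →
        ((η₁ • y.1 ^ q, η₂ • (y.2.1 ^ (q - 1) * y.2.2), η₂ • (y.2.1 ^ (q - 1) * y.2.2)) :
          K0Plan.BK3 A M) ∈ K0Plan.A3 A (N₀ * q) M q O ρ E ξ₀ := by
  classical
  have hq : q.Prime := hL.prime
  haveI : Fact q.Prime := ⟨hq⟩
  haveI : CharP (kk A) q := charP_residueField_of_liesOverPrime A q hA
  letI : Fintype (MidIdx q) := CoordFin.fintypeMidIdx q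
  have hqM : ¬ q ∣ M := FrameInst.not_dvd_of_coprime hq h
  have hdiv : N₀ ∣ M := ⟨Fermat.Agent.S34.Plan.aux q, by rw [hL.M_eq, mul_comm]⟩
  have hn : 0 < n := hD.pos
  have hle' : modularFunctionFieldBar (N₀ * q) ≤ modularFunctionFieldBar (M * q) :=
    PullStep.bar_le (Nat.mul_dvd_mul_right hdiv q)
  have hS2 := (Fermat.Agent.S35.ValFStmt.valF_val A hL hA h).1
  have hτ : ∀ x : kk A, frobenius (kk A) q x = x ^ q := fun x => frobenius_def q x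
  -- `w` as an element of `O` and of the top level
  set wO : O := ⟨(w : Om), hw⟩ with hwO
  set x : FN (M * q * q) := ⟨(w : Om), hS.mem_field wO⟩ with hx
  have hxu : (x : Om) = (w : Om) := rfl
  have hw0' : (w : Om) ≠ 0 := fun h0 => hw0 (Subtype.ext h0)
  -- `w` is a unit of `O`
  have hunit : ∀ i : Coord q, ρ wO i ≠ 0 := by
    intro i h0
    have h1 : wO * ⟨_, hwinv⟩ = 1 := Subtype.ext (mul_inv_cancel₀ hw0')
    have h2 := congrFun (congrArg ρ h1) i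
    rw [map_mul, map_one, Pi.mul_apply, h0, zero_mul] at h2
    exact zero_ne_one h2
  have hmid : ∀ ξ' : MidIdx q, ρ wO (Coord.mid ξ') = ρ wO (Coord.mid ξ₀) := fun ξ' =>
    CondK0.midEqStmt hq hA hS wO hwfix ξ' ξ₀
  have hprod : ∏ ξ' : MidIdx q, ρ wO (Coord.mid ξ') = ρ wO (Coord.mid ξ₀) ^ (q - 1) := by
    rw [Finset.prod_congr rfl (fun ξ' _ => hmid ξ'), Finset.prod_const, Finset.card_univ,
      CoordFin.fintype_card_midIdx hq]
  -- the three relations `ρ_i(w) ξ_iⁿ = 1`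
  have e1 : ρ wO Coord.inf * ξ.1 ^ n = 1 := congrArg Prod.fst hrel
  have e2 : ρ wO (Coord.mid ξ₀) * ξ.2.1 ^ n = 1 := congrArg (fun t : K0Plan.R3 A => t.2.1) hrel
  have e3 : ρ wO Coord.zero * ξ.2.2 ^ n = 1 := congrArg (fun t : K0Plan.R3 A => t.2.2) hrel
  -- the inertia-fixed generator of `β_* D` and the norm relation
  haveI : IsFF1 Kbar (FN (N₀ * q)) := Fermat.Agent.S37.HeckeInputs.isFF1_FN (N₀ * q)
  obtain ⟨b, hb0, hbord, hbfix⟩ := B2Plan.exists_fixed_generator (N₀ * q) A _ hD.pushB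
    (VNormCore.push_beta_stable (N₀ * q) q D hD.stable)
  obtain ⟨c, hc0, hβrel⟩ := VNormCore.norm_eq_const_mul_pow_of (heckeBetaBar Kbar (N₀ * q) q)
    (Fermat.Agent.S37.HeckeInputs.heckeBetaBarIntegral (N₀ * q) q)
    (Fermat.Agent.S37.HeckeInputs.finiteAlong_beta (N₀ * q) q)
    (Fermat.Agent.S37.HeckeInputs.normFormulaAlong_beta (N₀ * q) q) D n w hw0 hord b hb0 hbord
  obtain ⟨b', hb'⟩ : ∃ b' : FN (M * q), (b' : Om) = (b : Om) := ⟨⟨(b : Om), hle' b.2⟩, rfl⟩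
  have hb'fix : IFix A (M * q) b' := VNormCore.iFix_of_coe_eq hb' hbfix
  have hb'0 : b' ≠ 0 := VNormCore.ne_zero_of_coe_eq hb' hb0
  have hβtop : VNormCore.normB M q x = algebraMap Kbar (FN (M * q)) c * b' ^ n :=
    NormBC.norm_beta_top_eq_of N₀ M q hq w b c n hβrel x hxu b' hb'
  -- `N_β w` in the level-`q` ring
  obtain ⟨hN2, hNred⟩ := NormPull.norm_beta_mem_O2 hq hA F hS (frobenius (kk A) q) hτ x hw
  rw [hprod] at hNred
  set X : Val.O2 A M q (Sigma.sigma M q h) := ⟨_, hN2⟩ with hXdef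
  have hX1 : (Val.Red A M q (Sigma.sigma M q h) X).1 ≠ 0 := by
    rw [hNred]
    exact (map_ne_zero (coeffMap (frobenius (kk A) q))).mpr (hunit _)
  have hX2 : (Val.Red A M q (Sigma.sigma M q h) X).2 ≠ 0 := by
    rw [hNred]
    exact mul_ne_zero (hunit _) (pow_ne_zero _ (hunit _))
  have hXa : (X : Om) = HahnSeries.C c * (b' : Om) ^ n := by
    show ((VNormCore.normB M q x : FN (M * q)) : Om) = _
    rw [hβtop]
    push_cast
    rw [algebraMap_LS_eq_C]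
  obtain ⟨d, hg, κ, hd0, hκ0, hdfix, hr1, hr2⟩ :=
    exists_scaled_fixed hq hA hS2 hn X hX1 hX2 c hc0 b' hb'0 hb'fix hXa
  rw [hNred] at hr1 hr2
  set g : Val.O2 A M q (Sigma.sigma M q h) := ⟨_, hg⟩ with hgdef
  obtain ⟨hgO, hgρ⟩ := PullRed.beta_mem hq hA hS g
  set gO : O := ⟨qExpand Kbar q (g : Om), hgO⟩ with hgOdef
  have hgfix0 : K0Plan.Fixed A (HahnSeries.C d * (b' : Om)) := by
    intro σ hσ
    rw [map_mul, K0ScaleFrame.coeffMap_C, hdfix σ hσ, NormK0.fixed_of_iFix hb'fix σ hσ]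
  have hgfix : K0Plan.Fixed A (gO : Om) := LevelRed.fixed_qExpand hgfix0
  set B₁ : Omk A := (Val.Red A M q (Sigma.sigma M q h) g).1 with hB₁
  set B₂ : Omk A := (Val.Red A M q (Sigma.sigma M q h) g).2 with hB₂
  have hg1 : ρ gO Coord.inf = qExpand (kk A) q B₁ := by rw [hgOdef, hgρ]; rfl
  have hg2 : ρ gO (Coord.mid ξ₀) = B₂ := by rw [hgOdef, hgρ]; rfl
  have hg3 : ρ gO Coord.zero = B₂ := by rw [hgOdef, hgρ]; rfl
  -- the two constants
  have hη1 : (ξ.1 ^ q * qExpand (kk A) q B₁) ^ n = HahnSeries.C κ := by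
    have hV : qExpand (kk A) q B₁ ^ n = HahnSeries.C κ * ρ wO Coord.inf ^ q := by
      rw [← map_pow, hr1, map_mul, qExpand_C,
        Fermat.Agent.Lib.KroneckerCong.pow_char_eq q (ρ wO Coord.inf)]
    have e : (ξ.1 ^ q * qExpand (kk A) q B₁) ^ n =
        HahnSeries.C κ * (ρ wO Coord.inf * ξ.1 ^ n) ^ q := by
      rw [mul_pow, hV]
      ring
    rw [e, e1, one_pow, mul_one]
  have hη2 : (ξ.2.1 ^ (q - 1) * ξ.2.2 * B₂) ^ n = HahnSeries.C κ := by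
    have e : (ξ.2.1 ^ (q - 1) * ξ.2.2 * B₂) ^ n =
        HahnSeries.C κ * (ρ wO Coord.zero * ξ.2.2 ^ n) *
          (ρ wO (Coord.mid ξ₀) * ξ.2.1 ^ n) ^ (q - 1) := by
      rw [mul_pow, mul_pow, hr2]
      ring
    rw [e, e3, e2, one_pow, mul_one, mul_one]
  obtain ⟨η₁, hη₁, hη₁n⟩ := exists_const_of_pow_eq hn hη1
  obtain ⟨η₂, hη₂, hη₂n⟩ := exists_const_of_pow_eq hn hη2
  have hη₁0 : η₁ ≠ 0 := by
    intro h0
    rw [h0, zero_pow hn.ne'] at hη₁n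
    exact hκ0 hη₁n.symm
  have hη₂0 : η₂ ≠ 0 := by
    intro h0
    rw [h0, zero_pow hn.ne'] at hη₂n
    exact hκ0 hη₂n.symm
  refine ⟨η₁, η₂, hη₁0, hη₂0, hη₁n.trans hη₂n.symm, ?_⟩
  intro f hf y hy
  obtain ⟨hffix, cf, hfc⟩ := hf
  obtain ⟨gN, hgN, hgNfix, hgNρ⟩ := NormPull.exists_beta_norm hq hA F hS ξ₀ f hffix
  set fT : FN (M * q * q) := ⟨(f : Om), hS.mem_field f⟩ with hfT
  refine ⟨gN * gO, ⟨?_, ?_⟩, ?_⟩
  · -- fixed
    intro σ hσ
    rw [Subring.coe_mul, map_mul, hgNfix σ hσ, hgfix σ hσ]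
  · -- regular away from `E`
    have hnorm : VNormCore.normB M q x =
        algebraMap Kbar (FN (M * q)) (c * (d ^ n)⁻¹) *
          (algebraMap Kbar (FN (M * q)) d * b') ^ n := by
      rw [hβtop, mul_pow, ← map_pow, ← mul_assoc, ← map_mul, mul_assoc,
        inv_mul_cancel₀ (pow_ne_zero n hd0), mul_one]
    have key := NormE3.beta_norm_beta_mul_mem_E3 (N₀ * q) M q (Dvd.intro_left (N₀ * q) rfl)
      (Nat.mul_dvd_mul_right hq' q) hq (Nat.mul_dvd_mul_right hdiv q) hE D hn w hw0 hord x hxu cf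
      fT hfc (algebraMap Kbar (FN (M * q)) d * b') (c * (d ^ n)⁻¹)
      (mul_ne_zero hc0 (inv_ne_zero (pow_ne_zero n hd0))) hnorm
    have hcoe : ((gN * gO : O) : Om) =
        qExpand Kbar q
          ((VNormCore.normB M q fT * (algebraMap Kbar (FN (M * q)) d * b') : FN (M * q)) : Om) := by
      rw [Subring.coe_mul, hgN, MulMemClass.coe_mul, MulMemClass.coe_mul,
        SetupQ2.coe_algebraMap_FN, map_mul]
    refine ⟨n * cf * (2 * q + 1) * finrankAlong Kbar (heckeBetaBar Kbar (M * q) q), ?_⟩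
    rw [zero_add, hcoe]
    exact key
  · -- the reduction
    have hy1 : (K0Plan.rho3 A q O ρ ξ₀ f).1 = (y.1 : Omk A) * ξ.1 := by rw [hy]; rfl
    have hy2 : (K0Plan.rho3 A q O ρ ξ₀ f).2.1 = (y.2.1 : Omk A) * ξ.2.1 := by rw [hy]; rfl
    have hy3 : (K0Plan.rho3 A q O ρ ξ₀ f).2.2 = (y.2.2 : Omk A) * ξ.2.2 := by rw [hy]; rfl
    have hG : K0Plan.rho3 A q O ρ ξ₀ (gN * gO) =
        (((y.1 : Omk A) * ξ.1) ^ q * qExpand (kk A) q B₁,
          ((y.2.1 : Omk A) * ξ.2.1) ^ (q - 1) * ((y.2.2 : Omk A) * ξ.2.2) * B₂,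
          ((y.2.1 : Omk A) * ξ.2.1) ^ (q - 1) * ((y.2.2 : Omk A) * ξ.2.2) * B₂) := by
      rw [map_mul, hgNρ, hy1, hy2, hy3]
      refine Prod.ext ?_ (Prod.ext ?_ ?_)
      · show _ * ρ gO Coord.inf = _
        rw [hg1]
      · show _ * ρ gO (Coord.mid ξ₀) = _
        rw [hg2]
      · show _ * ρ gO Coord.zero = _
        rw [hg3]
    rw [hG, TwistK0.iota3_apply]
    refine Prod.ext ?_ (Prod.ext ?_ ?_)
    · show _ = ((η₁ • y.1 ^ q : ↥(K0Plan.BKM A M)) : Omk A)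
      rw [TwistK0.coe_smul_BKM, ← hη₁]
      push_cast
      ring
    · show _ = ((η₂ • (y.2.1 ^ (q - 1) * y.2.2) : ↥(K0Plan.BKM A M)) : Omk A)
      rw [TwistK0.coe_smul_BKM, ← hη₂]
      push_cast
      ring
    · show _ = ((η₂ • (y.2.1 ^ (q - 1) * y.2.2) : ↥(K0Plan.BKM A M)) : Omk A)
      rw [TwistK0.coe_smul_BKM, ← hη₂]
      push_cast
      ring

end Beta

/-! ### [NORM-TW] -/

section Main

variable {N₀ M q : ℕ} [NeZero N₀] [NeZero (N₀ * q)] [NeZero M] [NeZero q] {h : Nat.Coprime M q}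
variable {A : ValuationSubring Kbar} {O : Subring Om} {ρ : O →+* Rq A q}

/-- **[NORM-TW]** at the levels `N' = N₀ q`, `M = aux q · N₀`. -/
theorem normTwStmt (hL : Fermat.Agent.S34.Plan.Levels q N₀ (N₀ * q) M)
    (hA : A.LiesOverPrime q) (F : Frame M q h) (hS : IsSetup A F O ρ) (ξ₀ : MidIdx q)
    (hq' : q ∣ N₀ * q) : TwistK0.NormTwStmt A (N₀ * q) M q hq' O ρ ξ₀ := by
  intro D n hD E hE w hw ξ hw0 hord hwfix hwinv _ hrel
  obtain ⟨η₁, η₂, h1, h2, h12, hα⟩ :=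
    normTw_alpha hL hA F hS ξ₀ hq' hD hE w hw ξ hw0 hord hwfix hwinv hrel
  obtain ⟨η₁', η₂', h1', h2', h12', hβ⟩ :=
    normTw_beta hL hA F hS ξ₀ hq' hD hE w hw ξ hw0 hord hwfix hwinv hrel
  exact ⟨η₁, η₂, η₁', η₂', h1, h2, h1', h2', h12, h12',
    fun f hf y hy => ⟨hα f hf y hy, hβ f hf y hy⟩⟩

end Main

/-- **[NORM-TW] at all levels.** -/
theorem normTwAllStmt : TwistAllOf.NormTwAllStmt := by
  intro N₀ N' M q _ _ _ hq' h hqp hcop hN' hM A hA F O ρ hS ξ₀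
  subst hN'
  have hN₀pos : 0 < N₀ := by
    rcases Nat.eq_zero_or_pos N₀ with h0 | h0
    · subst h0
      exact absurd (zero_mul q) (NeZero.ne (0 * q))
    · exact h0
  haveI : NeZero N₀ := ⟨hN₀pos.ne'⟩
  have hL : Fermat.Agent.S34.Plan.Levels q N₀ (N₀ * q) M :=
    ⟨hqp, hN₀pos, fun hd => hqp.one_lt.ne' (Nat.eq_one_of_dvd_coprimes hcop.symm dvd_rfl hd),
      rfl, hM⟩
  exact normTwStmt hL hA F hS ξ₀ hq'

end Fermat.Agent.S36.NormTw3

end
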