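import Mathlib
import Fermat.Agent.S34.RRExact
import Fermat.Agent.S36.InvSpan

/-!
# S36 / P8 — ApproxFin: the finite-place half of `happ` (block [HAPP-FIN], helper7)

For a torsion-free level `n` and a set `H` of automorphisms of `Q̄`: if the Riemann–Roch space
`L(B)` of a divisor `B` of large degree is stable under the coefficientwise action of `H`
(on `q`-expansions), then for EVERY place `v` of `F_n` there is an `H`-fixed `f ∈ L(B)` with
`ord_v f = -B v` EXACTLY.

* `rr_sub_single_lt` : `L(B - v) ⊊ L(B)` for `deg B` large (Riemann's equality twice);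
* `ord_eq_of_mem_of_not_mem` : `f ∈ L(B)`, `f ∉ L(B - v)` ⟹ `f ≠ 0` and `ord_v f = -B v`;
* `exists_fixed_not_mem` : a finite-dimensional `H`-stable space of `q`-expansions not contained
  in a subspace `W'` contains an `H`-fixed vector outside `W'` (fixed basis, `InvSpan`);
* `exists_fixed_exact_ord` : the statement above.

Consumers: `hgen` of `BasePoint.not_mem_of_generator` / `happ` of
`UnitDenom.pow_mul_mem_and_exists` at the finite places (with `B = D + c • E`, `H` = the inertia
group of `A`, and a Kummer function `u` of `D`: `ord_v (fⁿ u) = 0` off the support of `E`).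
-/

set_option autoImplicit false

noncomputable section

namespace Fermat.Agent.S36.ApproxFin

open ModularCurve AlgebraicCurve Fermat.Agent.S24 Fermat.Agent.S18.Content Fermat.Agent.S18.Plan
  Fermat.Agent.S18 Fermat.Agent.S34 Fermat.Agent.Lib

section Generic

variable {K F : Type*} [Field K] [Field F] [Algebra K F]

/-- `L(B - v) ≤ L(B)`. -/
theorem rr_sub_single_le (B : Divisor K F) (v : Place K F) :
    riemannRochSpace (B - Finsupp.single v 1) ≤ riemannRochSpace B := by
  classical
  apply RationalFF.riemannRochSpace_mono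
  intro w
  rw [Finsupp.sub_apply]
  have : (0 : ℤ) ≤ (Finsupp.single v (1 : ℤ)) w := by
    rw [Finsupp.single_apply]
    split_ifs <;> simp
  linarith

/-- `f ∈ L(B)`, `f ∉ L(B - v)` ⟹ `f ≠ 0` and `ord_v f = -B v` exactly. -/
theorem ord_eq_of_mem_of_not_mem (B : Divisor K F) (v : Place K F) (f : F)
    (hf : f ∈ riemannRochSpace B) (hf' : f ∉ riemannRochSpace (B - Finsupp.single v 1)) :
    f ≠ 0 ∧ v.ord f = -B v := by
  classical
  have hf0 : f ≠ 0 := by
    rintro rfl
    exact hf' (Submodule.zero_mem _)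
  refine ⟨hf0, ?_⟩
  rw [mem_riemannRochSpace_iff] at hf hf'
  push Not at hf'
  obtain ⟨w, -, hw⟩ := hf'
  have hBw := (hf w).resolve_left hf0
  rw [Finsupp.sub_apply, Finsupp.single_apply] at hw
  by_cases hvw : v = w
  · subst hvw
    rw [if_pos rfl] at hw
    omega
  · rw [if_neg hvw] at hw
    omega

end Generic

section Fixed

variable {K : Type*} [Field K]

/-- A finite-dimensional space `W` of `q`-expansions, stable under the coefficientwise action of
a set `H` of automorphisms and not contained in `W'`, contains an `H`-fixed vector outside `W'`. -/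
theorem exists_fixed_not_mem {k : Type*} [Field k] [Algebra k K] (H : Set (K ≃ₐ[k] K))
    (W W' : Submodule K (LaurentSeries K)) [Module.Finite K W]
    (hW : ∀ τ ∈ H, ∀ w ∈ W, coeffMap (τ : K →+* K) w ∈ W) (hWW' : ¬ W ≤ W') :
    ∃ x ∈ W, x ∉ W' ∧ ∀ τ ∈ H, coeffMap (τ : K →+* K) x = x := by
  obtain ⟨r, b, -, hbW, hfix, -, -, hspan⟩ := InvSpan.exists_fixed_basis_aut H W hW
  by_contra hcon
  push Not at hcon
  apply hWW'
  rw [← hspan]
  refine Submodule.span_le.mpr ?_
  rintro _ ⟨j, rfl⟩
  by_contra hj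
  obtain ⟨τ, hτ, hne⟩ := hcon (b j) (hbW j) hj
  exact hne (hfix j τ hτ)

end Fixed

section Level

variable (n : ℕ) [NeZero n]

/-- `L(B - v) ⊊ L(B)` once `deg B` is large (Riemann's equality for `B` and `B - v`). -/
theorem rr_sub_single_lt (hTF : 4 ∣ n ∨ 9 ∣ n) :
    ∃ d₀ : ℤ, ∀ B : Divisor Kbar (FN n), d₀ ≤ Divisor.degree B → ∀ v : Place Kbar (FN n),
      ¬ riemannRochSpace B ≤ riemannRochSpace (B - Finsupp.single v 1) := by
  obtain ⟨d₀, hd₀⟩ := RRExact.riemann_eq n hTF
  refine ⟨d₀ + 1, fun B hB v hle => ?_⟩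
  have hdeg' : Divisor.degree (B - Finsupp.single v 1) = Divisor.degree B - 1 := by
    rw [map_sub, Divisor.degree_single, Char0.deg_eq_one]
    simp
  obtain ⟨-, hdim⟩ := hd₀ B (by linarith)
  obtain ⟨-, hdim'⟩ := hd₀ (B - Finsupp.single v 1) (by rw [hdeg']; linarith)
  have heq : riemannRochSpace B = riemannRochSpace (B - Finsupp.single v 1) :=
    le_antisymm hle (rr_sub_single_le B v)
  rw [← heq, hdeg'] at hdim'
  linarith

/-- **[HAPP-FIN]** for `deg B` large and `L(B)` stable under `H`: at every place `v` there is an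
`H`-fixed `f ∈ L(B)` with `ord_v f = -B v` exactly. -/
theorem exists_fixed_exact_ord (hTF : 4 ∣ n ∨ 9 ∣ n) (H : Set (Kbar ≃ₐ[ℚ] Kbar)) :
    ∃ d₀ : ℤ, ∀ B : Divisor Kbar (FN n), d₀ ≤ Divisor.degree B →
      (∀ τ ∈ H, ∀ x ∈ (riemannRochSpace B).map (RR0.inclLin n),
        coeffMap (τ : Kbar →+* Kbar) x ∈ (riemannRochSpace B).map (RR0.inclLin n)) →
      ∀ v : Place Kbar (FN n), ∃ f : FN n, f ∈ riemannRochSpace B ∧ f ≠ 0 ∧ v.ord f = -B v ∧
        ∀ τ ∈ H, coeffMap (τ : Kbar →+* Kbar) (f : Om) = (f : Om) := by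
  obtain ⟨d₀, hd₀⟩ := rr_sub_single_lt n hTF
  refine ⟨d₀, fun B hB hst v => ?_⟩
  have hlt := hd₀ B hB v
  haveI : Module.Finite Kbar (riemannRochSpace B) := RRExact.finite_rr n B
  haveI : Module.Finite Kbar ((riemannRochSpace B).map (RR0.inclLin n)) :=
    Module.Finite.equiv (Submodule.equivMapOfInjective (RR0.inclLin n)
      (RR0.inclLin_injective (N' := n)) (riemannRochSpace B))
  have hWW' : ¬ (riemannRochSpace B).map (RR0.inclLin n)
      ≤ (riemannRochSpace (B - Finsupp.single v 1)).map (RR0.inclLin n) := by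
    intro hle
    apply hlt
    intro f hf
    obtain ⟨f', hf', hff'⟩ := hle (Submodule.mem_map_of_mem hf)
    rw [← RR0.inclLin_injective hff']
    exact hf'
  obtain ⟨x, hxW, hxW', hxfix⟩ := exists_fixed_not_mem H _ _ hst hWW'
  obtain ⟨f, hf, rfl⟩ := hxW
  have hf' : f ∉ riemannRochSpace (B - Finsupp.single v 1) :=
    fun h => hxW' (Submodule.mem_map_of_mem h)
  obtain ⟨hf0, hord⟩ := ord_eq_of_mem_of_not_mem B v f hf hf'
  exact ⟨f, hf, hf0, hord, hxfix⟩

end Level

end Fermat.Agent.S36.ApproxFin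

end
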