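import Mathlib
import Fermat.Agent.S36.LocalDenom

/-!
# S36 (P8) — [BP-DUAL]: from a local generator of `M_D` to an inverse section (helper7)

Frame-independent algebra for the step "(S2)" of the base-point lemma: `S36/LocalDenom` gives, at a
closed point `m` of the special fibre, `g ∈ M_D` and `d ∈ B ∖ m` with `d • M_D ⊆ B g`.  To conclude
that `g` is a *unit generator* (i.e. `gⁿ u ∈ B ∖ m`, equivalently `M_D · M_{-D} ⊄ m`) one needs
`h := d / g ∈ M_{-D}`, and this is NOT formal: `h • M_D ⊆ B` only gives `h ∈ M_{-D}` if `M_D`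
generates at every "height-one condition" defining `B` (the contract `hgen` below: `[DIV]`).

Setting: `F` a field, `B ≤ F` a subring which is an intersection of subrings `V i`
(`x ∈ B ↔ ∀ i, x ∈ V i`; in the application the valuation rings of the finite places and of the
Gauss valuations), `u ∈ F`, `n ≥ 1`, `MD ⊆ F` (the divisorial module; `fⁿ u ∈ B` for `f ∈ MD`).

* `pow_mul_inv_mem`   : `hgen` + `d • MD ⊆ B g`  ⟹  `(d / g)ⁿ u⁻¹ ∈ B`;
* `ne_zero_of_loc`, `div_pow_mul_eq` : `g ≠ 0` and `((d / g)ⁿ u⁻¹) (gⁿ u) = dⁿ`;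
* `exists_inverse`    : the three together: `h` with `hⁿ u⁻¹ ∈ B`, `g h = d`;
* `not_mem_of_generator` : for a prime ideal `m ∌ d`: `gⁿ u ∉ m` (the local generator is a unit
  generator);
* `exists_int_combo_not_mem` : (for `hgen` at the finite places) an INTEGER combination of
  vectors `b i` avoiding finitely many subspaces, none of which contains all the `b i`
  (integer coefficients keep rationality over any subfield);
* `exists_red_ne_zero` : (for `hgen` at a vertical component) with the hypotheses `hker` of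
  `LocalDenom.exists_generator_of_reduction`, a finitely generated `I` that is not killed by any
  `d ∉ m` has an element with nonzero reduction.
-/

set_option autoImplicit false

namespace Fermat.Agent.S36.BasePoint

section Dual

variable {F : Type*} [Field F]

/-- **(S2), abstract.**  If `MD` generates at every condition `V i` (`hgen`) and `d • MD ⊆ B g`,
then `(d / g)ⁿ u⁻¹ ∈ B`. -/
theorem pow_mul_inv_mem (B : Subring F) {ι : Type*} (V : ι → Subring F)
    (hBV : ∀ x : F, (∀ i, x ∈ V i) → x ∈ B) (hVB : ∀ i, B ≤ V i)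
    (u : F) {n : ℕ} (hn : 0 < n) (MD : Set F)
    (hgen : ∀ i, ∃ f ∈ MD, f ≠ 0 ∧ (f ^ n * u)⁻¹ ∈ V i)
    (g d : F) (hloc : ∀ f ∈ MD, ∃ c ∈ B, d * f = c * g) :
    (d / g) ^ n * u⁻¹ ∈ B := by
  apply hBV
  intro i
  obtain ⟨f, hfM, hf0, hfV⟩ := hgen i
  obtain ⟨c, hcB, hc⟩ := hloc f hfM
  by_cases hg : g = 0
  · rw [hg, div_zero, zero_pow hn.ne', zero_mul]
    exact (V i).zero_mem
  · have e : d / g = c / f := by
      rw [div_eq_div_iff hg hf0]
      exact hc
    have e2 : (c / f) ^ n * u⁻¹ = c ^ n * (f ^ n * u)⁻¹ := by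
      rw [div_pow, div_eq_mul_inv, mul_assoc, ← mul_inv]
    rw [e, e2]
    exact (V i).mul_mem ((V i).pow_mem (hVB i hcB) n) hfV

/-- The local generator is nonzero. -/
theorem ne_zero_of_loc (B : Subring F) (MD : Set F) (g d : F) (hd0 : d ≠ 0)
    (hne : ∃ f ∈ MD, f ≠ 0) (hloc : ∀ f ∈ MD, ∃ c ∈ B, d * f = c * g) : g ≠ 0 := by
  rintro rfl
  obtain ⟨f, hf, hf0⟩ := hne
  obtain ⟨c, -, hc⟩ := hloc f hf
  rw [mul_zero] at hc
  exact mul_ne_zero hd0 hf0 hc

/-- `((d / g)ⁿ u⁻¹) (gⁿ u) = dⁿ`. -/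
theorem div_pow_mul_eq (u g d : F) (n : ℕ) (hu : u ≠ 0) (hg : g ≠ 0) :
    ((d / g) ^ n * u⁻¹) * (g ^ n * u) = d ^ n := by
  have hgn : g ^ n ≠ 0 := pow_ne_zero n hg
  rw [div_pow]
  field_simp

/-- **[BP-DUAL]** the inverse section: `h` with `hⁿ u⁻¹ ∈ B`, `g h = d` and
`(hⁿ u⁻¹) (gⁿ u) = dⁿ`. -/
theorem exists_inverse (B : Subring F) {ι : Type*} (V : ι → Subring F)
    (hBV : ∀ x : F, (∀ i, x ∈ V i) → x ∈ B) (hVB : ∀ i, B ≤ V i)
    (u : F) (hu : u ≠ 0) {n : ℕ} (hn : 0 < n) (MD : Set F)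
    (hgen : ∀ i, ∃ f ∈ MD, f ≠ 0 ∧ (f ^ n * u)⁻¹ ∈ V i)
    (hne : ∃ f ∈ MD, f ≠ 0)
    (g d : F) (hd0 : d ≠ 0) (hloc : ∀ f ∈ MD, ∃ c ∈ B, d * f = c * g) :
    ∃ h : F, h ^ n * u⁻¹ ∈ B ∧ g * h = d ∧ (h ^ n * u⁻¹) * (g ^ n * u) = d ^ n := by
  have hg : g ≠ 0 := ne_zero_of_loc B MD g d hd0 hne hloc
  refine ⟨d / g, pow_mul_inv_mem B V hBV hVB u hn MD hgen g d hloc, ?_, ?_⟩
  · rw [mul_div_cancel₀ d hg]
  · exact div_pow_mul_eq u g d n hu hg

/-- **The local generator is a unit generator**: for a prime ideal `m` of `B` not containing `d`,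
`gⁿ u ∉ m`. -/
theorem not_mem_of_generator (B : Subring F) {ι : Type*} (V : ι → Subring F)
    (hBV : ∀ x : F, (∀ i, x ∈ V i) → x ∈ B) (hVB : ∀ i, B ≤ V i)
    (u : F) (hu : u ≠ 0) {n : ℕ} (hn : 0 < n) (MD : Set F)
    (hgen : ∀ i, ∃ f ∈ MD, f ≠ 0 ∧ (f ^ n * u)⁻¹ ∈ V i)
    (hne : ∃ f ∈ MD, f ≠ 0)
    (g d : F) (hloc : ∀ f ∈ MD, ∃ c ∈ B, d * f = c * g)
    (m : Ideal B) [hm : m.IsPrime] (hdB : d ∈ B) (hdm : (⟨d, hdB⟩ : B) ∉ m)
    (hU : g ^ n * u ∈ B) : (⟨g ^ n * u, hU⟩ : B) ∉ m := by
  have hd0 : d ≠ 0 := by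
    rintro rfl
    exact hdm (by
      have : (⟨0, hdB⟩ : B) = 0 := rfl
      rw [this]
      exact m.zero_mem)
  obtain ⟨h, hhB, -, hmul⟩ := exists_inverse B V hBV hVB u hu hn MD hgen hne g d hd0 hloc
  intro hmem
  have h1 : (⟨h ^ n * u⁻¹, hhB⟩ : B) * ⟨g ^ n * u, hU⟩ ∈ m := m.mul_mem_left _ hmem
  have h2 : (⟨h ^ n * u⁻¹, hhB⟩ : B) * ⟨g ^ n * u, hU⟩ = (⟨d, hdB⟩ : B) ^ n := by
    apply Subtype.ext
    rw [Subring.coe_mul, Subring.coe_pow]
    exact hmul
  rw [h2] at h1
  exact hdm (hm.mem_of_pow_mem n h1)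

end Dual

section Avoid

variable {K V : Type*} [Field K] [CharZero K] [AddCommGroup V] [Module K V]

/-- **Integer avoidance.**  Given vectors `b i` and finitely many subspaces `W j`, none of which
contains all the `b i`, some integer combination of the `b i` lies in no `W j`. -/
theorem exists_int_combo_not_mem {r : ℕ} (b : Fin r → V) :
    ∀ (s : ℕ) (W : Fin s → Submodule K V), (∀ j, ∃ i, b i ∉ W j) →
      ∃ a : Fin r → ℤ, ∀ j, ∑ i, (a i : K) • b i ∉ W j := by
  classical
  intro s
  induction s with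
  | zero =>
    intro W _
    exact ⟨fun _ => 0, fun j => j.elim0⟩
  | succ s ih =>
    intro W hW
    obtain ⟨a, ha⟩ := ih (fun j => W j.castSucc) (fun j => hW j.castSucc)
    set v : V := ∑ i, (a i : K) • b i with hv
    by_cases hlast : v ∈ W (Fin.last s)
    · obtain ⟨i₀, hi₀⟩ := hW (Fin.last s)
      -- the candidates `t v + b i₀`, `t = 0, …, s`
      have key : ∃ t : Fin (s + 1), ∀ j : Fin s,
          ((t : ℕ) : K) • v + b i₀ ∉ W j.castSucc := by
        by_contra hcon
        push Not at hcon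
        choose φ hφ using hcon
        have hinj : Function.Injective φ := by
          intro t t' htt
          by_contra hne
          have h1 := hφ t
          have h2 := hφ t'
          rw [htt] at h1
          have h3 : (((t : ℕ) : K) - ((t' : ℕ) : K)) • v ∈ W (φ t').castSucc := by
            have := (W (φ t').castSucc).sub_mem h1 h2
            rwa [add_sub_add_right_eq_sub, ← sub_smul] at this
          have hc : (((t : ℕ) : K) - ((t' : ℕ) : K)) ≠ 0 := by
            rw [sub_ne_zero]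
            intro h
            exact hne (Fin.ext (Nat.cast_injective h))
          have h4 : v ∈ W (φ t').castSucc := by
            have := (W (φ t').castSucc).smul_mem ((((t : ℕ) : K) - ((t' : ℕ) : K))⁻¹) h3
            rwa [smul_smul, inv_mul_cancel₀ hc, one_smul] at this
          exact ha (φ t') h4
        have := Fintype.card_le_of_injective φ hinj
        rw [Fintype.card_fin, Fintype.card_fin] at this
        omega
      obtain ⟨t, ht⟩ := key
      refine ⟨fun i => (t : ℕ) * a i + (if i = i₀ then 1 else 0), ?_⟩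
      have hsum : ∑ i, (((((t : ℕ) : ℤ) * a i + (if i = i₀ then 1 else 0) : ℤ)) : K) • b i
          = ((t : ℕ) : K) • v + b i₀ := by
        have h1 : ∀ i, (((((t : ℕ) : ℤ) * a i + (if i = i₀ then 1 else 0) : ℤ)) : K) • b i
            = ((t : ℕ) : K) • ((a i : K) • b i) + (if i = i₀ then b i₀ else 0) := by
          intro i
          by_cases hi : i = i₀
          · subst hi
            simp [add_smul, mul_smul]
          · simp [hi, mul_smul]
        rw [Finset.sum_congr rfl (fun i _ => h1 i), Finset.sum_add_distrib, ← Finset.smul_sum,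
          Finset.sum_ite_eq' Finset.univ i₀ (fun _ => b i₀)]
        simp [hv]
      intro j
      rw [hsum]
      refine Fin.lastCases ?_ (fun j' => ?_) j
      · intro hmem
        apply hi₀
        have h5 : ((t : ℕ) : K) • v ∈ W (Fin.last s) := (W (Fin.last s)).smul_mem _ hlast
        have := (W (Fin.last s)).sub_mem hmem h5
        rwa [add_sub_cancel_left] at this
      · exact ht j'
    · refine ⟨a, fun j => ?_⟩
      refine Fin.lastCases ?_ (fun j' => ?_) j
      · exact hlast
      · exact ha j'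

end Avoid

section Red

/-- **Nonzero reduction.**  With the kernel hypothesis `hker` of
`LocalDenom.exists_generator_of_reduction` (an element with zero reduction is, up to a denominator
`s ∉ m`, divisible by `t ∈ m`), a finitely generated module `I` which is not killed by any
`d ∉ m` contains an element with nonzero reduction. -/
theorem exists_red_ne_zero {B L M : Type*} [CommRing B] [AddCommGroup L] [AddCommGroup M]
    [Module B M] (m : Ideal B) [hm : m.IsPrime] (t : B) (htm : t ∈ m)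
    (I : Submodule B M) (hfg : I.FG) (r : I →+ L)
    (hker : ∀ x : I, r x = 0 → ∃ s : B, s ∉ m ∧ ∃ y : I, s • x = t • y)
    (htf : ∃ x : I, ∀ d : B, d ∉ m → d • x ≠ 0) :
    ∃ x : I, r x ≠ 0 := by
  classical
  by_contra hcon
  push Not at hcon
  have hfin : Module.Finite B I := Module.Finite.iff_fg.2 hfg
  obtain ⟨G, hG⟩ := (Module.Finite.fg_top : (⊤ : Submodule B I).FG)
  choose sx hsx yx hyx using fun x : I => hker x (hcon x)
  set c : B := ∏ x ∈ G, sx x with hc
  have hcm : c ∉ m := by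
    rw [hc]
    intro hmem
    obtain ⟨x, -, hx⟩ := (Ideal.IsPrime.prod_mem_iff.1 hmem)
    exact hsx x hx
  -- `c • z ∈ t • I` for all `z`
  let N : Submodule B I :=
    (Ideal.span {t} • (⊤ : Submodule B I)).comap (c • (LinearMap.id : I →ₗ[B] I))
  have hGN : (G : Set I) ⊆ N := by
    intro x hx
    show c • x ∈ Ideal.span {t} • (⊤ : Submodule B I)
    have e : c = (∏ x' ∈ G.erase x, sx x') * sx x := by
      rw [hc, ← Finset.prod_erase_mul G sx hx]
    rw [e, mul_smul, hyx x, smul_comm]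
    exact Submodule.smul_mem_smul (Ideal.mem_span_singleton_self t) Submodule.mem_top
  have hN : N = ⊤ := by
    rw [eq_top_iff, ← hG]
    exact Submodule.span_le.2 hGN
  have hall : ∀ z : I, c • z ∈ Ideal.span {t} • (⊤ : Submodule B I) := by
    intro z
    have : z ∈ N := by rw [hN]; exact Submodule.mem_top
    exact this
  obtain ⟨d, hdm, hd⟩ := LocalDenom.exists_annihilator_not_mem m t c htm hcm hall
  obtain ⟨x, hx⟩ := htf
  exact hx d hdm (hd x)

end Red

end Fermat.Agent.S36.BasePoint
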