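import Mathlib
import Fermat.Agent.S36.CuspZW
import Fermat.Agent.S36.CuspRegAll

/-!
# S36 (P8) — [CR-FAM-ALL]: `CuspRegAll.FamAllStmt` (helper60)

The three families of cusp regularity with an injective node function, for every setup of the
level-`q²` frame:

* `famStmt`    : `CuspRegAll.FamStmt A N M q hqN hqq O ρ` for any `Plan.IsSetup A F O ρ`, `A` over
  the prime `q`, `4 ∣ M ∨ 9 ∣ M`, `q * q ∣ N ∣ M * q * q`;
* `famAllStmt` : `CuspRegAll.FamAllStmt` (the level datum of `Plan.LiftAllStmt`).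

Everything is in `S36/CuspZW` (`fam_inf_inst`, `fam_zero_inst`, `fam_mid_inst`).
-/

set_option autoImplicit false

noncomputable section

namespace Fermat.Agent.S36.CuspFamAll

open ModularCurve AlgebraicCurve Fermat.Agent.S24 Fermat.Agent.S18.Content Fermat.Agent.S18.Plan
  Fermat.Agent.S18 Fermat.Agent.S34

/-- **The families for one setup.** -/
theorem famStmt {A : ValuationSubring Kbar} {M q : ℕ} [NeZero M] [NeZero q]
    {h : Nat.Coprime M q} {F : Plan.Frame M q h} {O : Subring Om} {ρ : O →+* Plan.Rq A q}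
    {N : ℕ} [NeZero N] (hS : Plan.IsSetup A F O ρ) (hq : q.Prime) (hTF : 4 ∣ M ∨ 9 ∣ M)
    (hA : A.LiesOverPrime q) (hqN : q ∣ N) (hqq : q * q ∣ N) (hN : N ∣ M * q * q) :
    CuspRegAll.FamStmt A N M q hqN hqq O ρ := by
  obtain ⟨t, ht, hm⟩ := CuspZW.fam_mid_inst hS hq hTF hA hqN hqq hN
  exact ⟨t, ht, CuspZW.fam_inf_inst hS hq hTF hA hqN hqq hN,
    CuspZW.fam_zero_inst hS hq hTF hA hqN hqq hN, hm⟩

/-- **The families at all levels.** -/
theorem famAllStmt : CuspRegAll.FamAllStmt := by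
  intro N₀ N' M q _ _ _ hq' h hqp hcop hN' hM A hA F O ρ hS
  have hTF : 4 ∣ M ∨ 9 ∣ M := by
    rw [hM]
    unfold S34.Plan.aux
    split_ifs
    · exact Or.inr (Dvd.intro _ rfl)
    · exact Or.inl (Dvd.intro _ rfl)
  have hN : N' * q ∣ M * q * q := by
    rw [hN', hM]
    exact Nat.mul_dvd_mul_right (Nat.mul_dvd_mul_right (Dvd.intro_left _ rfl) q) q
  exact famStmt hS hqp hTF hA _ _ hN

end Fermat.Agent.S36.CuspFamAll

end
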