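import Mathlib
import Fermat.Agent.S36.CuspRegGen

/-!
# S36 (P8) — [CR-Q2-ABS]: the `q²`-shape of the cusp-regularity count (helper51)

Frame-independent, hypothesis form, on `R = ι → κ((T))` (coordinatewise reductions).

Coordinates: `i∞`, `i0` and `n` middle coordinates `mid ξ` (`n = q - 1`, nodes `t ξ ∈ κ`
pairwise distinct — the images of `ξ ∈ 𝔽_q^×`).  Base field `L₀` (`= Fk A M'`) with the graded
Riemann count `(R)`.  Three families in `B̄(c+1)`:

* `Pi.single i∞ (ω∞ c * a)`, `a ∈ WJ L₀ (m∞ c)`;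
* `Pi.single i0 (ω0 c * a)`, `a ∈ WJ L₀ (m0 c)`;
* `∑ ξ, Pi.single (mid ξ) (t ξ ^ i • (ωm c * u ^ i * a))`, `i < n`, `a ∈ WJ L₀ (mm c)`
  (`u = θ j̄`: the reduction of `e_mid · U^i · lift a`, `U = (j_{q²} - j)/(1 - ζ)`),

each saturated (`ω a ∈ WJ (c e) ⟹ a ∈ WJ (m - e)`), and the growth bound
`dim B̄(c+1) ≤ dim B̄(c) + (e i∞ + e i0 + n em) ψ`.  Then
`x ∈ B̄(c')`, `x i ∈ WJ (L i) (c e i)` for all `i` ⟹ `x ∈ B̄(c)`   (`c' ≥ c ≥ c₁`).
-/

set_option autoImplicit false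
set_option linter.style.haveILetI false

noncomputable section

namespace Fermat.Agent.S36.CuspRegQ2

open Module Fermat.Agent.S18.Plan Fermat.Agent.S18 Fermat.Agent.S36.CuspRegGen

variable {κ : Type} [Field κ]

/-- Multiplication by `ω` as a `κ`-linear map of `κ((T))`. -/
def mulL (ω : LaurentSeries κ) : LaurentSeries κ →ₗ[κ] LaurentSeries κ where
  toFun y := ω * y
  map_add' := mul_add ω
  map_smul' a y := by
    simp only [RingHom.id_apply]
    rw [← HahnSeries.C_mul_eq_smul, ← HahnSeries.C_mul_eq_smul]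
    ring

@[simp] theorem mulL_apply (ω y : LaurentSeries κ) : mulL ω y = ω * y := rfl

section RR

variable {L₀ : IntermediateField κ (LaurentSeries κ)}

theorem finite_WJ (ψ m₀ : ℕ)
    (hR : ∀ m, m₀ ≤ m → Module.Finite κ (WJ κ L₀ m) ∧
      finrank κ (WJ κ L₀ (m + 1)) = finrank κ (WJ κ L₀ m) + ψ) (m : ℕ) :
    Module.Finite κ (WJ κ L₀ m) := by
  haveI := (hR (max m m₀) (le_max_right _ _)).1
  exact Submodule.finiteDimensional_of_le (WJCalc.WJ_mono (le_max_left m m₀))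

theorem finrank_WJ_sub (ψ m₀ : ℕ)
    (hR : ∀ m, m₀ ≤ m → Module.Finite κ (WJ κ L₀ m) ∧
      finrank κ (WJ κ L₀ (m + 1)) = finrank κ (WJ κ L₀ m) + ψ) (e m : ℕ) (h : m₀ + e ≤ m) :
    finrank κ (WJ κ L₀ m) = finrank κ (WJ κ L₀ (m - e)) + e * ψ := by
  induction e generalizing m with
  | zero => simp
  | succ e ih =>
    have h1 : m₀ + e ≤ m - 1 := by omega
    have h2 := ih (m - 1) h1
    have h3 := (hR (m - 1) (by omega)).2
    have e1 : m - 1 + 1 = m := by omega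
    have e2 : m - 1 - e = m - (e + 1) := by omega
    rw [e1] at h3
    rw [h3, h2, e2]
    ring

end RR

variable {ι : Type*} [DecidableEq ι]

/-- **[CR-Q2-ABS]** the `q²`-shape of cusp regularity, hypothesis form. -/
theorem cuspReg_q2 (iI i0 : ι) {n : ℕ} (mid : Fin n → ι) (hmid : Function.Injective mid)
    (hI0 : iI ≠ i0) (hIm : ∀ ξ, mid ξ ≠ iI) (h0m : ∀ ξ, mid ξ ≠ i0)
    (L : ι → IntermediateField κ (LaurentSeries κ)) (e : ι → ℕ)
    (Lm : IntermediateField κ (LaurentSeries κ)) (em : ℕ)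
    (hLm : ∀ ξ, L (mid ξ) = Lm) (hem : ∀ ξ, e (mid ξ) = em)
    (L₀ : IntermediateField κ (LaurentSeries κ)) (ψ m₀ : ℕ)
    (hR : ∀ m, m₀ ≤ m → Module.Finite κ (WJ κ L₀ m) ∧
      finrank κ (WJ κ L₀ (m + 1)) = finrank κ (WJ κ L₀ m) + ψ)
    (Bb : ℕ → Submodule κ (ι → LaurentSeries κ)) (hBmono : Monotone Bb)
    (hincl : ∀ c, ∀ x ∈ Bb c, ∀ i, x i ∈ WJ κ (L i) (c * e i))
    (hfin : ∀ c, Module.Finite κ (Bb c)) (c₁ : ℕ)
    (hcount : ∀ c, c₁ ≤ c →
      finrank κ (Bb (c + 1)) ≤ finrank κ (Bb c) + (e iI + e i0 + n * em) * ψ)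
    (t : Fin n → κ) (ht : Function.Injective t) (u : LaurentSeries κ)
    (mI m0 mm : ℕ → ℕ) (ωI ω0 ωm : ℕ → LaurentSeries κ)
    (hm : ∀ c, c₁ ≤ c → m₀ + e iI ≤ mI c ∧ m₀ + e i0 ≤ m0 c ∧ m₀ + em ≤ mm c)
    (hfamI : ∀ c, c₁ ≤ c → ∀ a ∈ WJ κ L₀ (mI c), Pi.single iI (ωI c * a) ∈ Bb (c + 1))
    (hfam0 : ∀ c, c₁ ≤ c → ∀ a ∈ WJ κ L₀ (m0 c), Pi.single i0 (ω0 c * a) ∈ Bb (c + 1))
    (hfamm : ∀ c, c₁ ≤ c → ∀ i : Fin n, ∀ a ∈ WJ κ L₀ (mm c),
      (∑ ξ, Pi.single (mid ξ) (t ξ ^ (i : ℕ) • (ωm c * u ^ (i : ℕ) * a))) ∈ Bb (c + 1))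
    (hsatI : ∀ c, c₁ ≤ c → ∀ a ∈ WJ κ L₀ (mI c), ωI c * a ∈ WJ κ (L iI) (c * e iI) →
      a ∈ WJ κ L₀ (mI c - e iI))
    (hsat0 : ∀ c, c₁ ≤ c → ∀ a ∈ WJ κ L₀ (m0 c), ω0 c * a ∈ WJ κ (L i0) (c * e i0) →
      a ∈ WJ κ L₀ (m0 c - e i0))
    (hsatm : ∀ c, c₁ ≤ c → ∀ i : Fin n, ∀ a ∈ WJ κ L₀ (mm c),
      ωm c * u ^ (i : ℕ) * a ∈ WJ κ Lm (c * em) → a ∈ WJ κ L₀ (mm c - em)) :
    ∀ c c', c₁ ≤ c → c ≤ c' → ∀ x ∈ Bb c', (∀ i, x i ∈ WJ κ (L i) (c * e i)) → x ∈ Bb c := by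
  classical
  -- blocks: `none` = ∞, `some none` = 0, `some (some i)` = (mid, i)
  let S : Option (Option (Fin n)) → ℕ → Submodule κ (LaurentSeries κ) := fun b c =>
    match b with
    | none => WJ κ L₀ (mI c)
    | some none => WJ κ L₀ (m0 c)
    | some (some _) => WJ κ L₀ (mm c)
  let S' : Option (Option (Fin n)) → ℕ → Submodule κ (LaurentSeries κ) := fun b c =>
    match b with
    | none => WJ κ L₀ (mI c - e iI)
    | some none => WJ κ L₀ (m0 c - e i0)
    | some (some _) => WJ κ L₀ (mm c - em)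
  let φ : Option (Option (Fin n)) → ℕ → LaurentSeries κ →ₗ[κ] (ι → LaurentSeries κ) := fun b c =>
    match b with
    | none => (LinearMap.single κ (fun _ : ι => LaurentSeries κ) iI) ∘ₗ mulL (ωI c)
    | some none => (LinearMap.single κ (fun _ : ι => LaurentSeries κ) i0) ∘ₗ mulL (ω0 c)
    | some (some i) => ∑ ξ, (t ξ ^ (i : ℕ)) •
        ((LinearMap.single κ (fun _ : ι => LaurentSeries κ) (mid ξ)) ∘ₗ
          mulL (ωm c * u ^ (i : ℕ)))
  have hφm : ∀ (i : Fin n) (c : ℕ) (a : LaurentSeries κ), φ (some (some i)) c a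
      = ∑ ξ, Pi.single (mid ξ) (t ξ ^ (i : ℕ) • (ωm c * u ^ (i : ℕ) * a)) := by
    intro i c a
    simp only [φ, LinearMap.sum_apply, LinearMap.smul_apply, LinearMap.comp_apply, mulL_apply,
      LinearMap.single_apply]
    refine Finset.sum_congr rfl fun ξ _ => ?_
    rw [← Pi.single_smul]
  have hφI : ∀ (c : ℕ) (a : LaurentSeries κ), φ none c a = Pi.single iI (ωI c * a) := by
    intro c a
    simp [φ]
  have hφ0 : ∀ (c : ℕ) (a : LaurentSeries κ), φ (some none) c a = Pi.single i0 (ω0 c * a) := by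
    intro c a
    simp [φ]
  refine cuspReg_coord (fun i => LinearMap.proj i) L e Bb hBmono hincl hfin c₁
    (fun _ => (e iI + e i0 + n * em) * ψ) hcount S S' ?_ ?_ φ ?_ ?_ ?_
  · -- S' ≤ S
    intro b c
    match b with
    | none => exact WJCalc.WJ_mono (Nat.sub_le _ _)
    | some none => exact WJCalc.WJ_mono (Nat.sub_le _ _)
    | some (some _) => exact WJCalc.WJ_mono (Nat.sub_le _ _)
  · -- finiteness
    intro b c
    match b with
    | none => exact finite_WJ ψ m₀ hR _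
    | some none => exact finite_WJ ψ m₀ hR _
    | some (some _) => exact finite_WJ ψ m₀ hR _
  · -- the families lie in `B̄(c+1)`
    intro c hc b a ha
    match b with
    | none => rw [hφI]; exact hfamI c hc a ha
    | some none => rw [hφ0]; exact hfam0 c hc a ha
    | some (some i) => rw [hφm]; exact hfamm c hc i a ha
  · -- joint independence modulo `W c`
    intro c hc a ha hW
    -- the coordinates of the sum
    have hsum : ∀ j : ι, (∑ b, φ b c (a b)) j
        = (Pi.single iI (ωI c * a none) : ι → LaurentSeries κ) j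
          + ((Pi.single i0 (ω0 c * a (some none)) : ι → LaurentSeries κ) j
          + ∑ i : Fin n, ∑ ξ, (Pi.single (mid ξ)
              (t ξ ^ (i : ℕ) • (ωm c * u ^ (i : ℕ) * a (some (some i)))) :
                ι → LaurentSeries κ) j) := by
      intro j
      rw [Fintype.sum_option, Fintype.sum_option, hφI, hφ0]
      simp only [Pi.add_apply, Finset.sum_apply, hφm]
    have hcI : (∑ b, φ b c (a b)) iI = ωI c * a none := by
      rw [hsum]
      simp [hI0, fun ξ => (hIm ξ).symm]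
    have h0 : (∑ b, φ b c (a b)) i0 = ω0 c * a (some none) := by
      rw [hsum]
      simp [Ne.symm hI0, fun ξ => (h0m ξ).symm]
    have hmidc : ∀ ξ₀ : Fin n, (∑ b, φ b c (a b)) (mid ξ₀)
        = ∑ i : Fin n, t ξ₀ ^ (i : ℕ) • (ωm c * u ^ (i : ℕ) * a (some (some i))) := by
      intro ξ₀
      rw [hsum]
      have e1 : (Pi.single iI (ωI c * a none) : ι → LaurentSeries κ) (mid ξ₀) = 0 := by
        simp [hIm]
      have e2 : (Pi.single i0 (ω0 c * a (some none)) : ι → LaurentSeries κ) (mid ξ₀) = 0 := by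
        simp [h0m]
      rw [e1, e2, zero_add, zero_add]
      refine Finset.sum_congr rfl fun i _ => ?_
      rw [Finset.sum_eq_single ξ₀]
      · simp
      · intro ξ _ hξ
        have : mid ξ₀ ≠ mid ξ := fun h => hξ (hmid h).symm
        simp [this]
      · intro h
        exact absurd (Finset.mem_univ _) h
    -- the middle coefficients by Vandermonde
    have hvdm : ∀ i : Fin n, ωm c * u ^ (i : ℕ) * a (some (some i)) ∈ WJ κ Lm (c * em) := by
      refine coeff_mem_of_distinct (WJ κ Lm (c * em)) t ht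
        (fun i => ωm c * u ^ (i : ℕ) * a (some (some i))) ?_
      intro ξ₀
      have h1 := hW (mid ξ₀)
      rw [LinearMap.proj_apply, hmidc ξ₀, hLm ξ₀, hem ξ₀] at h1
      exact h1
    intro b
    match b with
    | none =>
      have h1 := hW iI
      rw [LinearMap.proj_apply, hcI] at h1
      exact hsatI c hc _ (ha none) h1
    | some none =>
      have h1 := hW i0
      rw [LinearMap.proj_apply, h0] at h1
      exact hsat0 c hc _ (ha (some none)) h1
    | some (some i) => exact hsatm c hc i _ (ha (some (some i))) (hvdm i)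
  · -- the count
    intro c hc
    obtain ⟨hm1, hm2, hm3⟩ := hm c hc
    have e1 := finrank_WJ_sub ψ m₀ hR (e iI) (mI c) hm1
    have e2 := finrank_WJ_sub ψ m₀ hR (e i0) (m0 c) hm2
    have e3 := finrank_WJ_sub ψ m₀ hR em (mm c) hm3
    simp only [Fintype.sum_option]
    show (e iI + e i0 + n * em) * ψ + (finrank κ (WJ κ L₀ (mI c - e iI))
        + (finrank κ (WJ κ L₀ (m0 c - e i0)) + ∑ _x : Fin n, finrank κ (WJ κ L₀ (mm c - em))))
      ≤ finrank κ (WJ κ L₀ (mI c))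
        + (finrank κ (WJ κ L₀ (m0 c)) + ∑ _x : Fin n, finrank κ (WJ κ L₀ (mm c)))
    rw [Finset.sum_const, Finset.sum_const, Finset.card_univ, Fintype.card_fin, smul_eq_mul,
      smul_eq_mul, e1, e2, e3]
    apply le_of_eq
    ring

end Fermat.Agent.S36.CuspRegQ2
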