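import Mathlib
import Fermat.Agent.S34.CuspRegWJ
import Fermat.Agent.S36.CuspRegQ2

/-!
# S36 (P8) — [CR-SAT]: saturation by multipliers of exact pole order, and the `q²`-shape of cusp
regularity with the saturation hypotheses discharged (helper51)

* `ExactPole ω D` : `j⁻ᴰ ω` has an inverse which is integral over `O_∞` (`ω` has pole order
  exactly `D` at every cusp).  Closed under products and powers; holds for `j^N` (`D = N`), for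
  `j - j^(r+1)` (`D = r + 1`), for P6's `omegaJ κ r n` (`D = n + r + 1`) and for powers of a unit
  at infinity `u` (`D = 0`; only `u⁻¹` integral over `O_∞` is used — for `u = θj̄ · j̄⁻¹` this is
  `S36/ThetaInf`).
* `mem_WJ_of_mul` : `a ∈ L'` integral over `κ[j]`, `ExactPole ω D`, `ω a ∈ WJ L (t + D)`
  ⟹ `a ∈ WJ L' t`.
* `cuspReg_q2_unit` : `CuspRegQ2.cuspReg_q2` with `hsat*` replaced by `ExactPole` data.
* `cuspReg_q2_of_injective` : the same on any `κ`-module `R` with an injective coordinate map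
  `P : R →ₗ[κ] (ι → κ((T)))`, the families given by existence (`∃ x ∈ B̄(c+1), P x = …`).
-/

set_option autoImplicit false
set_option linter.style.haveILetI false

noncomputable section

namespace Fermat.Agent.S36.CuspRegSat

open Module ModularCurve Fermat.Agent.S18.Plan Fermat.Agent.S18 Fermat.Agent.S34.CuspReg
  Fermat.Agent.S36.CuspRegQ2

variable {κ : Type} [Field κ]

/-- `ω` has exact pole order `D` at infinity: `j⁻ᴰ ω` has an inverse integral over `O_∞`. -/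
def ExactPole (ω : LaurentSeries κ) (D : ℕ) : Prop :=
  ∃ v : LaurentSeries κ, IsIntegral (OinfJ κ) v ∧ v * ((jqModC κ)⁻¹ ^ D * ω) = 1

theorem exactPole_one : ExactPole (1 : LaurentSeries κ) 0 :=
  ⟨1, isIntegral_one, by simp⟩

theorem exactPole_j_pow (N : ℕ) : ExactPole (jqModC κ ^ N) N :=
  ⟨1, isIntegral_one, by rw [one_mul, WJCalc.inv_j_pow_mul_j_pow]⟩

theorem ExactPole.mul {ω₁ ω₂ : LaurentSeries κ} {D₁ D₂ : ℕ} (h₁ : ExactPole ω₁ D₁)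
    (h₂ : ExactPole ω₂ D₂) : ExactPole (ω₁ * ω₂) (D₁ + D₂) := by
  obtain ⟨v₁, hv₁, e₁⟩ := h₁
  obtain ⟨v₂, hv₂, e₂⟩ := h₂
  refine ⟨v₁ * v₂, hv₁.mul hv₂, ?_⟩
  have e : v₁ * v₂ * ((jqModC κ)⁻¹ ^ (D₁ + D₂) * (ω₁ * ω₂))
      = (v₁ * ((jqModC κ)⁻¹ ^ D₁ * ω₁)) * (v₂ * ((jqModC κ)⁻¹ ^ D₂ * ω₂)) := by
    rw [pow_add]; ring
  rw [e, e₁, e₂, one_mul]

theorem ExactPole.pow {ω : LaurentSeries κ} {D : ℕ} (h : ExactPole ω D) (n : ℕ) :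
    ExactPole (ω ^ n) (n * D) := by
  induction n with
  | zero => simpa using exactPole_one (κ := κ)
  | succ n ih =>
    have h1 := ih.mul h
    have e : (n + 1) * D = n * D + D := by ring
    rw [pow_succ, e]
    exact h1

theorem ExactPole.congr {ω : LaurentSeries κ} {D D' : ℕ} (h : ExactPole ω D) (e : D = D') :
    ExactPole ω D' := e ▸ h

/-- P6's `omegaJ κ r n = (j - j^(r+1)) j^n` has exact pole order `n + r + 1` (`r ≥ 1`). -/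
theorem exactPole_omegaJ {r : ℕ} (hr : 0 < r) (n : ℕ) :
    ExactPole (omegaJ κ r n) (n + r + 1) := by
  obtain ⟨v, hv, hv1⟩ := exists_inv_mem_OinfJ (κ := κ) hr
  exact ⟨v, WJCalc.isIntegral_of_mem_OinfJ hv, by rw [inv_j_pow_mul_omegaJ, hv1]⟩

/-- `j - j^(r+1)` has exact pole order `r + 1` (`r ≥ 1`). -/
theorem exactPole_sub {r : ℕ} (hr : 0 < r) :
    ExactPole (jqModC κ - jqModC κ ^ (r + 1)) (r + 1) := by
  have h := exactPole_omegaJ (κ := κ) hr 0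
  have e : omegaJ κ r 0 = jqModC κ - jqModC κ ^ (r + 1) := by
    unfold omegaJ; rw [pow_zero, mul_one]
  rw [e] at h
  exact h.congr (by ring)

/-- Powers of a unit at infinity have exact pole order `0`. -/
theorem exactPole_unit_pow {u : LaurentSeries κ} (hu0 : u ≠ 0)
    (hu' : IsIntegral (OinfJ κ) u⁻¹) (i : ℕ) : ExactPole (u ^ i) 0 :=
  ⟨u⁻¹ ^ i, hu'.pow i, by rw [pow_zero, one_mul, ← mul_pow, inv_mul_cancel₀ hu0, one_pow]⟩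

/-- **Saturation**: `a ∈ L'` integral over `κ[j]`, `ω` of exact pole order `D`,
`ω a ∈ WJ L (t + D)` ⟹ `a ∈ WJ L' t`. -/
theorem mem_WJ_of_mul {L L' : IntermediateField κ (LaurentSeries κ)} {ω : LaurentSeries κ}
    {D : ℕ} (hω : ExactPole ω D) {t : ℕ} {a : LaurentSeries κ} (haL : a ∈ L')
    (haI : IsIntegral (polyJ κ) a) (h : ω * a ∈ WJ κ L (t + D)) : a ∈ WJ κ L' t := by
  obtain ⟨v, hv, hv1⟩ := hω
  refine ⟨haL, haI, ?_⟩
  have h3 := h.2.2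
  have e : (jqModC κ)⁻¹ ^ t * a = v * ((jqModC κ)⁻¹ ^ (t + D) * (ω * a)) := by
    have e1 : (jqModC κ)⁻¹ ^ (t + D) * (ω * a)
        = ((jqModC κ)⁻¹ ^ D * ω) * ((jqModC κ)⁻¹ ^ t * a) := by
      rw [pow_add]; ring
    rw [e1, ← mul_assoc, hv1, one_mul]
  rw [e]
  exact hv.mul h3

variable {ι : Type*} [DecidableEq ι]

/-- **[CR-Q2-ABS] with the saturations discharged**: the multipliers have exact pole orders
`DI c`, `D0 c`, `Dm c` with `m - e + D = c e`, and `u` is a unit at infinity. -/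
theorem cuspReg_q2_unit (iI i0 : ι) {n : ℕ} (mid : Fin n → ι) (hmid : Function.Injective mid)
    (hI0 : iI ≠ i0) (hIm : ∀ ξ, mid ξ ≠ iI) (h0m : ∀ ξ, mid ξ ≠ i0)
    (L : ι → IntermediateField κ (LaurentSeries κ)) (e : ι → ℕ)
    (Lm : IntermediateField κ (LaurentSeries κ)) (em : ℕ)
    (hLm : ∀ ξ, L (mid ξ) = Lm) (hem : ∀ ξ, e (mid ξ) = em)
    (L₀ : IntermediateField κ (LaurentSeries κ)) (ψ m₀ : ℕ)
    (hR : ∀ m, m₀ ≤ m → Module.Finite κ (WJ κ L₀ m) ∧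
      finrank κ (WJ κ L₀ (m + 1)) = finrank κ (WJ κ L₀ m) + ψ)
    (Bb : ℕ → Submodule κ (ι → LaurentSeries κ)) (hBmono : Monotone Bb)
    (hincl : ∀ c, ∀ x ∈ Bb c, ∀ i, x i ∈ WJ κ (L i) (c * e i))
    (hfin : ∀ c, Module.Finite κ (Bb c)) (c₁ : ℕ)
    (hcount : ∀ c, c₁ ≤ c →
      finrank κ (Bb (c + 1)) ≤ finrank κ (Bb c) + (e iI + e i0 + n * em) * ψ)
    (t : Fin n → κ) (ht : Function.Injective t) (u : LaurentSeries κ)
    (mI m0 mm : ℕ → ℕ) (ωI ω0 ωm : ℕ → LaurentSeries κ)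
    (hm : ∀ c, c₁ ≤ c → m₀ + e iI ≤ mI c ∧ m₀ + e i0 ≤ m0 c ∧ m₀ + em ≤ mm c)
    (hfamI : ∀ c, c₁ ≤ c → ∀ a ∈ WJ κ L₀ (mI c), Pi.single iI (ωI c * a) ∈ Bb (c + 1))
    (hfam0 : ∀ c, c₁ ≤ c → ∀ a ∈ WJ κ L₀ (m0 c), Pi.single i0 (ω0 c * a) ∈ Bb (c + 1))
    (hfamm : ∀ c, c₁ ≤ c → ∀ i : Fin n, ∀ a ∈ WJ κ L₀ (mm c),
      (∑ ξ, Pi.single (mid ξ) (t ξ ^ (i : ℕ) • (ωm c * u ^ (i : ℕ) * a))) ∈ Bb (c + 1))
    (DI D0 Dm : ℕ → ℕ)
    (hDI : ∀ c, c₁ ≤ c → mI c - e iI + DI c = c * e iI)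
    (hD0 : ∀ c, c₁ ≤ c → m0 c - e i0 + D0 c = c * e i0)
    (hDm : ∀ c, c₁ ≤ c → mm c - em + Dm c = c * em)
    (hωI : ∀ c, c₁ ≤ c → ExactPole (ωI c) (DI c))
    (hω0 : ∀ c, c₁ ≤ c → ExactPole (ω0 c) (D0 c))
    (hωm : ∀ c, c₁ ≤ c → ExactPole (ωm c) (Dm c))
    (hu0 : u ≠ 0) (hu' : IsIntegral (OinfJ κ) u⁻¹) :
    ∀ c c', c₁ ≤ c → c ≤ c' → ∀ x ∈ Bb c', (∀ i, x i ∈ WJ κ (L i) (c * e i)) → x ∈ Bb c := by
  refine cuspReg_q2 iI i0 mid hmid hI0 hIm h0m L e Lm em hLm hem L₀ ψ m₀ hR Bb hBmono hincl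
    hfin c₁ hcount t ht u mI m0 mm ωI ω0 ωm hm hfamI hfam0 hfamm ?_ ?_ ?_
  · intro c hc a ha h
    rw [← hDI c hc] at h
    exact mem_WJ_of_mul (hωI c hc) ha.1 ha.2.1 h
  · intro c hc a ha h
    rw [← hD0 c hc] at h
    exact mem_WJ_of_mul (hω0 c hc) ha.1 ha.2.1 h
  · intro c hc i a ha h
    rw [← hDm c hc] at h
    have hω : ExactPole (ωm c * u ^ (i : ℕ)) (Dm c) :=
      ((hωm c hc).mul (exactPole_unit_pow hu0 hu' i)).congr (add_zero _)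
    exact mem_WJ_of_mul hω ha.1 ha.2.1 h

/-- **[CR-Q2-ABS] on an arbitrary carrier** `R` with an injective coordinate map
`P : R →ₗ[κ] (ι → κ((T)))`; the three families are given by existence. -/
theorem cuspReg_q2_of_injective {R : Type*} [AddCommGroup R] [Module κ R]
    (P : R →ₗ[κ] (ι → LaurentSeries κ)) (hP : Function.Injective P)
    (iI i0 : ι) {n : ℕ} (mid : Fin n → ι) (hmid : Function.Injective mid)
    (hI0 : iI ≠ i0) (hIm : ∀ ξ, mid ξ ≠ iI) (h0m : ∀ ξ, mid ξ ≠ i0)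
    (L : ι → IntermediateField κ (LaurentSeries κ)) (e : ι → ℕ)
    (Lm : IntermediateField κ (LaurentSeries κ)) (em : ℕ)
    (hLm : ∀ ξ, L (mid ξ) = Lm) (hem : ∀ ξ, e (mid ξ) = em)
    (L₀ : IntermediateField κ (LaurentSeries κ)) (ψ m₀ : ℕ)
    (hR : ∀ m, m₀ ≤ m → Module.Finite κ (WJ κ L₀ m) ∧
      finrank κ (WJ κ L₀ (m + 1)) = finrank κ (WJ κ L₀ m) + ψ)
    (Bb : ℕ → Submodule κ R) (hBmono : Monotone Bb)
    (hincl : ∀ c, ∀ x ∈ Bb c, ∀ i, P x i ∈ WJ κ (L i) (c * e i))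
    (hfin : ∀ c, Module.Finite κ (Bb c)) (c₁ : ℕ)
    (hcount : ∀ c, c₁ ≤ c →
      finrank κ (Bb (c + 1)) ≤ finrank κ (Bb c) + (e iI + e i0 + n * em) * ψ)
    (t : Fin n → κ) (ht : Function.Injective t) (u : LaurentSeries κ)
    (mI m0 mm : ℕ → ℕ) (ωI ω0 ωm : ℕ → LaurentSeries κ)
    (hm : ∀ c, c₁ ≤ c → m₀ + e iI ≤ mI c ∧ m₀ + e i0 ≤ m0 c ∧ m₀ + em ≤ mm c)
    (hfamI : ∀ c, c₁ ≤ c → ∀ a ∈ WJ κ L₀ (mI c),
      ∃ x ∈ Bb (c + 1), P x = Pi.single iI (ωI c * a))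
    (hfam0 : ∀ c, c₁ ≤ c → ∀ a ∈ WJ κ L₀ (m0 c),
      ∃ x ∈ Bb (c + 1), P x = Pi.single i0 (ω0 c * a))
    (hfamm : ∀ c, c₁ ≤ c → ∀ i : Fin n, ∀ a ∈ WJ κ L₀ (mm c),
      ∃ x ∈ Bb (c + 1), P x = ∑ ξ, Pi.single (mid ξ) (t ξ ^ (i : ℕ) • (ωm c * u ^ (i : ℕ) * a)))
    (DI D0 Dm : ℕ → ℕ)
    (hDI : ∀ c, c₁ ≤ c → mI c - e iI + DI c = c * e iI)
    (hD0 : ∀ c, c₁ ≤ c → m0 c - e i0 + D0 c = c * e i0)
    (hDm : ∀ c, c₁ ≤ c → mm c - em + Dm c = c * em)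
    (hωI : ∀ c, c₁ ≤ c → ExactPole (ωI c) (DI c))
    (hω0 : ∀ c, c₁ ≤ c → ExactPole (ω0 c) (D0 c))
    (hωm : ∀ c, c₁ ≤ c → ExactPole (ωm c) (Dm c))
    (hu0 : u ≠ 0) (hu' : IsIntegral (OinfJ κ) u⁻¹) :
    ∀ c c', c₁ ≤ c → c ≤ c' → ∀ x ∈ Bb c', (∀ i, P x i ∈ WJ κ (L i) (c * e i)) → x ∈ Bb c := by
  have hrank : ∀ c, finrank κ ((Bb c).map P) = finrank κ (Bb c) := fun c =>
    (Submodule.equivMapOfInjective P hP (Bb c)).finrank_eq.symm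
  have key := cuspReg_q2_unit iI i0 mid hmid hI0 hIm h0m L e Lm em hLm hem L₀ ψ m₀ hR
    (fun c => (Bb c).map P) (fun c c' h => Submodule.map_mono (hBmono h))
    (by
      rintro c _ ⟨x, hx, rfl⟩ i
      exact hincl c x hx i)
    (fun c => haveI := hfin c; Module.Finite.map (Bb c) P) c₁
    (by
      intro c hc
      rw [hrank, hrank]
      exact hcount c hc)
    t ht u mI m0 mm ωI ω0 ωm hm
    (by
      intro c hc a ha
      obtain ⟨x, hx, hxP⟩ := hfamI c hc a ha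
      exact ⟨x, hx, hxP⟩)
    (by
      intro c hc a ha
      obtain ⟨x, hx, hxP⟩ := hfam0 c hc a ha
      exact ⟨x, hx, hxP⟩)
    (by
      intro c hc i a ha
      obtain ⟨x, hx, hxP⟩ := hfamm c hc i a ha
      exact ⟨x, hx, hxP⟩)
    DI D0 Dm hDI hD0 hDm hωI hω0 hωm hu0 hu'
  intro c c' hc hcc' x hx hW
  obtain ⟨x', hx', e'⟩ := key c c' hc hcc' (P x) ⟨x, hx, rfl⟩ hW
  rwa [hP e'] at hx'

end Fermat.Agent.S36.CuspRegSat
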