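import Mathlib
import Fermat.Agent.S36.CuspRegSat

/-!
# S36 (P8) — [CR-MID]: the `q²`-shape of cusp regularity with the middle coordinates indexed by an
arbitrary finite type, and two more `ExactPole` facts (helper51)

* `exactPole_pow_sub_pow` : `j^a - j^b` has exact pole order `b` (`a < b`);
  `exactPole_sub_pow_sub` : `j^b - j^a` likewise.
* `cuspReg_q2_fintype`    : `CuspRegSat.cuspReg_q2_of_injective` with the middle coordinates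
  `mid : μ → ι` and the nodes `t : μ → κ` indexed by any finite type `μ` of cardinality `n`
  (e.g. `μ = Plan.MidIdx q`, `n = q - 1`), the exponents `i` ranging over `i < n`.
-/

set_option autoImplicit false
set_option linter.style.haveILetI false

noncomputable section

namespace Fermat.Agent.S36.CuspRegMid

open Module ModularCurve Fermat.Agent.S18.Plan Fermat.Agent.S18 Fermat.Agent.S34.CuspReg
  Fermat.Agent.S36.CuspRegSat

variable {κ : Type} [Field κ]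

/-- `j^a - j^b` has exact pole order `b` (`a < b`). -/
theorem exactPole_pow_sub_pow {a b : ℕ} (h : a < b) :
    ExactPole (jqModC κ ^ a - jqModC κ ^ b) b := by
  obtain ⟨v, hv, hv1⟩ := exists_inv_mem_OinfJ (κ := κ) (r := b - a) (by omega)
  refine ⟨v, WJCalc.isIntegral_of_mem_OinfJ hv, ?_⟩
  have e : (jqModC κ)⁻¹ ^ b * (jqModC κ ^ a - jqModC κ ^ b) = (jqModC κ)⁻¹ ^ (b - a) - 1 := by
    have hb : b = (b - a) + a := by omega
    have h1 : (jqModC κ)⁻¹ ^ b * jqModC κ ^ b = 1 := WJCalc.inv_j_pow_mul_j_pow _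
    have h2 : (jqModC κ)⁻¹ ^ b * jqModC κ ^ a = (jqModC κ)⁻¹ ^ (b - a) := by
      conv_lhs => rw [hb, pow_add, mul_assoc, WJCalc.inv_j_pow_mul_j_pow, mul_one]
    rw [mul_sub, h1, h2]
  rw [e, hv1]

/-- `j^b - j^a` has exact pole order `b` (`a < b`). -/
theorem exactPole_sub_pow_sub {a b : ℕ} (h : a < b) :
    ExactPole (jqModC κ ^ b - jqModC κ ^ a) b := by
  obtain ⟨v, hv, hv1⟩ := exactPole_pow_sub_pow (κ := κ) h
  refine ⟨-v, hv.neg, ?_⟩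
  rw [← hv1]
  ring

variable {ι : Type*} [DecidableEq ι]

/-- **[CR-Q2-ABS], middle coordinates indexed by a finite type `μ` of cardinality `n`.** -/
theorem cuspReg_q2_fintype {R : Type*} [AddCommGroup R] [Module κ R]
    (P : R →ₗ[κ] (ι → LaurentSeries κ)) (hP : Function.Injective P)
    (iI i0 : ι) {μ : Type*} [Fintype μ] {n : ℕ} (hμ : Fintype.card μ = n)
    (mid : μ → ι) (hmid : Function.Injective mid)
    (hI0 : iI ≠ i0) (hIm : ∀ ξ, mid ξ ≠ iI) (h0m : ∀ ξ, mid ξ ≠ i0)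
    (L : ι → IntermediateField κ (LaurentSeries κ)) (e : ι → ℕ)
    (Lm : IntermediateField κ (LaurentSeries κ)) (em : ℕ)
    (hLm : ∀ ξ, L (mid ξ) = Lm) (hem : ∀ ξ, e (mid ξ) = em)
    (L₀ : IntermediateField κ (LaurentSeries κ)) (ψ m₀ : ℕ)
    (hR : ∀ m, m₀ ≤ m → Module.Finite κ (WJ κ L₀ m) ∧
      finrank κ (WJ κ L₀ (m + 1)) = finrank κ (WJ κ L₀ m) + ψ)
    (Bb : ℕ → Submodule κ R) (hBmono : Monotone Bb)
    (hincl : ∀ c, ∀ x ∈ Bb c, ∀ i, P x i ∈ WJ κ (L i) (c * e i))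
    (hfin : ∀ c, Module.Finite κ (Bb c)) (c₁ : ℕ)
    (hcount : ∀ c, c₁ ≤ c →
      finrank κ (Bb (c + 1)) ≤ finrank κ (Bb c) + (e iI + e i0 + n * em) * ψ)
    (t : μ → κ) (ht : Function.Injective t) (u : LaurentSeries κ)
    (mI m0 mm : ℕ → ℕ) (ωI ω0 ωm : ℕ → LaurentSeries κ)
    (hm : ∀ c, c₁ ≤ c → m₀ + e iI ≤ mI c ∧ m₀ + e i0 ≤ m0 c ∧ m₀ + em ≤ mm c)
    (hfamI : ∀ c, c₁ ≤ c → ∀ a ∈ WJ κ L₀ (mI c),
      ∃ x ∈ Bb (c + 1), P x = Pi.single iI (ωI c * a))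
    (hfam0 : ∀ c, c₁ ≤ c → ∀ a ∈ WJ κ L₀ (m0 c),
      ∃ x ∈ Bb (c + 1), P x = Pi.single i0 (ω0 c * a))
    (hfamm : ∀ c, c₁ ≤ c → ∀ i : ℕ, i < n → ∀ a ∈ WJ κ L₀ (mm c),
      ∃ x ∈ Bb (c + 1), P x = ∑ ξ, Pi.single (mid ξ) (t ξ ^ i • (ωm c * u ^ i * a)))
    (DI D0 Dm : ℕ → ℕ)
    (hDI : ∀ c, c₁ ≤ c → mI c - e iI + DI c = c * e iI)
    (hD0 : ∀ c, c₁ ≤ c → m0 c - e i0 + D0 c = c * e i0)
    (hDm : ∀ c, c₁ ≤ c → mm c - em + Dm c = c * em)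
    (hωI : ∀ c, c₁ ≤ c → ExactPole (ωI c) (DI c))
    (hω0 : ∀ c, c₁ ≤ c → ExactPole (ω0 c) (D0 c))
    (hωm : ∀ c, c₁ ≤ c → ExactPole (ωm c) (Dm c))
    (hu0 : u ≠ 0) (hu' : IsIntegral (OinfJ κ) u⁻¹) :
    ∀ c c', c₁ ≤ c → c ≤ c' → ∀ x ∈ Bb c', (∀ i, P x i ∈ WJ κ (L i) (c * e i)) → x ∈ Bb c := by
  classical
  let ε : Fin n ≃ μ := (Fintype.equivFinOfCardEq hμ).symm
  refine cuspReg_q2_of_injective P hP iI i0 (mid ∘ ε) (hmid.comp ε.injective) hI0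
    (fun ξ => hIm (ε ξ)) (fun ξ => h0m (ε ξ)) L e Lm em (fun ξ => hLm (ε ξ))
    (fun ξ => hem (ε ξ)) L₀ ψ m₀ hR Bb hBmono hincl hfin c₁ hcount (t ∘ ε)
    (ht.comp ε.injective) u mI m0 mm ωI ω0 ωm hm hfamI hfam0 ?_ DI D0 Dm hDI hD0 hDm hωI hω0
    hωm hu0 hu'
  intro c hc i a ha
  obtain ⟨x, hx, hxP⟩ := hfamm c hc (i : ℕ) i.2 a ha
  refine ⟨x, hx, ?_⟩
  rw [hxP]
  exact (Equiv.sum_comp ε
    (fun ξ => (Pi.single (mid ξ) (t ξ ^ (i : ℕ) • (ωm c * u ^ (i : ℕ) * a)) :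
      ι → LaurentSeries κ))).symm

end Fermat.Agent.S36.CuspRegMid
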