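import Mathlib

/-!
# S36 (P8) — [CR-NODE]: the node function of the middle cusps (helper51)

`K` a field, `A` a valuation subring of `K` with residue field `κ` of characteristic `q` (prime),
`ξ₀ ∈ K` a primitive `q`-th root of unity.  For every primitive `q`-th root of unity `ξ` of `K`
there is `a_ξ ∈ A` with `ξ - 1 = a_ξ (ξ₀ - 1)`, and the residues `t ξ = ā_ξ ∈ κ` are nonzero and
pairwise distinct (`ξ = ξ₀^i`, `a_ξ = 1 + ξ₀ + … + ξ₀^(i-1)`, `t ξ = i`).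

`exists_node` is stated for the index type `{ξ : Kˣ // IsPrimitiveRoot ξ q}`
(`= Plan.MidIdx q` for `K = Q̄`).
-/

set_option autoImplicit false

namespace Fermat.Agent.S36.CycloNode

variable {K : Type*} [Field K] (A : ValuationSubring K)

/-- A root of unity of `K` lies in `A`. -/
theorem root_mem {ξ : K} {n : ℕ} (hn : n ≠ 0) (h : ξ ^ n = 1) : ξ ∈ A := by
  have h2 : A.valuation ξ ^ n = 1 := by rw [← map_pow, h, map_one]
  have h1 : A.valuation ξ = 1 := (pow_eq_one_iff_of_nonneg zero_le hn).mp h2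
  exact (A.valuation_le_one_iff _).mp h1.le

/-- A `q`-th root of unity of `A` reduces to `1` in residue characteristic `q`. -/
theorem residue_root_eq_one (q : ℕ) (hq : q.Prime) [CharP (IsLocalRing.ResidueField A) q]
    (ζ : A) (h : ζ ^ q = 1) : IsLocalRing.residue A ζ = 1 := by
  have : Fact q.Prime := ⟨hq⟩
  have h2 : IsLocalRing.residue A ζ ^ q = 1 := by rw [← map_pow, h, map_one]
  have h3 : (IsLocalRing.residue A ζ - 1) ^ q = 0 := by
    rw [sub_pow_char, h2, one_pow, sub_self]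
  exact sub_eq_zero.mp ((pow_eq_zero_iff hq.ne_zero).mp h3)

/-- `ξ₀^i - 1 = (1 + ξ₀ + … + ξ₀^(i-1)) (ξ₀ - 1)` with the first factor in `A`, of residue `i`. -/
theorem exists_quot (q : ℕ) (hq : q.Prime) [CharP (IsLocalRing.ResidueField A) q]
    (ξ₀ : K) (hξ₀ : ξ₀ ^ q = 1) (i : ℕ) :
    ∃ a : A, ξ₀ ^ i - 1 = (a : K) * (ξ₀ - 1) ∧
      IsLocalRing.residue A a = (i : IsLocalRing.ResidueField A) := by
  have hmem : ξ₀ ∈ A := root_mem A hq.ne_zero hξ₀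
  set ζ : A := ⟨ξ₀, hmem⟩ with hζ
  have hζq : ζ ^ q = 1 := Subtype.ext (by simpa using hξ₀)
  have hres : IsLocalRing.residue A ζ = 1 := residue_root_eq_one A q hq ζ hζq
  refine ⟨∑ j ∈ Finset.range i, ζ ^ j, ?_, ?_⟩
  · have h := geom_sum_mul ξ₀ i
    rw [← h]
    congr 1
    simp [hζ]
  · rw [map_sum]
    simp [map_pow, hres]

/-- **The node function.** -/
theorem exists_node (q : ℕ) (hq : q.Prime) [CharP (IsLocalRing.ResidueField A) q]
    (ξ₀ : Kˣ) (hξ₀ : IsPrimitiveRoot ξ₀ q) :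
    ∃ t : {ξ : Kˣ // IsPrimitiveRoot ξ q} → IsLocalRing.ResidueField A,
      Function.Injective t ∧ (∀ ξ, t ξ ≠ 0) ∧
      ∀ ξ : {ξ : Kˣ // IsPrimitiveRoot ξ q}, ∃ a : A,
        ((ξ.1 : Kˣ) : K) - 1 = (a : K) * ((ξ₀ : K) - 1) ∧ IsLocalRing.residue A a = t ξ := by
  have : NeZero q := ⟨hq.ne_zero⟩
  have hξ₀K : IsPrimitiveRoot ((ξ₀ : Kˣ) : K) q := IsPrimitiveRoot.coe_units_iff.mpr hξ₀
  have hξ₀q : ((ξ₀ : Kˣ) : K) ^ q = 1 := hξ₀K.pow_eq_one
  have hex : ∀ ξ : {ξ : Kˣ // IsPrimitiveRoot ξ q},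
      ∃ i, i < q ∧ ((ξ₀ : Kˣ) : K) ^ i = ((ξ.1 : Kˣ) : K) := fun ξ =>
    hξ₀K.eq_pow_of_pow_eq_one (IsPrimitiveRoot.coe_units_iff.mpr ξ.2).pow_eq_one
  choose ind hlt hpow using hex
  refine ⟨fun ξ => (ind ξ : IsLocalRing.ResidueField A), ?_, ?_, ?_⟩
  · intro ξ ξ' h
    have h1 : ind ξ = ind ξ' :=
      CharP.natCast_injOn_Iio (IsLocalRing.ResidueField A) q (hlt ξ) (hlt ξ') h
    apply Subtype.ext
    apply Units.ext
    rw [← hpow ξ, ← hpow ξ', h1]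
  · intro ξ h
    have h1 : q ∣ ind ξ := (CharP.cast_eq_zero_iff (IsLocalRing.ResidueField A) q (ind ξ)).mp h
    have h2 : ind ξ = 0 := Nat.eq_zero_of_dvd_of_lt h1 (hlt ξ)
    have h3 : ((ξ.1 : Kˣ) : K) = 1 := by rw [← hpow ξ, h2, pow_zero]
    have h4 : IsPrimitiveRoot ((ξ.1 : Kˣ) : K) q := IsPrimitiveRoot.coe_units_iff.mpr ξ.2
    rw [h3] at h4
    exact hq.one_lt.ne' (IsPrimitiveRoot.one_left_iff.mp h4)
  · intro ξ
    obtain ⟨a, ha, hres⟩ := exists_quot A q hq ((ξ₀ : Kˣ) : K) hξ₀q (ind ξ)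
    exact ⟨a, by rw [← ha, hpow ξ], hres⟩

end Fermat.Agent.S36.CycloNode
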