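import Mathlib
import Fermat.Agent.S24.PlaceGalois
import Fermat.Agent.S24.Assembly
import Fermat.Agent.S24.PlaceDiff
import Fermat.Agent.S24.RiemannHurwitz
import Fermat.Agent.S18.FibreCount

/-!
# P8 / S36 — block [RAM] (helper81): exact ramification of `j` at a torsion-free level

For `4 ∣ N` or `9 ∣ N` (the torsion-free levels of P6): every place of `F_N` over `j = 0` has
`ord j = 3`, every place over `j = 1728` has `ord (j - 1728) = 2`, and therefore, at every
finite place, `6 · (e - 1) = ord (j^4 (j - 1728)^3)` (`e` the ramification index of `j`).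

Also the small differential toolbox used by Lemma R: `ord_w(g) = ord_w(dy) - ord_w(dx)` when
`dy = g dx`, `ord_w(df) = ord_w(f - a) - 1`, and "derivations see `dy = g dx`".
-/

set_option autoImplicit false
set_option linter.style.haveILetI false

namespace Fermat.Agent.S36.Ram

open AlgebraicCurve IntermediateField KaehlerDifferential ModularCurve CongruenceSubgroup
open MatrixGroups ModularGroup
open Fermat.Agent.S24 Fermat.Agent

section tower

variable {K F M : Type*} [Field K] [IsAlgClosed K] [CharZero K] [Field F] [Field M]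
  [Algebra K F] [Algebra K M] [Algebra F M] [IsScalarTower K F M]
  (G : Subgroup (M ≃ₐ[K] M)) [Finite G] (y : F) (hy : Transcendental K y)
  (hG : ∀ m : M, (∀ σ ∈ G, σ m = m) ↔ m ∈ K⟮algebraMap F M y⟯)

include hy hG

/-- A bound for the order of `y` at ONE place of the Galois closure over `y = 0` bounds the
order of `y` at every zero of `y` on `F`. -/
theorem ord_le_of_exists (W : Place K M) (n : ℤ) (hW0 : 0 < W.ord (algebraMap F M y))
    (hW : W.ord (algebraMap F M y) ≤ n) (w : Place K F) (hw : 0 < w.ord y) : w.ord y ≤ n := by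
  obtain ⟨hFF, -, hfinFM⟩ := isFF1_of_fixed G y hy hG
  haveI := hFF
  haveI := hfinFM
  obtain ⟨W', hW'⟩ := exists_place_liesOver (M := M) w
  obtain ⟨e, he, hord⟩ := exists_ramificationIdx hW'
  have h1 : W'.ord (algebraMap F M y) = e * w.ord y := hord y
  have he' : (1 : ℤ) ≤ e := by exact_mod_cast he
  have hpos : 0 < W'.ord (algebraMap F M y) := by
    rw [h1]; positivity
  obtain ⟨σ, hσ⟩ := exists_smul_eq G y hy hG W W' hW0 hpos
  have h2 : W'.ord (algebraMap F M y) ≤ n := by
    rw [← hσ, PlaceGalois.ord_smul_gen G y hG σ W]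
    exact hW
  rw [h1] at h2
  nlinarith

end tower

section count

variable {K F : Type*} [Field K] [Field F] [Algebra K F]

/-- If the orders at the zeros of `f` are all `≤ n` and sum to `n * #zeros`, they are all
`= n`. -/
theorem ord_eq_of_sum (f : F) (n : ℤ) (hfin : (zerosOf K f).Finite)
    (hle : ∀ w ∈ zerosOf K f, w.ord f ≤ n)
    (hsum : ∑ᶠ w ∈ zerosOf K f, w.ord f = n * Nat.card (zerosOf K f))
    (w : Place K F) (hw : w ∈ zerosOf K f) : w.ord f = n := by
  classical
  by_contra hne
  have hlt : w.ord f < n := lt_of_le_of_ne (hle w hw) hne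
  rw [finsum_mem_eq_finite_toFinset_sum _ hfin] at hsum
  have hcard : Nat.card (zerosOf K f) = hfin.toFinset.card := by
    rw [Nat.card_eq_card_finite_toFinset hfin]
  rw [hcard] at hsum
  have hw' : w ∈ hfin.toFinset := hfin.mem_toFinset.mpr hw
  have h1 : ∑ v ∈ hfin.toFinset, v.ord f < ∑ _v ∈ hfin.toFinset, n := by
    apply Finset.sum_lt_sum
    · intro v hv
      exact hle v (hfin.mem_toFinset.mp hv)
    · exact ⟨w, hw', hlt⟩
  rw [Finset.sum_const, nsmul_eq_mul] at h1
  rw [hsum] at h1
  linarith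

end count

section general

variable {K F : Type*} [Field K] [IsAlgClosed K] [CharZero K] [Field F] [Algebra K F]
  [IsFF1 K F]

/-- `ord_w(g) = ord_w(dy) - ord_w(dx)` when `dy = g dx`. -/
theorem ord_of_D_eq_smul (w : Place K F) {x y g : F} (hx : Transcendental K x)
    (hy : Transcendental K y) (hg : D K F y = g • D K F x) :
    w.ord g = w.ordDifferential (D K F y) - w.ordDifferential (D K F x) := by
  haveI := dCoord_generates w
  haveI : Nontrivial Ω[F⁄K] := kaehler_nontrivial
  have hcx := differentialCoeff_D_ne_zero w hx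
  have hcy := differentialCoeff_D_ne_zero w hy
  have hg0 : g ≠ 0 := by
    rintro rfl
    rw [zero_smul] at hg
    rw [hg, Place.differentialCoeff_zero] at hcy
    exact hcy rfl
  rw [hg, Place.ordDifferential_smul w hg0 hcx]
  ring

/-- `ord_w(df) = ord_w(f - a) - 1` at a zero of `f - a`. -/
theorem ordDifferential_D_sub (w : Place K F) (f : F) (a : K)
    (h : 0 < w.ord (f - algebraMap K F a)) :
    w.ordDifferential (D K F f) = w.ord (f - algebraMap K F a) - 1 := by
  have h1 := ordDifferential_D w (f := f - algebraMap K F a) h.ne'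
  rwa [map_sub, Derivation.map_algebraMap, sub_zero] at h1

omit [IsAlgClosed K] [CharZero K] [IsFF1 K F] in
/-- Derivations see `dy = g dx`. -/
theorem derivation_eq_smul {Mod : Type*} [AddCommGroup Mod] [Module F Mod] [Module K Mod]
    [IsScalarTower K F Mod] (δ : Derivation K F Mod) {x y g : F}
    (hg : D K F y = g • D K F x) : δ y = g • δ x := by
  have h := congrArg δ.liftKaehlerDifferential hg
  rwa [map_smul, Derivation.liftKaehlerDifferential_comp_D,
    Derivation.liftKaehlerDifferential_comp_D] at h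

omit [IsAlgClosed K] [CharZero K] [IsFF1 K F] in
/-- If `f - a` vanishes at `w` and `b ≠ a`, then `f - b` is a unit at `w`. -/
theorem ord_sub_const_eq_zero (w : Place K F) (f : F) {a b : K} (hab : a ≠ b)
    (h : 0 < w.ord (f - algebraMap K F a)) : w.ord (f - algebraMap K F b) = 0 := by
  have hne : f - algebraMap K F a ≠ 0 := by
    intro h0
    rw [h0, Place.ord_zero] at h
    exact lt_irrefl _ h
  have hc : algebraMap K F (a - b) ≠ 0 := by
    rw [Ne, map_eq_zero]
    exact sub_ne_zero.mpr hab
  have hc0 : w.ord (algebraMap K F (a - b)) = 0 := ord_algebraMap w _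
  have e : f - algebraMap K F b = algebraMap K F (a - b) + (f - algebraMap K F a) := by
    rw [map_sub]; ring
  rw [e, ord_add_eq_of_lt w hc hne (by rw [hc0]; exact h), hc0]

end general

section datum

variable (N : ℕ) [NeZero N] {M : Type} [Field M] [Algebra Kbar M] [Algebra (FN N) M]
  [IsScalarTower Kbar (FN N) M] (ρ : SL(2, ℤ) →* (M ≃ₐ[Kbar] M)) (h : IsModularDatum N M ρ)

include h

theorem ord_le_three_of_datum (w : Place Kbar (FN N)) (hw : 0 < w.ord (jBar N)) :
    w.ord (jBar N) ≤ 3 := by
  have : Finite ρ.range := h.finite_range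
  obtain ⟨W₃, h3pos, h3le, -⟩ := h.exists_three
  exact ord_le_of_exists ρ.range (jBar N) (S18.FibreCount.transcendental_jBar_of_datum N ρ h)
    (Assembly.fixed_iff N ρ h (jBar N) rfl) W₃ 3 h3pos h3le w hw

theorem ord_le_two_of_datum (w : Place Kbar (FN N))
    (hw : 0 < w.ord (jBar N - algebraMap Kbar (FN N) 1728)) :
    w.ord (jBar N - algebraMap Kbar (FN N) 1728) ≤ 2 := by
  have : Finite ρ.range := h.finite_range
  obtain ⟨W₂, h2pos, h2le, -⟩ := h.exists_two
  have hW0 : 0 < W₂.ord (algebraMap (FN N) M (jBar N - algebraMap Kbar (FN N) 1728)) := by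
    rw [S18.FibreCount.map_sub_of_datum N]; exact h2pos
  have hyt : Transcendental Kbar (jBar N - algebraMap Kbar (FN N) 1728) :=
    Assembly.transcendental_of_ord_ne_zero W₂ _ hW0.ne'
  exact ord_le_of_exists ρ.range _ hyt
    (Assembly.fixed_iff N ρ h _ (S18.FibreCount.adjoin_sub_of_datum N 1728)) W₂ 2 hW0
    (by rw [S18.FibreCount.map_sub_of_datum N]; exact h2le) w hw

end datum

section main

variable (N : ℕ) [NeZero N]

/-- `F_N / Q̄` is a function field in one variable. -/
theorem isFF1 : IsFF1 Kbar (FN N) := by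
  obtain ⟨M, _, _, _, _, ρ, h⟩ := exists_modular_datum N
  exact S18.FibreCount.isFF1_of_datum N ρ h

/-- At every level, `e ≤ 3` over `j = 0`. -/
theorem ord_jBar_le_three (w : Place Kbar (FN N)) (hw : 0 < w.ord (jBar N)) :
    w.ord (jBar N) ≤ 3 := by
  obtain ⟨M, _, _, _, _, ρ, h⟩ := exists_modular_datum N
  exact ord_le_three_of_datum N ρ h w hw

/-- At every level, `e ≤ 2` over `j = 1728`. -/
theorem ord_jBar_sub_le_two (w : Place Kbar (FN N))
    (hw : 0 < w.ord (jBar N - algebraMap Kbar (FN N) 1728)) :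
    w.ord (jBar N - algebraMap Kbar (FN N) 1728) ≤ 2 := by
  obtain ⟨M, _, _, _, _, ρ, h⟩ := exists_modular_datum N
  exact ord_le_two_of_datum N ρ h w hw

/-- **[RAM] over `0`**: at a torsion-free level every place over `j = 0` has `ord j = 3`. -/
theorem ord_jBar_eq_three (hN : 4 ∣ N ∨ 9 ∣ N) (w : Place Kbar (FN N))
    (hw : 0 < w.ord (jBar N)) : w.ord (jBar N) = 3 := by
  haveI : IsFF1 Kbar (FN N) := isFF1 N
  have hjt := S18.FibreCount.transcendental_jBar N
  have hfin : (zerosOf Kbar (jBar N)).Finite := RiemannHurwitz.rhZerosOf_finite hjt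
  have hsum := RiemannHurwitz.rhSum_ord_zerosOf (K := Kbar) hjt
  rw [S18.FibreCount.finrank_eq N] at hsum
  have h3 := S18.FibreCount.three_mul_card_zeros_zero_of_torsionFree N hN
  refine ord_eq_of_sum (jBar N) 3 hfin (fun v hv => ord_jBar_le_three N v hv) ?_ w hw
  rw [hsum]
  exact_mod_cast h3.symm

/-- **[RAM] over `1728`**: at a torsion-free level every place over `j = 1728` has
`ord (j - 1728) = 2`. -/
theorem ord_jBar_sub_eq_two (hN : 4 ∣ N ∨ 9 ∣ N) (w : Place Kbar (FN N))
    (hw : 0 < w.ord (jBar N - algebraMap Kbar (FN N) 1728)) :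
    w.ord (jBar N - algebraMap Kbar (FN N) 1728) = 2 := by
  haveI : IsFF1 Kbar (FN N) := isFF1 N
  have hjt := S18.FibreCount.transcendental_jBar N
  have hyt : Transcendental Kbar (jBar N - algebraMap Kbar (FN N) 1728) :=
    RiemannHurwitz.transcendental_sub_algebraMap hjt 1728
  have hfin : (zerosOf Kbar (jBar N - algebraMap Kbar (FN N) 1728)).Finite :=
    RiemannHurwitz.rhZerosOf_finite hyt
  have hsum := RiemannHurwitz.rhSum_ord_zerosOf (K := Kbar) hyt
  rw [RiemannHurwitz.finrank_adjoin_sub_algebraMap, S18.FibreCount.finrank_eq N] at hsum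
  have h2 := S18.FibreCount.two_mul_card_zeros_1728_of_torsionFree N hN
  refine ord_eq_of_sum _ 2 hfin (fun v hv => ord_jBar_sub_le_two N v hv) ?_ w hw
  rw [hsum]
  exact_mod_cast h2.symm

theorem jBar_sub_ne_zero (a : Kbar) : jBar N - algebraMap Kbar (FN N) a ≠ 0 := by
  intro h
  have hjt := S18.FibreCount.transcendental_jBar N
  exact hjt (by rw [sub_eq_zero.mp h]; exact isAlgebraic_algebraMap a)

theorem jBar_ne_zero : jBar N ≠ 0 := by
  have h0 := jBar_sub_ne_zero N 0
  rwa [map_zero, sub_zero] at h0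

/-- **[RAM]** in one formula: `6 (e - 1) = ord (j^4 (j - 1728)^3)` at every finite place of a
torsion-free level (`e = ord (j - a)`, `a` the value of `j` at the place). -/
theorem six_mul_ord_sub_one (hN : 4 ∣ N ∨ 9 ∣ N) (w : Place Kbar (FN N)) (a : Kbar)
    (ha : 0 < w.ord (jBar N - algebraMap Kbar (FN N) a)) :
    6 * (w.ord (jBar N - algebraMap Kbar (FN N) a) - 1)
      = w.ord (jBar N ^ 4 * (jBar N - algebraMap Kbar (FN N) 1728) ^ 3) := by
  have h0 := jBar_ne_zero N
  have h1728 := jBar_sub_ne_zero N 1728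
  have hP : w.ord (jBar N ^ 4 * (jBar N - algebraMap Kbar (FN N) 1728) ^ 3) =
      4 * w.ord (jBar N) + 3 * w.ord (jBar N - algebraMap Kbar (FN N) 1728) := by
    rw [Place.ord_mul w (pow_ne_zero _ h0) (pow_ne_zero _ h1728), ord_pow, ord_pow]
    push_cast
    ring
  rw [hP]
  by_cases ha0 : a = 0
  · subst ha0
    have hw' : 0 < w.ord (jBar N) := by rwa [map_zero, sub_zero] at ha
    have e3 := ord_jBar_eq_three N hN w hw'
    have e0 : w.ord (jBar N - algebraMap Kbar (FN N) 1728) = 0 :=
      ord_sub_const_eq_zero w (jBar N) (a := 0) (b := 1728) (by norm_num) ha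
    rw [map_zero, sub_zero, e3, e0]
    norm_num
  by_cases ha1 : a = 1728
  · subst ha1
    have e2 := ord_jBar_sub_eq_two N hN w ha
    have e0 : w.ord (jBar N - algebraMap Kbar (FN N) 0) = 0 :=
      ord_sub_const_eq_zero w (jBar N) (a := 1728) (b := 0) (by norm_num) ha
    rw [map_zero, sub_zero] at e0
    rw [e2, e0]
    norm_num
  · have e1 := S18.FibreCount.ord_eq_one N a ha0 ha1 w ha
    have e0 : w.ord (jBar N - algebraMap Kbar (FN N) 0) = 0 :=
      ord_sub_const_eq_zero w (jBar N) (a := a) (b := 0) ha0 ha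
    rw [map_zero, sub_zero] at e0
    have e0' : w.ord (jBar N - algebraMap Kbar (FN N) 1728) = 0 :=
      ord_sub_const_eq_zero w (jBar N) (a := a) (b := 1728) ha1 ha
    rw [e1, e0, e0']
    norm_num

end main

end Fermat.Agent.S36.Ram
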