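import Mathlib
import Fermat.Agent.S36.Ram
import Fermat.Agent.S34.Sigma

/-!
# S36 (P8) — block [RAM], σ-forms: the sixfold differential `(dx)⁶ / P(x)` (helper20)

On top of helper81's `S36/Ram.lean` (`e = 3` over `j = 0`, `e = 2` over `j = 1728` at a
torsion-free level).  `P = X⁴ (X - 1728)³`.

* `IsJProfile x`: `x` is transcendental, every zero of `x` has order `3`, every zero of
  `x - 1728` has order `2`, every zero of `x - a` (`a ≠ 0, 1728`) has order `1`;
* `IsJProfile.six_mul_ordDifferential_D`: `6 · ord_w(dx) = ord_w(P(x))` at every place `w`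
  where `x` is finite;
* `six_mul_ordDifferential_D_of_pole'`: at a pole, `6 · ord_w(dx) = ord_w(P(x)) - ord_w(x) - 6`;
* `IsJProfile.ord_omega_eq_zero`: if `x`, `x'` both have the profile and `dx' = g · dx`, then
  `ω = g⁶ · P(x) / P(x')` has order `0` at every place finite for `x` and `x'`;
* `isJProfile_jBar`, `IsJProfile.map`, `isJProfile_conj`: `j` has the profile at a torsion-free
  level, and so has `σ j` for every `Q̄`-automorphism `σ` of `F_N`;
* `isJProfile_jQ`, `ord_omega_jQ_eq_zero`: the instance `σ = ` the Atkin–Lehner involution of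
  `S34/Sigma`, `σ j = j_q`: helper81's `ω_{j_q} = (dj_q/dj)⁶ · P(j) / P(j_q)` is a unit at every
  place of `F_{Mq}` which is finite for `j` and `j_q`.
-/

set_option autoImplicit false
set_option linter.style.haveILetI false
set_option linter.unusedSectionVars false

namespace Fermat.Agent.S36.RamOmega

open AlgebraicCurve IntermediateField ModularCurve CongruenceSubgroup MatrixGroups ModularGroup
open KaehlerDifferential
open Fermat.Agent.S24 Fermat.Agent

/-! ### The sixfold differential `(dx)⁶ / P(x)` for a function with the ramification profile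
of `j` -/

section profile

variable {K F : Type*} [Field K] [IsAlgClosed K] [CharZero K] [Field F] [Algebra K F]

/-- if `x - a` vanishes at `w` and `b ≠ a`, then `x - b` is a unit at `w`. -/
theorem ord_sub_eq_zero_of_ne (w : Place K F) (x : F) {a b : K} (hab : a ≠ b)
    (ha : 0 < w.ord (x - algebraMap K F a)) : w.ord (x - algebraMap K F b) = 0 := by
  have h0 : x - algebraMap K F a ≠ 0 := by
    intro h
    rw [h, Place.ord_zero] at ha
    exact lt_irrefl _ ha
  have hc : algebraMap K F (a - b) ≠ 0 := by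
    rw [Ne, map_eq_zero]
    exact sub_ne_zero.mpr hab
  have hcord : w.ord (algebraMap K F (a - b)) = 0 := ord_algebraMap w (a - b)
  have hsum : x - algebraMap K F b = algebraMap K F (a - b) + (x - algebraMap K F a) := by
    rw [map_sub]; ring
  rw [hsum, ord_add_eq_of_lt w hc h0 (by rw [hcord]; exact ha), hcord]

/-- the ramification profile of `j` at a torsion-free level. -/
structure IsJProfile (x : F) : Prop where
  transcendental : Transcendental K x
  zero : ∀ w : Place K F, 0 < w.ord x → w.ord x = 3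
  one : ∀ w : Place K F, 0 < w.ord (x - algebraMap K F 1728) →
    w.ord (x - algebraMap K F 1728) = 2
  generic : ∀ a : K, a ≠ 0 → a ≠ 1728 → ∀ w : Place K F, 0 < w.ord (x - algebraMap K F a) →
    w.ord (x - algebraMap K F a) = 1

theorem IsJProfile.ne_zero {x : F} (hx : IsJProfile (K := K) x) : x ≠ 0 := by
  rintro rfl
  exact hx.transcendental (isAlgebraic_zero)

theorem IsJProfile.sub_ne_zero {x : F} (hx : IsJProfile (K := K) x) (a : K) :
    x - algebraMap K F a ≠ 0 := by
  intro h
  apply hx.transcendental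
  rw [sub_eq_zero.mp h]
  exact isAlgebraic_algebraMap a

theorem IsJProfile.poly_ne_zero {x : F} (hx : IsJProfile (K := K) x) :
    x ^ 4 * (x - algebraMap K F 1728) ^ 3 ≠ 0 :=
  mul_ne_zero (pow_ne_zero _ hx.ne_zero) (pow_ne_zero _ (hx.sub_ne_zero 1728))

theorem IsJProfile.ord_poly {x : F} (hx : IsJProfile (K := K) x) (w : Place K F) :
    w.ord (x ^ 4 * (x - algebraMap K F 1728) ^ 3)
      = 4 * w.ord x + 3 * w.ord (x - algebraMap K F 1728) := by
  rw [w.ord_mul (pow_ne_zero _ hx.ne_zero) (pow_ne_zero _ (hx.sub_ne_zero 1728)),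
    ord_pow, ord_pow]
  push_cast
  ring

theorem D_sub_algebraMap (x : F) (a : K) : D K F (x - algebraMap K F a) = D K F x := by
  rw [map_sub, Derivation.map_algebraMap, sub_zero]

/-- **[RAM]**: `6 · ord_w(dx) = ord_w(x⁴ (x - 1728)³)` at every place where `x` is finite. -/
theorem IsJProfile.six_mul_ordDifferential_D [IsFF1 K F] {x : F} (hx : IsJProfile (K := K) x)
    (w : Place K F) (hw : 0 ≤ w.ord x) :
    6 * w.ordDifferential (D K F x) = w.ord (x ^ 4 * (x - algebraMap K F 1728) ^ 3) := by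
  obtain ⟨a, ha⟩ := Assembly.exists_residue' w x ((mem_iff_ord_nonneg w hx.ne_zero).mpr hw)
  rcases ha with ha | ha
  · exact absurd ha (fun h => hx.sub_ne_zero a (sub_eq_zero.mpr h))
  have hD : w.ordDifferential (D K F x) = w.ord (x - algebraMap K F a) - 1 := by
    rw [← D_sub_algebraMap x a]
    exact ordDifferential_D w ha.ne'
  rw [hx.ord_poly w, hD]
  by_cases h0 : a = 0
  · subst h0
    rw [map_zero, sub_zero] at ha ⊢
    have h1 := ord_sub_eq_zero_of_ne w x (a := 0) (b := 1728) (by norm_num)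
      (by rw [map_zero, sub_zero]; exact ha)
    rw [hx.zero w ha, h1]
    norm_num
  by_cases h1 : a = 1728
  · subst h1
    have h2 := ord_sub_eq_zero_of_ne w x (a := 1728) (b := 0) (by norm_num) ha
    rw [map_zero, sub_zero] at h2
    rw [hx.one w ha, h2]
    norm_num
  · have h2 := ord_sub_eq_zero_of_ne w x (a := a) (b := 0) h0 ha
    rw [map_zero, sub_zero] at h2
    have h3 := ord_sub_eq_zero_of_ne w x (a := a) (b := 1728) h1 ha
    rw [hx.generic a h0 h1 w ha, h2, h3]
    norm_num

/-- at a pole of `x` (ramification index `e = -ord_w x`): `6 · ord_w(dx) - ord_w(P(x)) = e - 6`.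
No hypothesis on the level. -/
theorem six_mul_ordDifferential_D_of_pole' [IsFF1 K F] {x : F} (w : Place K F)
    (hw : w.ord x < 0) :
    6 * w.ordDifferential (D K F x)
      = w.ord (x ^ 4 * (x - algebraMap K F 1728) ^ 3) - w.ord x - 6 := by
  have hx0 : x ≠ 0 := by
    rintro rfl
    rw [Place.ord_zero] at hw
    exact lt_irrefl _ hw
  have hc : algebraMap K F (1728 : K) ≠ 0 := by
    rw [Ne, map_eq_zero]; norm_num
  have hcord : w.ord (-algebraMap K F (1728 : K)) = 0 := by
    rw [← map_neg]; exact ord_algebraMap w _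
  have hsub : w.ord (x - algebraMap K F 1728) = w.ord x := by
    rw [sub_eq_add_neg]
    exact ord_add_eq_of_lt w hx0 (neg_ne_zero.mpr hc) (by rw [hcord]; exact hw)
  have hsub0 : x - algebraMap K F 1728 ≠ 0 := by
    intro h
    rw [h, Place.ord_zero] at hsub
    omega
  rw [ordDifferential_D w hw.ne, w.ord_mul (pow_ne_zero _ hx0) (pow_ne_zero _ hsub0),
    ord_pow, ord_pow, hsub]
  push_cast
  ring

/-- **`ω_f` is a unit at finite places**: if `x`, `x'` both have the profile of `j` and
`dx' = g · dx`, then `g⁶ · P(x) / P(x')` has order `0` at every place where `x` and `x'` are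
finite. -/
theorem IsJProfile.ord_omega_eq_zero [IsFF1 K F] {x x' : F} (hx : IsJProfile (K := K) x)
    (hx' : IsJProfile (K := K) x') (g : F) (hg : D K F x' = g • D K F x) (w : Place K F)
    (hw : 0 ≤ w.ord x) (hw' : 0 ≤ w.ord x') :
    w.ord (g ^ 6 * (x ^ 4 * (x - algebraMap K F 1728) ^ 3)
      / (x' ^ 4 * (x' - algebraMap K F 1728) ^ 3)) = 0 := by
  haveI := kaehler_nontrivial (K := K) (F := F)
  haveI := dCoord_generates w
  have hne : w.differentialCoeff (D K F x) ≠ 0 := differentialCoeff_D_ne_zero w hx.transcendental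
  have hne' : w.differentialCoeff (D K F x') ≠ 0 :=
    differentialCoeff_D_ne_zero w hx'.transcendental
  have hg0 : g ≠ 0 := by
    rintro rfl
    rw [zero_smul] at hg
    rw [hg, Place.differentialCoeff_zero] at hne'
    exact hne' rfl
  have h1 := hx.six_mul_ordDifferential_D w hw
  have h2 := hx'.six_mul_ordDifferential_D w hw'
  rw [hg, Place.ordDifferential_smul w hg0 hne] at h2
  rw [div_eq_mul_inv, w.ord_mul (mul_ne_zero (pow_ne_zero _ hg0) hx.poly_ne_zero)
    (inv_ne_zero hx'.poly_ne_zero), w.ord_mul (pow_ne_zero _ hg0) hx.poly_ne_zero,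
    Place.ord_inv, ord_pow]
  push_cast
  linarith

end profile

/-! ### `j` and its conjugates at a torsion-free level -/

section conj

variable (N : ℕ) [NeZero N]

/-- `j` has the profile at every torsion-free level. -/
theorem isJProfile_jBar (hN : 4 ∣ N ∨ 9 ∣ N) : IsJProfile (K := Kbar) (jBar N) where
  transcendental := S18.FibreCount.transcendental_jBar N
  zero := Ram.ord_jBar_eq_three N hN
  one := Ram.ord_jBar_sub_eq_two N hN
  generic := S18.FibreCount.ord_eq_one N

/-- the profile is invariant under `Q̄`-automorphisms of the function field. -/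
theorem IsJProfile.map {K F : Type*} [Field K] [IsAlgClosed K] [CharZero K] [Field F]
    [Algebra K F] {x : F} (hx : IsJProfile (K := K) x) (σ : F ≃ₐ[K] F) :
    IsJProfile (K := K) (σ x) := by
  have key : ∀ (w : Place K F) (f : F), w.ord (σ f) = (σ⁻¹ • w).ord f := by
    intro w f
    have h := Place.ord_smul σ (σ⁻¹ • w) f
    rwa [smul_inv_smul] at h
  have key' : ∀ (w : Place K F) (a : K),
      w.ord (σ x - algebraMap K F a) = (σ⁻¹ • w).ord (x - algebraMap K F a) := by
    intro w a
    rw [← key, map_sub, AlgEquiv.commutes]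
  refine ⟨?_, ?_, ?_, ?_⟩
  · intro halg
    apply hx.transcendental
    have := halg.algHom (σ.symm : F →ₐ[K] F)
    simpa using this
  · intro w hw
    rw [key] at hw ⊢
    exact hx.zero _ hw
  · intro w hw
    rw [key'] at hw ⊢
    exact hx.one _ hw
  · intro a h0 h1 w hw
    rw [key'] at hw ⊢
    exact hx.generic a h0 h1 _ hw

theorem isJProfile_conj (hN : 4 ∣ N ∨ 9 ∣ N) (σ : FN N ≃ₐ[Kbar] FN N) :
    IsJProfile (K := Kbar) (σ (jBar N)) :=
  (isJProfile_jBar N hN).map σ

/-- **[RAM]** for `x = σ j`: `6 · ord_w(dx) = ord_w(x⁴ (x - 1728)³)` at every finite place. -/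
theorem six_mul_ordDifferential_D (hN : 4 ∣ N ∨ 9 ∣ N) (σ : FN N ≃ₐ[Kbar] FN N)
    (w : Place Kbar (FN N)) (hw : 0 ≤ w.ord (σ (jBar N))) :
    6 * w.ordDifferential (D Kbar (FN N) (σ (jBar N)))
      = w.ord (σ (jBar N) ^ 4 * (σ (jBar N) - algebraMap Kbar (FN N) 1728) ^ 3) :=
  (isJProfile_conj N hN σ).six_mul_ordDifferential_D w hw

/-- at a cusp of width `e = -ord_w x`: `6 · ord_w(dx) - ord_w(P(x)) = e - 6`. -/
theorem six_mul_ordDifferential_D_of_pole (σ : FN N ≃ₐ[Kbar] FN N)
    (w : Place Kbar (FN N)) (hw : w.ord (σ (jBar N)) < 0) :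
    6 * w.ordDifferential (D Kbar (FN N) (σ (jBar N)))
      = w.ord (σ (jBar N) ^ 4 * (σ (jBar N) - algebraMap Kbar (FN N) 1728) ^ 3)
        - w.ord (σ (jBar N)) - 6 :=
  six_mul_ordDifferential_D_of_pole' w hw

/-- helper81's `ω_{σ j} = (d(σ j)/dj)⁶ · P(j) / P(σ j)` is a unit at every place which is finite
for `j` and for `σ j`. -/
theorem ord_omega_eq_zero (hN : 4 ∣ N ∨ 9 ∣ N) (σ : FN N ≃ₐ[Kbar] FN N) (g : FN N)
    (hg : D Kbar (FN N) (σ (jBar N)) = g • D Kbar (FN N) (jBar N)) (w : Place Kbar (FN N))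
    (hw : 0 ≤ w.ord (jBar N)) (hw' : 0 ≤ w.ord (σ (jBar N))) :
    w.ord (g ^ 6 * (jBar N ^ 4 * (jBar N - algebraMap Kbar (FN N) 1728) ^ 3)
      / (σ (jBar N) ^ 4 * (σ (jBar N) - algebraMap Kbar (FN N) 1728) ^ 3)) = 0 :=
  (isJProfile_jBar N hN).ord_omega_eq_zero (isJProfile_conj N hN σ) g hg w hw hw'

end conj


/-! ### The Atkin–Lehner instance: `j_q` at level `M q` -/

section sigma

open Fermat.Agent.S34

variable (M q : ℕ) [NeZero M] [NeZero q]

/-- `j_q = j(T^q)` has the ramification profile of `j` at a torsion-free level `M q`,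
`gcd(M, q) = 1`. -/
theorem isJProfile_jQ (h : Nat.Coprime M q) (hN : 4 ∣ M * q ∨ 9 ∣ M * q) :
    IsJProfile (K := Kbar) (Sigma.jQ M q) := by
  have := isJProfile_conj (M * q) hN (Sigma.sigma M q h)
  rwa [Sigma.sigma_jBar] at this

/-- **[RAM]** for `j_q`: `6 · ord_w(dj_q) = ord_w(j_q⁴ (j_q - 1728)³)` at every place where `j_q`
is finite. -/
theorem six_mul_ordDifferential_D_jQ (h : Nat.Coprime M q) (hN : 4 ∣ M * q ∨ 9 ∣ M * q)
    (w : Place Kbar (FN (M * q))) (hw : 0 ≤ w.ord (Sigma.jQ M q)) :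
    6 * w.ordDifferential (D Kbar (FN (M * q)) (Sigma.jQ M q))
      = w.ord (Sigma.jQ M q ^ 4 * (Sigma.jQ M q - algebraMap Kbar (FN (M * q)) 1728) ^ 3) :=
  (isJProfile_jQ M q h hN).six_mul_ordDifferential_D w hw

/-- `ω_{j_q} = (dj_q/dj)⁶ · P(j) / P(j_q)` is a unit at every place of `F_{Mq}` which is finite
for `j` and `j_q`. -/
theorem ord_omega_jQ_eq_zero (h : Nat.Coprime M q) (hN : 4 ∣ M * q ∨ 9 ∣ M * q)
    (g : FN (M * q))
    (hg : D Kbar (FN (M * q)) (Sigma.jQ M q) = g • D Kbar (FN (M * q)) (jBar (M * q)))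
    (w : Place Kbar (FN (M * q))) (hw : 0 ≤ w.ord (jBar (M * q)))
    (hw' : 0 ≤ w.ord (Sigma.jQ M q)) :
    w.ord (g ^ 6 * (jBar (M * q) ^ 4 * (jBar (M * q) - algebraMap Kbar (FN (M * q)) 1728) ^ 3)
      / (Sigma.jQ M q ^ 4 * (Sigma.jQ M q - algebraMap Kbar (FN (M * q)) 1728) ^ 3)) = 0 :=
  (isJProfile_jBar (M * q) hN).ord_omega_eq_zero (isJProfile_jQ M q h hN) g hg w hw hw'

end sigma

end Fermat.Agent.S36.RamOmega
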