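/-
S36 / P8, block (U) of Lemma R (helper81): the modular unit `U₂ = Δ_q² / (Δ · Δ_{q²})`.

Level `M q` (`gcd(M, q) = 1`, `4 ∣ M` or `9 ∣ M`): for `g = dj_q/dj`,
`u = ω_{j, j_q} = g⁶ P(j)/P(j_q)` (`Der.omega`) has `q`-expansion `q⁶ Δ(T^q)/Δ(T)` and is a unit
at every finite place (helper20's `RamOmega.ord_omega_jQ_eq_zero` + the pole bound).

Top level `M q q`: with `x = j`, `f₁ = α(j_q)` (`= j(T^q)`), `f₂ = β(j_q)` (`= j(T^{q²})`),
`U = ω_{x,f₁}² / ω_{x,f₂}` (the form consumed by `Der.map_U_mul` at every expansion) equals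
`α(u)/β(u)`, has `q`-expansion `Δ(T^q)²/(Δ(T) Δ(T^{q²}))` and is a unit at every finite place.
-/
import Mathlib
import Fermat.Agent.S36.RamOmega
import Fermat.Agent.S36.Der
import Fermat.Agent.S34.PoleBound
import Fermat.Agent.S37.HeckeInputs
import Fermat.Agent.S28.Subst

set_option autoImplicit false
set_option linter.style.haveILetI false
set_option synthInstance.maxHeartbeats 400000
set_option maxHeartbeats 1600000

noncomputable section

namespace Fermat.Agent.S36.DeltaUnit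

open AlgebraicCurve KaehlerDifferential ModularCurve
open Fermat.Agent.S24 Fermat.Agent.S28 Fermat.Agent.S34 Fermat.Agent Fermat.Agent.S18.Plan

/-! ### Series vocabulary -/

section Series

/-- the `∞`-expansion of `F_N` as an algebra map. -/
abbrev incl (N : ℕ) [NeZero N] : FN N →ₐ[Kbar] Om := (modularFunctionFieldBar N).val

theorem coe_jBar_yS (N : ℕ) [NeZero N] : ((jBar N : FN N) : Om) = yS Kbar 1 1 := by
  rw [yS_one_left, expand_one, PoleBound.coe_jBar']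

theorem deltaY_one (m : ℕ) : Der.deltaY Kbar 1 m = expand Kbar m (deltaS Kbar) := by
  unfold Der.deltaY
  rw [scale_one]

theorem expand_deltaS_ne_zero (m : ℕ) : expand Kbar m (deltaS Kbar) ≠ 0 := by
  rw [← deltaY_one]
  exact Der.deltaY_ne_zero 1 m

theorem deltaS_ne_zero : deltaS Kbar ≠ 0 := by
  have h := expand_deltaS_ne_zero 1
  rwa [expand_one] at h

theorem natCast_ne_zero (m : ℕ) (hm : m ≠ 0) : (m : Om) ≠ 0 := Der.natCast_ne_zero m hm

end Series

/-! ### Level `M q` -/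

section LevelMq

variable (M q : ℕ) [NeZero M] [NeZero q]

theorem coe_jQ_yS : ((Sigma.jQ M q : FN (M * q)) : Om) = yS Kbar 1 q := by
  rw [yS_one_left, expand_eq_qExpand q]
  exact (Sigma.coe_beta (jBar M)).trans (by rw [PoleBound.coe_jBar'])

/-- `g = dj_q/dj` exists. -/
theorem exists_g : ∃ g : FN (M * q),
    D Kbar (FN (M * q)) (Sigma.jQ M q) = g • D Kbar (FN (M * q)) (jBar (M * q)) := by
  haveI : IsFF1 Kbar (FN (M * q)) := Ram.isFF1 (M * q)
  exact exists_eq_smul_D (S18.FibreCount.transcendental_jBar (M * q)) _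

/-- **the `q`-expansion of `u = ω_{j,j_q}`**: `u · Δ = q⁶ · Δ(T^q)`. -/
theorem coe_omega_mul (g : FN (M * q))
    (hg : D Kbar (FN (M * q)) (Sigma.jQ M q) = g • D Kbar (FN (M * q)) (jBar (M * q))) :
    ((Der.omega (K := Kbar) (jBar (M * q)) (Sigma.jQ M q) g : FN (M * q)) : Om) * deltaS Kbar
      = (q : Om) ^ 6 * expand Kbar q (deltaS Kbar) := by
  have h := Der.map_omega_mul (incl (M * q)) hg 1 1 1 q one_ne_zero (NeZero.ne q)
    (coe_jBar_yS (M * q)) (coe_jQ_yS M q)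
  rw [deltaY_one, deltaY_one, expand_one, Nat.cast_one, one_pow, one_mul] at h
  exact h

theorem omega_ne_zero (g : FN (M * q))
    (hg : D Kbar (FN (M * q)) (Sigma.jQ M q) = g • D Kbar (FN (M * q)) (jBar (M * q))) :
    Der.omega (K := Kbar) (jBar (M * q)) (Sigma.jQ M q) g ≠ 0 := by
  intro h0
  have h := coe_omega_mul M q g hg
  rw [h0] at h
  have h1 : ((0 : FN (M * q)) : Om) = 0 := rfl
  rw [h1, zero_mul] at h
  exact mul_ne_zero (pow_ne_zero _ (natCast_ne_zero q (NeZero.ne q))) (expand_deltaS_ne_zero q)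
    h.symm

/-- **`u = ω_{j,j_q}` is a unit at every finite place of `F_{Mq}`.** -/
theorem ord_omega_eq_zero (hcop : Nat.Coprime M q) (hM : 4 ∣ M ∨ 9 ∣ M) (g : FN (M * q))
    (hg : D Kbar (FN (M * q)) (Sigma.jQ M q) = g • D Kbar (FN (M * q)) (jBar (M * q)))
    (w : Place Kbar (FN (M * q))) (hw : 0 ≤ w.ord (jBar (M * q))) :
    w.ord (Der.omega (K := Kbar) (jBar (M * q)) (Sigma.jQ M q) g) = 0 := by
  have hN : 4 ∣ M * q ∨ 9 ∣ M * q :=
    hM.imp (fun h => Dvd.dvd.mul_right h q) (fun h => Dvd.dvd.mul_right h q)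
  have hw' : 0 ≤ w.ord (Sigma.jQ M q) := by
    have h1 := PoleBound.ord_jBarLevel_ge (M * q) q (Dvd.intro_left M rfl) w
    rw [← PoleBound.beta_jBar, min_eq_left hw, mul_zero] at h1
    exact h1
  exact RamOmega.ord_omega_jQ_eq_zero M q hcop hN g hg w hw hw'

end LevelMq

/-! ### The top level `M q q` -/

section Top

variable (M q : ℕ) [NeZero M] [NeZero q]

/-- `j` at the top level. -/
abbrev xT : FN (M * q * q) := jBar (M * q * q)

/-- `j_q = j(T^q)` at the top level. -/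
abbrev f1T : FN (M * q * q) := heckeAlphaBar Kbar (M * q) q (Sigma.jQ M q)

/-- `j_{q²} = j(T^{q²})` at the top level. -/
abbrev f2T : FN (M * q * q) := heckeBetaBar Kbar (M * q) q (Sigma.jQ M q)

/-- `U₂ = ω_{x,f₁}² / ω_{x,f₂}` for given `g₁ = df₁/dx`, `g₂ = df₂/dx`. -/
abbrev U2 (g₁ g₂ : FN (M * q * q)) : FN (M * q * q) :=
  Der.omega (K := Kbar) (xT M q) (f1T M q) g₁ ^ 2 / Der.omega (K := Kbar) (xT M q) (f2T M q) g₂

theorem coe_f1T : ((f1T M q : FN (M * q * q)) : Om) = yS Kbar 1 q :=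
  (Sigma.coe_alpha (Sigma.jQ M q)).trans (coe_jQ_yS M q)

theorem coe_f2T : ((f2T M q : FN (M * q * q)) : Om) = yS Kbar 1 (q * q) := by
  have h : ((f2T M q : FN (M * q * q)) : Om) = qExpand Kbar q ((Sigma.jQ M q : FN (M * q)) : Om) :=
    Sigma.coe_beta (Sigma.jQ M q)
  rw [h, coe_jQ_yS, ← expand_eq_qExpand q, expand_yS 1 (NeZero.ne q) (NeZero.ne q)]

/-- **the `q`-expansion of `U₂`**: `U₂ · (Δ · Δ(T^{q²})) = Δ(T^q)²`. -/
theorem coe_U2_mul (g₁ g₂ : FN (M * q * q))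
    (hg₁ : D Kbar (FN (M * q * q)) (f1T M q) = g₁ • D Kbar (FN (M * q * q)) (xT M q))
    (hg₂ : D Kbar (FN (M * q * q)) (f2T M q) = g₂ • D Kbar (FN (M * q * q)) (xT M q)) :
    ((U2 M q g₁ g₂ : FN (M * q * q)) : Om) * (deltaS Kbar * expand Kbar (q * q) (deltaS Kbar))
      = expand Kbar q (deltaS Kbar) ^ 2 := by
  have hq0 : q ≠ 0 := NeZero.ne q
  have h := Der.map_U_mul (incl (M * q * q)) hg₁ hg₂ 1 1 1 1 q (q * q) one_ne_zero hq0
    (Nat.mul_ne_zero hq0 hq0) (coe_jBar_yS (M * q * q)) (coe_f1T M q) (coe_f2T M q)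
  rw [deltaY_one, deltaY_one, deltaY_one, expand_one, Nat.cast_one, one_pow, one_mul] at h
  have hQ : ((q : Om)) ^ 12 ≠ 0 := pow_ne_zero _ (natCast_ne_zero q hq0)
  have h2 : ((q : Om)) ^ 12 * (((U2 M q g₁ g₂ : FN (M * q * q)) : Om)
      * (deltaS Kbar * expand Kbar (q * q) (deltaS Kbar)) - expand Kbar q (deltaS Kbar) ^ 2) = 0 := by
    have h' : ((U2 M q g₁ g₂ : FN (M * q * q)) : Om) * (deltaS Kbar *
        (((q * q : ℕ) : Om) ^ 6 * expand Kbar (q * q) (deltaS Kbar)))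
        = ((q : Om) ^ 6 * expand Kbar q (deltaS Kbar)) ^ 2 := h
    rw [Nat.cast_mul] at h'
    linear_combination h'
  exact sub_eq_zero.mp ((mul_eq_zero.mp h2).resolve_left hQ)

/-- **`U₂ = α(u) / β(u)`**, `u = ω_{j,j_q}` at level `M q`. -/
theorem U2_eq (g : FN (M * q))
    (hg : D Kbar (FN (M * q)) (Sigma.jQ M q) = g • D Kbar (FN (M * q)) (jBar (M * q)))
    (g₁ g₂ : FN (M * q * q))
    (hg₁ : D Kbar (FN (M * q * q)) (f1T M q) = g₁ • D Kbar (FN (M * q * q)) (xT M q))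
    (hg₂ : D Kbar (FN (M * q * q)) (f2T M q) = g₂ • D Kbar (FN (M * q * q)) (xT M q)) :
    U2 M q g₁ g₂ =
      heckeAlphaBar Kbar (M * q) q (Der.omega (K := Kbar) (jBar (M * q)) (Sigma.jQ M q) g) /
        heckeBetaBar Kbar (M * q) q (Der.omega (K := Kbar) (jBar (M * q)) (Sigma.jQ M q) g) := by
  have hq0 : q ≠ 0 := NeZero.ne q
  set u := Der.omega (K := Kbar) (jBar (M * q)) (Sigma.jQ M q) g with hu
  have hb := coe_omega_mul M q g hg
  have ha := coe_U2_mul M q g₁ g₂ hg₁ hg₂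
  have hα : ((heckeAlphaBar Kbar (M * q) q u : FN (M * q * q)) : Om) = (u : Om) :=
    Sigma.coe_alpha u
  have hβ : ((heckeBetaBar Kbar (M * q) q u : FN (M * q * q)) : Om) = expand Kbar q (u : Om) := by
    rw [expand_eq_qExpand q]
    exact Sigma.coe_beta u
  have hc : expand Kbar q (u : Om) * expand Kbar q (deltaS Kbar)
      = (q : Om) ^ 6 * expand Kbar (q * q) (deltaS Kbar) := by
    have := congrArg (expand Kbar q) hb
    rwa [map_mul, map_mul, map_pow, map_natCast, expand_expand hq0 hq0] at this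
  have hΔ := deltaS_ne_zero
  have hΔq := expand_deltaS_ne_zero q
  have hΔqq := expand_deltaS_ne_zero (q * q)
  have hQ : ((q : Om)) ^ 6 ≠ 0 := pow_ne_zero _ (natCast_ne_zero q hq0)
  have hc0 : expand Kbar q (u : Om) ≠ 0 := by
    intro h0
    rw [h0, zero_mul] at hc
    exact mul_ne_zero hQ hΔqq hc.symm
  have hβ0 : heckeBetaBar Kbar (M * q) q u ≠ 0 := by
    intro h0
    rw [h0] at hβ
    exact hc0 hβ.symm
  rw [eq_div_iff hβ0]
  apply Subtype.ext
  show ((U2 M q g₁ g₂ : FN (M * q * q)) : Om) * ((heckeBetaBar Kbar (M * q) q u : FN (M * q * q)) : Om)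
    = ((heckeAlphaBar Kbar (M * q) q u : FN (M * q * q)) : Om)
  rw [hα, hβ]
  have hne : deltaS Kbar * expand Kbar (q * q) (deltaS Kbar) * expand Kbar q (deltaS Kbar) ≠ 0 :=
    mul_ne_zero (mul_ne_zero hΔ hΔqq) hΔq
  have key : (((U2 M q g₁ g₂ : FN (M * q * q)) : Om) * expand Kbar q (u : Om) - (u : Om)) *
      (deltaS Kbar * expand Kbar (q * q) (deltaS Kbar) * expand Kbar q (deltaS Kbar)) = 0 := by
    linear_combination (expand Kbar q (u : Om) * expand Kbar q (deltaS Kbar)) * ha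
      + expand Kbar q (deltaS Kbar) ^ 2 * hc
      - (expand Kbar (q * q) (deltaS Kbar) * expand Kbar q (deltaS Kbar)) * hb
  exact sub_eq_zero.mp ((mul_eq_zero.mp key).resolve_right hne)

theorem U2_ne_zero (g₁ g₂ : FN (M * q * q))
    (hg₁ : D Kbar (FN (M * q * q)) (f1T M q) = g₁ • D Kbar (FN (M * q * q)) (xT M q))
    (hg₂ : D Kbar (FN (M * q * q)) (f2T M q) = g₂ • D Kbar (FN (M * q * q)) (xT M q)) :
    U2 M q g₁ g₂ ≠ 0 := by
  intro h0
  have h := coe_U2_mul M q g₁ g₂ hg₁ hg₂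
  rw [h0] at h
  have h1 : ((0 : FN (M * q * q)) : Om) = 0 := rfl
  rw [h1, zero_mul] at h
  exact pow_ne_zero _ (expand_deltaS_ne_zero q) h.symm

/-- a function of the lower level which is a unit at the finite places stays so along a
degeneracy map whose image of `j` is finite at the finite places. -/
theorem ord_map_eq_zero (φ : FN (M * q) →ₐ[Kbar] FN (M * q * q)) (hφ : φ.toRingHom.IsIntegral)
    (u : FN (M * q))
    (hu : ∀ v : Place Kbar (FN (M * q)), 0 ≤ v.ord (jBar (M * q)) → v.ord u = 0)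
    (w : Place Kbar (FN (M * q * q))) (hw : 0 ≤ w.ord (φ (jBar (M * q)))) :
    w.ord (φ u) = 0 := by
  have h1 := Place.ord_restrictAlong φ hφ w u
  have h2 := Place.ord_restrictAlong φ hφ w (jBar (M * q))
  rcases Nat.eq_zero_or_pos (Place.ramificationIndexAlong φ w) with he | he
  · rw [h1, he]
    simp
  · have he' : (0 : ℤ) < (Place.ramificationIndexAlong φ w : ℤ) := by exact_mod_cast he
    have h3 : 0 ≤ (w.restrictAlong φ hφ).ord (jBar (M * q)) := by
      rw [h2] at hw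
      exact nonneg_of_mul_nonneg_right hw he'
    rw [h1, hu _ h3, mul_zero]

/-- **`U₂` is a unit at every finite place of the top level.** -/
theorem ord_U2_eq_zero (hcop : Nat.Coprime M q) (hM : 4 ∣ M ∨ 9 ∣ M) (g₁ g₂ : FN (M * q * q))
    (hg₁ : D Kbar (FN (M * q * q)) (f1T M q) = g₁ • D Kbar (FN (M * q * q)) (xT M q))
    (hg₂ : D Kbar (FN (M * q * q)) (f2T M q) = g₂ • D Kbar (FN (M * q * q)) (xT M q))
    (w : Place Kbar (FN (M * q * q))) (hw : 0 ≤ w.ord (jBar (M * q * q))) :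
    w.ord (U2 M q g₁ g₂) = 0 := by
  obtain ⟨g, hg⟩ := exists_g M q
  have hu0 := omega_ne_zero M q g hg
  have hu := ord_omega_eq_zero M q hcop hM g hg
  rw [U2_eq M q g hg g₁ g₂ hg₁ hg₂]
  set u := Der.omega (K := Kbar) (jBar (M * q)) (Sigma.jQ M q) g with hu_def
  have hα0 : heckeAlphaBar Kbar (M * q) q u ≠ 0 :=
    (map_ne_zero_iff _ (heckeAlphaBar Kbar (M * q) q).injective).mpr hu0
  have hβ0 : heckeBetaBar Kbar (M * q) q u ≠ 0 :=
    (map_ne_zero_iff _ (heckeBetaBar Kbar (M * q) q).injective).mpr hu0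
  have h1 : w.ord (heckeAlphaBar Kbar (M * q) q u) = 0 := by
    refine ord_map_eq_zero M q _ (Fermat.Agent.S37.HeckeInputs.heckeAlphaBarIntegral (M * q) q)
      u hu w ?_
    rw [PoleBound.alpha_jBar]
    exact hw
  have h2 : w.ord (heckeBetaBar Kbar (M * q) q u) = 0 := by
    refine ord_map_eq_zero M q _ (Fermat.Agent.S37.HeckeInputs.heckeBetaBarIntegral (M * q) q)
      u hu w ?_
    rw [PoleBound.beta_jBar]
    have h3 := PoleBound.ord_jBarLevel_ge (M * q * q) q (Dvd.intro_left (M * q) rfl) w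
    rw [min_eq_left hw, mul_zero] at h3
    exact h3
  rw [div_eq_mul_inv, Place.ord_mul w hα0 (inv_ne_zero hβ0), Place.ord_inv, h1, h2]
  norm_num

/-- **Existence form**: `g₁ = df₁/dx`, `g₂ = df₂/dx` exist at the top level, and
`U₂ = ω_{x,f₁}²/ω_{x,f₂}` is nonzero, has `q`-expansion `Δ(T^q)²/(Δ(T) Δ(T^{q²}))` and is a
unit at every finite place. -/
theorem exists_U2 (hcop : Nat.Coprime M q) (hM : 4 ∣ M ∨ 9 ∣ M) :
    ∃ g₁ g₂ : FN (M * q * q),
      D Kbar (FN (M * q * q)) (f1T M q) = g₁ • D Kbar (FN (M * q * q)) (xT M q) ∧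
      D Kbar (FN (M * q * q)) (f2T M q) = g₂ • D Kbar (FN (M * q * q)) (xT M q) ∧
      U2 M q g₁ g₂ ≠ 0 ∧
      ((U2 M q g₁ g₂ : FN (M * q * q)) : Om) * (deltaS Kbar * expand Kbar (q * q) (deltaS Kbar))
        = expand Kbar q (deltaS Kbar) ^ 2 ∧
      ∀ w : Place Kbar (FN (M * q * q)), 0 ≤ w.ord (jBar (M * q * q)) →
        w.ord (U2 M q g₁ g₂) = 0 := by
  haveI : IsFF1 Kbar (FN (M * q * q)) := Ram.isFF1 (M * q * q)
  have hx := S18.FibreCount.transcendental_jBar (M * q * q)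
  obtain ⟨g₁, hg₁⟩ := exists_eq_smul_D hx (D Kbar (FN (M * q * q)) (f1T M q))
  obtain ⟨g₂, hg₂⟩ := exists_eq_smul_D hx (D Kbar (FN (M * q * q)) (f2T M q))
  exact ⟨g₁, g₂, hg₁, hg₂, U2_ne_zero M q g₁ g₂ hg₁ hg₂, coe_U2_mul M q g₁ g₂ hg₁ hg₂,
    fun w hw => ord_U2_eq_zero M q hcop hM g₁ g₂ hg₁ hg₂ w hw⟩

end Top

end Fermat.Agent.S36.DeltaUnit

end
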