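import Mathlib
import Fermat.Agent.S34.CharBad
import Fermat.Agent.S34.Desc
import Fermat.Agent.S34.DescInst
import Fermat.Agent.Lib.Gamma0Count

/-!
# S36 — [DESC-q²]: the descent step at the levels `N₀ q q ∣ M q q` (helper94)

Setting of P8 (Carayol, conductor exponent `2`): `q` prime, `A` over `q`, bottom level
`N₀ * q * q`, top level `M * q * q` with `N₀ ∣ M` and `q ∤ M`.  Only the content valuation
`v₁ = Ocal A` (the `∞`-coordinate) is used.  This is the level-`q²` twin of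
`S34.CharBad.charStmt_bad'` and of `S34.DescInst.descW`:

* `psi_bad2`      : `ψ(M q q) ψ(N₀) = ψ(N₀ q q) ψ(M)` (no defect);
* `charStmt_bad2` : `S18.Plan.CharStmt A (N₀ * q * q) (M * q * q)` from (V1') at the top level and
  (HB) at the two levels (`RedInto … N₀`, `RedInto … M`);
* `descW2`        : the descent with the generator: `deg D = 0`, `n • D = div w`, `red w = 1`,
  `q ∤ n`, `pullRR (N₀ q q) (M q q) D ≠ 0`  ⟹  `D` principal.

Hypothesis form: the two inputs (V1') = `CharBad.ScaleProp A (M * q * q)` and (HB) =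
`CharBad.RedInto A (· * q * q) ·` are supplied by the frame (`S36/ValArchFam`).
-/

set_option autoImplicit false
set_option maxHeartbeats 400000

noncomputable section

namespace Fermat.Agent.S36.DescQ2

open ModularCurve AlgebraicCurve Fermat.Agent.S24 Fermat.Agent.S18.Content Fermat.Agent.S18.Plan
open Fermat.Agent.S18 Fermat.Agent.Lib Fermat.Agent.S34

set_option synthInstance.maxHeartbeats 400000

variable (A : ValuationSubring Kbar) (q N₀ M : ℕ) [Fact q.Prime] [NeZero N₀] [NeZero M]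

theorem neZero_mul_mul : NeZero (M * q * q) :=
  ⟨Nat.mul_ne_zero (Nat.mul_ne_zero (NeZero.ne M) (Fact.out : q.Prime).ne_zero)
    (Fact.out : q.Prime).ne_zero⟩

/-- `ψ(M q q) = q (q + 1) ψ(M)` for `q ∤ M`. -/
theorem psi_mul_mul (hqM : ¬ q ∣ M) :
    dedekindPsi (M * q * q) = q * ((q + 1) * dedekindPsi M) := by
  have hq : q.Prime := Fact.out
  have e : M * q * q = q * (q * M) := by ring
  rw [e, Lib.Gamma0Count.dedekindPsi_mul_of_dvd hq
      (Nat.mul_ne_zero hq.ne_zero (NeZero.ne M)) (dvd_mul_right q M),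
    Lib.Gamma0Count.dedekindPsi_mul_of_not_dvd hq (NeZero.ne M) hqM]

/-- `ψ(M q q) ψ(N₀) = ψ(N₀ q q) ψ(M)` for `q ∤ M`, `N₀ ∣ M`. -/
theorem psi_bad2 (hN₀M : N₀ ∣ M) (hqM : ¬ q ∣ M) :
    dedekindPsi (M * q * q) * dedekindPsi N₀ = dedekindPsi (N₀ * q * q) * dedekindPsi M := by
  have hqN₀ : ¬ q ∣ N₀ := fun h => hqM (h.trans hN₀M)
  rw [psi_mul_mul q M hqM, psi_mul_mul q N₀ hqN₀]
  ring

/-- **`Plan.CharStmt A (N₀ * q * q) (M * q * q)`** (the S18 contract at the pair of levels of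
conductor exponent `2`, for the content valuation alone), from (V1') at the top level and (HB) at
both levels. -/
theorem charStmt_bad2 (hN₀M : N₀ ∣ M) (hqM : ¬ q ∣ M) (hA : A.LiesOverPrime q)
    (hs : CharBad.ScaleProp A (M * q * q)) (hb₁ : CharBad.RedInto A (N₀ * q * q) N₀)
    (hb₂ : CharBad.RedInto A (M * q * q) M) :
    Plan.CharStmt A (N₀ * q * q) (M * q * q) := by
  have hv : CharBad.ValProp A (M * q * q) := hs.valProp
  have := neZero_mul_mul q N₀
  have := neZero_mul_mul q M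
  have := charP_residueField_of_liesOverPrime A q hA
  have hdiv : N₀ * q * q ∣ M * q * q := Nat.mul_dvd_mul_right (Nat.mul_dvd_mul_right hN₀M q) q
  have hRM : RedStmt A M := Red.redStmt M q hqM A hA
  have hle' : modularFunctionFieldBar M ≤ modularFunctionFieldBar (M * q * q) :=
    CharStmt.bar_le ((dvd_mul_right M q).trans (dvd_mul_right (M * q) q))
  exact CharBad.charStmt_of_data A (N₀ * q * q) (M * q * q) N₀ M hdiv hN₀M q hqM
    (psi_bad2 q N₀ M hN₀M hqM)
    (CharBad.data_of (hv.mono (CharStmt.bar_le hdiv)) hv hb₁ hb₂ hRM hle')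

/-- **[DESC-q²]** with the generator: if `deg D = 0`, `n • D = div w` with `red w = 1`, `q ∤ n`,
and `L(π^* D) ≠ 0` at level `M * q * q`, then the divisor `D` of `F_{N₀ q q}` is principal. -/
theorem descW2 [NeZero (N₀ * q * q)] (hN₀M : N₀ ∣ M) (hqM : ¬ q ∣ M) (hA : A.LiesOverPrime q)
    (hs : CharBad.ScaleProp A (M * q * q)) (hb₁ : CharBad.RedInto A (N₀ * q * q) N₀)
    (hb₂ : CharBad.RedInto A (M * q * q) M) :
    ∀ (D : Divisor Kbar (FN (N₀ * q * q))) (n : ℕ), Divisor.degree D = 0 → ¬ q ∣ n →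
    ∀ w : FN (N₀ * q * q), w ≠ 0 → (∀ P : Place Kbar (FN (N₀ * q * q)), P.ord w = n * D P) →
    ∀ hw : (w : Om) ∈ Ocal A, red A ⟨_, hw⟩ = 1 →
      (∃ g : Om, g ∈ pullRR (N₀ * q * q) (M * q * q) D ∧ g ≠ 0) →
      D ∈ Divisor.principal (K := Kbar) (F := FN (N₀ * q * q)) := by
  intro D n hdeg hn w hw0 hwdiv hwO hwred hg
  obtain ⟨g, hg, hg0⟩ := hg
  have := neZero_mul_mul q M
  have : CharP (kk A) q := charP_residueField_of_liesOverPrime A q hA
  have hdiv : N₀ * q * q ∣ M * q * q := Nat.mul_dvd_mul_right (Nat.mul_dvd_mul_right hN₀M q) q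
  refine Desc.desc_of (N₀ * q * q) (M * q * q) A q (PullStep.bar_le hdiv)
    (FibreCount.dedekindPsi_pos (M * q * q)) hs
    (charStmt_bad2 A q N₀ M hN₀M hqM hA hs hb₁ hb₂) (Char0.char0Stmt (N₀ * q * q)) D hdeg n hn w
    hw0 hwO hwred (fun P => ?_) g hg hg0
  rw [Finsupp.smul_apply, nsmul_eq_mul, hwdiv P]

end Fermat.Agent.S36.DescQ2

end
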