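/-
P8 / S36, blocks [DIM] + [SCALE] + the integrality by-product of [DIM] (helper5):
**unconditional instances on an arbitrary frame / setup.**

`S36/DimAbs` proves `Plan.DimStmt`, `Plan.ScaleStmt` from a family `w : ι → F_{Mq²}` satisfying
`DimAbs.IsFam`; `S36/DimFam` (helper49, on helper39's `S36/FamQ2`) provides the explicit family
`DimFam.fam M q ζ` with membership, count and independence.  This file glues the two:

* `isFam`          : `DimAbs.IsFam ρ (DimFam.fam M q ζ)`;
* `dimStmt`        : `Plan.DimStmt A M q O ρ`;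
* `scaleStmt`      : `Plan.ScaleStmt A M q O ρ`;
* `isIntegral_OM_of_fam`, `isIntegral_OM` : every element of `O` is integral over
  `O_M = F_M ∩ Ocal`;
* `dimAllStmt`     : `LiftAllOf.DimAllStmt`;
* `intAllStmt`     : `InclAll.IntAllStmt`.
-/
import Mathlib
import Fermat.Agent.S36.DimAbs
import Fermat.Agent.S36.DimFam
import Fermat.Agent.S36.LiftAllOf
import Fermat.Agent.S36.InclAll
import Fermat.Agent.S34.InclInt

set_option autoImplicit false
set_option linter.style.haveILetI false
set_option linter.unusedSectionVars false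

noncomputable section

namespace Fermat.Agent.S36.DimInst

open ModularCurve AlgebraicCurve Fermat.Agent.S24 Fermat.Agent.S18 Fermat.Agent.S18.Content
  Fermat.Agent.S18.Plan Fermat.Agent.S34 Fermat.Agent.S36.Plan

set_option synthInstance.maxHeartbeats 400000
set_option maxHeartbeats 1600000

variable {M q : ℕ} [NeZero M] [NeZero q] {h : Nat.Coprime M q}
variable {A : ValuationSubring Kbar} {F : Frame M q h} {O : Subring Om} {ρ : O →+* Rq A q}

attribute [local instance] DimAbs.algTop2

/-- **The explicit family satisfies `DimAbs.IsFam`.** -/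
theorem isFam (hq : q.Prime) (hA : A.LiesOverPrime q) (hS : IsSetup A F O ρ) (ζ : Kbarˣ)
    (hζ : IsPrimitiveRoot ζ q) : DimAbs.IsFam ρ (DimFam.fam M q ζ) where
  mem := DimFam.fam_mem hq hA hS ζ hζ
  card := DimFam.card_fam hq
  ind := fun a hsum =>
    DimFam.fam_ind hq hA hS ζ hζ (DimAbs.twQ2 A M q) (fun a => (a : Omk A))
      (fun _ ha => Subtype.ext ha) (fun _ => rfl) (fun _ => rfl) (fun _ _ => rfl) a hsum

/-- `q ∤ M`. -/
theorem not_dvd (h : Nat.Coprime M q) (hq : q.Prime) : ¬ q ∣ M :=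
  (Nat.Prime.coprime_iff_not_dvd hq).mp h.symm

/-- The content valuation statement at the level `M`. -/
theorem redStmtM (h : Nat.Coprime M q) (hq : q.Prime) (hA : A.LiesOverPrime q) :
    S18.Plan.RedStmt A M :=
  haveI : Fact q.Prime := ⟨hq⟩
  Fermat.Agent.S18.Red.redStmt M q (not_dvd h hq) A hA

/-- **[DIM]** on an arbitrary frame and setup. -/
theorem dimStmt (hq : q.Prime) (hA : A.LiesOverPrime q) (hS : IsSetup A F O ρ) :
    Plan.DimStmt A M q O ρ := by
  haveI : Fact q.Prime := ⟨hq⟩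
  obtain ⟨ζ, hζ⟩ := CoordFin.exists_primitiveRoot q
  exact DimAbs.dimStmt_of_fam F (not_dvd h hq) (redStmtM h hq hA) hS (isFam hq hA hS ζ hζ)

/-- **[SCALE]** on an arbitrary frame and setup. -/
theorem scaleStmt (hq : q.Prime) (hA : A.LiesOverPrime q) (hS : IsSetup A F O ρ) :
    Plan.ScaleStmt A M q O ρ := by
  haveI : Fact q.Prime := ⟨hq⟩
  obtain ⟨ζ, hζ⟩ := CoordFin.exists_primitiveRoot q
  exact DimAbs.scaleStmt_of_fam F (not_dvd h hq) (redStmtM h hq hA) hS (isFam hq hA hS ζ hζ)

/-- **By-product of [DIM]**: `O` is integral over `O_M = F_M ∩ Ocal`, from a family. -/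
theorem isIntegral_OM_of_fam [Fact q.Prime] (hqM : ¬ q ∣ M) (hRed : S18.Plan.RedStmt A M)
    (F : Frame M q h) (hS : IsSetup A F O ρ) {ι : Type} [Fintype ι] {w : ι → FN (M * q * q)}
    (hw : DimAbs.IsFam ρ w) : ∀ g : O, IsIntegral (Incl.OM A M) (g : Om) := by
  classical
  have S := DimAbs.setup F hS hRed
  have := hw.nonempty
  have hli := hw.linearIndependent
  have hcard := hw.card_eq hqM
  let e := Fintype.equivFin ι
  refine InclInt.isIntegral_OM_of_coeff A M O
    (fun x hM hO => (DimAbs.rho_level F hS hRed hM hO).1)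
    (fun k => ⟨((w (e.symm k) : FN (M * q * q)) : Om), hw.mem _⟩) ?_
  intro g
  have hg := hS.mem_field g
  let g' : DimAbs.OF M q O := ⟨⟨(g : Om), hg⟩, g.2⟩
  let b := S.basisOf hw.wO hli hcard
  refine ⟨fun k => ((b.repr (g' : FN (M * q * q)) (e.symm k) : FN M) : Om), fun k => ⟨?_, ?_⟩, ?_⟩
  · exact (b.repr (g' : FN (M * q * q)) (e.symm k)).2
  · exact S.repr_mem hw.wO hli hcard g' (e.symm k)
  · have h1 := b.sum_repr (g' : FN (M * q * q))
    have h2 : (((∑ i, b.repr (g' : FN (M * q * q)) i • b i : FN (M * q * q))) : Om) = (g : Om) := by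
      rw [h1]
    rw [AddSubmonoidClass.coe_finsetSum] at h2
    rw [← h2]
    rw [← Equiv.sum_comp e.symm]
    refine Finset.sum_congr rfl fun k _ => ?_
    show ((b.repr (g' : FN (M * q * q)) (e.symm k) • b (e.symm k) : FN (M * q * q)) : Om) = _
    rw [Ortho2.Setup.basisOf_apply, Algebra.smul_def, MulMemClass.coe_mul,
      DimAbs.coe_algebraMap_top2]
    rfl

/-- **By-product of [DIM]**: `O` is integral over `O_M = F_M ∩ Ocal`, on an arbitrary frame and
setup. -/
theorem isIntegral_OM (hq : q.Prime) (hA : A.LiesOverPrime q) (hS : IsSetup A F O ρ) :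
    ∀ g : O, IsIntegral (Incl.OM A M) (g : Om) := by
  haveI : Fact q.Prime := ⟨hq⟩
  obtain ⟨ζ, hζ⟩ := CoordFin.exists_primitiveRoot q
  exact isIntegral_OM_of_fam (not_dvd h hq) (redStmtM h hq hA) F hS (isFam hq hA hS ζ hζ)

/-- **[DIM] at all levels.** -/
theorem dimAllStmt : LiftAllOf.DimAllStmt := by
  intro N₀ N' M q _ _ _ _ h hqp _ _ _ A hA F O ρ hS
  exact dimStmt hqp hA hS

/-- **"`O` is integral over `O_M`" at all levels.** -/
theorem intAllStmt : InclAll.IntAllStmt := by
  intro N₀ N' M q _ _ _ _ h hqp _ _ _ A hA F O ρ hS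
  exact isIntegral_OM hqp hA hS

end Fermat.Agent.S36.DimInst

end
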