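import Mathlib

/-!
# S36 / P8 — [EMB], abstract core: a second embedding of a compositum (helper49)

Fields `F₀ ⊆ L ⊆ Ω` (`L / F₀` finite, characteristic `0`), a ring hom `V : L → Ω`, an automorphism
`σ` of `L` with `σ = V` on `F₀`, and a ring endomorphism `s` of `Ω` fixing `V(F₀)` pointwise but
not `L`.  If `[L : F₀] = d + 1` and `[L · V(L) : L] = d ≥ 2`, then there is an `L`-embedding
`r : L · V(L) → Ω` with `r ∘ V = s ∘ σ`.

(Instance: `F₀ = F_M`, `L = F_{Mq}`, `Ω = Q̄((T))`, `V = (T ↦ T^q)`, `σ` the Atkin–Lehner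
involution of `F_{Mq}`, `s = (T ↦ ζ T)`, `L · V(L) = F_{Mq²}`, `d = q`.)

Proof: `y₀` a primitive element of `L / F₀`, `Q = σ(minpoly_{F₀} y₀) ∈ L[X]` of degree `d + 1` has
the roots `V y₀`, `σ y₀ ∈ L` and `s (σ y₀)`; `P = minpoly_L (V y₀)` is irreducible of degree `d`,
so `Q = (X - σ y₀) P`; and `s (σ y₀) ≠ σ y₀` because otherwise `s` would fix `L = σ(F₀(y₀))`.
-/

set_option autoImplicit false

namespace Fermat.Agent.S36.EmbAbs

open Polynomial IntermediateField

variable {F₀ L Ω : Type*} [Field F₀] [Field L] [Field Ω] [Algebra F₀ L] [Algebra L Ω]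

/-- A subfield of `L` containing `F₀` and a primitive element is everything. -/
theorem mem_of_primitive {y₀ : L} (hy₀ : F₀⟮y₀⟯ = ⊤) (S : Subfield L)
    (hF : ∀ h : F₀, algebraMap F₀ L h ∈ S) (hy : y₀ ∈ S) (x : L) : x ∈ S := by
  let E : IntermediateField F₀ L := { S with algebraMap_mem' := hF }
  have hle : F₀⟮y₀⟯ ≤ E := adjoin_simple_le_iff.mpr hy
  have hx : x ∈ F₀⟮y₀⟯ := by rw [hy₀]; exact mem_top
  exact hle hx

variable [FiniteDimensional F₀ L] [CharZero F₀]

/-- **The second embedding.** -/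
theorem exists_second_embedding (V : L →+* Ω) (σ : L →+* L) (s : Ω →+* Ω)
    (hσ : Function.Surjective σ)
    (hσV : ∀ h : F₀, algebraMap L Ω (σ (algebraMap F₀ L h)) = V (algebraMap F₀ L h))
    (hsV : ∀ h : F₀, s (V (algebraMap F₀ L h)) = V (algebraMap F₀ L h))
    (hs : ∃ x : L, s (algebraMap L Ω x) ≠ algebraMap L Ω x)
    (d : ℕ) (hd : 2 ≤ d) (hdeg₁ : Module.finrank F₀ L = d + 1)
    (hdeg₂ : Module.finrank L (IntermediateField.adjoin L (Set.range V)) = d) :
    ∃ r : (IntermediateField.adjoin L (Set.range V)) →ₐ[L] Ω,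
      ∀ (x : L) (hx : V x ∈ IntermediateField.adjoin L (Set.range V)),
        r ⟨V x, hx⟩ = s (algebraMap L Ω (σ x)) := by
  classical
  -- a primitive element
  obtain ⟨y₀, hy₀⟩ := Field.exists_primitive_element F₀ L
  have hint₀ : IsIntegral F₀ y₀ := IsIntegral.of_finite F₀ y₀
  set Q₀ : F₀[X] := minpoly F₀ y₀ with hQ₀
  have hQ₀monic : Q₀.Monic := minpoly.monic hint₀
  have hQ₀deg : Q₀.natDegree = d + 1 := by
    rw [← hdeg₁, ← IntermediateField.adjoin.finrank hint₀, hy₀, IntermediateField.finrank_top']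
  -- `Q = σ(Q₀)`
  set φ : F₀ →+* L := σ.comp (algebraMap F₀ L) with hφ
  set Q : L[X] := Q₀.map φ with hQ
  have hQmonic : Q.Monic := hQ₀monic.map φ
  have hQdeg : Q.natDegree = d + 1 := by rw [hQ, hQ₀monic.natDegree_map, hQ₀deg]
  have hcomp : (algebraMap L Ω).comp φ = V.comp (algebraMap F₀ L) := by
    ext h
    exact hσV h
  have hscomp : s.comp ((algebraMap L Ω).comp φ) = (algebraMap L Ω).comp φ := by
    ext h
    rw [hcomp]
    exact hsV h
  set a : L := σ y₀ with ha
  set y : Ω := V y₀ with hy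
  set ys : Ω := s (algebraMap L Ω a) with hys
  -- the three roots
  have hQy : aeval y Q = 0 := by
    rw [aeval_def, hQ, eval₂_map, hcomp, hy, ← hom_eval₂, ← aeval_def, hQ₀, minpoly.aeval,
      map_zero]
  have hQa : Q.eval a = 0 := by
    rw [hQ, eval_map, hφ, ha, ← hom_eval₂, ← aeval_def, hQ₀, minpoly.aeval, map_zero]
  have hQys : aeval ys Q = 0 := by
    have h1 : eval₂ ((algebraMap L Ω).comp φ) (algebraMap L Ω a) Q₀ = 0 := by
      rw [← hom_eval₂, ← eval_map, ← hQ, hQa, map_zero]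
    rw [aeval_def, hQ, eval₂_map, ← hscomp, hys, ← hom_eval₂, h1, map_zero]
  -- the minimal polynomial of `y` over `L`
  have hint : IsIntegral L y := ⟨Q, hQmonic, hQy⟩
  set P : L[X] := minpoly L y with hP
  have hPmonic : P.Monic := minpoly.monic hint
  have hPirr : Irreducible P := minpoly.irreducible hint
  have hPdvd : P ∣ Q := minpoly.dvd L y hQy
  -- `L(y) = L · V(L)`
  have hVmem : ∀ x : L, V x ∈ L⟮y⟯ := by
    intro x
    have := mem_of_primitive hy₀ (L⟮y⟯.toSubfield.comap V)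
      (fun h => by
        show V (algebraMap F₀ L h) ∈ L⟮y⟯
        rw [← hσV h]
        exact L⟮y⟯.algebraMap_mem _)
      (show V y₀ ∈ L⟮y⟯ from mem_adjoin_simple_self L y) x
    exact this
  have heq : L⟮y⟯ = IntermediateField.adjoin L (Set.range V) := by
    apply le_antisymm
    · exact IntermediateField.adjoin.mono L _ _ (Set.singleton_subset_iff.mpr ⟨y₀, rfl⟩)
    · rw [IntermediateField.adjoin_le_iff]
      rintro _ ⟨x, rfl⟩
      exact hVmem x
  have hPdeg : P.natDegree = d := by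
    rw [← hdeg₂, ← heq, IntermediateField.adjoin.finrank hint]
  -- `Q = (X - a) P`
  have hroot : (X - C a) ∣ Q := dvd_iff_isRoot.mpr hQa
  obtain ⟨G, hG⟩ := hroot
  have hGmonic : G.Monic := by
    have h1 : ((X - C a) * G).Monic := hG ▸ hQmonic
    exact (monic_X_sub_C a).of_mul_monic_left h1
  have hGdeg : G.natDegree = d := by
    have h1 := congrArg natDegree hG
    rw [(monic_X_sub_C a).natDegree_mul hGmonic, natDegree_X_sub_C, hQdeg] at h1
    omega
  have hPG : G = P := by
    have hdvd : P ∣ (X - C a) * G := hG ▸ hPdvd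
    rcases hPirr.prime.dvd_or_dvd hdvd with h1 | h1
    · exfalso
      have := natDegree_le_of_dvd h1 (X_sub_C_ne_zero a)
      rw [natDegree_X_sub_C, hPdeg] at this
      omega
    · exact eq_of_monic_of_dvd_of_natDegree_le hPmonic hGmonic h1 (by rw [hGdeg, hPdeg])
  -- `s (σ y₀) ≠ σ y₀`
  have hne : ys ≠ algebraMap L Ω a := by
    intro hfix
    obtain ⟨x, hx⟩ := hs
    apply hx
    obtain ⟨x', rfl⟩ := hσ x
    have := mem_of_primitive hy₀
      (RingHom.eqLocusField (s.comp ((algebraMap L Ω).comp σ)) ((algebraMap L Ω).comp σ))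
      (fun h => by
        show s (algebraMap L Ω (σ (algebraMap F₀ L h))) = algebraMap L Ω (σ (algebraMap F₀ L h))
        rw [hσV h]
        exact hsV h)
      (show s (algebraMap L Ω (σ y₀)) = algebraMap L Ω (σ y₀) from hfix) x'
    exact this
  have hPys : aeval ys P = 0 := by
    have h1 : aeval ys ((X - C a) * G) = 0 := hG ▸ hQys
    rw [map_mul, map_sub, aeval_X, aeval_C, hPG] at h1
    rcases mul_eq_zero.mp h1 with h2 | h2
    · exact absurd (sub_eq_zero.mp h2) hne
    · exact h2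
  -- the lift
  set pb : PowerBasis L L⟮y⟯ := IntermediateField.adjoin.powerBasis hint with hpb
  have hgen : pb.gen = AdjoinSimple.gen L y := IntermediateField.adjoin.powerBasis_gen hint
  have hmin : minpoly L pb.gen = P := by
    rw [hgen]
    exact IntermediateField.minpoly_gen L y
  set r₀ : L⟮y⟯ →ₐ[L] Ω := pb.lift ys (by rw [hmin]; exact hPys) with hr₀
  have hr₀gen : r₀ (AdjoinSimple.gen L y) = ys := by
    rw [← hgen]
    exact pb.lift_gen ys _
  -- `r₀ ∘ V = s ∘ σ`
  set V' : L →+* L⟮y⟯ := V.codRestrict L⟮y⟯.toSubring hVmem with hV'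
  have hkey : ∀ x : L, r₀ (V' x) = s (algebraMap L Ω (σ x)) := by
    intro x
    have := mem_of_primitive hy₀
      (RingHom.eqLocusField ((r₀ : L⟮y⟯ →+* Ω).comp V') (s.comp ((algebraMap L Ω).comp σ)))
      (fun h => by
        show r₀ (V' (algebraMap F₀ L h)) = s (algebraMap L Ω (σ (algebraMap F₀ L h)))
        have e1 : V' (algebraMap F₀ L h) = algebraMap L L⟮y⟯ (σ (algebraMap F₀ L h)) :=
          Subtype.ext (hσV h).symm
        rw [e1, AlgHom.commutes, hσV h, hsV h])
      (show r₀ (V' y₀) = s (algebraMap L Ω (σ y₀)) by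
        have e1 : V' y₀ = AdjoinSimple.gen L y := Subtype.ext rfl
        rw [e1, hr₀gen]) x
    exact this
  refine ⟨r₀.comp (IntermediateField.equivOfEq heq.symm).toAlgHom, fun x hx => ?_⟩
  have e1 : (IntermediateField.equivOfEq heq.symm).toAlgHom ⟨V x, hx⟩ = V' x := Subtype.ext rfl
  rw [AlgHom.comp_apply, e1, hkey x]

end Fermat.Agent.S36.EmbAbs
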