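import Mathlib

/-!
# Zero-free weight-one forms from the Dedekind eta function (P8 = S36, [ETA-UNIT])

* `gamma0_descent` : a property of integer matrices `(a b; c d)`, `ad - bc = 1`, `N ∣ c`
  (`N = 3` or `4`), which holds for `±T^b` and is stable under right multiplication by `T^j` and
  `U_N^m = (1 0; N m 1)`, holds for all such matrices (`Γ₀(N) = ⟨-1, T, U_N⟩`).
-/

set_option autoImplicit false

namespace Fermat.Agent.S36.EtaUnit

/-- Nearest residue: for `c ≠ 0` there is `j` with `2 |d + j c| ≤ |c|`. -/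
theorem exists_small_residue (d c : ℤ) (hc : c ≠ 0) : ∃ j : ℤ, 2 * |d + j * c| ≤ |c| := by
  have h1 := Int.emod_nonneg d hc
  have h2 := Int.emod_lt_abs d hc
  have h3 := Int.emod_add_mul_ediv d c
  by_cases h : 2 * (d % c) ≤ |c|
  · refine ⟨-(d / c), ?_⟩
    have e : d + -(d / c) * c = d % c := by linarith
    rw [e, abs_of_nonneg h1]; exact h
  · rcases lt_or_gt_of_ne hc with hc' | hc'
    · refine ⟨-(d / c) + 1, ?_⟩
      have e : d + (-(d / c) + 1) * c = d % c + c := by linarith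
      rw [e]
      rw [abs_of_neg hc'] at h h2 ⊢
      rw [abs_of_nonpos (by linarith)]
      linarith
    · refine ⟨-(d / c) - 1, ?_⟩
      have e : d + (-(d / c) - 1) * c = d % c - c := by linarith
      rw [e]
      rw [abs_of_pos hc'] at h h2 ⊢
      rw [abs_of_nonpos (by linarith)]
      linarith

/-- Descent on `Γ₀(N)` for `N ∈ {3, 4}`: `Γ₀(N)` is generated by `-1`, `T` and `U_N`. -/
theorem gamma0_descent (N : ℤ) (hN : N = 3 ∨ N = 4) (P : ℤ → ℤ → ℤ → ℤ → Prop)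
    (h1 : ∀ b, P 1 b 0 1) (hneg : ∀ b, P (-1) b 0 (-1))
    (hT : ∀ a b c d j, a * d - b * c = 1 → N ∣ c → P a b c d → P a (b + j * a) c (d + j * c))
    (hU : ∀ a b c d m, a * d - b * c = 1 → N ∣ c → P a b c d →
      P (a + N * m * b) b (c + N * m * d) d) :
    ∀ a b c d : ℤ, a * d - b * c = 1 → N ∣ c → P a b c d := by
  intro a b c d
  induction' hn : c.natAbs using Nat.strong_induction_on with n ih generalizing a b c d
  intro hdet hNc
  by_cases hc : c = 0
  · subst hc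
    have had : a * d = 1 := by linarith
    rcases Int.eq_one_or_neg_one_of_mul_eq_one' had with ⟨rfl, rfl⟩ | ⟨rfl, rfl⟩
    · exact h1 b
    · exact hneg b
  · obtain ⟨j, hj⟩ := exists_small_residue d c hc
    obtain ⟨c₁, rfl⟩ := hNc
    have hN0 : N ≠ 0 := by rcases hN with rfl | rfl <;> norm_num
    have hc₁ : c₁ ≠ 0 := fun h => hc (by rw [h, mul_zero])
    -- new bottom-right entry
    have hdet' : a * (d + j * (N * c₁)) - (b + j * a) * (N * c₁) = 1 := by linarith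
    have hd'0 : d + j * (N * c₁) ≠ 0 := by
      intro h0
      rw [h0, mul_zero] at hdet'
      have : N ∣ 1 := ⟨-(b + j * a) * c₁, by linarith⟩
      rcases hN with rfl | rfl <;> omega
    obtain ⟨m, hm⟩ := exists_small_residue (N * c₁) (N * (d + j * (N * c₁)))
      (mul_ne_zero hN0 hd'0)
    have key := ih (N * c₁ + m * (N * (d + j * (N * c₁)))).natAbs ?_
      (a + N * m * (b + j * a)) (b + j * a) (N * c₁ + N * m * (d + j * (N * c₁)))
      (d + j * (N * c₁)) (by ring_nf) (by linarith) ⟨c₁ + m * (d + j * (N * c₁)), by ring⟩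
    · have h2 := hU _ _ _ _ (-m) (by linarith) ⟨c₁ + m * (d + j * (N * c₁)), by ring⟩ key
      have h3 := hT _ _ _ _ (-j) (by linarith) ⟨c₁, by ring⟩ h2
      convert h3 using 1 <;> ring
    · -- the descent inequality
      rw [← hn]
      have hC : (0 : ℤ) < |N * c₁| := abs_pos.mpr hc
      rw [abs_mul N (d + j * (N * c₁))] at hm
      zify
      rcases hN with rfl | rfl
      · rw [abs_of_pos (by norm_num : (0 : ℤ) < 3)] at hm
        linarith
      · rw [abs_of_pos (by norm_num : (0 : ℤ) < 4)] at hm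
        have hne : 2 * |d + j * (4 * c₁)| ≠ |4 * c₁| := by
          intro he
          have he' : |d + j * (4 * c₁)| = |2 * c₁| := by
            rw [abs_mul] at he ⊢
            rw [abs_of_pos (by norm_num : (0 : ℤ) < 4)] at he
            rw [abs_of_pos (by norm_num : (0 : ℤ) < 2)]
            linarith
          rcases abs_eq_abs.mp he' with h | h
          · rw [h] at hdet'
            have h' : 2 * (a * c₁) - 4 * ((b + j * a) * c₁) = 1 := by linarith
            omega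
          · rw [h] at hdet'
            have h' : -2 * (a * c₁) - 4 * ((b + j * a) * c₁) = 1 := by linarith
            omega
        have hlt : 2 * |d + j * (4 * c₁)| < |4 * c₁| := lt_of_le_of_ne hj hne
        linarith

/-! ## Möbius transformations with integer entries on `Im z > 0` -/

open Complex
open scoped Real

local notation "η" => ModularForm.eta

theorem denom_ne_zero {c d : ℤ} (h : c ≠ 0 ∨ d ≠ 0) {z : ℂ} (hz : 0 < z.im) :
    (c : ℂ) * z + d ≠ 0 := by
  intro h0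
  have him := congrArg Complex.im h0
  have hre := congrArg Complex.re h0
  simp at him hre
  rcases him with hc | hzz
  · rcases h with h | h
    · exact h hc
    · rw [hc] at hre; simp at hre; exact h hre
  · exact hz.ne' hzz

theorem im_moebius {a b c d : ℤ} (hdet : a * d - b * c = 1) {z : ℂ} (hz : 0 < z.im) :
    0 < (((a : ℂ) * z + b) / ((c : ℂ) * z + d)).im := by
  have hcd : c ≠ 0 ∨ d ≠ 0 := by
    by_contra hcon
    obtain ⟨h1, h2⟩ := not_or.mp hcon
    rw [not_not] at h1 h2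
    rw [h1, h2] at hdet
    simp at hdet
  have hne := denom_ne_zero hcd hz
  have hpos : 0 < Complex.normSq ((c : ℂ) * z + d) := Complex.normSq_pos.mpr hne
  rw [Complex.div_im]
  have hdetR : (a : ℝ) * d - b * c = 1 := by exact_mod_cast hdet
  have e : ((a : ℂ) * z + b).im * ((c : ℂ) * z + d).re / Complex.normSq ((c : ℂ) * z + d) -
      ((a : ℂ) * z + b).re * ((c : ℂ) * z + d).im / Complex.normSq ((c : ℂ) * z + d) =
      z.im / Complex.normSq ((c : ℂ) * z + d) := by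
    rw [← sub_div]
    congr 1
    simp
    linear_combination z.im * hdetR
  rw [e]
  exact div_pos hz hpos

theorem denom_U (c d n : ℤ) {z : ℂ} (hden : (n : ℂ) * z + 1 ≠ 0) :
    (c : ℂ) * (z / ((n : ℂ) * z + 1)) + d =
      (((c + n * d : ℤ) : ℂ) * z + d) / ((n : ℂ) * z + 1) := by
  rw [eq_div_iff hden, add_mul, mul_assoc, div_mul_cancel₀ z hden]
  push_cast
  ring

theorem moebius_U (a b c d n : ℤ) {z : ℂ} (hden : (n : ℂ) * z + 1 ≠ 0) :
    (((a + n * b : ℤ) : ℂ) * z + b) / (((c + n * d : ℤ) : ℂ) * z + d) =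
      ((a : ℂ) * (z / ((n : ℂ) * z + 1)) + b) / ((c : ℂ) * (z / ((n : ℂ) * z + 1)) + d) := by
  rw [denom_U a b n hden, denom_U c d n hden, div_div_div_cancel_right₀ hden]

theorem denom_U_ne_zero (n : ℤ) {z : ℂ} (hz : 0 < z.im) : (n : ℂ) * z + 1 ≠ 0 := by
  have h := denom_ne_zero (c := n) (d := 1) (Or.inr one_ne_zero) hz
  push_cast at h
  exact h

theorem im_U (n : ℤ) {z : ℂ} (hz : 0 < z.im) : 0 < (z / ((n : ℂ) * z + 1)).im := by
  have h := im_moebius (a := 1) (b := 0) (c := n) (d := 1) (by ring) hz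
  push_cast at h
  simpa using h

/-! ## The two generators acting on `η` -/

theorem eta_add_int (z : ℂ) (k : ℤ) : η (z + k) = cexp (2 * π * I * k / 24) * η z := by
  unfold ModularForm.eta
  have h1 : Function.Periodic.qParam 24 (z + k) =
      cexp (2 * π * I * k / 24) * Function.Periodic.qParam 24 z := by
    simp only [Function.Periodic.qParam]
    rw [← Complex.exp_add]
    congr 1
    push_cast
    ring
  have h2 : ∀ n, ModularForm.eta_q n (z + k) = ModularForm.eta_q n z := by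
    intro n
    simp only [ModularForm.eta_q, Function.Periodic.qParam]
    congr 1
    rw [Complex.exp_eq_exp_iff_exists_int]
    exact ⟨k, by push_cast; ring⟩
  rw [h1]
  simp only [h2]
  ring

theorem eta_S {w : ℂ} (hw : 0 < w.im) :
    η (-1 / w) = (Complex.sqrt I)⁻¹ * (Complex.sqrt w * η w) := by
  have h := ModularForm.eta_comp_eq_csqrt_I_inv (show w ∈ UpperHalfPlane.upperHalfPlaneSet from hw)
  simpa using h

theorem sqrt_sq' (a : ℂ) : Complex.sqrt a ^ 2 = a := by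
  simp [Complex.sqrt]

theorem eta_sq_S {w : ℂ} (hw : 0 < w.im) : η (-1 / w) ^ 2 = -I * w * η w ^ 2 := by
  rw [eta_S hw, mul_pow, mul_pow, inv_pow, sqrt_sq', sqrt_sq', Complex.inv_I]
  ring

theorem eta_ne_zero' {z : ℂ} (hz : 0 < z.im) : η z ≠ 0 :=
  ModularForm.eta_ne_zero (show z ∈ UpperHalfPlane.upperHalfPlaneSet from hz)

/-! ## `φ₄ = η(2z)^10 / (η(z)^4 η(4z)^4)` (`= θ²`), weight one on `Γ₀(4)` with character `χ₋₄` -/

/-- `η(2z)^10 / (η(z)^4 η(4z)^4)`, i.e. the square of the Jacobi theta function. -/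
noncomputable def phi4 (z : ℂ) : ℂ := η (2 * z) ^ 10 / (η z ^ 4 * η (4 * z) ^ 4)

theorem im_two_mul {z : ℂ} (hz : 0 < z.im) : 0 < (2 * z).im := by simpa using hz
theorem im_three_mul {z : ℂ} (hz : 0 < z.im) : 0 < (3 * z).im := by simpa using hz
theorem im_four_mul {z : ℂ} (hz : 0 < z.im) : 0 < (4 * z).im := by simpa using hz

theorem ne_zero_of_im_pos {z : ℂ} (hz : 0 < z.im) : z ≠ 0 := by
  intro h; rw [h] at hz; simp at hz

theorem im_neg_one_div {w : ℂ} (hw : 0 < w.im) : 0 < (-1 / w).im := by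
  have h := im_moebius (a := 0) (b := -1) (c := 1) (d := 0) (by norm_num) hw
  simpa using h

theorem phi4_ne_zero {z : ℂ} (hz : 0 < z.im) : phi4 z ≠ 0 := by
  unfold phi4
  exact div_ne_zero (pow_ne_zero _ (eta_ne_zero' (im_two_mul hz)))
    (mul_ne_zero (pow_ne_zero _ (eta_ne_zero' hz)) (pow_ne_zero _ (eta_ne_zero' (im_four_mul hz))))

theorem phi4_add_int (z : ℂ) (k : ℤ) : phi4 (z + k) = phi4 z := by
  unfold phi4
  have e2 : 2 * (z + k) = 2 * z + ((2 * k : ℤ) : ℂ) := by push_cast; ring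
  have e4 : 4 * (z + k) = 4 * z + ((4 * k : ℤ) : ℂ) := by push_cast; ring
  rw [e2, e4, eta_add_int, eta_add_int, eta_add_int, mul_pow, mul_pow, mul_pow]
  have hE : cexp (2 * π * I * ((2 * k : ℤ) : ℂ) / 24) ^ 10 =
      cexp (2 * π * I * (k : ℂ) / 24) ^ 4 * cexp (2 * π * I * ((4 * k : ℤ) : ℂ) / 24) ^ 4 := by
    rw [← Complex.exp_nat_mul, ← Complex.exp_nat_mul, ← Complex.exp_nat_mul, ← Complex.exp_add]
    congr 1
    push_cast
    ring
  rw [hE]
  have hne : cexp (2 * π * I * (k : ℂ) / 24) ^ 4 * cexp (2 * π * I * ((4 * k : ℤ) : ℂ) / 24) ^ 4 ≠ 0 :=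
    mul_ne_zero (pow_ne_zero _ (Complex.exp_ne_zero _)) (pow_ne_zero _ (Complex.exp_ne_zero _))
  rw [show cexp (2 * π * I * (k : ℂ) / 24) ^ 4 * η z ^ 4 *
      (cexp (2 * π * I * ((4 * k : ℤ) : ℂ) / 24) ^ 4 * η (4 * z) ^ 4) =
      cexp (2 * π * I * (k : ℂ) / 24) ^ 4 * cexp (2 * π * I * ((4 * k : ℤ) : ℂ) / 24) ^ 4 *
        (η z ^ 4 * η (4 * z) ^ 4) by ring]
  exact mul_div_mul_left _ _ hne

/-- The Fricke law `φ₄(-1/(4z)) = -2iz φ₄(z)`. -/
theorem phi4_fricke {z : ℂ} (hz : 0 < z.im) : phi4 (-1 / (4 * z)) = -2 * I * z * phi4 z := by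
  have hz0 := ne_zero_of_im_pos hz
  unfold phi4
  have e2 : 2 * (-1 / (4 * z)) = -1 / (2 * z) := by field_simp; ring
  have e4 : 4 * (-1 / (4 * z)) = -1 / z := by field_simp
  have h2 := eta_sq_S (im_two_mul hz)
  have h4 := eta_sq_S (im_four_mul hz)
  have h1 := eta_sq_S hz
  have p2 : η (-1 / (2 * z)) ^ 10 = (-I * (2 * z) * η (2 * z) ^ 2) ^ 5 := by rw [← h2]; ring
  have p4 : η (-1 / (4 * z)) ^ 4 = (-I * (4 * z) * η (4 * z) ^ 2) ^ 2 := by rw [← h4]; ring
  have p1 : η (-1 / z) ^ 4 = (-I * z * η z ^ 2) ^ 2 := by rw [← h1]; ring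
  rw [e2, e4, p2, p4, p1]
  have hη1 := eta_ne_zero' hz
  have hη4 := eta_ne_zero' (im_four_mul hz)
  have hI5 : (-I) ^ 5 = -I := by
    have : (-I) ^ 5 = -(I ^ 4 * I) := by ring
    rw [this, Complex.I_pow_four, one_mul]
  have hI2 : (-I) ^ 2 = -1 := by
    rw [neg_sq, Complex.I_sq]
  rw [mul_pow, mul_pow, mul_pow, mul_pow, mul_pow, mul_pow, hI5, hI2]
  field_simp
  ring_nf
  simp only [Complex.I_sq]
  ring

/-- The law for `U₄^m = (1 0; 4m 1)`. -/
theorem phi4_U {z : ℂ} (hz : 0 < z.im) (m : ℤ) :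
    phi4 (z / (4 * m * z + 1)) = (4 * m * z + 1) * phi4 z := by
  have hz0 := ne_zero_of_im_pos hz
  have hden : (4 * (m : ℂ) * z + 1) ≠ 0 := by
    have h := denom_ne_zero (c := 4 * m) (d := 1) (Or.inr one_ne_zero) hz
    push_cast at h
    exact h
  have hW : 0 < (-1 / (4 * z)).im := im_neg_one_div (im_four_mul hz)
  have hy : 0 < (-1 / (4 * z) + ((-m : ℤ) : ℂ)).im := by
    simpa using hW
  have e : z / (4 * m * z + 1) = -1 / (4 * (-1 / (4 * z) + ((-m : ℤ) : ℂ))) := by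
    have h4 : (4 : ℂ) * (-1 / (4 * z) + ((-m : ℤ) : ℂ)) = -(4 * m * z + 1) / z := by
      push_cast
      field_simp
      ring
    rw [h4, div_div_eq_mul_div]
    field_simp
  rw [e, phi4_fricke hy, phi4_add_int, phi4_fricke hz]
  push_cast
  field_simp
  ring_nf
  simp only [Complex.I_sq]
  ring

/-- The quadratic character modulo `4`, as a complex number. -/
noncomputable def chi4 (d : ℤ) : ℂ := if d % 4 = 1 then 1 else if d % 4 = 3 then -1 else 0

theorem chi4_add_mul (d j c : ℤ) (hc : (4 : ℤ) ∣ c) : chi4 (d + j * c) = chi4 d := by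
  obtain ⟨c₁, rfl⟩ := hc
  unfold chi4
  have : (d + j * (4 * c₁)) % 4 = d % 4 := by
    rw [show j * (4 * c₁) = (j * c₁) * 4 by ring, Int.add_mul_emod_self_right]
  rw [this]

/-- **`φ₄` is a weight-one form on `Γ₀(4)` with character `χ₋₄`.** -/
theorem phi4_smul (a b c d : ℤ) (hdet : a * d - b * c = 1) (hc : (4 : ℤ) ∣ c) {z : ℂ}
    (hz : 0 < z.im) :
    phi4 (((a : ℂ) * z + b) / ((c : ℂ) * z + d)) = chi4 d * ((c : ℂ) * z + d) * phi4 z := by
  revert z
  refine gamma0_descent 4 (Or.inr rfl)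
    (fun a b c d => ∀ {z : ℂ}, 0 < z.im →
      phi4 (((a : ℂ) * z + b) / ((c : ℂ) * z + d)) = chi4 d * ((c : ℂ) * z + d) * phi4 z)
    ?_ ?_ ?_ ?_ a b c d hdet hc
  · intro b z hz
    have : chi4 1 = 1 := by simp [chi4]
    rw [this]
    have e : (((1 : ℤ) : ℂ) * z + b) / (((0 : ℤ) : ℂ) * z + ((1 : ℤ) : ℂ)) = z + b := by simp
    rw [e, phi4_add_int]
    simp
  · intro b z hz
    have : chi4 (-1) = -1 := by simp [chi4]
    rw [this]
    have e : (((-1 : ℤ) : ℂ) * z + b) / (((0 : ℤ) : ℂ) * z + ((-1 : ℤ) : ℂ)) =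
        z + ((-b : ℤ) : ℂ) := by
      push_cast
      field_simp
      ring
    rw [e, phi4_add_int]
    simp
  · intro a b c d j _ hc4 h z hz
    have hzj : 0 < (z + (j : ℂ)).im := by simpa using hz
    have e : ((a : ℂ) * z + ((b + j * a : ℤ) : ℂ)) / ((c : ℂ) * z + ((d + j * c : ℤ) : ℂ)) =
        ((a : ℂ) * (z + j) + b) / ((c : ℂ) * (z + j) + d) := by
      push_cast
      congr 1 <;> ring
    rw [e, h hzj, phi4_add_int, chi4_add_mul d j c hc4]
    push_cast
    ring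
  · intro a b c d m hdet' hc4 h z hz
    have hden := denom_U_ne_zero (4 * m) hz
    have hz' := im_U (4 * m) hz
    have e := moebius_U a b c d (4 * m) hden
    have hU := phi4_U hz m
    have e4 : (4 : ℂ) * m * z + 1 = ((4 * m : ℤ) : ℂ) * z + 1 := by push_cast; ring
    rw [e4] at hU
    rw [e, h hz', hU, denom_U c d (4 * m) hden]
    rw [show chi4 d * ((((c + 4 * m * d : ℤ) : ℂ) * z + d) / (((4 * m : ℤ) : ℂ) * z + 1)) *
        ((((4 * m : ℤ) : ℂ) * z + 1) * phi4 z) =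
        chi4 d * (((c + 4 * m * d : ℤ) : ℂ) * z + d) * phi4 z *
          ((((4 * m : ℤ) : ℂ) * z + 1) / (((4 * m : ℤ) : ℂ) * z + 1)) by ring,
      div_self hden, mul_one]

/-! ## `b₃ = η(z)^3 / η(3z)`, weight one on `Γ₀(9)` with character `χ₋₃` -/

/-- Borwein's `b(z) = η(z)^3 / η(3z)`. -/
noncomputable def b3 (z : ℂ) : ℂ := η z ^ 3 / η (3 * z)

/-- The Fricke partner `η(3z)^3 / η(z)` of `b₃`. -/
noncomputable def c3 (z : ℂ) : ℂ := η (3 * z) ^ 3 / η z

/-- `e₃(n) = exp(2πi n / 3)`. -/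
noncomputable def e3 (n : ℤ) : ℂ := cexp (2 * π * I * n / 3)

theorem e3_zero : e3 0 = 1 := by simp [e3]

theorem e3_add (m n : ℤ) : e3 (m + n) = e3 m * e3 n := by
  unfold e3
  rw [← Complex.exp_add]
  congr 1
  push_cast
  ring

theorem e3_three_mul (k : ℤ) : e3 (3 * k) = 1 := by
  unfold e3
  rw [show 2 * π * I * ((3 * k : ℤ) : ℂ) / 3 = k * (2 * π * I) by push_cast; ring]
  exact Complex.exp_int_mul_two_pi_mul_I k

theorem e3_congr {m n : ℤ} (h : (3 : ℤ) ∣ m - n) : e3 m = e3 n := by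
  obtain ⟨k, hk⟩ := h
  have : m = n + 3 * k := by linarith
  rw [this, e3_add, e3_three_mul, mul_one]

theorem b3_ne_zero {z : ℂ} (hz : 0 < z.im) : b3 z ≠ 0 := by
  unfold b3
  exact div_ne_zero (pow_ne_zero _ (eta_ne_zero' hz)) (eta_ne_zero' (im_three_mul hz))

theorem b3_add_int (z : ℂ) (k : ℤ) : b3 (z + k) = b3 z := by
  unfold b3
  have e3' : 3 * (z + k) = 3 * z + ((3 * k : ℤ) : ℂ) := by push_cast; ring
  rw [e3', eta_add_int, eta_add_int, mul_pow]
  have hE : cexp (2 * π * I * (k : ℂ) / 24) ^ 3 = cexp (2 * π * I * ((3 * k : ℤ) : ℂ) / 24) := by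
    rw [← Complex.exp_nat_mul]
    congr 1
    push_cast
    ring
  rw [hE]
  exact mul_div_mul_left _ _ (Complex.exp_ne_zero _)

theorem c3_add_int (z : ℂ) (k : ℤ) : c3 (z + k) = e3 k * c3 z := by
  unfold c3
  have e3' : 3 * (z + k) = 3 * z + ((3 * k : ℤ) : ℂ) := by push_cast; ring
  rw [e3', eta_add_int, eta_add_int, mul_pow]
  have hE : cexp (2 * π * I * ((3 * k : ℤ) : ℂ) / 24) ^ 3 =
      e3 k * cexp (2 * π * I * (k : ℂ) / 24) := by
    unfold e3
    rw [← Complex.exp_nat_mul, ← Complex.exp_add]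
    congr 1
    push_cast
    ring
  rw [hE, mul_assoc, mul_div_assoc, mul_div_mul_left _ _ (Complex.exp_ne_zero _)]

theorem sqrt_three_mul {w : ℂ} (hw : w ≠ 0) :
    Complex.sqrt (3 * w) = Complex.sqrt 3 * Complex.sqrt w := by
  unfold Complex.sqrt
  have h3 : (3 : ℂ) = ((3 : ℝ) : ℂ) := by norm_num
  have h3' : ((3 : ℝ) : ℂ) ≠ 0 := by norm_num
  rw [h3, Complex.cpow_def_of_ne_zero (mul_ne_zero h3' hw),
    Complex.log_ofReal_mul (by norm_num) hw, Complex.cpow_def_of_ne_zero h3',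
    Complex.cpow_def_of_ne_zero hw, ← Complex.exp_add, Complex.ofReal_log (by norm_num)]
  congr 1
  ring

theorem sqrt_ne_zero' {a : ℂ} (ha : a ≠ 0) : Complex.sqrt a ≠ 0 := by
  intro h
  have := sqrt_sq' a
  rw [h] at this
  exact ha (by simpa using this.symm)

/-- Fricke law for `b₃`. -/
theorem b3_fricke {y : ℂ} (hy : 0 < y.im) :
    b3 (-1 / (3 * y)) = -I * (3 * Complex.sqrt 3) * y * c3 y := by
  have hy0 := ne_zero_of_im_pos hy
  unfold b3 c3
  have e : 3 * (-1 / (3 * y)) = -1 / y := by field_simp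
  rw [e, eta_S (im_three_mul hy), eta_S hy, sqrt_three_mul hy0]
  have hsI : Complex.sqrt I ≠ 0 := sqrt_ne_zero' Complex.I_ne_zero
  have hsy : Complex.sqrt y ≠ 0 := sqrt_ne_zero' hy0
  have hη := eta_ne_zero' hy
  have key : ((Complex.sqrt I)⁻¹ * (Complex.sqrt 3 * Complex.sqrt y * η (3 * y))) ^ 3 /
      ((Complex.sqrt I)⁻¹ * (Complex.sqrt y * η y)) =
      (Complex.sqrt I ^ 2)⁻¹ * (Complex.sqrt 3 ^ 2 * Complex.sqrt 3) * Complex.sqrt y ^ 2 *
        (η (3 * y) ^ 3 / η y) := by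
    field_simp
  rw [key, sqrt_sq', sqrt_sq', sqrt_sq', Complex.inv_I]

/-- Fricke law for `c₃`. -/
theorem c3_fricke {z : ℂ} (hz : 0 < z.im) :
    c3 (-1 / (3 * z)) = -I * z / Complex.sqrt 3 * b3 z := by
  have hz0 := ne_zero_of_im_pos hz
  unfold b3 c3
  have e : 3 * (-1 / (3 * z)) = -1 / z := by field_simp
  rw [e, eta_S (im_three_mul hz), eta_S hz, sqrt_three_mul hz0]
  have hsI : Complex.sqrt I ≠ 0 := sqrt_ne_zero' Complex.I_ne_zero
  have hsz : Complex.sqrt z ≠ 0 := sqrt_ne_zero' hz0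
  have hs3 : Complex.sqrt 3 ≠ 0 := sqrt_ne_zero' (by norm_num)
  have hη := eta_ne_zero' (im_three_mul hz)
  have key : ((Complex.sqrt I)⁻¹ * (Complex.sqrt z * η z)) ^ 3 /
      ((Complex.sqrt I)⁻¹ * (Complex.sqrt 3 * Complex.sqrt z * η (3 * z))) =
      (Complex.sqrt I ^ 2)⁻¹ * Complex.sqrt z ^ 2 / Complex.sqrt 3 * (η z ^ 3 / η (3 * z)) := by
    field_simp
  rw [key, sqrt_sq', sqrt_sq', Complex.inv_I]

/-- The law for `U₃^m = (1 0; 3m 1)`: a cube root of unity appears. -/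
theorem b3_U {z : ℂ} (hz : 0 < z.im) (m : ℤ) :
    b3 (z / (((3 * m : ℤ) : ℂ) * z + 1)) = e3 (-m) * (((3 * m : ℤ) : ℂ) * z + 1) * b3 z := by
  have hz0 := ne_zero_of_im_pos hz
  have hden : (3 * (m : ℂ) * z + 1) ≠ 0 := by
    have h := denom_U_ne_zero (3 * m) hz
    push_cast at h
    exact h
  have hW : 0 < (-1 / (3 * z)).im := im_neg_one_div (im_three_mul hz)
  have hy : 0 < (-1 / (3 * z) + ((-m : ℤ) : ℂ)).im := by
    simpa using hW
  have hs3 : Complex.sqrt 3 ≠ 0 := sqrt_ne_zero' (by norm_num)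
  have e : z / (((3 * m : ℤ) : ℂ) * z + 1) = -1 / (3 * (-1 / (3 * z) + ((-m : ℤ) : ℂ))) := by
    have h3 : (3 : ℂ) * (-1 / (3 * z) + ((-m : ℤ) : ℂ)) = -(3 * m * z + 1) / z := by
      push_cast
      field_simp
      ring
    rw [h3, div_div_eq_mul_div]
    push_cast
    field_simp
  rw [e, b3_fricke hy, c3_add_int, c3_fricke hz]
  push_cast
  field_simp
  ring_nf
  simp only [Complex.I_sq]
  ring

/-- The quadratic character modulo `3`, as a complex number. -/
noncomputable def chi3 (d : ℤ) : ℂ := if d % 3 = 1 then 1 else if d % 3 = 2 then -1 else 0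

theorem chi3_add_mul (d j c : ℤ) (hc : (3 : ℤ) ∣ c) : chi3 (d + j * c) = chi3 d := by
  obtain ⟨c₁, rfl⟩ := hc
  unfold chi3
  have : (d + j * (3 * c₁)) % 3 = d % 3 := by
    rw [show j * (3 * c₁) = (j * c₁) * 3 by ring, Int.add_mul_emod_self_right]
  rw [this]

/-- `b₃` on `Γ₀(3)`: weight one with the multiplier `χ₋₃(d) e₃(-(c/3) d)`. -/
theorem b3_smul_gamma0_three (a b c d : ℤ) (hdet : a * d - b * c = 1) (hc : (3 : ℤ) ∣ c) {z : ℂ}
    (hz : 0 < z.im) :
    b3 (((a : ℂ) * z + b) / ((c : ℂ) * z + d)) =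
      chi3 d * e3 (-(c / 3) * d) * ((c : ℂ) * z + d) * b3 z := by
  revert z
  refine gamma0_descent 3 (Or.inl rfl)
    (fun a b c d => ∀ {z : ℂ}, 0 < z.im →
      b3 (((a : ℂ) * z + b) / ((c : ℂ) * z + d)) =
        chi3 d * e3 (-(c / 3) * d) * ((c : ℂ) * z + d) * b3 z)
    ?_ ?_ ?_ ?_ a b c d hdet hc
  · intro b z hz
    have h1 : chi3 1 = 1 := by simp [chi3]
    have h2 : e3 (-(0 / 3) * 1) = 1 := by simp [e3_zero]
    rw [h1, h2]
    have e : (((1 : ℤ) : ℂ) * z + b) / (((0 : ℤ) : ℂ) * z + ((1 : ℤ) : ℂ)) = z + b := by simp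
    rw [e, b3_add_int]
    simp
  · intro b z hz
    have h1 : chi3 (-1) = -1 := by simp [chi3]
    have h2 : e3 (-(0 / 3) * (-1)) = 1 := by simp [e3_zero]
    rw [h1, h2]
    have e : (((-1 : ℤ) : ℂ) * z + b) / (((0 : ℤ) : ℂ) * z + ((-1 : ℤ) : ℂ)) =
        z + ((-b : ℤ) : ℂ) := by
      push_cast
      field_simp
      ring
    rw [e, b3_add_int]
    simp
  · intro a b c d j _ hc3 h z hz
    have hzj : 0 < (z + (j : ℂ)).im := by simpa using hz
    have e : ((a : ℂ) * z + ((b + j * a : ℤ) : ℂ)) / ((c : ℂ) * z + ((d + j * c : ℤ) : ℂ)) =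
        ((a : ℂ) * (z + j) + b) / ((c : ℂ) * (z + j) + d) := by
      push_cast
      congr 1 <;> ring
    have he : e3 (-(c / 3) * (d + j * c)) = e3 (-(c / 3) * d) := by
      apply e3_congr
      obtain ⟨c₁, rfl⟩ := hc3
      rw [Int.mul_ediv_cancel_left _ (by norm_num : (3 : ℤ) ≠ 0)]
      exact ⟨-(c₁ * j * c₁), by ring⟩
    rw [e, h hzj, b3_add_int, chi3_add_mul d j c hc3, he]
    push_cast
    ring
  · intro a b c d m hdet' hc3 h z hz
    have hden := denom_U_ne_zero (3 * m) hz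
    have hz' := im_U (3 * m) hz
    have e := moebius_U a b c d (3 * m) hden
    have he : e3 (-((c + 3 * m * d) / 3) * d) = e3 (-(c / 3) * d) * e3 (-m) := by
      rw [← e3_add]
      apply e3_congr
      obtain ⟨c₁, rfl⟩ := hc3
      rw [show 3 * c₁ + 3 * m * d = 3 * (c₁ + m * d) by ring,
        Int.mul_ediv_cancel_left _ (by norm_num : (3 : ℤ) ≠ 0),
        Int.mul_ediv_cancel_left _ (by norm_num : (3 : ℤ) ≠ 0)]
      have hd : d % 3 = 1 ∨ d % 3 = 2 := by
        have h0 : d % 3 ≠ 0 := by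
          intro h0
          obtain ⟨d₁, rfl⟩ := Int.dvd_of_emod_eq_zero h0
          have h' : 3 * (a * d₁) - 3 * (b * c₁) = 1 := by linarith
          omega
        omega
      have hdd : (3 : ℤ) ∣ (d - 1) * (d + 1) := by
        rcases hd with hd | hd
        · exact Dvd.dvd.mul_right (by omega) _
        · exact Dvd.dvd.mul_left (by omega) _
      obtain ⟨t, ht⟩ := hdd
      exact ⟨-(m * t), by linear_combination (-m) * ht⟩
    rw [e, h hz', b3_U hz, denom_U c d (3 * m) hden, he]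
    rw [show chi3 d * e3 (-(c / 3) * d) *
        ((((c + 3 * m * d : ℤ) : ℂ) * z + d) / (((3 * m : ℤ) : ℂ) * z + 1)) *
        (e3 (-m) * (((3 * m : ℤ) : ℂ) * z + 1) * b3 z) =
        chi3 d * (e3 (-(c / 3) * d) * e3 (-m)) * (((c + 3 * m * d : ℤ) : ℂ) * z + d) * b3 z *
          ((((3 * m : ℤ) : ℂ) * z + 1) / (((3 * m : ℤ) : ℂ) * z + 1)) by ring,
      div_self hden, mul_one]

/-- **`b₃` is a weight-one form on `Γ₀(9)` with character `χ₋₃`.** -/
theorem b3_smul (a b c d : ℤ) (hdet : a * d - b * c = 1) (hc : (9 : ℤ) ∣ c) {z : ℂ}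
    (hz : 0 < z.im) :
    b3 (((a : ℂ) * z + b) / ((c : ℂ) * z + d)) = chi3 d * ((c : ℂ) * z + d) * b3 z := by
  obtain ⟨c₂, rfl⟩ := hc
  have h := b3_smul_gamma0_three a b (9 * c₂) d hdet ⟨3 * c₂, by ring⟩ hz
  have he : e3 (-(9 * c₂ / 3) * d) = 1 := by
    have h9 : (9 * c₂ / 3 : ℤ) = 3 * c₂ := by omega
    rw [h9, show -(3 * c₂) * d = 3 * (-(c₂ * d)) by ring, e3_three_mul]
  rw [h, he, mul_one]

end Fermat.Agent.S36.EtaUnit
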