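import Mathlib
import Fermat.Agent.S36.EtaUnit

/-!
# The modular unit `Φ(q²z)/Φ(qz)` attached to a zero-free weight-one form (P8 = S36, [ETA-UNIT])

`WtOne N0 Φ χ` : `Φ` is zero-free on `Im z > 0` and `Φ(γz) = χ(d)(cz+d)Φ(z)` for `γ ∈ Γ₀(N0)`.
Instances: `wtOne_phi4 : WtOne 4 phi4 chi4`, `wtOne_b3 : WtOne 9 b3 chi3`.

For a prime-to-`N0` integer `q > 0` and `G(z) = Φ(q²z)/Φ(qz)`, `t0(z) = Φ(z)/Φ(qz)`:
* `WtOne.G_smul`, `WtOne.t0_smul` : `Γ₀(q²N0)`- resp. `Γ₀(qN0)`-invariance;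
* `WtOne.G_W`, `WtOne.t0_W` : the Atkin–Lehner matrix `W = (q²x y; q²N0z' q²w)`:
  `G∘W = χ(q)⁻¹ q⁻¹ t0`, `t0∘W = χ(q) q G`;
* `WtOne.G_mid`, `WtOne.t0_mid` : the middle cusp `γ = (1 0; qN0 1)`:
  `G∘γ = χ(d) q⁻¹ Φ(z - b/q)/Φ(qz)` (`qd - N0 b = 1`), `t0∘γ = t0`.
-/

set_option autoImplicit false

namespace Fermat.Agent.S36.EtaUnitCusp

open Complex Fermat.Agent.S36.EtaUnit

/-- A zero-free weight-one form of level `N0` with multiplier `χ`. -/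
structure WtOne (N0 : ℤ) (Φ : ℂ → ℂ) (χ : ℤ → ℂ) : Prop where
  ne_zero : ∀ {z : ℂ}, 0 < z.im → Φ z ≠ 0
  smul : ∀ (a b c d : ℤ), a * d - b * c = 1 → N0 ∣ c → ∀ {z : ℂ}, 0 < z.im →
    Φ (((a : ℂ) * z + b) / ((c : ℂ) * z + d)) = χ d * ((c : ℂ) * z + d) * Φ z
  chi_mul : ∀ m n : ℤ, χ (m * n) = χ m * χ n
  chi_sq : ∀ d : ℤ, IsCoprime d N0 → χ d ^ 2 = 1

/-! ## The two instances -/

theorem chi4_mul (m n : ℤ) : chi4 (m * n) = chi4 m * chi4 n := by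
  unfold chi4
  have hm : m % 4 = 0 ∨ m % 4 = 1 ∨ m % 4 = 2 ∨ m % 4 = 3 := by omega
  have hn : n % 4 = 0 ∨ n % 4 = 1 ∨ n % 4 = 2 ∨ n % 4 = 3 := by omega
  rw [Int.mul_emod]
  rcases hm with hm | hm | hm | hm <;> rcases hn with hn | hn | hn | hn <;>
    rw [hm, hn] <;> norm_num

theorem chi4_sq (d : ℤ) (hd : IsCoprime d 4) : chi4 d ^ 2 = 1 := by
  obtain ⟨u, v, huv⟩ := hd
  have hodd : d % 4 = 1 ∨ d % 4 = 3 := by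
    have h2 : d % 2 = 1 := by
      by_contra hcon
      have h0 : d % 2 = 0 := by omega
      obtain ⟨k, rfl⟩ := Int.dvd_of_emod_eq_zero h0
      have : 2 * (u * k) + 4 * v = 1 := by linarith
      omega
    omega
  unfold chi4
  rcases hodd with h | h <;> rw [h] <;> norm_num

theorem chi3_mul (m n : ℤ) : chi3 (m * n) = chi3 m * chi3 n := by
  unfold chi3
  have hm : m % 3 = 0 ∨ m % 3 = 1 ∨ m % 3 = 2 := by omega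
  have hn : n % 3 = 0 ∨ n % 3 = 1 ∨ n % 3 = 2 := by omega
  rw [Int.mul_emod]
  rcases hm with hm | hm | hm <;> rcases hn with hn | hn | hn <;>
    rw [hm, hn] <;> norm_num

theorem chi3_sq (d : ℤ) (hd : IsCoprime d 9) : chi3 d ^ 2 = 1 := by
  obtain ⟨u, v, huv⟩ := hd
  have h3 : d % 3 = 1 ∨ d % 3 = 2 := by
    have h0 : d % 3 ≠ 0 := by
      intro h0
      obtain ⟨k, rfl⟩ := Int.dvd_of_emod_eq_zero h0
      have : 3 * (u * k) + 9 * v = 1 := by linarith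
      omega
    omega
  unfold chi3
  rcases h3 with h | h <;> rw [h] <;> norm_num

/-- `φ₄ = θ²` is a zero-free weight-one form on `Γ₀(4)` with character `χ₋₄`. -/
theorem wtOne_phi4 : WtOne 4 phi4 chi4 where
  ne_zero := phi4_ne_zero
  smul := fun a b c d hdet hc _ hz => phi4_smul a b c d hdet hc hz
  chi_mul := chi4_mul
  chi_sq := chi4_sq

/-- `b₃ = η(z)³/η(3z)` is a zero-free weight-one form on `Γ₀(9)` with character `χ₋₃`. -/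
theorem wtOne_b3 : WtOne 9 b3 chi3 where
  ne_zero := b3_ne_zero
  smul := fun a b c d hdet hc _ hz => b3_smul a b c d hdet hc hz
  chi_mul := chi3_mul
  chi_sq := chi3_sq

/-! ## Generic consequences -/

section Generic

variable {N0 : ℤ} {Φ : ℂ → ℂ} {χ : ℤ → ℂ}

theorem isCoprime_of_det {a b c d N0 : ℤ} (hdet : a * d - b * c = 1) (hc : N0 ∣ c) :
    IsCoprime d N0 := by
  obtain ⟨c', rfl⟩ := hc
  exact ⟨a, -(b * c'), by linarith⟩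

theorem WtOne.chi_ne_zero (h : WtOne N0 Φ χ) {d : ℤ} (hd : IsCoprime d N0) : χ d ≠ 0 := by
  intro h0
  have := h.chi_sq d hd
  rw [h0] at this
  simp at this

theorem WtOne.chi_one (h : WtOne N0 Φ χ) : χ 1 = 1 := by
  have h1 := h.chi_ne_zero (d := 1) isCoprime_one_left
  have h2 := h.chi_mul 1 1
  rw [one_mul] at h2
  have h3 : χ 1 * (χ 1 - 1) = 0 := by linear_combination -h2
  rcases mul_eq_zero.mp h3 with h4 | h4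
  · exact absurd h4 h1
  · linear_combination h4

theorem im_int_mul {e : ℤ} (he : 0 < e) {z : ℂ} (hz : 0 < z.im) : 0 < ((e : ℂ) * z).im := by
  have : ((e : ℂ) * z).im = (e : ℝ) * z.im := by simp
  rw [this]
  have : (0 : ℝ) < e := by exact_mod_cast he
  positivity

/-- Periodicity. -/
theorem WtOne.add_int (h : WtOne N0 Φ χ) {z : ℂ} (hz : 0 < z.im) (k : ℤ) : Φ (z + k) = Φ z := by
  have h1 := h.smul 1 k 0 1 (by ring) (dvd_zero _) hz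
  rw [h.chi_one] at h1
  simpa using h1

/-- Level raising: `Φ(e·γz) = χ(d)(cz+d)Φ(ez)` for `γ ∈ Γ₀(e N0)`. -/
theorem WtOne.scale_smul (h : WtOne N0 Φ χ) (e : ℤ) (he : 0 < e) (a b c d : ℤ)
    (hdet : a * d - b * c = 1) (hc : e * N0 ∣ c) {z : ℂ} (hz : 0 < z.im) :
    Φ ((e : ℂ) * (((a : ℂ) * z + b) / ((c : ℂ) * z + d))) =
      χ d * ((c : ℂ) * z + d) * Φ ((e : ℂ) * z) := by
  obtain ⟨c', rfl⟩ := hc
  have hez := im_int_mul he hz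
  have h1 := h.smul a (e * b) (N0 * c') d (by linarith) ⟨c', rfl⟩ hez
  have e1 : (e : ℂ) * (((a : ℂ) * z + b) / (((e * N0 * c' : ℤ) : ℂ) * z + d)) =
      ((a : ℂ) * ((e : ℂ) * z) + ((e * b : ℤ) : ℂ)) /
        (((N0 * c' : ℤ) : ℂ) * ((e : ℂ) * z) + d) := by
    rw [← mul_div_assoc]
    congr 1 <;> push_cast <;> ring
  rw [e1, h1]
  push_cast
  ring

theorem denom_ne_zero_of_det {a b c d : ℤ} (hdet : a * d - b * c = 1) {z : ℂ} (hz : 0 < z.im) :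
    (c : ℂ) * z + d ≠ 0 := by
  have hcd : c ≠ 0 ∨ d ≠ 0 := by
    by_contra hcon
    obtain ⟨h1, h2⟩ := not_or.mp hcon
    rw [not_not] at h1 h2
    rw [h1, h2] at hdet
    simp at hdet
  exact denom_ne_zero hcd hz

/-- `t0 = Φ(z)/Φ(qz)` is `Γ₀(q N0)`-invariant. -/
theorem WtOne.t0_smul (h : WtOne N0 Φ χ) (q : ℤ) (hq : 0 < q) (a b c d : ℤ)
    (hdet : a * d - b * c = 1) (hc : q * N0 ∣ c) {z : ℂ} (hz : 0 < z.im) :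
    Φ (((a : ℂ) * z + b) / ((c : ℂ) * z + d)) /
        Φ ((q : ℂ) * (((a : ℂ) * z + b) / ((c : ℂ) * z + d))) =
      Φ z / Φ ((q : ℂ) * z) := by
  have hcN : N0 ∣ c := (Dvd.intro_left q rfl).trans hc
  have hχ := h.chi_ne_zero (isCoprime_of_det hdet hcN)
  have hden := denom_ne_zero_of_det hdet hz
  rw [h.smul a b c d hdet hcN hz, h.scale_smul q hq a b c d hdet hc hz]
  exact mul_div_mul_left _ _ (mul_ne_zero hχ hden)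

/-- `G = Φ(q²z)/Φ(qz)` is `Γ₀(q² N0)`-invariant. -/
theorem WtOne.G_smul (h : WtOne N0 Φ χ) (q : ℤ) (hq : 0 < q) (a b c d : ℤ)
    (hdet : a * d - b * c = 1) (hc : q ^ 2 * N0 ∣ c) {z : ℂ} (hz : 0 < z.im) :
    Φ (((q ^ 2 : ℤ) : ℂ) * (((a : ℂ) * z + b) / ((c : ℂ) * z + d))) /
        Φ ((q : ℂ) * (((a : ℂ) * z + b) / ((c : ℂ) * z + d))) =
      Φ (((q ^ 2 : ℤ) : ℂ) * z) / Φ ((q : ℂ) * z) := by
  have hcq : q * N0 ∣ c := by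
    obtain ⟨c', rfl⟩ := hc
    exact ⟨q * c', by ring⟩
  have hcN : N0 ∣ c := (Dvd.intro_left q rfl).trans hcq
  have hχ := h.chi_ne_zero (isCoprime_of_det hdet hcN)
  have hden := denom_ne_zero_of_det hdet hz
  rw [h.scale_smul (q ^ 2) (by positivity) a b c d hdet hc hz,
    h.scale_smul q hq a b c d hdet hcq hz]
  exact mul_div_mul_left _ _ (mul_ne_zero hχ hden)

/-! ### The Atkin–Lehner matrix `W = (q²x y; q²N0z' q²w)`, `q²xw - N0yz' = 1` -/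

theorem isCoprime_q_of_det {q x y z' w N0 : ℤ} (hdet : q ^ 2 * x * w - N0 * y * z' = 1) :
    IsCoprime q N0 := ⟨q * x * w, -(y * z'), by linear_combination hdet⟩

theorem isCoprime_w_of_det {q x y z' w N0 : ℤ} (hdet : q ^ 2 * x * w - N0 * y * z' = 1) :
    IsCoprime w N0 := ⟨q ^ 2 * x, -(y * z'), by linear_combination hdet⟩

/-- `Φ(q²·Wτ) = χ(w)(N0z'τ + w)Φ(τ)`. -/
theorem WtOne.sq_W (h : WtOne N0 Φ χ) (q : ℤ) (hq : 0 < q) (x y z' w : ℤ)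
    (hdet : q ^ 2 * x * w - N0 * y * z' = 1) {τ : ℂ} (hτ : 0 < τ.im) :
    Φ (((q ^ 2 : ℤ) : ℂ) * ((((q ^ 2 * x : ℤ) : ℂ) * τ + y) /
        (((q ^ 2 * N0 * z' : ℤ) : ℂ) * τ + ((q ^ 2 * w : ℤ) : ℂ)))) =
      χ w * (((N0 * z' : ℤ) : ℂ) * τ + w) * Φ τ := by
  have hq0 : ((q ^ 2 : ℤ) : ℂ) ≠ 0 := by
    have : q ^ 2 ≠ 0 := by positivity
    exact_mod_cast this
  have h1 := h.smul (q ^ 2 * x) y (N0 * z') w (by linear_combination hdet) ⟨z', rfl⟩ hτ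
  rw [← h1]
  congr 1
  rw [show ((q ^ 2 * N0 * z' : ℤ) : ℂ) * τ + ((q ^ 2 * w : ℤ) : ℂ) =
      ((q ^ 2 : ℤ) : ℂ) * (((N0 * z' : ℤ) : ℂ) * τ + w) by push_cast; ring,
    ← mul_div_assoc, mul_div_mul_left _ _ hq0]

/-- `Φ(q·Wτ) = χ(q)χ(w) q (N0z'τ + w)Φ(qτ)`. -/
theorem WtOne.q_W (h : WtOne N0 Φ χ) (q : ℤ) (hq : 0 < q) (x y z' w : ℤ)
    (hdet : q ^ 2 * x * w - N0 * y * z' = 1) {τ : ℂ} (hτ : 0 < τ.im) :
    Φ ((q : ℂ) * ((((q ^ 2 * x : ℤ) : ℂ) * τ + y) /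
        (((q ^ 2 * N0 * z' : ℤ) : ℂ) * τ + ((q ^ 2 * w : ℤ) : ℂ)))) =
      χ q * χ w * q * (((N0 * z' : ℤ) : ℂ) * τ + w) * Φ ((q : ℂ) * τ) := by
  have hq0 : (q : ℂ) ≠ 0 := by
    have : q ≠ 0 := hq.ne'
    exact_mod_cast this
  have h1 := h.smul (q * x) y (N0 * z') (q * w) (by linear_combination hdet) ⟨z', rfl⟩
    (im_int_mul hq hτ)
  have e : (q : ℂ) * ((((q ^ 2 * x : ℤ) : ℂ) * τ + y) /
        (((q ^ 2 * N0 * z' : ℤ) : ℂ) * τ + ((q ^ 2 * w : ℤ) : ℂ))) =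
      (((q * x : ℤ) : ℂ) * ((q : ℂ) * τ) + y) /
        (((N0 * z' : ℤ) : ℂ) * ((q : ℂ) * τ) + ((q * w : ℤ) : ℂ)) := by
    rw [show ((q ^ 2 * N0 * z' : ℤ) : ℂ) * τ + ((q ^ 2 * w : ℤ) : ℂ) =
        (q : ℂ) * (((N0 * z' : ℤ) : ℂ) * ((q : ℂ) * τ) + ((q * w : ℤ) : ℂ)) by push_cast; ring,
      ← mul_div_assoc, mul_div_mul_left _ _ hq0]
    congr 1
    push_cast
    ring
  rw [e, h1, h.chi_mul]
  push_cast
  ring

/-- `Φ(Wτ) = χ(q)²χ(w) q² (N0z'τ + w)Φ(q²τ)`. -/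
theorem WtOne.one_W (h : WtOne N0 Φ χ) (q : ℤ) (hq : 0 < q) (x y z' w : ℤ)
    (hdet : q ^ 2 * x * w - N0 * y * z' = 1) {τ : ℂ} (hτ : 0 < τ.im) :
    Φ ((((q ^ 2 * x : ℤ) : ℂ) * τ + y) /
        (((q ^ 2 * N0 * z' : ℤ) : ℂ) * τ + ((q ^ 2 * w : ℤ) : ℂ))) =
      χ q ^ 2 * χ w * (q : ℂ) ^ 2 * (((N0 * z' : ℤ) : ℂ) * τ + w) *
        Φ (((q ^ 2 : ℤ) : ℂ) * τ) := by
  have h1 := h.smul x y (N0 * z') (q ^ 2 * w) (by linear_combination hdet) ⟨z', rfl⟩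
    (im_int_mul (e := q ^ 2) (by positivity) hτ)
  have e : (((q ^ 2 * x : ℤ) : ℂ) * τ + y) /
        (((q ^ 2 * N0 * z' : ℤ) : ℂ) * τ + ((q ^ 2 * w : ℤ) : ℂ)) =
      ((x : ℂ) * (((q ^ 2 : ℤ) : ℂ) * τ) + y) /
        (((N0 * z' : ℤ) : ℂ) * (((q ^ 2 : ℤ) : ℂ) * τ) + ((q ^ 2 * w : ℤ) : ℂ)) := by
    congr 1 <;> push_cast <;> ring
  rw [e, h1, show q ^ 2 * w = q * (q * w) by ring, h.chi_mul, h.chi_mul]
  push_cast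
  ring

theorem WtOne.denom_W_ne_zero {q x y z' w N0 : ℤ} (hdet : q ^ 2 * x * w - N0 * y * z' = 1)
    {τ : ℂ} (hτ : 0 < τ.im) : ((N0 * z' : ℤ) : ℂ) * τ + w ≠ 0 :=
  denom_ne_zero_of_det (a := q ^ 2 * x) (b := y) (c := N0 * z') (d := w)
    (by linear_combination hdet) hτ

/-- **`G∘W = χ(q)⁻¹ q⁻¹ t0`** for `G = Φ(q²z)/Φ(qz)`, `t0 = Φ(z)/Φ(qz)`. -/
theorem WtOne.G_W (h : WtOne N0 Φ χ) (q : ℤ) (hq : 0 < q) (x y z' w : ℤ)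
    (hdet : q ^ 2 * x * w - N0 * y * z' = 1) {τ : ℂ} (hτ : 0 < τ.im) :
    Φ (((q ^ 2 : ℤ) : ℂ) * ((((q ^ 2 * x : ℤ) : ℂ) * τ + y) /
          (((q ^ 2 * N0 * z' : ℤ) : ℂ) * τ + ((q ^ 2 * w : ℤ) : ℂ)))) /
        Φ ((q : ℂ) * ((((q ^ 2 * x : ℤ) : ℂ) * τ + y) /
          (((q ^ 2 * N0 * z' : ℤ) : ℂ) * τ + ((q ^ 2 * w : ℤ) : ℂ)))) =
      (χ q)⁻¹ * (q : ℂ)⁻¹ * (Φ τ / Φ ((q : ℂ) * τ)) := by
  have hq0 : (q : ℂ) ≠ 0 := by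
    have : q ≠ 0 := hq.ne'
    exact_mod_cast this
  have hχq := h.chi_ne_zero (isCoprime_q_of_det hdet)
  have hχw := h.chi_ne_zero (isCoprime_w_of_det hdet)
  have hB := WtOne.denom_W_ne_zero hdet hτ
  have hΦ := h.ne_zero (im_int_mul hq hτ)
  rw [h.sq_W q hq x y z' w hdet hτ, h.q_W q hq x y z' w hdet hτ]
  field_simp

/-- **`t0∘W = χ(q) q G`** for `G = Φ(q²z)/Φ(qz)`, `t0 = Φ(z)/Φ(qz)`. -/
theorem WtOne.t0_W (h : WtOne N0 Φ χ) (q : ℤ) (hq : 0 < q) (x y z' w : ℤ)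
    (hdet : q ^ 2 * x * w - N0 * y * z' = 1) {τ : ℂ} (hτ : 0 < τ.im) :
    Φ ((((q ^ 2 * x : ℤ) : ℂ) * τ + y) /
          (((q ^ 2 * N0 * z' : ℤ) : ℂ) * τ + ((q ^ 2 * w : ℤ) : ℂ))) /
        Φ ((q : ℂ) * ((((q ^ 2 * x : ℤ) : ℂ) * τ + y) /
          (((q ^ 2 * N0 * z' : ℤ) : ℂ) * τ + ((q ^ 2 * w : ℤ) : ℂ)))) =
      χ q * (q : ℂ) * (Φ (((q ^ 2 : ℤ) : ℂ) * τ) / Φ ((q : ℂ) * τ)) := by
  have hq0 : (q : ℂ) ≠ 0 := by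
    have : q ≠ 0 := hq.ne'
    exact_mod_cast this
  have hχq := h.chi_ne_zero (isCoprime_q_of_det hdet)
  have hχw := h.chi_ne_zero (isCoprime_w_of_det hdet)
  have hB := WtOne.denom_W_ne_zero hdet hτ
  have hΦ := h.ne_zero (im_int_mul hq hτ)
  rw [h.one_W q hq x y z' w hdet hτ, h.q_W q hq x y z' w hdet hτ]
  field_simp

/-! ### The middle cusp `γ = (1 0; qN0 1)` -/

/-- `Φ(γτ) = (qN0τ + 1)Φ(τ)`. -/
theorem WtOne.one_mid (h : WtOne N0 Φ χ) (q : ℤ) {τ : ℂ} (hτ : 0 < τ.im) :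
    Φ (τ / (((q * N0 : ℤ) : ℂ) * τ + 1)) = (((q * N0 : ℤ) : ℂ) * τ + 1) * Φ τ := by
  have h1 := h.smul 1 0 (q * N0) 1 (by ring) (Dvd.intro_left q rfl) hτ
  rw [h.chi_one] at h1
  simpa using h1

/-- `Φ(q·γτ) = (qN0τ + 1)Φ(qτ)`. -/
theorem WtOne.q_mid (h : WtOne N0 Φ χ) (q : ℤ) (hq : 0 < q) {τ : ℂ} (hτ : 0 < τ.im) :
    Φ ((q : ℂ) * (τ / (((q * N0 : ℤ) : ℂ) * τ + 1))) =
      (((q * N0 : ℤ) : ℂ) * τ + 1) * Φ ((q : ℂ) * τ) := by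
  have h1 := h.smul 1 0 N0 1 (by ring) dvd_rfl (im_int_mul hq hτ)
  rw [h.chi_one] at h1
  have e : (q : ℂ) * (τ / (((q * N0 : ℤ) : ℂ) * τ + 1)) =
      (((1 : ℤ) : ℂ) * ((q : ℂ) * τ) + ((0 : ℤ) : ℂ)) /
        ((N0 : ℂ) * ((q : ℂ) * τ) + ((1 : ℤ) : ℂ)) := by
    rw [← mul_div_assoc]
    congr 1 <;> push_cast <;> ring
  rw [e, h1]
  push_cast
  ring

/-- `Φ(q²·γτ) = χ(d) q⁻¹ (qN0τ + 1) Φ(τ - b/q)` for `qd - N0 b = 1`. -/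
theorem WtOne.sq_mid (h : WtOne N0 Φ χ) (q : ℤ) (hq : 0 < q) (b d : ℤ)
    (hbd : q * d - N0 * b = 1) {τ : ℂ} (hτ : 0 < τ.im) :
    Φ (((q ^ 2 : ℤ) : ℂ) * (τ / (((q * N0 : ℤ) : ℂ) * τ + 1))) =
      χ d * (q : ℂ)⁻¹ * (((q * N0 : ℤ) : ℂ) * τ + 1) * Φ (τ - (b : ℂ) / q) := by
  have hq0 : (q : ℂ) ≠ 0 := by
    have : q ≠ 0 := hq.ne'
    exact_mod_cast this
  have hD := denom_U_ne_zero (q * N0) hτ
  have hτ' : 0 < (τ - (b : ℂ) / q).im := by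
    have : ((b : ℂ) / q).im = 0 := by
      rw [Complex.div_im]
      simp
    rw [Complex.sub_im, this, sub_zero]
    exact hτ
  have h1 := h.smul q b N0 d (by linear_combination hbd) dvd_rfl hτ'
  have hbdC : (q : ℂ) * d - N0 * b = 1 := by exact_mod_cast hbd
  have hden : (N0 : ℂ) * (τ - (b : ℂ) / q) + d = (((q * N0 : ℤ) : ℂ) * τ + 1) / q := by
    rw [eq_div_iff hq0]
    push_cast
    field_simp
    linear_combination hbdC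
  have e : ((q ^ 2 : ℤ) : ℂ) * (τ / (((q * N0 : ℤ) : ℂ) * τ + 1)) =
      ((q : ℂ) * (τ - (b : ℂ) / q) + b) / ((N0 : ℂ) * (τ - (b : ℂ) / q) + d) := by
    rw [hden]
    have : (q : ℂ) * (τ - (b : ℂ) / q) + b = q * τ := by
      field_simp
      ring
    rw [this, div_div_eq_mul_div, ← mul_div_assoc]
    push_cast
    ring
  rw [e, h1, hden]
  ring

/-- **`G∘γ = χ(d) q⁻¹ Φ(z - b/q)/Φ(qz)`** for `G = Φ(q²z)/Φ(qz)`, `qd - N0 b = 1`. -/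
theorem WtOne.G_mid (h : WtOne N0 Φ χ) (q : ℤ) (hq : 0 < q) (b d : ℤ)
    (hbd : q * d - N0 * b = 1) {τ : ℂ} (hτ : 0 < τ.im) :
    Φ (((q ^ 2 : ℤ) : ℂ) * (τ / (((q * N0 : ℤ) : ℂ) * τ + 1))) /
        Φ ((q : ℂ) * (τ / (((q * N0 : ℤ) : ℂ) * τ + 1))) =
      χ d * (q : ℂ)⁻¹ * (Φ (τ - (b : ℂ) / q) / Φ ((q : ℂ) * τ)) := by
  have hD := denom_U_ne_zero (q * N0) hτ
  have hΦ := h.ne_zero (im_int_mul hq hτ)
  rw [h.sq_mid q hq b d hbd hτ, h.q_mid q hq hτ]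
  field_simp

/-- **`t0∘γ = t0`** for `t0 = Φ(z)/Φ(qz)`. -/
theorem WtOne.t0_mid (h : WtOne N0 Φ χ) (q : ℤ) (hq : 0 < q) {τ : ℂ} (hτ : 0 < τ.im) :
    Φ (τ / (((q * N0 : ℤ) : ℂ) * τ + 1)) /
        Φ ((q : ℂ) * (τ / (((q * N0 : ℤ) : ℂ) * τ + 1))) =
      Φ τ / Φ ((q : ℂ) * τ) := by
  have hD := denom_U_ne_zero (q * N0) hτ
  rw [h.one_mid q hτ, h.q_mid q hq hτ]
  exact mul_div_mul_left _ _ hD

end Generic

end Fermat.Agent.S36.EtaUnitCusp
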