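import Mathlib
import Fermat.Agent.S36.EtaUnit
import Fermat.Agent.Lib.JqAnalytic

/-!
# Product expansions of the weight-one eta quotients (P8 = S36, [ETA-UNIT], fallback REG)

`E = Lib.JqAnalytic.eulerFun`, `T = exp(2πiz)`:
* `phi4_eq_psi4F : phi4 z = psi4F (𝕢 1 z)`, `psi4F T = E(T²)^10 / (E(T)^4 E(T⁴)^4)`;
* `b3_eq_psi3F : b3 z = psi3F (𝕢 1 z)`, `psi3F T = E(T)³ / E(T³)`;
* `taylorPS_eulerFun_pow` : the Taylor series of `E(T^k)` is `expand k etaProd`;
* `taylorPS_psi4F`, `taylorPS_psi3F` : the Taylor series are the integer power series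
  `psi4Z`, `psi3Z` with constant coefficient `1`.
-/

set_option autoImplicit false

noncomputable section

namespace Fermat.Agent.S36.EtaUnitExp

open Complex Filter Topology
open Fermat.Agent.S36.EtaUnit Fermat.Agent.Lib.JqAnalytic
open scoped Real

local notation "η" => ModularForm.eta
local notation "𝕢" => Function.Periodic.qParam

theorem eta_eq (z : ℂ) : η z = 𝕢 24 z * eulerFun (𝕢 1 z) := rfl

theorem qParam_nat_mul' (h : ℝ) (k : ℕ) (z : ℂ) : 𝕢 h ((k : ℂ) * z) = 𝕢 h z ^ k := by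
  simp only [Function.Periodic.qParam, ← Complex.exp_nat_mul]
  congr 1
  ring

theorem qParam_ne_zero' (h : ℝ) (z : ℂ) : 𝕢 h z ≠ 0 := by
  simp only [Function.Periodic.qParam]
  exact Complex.exp_ne_zero _

/-- `E(T²)^10 / (E(T)^4 E(T⁴)^4)`. -/
def psi4F (T : ℂ) : ℂ := eulerFun (T ^ 2) ^ 10 / (eulerFun T ^ 4 * eulerFun (T ^ 4) ^ 4)

/-- `E(T)³ / E(T³)`. -/
def psi3F (T : ℂ) : ℂ := eulerFun T ^ 3 / eulerFun (T ^ 3)

theorem phi4_eq_psi4F (z : ℂ) : phi4 z = psi4F (𝕢 1 z) := by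
  unfold phi4 psi4F
  have h2 := qParam_nat_mul' 24 2 z
  have h4 := qParam_nat_mul' 24 4 z
  have g2 := qParam_nat_mul' 1 2 z
  have g4 := qParam_nat_mul' 1 4 z
  push_cast at h2 h4 g2 g4
  rw [eta_eq (2 * z), eta_eq z, eta_eq (4 * z), h2, h4, g2, g4]
  have ha := qParam_ne_zero' 24 z
  rw [show (𝕢 24 z ^ 2 * eulerFun (𝕢 1 z ^ 2)) ^ 10 =
      𝕢 24 z ^ 20 * eulerFun (𝕢 1 z ^ 2) ^ 10 by ring,
    show (𝕢 24 z * eulerFun (𝕢 1 z)) ^ 4 * (𝕢 24 z ^ 4 * eulerFun (𝕢 1 z ^ 4)) ^ 4 =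
      𝕢 24 z ^ 20 * (eulerFun (𝕢 1 z) ^ 4 * eulerFun (𝕢 1 z ^ 4) ^ 4) by ring]
  exact mul_div_mul_left _ _ (pow_ne_zero _ ha)

theorem b3_eq_psi3F (z : ℂ) : b3 z = psi3F (𝕢 1 z) := by
  unfold b3 psi3F
  have h3 := qParam_nat_mul' 24 3 z
  have g3 := qParam_nat_mul' 1 3 z
  push_cast at h3 g3
  rw [eta_eq z, eta_eq (3 * z), h3, g3]
  have ha := qParam_ne_zero' 24 z
  rw [show (𝕢 24 z * eulerFun (𝕢 1 z)) ^ 3 = 𝕢 24 z ^ 3 * eulerFun (𝕢 1 z) ^ 3 by ring]
  exact mul_div_mul_left _ _ (pow_ne_zero _ ha)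

/-! ## Taylor series -/

theorem norm_pow_lt_one {q : ℂ} (hq : ‖q‖ < 1) {k : ℕ} (hk : k ≠ 0) : ‖q ^ k‖ < 1 := by
  rw [norm_pow]
  exact pow_lt_one₀ (norm_nonneg _) hq hk

open scoped PowerSeries.WithPiTopology in
/-- The Taylor series of `E(T^k)` is `expand k etaProd`. -/
theorem taylorPS_eulerFun_pow (k : ℕ) (hk : k ≠ 0) :
    taylorPS (fun q : ℂ => eulerFun (q ^ k)) =
      PowerSeries.map (Int.castRingHom ℂ) (ModularCurve.etaProd.expand k hk) := by
  ext m
  -- analytic side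
  have hF : TendstoLocallyUniformlyOn (fun (s : Finset ℕ) (q : ℂ) => ∏ n ∈ s, (1 - q ^ (n + 1)))
      eulerFun atTop (Metric.ball (0 : ℂ) 1) :=
    ModularForm.multipliableLocallyUniformlyOn_one_sub_pow.hasProdLocallyUniformlyOn
  have hmaps : Set.MapsTo (fun q : ℂ => q ^ k) (Metric.ball (0 : ℂ) 1) (Metric.ball (0 : ℂ) 1) := by
    intro q hq
    have hq' : ‖q‖ < 1 := by simpa using hq
    simpa using norm_pow_lt_one hq' hk
  have hFk := hF.comp (fun q : ℂ => q ^ k) hmaps (by fun_prop)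
  have hFd : ∀ᶠ s : Finset ℕ in atTop,
      DifferentiableOn ℂ ((fun q : ℂ => ∏ n ∈ s, (1 - q ^ (n + 1))) ∘ fun q : ℂ => q ^ k)
        (Metric.ball (0 : ℂ) 1) :=
    .of_forall fun s => by
      have : ((fun q : ℂ => ∏ n ∈ s, (1 - q ^ (n + 1))) ∘ fun q : ℂ => q ^ k) =
          fun q : ℂ => ∏ n ∈ s, (1 - (q ^ k) ^ (n + 1)) := rfl
      rw [this]
      fun_prop
  have h1 := tendsto_coeff_taylorPS hFk hFd Metric.isOpen_ball (Metric.mem_ball_self one_pos) m
  have h2 : ∀ s : Finset ℕ,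
      taylorPS ((fun q : ℂ => ∏ n ∈ s, (1 - q ^ (n + 1))) ∘ fun q : ℂ => q ^ k) =
      PowerSeries.map (Int.castRingHom ℂ) (∏ n ∈ s, (1 - PowerSeries.X ^ (k * (n + 1)))) := by
    intro s
    have e : ((fun q : ℂ => ∏ n ∈ s, (1 - q ^ (n + 1))) ∘ fun q : ℂ => q ^ k) =
        ∏ n ∈ s, ((1 : ℂ → ℂ) - fun q : ℂ => q ^ (k * (n + 1))) := by
      funext q
      simp [Finset.prod_apply, pow_mul]
    rw [e, taylorPS_prod _ _ (fun i _ => by
      exact analyticAt_const.sub (analyticAt_id.pow _)), map_prod]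
    refine Finset.prod_congr rfl fun n _ => ?_
    rw [taylorPS_sub (by exact analyticAt_const) (by exact analyticAt_id.pow _), taylorPS_one,
      taylorPS_pow_id]
    simp
  simp only [h2] at h1
  -- formal side
  have h3 : Tendsto (fun s : Finset ℕ => ∏ n ∈ s, ((1 : PowerSeries ℤ) - PowerSeries.X ^ (n + 1)))
      atTop (𝓝 ModularCurve.etaProd) :=
    (PowerSeries.WithPiTopology.multipliable_one_sub_X_pow ℤ).hasProd
  have hexp : ∀ s : Finset ℕ, (∏ n ∈ s, ((1 : PowerSeries ℤ) - PowerSeries.X ^ (k * (n + 1)))) =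
      PowerSeries.expand k hk (∏ n ∈ s, ((1 : PowerSeries ℤ) - PowerSeries.X ^ (n + 1))) := by
    intro s
    rw [map_prod]
    refine Finset.prod_congr rfl fun n _ => ?_
    rw [map_sub, map_one, map_pow, PowerSeries.expand_X, ← pow_mul]
  have h5 : Tendsto (fun s : Finset ℕ => (PowerSeries.map (Int.castRingHom ℂ)
      (∏ n ∈ s, (1 - PowerSeries.X ^ (k * (n + 1))))).coeff m) atTop
      (𝓝 ((PowerSeries.map (Int.castRingHom ℂ) (ModularCurve.etaProd.expand k hk)).coeff m)) := by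
    have hc : Continuous (fun z : ℤ => (z : ℂ)) := continuous_of_discreteTopology
    simp only [PowerSeries.coeff_map, eq_intCast, hexp, PowerSeries.coeff_expand]
    by_cases hkm : k ∣ m
    · simp only [if_pos hkm]
      have h4 := ((PowerSeries.WithPiTopology.continuous_coeff ℤ (m / k)).tendsto _).comp h3
      exact (hc.tendsto _).comp h4
    · simp only [if_neg hkm]
      exact tendsto_const_nhds
  exact tendsto_nhds_unique h1 h5

/-! ## The integer series -/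

/-- `E(T²)^10 ∈ ℤ[[T]]`. -/
def num4Z : PowerSeries ℤ := (ModularCurve.etaProd.expand 2 two_ne_zero) ^ 10

/-- `E(T)^4 E(T⁴)^4 ∈ ℤ[[T]]`. -/
def den4Z : PowerSeries ℤ :=
  ModularCurve.etaProd ^ 4 * (ModularCurve.etaProd.expand 4 four_ne_zero) ^ 4

/-- `E(T²)^10 / (E(T)^4 E(T⁴)^4) ∈ ℤ[[T]]`: the `q`-expansion of `φ₄ = θ²`. -/
def psi4Z : PowerSeries ℤ := num4Z * PowerSeries.invOfUnit den4Z 1

/-- `E(T)³ / E(T³) ∈ ℤ[[T]]`: the `q`-expansion of `b₃`. -/
def psi3Z : PowerSeries ℤ :=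
  ModularCurve.etaProd ^ 3 * PowerSeries.invOfUnit (ModularCurve.etaProd.expand 3 three_ne_zero) 1

theorem constantCoeff_den4Z : PowerSeries.constantCoeff den4Z = 1 := by
  simp [den4Z, ModularCurve.constantCoeff_etaProd]

theorem constantCoeff_num4Z : PowerSeries.constantCoeff num4Z = 1 := by
  simp [num4Z, ModularCurve.constantCoeff_etaProd]

theorem psi4Z_mul_den4Z : psi4Z * den4Z = num4Z := by
  have h := PowerSeries.mul_invOfUnit den4Z 1 (by simpa using constantCoeff_den4Z)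
  rw [psi4Z, mul_assoc, mul_comm (PowerSeries.invOfUnit den4Z 1), h, mul_one]

theorem constantCoeff_psi4Z : PowerSeries.constantCoeff psi4Z = 1 := by
  have h := congrArg PowerSeries.constantCoeff psi4Z_mul_den4Z
  rw [map_mul, constantCoeff_den4Z, constantCoeff_num4Z, mul_one] at h
  exact h

theorem psi3Z_mul_expand :
    psi3Z * ModularCurve.etaProd.expand 3 three_ne_zero = ModularCurve.etaProd ^ 3 := by
  have h := PowerSeries.mul_invOfUnit (ModularCurve.etaProd.expand 3 three_ne_zero) 1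
    (by simp [ModularCurve.constantCoeff_etaProd])
  rw [psi3Z, mul_assoc,
    mul_comm (PowerSeries.invOfUnit (ModularCurve.etaProd.expand 3 three_ne_zero) 1), h, mul_one]

theorem constantCoeff_psi3Z : PowerSeries.constantCoeff psi3Z = 1 := by
  have h := congrArg PowerSeries.constantCoeff psi3Z_mul_expand
  simpa [ModularCurve.constantCoeff_etaProd] using h

/-! ## Analyticity and the Taylor series of `psi4F`, `psi3F` -/

theorem analyticAt_eulerFun_pow (j : ℕ) {T : ℂ} (hT : ‖T‖ < 1) (hj : j ≠ 0) :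
    AnalyticAt ℂ (fun T : ℂ => eulerFun (T ^ j)) T :=
  AnalyticAt.comp (g := eulerFun) (f := fun T : ℂ => T ^ j)
    (eulerFun_analyticAt (norm_pow_lt_one hT hj)) (analyticAt_id.pow j)

theorem analyticAt_psi4F_pow (k : ℕ) (hk : k ≠ 0) {T : ℂ} (hT : ‖T‖ < 1) :
    AnalyticAt ℂ (fun T : ℂ => psi4F (T ^ k)) T := by
  have hTk := norm_pow_lt_one hT hk
  have e : (fun T : ℂ => psi4F (T ^ k)) = fun T : ℂ =>
      eulerFun (T ^ (k * 2)) ^ 10 / (eulerFun (T ^ k) ^ 4 * eulerFun (T ^ (k * 4)) ^ 4) := by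
    funext T
    simp only [psi4F, pow_mul]
  rw [e]
  refine AnalyticAt.div ((analyticAt_eulerFun_pow _ hT (by positivity)).pow 10)
    (((analyticAt_eulerFun_pow _ hT hk).pow 4).mul
      ((analyticAt_eulerFun_pow _ hT (by positivity)).pow 4)) ?_
  exact mul_ne_zero (pow_ne_zero _ (eulerFun_ne_zero hTk))
    (pow_ne_zero _ (eulerFun_ne_zero (norm_pow_lt_one hT (by positivity))))

theorem analyticAt_psi3F_pow (k : ℕ) (hk : k ≠ 0) {T : ℂ} (hT : ‖T‖ < 1) :
    AnalyticAt ℂ (fun T : ℂ => psi3F (T ^ k)) T := by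
  have hTk := norm_pow_lt_one hT hk
  have e : (fun T : ℂ => psi3F (T ^ k)) = fun T : ℂ =>
      eulerFun (T ^ k) ^ 3 / eulerFun (T ^ (k * 3)) := by
    funext T
    simp only [psi3F, pow_mul]
  rw [e]
  refine AnalyticAt.div ((analyticAt_eulerFun_pow _ hT hk).pow 3)
    (analyticAt_eulerFun_pow _ hT (by positivity)) ?_
  exact eulerFun_ne_zero (norm_pow_lt_one hT (by positivity))

theorem map_ne_zero_of_constantCoeff {P : PowerSeries ℤ} (hP : PowerSeries.constantCoeff P = 1) :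
    PowerSeries.map (Int.castRingHom ℂ) P ≠ 0 := by
  intro h
  have := congrArg PowerSeries.constantCoeff h
  rw [← PowerSeries.coeff_zero_eq_constantCoeff, PowerSeries.coeff_map,
    PowerSeries.coeff_zero_eq_constantCoeff, hP] at this
  simp at this

/-- **The Taylor series of `ψ₄(T^k)` is `expand k psi4Z`** (integral, constant coefficient `1`). -/
theorem taylorPS_psi4F_pow (k : ℕ) (hk : k ≠ 0) :
    taylorPS (fun T : ℂ => psi4F (T ^ k)) =
      PowerSeries.map (Int.castRingHom ℂ) (psi4Z.expand k hk) := by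
  have h0 : ‖(0 : ℂ)‖ < 1 := by simp
  have hk2 : k * 2 ≠ 0 := by positivity
  have hk4 : k * 4 ≠ 0 := by positivity
  set N : ℂ → ℂ := (fun T : ℂ => eulerFun (T ^ (k * 2))) ^ 10 with hNdef
  set D : ℂ → ℂ := (fun T : ℂ => eulerFun (T ^ k)) ^ 4 *
    (fun T : ℂ => eulerFun (T ^ (k * 4))) ^ 4 with hDdef
  have hN : taylorPS N = PowerSeries.map (Int.castRingHom ℂ)
      ((ModularCurve.etaProd.expand (k * 2) hk2) ^ 10) := by
    rw [hNdef, taylorPS_pow (analyticAt_eulerFun_pow _ h0 hk2), taylorPS_eulerFun_pow _ hk2,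
      map_pow]
  have hD : taylorPS D = PowerSeries.map (Int.castRingHom ℂ)
      ((ModularCurve.etaProd.expand k hk) ^ 4 * (ModularCurve.etaProd.expand (k * 4) hk4) ^ 4) := by
    rw [hDdef, taylorPS_mul ((analyticAt_eulerFun_pow _ h0 hk).pow 4)
      ((analyticAt_eulerFun_pow _ h0 hk4).pow 4),
      taylorPS_pow (analyticAt_eulerFun_pow _ h0 hk), taylorPS_pow (analyticAt_eulerFun_pow _ h0 hk4),
      taylorPS_eulerFun_pow _ hk, taylorPS_eulerFun_pow _ hk4, map_mul, map_pow, map_pow]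
  have hDan : AnalyticAt ℂ D 0 :=
    ((analyticAt_eulerFun_pow _ h0 hk).pow 4).mul ((analyticAt_eulerFun_pow _ h0 hk4).pow 4)
  have hev : ((fun T : ℂ => psi4F (T ^ k)) * D) =ᶠ[𝓝 0] N := by
    filter_upwards [Metric.ball_mem_nhds (0 : ℂ) one_pos] with T hT
    have hT' : ‖T‖ < 1 := by simpa using hT
    have hne : eulerFun (T ^ k) ^ 4 * eulerFun (T ^ (k * 4)) ^ 4 ≠ 0 :=
      mul_ne_zero (pow_ne_zero _ (eulerFun_ne_zero (norm_pow_lt_one hT' hk)))
        (pow_ne_zero _ (eulerFun_ne_zero (norm_pow_lt_one hT' hk4)))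
    simp only [Pi.mul_apply, Pi.pow_apply, hNdef, hDdef, psi4F, ← pow_mul]
    exact div_mul_cancel₀ _ hne
  have h1 : taylorPS (fun T : ℂ => psi4F (T ^ k)) * taylorPS D = taylorPS N := by
    rw [← taylorPS_mul (analyticAt_psi4F_pow k hk h0) hDan]
    exact taylorPS_congr hev
  have h2 : (psi4Z.expand k hk) * ((ModularCurve.etaProd.expand k hk) ^ 4 *
      (ModularCurve.etaProd.expand (k * 4) hk4) ^ 4) =
      (ModularCurve.etaProd.expand (k * 2) hk2) ^ 10 := by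
    have h := congrArg (PowerSeries.expand k hk) psi4Z_mul_den4Z
    rw [map_mul, den4Z, num4Z, map_mul, map_pow, map_pow, map_pow,
      ← PowerSeries.expand_mul k hk 4 four_ne_zero, ← PowerSeries.expand_mul k hk 2 two_ne_zero]
      at h
    exact h
  have h3 := congrArg (PowerSeries.map (Int.castRingHom ℂ)) h2
  rw [map_mul] at h3
  rw [hN, hD, ← h3] at h1
  have hne : PowerSeries.map (Int.castRingHom ℂ) ((ModularCurve.etaProd.expand k hk) ^ 4 *
      (ModularCurve.etaProd.expand (k * 4) hk4) ^ 4) ≠ 0 :=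
    map_ne_zero_of_constantCoeff (by simp [ModularCurve.constantCoeff_etaProd])
  exact mul_right_cancel₀ hne h1

/-- **The Taylor series of `ψ₃(T^k)` is `expand k psi3Z`** (integral, constant coefficient `1`). -/
theorem taylorPS_psi3F_pow (k : ℕ) (hk : k ≠ 0) :
    taylorPS (fun T : ℂ => psi3F (T ^ k)) =
      PowerSeries.map (Int.castRingHom ℂ) (psi3Z.expand k hk) := by
  have h0 : ‖(0 : ℂ)‖ < 1 := by simp
  have hk3 : k * 3 ≠ 0 := by positivity
  set N : ℂ → ℂ := (fun T : ℂ => eulerFun (T ^ k)) ^ 3 with hNdef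
  set D : ℂ → ℂ := fun T : ℂ => eulerFun (T ^ (k * 3)) with hDdef
  have hN : taylorPS N = PowerSeries.map (Int.castRingHom ℂ)
      ((ModularCurve.etaProd.expand k hk) ^ 3) := by
    rw [hNdef, taylorPS_pow (analyticAt_eulerFun_pow _ h0 hk), taylorPS_eulerFun_pow _ hk, map_pow]
  have hD : taylorPS D = PowerSeries.map (Int.castRingHom ℂ)
      (ModularCurve.etaProd.expand (k * 3) hk3) := by
    rw [hDdef, taylorPS_eulerFun_pow _ hk3]
  have hDan : AnalyticAt ℂ D 0 := analyticAt_eulerFun_pow _ h0 hk3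
  have hev : ((fun T : ℂ => psi3F (T ^ k)) * D) =ᶠ[𝓝 0] N := by
    filter_upwards [Metric.ball_mem_nhds (0 : ℂ) one_pos] with T hT
    have hT' : ‖T‖ < 1 := by simpa using hT
    have hne : eulerFun (T ^ (k * 3)) ≠ 0 := eulerFun_ne_zero (norm_pow_lt_one hT' hk3)
    simp only [Pi.mul_apply, Pi.pow_apply, hNdef, hDdef, psi3F, ← pow_mul]
    exact div_mul_cancel₀ _ hne
  have h1 : taylorPS (fun T : ℂ => psi3F (T ^ k)) * taylorPS D = taylorPS N := by
    rw [← taylorPS_mul (analyticAt_psi3F_pow k hk h0) hDan]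
    exact taylorPS_congr hev
  have h2 : (psi3Z.expand k hk) * (ModularCurve.etaProd.expand (k * 3) hk3) =
      (ModularCurve.etaProd.expand k hk) ^ 3 := by
    have h := congrArg (PowerSeries.expand k hk) psi3Z_mul_expand
    rw [map_mul, map_pow, ← PowerSeries.expand_mul k hk 3 three_ne_zero] at h
    exact h
  have h3 := congrArg (PowerSeries.map (Int.castRingHom ℂ)) h2
  rw [map_mul] at h3
  rw [hN, hD, ← h3] at h1
  have hne : PowerSeries.map (Int.castRingHom ℂ) (ModularCurve.etaProd.expand (k * 3) hk3) ≠ 0 :=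
    map_ne_zero_of_constantCoeff (by simp [ModularCurve.constantCoeff_etaProd])
  exact mul_right_cancel₀ hne h1

/-! ## Consequences on the upper half plane -/

open UpperHalfPlane in
theorem norm_qParam_lt_one' {z : ℂ} (hz : 0 < z.im) : ‖𝕢 1 z‖ < 1 := by
  have h := UpperHalfPlane.norm_qParam_lt_one 1 (⟨z, hz⟩ : ℍ)
  simpa using h

theorem differentiableAt_qParam (z : ℂ) : DifferentiableAt ℂ (𝕢 1) z := by
  unfold Function.Periodic.qParam
  fun_prop

/-- `φ₄` is holomorphic on the upper half plane. -/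
theorem differentiableOn_phi4 : DifferentiableOn ℂ phi4 {z : ℂ | 0 < z.im} := by
  intro z hz
  have e : phi4 = (fun T : ℂ => psi4F (T ^ 1)) ∘ 𝕢 1 := by
    funext w
    simp [phi4_eq_psi4F]
  rw [e]
  exact ((analyticAt_psi4F_pow 1 one_ne_zero (norm_qParam_lt_one' hz)).differentiableAt.comp z
    (differentiableAt_qParam z)).differentiableWithinAt

/-- `b₃` is holomorphic on the upper half plane. -/
theorem differentiableOn_b3 : DifferentiableOn ℂ b3 {z : ℂ | 0 < z.im} := by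
  intro z hz
  have e : b3 = (fun T : ℂ => psi3F (T ^ 1)) ∘ 𝕢 1 := by
    funext w
    simp [b3_eq_psi3F]
  rw [e]
  exact ((analyticAt_psi3F_pow 1 one_ne_zero (norm_qParam_lt_one' hz)).differentiableAt.comp z
    (differentiableAt_qParam z)).differentiableWithinAt

open UpperHalfPlane in
/-- **`q`-expansion of `τ ↦ φ₄(kτ)`**: the integer series `psi4Z(T^k)`. -/
theorem qExpansion_phi4_scale (k : ℕ) (hk : k ≠ 0) :
    qExpansion 1 (fun τ : ℍ => phi4 ((k : ℂ) * τ)) =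
      PowerSeries.map (Int.castRingHom ℂ) (psi4Z.expand k hk) := by
  have e : (fun τ : ℍ => phi4 ((k : ℂ) * τ)) =
      fun τ : ℍ => (fun T : ℂ => psi4F (T ^ k)) (𝕢 1 τ) := by
    funext τ
    rw [phi4_eq_psi4F, qParam_nat_mul']
  rw [e, qExpansion_comp_qParam one_pos
    (analyticAt_psi4F_pow k hk (T := 0) (by simp)).continuousAt, taylorPS_psi4F_pow k hk]

open UpperHalfPlane in
/-- **`q`-expansion of `τ ↦ b₃(kτ)`**: the integer series `psi3Z(T^k)`. -/
theorem qExpansion_b3_scale (k : ℕ) (hk : k ≠ 0) :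
    qExpansion 1 (fun τ : ℍ => b3 ((k : ℂ) * τ)) =
      PowerSeries.map (Int.castRingHom ℂ) (psi3Z.expand k hk) := by
  have e : (fun τ : ℍ => b3 ((k : ℂ) * τ)) =
      fun τ : ℍ => (fun T : ℂ => psi3F (T ^ k)) (𝕢 1 τ) := by
    funext τ
    rw [b3_eq_psi3F, qParam_nat_mul']
  rw [e, qExpansion_comp_qParam one_pos
    (analyticAt_psi3F_pow k hk (T := 0) (by simp)).continuousAt, taylorPS_psi3F_pow k hk]

/-- `φ₄(kz) = ψ₄(T^k)`, `T = exp(2πiz)`. -/
theorem phi4_scale_eq (k : ℕ) (z : ℂ) : phi4 ((k : ℂ) * z) = psi4F (𝕢 1 z ^ k) := by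
  rw [phi4_eq_psi4F, qParam_nat_mul']

/-- `b₃(kz) = ψ₃(T^k)`, `T = exp(2πiz)`. -/
theorem b3_scale_eq (k : ℕ) (z : ℂ) : b3 ((k : ℂ) * z) = psi3F (𝕢 1 z ^ k) := by
  rw [b3_eq_psi3F, qParam_nat_mul']

/-! ## 24-th powers: quotients of `Δ = η^24` -/

theorem phi4_pow_24 (z : ℂ) :
    phi4 z ^ 24 = (η (2 * z) ^ 24) ^ 10 / ((η z ^ 24) ^ 4 * (η (4 * z) ^ 24) ^ 4) := by
  unfold phi4
  rw [div_pow, mul_pow]
  congr 1 <;> ring

theorem b3_pow_24 (z : ℂ) : b3 z ^ 24 = (η z ^ 24) ^ 3 / η (3 * z) ^ 24 := by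
  unfold b3
  rw [div_pow]
  congr 1
  ring

open UpperHalfPlane in
/-- On `ℍ`: `φ₄(τ)^24 Δ(τ)^4 Δ(4τ)^4 = Δ(2τ)^10` with `Δ(kτ) = η(kτ)^24`. -/
theorem discriminant_eq_eta_pow (τ : ℍ) : ModularForm.discriminant τ = η (τ : ℂ) ^ 24 := rfl

end Fermat.Agent.S36.EtaUnitExp
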