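import Mathlib
import Fermat.Agent.S36.FgLam
import Fermat.Agent.S36.InclFinal
import Fermat.Agent.S36.BpInt

/-!
# S36 (P8) — [FG-LAM], final form (helper87)

`S36/FgLam` with its hypothesis `hint` ("`O` is integral over `O_M`") discharged by
`InclFinal.isIntegral_OM` and `0 ≤ E` by `BpInt.nonneg_E`.  Any frame, any setup.

* `nonneg` : `0 ≤ E` for the cusp divisor `E` (`IsE3`);
* `isIntegral_AJ` : every element of `B'` is integral over `A[j]`;
* `isNoetherianRing_BpOm` : `B'` is noetherian;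
* `fg_LamOm` : `Λ'(D)` is a finitely generated `B'`-module as soon as `Λ'(-D) ≠ 0`;
* `fg_of_range_eq` : the generic-ring form.
-/

set_option autoImplicit false

noncomputable section

namespace Fermat.Agent.S36.FgLamFinal

open ModularCurve AlgebraicCurve Fermat.Agent.S24 Fermat.Agent.S18 Fermat.Agent.S18.Content
  Fermat.Agent.S18.Plan Fermat.Agent.S36.Plan Fermat.Agent.S36.K0Plan Fermat.Agent.S36.FgLam

set_option synthInstance.maxHeartbeats 400000
set_option maxHeartbeats 1600000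
set_option linter.unusedSectionVars false

variable {A : ValuationSubring Kbar} {N' M q : ℕ} [NeZero N'] [NeZero M] [NeZero q]
  {O : Subring Om} {ρ : O →+* Rq A q} {h : Nat.Coprime M q} {F : Plan.Frame M q h}

/-- `0 ≤ E`. -/
theorem nonneg (hq' : q ∣ N') {E : Divisor Kbar (FN (N' * q))}
    (hE : IsE3 (N' * q) q (Dvd.intro_left N' rfl) (Nat.mul_dvd_mul_right hq' q) E) :
    ∀ P, 0 ≤ E P :=
  fun P => BpInt.nonneg_E hE P

/-- Every element of `B'` is integral over `A[j]`. -/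
theorem isIntegral_AJ (hqp : q.Prime) (hA : A.LiesOverPrime q) (hS : IsSetup A F O ρ)
    (hq' : q ∣ N') (hNdvd : N' * q ∣ M * q * q) {E : Divisor Kbar (FN (N' * q))}
    (hE : IsE3 (N' * q) q (Dvd.intro_left N' rfl) (Nat.mul_dvd_mul_right hq' q) E) {b : O}
    (hb : b ∈ Bp A N' M q O E) : IsIntegral (Fermat.Agent.S37.Plan2.AJ A) (b : Om) :=
  isIntegral_AJ_of_mem_Bp hqp hA ((Nat.Prime.coprime_iff_not_dvd hqp).mp h.symm) hq' hNdvd
    (InclFinal.isIntegral_OM hqp hA hS) hE hb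

/-- **`B'` is a noetherian ring** (any frame, any setup). -/
theorem isNoetherianRing_BpOm (hqp : q.Prime) (hA : A.LiesOverPrime q) (hS : IsSetup A F O ρ)
    (hq' : q ∣ N') (hNdvd : N' * q ∣ M * q * q) {E : Divisor Kbar (FN (N' * q))}
    (hE : IsE3 (N' * q) q (Dvd.intro_left N' rfl) (Nat.mul_dvd_mul_right hq' q) E) :
    IsNoetherianRing ↥(BpOm A N' M q O E (nonneg hq' hE)) :=
  FgLam.isNoetherianRing_BpOm hqp hA hS hq' hNdvd (InclFinal.isIntegral_OM hqp hA hS) hE
    (nonneg hq' hE)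

/-- **[FG-LAM]** `Λ'(D)` is a finitely generated `B'`-module as soon as `Λ'(-D) ≠ 0`
(any frame, any setup). -/
theorem fg_LamOm (hqp : q.Prime) (hA : A.LiesOverPrime q) (hS : IsSetup A F O ρ)
    (hq' : q ∣ N') (hNdvd : N' * q ∣ M * q * q) {E : Divisor Kbar (FN (N' * q))}
    (hE : IsE3 (N' * q) q (Dvd.intro_left N' rfl) (Nat.mul_dvd_mul_right hq' q) E)
    (D : Divisor Kbar (FN (N' * q)))
    (hd : ∃ d ∈ Lam A N' M q O E (-D), (d : Om) ≠ 0) :
    (LamOm A N' M q O E (nonneg hq' hE) D).FG :=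
  FgLam.fg_LamOm hqp hA hS hq' hNdvd (InclFinal.isIntegral_OM hqp hA hS) hE (nonneg hq' hE) D hd

/-- **[FG-LAM], generic-ring form** (any frame, any setup). -/
theorem fg_of_range_eq (hqp : q.Prime) (hA : A.LiesOverPrime q) (hS : IsSetup A F O ρ)
    (hq' : q ∣ N') (hNdvd : N' * q ∣ M * q * q) {E : Divisor Kbar (FN (N' * q))}
    (hE : IsE3 (N' * q) q (Dvd.intro_left N' rfl) (Nat.mul_dvd_mul_right hq' q) E)
    (D : Divisor Kbar (FN (N' * q)))
    (hd : ∃ d ∈ Lam A N' M q O E (-D), (d : Om) ≠ 0)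
    {R : Type*} [CommRing R] [Algebra R Om]
    (hR : ∀ x : Om, x ∈ (algebraMap R Om).range ↔ ∃ b ∈ Bp A N' M q O E, (b : Om) = x)
    (I : Submodule R Om) (hI : ∀ x : Om, x ∈ I ↔ ∃ g ∈ Lam A N' M q O E D, (g : Om) = x) :
    I.FG :=
  FgLam.fg_of_range_eq hqp hA hS hq' hNdvd (InclFinal.isIntegral_OM hqp hA hS) hE
    (nonneg hq' hE) D hd hR I hI

end Fermat.Agent.S36.FgLamFinal
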