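import Mathlib
import Fermat.Agent.Lib.FFSep.LSpace
import Fermat.Agent.S18.Char0
import Fermat.Agent.S34.Plan
import Fermat.Agent.S34.GalPull
import Fermat.Agent.S34.RRExact
import Fermat.Agent.S36.InvSpan

/-!
# S36 (P8) — [K0-INV]: `I(D) · I(-D) = B` on the generic fibre, with inertia-fixed factors (helper4)

`F / K` a function field in one variable over an algebraically closed field (`x` transcendental,
`F / K(x)` finite separable), `E ≥ 0` a divisor of positive degree, `D` any divisor.  Put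
`I(D) = ⋃_c L(D + cE)` (a module over the affine ring `B = ⋃_c L(cE)`).

* `exists_sum_mul_eq_one_generic` : `1 ∈ I(D) · I(-D)`, i.e. there are `c`, and finitely many
  `a_i ∈ L(D + cE)`, `b_i ∈ L(-D + cE)` with `∑ a_i b_i = 1`.  (Riemann's theorem + induction on
  the zero divisor of one product `a₀ b₀`; no Nullstellensatz, no Dedekind theory.)
* `exists_sum_mul_eq_one` : the same for `F_N` (any level `N`).
* `exists_fixed_sum_mul_eq_one` : **[K0-INV]** if `D` and `E` are stable under a set `H` of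
  automorphisms of `Q̄` (the inertia group of a place), the `a_i`, `b_i` can be taken fixed by the
  coefficientwise action of `H`.  This is the statement "a `K₀`-rational point of the generic
  fibre is unramified in `Q̄`" in the form consumed by the local step [BP] of the `K'`-chain:
  with local generators `g` of `Λ(D)` and `g'` of `Λ(-D)` at a closed point, `g g'` is a unit
  there, hence so is `gⁿ w` for a Kummer function `w` of `n D`.
* `exists_fixed_sum_mul_eq_one_top` : the same in `pullRR N Mt` for a top level `Mt`.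
-/

set_option autoImplicit false

noncomputable section

namespace Fermat.Agent.S36.K0Inv

open AlgebraicCurve IntermediateField

/-! ## The generic statement -/

section Generic

variable {K F : Type*} [Field K] [Field F] [Algebra K F]

theorem ord_ge_of_mem {A : Divisor K F} {f : F} (hf : f ∈ riemannRochSpace A) (hf0 : f ≠ 0)
    (v : Place K F) : -A v ≤ v.ord f :=
  ((mem_riemannRochSpace_iff.mp hf) v).resolve_left hf0

theorem mul_mem_add {A B : Divisor K F} {f g : F} (hf : f ∈ riemannRochSpace A)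
    (hg : g ∈ riemannRochSpace B) : f * g ∈ riemannRochSpace (A + B) := by
  rw [mem_riemannRochSpace_iff]
  intro v
  rcases eq_or_ne f 0 with rfl | hf0
  · left; rw [zero_mul]
  rcases eq_or_ne g 0 with rfl | hg0
  · left; rw [mul_zero]
  right
  have h1 := ord_ge_of_mem hf hf0 v
  have h2 := ord_ge_of_mem hg hg0 v
  rw [v.ord_mul hf0 hg0, Finsupp.add_apply]
  omega

theorem add_nsmul_apply (A E : Divisor K F) (c : ℕ) (v : Place K F) :
    (A + c • E) v = A v + c * E v := by
  rw [Finsupp.add_apply, Finsupp.smul_apply, nsmul_eq_mul]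

theorem rr_mono {A B : Divisor K F} (h : ∀ v, A v ≤ B v) :
    riemannRochSpace A ≤ riemannRochSpace B := by
  intro f hf
  rw [mem_riemannRochSpace_iff] at hf ⊢
  intro v
  rcases hf v with h0 | h1
  · exact Or.inl h0
  · right
    have := h v
    omega

theorem rr_mono_nsmul (A E : Divisor K F) (hE0 : ∀ v, 0 ≤ E v) {c c' : ℕ} (hc : c ≤ c') :
    riemannRochSpace (A + c • E) ≤ riemannRochSpace (A + c' • E) := by
  refine rr_mono (fun v => ?_)
  rw [add_nsmul_apply, add_nsmul_apply]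
  have h1 : (c : ℤ) * E v ≤ (c' : ℤ) * E v :=
    mul_le_mul_of_nonneg_right (by exact_mod_cast hc) (hE0 v)
  omega

theorem single_apply_ne {P v : Place K F} (hv : v ≠ P) (n : ℤ) :
    (Finsupp.single P n : Divisor K F) v = 0 := by
  classical
  rw [Finsupp.single_apply, if_neg (fun h => hv h.symm)]

/-- `h` is a finite sum of products `a * b` with `a ∈ L(D + cE)`, `b ∈ L(-D + cE)`. -/
def InJ (D E : Divisor K F) (h : F) : Prop :=
  ∃ (c r : ℕ) (a b : Fin r → F), (∀ i, a i ∈ riemannRochSpace (D + c • E)) ∧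
    (∀ i, b i ∈ riemannRochSpace (-D + c • E)) ∧ ∑ i, a i * b i = h

theorem InJ.zero (D E : Divisor K F) : InJ D E 0 :=
  ⟨0, 0, Fin.elim0, Fin.elim0, fun i => i.elim0, fun i => i.elim0, by simp⟩

theorem InJ.of_mul {D E : Divisor K F} {c : ℕ} {a b : F}
    (ha : a ∈ riemannRochSpace (D + c • E)) (hb : b ∈ riemannRochSpace (-D + c • E)) :
    InJ D E (a * b) :=
  ⟨c, 1, fun _ => a, fun _ => b, fun _ => ha, fun _ => hb, by simp⟩

theorem InJ.add {D E : Divisor K F} (hE0 : ∀ v, 0 ≤ E v) {h₁ h₂ : F} (H₁ : InJ D E h₁)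
    (H₂ : InJ D E h₂) : InJ D E (h₁ + h₂) := by
  obtain ⟨c₁, r₁, a₁, b₁, ha₁, hb₁, hs₁⟩ := H₁
  obtain ⟨c₂, r₂, a₂, b₂, ha₂, hb₂, hs₂⟩ := H₂
  refine ⟨max c₁ c₂, r₁ + r₂, Fin.append a₁ a₂, Fin.append b₁ b₂, ?_, ?_, ?_⟩
  · intro i
    refine Fin.addCases (fun i => ?_) (fun i => ?_) i
    · rw [Fin.append_left]
      exact rr_mono_nsmul D E hE0 (le_max_left c₁ c₂) (ha₁ i)
    · rw [Fin.append_right]
      exact rr_mono_nsmul D E hE0 (le_max_right c₁ c₂) (ha₂ i)
  · intro i
    refine Fin.addCases (fun i => ?_) (fun i => ?_) i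
    · rw [Fin.append_left]
      exact rr_mono_nsmul (-D) E hE0 (le_max_left c₁ c₂) (hb₁ i)
    · rw [Fin.append_right]
      exact rr_mono_nsmul (-D) E hE0 (le_max_right c₁ c₂) (hb₂ i)
  · rw [Fin.sum_univ_add]
    simp only [Fin.append_left, Fin.append_right]
    rw [hs₁, hs₂]

theorem InJ.mul_left {D E : Divisor K F} (hE0 : ∀ v, 0 ≤ E v) {u h : F} {c' : ℕ}
    (hu : u ∈ riemannRochSpace (c' • E)) (H : InJ D E h) : InJ D E (u * h) := by
  obtain ⟨c, r, a, b, ha, hb, hs⟩ := H
  refine ⟨c + c', r, fun i => u * a i, b, fun i => ?_, fun i => ?_, ?_⟩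
  · have h1 := mul_mem_add hu (ha i)
    refine rr_mono (fun v => ?_) h1
    rw [Finsupp.add_apply, add_nsmul_apply, add_nsmul_apply, Finsupp.smul_apply, nsmul_eq_mul]
    push_cast
    have := hE0 v
    nlinarith
  · exact rr_mono_nsmul (-D) E hE0 (Nat.le_add_right c c') (hb i)
  · rw [← hs, Finset.mul_sum]
    exact Finset.sum_congr rfl fun i _ => by rw [mul_assoc]

theorem InJ.smul {D E : Divisor K F} (lam : K) {h : F} (H : InJ D E h) :
    InJ D E (algebraMap K F lam * h) := by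
  obtain ⟨c, r, a, b, ha, hb, hs⟩ := H
  refine ⟨c, r, fun i => lam • a i, b, fun i => Submodule.smul_mem _ _ (ha i), hb, ?_⟩
  rw [← hs, Finset.mul_sum]
  refine Finset.sum_congr rfl fun i _ => ?_
  show lam • a i * b i = algebraMap K F lam * (a i * b i)
  rw [Algebra.smul_def, mul_assoc]

/-- An effective divisor of degree `≤ 0` is zero (all places of degree one). -/
theorem eq_zero_of_nonneg_of_degree_le (hdeg1 : ∀ P : Place K F, P.deg = 1)
    (Z : Divisor K F) (hZ : ∀ P, 0 ≤ Z P) (h0 : Divisor.degree Z ≤ 0) : Z = 0 := by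
  have hsum : Divisor.degree Z = ∑ P ∈ Z.support, Z P := by
    simp [Divisor.degree, Finsupp.liftAddHom_apply, Finsupp.sum, hdeg1]
  rw [hsum] at h0
  have h1 : ∑ P ∈ Z.support, Z P = 0 :=
    le_antisymm h0 (Finset.sum_nonneg fun P _ => hZ P)
  have h2 := (Finset.sum_eq_zero_iff_of_nonneg fun P _ => hZ P).mp h1
  ext P
  by_cases hP : P ∈ Z.support
  · rw [h2 P hP, Finsupp.zero_apply]
  · rw [Finsupp.notMem_support_iff.mp hP, Finsupp.zero_apply]

/-- In the range of Riemann's equality, `L(A)` contains a function of exact order `-A P` at `P`. -/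
theorem exists_exact (x : F) [FiniteDimensional K⟮x⟯ F] [Algebra.IsSeparable K⟮x⟯ F]
    [IsAlgClosed K] {g d₀ : ℤ}
    (hR : ∀ A : Divisor K F, d₀ ≤ Divisor.degree A →
      (Module.finrank K (riemannRochSpace A) : ℤ) = Divisor.degree A + 1 - g)
    (A : Divisor K F) (P : Place K F) (hA : d₀ + 1 ≤ Divisor.degree A) :
    ∃ a ∈ riemannRochSpace A, a ≠ 0 ∧ P.ord a = -A P := by
  classical
  have h1 := hR A (by omega)
  have hdeg : Divisor.degree (A - Finsupp.single P 1) = Divisor.degree A - 1 := by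
    rw [map_sub, Divisor.degree_single, Lib.FFSep.deg_eq_one x P]
    simp
  have h2 := hR (A - Finsupp.single P 1) (by omega)
  by_contra hcon
  push Not at hcon
  have hge : riemannRochSpace A ≤ riemannRochSpace (A - Finsupp.single P 1) := by
    intro a ha
    rcases eq_or_ne a 0 with rfl | ha0
    · exact zero_mem _
    rw [mem_riemannRochSpace_iff]
    intro v
    right
    have h3 := ord_ge_of_mem ha ha0 v
    by_cases hv : v = P
    · subst hv
      have h4 := hcon a ha ha0
      rw [Finsupp.sub_apply, Finsupp.single_eq_same]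
      omega
    · rw [Finsupp.sub_apply, single_apply_ne hv]
      omega
  have hle : riemannRochSpace (A - Finsupp.single P 1) ≤ riemannRochSpace A := by
    refine rr_mono (fun v => ?_)
    rw [Finsupp.sub_apply]
    by_cases hv : v = P
    · subst hv
      rw [Finsupp.single_eq_same]
      omega
    · rw [single_apply_ne hv]
      omega
  rw [le_antisymm hle hge, hdeg] at h2
  omega

theorem exists_degree_ge (E : Divisor K F) (hE : 0 < Divisor.degree E) (A : Divisor K F)
    (d : ℤ) : ∃ c₀ : ℕ, ∀ c : ℕ, c₀ ≤ c → d ≤ Divisor.degree (A + c • E) := by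
  refine ⟨(d - Divisor.degree A).toNat, fun c hc => ?_⟩
  rw [map_add, map_nsmul, nsmul_eq_mul]
  have h1 : d - Divisor.degree A ≤ (c : ℤ) := by
    have := Int.self_le_toNat (d - Divisor.degree A)
    have h2 : ((d - Divisor.degree A).toNat : ℤ) ≤ (c : ℤ) := by exact_mod_cast hc
    omega
  have h3 : (c : ℤ) ≤ (c : ℤ) * Divisor.degree E := by
    have : (0 : ℤ) ≤ (c : ℤ) := Nat.cast_nonneg c
    nlinarith
  omega

/-- **The induction step**: if `I(-(Z + P)) ⊆ J` then `I(-Z) ⊆ J`. -/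
theorem step {x : F} [FiniteDimensional K⟮x⟯ F] [Algebra.IsSeparable K⟮x⟯ F] [IsAlgClosed K]
    (hxt : Transcendental K x) (D E : Divisor K F) (hE0 : ∀ v, 0 ≤ E v)
    (hE : 0 < Divisor.degree E) (Z : Divisor K F) (hZ : ∀ v, 0 ≤ Z v) (P : Place K F)
    (h : ∀ (f : F) (c : ℕ),
      f ∈ riemannRochSpace (-(Z + Finsupp.single P 1) + c • E) → InJ D E f) :
    ∀ (f : F) (c : ℕ), f ∈ riemannRochSpace (-Z + c • E) → InJ D E f := by
  classical
  intro f c₁ hf
  by_cases hEP : E P = 0
  swap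
  · -- `P` in the support of `E`: no condition at `P`
    have hEP1 : 1 ≤ E P := by
      have := hE0 P
      omega
    refine h f (c₁ + 1) (rr_mono (fun v => ?_) hf)
    rw [add_nsmul_apply, add_nsmul_apply, Finsupp.neg_apply, Finsupp.neg_apply,
      Finsupp.add_apply]
    push_cast
    by_cases hv : v = P
    · subst hv
      rw [Finsupp.single_eq_same]
      nlinarith [hE0 v]
    · rw [single_apply_ne hv]
      nlinarith [hE0 v]
  obtain ⟨g, d₀, -, hR⟩ := Lib.FFSep.exists_riemann (F := F) hxt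
  obtain ⟨k₁, hk₁⟩ := exists_degree_ge E hE D (d₀ + 1)
  obtain ⟨k₂, hk₂⟩ := exists_degree_ge E hE (-D) (d₀ + 1)
  obtain ⟨k₃, hk₃⟩ := exists_degree_ge E hE (-Z) (d₀ + 1)
  set c : ℕ := max k₁ (max k₂ k₃) with hc
  have hc1 : k₁ ≤ c := le_max_left _ _
  have hc2 : k₂ ≤ c := (le_max_left _ _).trans (le_max_right _ _)
  have hc3 : k₃ ≤ c := (le_max_right _ _).trans (le_max_right _ _)
  obtain ⟨a, ha, ha0, haP⟩ := exists_exact x hR (D + c • E) P (hk₁ c hc1)
  obtain ⟨b, hb, hb0, hbP⟩ := exists_exact x hR (-D + c • E) P (hk₂ c hc2)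
  obtain ⟨u, hu, hu0, huP⟩ := exists_exact x hR (-Z + c • E) P (hk₃ c hc3)
  rw [add_nsmul_apply, hEP, mul_zero, add_zero] at haP hbP huP
  rw [Finsupp.neg_apply] at hbP huP
  -- the element `t = u a b ∈ J`, of exact order `Z P` at `P`
  set t : F := u * (a * b) with ht
  have hab0 : a * b ≠ 0 := mul_ne_zero ha0 hb0
  have ht0 : t ≠ 0 := mul_ne_zero hu0 hab0
  have htP : P.ord t = Z P := by
    rw [ht, P.ord_mul hu0 hab0, P.ord_mul ha0 hb0, haP, hbP, huP]
    ring
  have huE : u ∈ riemannRochSpace (c • E) := by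
    refine rr_mono (fun v => ?_) hu
    rw [add_nsmul_apply, Finsupp.neg_apply, Finsupp.smul_apply, nsmul_eq_mul]
    have := hZ v
    omega
  have htJ : InJ D E t := InJ.mul_left hE0 huE (InJ.of_mul ha hb)
  have htmem : t ∈ riemannRochSpace (-Z + (3 * c) • E) := by
    have h1 := mul_mem_add hu (mul_mem_add ha hb)
    refine rr_mono (fun v => ?_) h1
    simp only [Finsupp.add_apply, Finsupp.neg_apply, Finsupp.smul_apply, nsmul_eq_mul]
    push_cast
    linarith
  rcases eq_or_ne f 0 with rfl | hf0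
  · exact InJ.zero D E
  have hfP : Z P ≤ P.ord f := by
    have h1 := ord_ge_of_mem hf hf0 P
    rw [add_nsmul_apply, hEP, mul_zero, add_zero, Finsupp.neg_apply, neg_neg] at h1
    exact h1
  have hti0 : t⁻¹ ≠ 0 := inv_ne_zero ht0
  have hmem : f * t⁻¹ ∈ P.toValuationSubring := by
    rw [Lib.FFPlaces.mem_iff_ord_nonneg P (mul_ne_zero hf0 hti0), P.ord_mul hf0 hti0, P.ord_inv,
      htP]
    omega
  obtain ⟨lam, hlam⟩ := Lib.RationalFF.exists_residue_of_deg_eq_one P
    (Lib.FFSep.deg_eq_one x P) hmem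
  set c₂ : ℕ := max c₁ (3 * c) with hc₂
  have hfmem : f ∈ riemannRochSpace (-Z + c₂ • E) :=
    rr_mono_nsmul (-Z) E hE0 (le_max_left _ _) hf
  have htmem' : algebraMap K F lam * t ∈ riemannRochSpace (-Z + c₂ • E) := by
    have h1 := rr_mono_nsmul (-Z) E hE0 (le_max_right c₁ (3 * c)) htmem
    have h2 := Submodule.smul_mem _ lam h1
    rwa [Algebra.smul_def] at h2
  have hsub : f - algebraMap K F lam * t ∈ riemannRochSpace (-Z + c₂ • E) :=
    Submodule.sub_mem _ hfmem htmem'
  have key : f - algebraMap K F lam * t ∈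
      riemannRochSpace (-(Z + Finsupp.single P 1) + c₂ • E) := by
    rw [mem_riemannRochSpace_iff]
    intro v
    by_cases hd0 : f - algebraMap K F lam * t = 0
    · exact Or.inl hd0
    right
    have h3 := ord_ge_of_mem hsub hd0 v
    rw [add_nsmul_apply, Finsupp.neg_apply] at h3
    rw [add_nsmul_apply, Finsupp.neg_apply, Finsupp.add_apply]
    by_cases hv : v = P
    · subst hv
      rw [Finsupp.single_eq_same, hEP, mul_zero, add_zero]
      have hfac : f - algebraMap K F lam * t = (f * t⁻¹ - algebraMap K F lam) * t := by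
        field_simp
      have hne : f * t⁻¹ - algebraMap K F lam ≠ 0 := by
        intro h0
        rw [hfac, h0, zero_mul] at hd0
        exact hd0 rfl
      rcases hlam with hl | hl
      · exact absurd (sub_eq_zero.mpr hl) hne
      · rw [hfac, v.ord_mul hne ht0, htP]
        omega
    · rw [single_apply_ne hv]
      omega
  have h5 := InJ.add hE0 (h _ _ key) (InJ.smul lam htJ)
  rwa [sub_add_cancel] at h5

/-- **`1 ∈ I(D) · I(-D)`**, generic form. -/
theorem exists_sum_mul_eq_one_generic {x : F} [FiniteDimensional K⟮x⟯ F]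
    [Algebra.IsSeparable K⟮x⟯ F] [IsAlgClosed K] (hxt : Transcendental K x) (D E : Divisor K F)
    (hE0 : ∀ v, 0 ≤ E v) (hE : 0 < Divisor.degree E) : InJ D E 1 := by
  classical
  obtain ⟨g, d₀, -, hR⟩ := Lib.FFSep.exists_riemann (F := F) hxt
  obtain ⟨P₀⟩ := Lib.FFSep.nonempty_place (F := F) hxt
  obtain ⟨k₁, hk₁⟩ := exists_degree_ge E hE D (d₀ + 1)
  obtain ⟨k₂, hk₂⟩ := exists_degree_ge E hE (-D) (d₀ + 1)
  set c : ℕ := max k₁ k₂ with hc
  obtain ⟨a, ha, ha0, -⟩ := exists_exact x hR (D + c • E) P₀ (hk₁ c (le_max_left _ _))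
  obtain ⟨b, hb, hb0, -⟩ := exists_exact x hR (-D + c • E) P₀ (hk₂ c (le_max_right _ _))
  set h₀ : F := a * b with hh₀
  have hh0 : h₀ ≠ 0 := mul_ne_zero ha0 hb0
  have hh₀mem : h₀ ∈ riemannRochSpace ((2 * c) • E) := by
    have h1 := mul_mem_add ha hb
    refine rr_mono (fun v => ?_) h1
    simp only [Finsupp.add_apply, Finsupp.neg_apply, Finsupp.smul_apply, nsmul_eq_mul]
    push_cast
    linarith
  -- the effective divisor `Z₀ = div h₀ + 2cE`
  set Z₀ : Divisor K F := Lib.FFSep.divOf hxt h₀ + (2 * c) • E with hZ₀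
  have hZ₀apply : ∀ v, Z₀ v = v.ord h₀ + (2 * c : ℕ) * E v := fun v => by
    rw [hZ₀, add_nsmul_apply, Lib.FFSep.divOf_apply]
  have hZ₀nn : ∀ v, 0 ≤ Z₀ v := by
    intro v
    have h1 := ord_ge_of_mem hh₀mem hh0 v
    rw [Finsupp.smul_apply, nsmul_eq_mul] at h1
    rw [hZ₀apply]
    omega
  have hbase : ∀ (f : F) (c₁ : ℕ), f ∈ riemannRochSpace (-Z₀ + c₁ • E) → InJ D E f := by
    intro f c₁ hf
    rcases eq_or_ne f 0 with rfl | hf0
    · exact InJ.zero D E
    have hu : f * h₀⁻¹ ∈ riemannRochSpace (c₁ • E) := by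
      rw [mem_riemannRochSpace_iff]
      intro v
      right
      have h1 := ord_ge_of_mem hf hf0 v
      rw [add_nsmul_apply, Finsupp.neg_apply, hZ₀apply] at h1
      rw [v.ord_mul hf0 (inv_ne_zero hh0), v.ord_inv, Finsupp.smul_apply, nsmul_eq_mul]
      have h2 : (0 : ℤ) ≤ ((2 * c : ℕ) : ℤ) * E v := mul_nonneg (Nat.cast_nonneg _) (hE0 v)
      omega
    have h3 := InJ.mul_left hE0 hu (InJ.of_mul ha hb)
    have h4 : f * h₀⁻¹ * (a * b) = f := by
      rw [← hh₀]
      field_simp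
    rwa [h4] at h3
  -- induction on the degree of `Z`
  have main : ∀ (n : ℕ) (Z : Divisor K F), (∀ v, 0 ≤ Z v) → Divisor.degree Z ≤ n →
      (∀ (f : F) (c₁ : ℕ), f ∈ riemannRochSpace (-Z + c₁ • E) → InJ D E f) → InJ D E 1 := by
    intro n
    induction n with
    | zero =>
      intro Z hZ hdeg hyp
      have hZ0 : Z = 0 := eq_zero_of_nonneg_of_degree_le
        (fun P => Lib.FFSep.deg_eq_one x P) Z hZ (by exact_mod_cast hdeg)
      refine hyp 1 0 ?_
      rw [mem_riemannRochSpace_iff]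
      intro v
      right
      rw [hZ0, v.ord_one]
      simp
    | succ n ih =>
      intro Z hZ hdeg hyp
      by_cases hZ0 : Z = 0
      · refine hyp 1 0 ?_
        rw [mem_riemannRochSpace_iff]
        intro v
        right
        rw [hZ0, v.ord_one]
        simp
      obtain ⟨P, hP⟩ : ∃ P, Z P ≠ 0 := by
        by_contra hcon
        push Not at hcon
        exact hZ0 (Finsupp.ext fun v => by rw [hcon v, Finsupp.zero_apply])
      have hP1 : 1 ≤ Z P := by
        have := hZ P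
        omega
      set Z' : Divisor K F := Z - Finsupp.single P 1 with hZ'
      have hZZ' : Z = Z' + Finsupp.single P 1 := by rw [hZ', sub_add_cancel]
      have hZ'nn : ∀ v, 0 ≤ Z' v := by
        intro v
        rw [hZ', Finsupp.sub_apply]
        by_cases hv : v = P
        · subst hv
          rw [Finsupp.single_eq_same]
          omega
        · rw [single_apply_ne hv, sub_zero]
          exact hZ v
      have hdeg' : Divisor.degree Z' ≤ n := by
        rw [hZ', map_sub, Divisor.degree_single, Lib.FFSep.deg_eq_one x P]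
        push_cast at hdeg ⊢
        omega
      rw [hZZ'] at hyp
      exact ih Z' hZ'nn hdeg' (step hxt D E hE0 hE Z' hZ'nn P hyp)
  exact main (Divisor.degree Z₀).toNat Z₀ hZ₀nn (Int.self_le_toNat _) hbase

/-- `L(A - P)` inside `L(A)`: the elements that are zero or not of exact order `-A P` at `P`. -/
theorem mem_sub_single {A : Divisor K F} {P : Place K F} {f : F} (hf : f ∈ riemannRochSpace A)
    (h : f = 0 ∨ P.ord f ≠ -A P) : f ∈ riemannRochSpace (A - Finsupp.single P 1) := by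
  classical
  rcases eq_or_ne f 0 with rfl | hf0
  · exact zero_mem _
  rw [mem_riemannRochSpace_iff]
  intro v
  right
  have h3 := ord_ge_of_mem hf hf0 v
  by_cases hv : v = P
  · subst hv
    have h4 := h.resolve_left hf0
    rw [Finsupp.sub_apply, Finsupp.single_eq_same]
    omega
  · rw [Finsupp.sub_apply, single_apply_ne hv]
    omega

theorem ord_gt_of_mem_sub_single {A : Divisor K F} {P : Place K F} {f : F}
    (hf : f ∈ riemannRochSpace (A - Finsupp.single P 1)) (hf0 : f ≠ 0) : -A P < P.ord f := by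
  classical
  have h3 := ord_ge_of_mem hf hf0 P
  rw [Finsupp.sub_apply, Finsupp.single_eq_same] at h3
  omega

end Generic

/-! ## The modular function fields `F_N` -/

section Level

open ModularCurve Fermat.Agent.S24 Fermat.Agent.S18 Fermat.Agent.S18.Content Fermat.Agent.S18.Plan
open Fermat.Agent.S34

variable (N : ℕ) [NeZero N]

/-- **`1 ∈ I(D) · I(-D)` on `F_N`** (any level): there are `c` and finitely many
`a_i ∈ L(D + cE)`, `b_i ∈ L(-D + cE)` with `∑ a_i b_i = 1`. -/
theorem exists_sum_mul_eq_one (D E : Divisor Kbar (FN N)) (hE0 : ∀ P, 0 ≤ E P)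
    (hE : 0 < Divisor.degree E) :
    ∃ (c r : ℕ) (a b : Fin r → FN N), (∀ i, a i ∈ riemannRochSpace (D + c • E)) ∧
      (∀ i, b i ∈ riemannRochSpace (-D + c • E)) ∧ ∑ i, a i * b i = 1 := by
  have := FibreCount.finiteDimensional N
  have := Char0.isSeparable_jBar N
  exact exists_sum_mul_eq_one_generic (FibreCount.transcendental_jBar N) D E hE0 hE

/-- Coefficientwise semilinearity of `coeffMap`. -/
theorem coeffMap_smul_eq {K : Type*} [Field K] (φ : K →+* K) (c : K) (y : LaurentSeries K) :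
    coeffMap φ (c • y) = φ c • coeffMap φ y := by
  ext n
  simp

/-- **Descent of a linear relation.**  A fixed vector in the span of a family of fixed vectors is
a combination, with FIXED coefficients, of members of the family. -/
theorem exists_fixed_coeffs {K : Type*} [Field K] (S : Set (K →+* K)) {ι : Type*}
    (p : ι → LaurentSeries K) (hp : ∀ i, ∀ φ ∈ S, coeffMap φ (p i) = p i)
    (y : LaurentSeries K) (hy : y ∈ Submodule.span K (Set.range p))
    (hyfix : ∀ φ ∈ S, coeffMap φ y = y) :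
    ∃ (r : ℕ) (idx : Fin r → ι) (γ : Fin r → K), (∀ j, ∀ φ ∈ S, φ (γ j) = γ j) ∧
      y = ∑ j, γ j • p (idx j) := by
  classical
  obtain ⟨b, hbsub, hbspan, hbli⟩ := exists_linearIndependent K (Set.range p)
  have hyb : y ∈ Submodule.span K (Set.range (Subtype.val : b → LaurentSeries K)) := by
    rw [Subtype.range_coe, hbspan]
    exact hy
  obtain ⟨l, hl⟩ := (Finsupp.mem_span_range_iff_exists_finsupp).mp hyb
  have hbfix : ∀ s : b, ∀ φ ∈ S, coeffMap φ (s : LaurentSeries K) = (s : LaurentSeries K) := by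
    intro s φ hφ
    obtain ⟨i, hi⟩ := hbsub s.2
    rw [← hi]
    exact hp i φ hφ
  have hlfix : ∀ s : b, ∀ φ ∈ S, φ (l s) = l s := by
    intro s φ hφ
    have h1 : (Finsupp.linearCombination K (Subtype.val : b → LaurentSeries K))
        (l.mapRange φ (map_zero φ)) = y := by
      rw [Finsupp.linearCombination_apply,
        Finsupp.sum_mapRange_index (h := fun (i : b) (a : K) => a • (i : LaurentSeries K))
          (fun i => zero_smul K _)]
      have h2 : coeffMap φ y = l.sum fun a c => φ c • (a : LaurentSeries K) := by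
        rw [← hl, Finsupp.sum, map_sum]
        exact Finset.sum_congr rfl fun a _ => by rw [coeffMap_smul_eq, hbfix a φ hφ]
      rw [← h2, hyfix φ hφ]
    have h3 : (Finsupp.linearCombination K (Subtype.val : b → LaurentSeries K)) l = y := by
      rw [Finsupp.linearCombination_apply]
      exact hl
    have h4 := hbli (h1.trans h3.symm)
    have h5 := congrArg (fun m : b →₀ K => m s) h4
    simpa using h5
  have hy' : y = ∑ s ∈ l.support, l s • (s : LaurentSeries K) := by
    rw [← hl, Finsupp.sum]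
  choose idx hidx using fun s : b => hbsub s.2
  let e := l.support.equivFin
  refine ⟨l.support.card, fun j => idx (e.symm j).1, fun j => l (e.symm j).1,
    fun j φ hφ => hlfix _ φ hφ, ?_⟩
  rw [hy', ← Finset.sum_coe_sort l.support, ← Equiv.sum_comp e.symm]
  exact Finset.sum_congr rfl fun j _ => by rw [hidx]

/-- Products of spans lie in the span of the products (Laurent series, coefficientwise scalars). -/
theorem mul_mem_span_prod {K : Type*} [Field K] {ι κ : Type*} (ea : ι → LaurentSeries K)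
    (eb : κ → LaurentSeries K) {u v : LaurentSeries K}
    (hu : u ∈ Submodule.span K (Set.range ea)) (hv : v ∈ Submodule.span K (Set.range eb)) :
    u * v ∈ Submodule.span K (Set.range fun x : ι × κ => ea x.1 * eb x.2) := by
  induction hu using Submodule.span_induction with
  | mem x hx =>
    obtain ⟨i, rfl⟩ := hx
    induction hv using Submodule.span_induction with
    | mem y hy =>
      obtain ⟨j, rfl⟩ := hy
      exact Submodule.subset_span ⟨(i, j), rfl⟩
    | zero => rw [mul_zero]; exact zero_mem _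
    | add y z _ _ hy hz => rw [mul_add]; exact add_mem hy hz
    | smul c y _ hy =>
      rw [← HahnSeries.C_mul_eq_smul, mul_left_comm, HahnSeries.C_mul_eq_smul]
      exact Submodule.smul_mem _ _ hy
  | zero => rw [zero_mul]; exact zero_mem _
  | add x y _ _ hx hy => rw [add_mul]; exact add_mem hx hy
  | smul c x _ hx =>
    rw [← HahnSeries.C_mul_eq_smul, mul_assoc, HahnSeries.C_mul_eq_smul]
    exact Submodule.smul_mem _ _ hx

omit [NeZero N] in
/-- The pull-back space `pullRR N N B` of an `H`-stable divisor is stable under `coeffMap τ`. -/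
theorem coeffMap_mem_of_stable (H : Set (Kbar ≃ₐ[ℚ] Kbar)) (D E : Divisor Kbar (FN N))
    (hDst : ∀ τ ∈ H, Fermat.Agent.S34.Plan.gal N τ • D = D) (hEst : ∀ τ ∈ H, Fermat.Agent.S34.Plan.gal N τ • E = E) (c : ℕ)
    (Mt : ℕ) :
    ∀ τ ∈ H, ∀ w ∈ pullRR N Mt (D + c • E),
      coeffMap ((τ : Kbar ≃ₐ[ℚ] Kbar) : Kbar →+* Kbar) w ∈ pullRR N Mt (D + c • E) := by
  intro τ hτ w hw
  have h1 := GalPull.coeffMap_mem_pullRR τ hw
  have h2 : GalPull.gQ N τ • (D + c • E) = D + c • E := by
    rw [GalPull.smul_add_nsmul _ D E (hEst τ hτ) c]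
    exact congrArg (· + c • E) (hDst τ hτ)
  rwa [h2] at h1

/-- **[K0-INV], global form.**  For `H`-stable `D`, `E` (`E ≥ 0`, `deg E > 0`) there are `c` and
finitely many `H`-fixed `a_i ∈ L(D + cE)`, `b_i ∈ L(-D + cE)` with `∑ a_i b_i = 1`. -/
theorem exists_fixed_sum_mul_eq_one (H : Set (Kbar ≃ₐ[ℚ] Kbar)) (D E : Divisor Kbar (FN N))
    (hE0 : ∀ P, 0 ≤ E P) (hE : 0 < Divisor.degree E)
    (hDst : ∀ τ ∈ H, Fermat.Agent.S34.Plan.gal N τ • D = D) (hEst : ∀ τ ∈ H, Fermat.Agent.S34.Plan.gal N τ • E = E) :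
    ∃ (c r : ℕ) (a b : Fin r → Om), (∀ i, a i ∈ pullRR N N (D + c • E)) ∧
      (∀ i, b i ∈ pullRR N N (-D + c • E)) ∧
      (∀ i, ∀ τ ∈ H, coeffMap ((τ : Kbar ≃ₐ[ℚ] Kbar) : Kbar →+* Kbar) (a i) = a i) ∧
      (∀ i, ∀ τ ∈ H, coeffMap ((τ : Kbar ≃ₐ[ℚ] Kbar) : Kbar →+* Kbar) (b i) = b i) ∧
      ∑ i, a i * b i = 1 := by
  classical
  obtain ⟨c, r₀, a₀, b₀, ha₀, hb₀, hsum⟩ := exists_sum_mul_eq_one N D E hE0 hE
  have hDst' : ∀ τ ∈ H, Fermat.Agent.S34.Plan.gal N τ • (-D) = -D := fun τ hτ => by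
    rw [smul_neg, hDst τ hτ]
  have := RRExact.finite_pullRR_self N (D + c • E)
  have := RRExact.finite_pullRR_self N (-D + c • E)
  obtain ⟨ra, ea, -, heaW, heafix, -, -, heaspan⟩ :=
    InvSpan.exists_fixed_basis_aut H (pullRR N N (D + c • E))
      (coeffMap_mem_of_stable N H D E hDst hEst c N)
  obtain ⟨rb, eb, -, hebW, hebfix, -, -, hebspan⟩ :=
    InvSpan.exists_fixed_basis_aut H (pullRR N N (-D + c • E))
      (coeffMap_mem_of_stable N H (-D) E hDst' hEst c N)
  -- the fixed products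
  set p : Fin ra × Fin rb → Om := fun x => ea x.1 * eb x.2 with hp
  have hone : (1 : Om) ∈ Submodule.span Kbar (Set.range p) := by
    have h1 : (1 : Om) = ∑ i, (a₀ i : Om) * (b₀ i : Om) := by
      have h2 : ((∑ i, a₀ i * b₀ i : FN N) : Om) = ((1 : FN N) : Om) := congrArg _ hsum
      push_cast at h2
      exact h2.symm
    rw [h1]
    refine Submodule.sum_mem _ fun i _ => ?_
    have hA : (a₀ i : Om) ∈ Submodule.span Kbar (Set.range ea) := by
      rw [heaspan]
      exact PullPlan.coe_mem_pullRR (le_refl _) (ha₀ i)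
    have hB : (b₀ i : Om) ∈ Submodule.span Kbar (Set.range eb) := by
      rw [hebspan]
      exact PullPlan.coe_mem_pullRR (le_refl _) (hb₀ i)
    exact mul_mem_span_prod ea eb hA hB
  obtain ⟨r, idx, γ, hγ, h1⟩ := exists_fixed_coeffs
    {φ : Kbar →+* Kbar | ∃ τ ∈ H, φ = ((τ : Kbar ≃ₐ[ℚ] Kbar) : Kbar →+* Kbar)} p
    (by
      rintro x _ ⟨τ, hτ, rfl⟩
      rw [hp]
      simp only
      rw [map_mul, heafix x.1 τ hτ, hebfix x.2 τ hτ])
    1 hone (by rintro _ ⟨τ, hτ, rfl⟩; exact map_one _)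
  refine ⟨c, r, fun j => γ j • ea (idx j).1, fun j => eb (idx j).2,
    fun j => Submodule.smul_mem _ _ (heaW _), fun j => hebW _, fun j τ hτ => ?_,
    fun j τ hτ => hebfix _ τ hτ, ?_⟩
  · rw [coeffMap_smul_eq, heafix _ τ hτ]
    congr 1
    exact hγ j _ ⟨τ, hτ, rfl⟩
  · rw [h1]
    refine Finset.sum_congr rfl fun j _ => ?_
    show γ j • ea (idx j).1 * eb (idx j).2 = γ j • (ea (idx j).1 * eb (idx j).2)
    rw [← HahnSeries.C_mul_eq_smul, ← HahnSeries.C_mul_eq_smul, mul_assoc]

/-- **[K0-INV], per-place form.**  For an `H`-stable divisor `D + cE` in the range of Riemann's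
equality, every place `P` of `F_N` has an `H`-FIXED function of `L(D + cE)` of EXACT order
`-(D + cE)(P)` at `P`.  (A `K₀`-rational point of the generic fibre is unramified in `Q̄`.) -/
theorem exists_fixed_exact (H : Set (Kbar ≃ₐ[ℚ] Kbar)) (D E : Divisor Kbar (FN N))
    (hE : 0 < Divisor.degree E)
    (hDst : ∀ τ ∈ H, Fermat.Agent.S34.Plan.gal N τ • D = D) (hEst : ∀ τ ∈ H, Fermat.Agent.S34.Plan.gal N τ • E = E) :
    ∃ c₀ : ℕ, ∀ c : ℕ, c₀ ≤ c → ∀ P : Place Kbar (FN N),
      ∃ f : FN N, f ≠ 0 ∧ f ∈ riemannRochSpace (D + c • E) ∧ P.ord f = -(D + c • E) P ∧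
        ∀ τ ∈ H, coeffMap ((τ : Kbar ≃ₐ[ℚ] Kbar) : Kbar →+* Kbar) (f : Om) = (f : Om) := by
  classical
  have := FibreCount.finiteDimensional N
  have := Char0.isSeparable_jBar N
  have hxt := FibreCount.transcendental_jBar N
  obtain ⟨g, d₀, -, hR⟩ := Lib.FFSep.exists_riemann (F := FN N) hxt
  obtain ⟨c₀, hc₀⟩ := exists_degree_ge E hE D (d₀ + 1)
  refine ⟨c₀, fun c hc P => ?_⟩
  set B : Divisor Kbar (FN N) := D + c • E with hB
  obtain ⟨a, ha, ha0, haP⟩ := exists_exact (jBar N) hR B P (hc₀ c hc)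
  have := RRExact.finite_pullRR_self N B
  obtain ⟨r, e, -, heW, hefix, -, -, hespan⟩ :=
    InvSpan.exists_fixed_basis_aut H (pullRR N N B)
      (coeffMap_mem_of_stable N H D E hDst hEst c N)
  -- every basis vector is the expansion of an element of `L(B)`
  have hlift : ∀ j, ∃ f : FN N, f ∈ riemannRochSpace B ∧ (f : Om) = e j := by
    intro j
    have h1 := heW j
    rw [RRExact.pullRR_self] at h1
    obtain ⟨f, hf, hfe⟩ := h1
    exact ⟨f, hf, hfe⟩
  choose f hfB hfe using hlift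
  by_contra hcon
  push Not at hcon
  -- then every basis vector lies in `L(B - P)`
  have hall : ∀ j, f j ∈ riemannRochSpace (B - Finsupp.single P 1) := by
    intro j
    refine mem_sub_single (hfB j) ?_
    by_cases h0 : f j = 0
    · exact Or.inl h0
    · right
      intro hord
      obtain ⟨τ, hτ, hne⟩ := hcon (f j) h0 (hfB j) hord
      exact hne (by rw [hfe j]; exact hefix j τ hτ)
  have hle : pullRR N N B ≤ (riemannRochSpace (B - Finsupp.single P 1)).map (RR0.inclLin N) := by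
    rw [← hespan, Submodule.span_le]
    rintro _ ⟨j, rfl⟩
    exact ⟨f j, hall j, hfe j⟩
  have ha' : (a : Om) ∈ pullRR N N B := PullPlan.coe_mem_pullRR (le_refl _) ha
  obtain ⟨a', ha'mem, ha'eq⟩ := hle ha'
  have haa : a' = a := RR0.inclLin_injective ha'eq
  rw [haa] at ha'mem
  have := ord_gt_of_mem_sub_single ha'mem ha0
  omega

/-- **[K0-INV], pair form** (the input `hgen` of the local step [BP] at the finite places): there
is `c` such that for every place `P` off the support of `E` there are `H`-fixed `f ∈ L(D + cE)`,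
`f' ∈ L(-D + cE)` with `f f'` a unit at `P`. -/
theorem exists_fixed_pair (H : Set (Kbar ≃ₐ[ℚ] Kbar)) (D E : Divisor Kbar (FN N))
    (hE : 0 < Divisor.degree E)
    (hDst : ∀ τ ∈ H, Fermat.Agent.S34.Plan.gal N τ • D = D) (hEst : ∀ τ ∈ H, Fermat.Agent.S34.Plan.gal N τ • E = E) :
    ∃ c : ℕ, ∀ P : Place Kbar (FN N), E P = 0 →
      ∃ f f' : FN N, f ≠ 0 ∧ f' ≠ 0 ∧ f ∈ riemannRochSpace (D + c • E) ∧
        f' ∈ riemannRochSpace (-D + c • E) ∧ P.ord f = -D P ∧ P.ord f' = D P ∧
        P.ord (f * f') = 0 ∧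
        (∀ τ ∈ H, coeffMap ((τ : Kbar ≃ₐ[ℚ] Kbar) : Kbar →+* Kbar) (f : Om) = (f : Om)) ∧
        (∀ τ ∈ H, coeffMap ((τ : Kbar ≃ₐ[ℚ] Kbar) : Kbar →+* Kbar) (f' : Om) = (f' : Om)) := by
  have hDst' : ∀ τ ∈ H, Fermat.Agent.S34.Plan.gal N τ • (-D) = -D := fun τ hτ => by
    rw [smul_neg, hDst τ hτ]
  obtain ⟨c₁, h₁⟩ := exists_fixed_exact N H D E hE hDst hEst
  obtain ⟨c₂, h₂⟩ := exists_fixed_exact N H (-D) E hE hDst' hEst
  refine ⟨max c₁ c₂, fun P hP => ?_⟩
  obtain ⟨f, hf0, hf, hfP, hffix⟩ := h₁ (max c₁ c₂) (le_max_left _ _) P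
  obtain ⟨f', hf'0, hf', hf'P, hf'fix⟩ := h₂ (max c₁ c₂) (le_max_right _ _) P
  rw [add_nsmul_apply, hP, mul_zero, add_zero] at hfP hf'P
  rw [Finsupp.neg_apply, neg_neg] at hf'P
  refine ⟨f, f', hf0, hf'0, hf, hf', hfP, hf'P, ?_, hffix, hf'fix⟩
  rw [P.ord_mul hf0 hf'0, hfP, hf'P]
  ring

/-- The pair form in `pullRR N Mt` (level-`N` functions are top-level functions). -/
theorem exists_fixed_pair_top (Mt : ℕ)
    (hle : modularFunctionFieldBar N ≤ modularFunctionFieldBar Mt)
    (H : Set (Kbar ≃ₐ[ℚ] Kbar)) (D E : Divisor Kbar (FN N))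
    (hE : 0 < Divisor.degree E)
    (hDst : ∀ τ ∈ H, Fermat.Agent.S34.Plan.gal N τ • D = D) (hEst : ∀ τ ∈ H, Fermat.Agent.S34.Plan.gal N τ • E = E) :
    ∃ c : ℕ, ∀ P : Place Kbar (FN N), E P = 0 →
      ∃ f f' : FN N, f ≠ 0 ∧ f' ≠ 0 ∧ (f : Om) ∈ pullRR N Mt (D + c • E) ∧
        (f' : Om) ∈ pullRR N Mt (-D + c • E) ∧ P.ord (f * f') = 0 ∧
        (∀ τ ∈ H, coeffMap ((τ : Kbar ≃ₐ[ℚ] Kbar) : Kbar →+* Kbar) (f : Om) = (f : Om)) ∧
        (∀ τ ∈ H, coeffMap ((τ : Kbar ≃ₐ[ℚ] Kbar) : Kbar →+* Kbar) (f' : Om) = (f' : Om)) := by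
  obtain ⟨c, hc⟩ := exists_fixed_pair N H D E hE hDst hEst
  refine ⟨c, fun P hP => ?_⟩
  obtain ⟨f, f', hf0, hf'0, hf, hf', -, -, hord, hffix, hf'fix⟩ := hc P hP
  exact ⟨f, f', hf0, hf'0, PullPlan.coe_mem_pullRR hle hf, PullPlan.coe_mem_pullRR hle hf', hord,
    hffix, hf'fix⟩

end Level

end Fermat.Agent.S36.K0Inv

end
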