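import Mathlib
import Fermat.Agent.S36.K0Red
import Fermat.Agent.S18.SurjFree
import Fermat.Agent.S34.GalPull

/-!
# P8 / S36 — [K'-SURJ]: `K₀`-rational `(Surj)` at the good level (helper54)

`A` over `q`, `I = A.inertiaSubgroupIn ℚ`, `K₀ = Q̄^I`, `n` a good level (`q ∤ n`, torsion-free).

* `coeffMap_mem_pullRR_pole` : the spaces `pullRR N n (c • (j)_∞)` are stable under the
  coefficientwise Galois action.
* `exists_fixed_lift_of_mem_WJ` : **[K'-SURJ]** for `c` large every `a ∈ WJ k F_{n,k} c` is the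
  reduction of an inertia-FIXED (`K₀`-rational) element of `pullRR N n (c • (j)_∞) ∩ Ocal`,
  for every `N ∣ n`  (S18 `(Surj)` + `K0Red`).
* `exists_fixed_lift_of_stable` : the same for any inertia-stable divisor `B` of `F_N`:
  every reduction of `pullRR N n B ∩ Ocal` has a fixed lift in `pullRR N n B ∩ Ocal`.
* `exists_fixed_basis_pullRR` : `pullRR N n B` (`B` inertia-stable) has a basis of fixed
  elements of `Ocal` with independent reductions (`K₀`-rational `(Dim)` at the good level).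
* `exists_fixed_level_lift` : [K'-SURJ] in level form (`g : F_n`, `riemannRochSpace`).
-/

set_option autoImplicit false

noncomputable section

namespace Fermat.Agent.S36.K0Surj

open ModularCurve AlgebraicCurve Fermat.Agent.S24 Fermat.Agent.S18.Content Fermat.Agent.S18.Plan
open Fermat.Agent.S36.K0Red Fermat.Agent.S34.GalPull

/-- `pullRR N n B` is stable under `coeffMap σ` when `B` is fixed by `σ`. -/
theorem coeffMap_mem_pullRR_of_smul_eq {N n : ℕ} (σ : Kbar ≃ₐ[ℚ] Kbar)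
    {B : Divisor Kbar (FN N)} (hB : gQ N σ • B = B) {y : Om} (hy : y ∈ pullRR N n B) :
    coeffMap ((σ : Kbar ≃ₐ[ℚ] Kbar) : Kbar →+* Kbar) y ∈ pullRR N n B := by
  have := coeffMap_mem_pullRR (N' := n) σ hy
  rwa [hB] at this

/-- The multiples of the pole divisor of `j` are Galois-stable. -/
theorem gQ_smul_nsmul_pole {N : ℕ} [NeZero N] (σ : Kbar ≃ₐ[ℚ] Kbar) (c : ℕ)
    (Cp : Divisor Kbar (FN N)) (hCp : ∀ P, Cp P = max 0 (-(P.ord (jBar N)))) :
    gQ N σ • (c • Cp) = c • Cp := by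
  rw [smul_comm (gQ N σ) c Cp, smul_poleDivisor (gQ N σ) (gQ_smul_jBar σ) Cp hCp]

/-- `pullRR N n (c • (j)_∞)` is stable under the coefficientwise Galois action. -/
theorem coeffMap_mem_pullRR_pole {N n : ℕ} [NeZero N] (σ : Kbar ≃ₐ[ℚ] Kbar) (c : ℕ)
    (Cp : Divisor Kbar (FN N)) (hCp : ∀ P, Cp P = max 0 (-(P.ord (jBar N)))) {y : Om}
    (hy : y ∈ pullRR N n (c • Cp)) :
    coeffMap ((σ : Kbar ≃ₐ[ℚ] Kbar) : Kbar →+* Kbar) y ∈ pullRR N n (c • Cp) :=
  coeffMap_mem_pullRR_of_smul_eq σ (gQ_smul_nsmul_pole σ c Cp hCp) hy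

variable (n : ℕ) [NeZero n] (q : ℕ) [Fact q.Prime] (hq : ¬ q ∣ n) (hTF : 4 ∣ n ∨ 9 ∣ n)
  (A : ValuationSubring Kbar) (hA : A.LiesOverPrime q)

include hq hTF hA in
/-- `K₀`-rational lifts of reductions for an inertia-stable divisor at the good level. -/
theorem exists_fixed_lift_of_stable (N : ℕ) [NeZero N] (hdiv : N ∣ n) (B : Divisor Kbar (FN N))
    (hB : ∀ τ ∈ A.inertiaSubgroupIn ℚ, gQ N τ • B = B) (y : Ocal A)
    (hy : (y : Om) ∈ pullRR N n B) :
    ∃ y₀ : Ocal A, (y₀ : Om) ∈ pullRR N n B ∧ Fixed A (y₀ : Om) ∧ red A y₀ = red A y := by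
  have hfin : Module.Finite Kbar (pullRR N n B) :=
    (Fermat.Agent.S18.RR0.rr0 N n hdiv hTF B).1
  exact exists_fixed_red_eq_of_redStmt (Fact.out : q.Prime) hA n
    (Fermat.Agent.S18.Red.redStmt n q hq A hA) (pullRR N n B) (fun w hw => hw.1)
    (fun τ hτ w hw => coeffMap_mem_pullRR_of_smul_eq τ (hB τ hτ) hw) y hy

include hq hTF hA in
/-- `K₀`-rational `(Dim)` at the good level: a basis of fixed elements of `Ocal` with independent
reductions for `pullRR N n B`, `B` inertia-stable. -/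
theorem exists_fixed_basis_pullRR (N : ℕ) [NeZero N] (hdiv : N ∣ n) (B : Divisor Kbar (FN N))
    (hB : ∀ τ ∈ A.inertiaSubgroupIn ℚ, gQ N τ • B = B) :
    ∃ (r : ℕ) (c : Fin r → Ocal A), (∀ i, Fixed A (c i : Om)) ∧
      Submodule.span Kbar (Set.range fun i => (c i : Om)) = pullRR N n B ∧
        LinearIndependent (kk A) (fun i => red A (c i)) := by
  have hfin : Module.Finite Kbar (pullRR N n B) :=
    (Fermat.Agent.S18.RR0.rr0 N n hdiv hTF B).1
  exact exists_fixed_basis_red_indep_modular (Fact.out : q.Prime) hA n (pullRR N n B)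
    (fun w hw => hw.1) (fun τ hτ w hw => coeffMap_mem_pullRR_of_smul_eq τ (hB τ hτ) hw)
    ((Fermat.Agent.S18.Red.redStmt n q hq A hA).2.2.2.1 (pullRR N n B) (fun w hw => hw.1) hfin)

include hq hTF hA in
/-- **[K'-SURJ]** `K₀`-rational `(Surj)` at the good level `n` (`q ∤ n`, `4 ∣ n ∨ 9 ∣ n`): for `c`
large, every `a ∈ WJ k F_{n,k} c` is the reduction of an inertia-fixed element of
`pullRR N n (c • (j)_∞) ∩ Ocal`, for every `N ∣ n`. -/
theorem exists_fixed_lift_of_mem_WJ :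
    ∃ c₀ : ℕ, ∀ c, c₀ ≤ c → ∀ (N : ℕ) [NeZero N], N ∣ n →
      ∀ Cp : Divisor Kbar (FN N), (∀ P, Cp P = max 0 (-(P.ord (jBar N)))) →
        ∀ a ∈ WJ (kk A) (Fk A n) c, ∃ g : Ocal A, (g : Om) ∈ pullRR N n (c • Cp) ∧
          Fixed A (g : Om) ∧ red A g = a := by
  obtain ⟨c₀, hc₀⟩ := Fermat.Agent.S18.SurjFree.wj_le_redSp n q hq hTF A hA
  refine ⟨c₀, fun c hc N _ hdiv Cp hCp a ha => ?_⟩
  obtain ⟨y, hy, rfl⟩ := hc₀ c hc N hdiv Cp hCp ha
  exact exists_fixed_lift_of_stable n q hq hTF A hA N hdiv (c • Cp)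
    (fun τ _ => gQ_smul_nsmul_pole τ c Cp hCp) y hy

/-- `pullRR n n B` consists of elements of the Riemann–Roch space `L_{F_n}(B)`. -/
theorem mem_riemannRochSpace_of_mem_pullRR_self {m : ℕ} {B : Divisor Kbar (FN m)} {g : Om}
    (hg : g ∈ pullRR m m B) :
    (⟨g, hg.1⟩ : FN m) ∈ riemannRochSpace B := by
  obtain ⟨hg1, hint⟩ := hg
  set y : FN m := ⟨g, hg1⟩ with hy
  rw [mem_riemannRochSpace_iff]
  intro v
  by_cases hy0 : y = 0
  · exact Or.inl hy0
  right
  obtain ⟨t, ht, hvt⟩ := Fermat.Agent.S18.PullLocal.exists_ord_eq v (B v)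
  have h1 : IsIntegral (placeRing v) ((t : Om) * g) := hint v t ht hvt.ge
  have h2 : IsIntegral (v.toValuationSubring.toSubring.map (algebraMap (FN m) Om))
      (algebraMap (FN m) Om (t * y)) := by
    rw [map_mul]
    exact h1
  obtain ⟨p, hp, hpz⟩ := Fermat.Agent.S18.RR0.isIntegral_of_map (algebraMap (FN m) Om)
    (algebraMap (FN m) Om).injective _ _ h2
  have h4 : IsIntegral v.toValuationSubring (t * y) := ⟨p, hp, hpz⟩
  obtain ⟨z, hz⟩ := IsIntegrallyClosed.isIntegral_iff.mp h4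
  have h5 : t * y ∈ v.toValuationSubring := by
    rw [← hz]
    exact z.2
  rw [Fermat.Agent.Lib.FFPlaces.mem_iff_ord_nonneg v (mul_ne_zero ht hy0), v.ord_mul ht hy0,
    hvt] at h5
  linarith

include hq hTF hA in
/-- **[K'-SURJ]**, level form (`N = n`, `g : F_n`, Riemann–Roch space of `F_n`): for `m` large,
every `a ∈ WJ k F_{n,k} m` is the reduction of an inertia-fixed `g ∈ L_{F_n}(m (j)_∞) ∩ Ocal`. -/
theorem exists_fixed_level_lift :
    ∃ m₀ : ℕ, ∀ m, m₀ ≤ m → ∀ CpM : Divisor Kbar (FN n),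
      (∀ P, CpM P = max 0 (-(P.ord (jBar n)))) → ∀ a ∈ WJ (kk A) (Fk A n) m,
        ∃ (g : FN n) (hg : (g : Om) ∈ Ocal A), g ∈ riemannRochSpace (m • CpM) ∧
          Fixed A (g : Om) ∧ red A ⟨_, hg⟩ = a := by
  obtain ⟨m₀, hm₀⟩ := exists_fixed_lift_of_mem_WJ n q hq hTF A hA
  refine ⟨m₀, fun m hm CpM hCpM a ha => ?_⟩
  obtain ⟨g, hg, hfix, hred⟩ := hm₀ m hm n dvd_rfl CpM hCpM a ha
  exact ⟨⟨(g : Om), hg.1⟩, g.2, mem_riemannRochSpace_of_mem_pullRR_self hg, hfix, hred⟩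

end Fermat.Agent.S36.K0Surj

end
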