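import Mathlib
import Fermat.Agent.S36.K0ScaleFrame
import Fermat.Agent.S36.OnePlan

/-!
# P8 / S36 — [K0-UNIT]: the unit calculus of the Gauss coordinates for `K₀`-rational functions
(helper62)

`A` a valuation subring of `Q̄` over the prime `q`, `F : Plan.Frame M q h` the level-`q²` frame.
`IsU A y` : `y ∈ Ocal A` with nonzero reduction (a unit of the local ring `Ocal A`).

* `IsU.mul`, `IsU.pow`, `IsU.inv`, `isU_one`, `IsU.add_of_red_zero` : the calculus;
* `zpow_eq_zero`, `mid_zpow_eq_zero` : uniqueness of the exponent (`q^m · y` and `y` units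
  ⟹ `m = 0`; the same with `ξ - 1`);
* `isU_inv`, `isU_of_pow` : inverse and saturation at every coordinate of the frame (for the
  saturation the function must be fixed by the inertia group);
* `exists_exponents` : the three exponents `(m₁, m₂, m₃)` of a nonzero inertia-fixed function of
  any level;
* `div_natCast_inf`, `div_natCast_zero` : an inertia-fixed function with zero reduction at `∞`
  (resp. `0`) is divisible by `q` there;
* `small_term` : a term `c · b^e` is integral with zero reduction once `b` is divisible by `π` and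
  `v(c π^e) < 1`.

These are the inputs `hu1 hu2 hu3`, `hsat`, `hW1 hW2` of `S36/VNorm.exists_normalised` in the
vocabulary of the frame.  (The function `H` with prescribed vertical exponents is
`S36/OneCompH.exists_H` / `S36/VNormH.exists_H_q`.)
-/

set_option autoImplicit false
set_option synthInstance.maxHeartbeats 400000

namespace Fermat.Agent.S36.K0Unit

open ModularCurve Fermat.Agent.S24 Fermat.Agent.S18.Content Fermat.Agent.S18.Plan Fermat.Agent.S34

/-! ## The predicate `IsU` -/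

section Calculus

variable (A : ValuationSubring Kbar)

/-- A unit of the Gauss coordinate ring: an element of `Ocal A` with nonzero reduction. -/
def IsU (y : Om) : Prop := ∃ h : y ∈ Ocal A, red A ⟨y, h⟩ ≠ 0

variable {A}

theorem isU_one : IsU A 1 := by
  refine ⟨(Ocal A).one_mem, ?_⟩
  have e : (⟨1, (Ocal A).one_mem⟩ : Ocal A) = 1 := rfl
  rw [e, map_one]
  exact one_ne_zero

theorem IsU.mul {y y' : Om} (hy : IsU A y) (hy' : IsU A y') : IsU A (y * y') := by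
  obtain ⟨h, hr⟩ := hy
  obtain ⟨h', hr'⟩ := hy'
  refine ⟨(Ocal A).mul_mem h h', ?_⟩
  have e : (⟨y * y', (Ocal A).mul_mem h h'⟩ : Ocal A) = ⟨y, h⟩ * ⟨y', h'⟩ := rfl
  rw [e, map_mul]
  exact mul_ne_zero hr hr'

theorem IsU.pow {y : Om} (hy : IsU A y) (n : ℕ) : IsU A (y ^ n) := by
  induction n with
  | zero => rw [pow_zero]; exact isU_one
  | succ n ih => rw [pow_succ]; exact ih.mul hy

theorem IsU.inv {y : Om} (hy : IsU A y) : IsU A y⁻¹ := by
  obtain ⟨h, hr⟩ := hy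
  refine ⟨inv_mem_Ocal A ⟨y, h⟩ hr, ?_⟩
  rw [red_inv A ⟨y, h⟩ hr]
  exact inv_ne_zero hr

theorem IsU.ne_zero {y : Om} (hy : IsU A y) : y ≠ 0 := by
  obtain ⟨h, hr⟩ := hy
  exact ne_zero_of_red_ne_zero A ⟨y, h⟩ hr

theorem IsU.congr {y y' : Om} (hy : IsU A y) (e : y = y') : IsU A y' := e ▸ hy

/-- A unit plus an element with zero reduction is a unit. -/
theorem IsU.add_of_red_zero {y z : Om} (hy : IsU A y) (hz : z ∈ Ocal A)
    (hz0 : red A ⟨z, hz⟩ = 0) : IsU A (y + z) := by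
  obtain ⟨h, hr⟩ := hy
  refine ⟨(Ocal A).add_mem h hz, ?_⟩
  have e : (⟨y + z, (Ocal A).add_mem h hz⟩ : Ocal A) = ⟨y, h⟩ + ⟨z, hz⟩ := rfl
  rw [e, map_add, hz0, add_zero]
  exact hr

/-- A constant of valuation `< 1` times an element of `Ocal` has zero reduction. -/
theorem red_C_mul_zero {c : Kbar} (hc : A.valuation c < 1) {y : Om} (hy : y ∈ Ocal A) :
    ∃ h : HahnSeries.C c * y ∈ Ocal A, red A ⟨_, h⟩ = 0 := by
  have hcA : c ∈ A := (A.valuation_le_one_iff _).mp hc.le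
  have hmem : HahnSeries.C c * ((⟨y, hy⟩ : Ocal A) : Om) ∈ Ocal A :=
    (Ocal A).mul_mem (C_mem_Ocal A hcA) hy
  refine ⟨hmem, ?_⟩
  rw [red_C_mul A hcA ⟨y, hy⟩ hmem]
  have h0 : IsLocalRing.residue A ⟨c, hcA⟩ = 0 := by
    rw [IsLocalRing.residue_eq_zero_iff]
    exact (A.valuation_lt_one_iff _).mpr hc
  rw [h0, map_zero, zero_mul]

/-- A power of a positive element `< 1` with positive integer exponent is `< 1`. -/
theorem zpow_lt_one_of_pos {Γ : Type*} [LinearOrderedCommGroupWithZero Γ] {v : Γ}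
    (h1 : v < 1) {n : ℤ} (hn : 1 ≤ n) : v ^ n < 1 := by
  obtain ⟨j, rfl⟩ : ∃ j : ℕ, n = (j : ℤ) + 1 := ⟨(n - 1).toNat, by omega⟩
  rw [← Nat.cast_succ, zpow_natCast]
  exact pow_lt_one₀ zero_le h1 (Nat.succ_ne_zero j)

/-- **Uniqueness of the exponent**, generic uniformiser `c` (`0 < v(c) < 1`). -/
theorem zpow_eq_zero_of_val {c : Kbar} (hc0 : c ≠ 0) (hc1 : A.valuation c < 1) {y : Om} {m : ℤ}
    (hy : IsU A y) (hy' : IsU A (HahnSeries.C (c ^ m) * y)) : m = 0 := by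
  obtain ⟨h, hr⟩ := hy
  obtain ⟨h', hr'⟩ := hy'
  have hmem : c ^ m ∈ A := (C_mul_mem_Ocal_iff A (c ^ m) ⟨y, h⟩ hr).mp h'
  have hnot : (⟨c ^ m, hmem⟩ : A) ∉ IsLocalRing.maximalIdeal A := fun hmax =>
    hr' ((red_C_mul_eq_zero_iff A hmem ⟨y, h⟩ hr h').mpr hmax)
  have hval : A.valuation (c ^ m) = 1 := by
    by_contra hne
    exact hnot ((A.valuation_lt_one_iff _).mpr
      (lt_of_le_of_ne ((A.valuation_le_one_iff _).mpr hmem) hne))
  rw [map_zpow₀] at hval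
  have hv0 : A.valuation c ≠ 0 := (Valuation.ne_zero_iff _).mpr hc0
  by_contra hm
  rcases lt_or_gt_of_ne hm with hlt | hgt
  · have h2 : (A.valuation c) ^ (-m) < 1 := zpow_lt_one_of_pos hc1 (by omega)
    rw [zpow_neg, hval, inv_one] at h2
    exact lt_irrefl _ h2
  · have h2 : (A.valuation c) ^ m < 1 := zpow_lt_one_of_pos hc1 (by omega)
    rw [hval] at h2
    exact lt_irrefl _ h2

/-- Saturation, generic uniformiser: `c^m · y` a unit and `yⁿ` a unit (`n ≠ 0`) ⟹ `y` a unit. -/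
theorem isU_of_pow_of_scale {c : Kbar} (hc0 : c ≠ 0) (hc1 : A.valuation c < 1) {y : Om}
    {m : ℤ} {n : ℕ} (hn : n ≠ 0) (hs : IsU A (HahnSeries.C (c ^ m) * y)) (hp : IsU A (y ^ n)) :
    IsU A y := by
  have h1 : IsU A (HahnSeries.C (c ^ (m * n)) * y ^ n) := by
    have h2 := hs.pow n
    rwa [mul_pow, ← map_pow, ← zpow_natCast (c ^ m) n, ← zpow_mul] at h2
  have h3 := zpow_eq_zero_of_val hc0 hc1 hp h1
  have hm : m = 0 := by
    rcases mul_eq_zero.mp h3 with h | h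
    · exact h
    · exact absurd (by exact_mod_cast h) hn
  rw [hm, zpow_zero, map_one, one_mul] at hs
  exact hs

/-- Divisibility, generic uniformiser: `c^m · y` a unit and `y` integral with zero reduction
⟹ `c⁻¹ · y` integral. -/
theorem div_mem_of_scale {c : Kbar} (hc0 : c ≠ 0) (hc1 : A.valuation c < 1) {y : Om} {m : ℤ}
    (hs : IsU A (HahnSeries.C (c ^ m) * y)) (hy : y ∈ Ocal A) (hy0 : red A ⟨y, hy⟩ = 0) :
    HahnSeries.C c⁻¹ * y ∈ Ocal A := by
  obtain ⟨h, hr⟩ := hs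
  have e1 : y = HahnSeries.C (c ^ (-m)) * (HahnSeries.C (c ^ m) * y) := by
    rw [← mul_assoc, ← map_mul, ← zpow_add₀ hc0, neg_add_cancel, zpow_zero, map_one, one_mul]
  have hy' : HahnSeries.C (c ^ (-m)) * ((⟨_, h⟩ : Ocal A) : Om) ∈ Ocal A := by
    rw [← e1]; exact hy
  have hmem : c ^ (-m) ∈ A := (C_mul_mem_Ocal_iff A _ ⟨_, h⟩ hr).mp hy'
  have hmax : (⟨c ^ (-m), hmem⟩ : A) ∈ IsLocalRing.maximalIdeal A := by
    refine (red_C_mul_eq_zero_iff A hmem ⟨_, h⟩ hr hy').mp ?_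
    rw [← red_congr A e1 hy hy']
    exact hy0
  have hlt : A.valuation (c ^ (-m)) < 1 := (A.valuation_lt_one_iff _).mp hmax
  have hv0 : A.valuation c ≠ 0 := (Valuation.ne_zero_iff _).mpr hc0
  have hm : m ≤ -1 := by
    by_contra hcon
    obtain ⟨j, hj⟩ : ∃ j : ℕ, m = (j : ℤ) := ⟨m.toNat, by omega⟩
    rw [hj, zpow_neg, zpow_natCast, map_inv₀, map_pow] at hlt
    have h4 : A.valuation c ^ j ≤ 1 := pow_le_one₀ zero_le hc1.le
    have h5 : A.valuation c ^ j ≠ 0 := pow_ne_zero _ hv0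
    have h6 : (1 : A.ValueGroup) ≤ (A.valuation c ^ j)⁻¹ :=
      (one_le_inv₀ (lt_of_le_of_ne zero_le h5.symm)).mpr h4
    exact absurd hlt (not_lt.mpr h6)
  obtain ⟨k, hk⟩ : ∃ k : ℕ, -m - 1 = (k : ℤ) := ⟨(-m - 1).toNat, by omega⟩
  have hcA : c ∈ A := (A.valuation_le_one_iff _).mp hc1.le
  have e2 : HahnSeries.C c⁻¹ * y = HahnSeries.C (c ^ k) * (HahnSeries.C (c ^ m) * y) := by
    rw [← mul_assoc, ← map_mul]
    congr 2
    rw [← zpow_natCast, ← hk, ← zpow_add₀ hc0, show -m - 1 + m = -1 by ring, zpow_neg_one]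
  rw [e2]
  exact (Ocal A).mul_mem (C_mem_Ocal A (A.pow_mem hcA k)) h

/-- A term `c · b^e` is integral with zero reduction as soon as `b` is divisible by `π` and
`v(c π^e) < 1`. -/
theorem small_term {π : Kbar} (hπ0 : π ≠ 0) {b : Om} (hb : HahnSeries.C π⁻¹ * b ∈ Ocal A)
    (e : ℕ) (c : Kbar) (hc : A.valuation (c * π ^ e) < 1) :
    ∃ h : HahnSeries.C c * b ^ e ∈ Ocal A, red A ⟨_, h⟩ = 0 := by
  have e1 : HahnSeries.C c * b ^ e = HahnSeries.C (c * π ^ e) * (HahnSeries.C π⁻¹ * b) ^ e := by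
    rw [mul_pow, ← map_pow, ← mul_assoc, ← map_mul]
    congr 2
    rw [inv_pow, mul_assoc, mul_inv_cancel₀ (pow_ne_zero e hπ0), mul_one]
  obtain ⟨h, h0⟩ := red_C_mul_zero hc ((Ocal A).pow_mem hb e)
  have h' : HahnSeries.C c * b ^ e ∈ Ocal A := by rw [e1]; exact h
  exact ⟨h', by rw [red_congr A e1 h' h]; exact h0⟩

end Calculus

/-! ## The prime `q` and the middle uniformisers -/

section Prime

variable {A : ValuationSubring Kbar} {q : ℕ}

theorem natCast_ne_zero' (hq : q.Prime) : (q : Kbar) ≠ 0 := Nat.cast_ne_zero.mpr hq.ne_zero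

theorem val_natCast_lt_one (hA : A.LiesOverPrime q) : A.valuation (q : Kbar) < 1 := hA

/-- **Uniqueness of the exponent** for the prime `q`. -/
theorem zpow_eq_zero (hq : q.Prime) (hA : A.LiesOverPrime q) {y : Om} {m : ℤ}
    (hy : IsU A y) (hy' : IsU A (HahnSeries.C ((q : Kbar) ^ m) * y)) : m = 0 :=
  zpow_eq_zero_of_val (natCast_ne_zero' hq) (val_natCast_lt_one hA) hy hy'

theorem mid_ne_zero (hq : q.Prime) (ξ : Plan.MidIdx q) : (ξ.1 : Kbar) - 1 ≠ 0 :=
  InertiaFieldZeta.zeta_sub_one_ne_zero q hq _ (IsPrimitiveRoot.coe_units_iff.mpr ξ.2)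

theorem val_mid_lt_one (hq : q.Prime) (hA : A.LiesOverPrime q) (ξ : Plan.MidIdx q) :
    A.valuation ((ξ.1 : Kbar) - 1) < 1 :=
  InertiaFieldZeta.val_zeta_sub_one_lt_one A q hq hA _ (IsPrimitiveRoot.coe_units_iff.mpr ξ.2)

theorem val_mid_pow (hq : q.Prime) (ξ : Plan.MidIdx q) :
    A.valuation ((ξ.1 : Kbar) - 1) ^ (q - 1) = A.valuation (q : Kbar) :=
  InertiaFieldZeta.val_zeta_sub_one_pow A q hq _ (IsPrimitiveRoot.coe_units_iff.mpr ξ.2)

/-- **Uniqueness of the exponent** for the middle uniformiser `ξ - 1`. -/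
theorem mid_zpow_eq_zero (hq : q.Prime) (hA : A.LiesOverPrime q) (ξ : Plan.MidIdx q) {y : Om}
    {m : ℤ} (hy : IsU A y) (hy' : IsU A (HahnSeries.C (((ξ.1 : Kbar) - 1) ^ m) * y)) : m = 0 :=
  zpow_eq_zero_of_val (mid_ne_zero hq ξ) (val_mid_lt_one hq hA ξ) hy hy'

/-- `v(q^k (ξ - 1)^e) < 1` as soon as `(q - 1) k + e ≥ 1`. -/
theorem val_natCast_zpow_mul_mid_pow_lt (hq : q.Prime) (hA : A.LiesOverPrime q)
    (ξ : Plan.MidIdx q) (k : ℤ) (e : ℕ) (hke : 1 ≤ ((q : ℤ) - 1) * k + e) :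
    A.valuation ((q : Kbar) ^ k * ((ξ.1 : Kbar) - 1) ^ e) < 1 := by
  have hv0 : A.valuation ((ξ.1 : Kbar) - 1) ≠ 0 := (Valuation.ne_zero_iff _).mpr (mid_ne_zero hq ξ)
  have h1 : ((q - 1 : ℕ) : ℤ) = (q : ℤ) - 1 := by
    have := hq.one_le
    omega
  rw [map_mul, map_zpow₀, map_pow, ← val_mid_pow hq ξ, ← zpow_natCast _ (q - 1), ← zpow_mul,
    ← zpow_natCast _ e, ← zpow_add₀ hv0, h1]
  exact zpow_lt_one_of_pos (val_mid_lt_one hq hA ξ) hke

/-- `v(q^k q^e) < 1` as soon as `k + e ≥ 1`. -/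
theorem val_natCast_zpow_mul_pow_lt (hq : q.Prime) (hA : A.LiesOverPrime q) (k : ℤ) (e : ℕ)
    (hke : 1 ≤ k + e) : A.valuation ((q : Kbar) ^ k * (q : Kbar) ^ e) < 1 := by
  have hv0 : A.valuation (q : Kbar) ≠ 0 := (Valuation.ne_zero_iff _).mpr (natCast_ne_zero' hq)
  rw [map_mul, map_zpow₀, map_pow, ← zpow_natCast _ e, ← zpow_add₀ hv0]
  exact zpow_lt_one_of_pos (val_natCast_lt_one hA) hke

end Prime

/-! ## The frame -/

section Frame

variable (A : ValuationSubring Kbar) {M q : ℕ} [NeZero M] [NeZero q] {h : Nat.Coprime M q}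

/-- **Inverse**: the units at a coordinate are closed under inversion. -/
theorem isU_inv (F : Plan.Frame M q h) (i : Plan.Coord q) (x : FN (M * q * q))
    (hx : IsU A (F.emb i x)) : IsU A (F.emb i x⁻¹) := by
  rw [map_inv₀]
  exact hx.inv

/-- The scaled-unit form of `K0ScaleFrame`, all coordinates: some `c_i^m · ε_i x` is a unit, with
`c_i = q` at `∞`, `0` and `c_i = ξ - 1` at the middle coordinate `ξ`. -/
theorem exists_scale (hq : q.Prime) (hA : A.LiesOverPrime q) (F : Plan.Frame M q h)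
    (x : FN (M * q * q)) (hx0 : x ≠ 0) (hfix : Plan.IFix A (M * q * q) x) (i : Plan.Coord q) :
    ∃ (c : Kbar) (m : ℤ), c ≠ 0 ∧ A.valuation c < 1 ∧
      IsU A (HahnSeries.C (c ^ m) * F.emb i x) := by
  cases i with
  | inf =>
    obtain ⟨m, h1, h2⟩ := K0ScaleFrame.exists_scale_inf A hq hA F x hx0 hfix
    exact ⟨q, m, natCast_ne_zero' hq, val_natCast_lt_one hA, h1, h2⟩
  | zero =>
    obtain ⟨m, h1, h2⟩ := K0ScaleFrame.exists_scale_zero A hq hA F x hx0 hfix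
    exact ⟨q, m, natCast_ne_zero' hq, val_natCast_lt_one hA, h1, h2⟩
  | mid ξ =>
    obtain ⟨m, h1, h2⟩ := K0ScaleFrame.exists_scale_mid_one A hq hA F x hx0 hfix ξ
    exact ⟨(ξ.1 : Kbar) - 1, m, mid_ne_zero hq ξ, val_mid_lt_one hq hA ξ, h1, h2⟩

/-- **Saturation** at every coordinate: for a nonzero inertia-fixed `x`, if `(ε_i x)ⁿ` is a unit
(`n ≠ 0`) then `ε_i x` is a unit. -/
theorem isU_of_pow (hq : q.Prime) (hA : A.LiesOverPrime q) (F : Plan.Frame M q h)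
    (i : Plan.Coord q) {n : ℕ} (hn : n ≠ 0) (x : FN (M * q * q)) (hx0 : x ≠ 0)
    (hfix : Plan.IFix A (M * q * q) x) (hp : IsU A (F.emb i x ^ n)) : IsU A (F.emb i x) := by
  obtain ⟨c, m, hc0, hc1, hs⟩ := exists_scale A hq hA F x hx0 hfix i
  exact isU_of_pow_of_scale hc0 hc1 hn hs hp

/-- An inertia-fixed function of level `N`, seen at the top level. -/
theorem ifix_top {N : ℕ} [NeZero N] (u : FN N) (hu : Plan.IFix A N u) (u' : FN (M * q * q))
    (hu' : (u' : Om) = (u : Om)) : Plan.IFix A (M * q * q) u' := by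
  intro τ hτ
  have h1 : coeffMap (τ : Kbar →+* Kbar) (u : Om) = (u : Om) :=
    congrArg (fun y : FN N => (y : Om)) (hu τ hτ)
  apply Subtype.ext
  show coeffMap (τ : Kbar →+* Kbar) (u' : Om) = (u' : Om)
  rw [hu']
  exact h1

/-- **The three exponents** of a nonzero inertia-fixed function `u` of any level (`u'` any
top-level copy of `u`): `q^(-m₁) ε_∞ u`, `q^(-m₂) (ε_ξ u)^(q-1)` (all `ξ`), `q^(-m₃) ε_0 u` are
units. -/
theorem exists_exponents (hq : q.Prime) (hA : A.LiesOverPrime q) (F : Plan.Frame M q h)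
    (N : ℕ) [NeZero N] (u : FN N) (hu0 : u ≠ 0) (hu : Plan.IFix A N u) (u' : FN (M * q * q))
    (hu' : (u' : Om) = (u : Om)) :
    ∃ m1 m2 m3 : ℤ, IsU A (HahnSeries.C ((q : Kbar) ^ (-m1)) * F.emb .inf u') ∧
      (∀ ξ : Plan.MidIdx q,
        IsU A (HahnSeries.C ((q : Kbar) ^ (-m2)) * F.emb (.mid ξ) u' ^ (q - 1))) ∧
      IsU A (HahnSeries.C ((q : Kbar) ^ (-m3)) * F.emb .zero u') := by
  have hfix : Plan.IFix A (M * q * q) u' := ifix_top A u hu u' hu'
  have hx0 : u' ≠ 0 := by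
    intro h0
    apply hu0
    have h1 : (u : Om) = 0 := by
      rw [← hu', h0]
      exact ZeroMemClass.coe_zero _
    exact Subtype.ext (h1.trans (ZeroMemClass.coe_zero _).symm)
  obtain ⟨m1, h1, h1'⟩ := K0ScaleFrame.exists_scale_inf A hq hA F u' hx0 hfix
  obtain ⟨m2, h2⟩ := K0ScaleFrame.exists_scale_mid_pow A hq hA F u' hx0 hfix
  obtain ⟨m3, h3, h3'⟩ := K0ScaleFrame.exists_scale_zero A hq hA F u' hx0 hfix
  refine ⟨-m1, -m2, -m3, ?_, fun ξ => ?_, ?_⟩
  · rw [neg_neg]; exact ⟨h1, h1'⟩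
  · rw [neg_neg]; exact h2 ξ
  · rw [neg_neg]; exact ⟨h3, h3'⟩

/-- **Divisibility at `∞`**: an inertia-fixed function whose `∞`-expansion is integral with zero
reduction is divisible by `q` there. -/
theorem div_natCast_inf (hq : q.Prime) (hA : A.LiesOverPrime q) (F : Plan.Frame M q h)
    (x : FN (M * q * q)) (hfix : Plan.IFix A (M * q * q) x) (hx : F.emb .inf x ∈ Ocal A)
    (h0 : red A ⟨_, hx⟩ = 0) : HahnSeries.C ((q : Kbar)⁻¹) * F.emb .inf x ∈ Ocal A := by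
  by_cases hx0 : x = 0
  · rw [hx0, map_zero, mul_zero]; exact (Ocal A).zero_mem
  · obtain ⟨m, h1, h2⟩ := K0ScaleFrame.exists_scale_inf A hq hA F x hx0 hfix
    exact div_mem_of_scale (natCast_ne_zero' hq) (val_natCast_lt_one hA) ⟨h1, h2⟩ hx h0

/-- **Divisibility at `0`**. -/
theorem div_natCast_zero (hq : q.Prime) (hA : A.LiesOverPrime q) (F : Plan.Frame M q h)
    (x : FN (M * q * q)) (hfix : Plan.IFix A (M * q * q) x) (hx : F.emb .zero x ∈ Ocal A)
    (h0 : red A ⟨_, hx⟩ = 0) : HahnSeries.C ((q : Kbar)⁻¹) * F.emb .zero x ∈ Ocal A := by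
  by_cases hx0 : x = 0
  · rw [hx0, map_zero, mul_zero]; exact (Ocal A).zero_mem
  · obtain ⟨m, h1, h2⟩ := K0ScaleFrame.exists_scale_zero A hq hA F x hx0 hfix
    exact div_mem_of_scale (natCast_ne_zero' hq) (val_natCast_lt_one hA) ⟨h1, h2⟩ hx h0

end Frame

end Fermat.Agent.S36.K0Unit
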