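import Mathlib
import Fermat.Agent.CFT.Fin.Ram
import Fermat.Agent.Lib.InertiaLift
import Fermat.Agent.S36.InertiaField

/-!
# `K₀(ζ_q) / K₀` is totally ramified of degree `q - 1` (helper90, P8 block [K0ζ-VAL])

`Qb = AlgebraicClosure ℚ`, `A` a valuation subring of `Qb` over a prime `q`,
`I = A.inertiaSubgroupIn ℚ`, `K₀ = Qb^I` the inertia field, `ζ` a primitive `q`-th root of unity.

* `valuation_one_sub_zeta_pow`, `val_one_sub_zeta_pow` (**(Z1)**): `v(1 - ζ)^(q-1) = v(q)`;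
* `val_eq_zpow_of_zeta_fixed` (**(Z2)**): a nonzero element fixed by the elements of `I` that fix
  `ζ` (i.e. an element of `K₀(ζ)`) has valuation `v(1 - ζ)^m`, `m ∈ ℤ`;
* `div_one_sub_zeta_mem` (**(Z3)**): such an element, if a non-unit of `A`, is divisible by
  `1 - ζ` in `A`;
* `exists_inertia_zeta_pow` (**(Z4)**): `I` acts transitively on the primitive `q`-th roots of
  unity.

Finite level (`L/ℚ` finite Galois, `P` a prime of `𝓞 L` over `q`, `ζ ∈ L`): the stabiliser `H` of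
`ζ` in the inertia group `I_P` has index `q - 1`, and `P` has ramification index `|H|` over the
fixed field of `H` (`card_inertia_eq`, `exists_valuation_eq_exp`,
`exists_valuation_mul_zpow_eq_one`).
-/

set_option autoImplicit false
set_option linter.unusedSectionVars false

open NumberField IsDedekindDomain HeightOneSpectrum WithZero Pointwise

namespace Fermat.Agent.S36.K0Zeta

/-! ### Valuations of `1 - ζ` -/

section Generic

variable {K : Type*} [Field K] {Γ : Type*} [LinearOrderedCommGroupWithZero Γ] (v : Valuation K Γ)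

/-- A root of unity has valuation one. -/
theorem valuation_eq_one_of_pow_eq_one {z : K} {m : ℕ} (hm : m ≠ 0) (hz : z ^ m = 1) :
    v z = 1 := by
  have h1 : v z ^ m = 1 := by rw [← map_pow, hz, map_one]
  rcases lt_trichotomy (v z) 1 with h | h | h
  · exact absurd h1 (pow_lt_one₀ zero_le h hm).ne
  · exact h
  · exact absurd h1 (one_lt_pow₀ h hm).ne'

/-- `v(1 - x^m) ≤ v(1 - x)` for `v(x) = 1`. -/
theorem valuation_one_sub_pow_le {x : K} (hx : v x = 1) (m : ℕ) : v (1 - x ^ m) ≤ v (1 - x) := by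
  have e : 1 - x ^ m = (1 - x) * ∑ i ∈ Finset.range m, x ^ i := by
    have h := mul_neg_geom_sum x m
    rw [← h]
  rw [e, map_mul]
  have h2 : v (∑ i ∈ Finset.range m, x ^ i) ≤ 1 := by
    refine v.map_sum_le fun i _ => ?_
    rw [map_pow, hx, one_pow]
  calc v (1 - x) * v (∑ i ∈ Finset.range m, x ^ i) ≤ v (1 - x) * 1 := by gcongr
    _ = v (1 - x) := mul_one _

/-- **(Z1)**, any valuation: `v(1 - ζ)^(q-1) = v(q)`. -/
theorem valuation_one_sub_zeta_pow {q : ℕ} (hq : q.Prime) {ζ : K} (hζ : IsPrimitiveRoot ζ q) :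
    v (1 - ζ) ^ (q - 1) = v (q : K) := by
  have hq1 : q - 1 + 1 = q := Nat.sub_add_cancel hq.one_le
  have hζ' : IsPrimitiveRoot ζ (q - 1 + 1) := by rw [hq1]; exact hζ
  have hprod := hζ'.prod_one_sub_pow_eq_order
  have hcast : ((q - 1 : ℕ) : K) + 1 = (q : K) := by
    have := congrArg (fun n : ℕ => (n : K)) hq1
    simpa using this
  rw [hcast] at hprod
  rw [← hprod, map_prod]
  have hζ1 : v ζ = 1 := valuation_eq_one_of_pow_eq_one v hq.ne_zero hζ.pow_eq_one
  have hterm : ∀ k ∈ Finset.range (q - 1), v (1 - ζ ^ (k + 1)) = v (1 - ζ) := by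
    intro k hk
    have hk' : k + 1 < q := by
      have := Finset.mem_range.mp hk
      omega
    refine le_antisymm (valuation_one_sub_pow_le v hζ1 (k + 1)) ?_
    have hcop : (k + 1).Coprime q := by
      rw [Nat.coprime_comm, Nat.Prime.coprime_iff_not_dvd hq]
      intro hdvd
      have := Nat.le_of_dvd (Nat.succ_pos k) hdvd
      omega
    have hprim : IsPrimitiveRoot (ζ ^ (k + 1)) q := hζ.pow_of_coprime (k + 1) hcop
    have : NeZero q := ⟨hq.ne_zero⟩
    obtain ⟨i, -, hi⟩ := hprim.eq_pow_of_pow_eq_one hζ.pow_eq_one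
    have hx1 : v (ζ ^ (k + 1)) = 1 := by rw [map_pow, hζ1, one_pow]
    have := valuation_one_sub_pow_le v hx1 i
    rwa [hi] at this
  rw [Finset.prod_congr rfl hterm, Finset.prod_const, Finset.card_range]

end Generic

/-! ### Finite level -/

section Finite

variable (L : Type) [Field L] [NumberField L] [IsGalois ℚ L]
  (P : Ideal (𝓞 L)) [hPp : P.IsPrime]

/-- The fixed field of a subgroup of `Gal(L/ℚ)`. -/
noncomputable abbrev fixedFld (H : Subgroup Gal(L/ℚ)) : IntermediateField ℚ L :=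
  FixedPoints.intermediateField H

variable {L}

/-- The ramification index of `P` over the fixed field of a subgroup `H` of its inertia group
is `|H|`. -/
theorem ramificationIdx_under_fixed (H : Subgroup Gal(L/ℚ))
    (hH : H ≤ Ideal.inertia Gal(L/ℚ) P) :
    P.ramificationIdx (𝓞 (fixedFld L H)) = Nat.card H := by
  let E := fixedFld L H
  have hG : IsGaloisGroup H (𝓞 E) (𝓞 L) := IsGaloisGroup.of_isFractionRing H (𝓞 E) (𝓞 L) E L
  have h3 : Nat.card (P.inertia H) = (P.under (𝓞 E)).ramificationIdxIn (𝓞 L) :=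
    Ideal.card_inertia_eq_ramificationIdxIn (G := H) (P.under (𝓞 E)) P
  have h4 : (P.under (𝓞 E)).ramificationIdxIn (𝓞 L) = P.ramificationIdx (𝓞 E) :=
    Ideal.ramificationIdxIn_eq_ramificationIdx (P.under (𝓞 E)) P H
  have h5 : P.inertia H = ⊤ := by
    ext ⟨σ, hσ⟩
    simp only [Subgroup.mem_top, iff_true]
    intro y
    exact hH hσ y
  rw [← h4, ← h3, h5]
  exact Subgroup.card_top

/-- The ramification index of `P` over `ℚ` is the order of its inertia group. -/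
theorem ramificationIdx_int_eq_card :
    P.ramificationIdx ℤ = Nat.card (Ideal.inertia Gal(L/ℚ) P) := by
  have h1 : Nat.card (Ideal.inertia Gal(L/ℚ) P) = (P.under ℤ).ramificationIdxIn (𝓞 L) :=
    Ideal.card_inertia_eq_ramificationIdxIn (G := Gal(L/ℚ)) (P.under ℤ) P
  have h2 : (P.under ℤ).ramificationIdxIn (𝓞 L) = P.ramificationIdx ℤ :=
    Ideal.ramificationIdxIn_eq_ramificationIdx (P.under ℤ) P Gal(L/ℚ)
  rw [h1, h2]

/-- `w(q) = exp(-|I_P|)` for the prime `P = w` over `q`. -/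
theorem valuation_natCast_eq (w : HeightOneSpectrum (𝓞 L)) (hw : w.asIdeal = P)
    (q : ℕ) (hq : q.Prime) (hqP : (q : 𝓞 L) ∈ P) :
    w.valuation L (q : L) = exp (-(Nat.card (Ideal.inertia Gal(L/ℚ) P) : ℤ)) := by
  subst hw
  have hq0 : (q : ℤ) ≠ 0 := Int.natCast_ne_zero.mpr hq.ne_zero
  have hune : w.asIdeal.under ℤ ≠ ⊥ := by
    intro h0
    have h1 : (q : ℤ) ∈ w.asIdeal.under ℤ := by
      rw [Ideal.under_def, Ideal.mem_comap]
      simpa using hqP
    rw [h0, Ideal.mem_bot] at h1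
    exact hq0 h1
  let u : HeightOneSpectrum ℤ := ⟨w.asIdeal.under ℤ, inferInstance, hune⟩
  have huw : w.asIdeal.LiesOver u.asIdeal := ⟨rfl⟩
  have e2 : u.asIdeal.ramificationIdx' w.asIdeal = w.asIdeal.ramificationIdx ℤ :=
    Ideal.ramificationIdx'_eq_ramificationIdx u.asIdeal w.asIdeal hune
  have k2 := valuation_liesOver L u w ((q : ℕ) : ℚ)
  rw [e2, ramificationIdx_int_eq_card w.asIdeal] at k2
  have hmax : (Ideal.span {(q : ℤ)}).IsMaximal :=
    PrincipalIdealRing.isMaximal_of_irreducible (Nat.prime_iff_prime_int.mp hq).irreducible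
  have hunder : u.asIdeal = Ideal.span {(q : ℤ)} := by
    refine (hmax.eq_of_le u.isPrime.ne_top ?_).symm
    rw [Ideal.span_singleton_le_iff_mem]
    show (q : ℤ) ∈ w.asIdeal.under ℤ
    rw [Ideal.under_def, Ideal.mem_comap]
    simpa using hqP
  have k3 : u.valuation ℚ ((q : ℕ) : ℚ) = exp (-1 : ℤ) := by
    have h1 : ((q : ℕ) : ℚ) = algebraMap ℤ ℚ (q : ℤ) := by simp
    rw [h1, valuation_of_algebraMap]
    exact u.intValuation_singleton hq0 hunder
  have k6 : algebraMap ℚ L ((q : ℕ) : ℚ) = (q : L) := by simp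
  rw [k3, k6] at k2
  rw [← k2, ← exp_nsmul]
  simp

/-- An element of the fixed field of a subgroup `H` of the inertia group has `w`-valuation
`exp (m * |H|)`. -/
theorem exists_valuation_eq_exp (w : HeightOneSpectrum (𝓞 L)) (hw : w.asIdeal = P)
    (q : ℕ) (hq : q.Prime) (hqP : (q : 𝓞 L) ∈ P) (H : Subgroup Gal(L/ℚ))
    (hH : H ≤ Ideal.inertia Gal(L/ℚ) P) (a : L) (ha : a ∈ fixedFld L H)
    (ha0 : a ≠ 0) : ∃ m : ℤ, w.valuation L a = exp (m * (Nat.card H : ℤ)) := by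
  subst hw
  set E := fixedFld L H with hE
  have hvne : w.asIdeal.under (𝓞 E) ≠ ⊥ := by
    intro h0
    have h1 : ((q : ℕ) : 𝓞 E) ∈ w.asIdeal.under (𝓞 E) := by
      rw [Ideal.under_def, Ideal.mem_comap]
      simpa using hqP
    rw [h0, Ideal.mem_bot] at h1
    exact hq.ne_zero (Nat.cast_eq_zero.mp h1)
  let v : HeightOneSpectrum (𝓞 E) := ⟨w.asIdeal.under (𝓞 E), inferInstance, hvne⟩
  have hvw : w.asIdeal.LiesOver v.asIdeal := ⟨rfl⟩
  have e1 : v.asIdeal.ramificationIdx' w.asIdeal = w.asIdeal.ramificationIdx (𝓞 E) :=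
    Ideal.ramificationIdx'_eq_ramificationIdx v.asIdeal w.asIdeal hvne
  have e3 := ramificationIdx_under_fixed w.asIdeal H hH
  have k1 := valuation_liesOver L v w (⟨a, ha⟩ : E)
  rw [e1, e3] at k1
  have ha0' : (⟨a, ha⟩ : E) ≠ 0 := fun h => ha0 (congrArg Subtype.val h)
  have hva : v.valuation E (⟨a, ha⟩ : E) ≠ 0 := (Valuation.ne_zero_iff _).mpr ha0'
  set m : ℤ := log (v.valuation E (⟨a, ha⟩ : E)) with hm
  have k4 : v.valuation E (⟨a, ha⟩ : E) = exp m := (exp_log hva).symm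
  rw [k4] at k1
  refine ⟨m, ?_⟩
  have k5 : algebraMap E L (⟨a, ha⟩ : E) = a := rfl
  rw [k5] at k1
  rw [← k1, ← exp_nsmul]
  congr 1
  simp [mul_comm]

end Finite

/-! ### The stabiliser of `ζ` in the inertia group -/

section Stab

variable {L : Type} [Field L] [NumberField L] [IsGalois ℚ L]
  (P : Ideal (𝓞 L)) [hPp : P.IsPrime] (ζ : L)

/-- The stabiliser of `ζ` in the inertia group of `P`, as a subgroup of `Gal(L/ℚ)`. -/
noncomputable def zetaStab : Subgroup Gal(L/ℚ) :=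
  (MulAction.stabilizer (Ideal.inertia Gal(L/ℚ) P) ζ).map (Ideal.inertia Gal(L/ℚ) P).subtype

theorem mem_zetaStab {σ : Gal(L/ℚ)} :
    σ ∈ zetaStab P ζ ↔ σ ∈ Ideal.inertia Gal(L/ℚ) P ∧ σ ζ = ζ := by
  constructor
  · rintro ⟨τ, hτ, rfl⟩
    exact ⟨τ.2, hτ⟩
  · rintro ⟨h1, h2⟩
    exact ⟨⟨σ, h1⟩, h2, rfl⟩

theorem zetaStab_le : zetaStab P ζ ≤ Ideal.inertia Gal(L/ℚ) P :=
  fun _ hσ => ((mem_zetaStab P ζ).mp hσ).1

theorem card_zetaStab :
    Nat.card (zetaStab P ζ) =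
      Nat.card (MulAction.stabilizer (Ideal.inertia Gal(L/ℚ) P) ζ) :=
  Subgroup.card_subtype _ _

theorem one_sub_mem_fixedFld : 1 - ζ ∈ fixedFld L (zetaStab P ζ) := by
  rintro ⟨σ, hσ⟩
  have h := ((mem_zetaStab P ζ).mp hσ).2
  show σ (1 - ζ) = 1 - ζ
  rw [map_sub, map_one, h]

/-- **Finite level.**  The inertia group of `P ∣ q` has order `(q - 1) |H|`, `H` the stabiliser
of a primitive `q`-th root of unity `ζ`; `w(1 - ζ) = exp(-|H|)`; and the inertia group acts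
transitively on the primitive `q`-th roots of unity. -/
theorem card_inertia_eq (w : HeightOneSpectrum (𝓞 L)) (hw : w.asIdeal = P)
    (q : ℕ) (hq : q.Prime) (hqP : (q : 𝓞 L) ∈ P) (hζ : IsPrimitiveRoot ζ q) :
    Nat.card (Ideal.inertia Gal(L/ℚ) P) = (q - 1) * Nat.card (zetaStab P ζ) ∧
      w.valuation L (1 - ζ) = exp (-(Nat.card (zetaStab P ζ) : ℤ)) ∧
      ∀ k : ℕ, ¬ q ∣ k → ∃ σ ∈ Ideal.inertia Gal(L/ℚ) P, σ ζ = ζ ^ k := by
  set G := Ideal.inertia Gal(L/ℚ) P with hG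
  set S := MulAction.stabilizer G ζ with hS
  set h := Nat.card (zetaStab P ζ) with hh
  have hhS : h = Nat.card S := card_zetaStab P ζ
  have hmul : Nat.card S * S.index = Nat.card G := Subgroup.card_mul_index S
  have hidx : S.index = (MulAction.orbit G ζ).ncard := MulAction.index_stabilizer G ζ
  -- the orbit consists of primitive roots
  have hsub : MulAction.orbit G ζ ⊆ ((primitiveRoots q L : Finset L) : Set L) := by
    rintro x ⟨g, rfl⟩
    rw [Finset.mem_coe, mem_primitiveRoots hq.pos]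
    exact hζ.map_of_injective (g : Gal(L/ℚ)).injective
  have hcardP : ((primitiveRoots q L : Finset L) : Set L).ncard = q - 1 := by
    rw [Set.ncard_coe_finset, hζ.card_primitiveRoots, Nat.totient_prime hq]
  have hidx_le : S.index ≤ q - 1 := by
    rw [hidx, ← hcardP]
    exact Set.ncard_le_ncard hsub (Finset.finite_toSet _)
  have hh_pos : 0 < h := by
    rw [hhS]
    exact Nat.card_pos
  -- valuations
  have hζ1 : ζ ≠ 1 := hζ.ne_one hq.one_lt
  have hne : (1 : L) - ζ ≠ 0 := sub_ne_zero.mpr (Ne.symm hζ1)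
  obtain ⟨m0, hm0⟩ := exists_valuation_eq_exp P w hw q hq hqP (zetaStab P ζ) (zetaStab_le P ζ)
    (1 - ζ) (one_sub_mem_fixedFld P ζ) hne
  have hV1 := valuation_one_sub_zeta_pow (w.valuation L) hq hζ
  rw [hm0, valuation_natCast_eq P w hw q hq hqP, ← exp_nsmul, exp_inj] at hV1
  -- arithmetic
  have hq1 : 1 ≤ q - 1 := by have := hq.two_le; omega
  have key : ((q - 1 : ℕ) : ℤ) * m0 * (h : ℤ) = -((h : ℤ) * (S.index : ℤ)) := by
    have e1 : (Nat.card G : ℤ) = (h : ℤ) * (S.index : ℤ) := by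
      rw [← hmul, hhS]
      push_cast
      ring
    rw [nsmul_eq_mul] at hV1
    rw [← e1]
    linear_combination hV1
  have hhz : (h : ℤ) ≠ 0 := by exact_mod_cast hh_pos.ne'
  have key2 : ((q - 1 : ℕ) : ℤ) * m0 = -(S.index : ℤ) := by
    have : (((q - 1 : ℕ) : ℤ) * m0 + (S.index : ℤ)) * (h : ℤ) = 0 := by linear_combination key
    rcases mul_eq_zero.mp this with h0 | h0
    · linear_combination h0
    · exact absurd h0 hhz
  have hidx_pos : 0 < S.index := Nat.pos_of_ne_zero Subgroup.index_ne_zero_of_finite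
  have hm0neg : m0 ≤ -1 := by
    by_contra hcon
    have hm0' : 0 ≤ m0 := by omega
    have h1 : 0 ≤ ((q - 1 : ℕ) : ℤ) * m0 := mul_nonneg (by positivity) hm0'
    have h2 : (0 : ℤ) < (S.index : ℤ) := by exact_mod_cast hidx_pos
    linarith
  have hq1z : (1 : ℤ) ≤ ((q - 1 : ℕ) : ℤ) := by exact_mod_cast hq1
  have hidx_ge : ((q - 1 : ℕ) : ℤ) ≤ (S.index : ℤ) := by nlinarith
  have hidx_eq : S.index = q - 1 := le_antisymm hidx_le (by exact_mod_cast hidx_ge)
  have hm0eq : m0 = -1 := by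
    rw [hidx_eq] at key2
    have h3 : ((q - 1 : ℕ) : ℤ) * (m0 + 1) = 0 := by linear_combination key2
    rcases mul_eq_zero.mp h3 with h0 | h0
    · linarith
    · linarith
  refine ⟨?_, ?_, ?_⟩
  · rw [← hmul, hidx_eq, ← hhS, mul_comm]
  · rw [hm0, hm0eq]
    congr 1
    ring
  · intro k hk
    have horb : MulAction.orbit G ζ = ((primitiveRoots q L : Finset L) : Set L) := by
      refine Set.eq_of_subset_of_ncard_le hsub ?_ (Finset.finite_toSet _)
      rw [hcardP, ← hidx, hidx_eq]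
    have hcop : k.Coprime q := by
      rw [Nat.coprime_comm]
      exact (Nat.Prime.coprime_iff_not_dvd hq).mpr hk
    have hmem : ζ ^ k ∈ MulAction.orbit G ζ := by
      rw [horb, Finset.mem_coe, mem_primitiveRoots hq.pos]
      exact hζ.pow_of_coprime k hcop
    obtain ⟨g, hg⟩ := hmem
    exact ⟨(g : Gal(L/ℚ)), g.2, hg⟩

/-- **Finite level, (Z2).**  A nonzero element of the fixed field of the stabiliser of `ζ` in the
inertia group is a power of `1 - ζ` times a `w`-unit. -/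
theorem exists_valuation_mul_zpow_eq_one (w : HeightOneSpectrum (𝓞 L)) (hw : w.asIdeal = P)
    (q : ℕ) (hq : q.Prime) (hqP : (q : 𝓞 L) ∈ P) (hζ : IsPrimitiveRoot ζ q) (a : L)
    (ha : a ∈ fixedFld L (zetaStab P ζ)) (ha0 : a ≠ 0) :
    ∃ n : ℤ, w.valuation L (a * (1 - ζ) ^ n) = 1 := by
  obtain ⟨-, h2, -⟩ := card_inertia_eq P ζ w hw q hq hqP hζ
  obtain ⟨m, hm⟩ := exists_valuation_eq_exp P w hw q hq hqP (zetaStab P ζ) (zetaStab_le P ζ)
    a ha ha0
  refine ⟨m, ?_⟩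
  rw [map_mul, map_zpow₀, hm, h2, ← exp_zsmul, ← exp_add]
  simp only [smul_eq_mul, mul_neg]
  rw [show m * (Nat.card (zetaStab P ζ) : ℤ) + -(m * (Nat.card (zetaStab P ζ) : ℤ)) = 0 by ring]
  rfl

end Stab

/-! ### The global statements -/

section Global

open Fermat.Agent.Lib.InertiaGlue

/-- **(Z1)** `v(1 - ζ)^(q-1) = v(q)` for a primitive `q`-th root of unity `ζ`. -/
theorem val_one_sub_zeta_pow (A : ValuationSubring Qb) (q : ℕ) (hq : q.Prime) (ζ : Qb)
    (hζ : IsPrimitiveRoot ζ q) : A.valuation (1 - ζ) ^ (q - 1) = A.valuation (q : Qb) :=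
  valuation_one_sub_zeta_pow A.valuation hq hζ

/-- `1 - ζ` is a non-unit of `A` (for `A` over `q`). -/
theorem val_one_sub_zeta_lt_one (A : ValuationSubring Qb) (q : ℕ) (hq : q.Prime)
    (hAq : A.LiesOverPrime q) (ζ : Qb) (hζ : IsPrimitiveRoot ζ q) : A.valuation (1 - ζ) < 1 := by
  have h1 := val_one_sub_zeta_pow A q hq ζ hζ
  have hvq : A.valuation (q : Qb) < 1 := by
    have hA' : ((q : ℕ) : Qb) ∈ A.nonunits := hAq
    rwa [ValuationSubring.mem_nonunits_iff] at hA'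
  by_contra hcon
  rw [not_lt] at hcon
  have h2 : 1 ≤ A.valuation (1 - ζ) ^ (q - 1) := one_le_pow₀ hcon
  rw [h1] at h2
  exact absurd hvq (not_lt.mpr h2)

/-- The finite-level reduction: both (Z2) and (Z4). -/
theorem exists_val_mul_zpow_eq_one_and (A : ValuationSubring Qb) (q : ℕ) (hq : q.Prime)
    (hAq : A.LiesOverPrime q) (ζ : Qb) (hζ : IsPrimitiveRoot ζ q) (a : Qb) (ha : a ≠ 0)
    (hfix : ∀ σ ∈ A.inertiaSubgroupIn ℚ, σ ζ = ζ → σ a = a) :
    (∃ n : ℤ, A.valuation (a * (1 - ζ) ^ n) = 1) ∧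
      ∀ k : ℕ, ¬ q ∣ k → ∃ σ ∈ A.inertiaSubgroupIn ℚ, σ ζ = ζ ^ k := by
  -- the Galois closure of `ℚ(a, ζ)`
  let F : IntermediateField ℚ Qb := IntermediateField.adjoin ℚ {a, ζ}
  have hFfin : FiniteDimensional ℚ F :=
    IntermediateField.finiteDimensional_adjoin (fun x _ => Algebra.IsIntegral.isIntegral x)
  let N : IntermediateField ℚ Qb := IntermediateField.normalClosure ℚ F Qb
  have hNfin : FiniteDimensional ℚ N := inferInstance
  have hNnf : NumberField N := ⟨⟩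
  have hNnormal : Normal ℚ N := normalClosure.normal ℚ F Qb
  have hNgal : IsGalois ℚ N := ⟨⟩
  have haN : a ∈ N :=
    IntermediateField.le_normalClosure F (IntermediateField.subset_adjoin ℚ _ (by simp))
  have hζN : ζ ∈ N :=
    IntermediateField.le_normalClosure F (IntermediateField.subset_adjoin ℚ _ (by simp))
  -- the prime below `A`
  have hqP : ((q : ℕ) : 𝓞 N) ∈ primeBelow N A := by
    rw [mem_primeBelow]
    have hA' : ((q : ℕ) : Qb) ∈ A.nonunits := hAq
    simpa using hA'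
  have hP0 : primeBelow N A ≠ ⊥ := by
    intro h0
    rw [h0, Ideal.mem_bot] at hqP
    exact hq.ne_zero (Nat.cast_eq_zero.mp hqP)
  let w : HeightOneSpectrum (𝓞 N) := ⟨primeBelow N A, inferInstance, hP0⟩
  have hw : ∀ y ∈ w.asIdeal, (((y : N) : Qb)) ∈ A.nonunits :=
    fun y hy => (mem_primeBelow N A y).mp hy
  -- `ζ` in `N`
  have hζ' : IsPrimitiveRoot (⟨ζ, hζN⟩ : N) q :=
    IsPrimitiveRoot.of_map_of_injective (f := algebraMap N Qb) hζ (algebraMap N Qb).injective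
  -- lifting inertia
  have hlift : ∀ τ ∈ Ideal.inertia Gal(N/ℚ) (primeBelow N A),
      ∃ σ ∈ A.inertiaSubgroupIn ℚ, ∀ x : N, σ (x : Qb) = ((τ x : N) : Qb) := by
    intro τ hτ
    have hτ' : ∀ x : N, IsIntegral ℤ x → ((τ x : N) : Qb) - (x : Qb) ∈ A.nonunits := by
      intro x hx
      obtain ⟨y, rfl⟩ := (IsIntegralClosure.isIntegral_iff (A := 𝓞 N)).mp hx
      have h5 : τ • y - y ∈ primeBelow N A := hτ y
      rw [mem_primeBelow] at h5
      have h6 : algebraMap (𝓞 N) N (τ • y) = τ (algebraMap (𝓞 N) N y) := rfl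
      rw [map_sub, h6] at h5
      exact h5
    exact Fermat.Agent.Lib.InertiaLift.exists_inertia_lift N A τ hτ'
  refine ⟨?_, ?_⟩
  · -- `a` lies in the fixed field of the stabiliser
    have haE : (⟨a, haN⟩ : N) ∈ fixedFld N (zetaStab (primeBelow N A) (⟨ζ, hζN⟩ : N)) := by
      rintro ⟨τ, hτ⟩
      obtain ⟨hτI, hτζ⟩ := (mem_zetaStab _ _).mp hτ
      obtain ⟨σ, hσ, hστ⟩ := hlift τ hτI
      have h1 : σ ζ = ζ := by
        have h2 := hστ ⟨ζ, hζN⟩
        rw [hτζ] at h2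
        exact h2
      have h3 := hfix σ hσ h1
      have h4 := hστ ⟨a, haN⟩
      apply Subtype.ext
      show ((τ (⟨a, haN⟩ : N) : N) : Qb) = a
      rw [← h4]
      exact h3
    have ha0 : (⟨a, haN⟩ : N) ≠ 0 := fun h => ha (congrArg Subtype.val h)
    obtain ⟨n, hn⟩ := exists_valuation_mul_zpow_eq_one (primeBelow N A) (⟨ζ, hζN⟩ : N) w rfl q hq
      hqP hζ' ⟨a, haN⟩ haE ha0
    refine ⟨n, ?_⟩
    have h3 := Fermat.Agent.CFT.Fin.val_eq_one_of_valuation_eq_one (K := N) (A := A) (v := w) hw hn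
    have h4 : (((⟨a, haN⟩ : N) * (1 - (⟨ζ, hζN⟩ : N)) ^ n : N) : Qb) = a * (1 - ζ) ^ n := by
      push_cast
      rfl
    rw [h4] at h3
    exact h3
  · intro k hk
    obtain ⟨-, -, h3⟩ := card_inertia_eq (primeBelow N A) (⟨ζ, hζN⟩ : N) w rfl q hq hqP hζ'
    obtain ⟨τ, hτI, hτζ⟩ := h3 k hk
    obtain ⟨σ, hσ, hστ⟩ := hlift τ hτI
    refine ⟨σ, hσ, ?_⟩
    have h2 := hστ ⟨ζ, hζN⟩
    rw [hτζ] at h2
    rw [h2]
    push_cast
    rfl

/-- **(Z2)** A nonzero element of `Q̄` fixed by the inertia elements fixing `ζ` (an element of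
`K₀(ζ)ˣ`) has valuation in `v(1 - ζ)^ℤ`. -/
theorem val_eq_zpow_of_zeta_fixed (A : ValuationSubring Qb) (q : ℕ) (hq : q.Prime)
    (hAq : A.LiesOverPrime q) (ζ : Qb) (hζ : IsPrimitiveRoot ζ q) (a : Qb) (ha : a ≠ 0)
    (hfix : ∀ σ ∈ A.inertiaSubgroupIn ℚ, σ ζ = ζ → σ a = a) :
    ∃ m : ℤ, A.valuation a = A.valuation (1 - ζ) ^ m := by
  obtain ⟨⟨n, hn⟩, -⟩ := exists_val_mul_zpow_eq_one_and A q hq hAq ζ hζ a ha hfix
  refine ⟨-n, ?_⟩
  rw [map_mul, map_zpow₀] at hn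
  rw [zpow_neg]
  exact eq_inv_of_mul_eq_one_left hn

/-- **(Z4)** The inertia group acts transitively on the primitive `q`-th roots of unity. -/
theorem exists_inertia_zeta_pow (A : ValuationSubring Qb) (q : ℕ) (hq : q.Prime)
    (hAq : A.LiesOverPrime q) (ζ : Qb) (hζ : IsPrimitiveRoot ζ q) (k : ℕ) (hk : ¬ q ∣ k) :
    ∃ σ ∈ A.inertiaSubgroupIn ℚ, σ ζ = ζ ^ k :=
  (exists_val_mul_zpow_eq_one_and A q hq hAq ζ hζ 1 one_ne_zero
    (fun σ _ _ => map_one σ)).2 k hk

/-- **(Z3)** A non-unit of `A` fixed by the inertia elements fixing `ζ` is divisible by `1 - ζ`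
in `A` (the maximal ideal of `A ∩ K₀(ζ)` is generated by `1 - ζ`). -/
theorem div_one_sub_zeta_mem (A : ValuationSubring Qb) (q : ℕ) (hq : q.Prime)
    (hAq : A.LiesOverPrime q) (ζ : Qb) (hζ : IsPrimitiveRoot ζ q) (a : Qb) (ha : a ∈ A.nonunits)
    (hfix : ∀ σ ∈ A.inertiaSubgroupIn ℚ, σ ζ = ζ → σ a = a) : a / (1 - ζ) ∈ A := by
  by_cases ha0 : a = 0
  · rw [ha0, zero_div]
    exact A.zero_mem
  obtain ⟨m, hm⟩ := val_eq_zpow_of_zeta_fixed A q hq hAq ζ hζ a ha0 hfix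
  have hπ1 : A.valuation (1 - ζ) < 1 := val_one_sub_zeta_lt_one A q hq hAq ζ hζ
  have hζ1 : ζ ≠ 1 := hζ.ne_one hq.one_lt
  have hπ0 : (1 : Qb) - ζ ≠ 0 := sub_ne_zero.mpr (Ne.symm hζ1)
  have hvπ0 : A.valuation (1 - ζ) ≠ 0 := (Valuation.ne_zero_iff _).mpr hπ0
  have hva : A.valuation a < 1 := by rwa [ValuationSubring.mem_nonunits_iff] at ha
  have hm1 : 1 ≤ m := by
    by_contra hcon
    rw [not_le] at hcon
    obtain ⟨k, hk⟩ : ∃ k : ℕ, m = -(k : ℤ) := ⟨(-m).toNat, by omega⟩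
    rw [hm, hk, zpow_neg, zpow_natCast] at hva
    have h1 : A.valuation (1 - ζ) ^ k ≤ 1 := pow_le_one₀ zero_le hπ1.le
    have h2 : 1 ≤ (A.valuation (1 - ζ) ^ k)⁻¹ := (one_le_inv₀ (pow_pos (zero_lt_iff.mpr hvπ0) k)).mpr h1
    exact absurd hva (not_lt.mpr h2)
  rw [← ValuationSubring.valuation_le_one_iff, map_div₀, hm]
  obtain ⟨k, hk⟩ : ∃ k : ℕ, m = (k : ℤ) + 1 := ⟨(m - 1).toNat, by omega⟩
  rw [hk, zpow_add_one₀ hvπ0, zpow_natCast, mul_div_assoc, div_self hvπ0, mul_one]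
  exact pow_le_one₀ zero_le hπ1.le

end Global

end Fermat.Agent.S36.K0Zeta
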