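/-
P8 (S36) block [KS], series part (helper64): the formal "Kodaira–Spencer" identities of the
Hauptmoduln of levels 4 and 9 over ANY field `k`:

* `(θ t₄)^6 = t₄² (t₄ + 16)^5 · Δ`,
* `t₉³ (θ t₉)^6 = (t₉² + 9 t₉ + 27)^5 · Δ`,

with `θ = T d/dT`, `Δ = S28.deltaS`.  Derived from `j · D(t) = N(t)³` (`S18/Haupt`) and
`(θ j)^6 = j⁴ (j - 1728)³ Δ` (`S28/Theta`) by differentiating.
-/
import Mathlib
import Fermat.Agent.S28.Theta
import Fermat.Agent.S18.Haupt.Level4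
import Fermat.Agent.S18.Haupt.Level9

set_option autoImplicit false

noncomputable section

namespace Fermat.Agent.S36.KodSpenSeries

open Fermat.Agent.S28 Fermat.Agent.S18.Haupt ModularCurve

variable (k : Type*) [Field k]

/-- `j` is not a constant series. -/
theorem jq_ne_C (c : k) : jqModC k ≠ HahnSeries.C c := by
  intro h
  have h1 := coeff_jqModC_neg_one k
  rw [h, HahnSeries.C_apply, HahnSeries.coeff_single_of_ne (by norm_num)] at h1
  exact zero_ne_one h1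

theorem jq_ne_zero : jqModC k ≠ 0 := by
  have h := jq_ne_C k 0
  rwa [map_zero] at h

theorem jq_sub_ne_zero : jqModC k - 1728 ≠ 0 := by
  intro h
  apply jq_ne_C k 1728
  rw [map_ofNat]
  exact sub_eq_zero.mp h

theorem theta_ofNat (n : ℕ) [n.AtLeastTwo] : theta k (ofNat(n) : LaurentSeries k) = 0 := by
  have h : (ofNat(n) : LaurentSeries k) = HahnSeries.C (ofNat(n) : k) := by
    rw [map_ofNat]
  rw [h, theta_C]

theorem theta_pow (f : LaurentSeries k) (n : ℕ) :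
    theta k (f ^ (n + 1)) = (n + 1 : ℕ) * f ^ n * theta k f := by
  induction n with
  | zero => simp
  | succ n ih =>
    rw [pow_succ, theta_mul, ih]
    push_cast
    ring

/-- the abstract cancellation: from `j D = N³`, its derivative, `(j - 1728) D = S²`,
`3 N' D - N D' = c S` and `(θ j)^6 = j⁴ (j-1728)³ Δ` one gets `c^6 X^6 = D^5 Δ`. -/
theorem core {L : Type*} [Field L] (j J X Δ D D' N N' S c : L)
    (ha : j * D = N ^ 3) (hb : J * D + j * (D' * X) = 3 * N ^ 2 * (N' * X))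
    (hc : J ^ 6 = j ^ 4 * (j - 1728) ^ 3 * Δ)
    (hS : N ^ 3 - 1728 * D = S ^ 2) (hG : 3 * N' * D - N * D' = c * S)
    (hN : N ≠ 0) (hS0 : S ≠ 0) :
    c ^ 6 * X ^ 6 = D ^ 5 * Δ := by
  have hd : J * D ^ 2 = N ^ 2 * (c * S) * X := by
    rw [← hG]
    linear_combination D * hb - D' * X * ha
  have he : (j - 1728) * D = S ^ 2 := by
    rw [← hS]
    linear_combination ha
  have hf : (J * D ^ 2) ^ 6 = (j * D) ^ 4 * ((j - 1728) * D) ^ 3 * Δ * D ^ 5 := by
    linear_combination D ^ 12 * hc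
  rw [hd, ha, he] at hf
  have hne : N ^ 12 * S ^ 6 ≠ 0 := mul_ne_zero (pow_ne_zero _ hN) (pow_ne_zero _ hS0)
  apply mul_left_cancel₀ hne
  linear_combination hf

/-- **level 4**: `(θ t₄)^6 = t₄² (t₄ + 16)^5 Δ`. -/
theorem theta_t4_pow_six :
    theta k (t4 k) ^ 6 = t4 k ^ 2 * (t4 k + 16) ^ 5 * deltaS k := by
  set t := t4 k with ht
  set X := theta k t with hX
  have ha : jqModC k * (t ^ 4 * (t + 16)) = (t ^ 2 + 256 * t + 4096) ^ 3 := t4_rel_one k
  have hb : theta k (jqModC k) * (t ^ 4 * (t + 16)) + jqModC k * ((5 * t ^ 4 + 64 * t ^ 3) * X)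
      = 3 * (t ^ 2 + 256 * t + 4096) ^ 2 * ((2 * t + 256) * X) := by
    have h := congrArg (theta k) ha
    rw [theta_mul, theta_mul, theta_pow k t 3, map_add, theta_ofNat, theta_pow k _ 2, map_add,
      map_add, theta_pow k t 1, theta_mul, theta_ofNat, theta_ofNat] at h
    push_cast at h
    linear_combination h
  have hc := theta_jqModC_pow_six k
  have hD0 : t ^ 4 * (t + 16) ≠ 0 :=
    mul_ne_zero (pow_ne_zero _ (t4_ne_zero k)) (t4_add_ne_zero k)
  have hN : t ^ 2 + 256 * t + 4096 ≠ 0 := by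
    intro h0
    rw [h0] at ha
    simp only [ne_eq, OfNat.ofNat_ne_zero, not_false_eq_true, zero_pow] at ha
    exact mul_ne_zero (jq_ne_zero k) hD0 ha
  have hSeq : (t ^ 2 + 256 * t + 4096) ^ 3 - 1728 * (t ^ 4 * (t + 16))
      = ((t + 32) * (t ^ 2 - 512 * t - 8192)) ^ 2 := by ring
  have hS0 : (t + 32) * (t ^ 2 - 512 * t - 8192) ≠ 0 := by
    intro h0
    have he : (jqModC k - 1728) * (t ^ 4 * (t + 16)) = ((t + 32) * (t ^ 2 - 512 * t - 8192)) ^ 2 := by
      rw [← hSeq]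
      linear_combination ha
    rw [h0] at he
    simp only [ne_eq, OfNat.ofNat_ne_zero, not_false_eq_true, zero_pow] at he
    exact mul_ne_zero (jq_sub_ne_zero k) hD0 he
  have hG : 3 * (2 * t + 256) * (t ^ 4 * (t + 16)) - (t ^ 2 + 256 * t + 4096) * (5 * t ^ 4 + 64 * t ^ 3)
      = t ^ 3 * ((t + 32) * (t ^ 2 - 512 * t - 8192)) := by ring
  have h := core (jqModC k) (theta k (jqModC k)) X (deltaS k) (t ^ 4 * (t + 16))
    (5 * t ^ 4 + 64 * t ^ 3) (t ^ 2 + 256 * t + 4096) (2 * t + 256)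
    ((t + 32) * (t ^ 2 - 512 * t - 8192)) (t ^ 3) ha hb hc hSeq hG hN hS0
  have ht0 : t ^ 18 ≠ 0 := pow_ne_zero _ (t4_ne_zero k)
  apply mul_left_cancel₀ ht0
  linear_combination h

theorem theta_pow' (f : LaurentSeries k) (n : ℕ) :
    theta k (f ^ n) = (n : LaurentSeries k) * f ^ (n - 1) * theta k f := by
  cases n with
  | zero =>
    rw [pow_zero, Nat.cast_zero, zero_mul, zero_mul]
    have h : (1 : LaurentSeries k) = HahnSeries.C (1 : k) := (map_one _).symm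
    rw [h, theta_C]
  | succ n => rw [theta_pow, Nat.add_sub_cancel]

/-- **level 9**: `t₉³ (θ t₉)^6 = (t₉² + 9 t₉ + 27)^5 Δ`. -/
theorem t9_pow_mul_theta_pow_six :
    t9 k ^ 3 * theta k (t9 k) ^ 6 = (t9 k ^ 2 + 9 * t9 k + 27) ^ 5 * deltaS k := by
  set t := t9 k with ht
  set X := theta k t with hX
  have ha0 := t9_rel_one k
  rw [← ht] at ha0
  have ha : jqModC k * (t ^ 9 * (t ^ 2 + 9 * t + 27))
      = ((t + 9) * (t ^ 3 + 243 * t ^ 2 + 2187 * t + 6561)) ^ 3 := by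
    rw [mul_pow]
    exact ha0
  have hb : theta k (jqModC k) * (t ^ 9 * (t ^ 2 + 9 * t + 27))
      + jqModC k * ((9 * t ^ 8 * (t ^ 2 + 9 * t + 27) + t ^ 9 * (2 * t + 9)) * X)
      = 3 * ((t + 9) * (t ^ 3 + 243 * t ^ 2 + 2187 * t + 6561)) ^ 2
        * (((t ^ 3 + 243 * t ^ 2 + 2187 * t + 6561) + (t + 9) * (3 * t ^ 2 + 486 * t + 2187)) * X) := by
    have h := congrArg (theta k) ha0
    simp only [theta_mul, map_add, theta_pow', theta_ofNat, ← hX] at h
    norm_num at h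
    linear_combination h
  have hc := theta_jqModC_pow_six k
  have hD0 : t ^ 9 * (t ^ 2 + 9 * t + 27) ≠ 0 :=
    mul_ne_zero (pow_ne_zero _ (t9_ne_zero k)) (s9_ne_zero k)
  have hN : (t + 9) * (t ^ 3 + 243 * t ^ 2 + 2187 * t + 6561) ≠ 0 := by
    intro h0
    rw [h0] at ha
    simp only [ne_eq, OfNat.ofNat_ne_zero, not_false_eq_true, zero_pow] at ha
    exact mul_ne_zero (jq_ne_zero k) hD0 ha
  have hSeq : ((t + 9) * (t ^ 3 + 243 * t ^ 2 + 2187 * t + 6561)) ^ 3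
        - 1728 * (t ^ 9 * (t ^ 2 + 9 * t + 27))
      = (t ^ 6 - 486 * t ^ 5 - 24057 * t ^ 4 - 367416 * t ^ 3 - 2657205 * t ^ 2 - 9565938 * t
          - 14348907) ^ 2 := by ring
  have hS0 : t ^ 6 - 486 * t ^ 5 - 24057 * t ^ 4 - 367416 * t ^ 3 - 2657205 * t ^ 2 - 9565938 * t
      - 14348907 ≠ 0 := by
    intro h0
    have he : (jqModC k - 1728) * (t ^ 9 * (t ^ 2 + 9 * t + 27))
        = (t ^ 6 - 486 * t ^ 5 - 24057 * t ^ 4 - 367416 * t ^ 3 - 2657205 * t ^ 2 - 9565938 * t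
          - 14348907) ^ 2 := by
      rw [← hSeq]
      linear_combination ha
    rw [h0] at he
    simp only [ne_eq, OfNat.ofNat_ne_zero, not_false_eq_true, zero_pow] at he
    exact mul_ne_zero (jq_sub_ne_zero k) hD0 he
  have hG : 3 * ((t ^ 3 + 243 * t ^ 2 + 2187 * t + 6561) + (t + 9) * (3 * t ^ 2 + 486 * t + 2187))
        * (t ^ 9 * (t ^ 2 + 9 * t + 27))
      - ((t + 9) * (t ^ 3 + 243 * t ^ 2 + 2187 * t + 6561))
        * (9 * t ^ 8 * (t ^ 2 + 9 * t + 27) + t ^ 9 * (2 * t + 9))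
      = t ^ 8 * (t ^ 6 - 486 * t ^ 5 - 24057 * t ^ 4 - 367416 * t ^ 3 - 2657205 * t ^ 2
          - 9565938 * t - 14348907) := by ring
  have h := core (jqModC k) (theta k (jqModC k)) X (deltaS k) (t ^ 9 * (t ^ 2 + 9 * t + 27))
    (9 * t ^ 8 * (t ^ 2 + 9 * t + 27) + t ^ 9 * (2 * t + 9))
    ((t + 9) * (t ^ 3 + 243 * t ^ 2 + 2187 * t + 6561))
    ((t ^ 3 + 243 * t ^ 2 + 2187 * t + 6561) + (t + 9) * (3 * t ^ 2 + 486 * t + 2187))
    (t ^ 6 - 486 * t ^ 5 - 24057 * t ^ 4 - 367416 * t ^ 3 - 2657205 * t ^ 2 - 9565938 * t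
      - 14348907) (t ^ 8) ha hb hc hSeq hG hN hS0
  have ht0 : t ^ 45 ≠ 0 := pow_ne_zero _ (t9_ne_zero k)
  apply mul_left_cancel₀ ht0
  linear_combination h

end Fermat.Agent.S36.KodSpenSeries
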