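import Mathlib
import Fermat.Agent.S36.K0Plan
import Fermat.Agent.S18.PullLocal
import Fermat.Agent.S18.Char0
import Fermat.Agent.S36.PhiDiv

/-!
# S36 / P8 — LamColon: `(B' : Λ'(D)) ⊆ Λ'(-D)` (block [COLON], helper36)

Vocabulary of `S36/K0Plan`.  For a divisor `D` of `F_{N'q}` and the `K₀`-module
`Λ'(D) = K0Plan.Lam A N' M q O E D`: an element `x` of `Q̄((T))` with `x · Λ'(D) ⊆ B'`
lies in `Λ'(-D)`.

This is the instance (with `F := Om`) of the hypothesis `hinv` of the abstract junction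
`InvKAbs.exists_mul_not_mem_point` ([REG] = `K0Plan.InvKStmt`).

Inputs, in hypothesis form (conclusions of the approximation leaves):
* `happ`  : at every non-cuspidal place `P` of `F_{N'q}` there is a section `f ∈ Λ'(D) ∩ F_{N'q}`
            with `ord_P f = -D P` EXACTLY;
* `hne`   : one nonzero section of `Λ'(D)` of level `N'q` (used at the cusps only);
* `hunit` : for each of the `q + 1` coordinates a section of `Λ'(D)` with nonzero reduction there.

Proof: `x = b / f` lies in `F_{Mq²}` and is `K₀`-rational; `x ∈ O` coordinatewise because an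
element of `Ocal` with nonzero reduction is a unit of `Ocal` (`inv_mem_Ocal`); the pole bounds
follow from the DEFINITION of `pullRR` (places of `F_{N'q}` only): `t · x = (t / f) · b`.
-/

set_option autoImplicit false

noncomputable section

namespace Fermat.Agent.S36.LamColon

open ModularCurve AlgebraicCurve Fermat.Agent.S24 Fermat.Agent.S18 Fermat.Agent.S18.Content
  Fermat.Agent.S18.Plan Fermat.Agent.S36.Plan Fermat.Agent.S36.K0Plan

variable {M q N' : ℕ} [NeZero M] [NeZero q] [NeZero N']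
variable {A : ValuationSubring Kbar} {O : Subring Om} {ρ : O →+* Rq A q}

omit [NeZero M] [NeZero q] in
/-- An element of `Q̄((T))` carrying one nonzero element of `O ∩ F_{Mq²}` into `O ∩ F_{Mq²}`
lies in `F_{Mq²}`. -/
theorem mem_field_of_mul_eq {x f b : Om}
    (hf : f ∈ modularFunctionFieldBar (M * q * q)) (hb : b ∈ modularFunctionFieldBar (M * q * q))
    (hf0 : f ≠ 0) (h : x * f = b) : x ∈ modularFunctionFieldBar (M * q * q) := by
  have hx : x = b * f⁻¹ := by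
    rw [← h, mul_assoc, mul_inv_cancel₀ hf0, mul_one]
  rw [hx]
  exact mul_mem hb (inv_mem hf)

/-- `K₀`-rationality passes to quotients. -/
theorem fixed_of_mul_eq {x f b : Om} (hf : Fixed A f) (hb : Fixed A b) (hf0 : f ≠ 0)
    (h : x * f = b) : Fixed A x := by
  intro τ hτ
  have h1 : coeffMap (τ : Kbar →+* Kbar) x * f = x * f := by
    have h2 := congrArg (coeffMap (τ : Kbar →+* Kbar)) h
    rw [map_mul, hf τ hτ, hb τ hτ] at h2
    rw [h2, h]
  exact mul_right_cancel₀ hf0 h1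

/-- Coordinatewise integrality of a quotient `b / f` with `f` a unit at the coordinate. -/
theorem emb_mem_Ocal_of_mul_eq {h : Nat.Coprime M q} {F : Frame M q h} (hS : IsSetup A F O ρ)
    (i : Coord q) (x : FN (M * q * q)) (f b : O) (hfi : ρ f i ≠ 0)
    (hxfb : (x : Om) * (f : Om) = (b : Om)) : F.emb i x ∈ Ocal A := by
  set f' : FN (M * q * q) := ⟨(f : Om), hS.mem_field f⟩ with hf'
  set b' : FN (M * q * q) := ⟨(b : Om), hS.mem_field b⟩ with hb'
  have hfO : ((f' : FN (M * q * q)) : Om) ∈ O := f.2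
  have hbO : ((b' : FN (M * q * q)) : Om) ∈ O := b.2
  have hfi' : F.emb i f' ∈ Ocal A := (hS.mem_iff f').1 hfO i
  have hbi' : F.emb i b' ∈ Ocal A := (hS.mem_iff b').1 hbO i
  have hred : red A ⟨F.emb i f', hfi'⟩ ≠ 0 := by
    rw [← hS.ρ_apply f' hfO i hfi']
    exact hfi
  have hmul : x * f' = b' := Subtype.ext hxfb
  have hemb : F.emb i x * F.emb i f' = F.emb i b' := by
    rw [← map_mul, hmul]
  have hne : F.emb i f' ≠ 0 := ne_zero_of_red_ne_zero A ⟨_, hfi'⟩ hred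
  have hx : F.emb i x = F.emb i b' * (F.emb i f')⁻¹ :=
    (eq_mul_inv_iff_mul_eq₀ hne).2 hemb
  rw [hx]
  exact (Ocal A).mul_mem hbi' (inv_mem_Ocal A ⟨_, hfi'⟩ hred)

/-- `E P ≥ 0` for the cusp divisor. -/
theorem isE3_nonneg {N : ℕ} [NeZero N] {hq : q ∣ N} {hqq : q * q ∣ N}
    {E : Divisor Kbar (FN N)} (hE : IsE3 N q hq hqq E) (P : Place Kbar (FN N)) : 0 ≤ E P := by
  rw [hE P]
  have h1 := le_max_left (0 : ℤ) (-(P.ord (jBar N)))
  have h2 := le_max_left (0 : ℤ) (-(P.ord (jBarLevel N q hq)))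
  have h3 := le_max_left (0 : ℤ) (-(P.ord (jBarLevel N (q * q) hqq)))
  linarith

/-- **[COLON]** `(B' : Λ'(D)) ⊆ Λ'(-D)`. -/
theorem mem_lam_neg_of_colon {h : Nat.Coprime M q} {F : Frame M q h}
    (hS : IsSetup A F O ρ) (hq' : q ∣ N')
    (E : Divisor Kbar (FN (N' * q)))
    (hE : IsE3 (N' * q) q (Dvd.intro_left N' rfl) (Nat.mul_dvd_mul_right hq' q) E)
    (D : Divisor Kbar (FN (N' * q)))
    (happ : ∀ P : Place Kbar (FN (N' * q)), E P = 0 →
      ∃ (f : FN (N' * q)) (hf : (f : Om) ∈ O), f ≠ 0 ∧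
        (⟨(f : Om), hf⟩ : O) ∈ Lam A N' M q O E D ∧ P.ord f = -D P)
    (hne : ∃ (f : FN (N' * q)) (hf : (f : Om) ∈ O), f ≠ 0 ∧
        (⟨(f : Om), hf⟩ : O) ∈ Lam A N' M q O E D)
    (hunit : ∀ i : Coord q, ∃ f ∈ Lam A N' M q O E D, ρ f i ≠ 0)
    (x : Om)
    (hcolon : ∀ f ∈ Lam A N' M q O E D, ∃ b ∈ Bp A N' M q O E, x * (f : Om) = (b : Om)) :
    ∃ hxO : x ∈ O, (⟨x, hxO⟩ : O) ∈ Lam A N' M q O E (-D) := by
  classical
  -- (1) `x ∈ F_{Mq²}` and `x` is `K₀`-rational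
  obtain ⟨f₁, hf₁L, hf₁ρ⟩ := hunit Coord.inf
  obtain ⟨b₁, hb₁, hxb₁⟩ := hcolon f₁ hf₁L
  have hf₁0 : (f₁ : Om) ≠ 0 := by
    intro h0
    apply hf₁ρ
    have : f₁ = 0 := Subtype.ext h0
    rw [this, map_zero]; rfl
  have hxF : x ∈ modularFunctionFieldBar (M * q * q) :=
    mem_field_of_mul_eq (hS.mem_field f₁) (hS.mem_field b₁) hf₁0 hxb₁
  have hxfix : Fixed A x := fixed_of_mul_eq hf₁L.1 hb₁.1 hf₁0 hxb₁
  -- (2) `x ∈ O`
  have hxO : x ∈ O := by
    have key := (hS.mem_iff ⟨x, hxF⟩).2 (fun i => by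
      obtain ⟨f, hfL, hfρ⟩ := hunit i
      obtain ⟨b, -, hxb⟩ := hcolon f hfL
      exact emb_mem_Ocal_of_mul_eq hS i ⟨x, hxF⟩ f b hfρ hxb)
    exact key
  refine ⟨hxO, hxfix, ?_⟩
  -- (3) the pole bounds
  obtain ⟨f₀, hf₀O, hf₀ne, hf₀L⟩ := hne
  obtain ⟨b₀, hb₀, hxb₀⟩ := hcolon _ hf₀L
  obtain ⟨c₀, hb₀c⟩ := hb₀.2
  set S : ℕ := ∑ P ∈ E.support, (P.ord f₀ + D P).natAbs with hSdef
  refine ⟨c₀ + S, ?_⟩
  show x ∈ pullRR (N' * q) (M * q * q) (-D + (c₀ + S) • E)
  rw [mem_pullRR]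
  refine ⟨hxF, fun P t ht hB => ?_⟩
  have hBv : -D P + ((c₀ + S : ℕ) : ℤ) * E P ≤ P.ord t := by
    have : (-D + (c₀ + S) • E) P = -D P + ((c₀ + S : ℕ) : ℤ) * E P := by
      simp [Finsupp.add_apply, Finsupp.neg_apply, Finsupp.smul_apply]
    rw [← this]; exact hB
  by_cases hEP : E P = 0
  · -- non-cuspidal place: the approximating section
    obtain ⟨f, hfO, hfne, hfL, hford⟩ := happ P hEP
    obtain ⟨b, hb, hxb⟩ := hcolon _ hfL
    obtain ⟨c, hbc⟩ := hb.2
    have htf : t / f ≠ 0 := div_ne_zero ht hfne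
    have hord : ((0 : Divisor Kbar (FN (N' * q))) + c • E) P ≤ P.ord (t / f) := by
      have h0 : ((0 : Divisor Kbar (FN (N' * q))) + c • E) P = 0 := by
        simp [Finsupp.smul_apply, hEP]
      rw [h0, Fermat.Agent.S18.PullLocal.ord_div P ht hfne, hford]
      rw [hEP, mul_zero, add_zero] at hBv
      linarith
    have hint := (mem_pullRR.1 hbc).2 P (t / f) htf hord
    have hfne' : ((f : FN (N' * q)) : Om) ≠ 0 := fun h0 => hfne (Subtype.ext h0)
    have heq : (((t / f : FN (N' * q)) : Om)) * (b : Om) = (t : Om) * x := by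
      rw [← hxb]
      push_cast
      field_simp
    rw [← heq]
    exact hint
  · -- cusp: the fixed section `f₀` and the constant `c₀ + S`
    have hEpos : 1 ≤ E P := by
      have := isE3_nonneg hE P
      omega
    have hPsupp : P ∈ E.support := Finsupp.mem_support_iff.2 hEP
    have hSle : (P.ord f₀ + D P).natAbs ≤ S :=
      Finset.single_le_sum (f := fun P : Place Kbar (FN (N' * q)) => (P.ord f₀ + D P).natAbs)
        (fun _ _ => Nat.zero_le _) hPsupp
    have hSle' : P.ord f₀ + D P ≤ (S : ℤ) :=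
      le_trans (Int.le_natAbs) (by exact_mod_cast hSle)
    have htf : t / f₀ ≠ 0 := div_ne_zero ht hf₀ne
    have hord : ((0 : Divisor Kbar (FN (N' * q))) + c₀ • E) P ≤ P.ord (t / f₀) := by
      have h0 : ((0 : Divisor Kbar (FN (N' * q))) + c₀ • E) P = (c₀ : ℤ) * E P := by
        simp [Finsupp.smul_apply]
      rw [h0, Fermat.Agent.S18.PullLocal.ord_div P ht hf₀ne]
      have hS0 : (0 : ℤ) ≤ (S : ℤ) := Int.natCast_nonneg S
      have h1 : (S : ℤ) ≤ (S : ℤ) * E P := by nlinarith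
      push_cast at hBv
      nlinarith
    have hint := (mem_pullRR.1 hb₀c).2 P (t / f₀) htf hord
    have hfne' : ((f₀ : FN (N' * q)) : Om) ≠ 0 := fun h0 => hf₀ne (Subtype.ext h0)
    have heq : (((t / f₀ : FN (N' * q)) : Om)) * (b₀ : Om) = (t : Om) * x := by
      rw [← hxb₀]
      push_cast
      field_simp
    rw [← heq]
    exact hint

/-! ### A non-cuspidal place, and the form without `hne` -/

/-- `j` has a zero on `F_N`. -/
theorem exists_place_ord_jBar_pos (N : ℕ) [NeZero N] :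
    ∃ P : Place Kbar (FN N), 0 < P.ord (jBar N) := by
  by_contra hcon
  push Not at hcon
  have hj0 : jBar N ≠ 0 := fun h => FibreCount.transcendental_jBar N (h ▸ isAlgebraic_zero)
  obtain ⟨D, hD, hdeg⟩ := Fermat.Agent.S18.Char0.exists_divisor N (jBar N) hj0
  obtain ⟨Cp, hCp, hCpdeg⟩ := Fermat.Agent.S18.Char0.exists_poleDivisor_jBar N
  have hDC : D = -Cp := by
    ext P
    rw [Finsupp.neg_apply, hD, hCp]
    have := hcon P
    rw [max_eq_right (by omega)]
    ring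
  rw [hDC, map_neg, hCpdeg] at hdeg
  have := FibreCount.dedekindPsi_pos N
  omega

/-- At the levels of the spine (`N' = N₀ * q`, `q ∤ N₀`) the cusp divisor `E` misses a place. -/
theorem exists_place_isE3_eq_zero {N₀ : ℕ} (hM : Nat.Coprime N₀ q) (hN' : N' = N₀ * q)
    (hq' : q ∣ N') (E : Divisor Kbar (FN (N' * q)))
    (hE : IsE3 (N' * q) q (Dvd.intro_left N' rfl) (Nat.mul_dvd_mul_right hq' q) E) :
    ∃ P : Place Kbar (FN (N' * q)), E P = 0 := by
  obtain ⟨P, hP⟩ := exists_place_ord_jBar_pos (N' * q)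
  refine ⟨P, ?_⟩
  have h := PhiDiv.ord_neg_iff (N := N' * q) (N₀ := N₀) hM (by rw [hN'])
    (Dvd.intro_left N' rfl) (Nat.mul_dvd_mul_right hq' q) P
  have h1 : ¬ P.ord (jBarLevel (N' * q) q (Dvd.intro_left N' rfl)) < 0 := fun h' => by
    have := h.1.2 h'
    omega
  have h2 : ¬ P.ord (jBarLevel (N' * q) (q * q) (Nat.mul_dvd_mul_right hq' q)) < 0 :=
    fun h' => by
      have := h.2.2 h'
      omega
  rw [hE P, max_eq_left (by omega), max_eq_left (by omega), max_eq_left (by omega)]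
  simp

/-- **[COLON]**, form without `hne`: one non-cuspidal place is enough. -/
theorem mem_lam_neg_of_colon' {h : Nat.Coprime M q} {F : Frame M q h}
    (hS : IsSetup A F O ρ) (hq' : q ∣ N')
    (E : Divisor Kbar (FN (N' * q)))
    (hE : IsE3 (N' * q) q (Dvd.intro_left N' rfl) (Nat.mul_dvd_mul_right hq' q) E)
    (hP₀ : ∃ P : Place Kbar (FN (N' * q)), E P = 0)
    (D : Divisor Kbar (FN (N' * q)))
    (happ : ∀ P : Place Kbar (FN (N' * q)), E P = 0 →
      ∃ (f : FN (N' * q)) (hf : (f : Om) ∈ O), f ≠ 0 ∧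
        (⟨(f : Om), hf⟩ : O) ∈ Lam A N' M q O E D ∧ P.ord f = -D P)
    (hunit : ∀ i : Coord q, ∃ f ∈ Lam A N' M q O E D, ρ f i ≠ 0)
    (x : Om)
    (hcolon : ∀ f ∈ Lam A N' M q O E D, ∃ b ∈ Bp A N' M q O E, x * (f : Om) = (b : Om)) :
    ∃ hxO : x ∈ O, (⟨x, hxO⟩ : O) ∈ Lam A N' M q O E (-D) := by
  obtain ⟨P₀, hP₀⟩ := hP₀
  obtain ⟨f, hf, hfne, hfL, -⟩ := happ P₀ hP₀
  exact mem_lam_neg_of_colon hS hq' E hE D happ ⟨f, hf, hfne, hfL⟩ hunit x hcolon

/-- **[COLON]** at the levels of the spine (`N' = N₀ * q`, `q ∤ N₀`). -/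
theorem mem_lam_neg_of_colon_levels {h : Nat.Coprime M q} {F : Frame M q h} {N₀ : ℕ}
    (hM : Nat.Coprime N₀ q) (hN' : N' = N₀ * q)
    (hS : IsSetup A F O ρ) (hq' : q ∣ N')
    (E : Divisor Kbar (FN (N' * q)))
    (hE : IsE3 (N' * q) q (Dvd.intro_left N' rfl) (Nat.mul_dvd_mul_right hq' q) E)
    (D : Divisor Kbar (FN (N' * q)))
    (happ : ∀ P : Place Kbar (FN (N' * q)), E P = 0 →
      ∃ (f : FN (N' * q)) (hf : (f : Om) ∈ O), f ≠ 0 ∧
        (⟨(f : Om), hf⟩ : O) ∈ Lam A N' M q O E D ∧ P.ord f = -D P)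
    (hunit : ∀ i : Coord q, ∃ f ∈ Lam A N' M q O E D, ρ f i ≠ 0)
    (x : Om)
    (hcolon : ∀ f ∈ Lam A N' M q O E D, ∃ b ∈ Bp A N' M q O E, x * (f : Om) = (b : Om)) :
    ∃ hxO : x ∈ O, (⟨x, hxO⟩ : O) ∈ Lam A N' M q O E (-D) :=
  mem_lam_neg_of_colon' hS hq' E hE (exists_place_isE3_eq_zero hM hN' hq' E hE) D happ hunit x
    hcolon

end Fermat.Agent.S36.LamColon

end
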