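/-
S36 / P8 — the SECOND leaf of [REG] (helper80): the components `C_∞` and `C_0`.

Companion of helper81's `lemmaR` (middle component).  Frame only (no setup).

`V = Δ(z)/Δ(q²z) = q¹²/ω_{j,j_{q²}}` has Gauss values `(∞, mid, 0) = (0, 12, 24)`, `V₀ = q²⁴/V`
has `(24, 12, 0)`; both are units at the finite places and `K₀`-rational.  Hence

* (a∞) a `K₀`-rational integral `f` with `red_∞ f = 0` satisfies `V · f = q · y`, `y` integral
  (`q` is a local equation of `C_∞` wherever `red_∞ V ≠ 0`); (a0) the same at `0` with `V₀`;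
* (b) dichotomy: for `g` `K₀`-rational, integral, regular at the finite places, with
  `red_mid g = 0` there is `c` of the same kind with
  `red_∞(g)^(12(q-1)(q+1)) = red_∞(c)^(q+1) · red_∞(V)^(q-1)` (and the same at `0` with `V₀`):
  where `red_∞ V` vanishes, the point lies on the middle component and `lemmaR` applies.
-/
import Mathlib
import Fermat.Agent.S36.DeltaUnit
import Fermat.Agent.S36.PhiQ2
import Fermat.Agent.S36.K0ScaleFrame
import Fermat.Agent.S36.MidRed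

set_option autoImplicit false
set_option linter.style.haveILetI false
set_option synthInstance.maxHeartbeats 400000
set_option maxHeartbeats 1600000

noncomputable section

namespace Fermat.Agent.S36.LemmaRInf

open AlgebraicCurve KaehlerDifferential ModularCurve
open Fermat.Agent.S24 Fermat.Agent.S28 Fermat.Agent.S34 Fermat.Agent Fermat.Agent.S18.Plan
  Fermat.Agent.S18.Content Fermat.Agent.S36.Plan

/-! ### Units of `Ocal` with a given reduction -/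

section Tools

variable (A : ValuationSubring Kbar)

/-- `x` is a unit of `Ocal A` with reduction `r`. -/
def IsU (x : Om) (r : Omk A) : Prop := ∃ hx : x ∈ Ocal A, red A ⟨x, hx⟩ = r ∧ r ≠ 0

variable {A}

theorem IsU.mem {x : Om} {r : Omk A} (h : IsU A x r) : x ∈ Ocal A := h.1

theorem IsU.ne_zero {x : Om} {r : Omk A} (h : IsU A x r) : x ≠ 0 := by
  obtain ⟨hx, hr, hr0⟩ := h
  exact ne_zero_of_red_ne_zero A ⟨x, hx⟩ (by rw [hr]; exact hr0)

theorem IsU.red_eq {x : Om} {r : Omk A} (h : IsU A x r) (hx : x ∈ Ocal A) :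
    red A ⟨x, hx⟩ = r := h.2.1

theorem IsU.mul {x y : Om} {r s : Omk A} (hx : IsU A x r) (hy : IsU A y s) :
    IsU A (x * y) (r * s) := by
  obtain ⟨hx, hr, hr0⟩ := hx
  obtain ⟨hy, hs, hs0⟩ := hy
  refine ⟨(Ocal A).mul_mem hx hy, ?_, mul_ne_zero hr0 hs0⟩
  have e : (⟨x * y, (Ocal A).mul_mem hx hy⟩ : Ocal A) = ⟨x, hx⟩ * ⟨y, hy⟩ := rfl
  rw [e, map_mul, hr, hs]

theorem IsU.inv {x : Om} {r : Omk A} (hx : IsU A x r) : IsU A x⁻¹ r⁻¹ := by
  obtain ⟨hx, hr, hr0⟩ := hx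
  have h1 : red A ⟨x, hx⟩ ≠ 0 := by rw [hr]; exact hr0
  refine ⟨inv_mem_Ocal A ⟨x, hx⟩ h1, ?_, inv_ne_zero hr0⟩
  rw [red_inv A ⟨x, hx⟩ h1, hr]

theorem IsU.div {x y : Om} {r s : Omk A} (hx : IsU A x r) (hy : IsU A y s) :
    IsU A (x / y) (r / s) := by
  rw [div_eq_mul_inv, div_eq_mul_inv]
  exact hx.mul hy.inv

theorem IsU.pow {x : Om} {r : Omk A} (hx : IsU A x r) (n : ℕ) : IsU A (x ^ n) (r ^ n) := by
  induction n with
  | zero =>
    rw [pow_zero, pow_zero]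
    exact ⟨(Ocal A).one_mem, map_one _, one_ne_zero⟩
  | succ n ih =>
    rw [pow_succ, pow_succ]
    exact ih.mul hx

/-- `q^n · x ∈ Ocal` for `x ∈ Ocal`. -/
theorem natCast_pow_mul_mem (q n : ℕ) {x : Om} (hx : x ∈ Ocal A) :
    (q : Om) ^ n * x ∈ Ocal A :=
  (Ocal A).mul_mem ((Ocal A).pow_mem (natCast_mem (Ocal A) q) n) hx

variable (A)

/-- `Δ` is a unit of `Ocal`. -/
theorem isU_delta : IsU A (deltaS Kbar) (deltaS (kk A)) := by
  have e : iota A (deltaS ↥A) = deltaS Kbar := coeffMap_deltaS _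
  have hm : deltaS Kbar ∈ Ocal A := by rw [← e]; exact iota_mem_Ocal A _
  refine ⟨hm, ?_, deltaS_ne_zero _⟩
  rw [red_congr A e.symm hm (iota_mem_Ocal A _), red_iota]
  exact coeffMap_deltaS _

/-- `Δ(T^m)` is a unit of `Ocal`. -/
theorem isU_expand (m : ℕ) :
    IsU A (expand Kbar m (deltaS Kbar)) (expand (kk A) m (deltaS (kk A))) := by
  have e : iota A (expand ↥A m (deltaS ↥A)) = expand Kbar m (deltaS Kbar) := by
    rw [show iota A (expand ↥A m (deltaS ↥A)) = expand Kbar m (iota A (deltaS ↥A)) from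
      coeffMap_expand _ m _]
    congr 1
    exact coeffMap_deltaS _
  have hm : expand Kbar m (deltaS Kbar) ∈ Ocal A := by rw [← e]; exact iota_mem_Ocal A _
  refine ⟨hm, ?_, ?_⟩
  · rw [red_congr A e.symm hm (iota_mem_Ocal A _), red_iota,
      show rho A (expand ↥A m (deltaS ↥A)) = expand (kk A) m (rho A (deltaS ↥A)) from
        coeffMap_expand _ m _]
    congr 1
    exact coeffMap_deltaS _
  · intro h0
    exact deltaS_ne_zero (kk A) ((map_eq_zero_iff _ (expand (kk A) m).injective).mp h0)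

/-- `Δ(ξT)` is a unit of `Ocal` with reduction `Δ̄`, for `ξ^q = 1`. -/
theorem isU_scale {q : ℕ} (hq : q.Prime) (hA : A.LiesOverPrime q) (ξ : Kbarˣ) (hξ : ξ ^ q = 1) :
    IsU A (scale ξ (deltaS Kbar)) (deltaS (kk A)) := by
  obtain ⟨hc, hred⟩ := PhiQ2.exists_red_scale A hq hA ξ hξ (deltaS ↥A)
  have e : iota A (deltaS ↥A) = deltaS Kbar := coeffMap_deltaS _
  have hm : scale ξ (deltaS Kbar) ∈ Ocal A := by rw [← e]; exact hc
  refine ⟨hm, ?_, deltaS_ne_zero _⟩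
  have e2 : scale ξ (deltaS Kbar) = scale ξ (iota A (deltaS ↥A)) := by rw [e]
  rw [red_congr A e2 hm hc, hred]
  exact coeffMap_deltaS _

/-- In characteristic `q`: `Δ̄(T^q) = Δ̄^q`. -/
theorem expand_delta_q {q : ℕ} (hq : q.Prime) (hA : A.LiesOverPrime q) :
    expand (kk A) q (deltaS (kk A)) = deltaS (kk A) ^ q := by
  have : Fact q.Prime := ⟨hq⟩
  have : CharP (kk A) q := charP_residueField_of_liesOverPrime A q hA
  exact MidRed.expand_deltaS_char q (kk A)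

/-- In characteristic `q`: `Δ̄(T^{q²}) = Δ̄^(q²)`. -/
theorem expand_delta_qq {q : ℕ} (hq : q.Prime) (hA : A.LiesOverPrime q) :
    expand (kk A) (q * q) (deltaS (kk A)) = deltaS (kk A) ^ (q * q) := by
  have : Fact q.Prime := ⟨hq⟩
  have : CharP (kk A) q := charP_residueField_of_liesOverPrime A q hA
  rw [← expand_expand hq.ne_zero hq.ne_zero, MidRed.expand_deltaS_char q (kk A), map_pow,
    MidRed.expand_deltaS_char q (kk A), ← pow_mul]

/-- Integral with zero reduction and `q`-discrete ⟹ divisible by `q` in `Ocal`. -/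
theorem exists_eq_q_mul {q : ℕ} (hq : q.Prime) {x : Om}
    (hx : x ∈ Ocal A) (h0 : red A ⟨x, hx⟩ = 0)
    (hs : ∃ (m : ℤ) (h : HahnSeries.C ((q : Kbar) ^ m) * x ∈ Ocal A), red A ⟨_, h⟩ ≠ 0) :
    ∃ x' : Om, x' ∈ Ocal A ∧ x = (q : Om) * x' := by
  obtain ⟨m, h, hne⟩ := hs
  have hqK : (q : Kbar) ≠ 0 := Nat.cast_ne_zero.mpr hq.ne_zero
  have hqA : (q : Kbar) ∈ A := natCast_mem A q
  have hqO : (q : Om) = HahnSeries.C (q : Kbar) := (map_natCast _ q).symm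
  rcases lt_or_ge m 0 with hm | hm
  · -- `m = -(k+1)`
    obtain ⟨k, hk⟩ : ∃ k : ℕ, m = -((k : ℤ) + 1) := ⟨(-m - 1).toNat, by omega⟩
    refine ⟨HahnSeries.C ((q : Kbar) ^ k) * (HahnSeries.C ((q : Kbar) ^ m) * x),
      (Ocal A).mul_mem (C_mem_Ocal A (pow_mem hqA k)) h, ?_⟩
    rw [hqO, ← mul_assoc, ← mul_assoc, ← map_mul, ← map_mul, hk]
    have e : (q : Kbar) * (q : Kbar) ^ k * (q : Kbar) ^ (-((k : ℤ) + 1)) = 1 := by
      rw [← pow_succ', ← zpow_natCast, ← zpow_add₀ hqK]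
      have : ((k + 1 : ℕ) : ℤ) + -((k : ℤ) + 1) = 0 := by push_cast; ring
      rw [this, zpow_zero]
    rw [e, map_one, one_mul]
  · exfalso
    obtain ⟨k, rfl⟩ := Int.eq_ofNat_of_zero_le hm
    apply hne
    have hcA : (q : Kbar) ^ (k : ℤ) ∈ A := by rw [zpow_natCast]; exact pow_mem hqA k
    rw [red_C_mul A hcA ⟨x, hx⟩ h, h0, mul_zero]

end Tools

/-! ### A field identity -/

theorem key_identity {L : Type*} [Field L] (d x : L) (hd : d ≠ 0) (q : ℕ) (hq : 1 ≤ q) :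
    x ^ (12 * (q - 1) * (q + 1)) =
      (x ^ (12 * (q - 1)) * ((d * d ^ (q * q)) / (d ^ q) ^ 2)) ^ (q + 1) *
        (d / d ^ (q * q)) ^ (q - 1) := by
  obtain ⟨p, rfl⟩ : ∃ p, q = p + 1 := ⟨q - 1, by omega⟩
  simp only [Nat.add_sub_cancel]
  have h1 : d ^ ((p + 1) * (p + 1)) ≠ 0 := pow_ne_zero _ hd
  have h2 : (d ^ (p + 1)) ^ 2 ≠ 0 := pow_ne_zero _ (pow_ne_zero _ hd)
  rw [mul_pow, ← pow_mul, div_pow, div_pow]
  have h3 : (d ^ ((p + 1) * (p + 1))) ^ p ≠ 0 := pow_ne_zero _ h1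
  have h4 : ((d ^ (p + 1)) ^ 2) ^ (p + 1 + 1) ≠ 0 := pow_ne_zero _ h2
  field_simp
  ring


/-! ### `K₀`-rationality of the series involved -/

section FixedTools

variable (A : ValuationSubring Kbar)

theorem fixed_delta : K0Red.Fixed A (deltaS Kbar) := fun _ _ => coeffMap_deltaS _

variable {A}

theorem fixed_expand {x : Om} (hx : K0Red.Fixed A x) (m : ℕ) :
    K0Red.Fixed A (expand Kbar m x) := fun τ hτ => by
  rw [coeffMap_expand, hx τ hτ]

theorem fixed_natCast (n : ℕ) : K0Red.Fixed A (n : Om) := fun _ _ => map_natCast _ n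

theorem fixed_div {x y : Om} (hx : K0Red.Fixed A x) (hy : K0Red.Fixed A y) :
    K0Red.Fixed A (x / y) := fun τ hτ => by
  rw [map_div₀, hx τ hτ, hy τ hτ]

theorem fixed_pow {x : Om} (hx : K0Red.Fixed A x) (n : ℕ) : K0Red.Fixed A (x ^ n) :=
  fun τ hτ => by rw [map_pow, hx τ hτ]

end FixedTools

/-! ### `ω₂ = ω_{j, j_{q²}}` -/

section Omega2

variable (M q : ℕ) [NeZero M] [NeZero q]

/-- `ω₂ = ω_{j,j_{q²}}` (series `q¹² Δ(T^{q²})/Δ(T)`): nonzero, with its expansion at every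
embedding, and a unit at the finite places (`ω₂ = α(u) · β(u)`). -/
theorem exists_omega2 (hcop : Nat.Coprime M q) (hM : 4 ∣ M ∨ 9 ∣ M) :
    ∃ W : FN (M * q * q), W ≠ 0 ∧
      (∀ (ε : FN (M * q * q) →ₐ[Kbar] Om) (ξ₁ ξ₂ : Kbarˣ) (m₁ m₂ : ℕ), m₁ ≠ 0 → m₂ ≠ 0 →
        ε (DeltaUnit.xT M q) = yS Kbar ξ₁ m₁ → ε (DeltaUnit.f2T M q) = yS Kbar ξ₂ m₂ →
        ε W * ((m₁ : Om) ^ 6 * Der.deltaY Kbar ξ₁ m₁) = (m₂ : Om) ^ 6 * Der.deltaY Kbar ξ₂ m₂) ∧
      (∀ w : Place Kbar (FN (M * q * q)), 0 ≤ w.ord (jBar (M * q * q)) → w.ord W = 0) := by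
  haveI : IsFF1 Kbar (FN (M * q * q)) := Ram.isFF1 (M * q * q)
  have hx := S18.FibreCount.transcendental_jBar (M * q * q)
  obtain ⟨g₂, hg₂⟩ := exists_eq_smul_D hx (D Kbar (FN (M * q * q)) (DeltaUnit.f2T M q))
  have hq0 : q ≠ 0 := NeZero.ne q
  have hexp : ∀ (ε : FN (M * q * q) →ₐ[Kbar] Om) (ξ₁ ξ₂ : Kbarˣ) (m₁ m₂ : ℕ), m₁ ≠ 0 → m₂ ≠ 0 →
      ε (DeltaUnit.xT M q) = yS Kbar ξ₁ m₁ → ε (DeltaUnit.f2T M q) = yS Kbar ξ₂ m₂ →
      ε (Der.omega (K := Kbar) (DeltaUnit.xT M q) (DeltaUnit.f2T M q) g₂)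
          * ((m₁ : Om) ^ 6 * Der.deltaY Kbar ξ₁ m₁) = (m₂ : Om) ^ 6 * Der.deltaY Kbar ξ₂ m₂ :=
    fun ε ξ₁ ξ₂ m₁ m₂ h₁ h₂ hx hf => Der.map_omega_mul ε hg₂ ξ₁ ξ₂ m₁ m₂ h₁ h₂ hx hf
  set W : FN (M * q * q) := Der.omega (K := Kbar) (DeltaUnit.xT M q) (DeltaUnit.f2T M q) g₂
    with hWdef
  -- the `∞`-expansion: `W · Δ = q¹² · Δ(T^{q²})`
  have hinf : ((W : FN (M * q * q)) : Om) * deltaS Kbar
      = ((q : Om) * (q : Om)) ^ 6 * expand Kbar (q * q) (deltaS Kbar) := by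
    have h := hexp (DeltaUnit.incl (M * q * q)) 1 1 1 (q * q) one_ne_zero
      (Nat.mul_ne_zero hq0 hq0) (DeltaUnit.coe_jBar_yS (M * q * q)) (DeltaUnit.coe_f2T M q)
    rw [DeltaUnit.deltaY_one, DeltaUnit.deltaY_one, expand_one, Nat.cast_one, one_pow, one_mul,
      Nat.cast_mul] at h
    exact h
  have hΔ := DeltaUnit.deltaS_ne_zero
  have hΔqq := DeltaUnit.expand_deltaS_ne_zero (q * q)
  have hQ : ((q : Om) * (q : Om)) ^ 6 ≠ 0 :=
    pow_ne_zero _ (mul_ne_zero (DeltaUnit.natCast_ne_zero q hq0) (DeltaUnit.natCast_ne_zero q hq0))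
  have hW0 : W ≠ 0 := by
    intro h0
    rw [h0] at hinf
    have h1 : ((0 : FN (M * q * q)) : Om) = 0 := rfl
    rw [h1, zero_mul] at hinf
    exact mul_ne_zero hQ hΔqq hinf.symm
  refine ⟨W, hW0, hexp, fun w hw => ?_⟩
  -- `W = α(u) · β(u)`
  obtain ⟨g, hg⟩ := DeltaUnit.exists_g M q
  have hu0 := DeltaUnit.omega_ne_zero M q g hg
  have huo := DeltaUnit.ord_omega_eq_zero M q hcop hM g hg
  have hb := DeltaUnit.coe_omega_mul M q g hg
  set u := Der.omega (K := Kbar) (jBar (M * q)) (Sigma.jQ M q) g with hu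
  have hα : ((heckeAlphaBar Kbar (M * q) q u : FN (M * q * q)) : Om) = (u : Om) :=
    Sigma.coe_alpha u
  have hβ : ((heckeBetaBar Kbar (M * q) q u : FN (M * q * q)) : Om) = expand Kbar q (u : Om) := by
    rw [expand_eq_qExpand q]
    exact Sigma.coe_beta u
  have hc : expand Kbar q (u : Om) * expand Kbar q (deltaS Kbar)
      = (q : Om) ^ 6 * expand Kbar (q * q) (deltaS Kbar) := by
    have := congrArg (expand Kbar q) hb
    rwa [map_mul, map_mul, map_pow, map_natCast, expand_expand hq0 hq0] at this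
  have hWeq : W = heckeAlphaBar Kbar (M * q) q u * heckeBetaBar Kbar (M * q) q u := by
    apply Subtype.ext
    show ((W : FN (M * q * q)) : Om)
      = ((heckeAlphaBar Kbar (M * q) q u : FN (M * q * q)) : Om)
        * ((heckeBetaBar Kbar (M * q) q u : FN (M * q * q)) : Om)
    rw [hα, hβ]
    have key : (((W : FN (M * q * q)) : Om) - (u : Om) * expand Kbar q (u : Om)) * deltaS Kbar
        = 0 := by
      linear_combination hinf - expand Kbar q (u : Om) * hb - (q : Om) ^ 6 * hc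
    exact sub_eq_zero.mp ((mul_eq_zero.mp key).resolve_right hΔ)
  have hα0 : heckeAlphaBar Kbar (M * q) q u ≠ 0 :=
    (map_ne_zero_iff _ (heckeAlphaBar Kbar (M * q) q).injective).mpr hu0
  have hβ0 : heckeBetaBar Kbar (M * q) q u ≠ 0 :=
    (map_ne_zero_iff _ (heckeBetaBar Kbar (M * q) q).injective).mpr hu0
  have h1 : w.ord (heckeAlphaBar Kbar (M * q) q u) = 0 := by
    refine DeltaUnit.ord_map_eq_zero M q _
      (Fermat.Agent.S37.HeckeInputs.heckeAlphaBarIntegral (M * q) q) u huo w ?_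
    rw [PoleBound.alpha_jBar]
    exact hw
  have h2 : w.ord (heckeBetaBar Kbar (M * q) q u) = 0 := by
    refine DeltaUnit.ord_map_eq_zero M q _
      (Fermat.Agent.S37.HeckeInputs.heckeBetaBarIntegral (M * q) q) u huo w ?_
    rw [PoleBound.beta_jBar]
    have h3 := PoleBound.ord_jBarLevel_ge (M * q * q) q (Dvd.intro_left (M * q) rfl) w
    rw [min_eq_left hw, mul_zero] at h3
    exact h3
  rw [hWeq, Place.ord_mul w hα0 hβ0, h1, h2, add_zero]

end Omega2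

/-! ### The embedding table of `j`, `j_q`, `j_{q²}` in the `yS` spelling -/

section Table

variable {M q : ℕ} [NeZero M] [NeZero q] {h : Nat.Coprime M q} (F : Plan.Frame M q h)

theorem xT_eq_g0 : DeltaUnit.xT M q = PhiQ2.g0 M q := (PoleBound.alpha_jBar (M * q) q).symm

theorem emb_zero_xT : F.emb .zero (DeltaUnit.xT M q) = yS Kbar 1 (q * q) := by
  rw [Frame.emb_zero, xT_eq_g0, PhiQ2.w_g0]
  exact DeltaUnit.coe_f2T M q

theorem emb_zero_f2T : F.emb .zero (DeltaUnit.f2T M q) = yS Kbar 1 1 := by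
  have e : DeltaUnit.f2T M q = PhiQ2.g2 M q := rfl
  rw [Frame.emb_zero, e, PhiQ2.w_g2, PhiQ2.coe_g0, yS_one_left, expand_one]

theorem emb_zero_f1T : F.emb .zero (DeltaUnit.f1T M q) = yS Kbar 1 q := by
  have e : DeltaUnit.f1T M q = PhiQ2.g1 M q := rfl
  rw [Frame.emb_zero, e, PhiQ2.w_g1, ← e]
  exact DeltaUnit.coe_f1T M q

theorem emb_mid_xT (ξ : MidIdx q) : F.emb (.mid ξ) (DeltaUnit.xT M q) = yS Kbar 1 1 := by
  rw [Frame.emb_mid, xT_eq_g0, PhiQ2.r_g0, yS_one_left, expand_one]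

theorem emb_mid_f2T (ξ : MidIdx q) : F.emb (.mid ξ) (DeltaUnit.f2T M q) = yS Kbar ξ.1 1 := by
  have e : DeltaUnit.f2T M q = PhiQ2.g2 M q := rfl
  rw [Frame.emb_mid, e, PhiQ2.r_g2]
  unfold yS
  rw [expand_one]

theorem emb_mid_f1T (ξ : MidIdx q) : F.emb (.mid ξ) (DeltaUnit.f1T M q) = yS Kbar 1 q := by
  have e : DeltaUnit.f1T M q = PhiQ2.g1 M q := rfl
  rw [Frame.emb_mid, e, PhiQ2.r_g1, ← PhiQ2.coe_g1 M q, ← e]
  exact DeltaUnit.coe_f1T M q

theorem deltaY_xi (ξ : Kbarˣ) : Der.deltaY Kbar ξ 1 = scale ξ (deltaS Kbar) := by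
  unfold Der.deltaY
  rw [expand_one]

end Table


/-! ### The expansions of `ω₂` and `U₂` in the frame -/

section Expansions

variable {M q : ℕ} [NeZero M] [NeZero q] {h : Nat.Coprime M q} (F : Plan.Frame M q h)

/-- The three expansions of `ω₂`. -/
theorem omega2_table (W : FN (M * q * q))
    (hexp : ∀ (ε : FN (M * q * q) →ₐ[Kbar] Om) (ξ₁ ξ₂ : Kbarˣ) (m₁ m₂ : ℕ), m₁ ≠ 0 → m₂ ≠ 0 →
        ε (DeltaUnit.xT M q) = yS Kbar ξ₁ m₁ → ε (DeltaUnit.f2T M q) = yS Kbar ξ₂ m₂ →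
        ε W * ((m₁ : Om) ^ 6 * Der.deltaY Kbar ξ₁ m₁) = (m₂ : Om) ^ 6 * Der.deltaY Kbar ξ₂ m₂) :
    F.emb .inf W * deltaS Kbar = (q : Om) ^ 12 * expand Kbar (q * q) (deltaS Kbar) ∧
    F.emb .zero W * ((q : Om) ^ 12 * expand Kbar (q * q) (deltaS Kbar)) = deltaS Kbar ∧
    ∀ ξ : MidIdx q, F.emb (.mid ξ) W * deltaS Kbar = scale ξ.1 (deltaS Kbar) := by
  have hq0 : q ≠ 0 := NeZero.ne q
  have hqq0 : q * q ≠ 0 := Nat.mul_ne_zero hq0 hq0
  refine ⟨?_, ?_, fun ξ => ?_⟩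
  · have h1 := hexp (F.emb .inf) 1 1 1 (q * q) one_ne_zero hqq0
      (DeltaUnit.coe_jBar_yS (M * q * q)) (DeltaUnit.coe_f2T M q)
    rw [DeltaUnit.deltaY_one, DeltaUnit.deltaY_one, expand_one, Nat.cast_one, one_pow, one_mul,
      Nat.cast_mul] at h1
    rw [h1]
    ring
  · have h1 := hexp (F.emb .zero) 1 1 (q * q) 1 hqq0 one_ne_zero (emb_zero_xT F)
      (emb_zero_f2T F)
    rw [DeltaUnit.deltaY_one, DeltaUnit.deltaY_one, expand_one, Nat.cast_one, one_pow, one_mul,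
      Nat.cast_mul] at h1
    linear_combination h1
  · have h1 := hexp (F.emb (.mid ξ)) 1 ξ.1 1 1 one_ne_zero one_ne_zero (emb_mid_xT F ξ)
      (emb_mid_f2T F ξ)
    rw [DeltaUnit.deltaY_one, deltaY_xi, expand_one, Nat.cast_one, one_pow, one_mul, one_mul]
      at h1
    exact h1

/-- The expansions of `U₂` at `0` and at the middle cusps. -/
theorem U2_table (g₁ g₂ : FN (M * q * q))
    (hg₁ : D Kbar (FN (M * q * q)) (DeltaUnit.f1T M q)
      = g₁ • D Kbar (FN (M * q * q)) (DeltaUnit.xT M q))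
    (hg₂ : D Kbar (FN (M * q * q)) (DeltaUnit.f2T M q)
      = g₂ • D Kbar (FN (M * q * q)) (DeltaUnit.xT M q)) :
    F.emb .zero (DeltaUnit.U2 M q g₁ g₂) * (deltaS Kbar * expand Kbar (q * q) (deltaS Kbar))
        = expand Kbar q (deltaS Kbar) ^ 2 ∧
    ∀ ξ : MidIdx q, F.emb (.mid ξ) (DeltaUnit.U2 M q g₁ g₂)
        * (deltaS Kbar * scale ξ.1 (deltaS Kbar))
      = (q : Om) ^ 12 * expand Kbar q (deltaS Kbar) ^ 2 := by
  have hq0 : q ≠ 0 := NeZero.ne q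
  have hqq0 : q * q ≠ 0 := Nat.mul_ne_zero hq0 hq0
  have hQ : ((q : Om)) ^ 12 ≠ 0 := pow_ne_zero _ (DeltaUnit.natCast_ne_zero q hq0)
  refine ⟨?_, fun ξ => ?_⟩
  · have h1 := Der.map_U_mul (F.emb .zero) hg₁ hg₂ 1 1 1 (q * q) q 1 hqq0 hq0 one_ne_zero
      (emb_zero_xT F) (emb_zero_f1T F) (emb_zero_f2T F)
    rw [DeltaUnit.deltaY_one, DeltaUnit.deltaY_one, DeltaUnit.deltaY_one, expand_one,
      Nat.cast_one, one_pow, one_mul, Nat.cast_mul] at h1
    have h2 : (q : Om) ^ 12 * (F.emb .zero (DeltaUnit.U2 M q g₁ g₂)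
        * (deltaS Kbar * expand Kbar (q * q) (deltaS Kbar)) - expand Kbar q (deltaS Kbar) ^ 2)
        = 0 := by
      linear_combination h1
    exact sub_eq_zero.mp ((mul_eq_zero.mp h2).resolve_left hQ)
  · have h1 := Der.map_U_mul (F.emb (.mid ξ)) hg₁ hg₂ 1 1 ξ.1 1 q 1 one_ne_zero hq0 one_ne_zero
      (emb_mid_xT F ξ) (emb_mid_f1T F ξ) (emb_mid_f2T F ξ)
    rw [DeltaUnit.deltaY_one, DeltaUnit.deltaY_one, deltaY_xi, expand_one, Nat.cast_one, one_pow,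
      one_mul, one_mul] at h1
    rw [h1]
    ring

end Expansions

/-! ### Small field identities -/

theorem inv_eq_div_of_mul_eq {L : Type*} [Field L] {a b c : L} (hc : c ≠ 0) (h : a * b = c) :
    a⁻¹ = b / c := by
  subst h
  have ha : a ≠ 0 := left_ne_zero_of_mul hc
  have hb : b ≠ 0 := right_ne_zero_of_mul hc
  rw [eq_div_iff (mul_ne_zero ha hb), ← mul_assoc, inv_mul_cancel₀ ha, one_mul]

theorem mul_div_mul_cancel_aux {L : Type*} [Field L] {a b c : L} (ha : a ≠ 0) :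
    a * (b / (a * c)) = b / c := by
  rw [mul_div_assoc', mul_div_mul_left _ _ ha]

theorem pow12_cancel {L : Type*} [Field L] {a u D E : L} (ha : a ≠ 0) :
    (a * u) ^ 12 * (D / (a ^ 12 * E)) = u ^ 12 * (D / E) := by
  have h12 : a ^ 12 ≠ 0 := pow_ne_zero _ ha
  rw [mul_pow, mul_assoc, mul_left_comm, mul_div_mul_cancel_aux h12]

/-! ### Constants in the frame -/

section Consts

variable {M q : ℕ} [NeZero M] [NeZero q] {h : Nat.Coprime M q} (F : Plan.Frame M q h)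

theorem emb_const (i : Coord q) (c : Kbar) :
    F.emb i (algebraMap Kbar (FN (M * q * q)) c) = HahnSeries.C c := by
  rw [AlgHom.commutes, algebraMap_LS_eq_C]

theorem coe_const (N : ℕ) (c : Kbar) :
    ((algebraMap Kbar (FN N) c : FN N) : Om) = HahnSeries.C c := by
  rw [← algebraMap_LS_eq_C]
  rfl

theorem natCast_eq_C (n : ℕ) : (n : Om) = HahnSeries.C (n : Kbar) := (map_natCast _ n).symm

theorem C_natCast_pow (n k : ℕ) : (HahnSeries.C ((n : Kbar) ^ k) : Om) = (n : Om) ^ k := by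
  rw [map_pow, map_natCast]

theorem C_inv_mul {n : ℕ} (hn : (n : Kbar) ≠ 0) (x : Om) :
    HahnSeries.C ((n : Kbar)⁻¹) * ((n : Om) * x) = x := by
  rw [natCast_eq_C, ← mul_assoc, ← map_mul, inv_mul_cancel₀ hn, map_one, one_mul]

theorem const_ne_zero (N : ℕ) {c : Kbar} (hc : c ≠ 0) : algebraMap Kbar (FN N) c ≠ 0 := by
  rw [Ne, map_eq_zero]
  exact hc

end Consts

/-! ### Reductions of integral series -/

section HasRed

variable (A : ValuationSubring Kbar)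

/-- `x` is integral with reduction `r`. -/
def HasRed (x : Om) (r : Omk A) : Prop := ∃ hx : x ∈ Ocal A, red A ⟨x, hx⟩ = r

variable {A}

theorem IsU.hasRed {x : Om} {r : Omk A} (h : IsU A x r) : HasRed A x r := ⟨h.1, h.2.1⟩

theorem hasRed_self {x : Om} (hx : x ∈ Ocal A) : HasRed A x (red A ⟨x, hx⟩) := ⟨hx, rfl⟩

theorem HasRed.red_eq {x : Om} {r : Omk A} (h : HasRed A x r) (hx : x ∈ Ocal A) :
    red A ⟨x, hx⟩ = r := h.2

theorem HasRed.mul {x y : Om} {r s : Omk A} (hx : HasRed A x r) (hy : HasRed A y s) :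
    HasRed A (x * y) (r * s) := by
  obtain ⟨hx, hr⟩ := hx
  obtain ⟨hy, hs⟩ := hy
  refine ⟨(Ocal A).mul_mem hx hy, ?_⟩
  have e : (⟨x * y, (Ocal A).mul_mem hx hy⟩ : Ocal A) = ⟨x, hx⟩ * ⟨y, hy⟩ := rfl
  rw [e, map_mul, hr, hs]

theorem HasRed.pow {x : Om} {r : Omk A} (hx : HasRed A x r) (n : ℕ) :
    HasRed A (x ^ n) (r ^ n) := by
  induction n with
  | zero =>
    rw [pow_zero, pow_zero]
    exact ⟨(Ocal A).one_mem, map_one _⟩
  | succ n ih =>
    rw [pow_succ, pow_succ]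
    exact ih.mul hx

variable (A)

/-- `q · u` has zero reduction. -/
theorem red_q_mul {q : ℕ} (hq : q.Prime) (hA : A.LiesOverPrime q) {u : Om} (hu : u ∈ Ocal A)
    (h : (q : Om) * u ∈ Ocal A) : red A ⟨_, h⟩ = 0 := by
  have : Fact q.Prime := ⟨hq⟩
  have : CharP (kk A) q := charP_residueField_of_liesOverPrime A q hA
  have e : (⟨(q : Om) * u, h⟩ : Ocal A) = (q : Ocal A) * ⟨u, hu⟩ := Subtype.ext rfl
  have e0 : ((q : ℕ) : Omk A) = 0 := by
    rw [← map_natCast (HahnSeries.C : kk A →+* Omk A) q, CharP.cast_eq_zero (kk A) q, map_zero]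
  rw [e, map_mul, map_natCast, e0, zero_mul]

/-- The cusp dichotomy, in series form. -/
theorem dichotomy_cusp {q : ℕ} (hq : q.Prime) (hA : A.LiesOverPrime q) {x u v c : Om}
    (hx : x ∈ Ocal A)
    (hu : u * (deltaS Kbar * expand Kbar (q * q) (deltaS Kbar)) = expand Kbar q (deltaS Kbar) ^ 2)
    (hv : v = deltaS Kbar / expand Kbar (q * q) (deltaS Kbar))
    (hc : c = x ^ (12 * (q - 1)) * u⁻¹) :
    c ∈ Ocal A ∧ ∀ (hc' : c ∈ Ocal A) (hv' : v ∈ Ocal A),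
      red A ⟨x, hx⟩ ^ (12 * (q - 1) * (q + 1))
        = red A ⟨c, hc'⟩ ^ (q + 1) * red A ⟨v, hv'⟩ ^ (q - 1) := by
  have hΔq := DeltaUnit.expand_deltaS_ne_zero q
  have hui : u⁻¹ = (deltaS Kbar * expand Kbar (q * q) (deltaS Kbar))
      / expand Kbar q (deltaS Kbar) ^ 2 := inv_eq_div_of_mul_eq (pow_ne_zero 2 hΔq) hu
  have hU : IsU A u⁻¹ ((deltaS (kk A) * deltaS (kk A) ^ (q * q)) / (deltaS (kk A) ^ q) ^ 2) := by
    rw [hui, ← expand_delta_q A hq hA, ← expand_delta_qq A hq hA]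
    exact ((isU_delta A).mul (isU_expand A (q * q))).div ((isU_expand A q).pow 2)
  have hV : IsU A v (deltaS (kk A) / deltaS (kk A) ^ (q * q)) := by
    rw [hv, ← expand_delta_qq A hq hA]
    exact (isU_delta A).div (isU_expand A (q * q))
  have hC : HasRed A c (red A ⟨x, hx⟩ ^ (12 * (q - 1))
      * ((deltaS (kk A) * deltaS (kk A) ^ (q * q)) / (deltaS (kk A) ^ q) ^ 2)) := by
    rw [hc]
    exact ((hasRed_self hx).pow _).mul hU.hasRed
  refine ⟨hC.1, fun hc' hv' => ?_⟩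
  rw [hC.red_eq hc', hV.red_eq hv']
  exact key_identity (deltaS (kk A)) _ (deltaS_ne_zero (kk A)) q hq.one_lt.le

/-- `(q · u)^(q-1)` is divisible by `q`. -/
theorem pow_pred_q_mul {q : ℕ} (hq : 2 ≤ q) {x u : Om} (hu : u ∈ Ocal A)
    (e : x = (q : Om) * u) : ∃ u' ∈ Ocal A, x ^ (q - 1) = (q : Om) * u' := by
  obtain ⟨k, rfl⟩ : ∃ k, q = k + 2 := ⟨q - 2, by omega⟩
  refine ⟨((k + 2 : ℕ) : Om) ^ k * u ^ (k + 1),
    natCast_pow_mul_mem (k + 2) k ((Ocal A).pow_mem hu _), ?_⟩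
  have e2 : k + 2 - 1 = k + 1 := by omega
  rw [e, e2, mul_pow]
  ring

/-- `(ξ - 1)^(q-1) / q ∈ A`. -/
theorem pi_pow_div_mem {q : ℕ} (hq : q.Prime) (ξ : MidIdx q) :
    ((ξ.1 : Kbar) - 1) ^ (q - 1) / (q : Kbar) ∈ A := by
  have hξ' : IsPrimitiveRoot (ξ.1 : Kbar) q := IsPrimitiveRoot.coe_units_iff.mpr ξ.2
  have hq0 : (q : Kbar) ≠ 0 := Nat.cast_ne_zero.mpr hq.ne_zero
  have hval : A.valuation (((ξ.1 : Kbar) - 1) ^ (q - 1) / (q : Kbar)) = 1 := by
    rw [map_div₀, map_pow, InertiaFieldZeta.val_zeta_sub_one_pow A q hq _ hξ']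
    exact div_self ((Valuation.ne_zero_iff _).mpr hq0)
  exact (A.valuation_le_one_iff _).mp hval.le

/-- `((ξ - 1) · x')^(q-1)` is divisible by `q`. -/
theorem pow_pred_pi_mul {q : ℕ} (hq : q.Prime) (ξ : MidIdx q) {x x' : Om} (hx' : x' ∈ Ocal A)
    (e : x = HahnSeries.C ((ξ.1 : Kbar) - 1) * x') :
    ∃ u' ∈ Ocal A, x ^ (q - 1) = (q : Om) * u' := by
  have hq0 : (q : Kbar) ≠ 0 := Nat.cast_ne_zero.mpr hq.ne_zero
  refine ⟨HahnSeries.C (((ξ.1 : Kbar) - 1) ^ (q - 1) / (q : Kbar)) * x' ^ (q - 1),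
    (Ocal A).mul_mem (C_mem_Ocal A (pi_pow_div_mem A hq ξ)) ((Ocal A).pow_mem hx' _), ?_⟩
  have e1 : (HahnSeries.C ((ξ.1 : Kbar) - 1) : Om) ^ (q - 1)
      = HahnSeries.C (((ξ.1 : Kbar) - 1) ^ (q - 1)) := (map_pow _ _ _).symm
  have e3 : (q : Kbar) * (((ξ.1 : Kbar) - 1) ^ (q - 1) / (q : Kbar))
      = ((ξ.1 : Kbar) - 1) ^ (q - 1) := by
    field_simp
  rw [e, mul_pow, e1, natCast_eq_C q, ← mul_assoc, ← map_mul, e3]

/-- Integrality of `x^(12(q-1)) / u` at a middle coordinate. -/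
theorem mid_mem {q : ℕ} (hq : q.Prime) (hA : A.LiesOverPrime q) (ξ : MidIdx q) {x u x' : Om}
    (hx' : x' ∈ Ocal A) (e : x = HahnSeries.C ((ξ.1 : Kbar) - 1) * x')
    (hu : u * (deltaS Kbar * scale ξ.1 (deltaS Kbar))
      = (q : Om) ^ 12 * expand Kbar q (deltaS Kbar) ^ 2) :
    x ^ (12 * (q - 1)) * u⁻¹ ∈ Ocal A := by
  obtain ⟨u', hu', e'⟩ := pow_pred_pi_mul A hq ξ hx' e
  have hqO : (q : Om) ≠ 0 := DeltaUnit.natCast_ne_zero q hq.ne_zero
  have hE : expand Kbar q (deltaS Kbar) ^ 2 ≠ 0 :=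
    pow_ne_zero 2 (DeltaUnit.expand_deltaS_ne_zero q)
  rw [pow_mul', e', inv_eq_div_of_mul_eq (mul_ne_zero (pow_ne_zero 12 hqO) hE) hu,
    pow12_cancel hqO]
  exact (Ocal A).mul_mem ((Ocal A).pow_mem hu' 12)
    (((isU_delta A).mul (isU_scale A hq hA ξ.1 ξ.2.pow_eq_one)).div ((isU_expand A q).pow 2)).mem

end HasRed

/-! ### Divisibility by `q` in the frame -/

section Divisible

variable {M q : ℕ} [NeZero M] [NeZero q] {h : Nat.Coprime M q} (A : ValuationSubring Kbar)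
  (F : Plan.Frame M q h)

/-- `K₀`-rationality in the Galois-action spelling. -/
theorem gal_of_fixed {N : ℕ} [NeZero N] {x : FN N} (hfix : K0Red.Fixed A (x : Om)) :
    ∀ τ : Kbar ≃ₐ[ℚ] Kbar, τ ∈ A.inertiaSubgroupIn ℚ → S34.Plan.gal N τ • x = x :=
  fun τ hτ => Subtype.ext (hfix τ hτ)

/-- At `∞`: a `K₀`-rational integral function with zero reduction is divisible by `q`. -/
theorem exists_eq_q_mul_inf (hq : q.Prime) (hA : A.LiesOverPrime q) (x : FN (M * q * q))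
    (hfix : K0Red.Fixed A (x : Om)) (hx : F.emb .inf x ∈ Ocal A) (h0 : red A ⟨_, hx⟩ = 0) :
    ∃ x' ∈ Ocal A, F.emb .inf x = (q : Om) * x' := by
  rcases eq_or_ne x 0 with rfl | hx0
  · exact ⟨0, (Ocal A).zero_mem, by rw [map_zero, mul_zero]⟩
  · exact exists_eq_q_mul A hq hx h0
      (K0ScaleFrame.exists_scale_inf A hq hA F x hx0 (gal_of_fixed A hfix))

/-- At `0`: a `K₀`-rational integral function with zero reduction is divisible by `q`. -/
theorem exists_eq_q_mul_zero (hq : q.Prime) (hA : A.LiesOverPrime q) (x : FN (M * q * q))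
    (hfix : K0Red.Fixed A (x : Om)) (hx : F.emb .zero x ∈ Ocal A) (h0 : red A ⟨_, hx⟩ = 0) :
    ∃ x' ∈ Ocal A, F.emb .zero x = (q : Om) * x' := by
  rcases eq_or_ne x 0 with rfl | hx0
  · exact ⟨0, (Ocal A).zero_mem, by rw [map_zero, mul_zero]⟩
  · exact exists_eq_q_mul A hq hx h0
      (K0ScaleFrame.exists_scale_zero A hq hA F x hx0 (gal_of_fixed A hfix))

/-- At a middle coordinate: a `K₀`-rational integral function with zero reduction is divisible by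
`ξ - 1`. -/
theorem exists_eq_pi_mul_mid (hq : q.Prime) (hA : A.LiesOverPrime q) (x : FN (M * q * q))
    (hfix : K0Red.Fixed A (x : Om)) (ξ : MidIdx q) (hx : F.emb (.mid ξ) x ∈ Ocal A)
    (h0 : red A ⟨_, hx⟩ = 0) :
    ∃ x' ∈ Ocal A, F.emb (.mid ξ) x = HahnSeries.C ((ξ.1 : Kbar) - 1) * x' := by
  have hξ' : IsPrimitiveRoot (ξ.1 : Kbar) q := IsPrimitiveRoot.coe_units_iff.mpr ξ.2
  have hπ0 : (ξ.1 : Kbar) - 1 ≠ 0 := InertiaFieldZeta.zeta_sub_one_ne_zero q hq _ hξ'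
  refine ⟨_, K0ScaleFrame.div_mid_mem_Ocal A hq hA F x (gal_of_fixed A hfix) ξ hx h0, ?_⟩
  rw [← mul_assoc, ← map_mul, mul_inv_cancel₀ hπ0, map_one, one_mul]

/-- The quotient `X · f / q`. -/
def quo (X f : FN (M * q * q)) : FN (M * q * q) :=
  algebraMap Kbar (FN (M * q * q)) ((q : Kbar)⁻¹) * (X * f)

omit [NeZero M] [NeZero q] in
theorem mul_eq_q_mul_quo (hq0 : q ≠ 0) (X f : FN (M * q * q)) :
    X * f = algebraMap Kbar (FN (M * q * q)) (q : Kbar) * quo X f := by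
  unfold quo
  rw [← mul_assoc, ← map_mul, mul_inv_cancel₀ (Nat.cast_ne_zero.mpr hq0), map_one, one_mul]

theorem emb_quo (i : Coord q) (X f : FN (M * q * q)) :
    F.emb i (quo X f) = HahnSeries.C ((q : Kbar)⁻¹) * (F.emb i X * F.emb i f) := by
  unfold quo
  rw [map_mul, map_mul, emb_const]

omit [NeZero M] [NeZero q] in
theorem fixed_quo {X f : FN (M * q * q)} (hX : K0Red.Fixed A (X : Om))
    (hf : K0Red.Fixed A (f : Om)) : K0Red.Fixed A ((quo X f : FN (M * q * q)) : Om) := by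
  have e : ((quo X f : FN (M * q * q)) : Om)
      = HahnSeries.C ((q : Kbar)⁻¹) * ((X : Om) * (f : Om)) := by
    rw [← coe_const (M * q * q)]
    rfl
  rw [e]
  exact (K0Red.fixed_C fun τ _ => by rw [map_inv₀, map_natCast]).mul (hX.mul hf)

omit [NeZero M] [NeZero q] in
theorem ord_quo (hq0 : q ≠ 0) (w : Place Kbar (FN (M * q * q))) {X : FN (M * q * q)}
    (hX0 : X ≠ 0) (hX : w.ord X = 0) (f : FN (M * q * q)) : w.ord (quo X f) = w.ord f := by
  unfold quo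
  rcases eq_or_ne f 0 with rfl | hf
  · rw [mul_zero, mul_zero]
  · have hc : algebraMap Kbar (FN (M * q * q)) ((q : Kbar)⁻¹) ≠ 0 :=
      const_ne_zero _ (inv_ne_zero (Nat.cast_ne_zero.mpr hq0))
    rw [Place.ord_mul w hc (mul_ne_zero hX0 hf), Fermat.Agent.S24.ord_algebraMap,
      Place.ord_mul w hX0 hf, hX, zero_add, zero_add]

/-- **Divisibility**: if `X` is divisible by `q` at every coordinate but `i₀`, and `f` is
divisible by `q` at `i₀`, then `X · f / q` is integral at every coordinate. -/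
theorem quo_mem (hq0 : q ≠ 0) (X f : FN (M * q * q)) (i₀ : Coord q)
    (hX0 : F.emb i₀ X ∈ Ocal A)
    (hX : ∀ i, i ≠ i₀ → ∃ u ∈ Ocal A, F.emb i X = (q : Om) * u)
    (hf : ∀ i, F.emb i f ∈ Ocal A)
    (hf0 : ∃ x' ∈ Ocal A, F.emb i₀ f = (q : Om) * x') (i : Coord q) :
    F.emb i (quo X f) ∈ Ocal A := by
  have hqK : (q : Kbar) ≠ 0 := Nat.cast_ne_zero.mpr hq0
  rw [emb_quo]
  rcases eq_or_ne i i₀ with rfl | hi
  · obtain ⟨x', hx', e⟩ := hf0
    rw [e, mul_left_comm, C_inv_mul hqK]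
    exact (Ocal A).mul_mem hX0 hx'
  · obtain ⟨u, hu, e⟩ := hX i hi
    rw [e, mul_assoc, C_inv_mul hqK]
    exact (Ocal A).mul_mem hu (hf i)

/-- **`hker` at `∞` for an arbitrary multiplier**: if `c` (`K₀`-rational, integral) reduces to
zero at the middle and `0` coordinates and `f` (`K₀`-rational, integral) reduces to zero at `∞`,
then `c^(q-1) · f / q` is `K₀`-rational and integral at every coordinate. -/
theorem hkerInf (hq : q.Prime) (hA : A.LiesOverPrime q) (c f : FN (M * q * q))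
    (hcF : K0Red.Fixed A (c : Om)) (hfF : K0Red.Fixed A (f : Om))
    (hc : ∀ i, F.emb i c ∈ Ocal A) (hf : ∀ i, F.emb i f ∈ Ocal A)
    (hc1 : ∀ (ξ : MidIdx q) (hm : F.emb (.mid ξ) c ∈ Ocal A), red A ⟨_, hm⟩ = 0)
    (hc2 : ∀ hm : F.emb .zero c ∈ Ocal A, red A ⟨_, hm⟩ = 0)
    (hf0 : ∀ hm : F.emb .inf f ∈ Ocal A, red A ⟨_, hm⟩ = 0) :
    ∃ y : FN (M * q * q), c ^ (q - 1) * f = algebraMap Kbar (FN (M * q * q)) (q : Kbar) * y ∧
      K0Red.Fixed A (y : Om) ∧ ∀ i, F.emb i y ∈ Ocal A := by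
  refine ⟨quo (c ^ (q - 1)) f, mul_eq_q_mul_quo hq.ne_zero _ _,
    fixed_quo A (fixed_pow hcF (q - 1)) hfF, ?_⟩
  refine quo_mem A F hq.ne_zero _ f .inf ?_ ?_ hf
    (exists_eq_q_mul_inf A F hq hA f hfF (hf .inf) (hf0 _))
  · rw [map_pow]
    exact (Ocal A).pow_mem (hc .inf) _
  · intro i hi
    rw [map_pow]
    cases i with
    | inf => exact absurd rfl hi
    | zero =>
      obtain ⟨u, hu, e⟩ := exists_eq_q_mul_zero A F hq hA c hcF (hc .zero) (hc2 _)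
      exact pow_pred_q_mul A hq.two_le hu e
    | mid ξ =>
      obtain ⟨x', hx', e⟩ := exists_eq_pi_mul_mid A F hq hA c hcF ξ (hc (.mid ξ)) (hc1 ξ _)
      exact pow_pred_pi_mul A hq ξ hx' e

/-- **`hker` at `0` for an arbitrary multiplier.** -/
theorem hkerZero (hq : q.Prime) (hA : A.LiesOverPrime q) (c f : FN (M * q * q))
    (hcF : K0Red.Fixed A (c : Om)) (hfF : K0Red.Fixed A (f : Om))
    (hc : ∀ i, F.emb i c ∈ Ocal A) (hf : ∀ i, F.emb i f ∈ Ocal A)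
    (hc0 : ∀ hm : F.emb .inf c ∈ Ocal A, red A ⟨_, hm⟩ = 0)
    (hc1 : ∀ (ξ : MidIdx q) (hm : F.emb (.mid ξ) c ∈ Ocal A), red A ⟨_, hm⟩ = 0)
    (hf0 : ∀ hm : F.emb .zero f ∈ Ocal A, red A ⟨_, hm⟩ = 0) :
    ∃ y : FN (M * q * q), c ^ (q - 1) * f = algebraMap Kbar (FN (M * q * q)) (q : Kbar) * y ∧
      K0Red.Fixed A (y : Om) ∧ ∀ i, F.emb i y ∈ Ocal A := by
  refine ⟨quo (c ^ (q - 1)) f, mul_eq_q_mul_quo hq.ne_zero _ _,
    fixed_quo A (fixed_pow hcF (q - 1)) hfF, ?_⟩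
  refine quo_mem A F hq.ne_zero _ f .zero ?_ ?_ hf
    (exists_eq_q_mul_zero A F hq hA f hfF (hf .zero) (hf0 _))
  · rw [map_pow]
    exact (Ocal A).pow_mem (hc .zero) _
  · intro i hi
    rw [map_pow]
    cases i with
    | inf =>
      obtain ⟨u, hu, e⟩ := exists_eq_q_mul_inf A F hq hA c hcF (hc .inf) (hc0 _)
      exact pow_pred_q_mul A hq.two_le hu e
    | zero => exact absurd rfl hi
    | mid ξ =>
      obtain ⟨x', hx', e⟩ := exists_eq_pi_mul_mid A F hq hA c hcF ξ (hc (.mid ξ)) (hc1 ξ _)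
      exact pow_pred_pi_mul A hq ξ hx' e

end Divisible

/-! ### The functions `V` and `V₀` -/

section Main

variable {M q : ℕ} [NeZero M] [NeZero q]

/-- `V = q¹²/ω₂` and `V₀ = q¹²·ω₂`, with their expansions at the `q + 1` coordinates. -/
theorem exists_V (hq : q.Prime) (hcop : Nat.Coprime M q) (hM : 4 ∣ M ∨ 9 ∣ M)
    (F : Plan.Frame M q hcop) :
    ∃ V V₀ : FN (M * q * q), V ≠ 0 ∧ V₀ ≠ 0 ∧
      F.emb .inf V = deltaS Kbar / expand Kbar (q * q) (deltaS Kbar) ∧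
      F.emb .zero V
        = (q : Om) * ((q : Om) ^ 23 * (expand Kbar (q * q) (deltaS Kbar) / deltaS Kbar)) ∧
      (∀ ξ : MidIdx q, F.emb (.mid ξ) V
        = (q : Om) * ((q : Om) ^ 11 * (deltaS Kbar / scale ξ.1 (deltaS Kbar)))) ∧
      F.emb .inf V₀
        = (q : Om) * ((q : Om) ^ 23 * (expand Kbar (q * q) (deltaS Kbar) / deltaS Kbar)) ∧
      F.emb .zero V₀ = deltaS Kbar / expand Kbar (q * q) (deltaS Kbar) ∧
      (∀ ξ : MidIdx q, F.emb (.mid ξ) V₀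
        = (q : Om) * ((q : Om) ^ 11 * (scale ξ.1 (deltaS Kbar) / deltaS Kbar))) ∧
      (∀ w : Place Kbar (FN (M * q * q)), 0 ≤ w.ord (jBar (M * q * q)) → w.ord V = 0) ∧
      (∀ w : Place Kbar (FN (M * q * q)), 0 ≤ w.ord (jBar (M * q * q)) → w.ord V₀ = 0) := by
  obtain ⟨W, hW0, hexp, hWord⟩ := exists_omega2 M q hcop hM
  obtain ⟨t1, t2, t3⟩ := omega2_table F W hexp
  have hq0 : q ≠ 0 := hq.ne_zero
  have hqO : (q : Om) ≠ 0 := DeltaUnit.natCast_ne_zero q hq0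
  have hq12 : (q : Om) ^ 12 ≠ 0 := pow_ne_zero _ hqO
  have hΔ := DeltaUnit.deltaS_ne_zero
  have hΔqq := DeltaUnit.expand_deltaS_ne_zero (q * q)
  have hΔξ : ∀ ξ : MidIdx q, scale ξ.1 (deltaS Kbar) ≠ 0 := fun ξ => by
    rw [← deltaY_xi]
    exact Der.deltaY_ne_zero ξ.1 1
  have hc0 : algebraMap Kbar (FN (M * q * q)) ((q : Kbar) ^ 12) ≠ 0 :=
    const_ne_zero _ (pow_ne_zero _ (Nat.cast_ne_zero.mpr hq0))
  have embV : ∀ i, F.emb i (algebraMap Kbar (FN (M * q * q)) ((q : Kbar) ^ 12) * W⁻¹)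
      = (q : Om) ^ 12 * (F.emb i W)⁻¹ := by
    intro i
    rw [map_mul, emb_const, map_inv₀, C_natCast_pow]
  have embV0 : ∀ i, F.emb i (algebraMap Kbar (FN (M * q * q)) ((q : Kbar) ^ 12) * W)
      = (q : Om) ^ 12 * F.emb i W := by
    intro i
    rw [map_mul, emb_const, C_natCast_pow]
  refine ⟨algebraMap Kbar (FN (M * q * q)) ((q : Kbar) ^ 12) * W⁻¹,
    algebraMap Kbar (FN (M * q * q)) ((q : Kbar) ^ 12) * W,
    mul_ne_zero hc0 (inv_ne_zero hW0), mul_ne_zero hc0 hW0, ?_, ?_, ?_, ?_, ?_, ?_, ?_, ?_⟩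
  · rw [embV, inv_eq_div_of_mul_eq (mul_ne_zero hq12 hΔqq) t1]
    exact mul_div_mul_cancel_aux hq12
  · rw [embV, inv_eq_div_of_mul_eq hΔ t2]
    ring
  · intro ξ
    rw [embV, inv_eq_div_of_mul_eq (hΔξ ξ) (t3 ξ)]
    ring
  · rw [embV0, eq_div_of_mul_eq hΔ t1]
    ring
  · rw [embV0, eq_div_of_mul_eq (mul_ne_zero hq12 hΔqq) t2]
    exact mul_div_mul_cancel_aux hq12
  · intro ξ
    rw [embV0, eq_div_of_mul_eq hΔ (t3 ξ)]
    ring
  · intro w hw
    rw [Place.ord_mul w hc0 (inv_ne_zero hW0), Fermat.Agent.S24.ord_algebraMap, Place.ord_inv,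
      hWord w hw, neg_zero, add_zero]
  · intro w hw
    rw [Place.ord_mul w hc0 hW0, Fermat.Agent.S24.ord_algebraMap, hWord w hw, add_zero]

variable (A : ValuationSubring Kbar) {hcop : Nat.Coprime M q} (F : Plan.Frame M q hcop)

/-- **(a)**: `q` divides `V · f` whenever `f` (`K₀`-rational, integral) has zero reduction at the
coordinate `i₀`; the quotient keeps the orders of `f` at the finite places. -/
def DivStmt (i₀ : Coord q) (V : FN (M * q * q)) : Prop :=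
  ∀ f : FN (M * q * q), K0Red.Fixed A (f : Om) → (∀ i, F.emb i f ∈ Ocal A) →
    (∀ hf : F.emb i₀ f ∈ Ocal A, red A ⟨_, hf⟩ = 0) →
    ∃ y : FN (M * q * q), V * f = algebraMap Kbar (FN (M * q * q)) (q : Kbar) * y ∧
      K0Red.Fixed A (y : Om) ∧ (∀ i, F.emb i y ∈ Ocal A) ∧
      ∀ w : Place Kbar (FN (M * q * q)), 0 ≤ w.ord (jBar (M * q * q)) → w.ord y = w.ord f

/-- **(b)**: the dichotomy. -/
def DichStmt (V V₀ : FN (M * q * q)) : Prop :=
  ∀ g : FN (M * q * q), K0Red.Fixed A (g : Om) → (∀ i, F.emb i g ∈ Ocal A) →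
    (∀ w : Place Kbar (FN (M * q * q)), 0 ≤ w.ord (jBar (M * q * q)) → 0 ≤ w.ord g) →
    (∀ (ξ : MidIdx q) (hg : F.emb (.mid ξ) g ∈ Ocal A), red A ⟨_, hg⟩ = 0) →
    ∃ c : FN (M * q * q), K0Red.Fixed A (c : Om) ∧ (∀ i, F.emb i c ∈ Ocal A) ∧
      (∀ w : Place Kbar (FN (M * q * q)), 0 ≤ w.ord (jBar (M * q * q)) → 0 ≤ w.ord c) ∧
      (∀ (hg : F.emb .inf g ∈ Ocal A) (hc : F.emb .inf c ∈ Ocal A)
          (hV : F.emb .inf V ∈ Ocal A),
        red A ⟨F.emb .inf g, hg⟩ ^ (12 * (q - 1) * (q + 1))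
          = red A ⟨F.emb .inf c, hc⟩ ^ (q + 1) * red A ⟨F.emb .inf V, hV⟩ ^ (q - 1)) ∧
      (∀ (hg : F.emb .zero g ∈ Ocal A) (hc : F.emb .zero c ∈ Ocal A)
          (hV : F.emb .zero V₀ ∈ Ocal A),
        red A ⟨F.emb .zero g, hg⟩ ^ (12 * (q - 1) * (q + 1))
          = red A ⟨F.emb .zero c, hc⟩ ^ (q + 1) * red A ⟨F.emb .zero V₀, hV⟩ ^ (q - 1))

/-- **Lemma R at the components `C_∞` and `C_0`, full form** (with the vanishing of `V`, `V₀` at
the other coordinates). -/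
theorem lemmaRInf_full (hq : q.Prime) (hM : 4 ∣ M ∨ 9 ∣ M) (hA : A.LiesOverPrime q) :
    ∃ V V₀ : FN (M * q * q),
      (K0Red.Fixed A (V : Om) ∧ K0Red.Fixed A (V₀ : Om) ∧
        (∀ i, F.emb i V ∈ Ocal A) ∧ (∀ i, F.emb i V₀ ∈ Ocal A) ∧
        (∀ w : Place Kbar (FN (M * q * q)), 0 ≤ w.ord (jBar (M * q * q)) → w.ord V = 0) ∧
        (∀ w : Place Kbar (FN (M * q * q)), 0 ≤ w.ord (jBar (M * q * q)) → w.ord V₀ = 0)) ∧
      ((∀ (ξ : MidIdx q) (hm : F.emb (.mid ξ) V ∈ Ocal A), red A ⟨_, hm⟩ = 0) ∧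
        (∀ hm : F.emb .zero V ∈ Ocal A, red A ⟨_, hm⟩ = 0) ∧
        (∀ (ξ : MidIdx q) (hm : F.emb (.mid ξ) V₀ ∈ Ocal A), red A ⟨_, hm⟩ = 0) ∧
        (∀ hm : F.emb .inf V₀ ∈ Ocal A, red A ⟨_, hm⟩ = 0)) ∧
      DivStmt A F .inf V ∧ DivStmt A F .zero V₀ ∧ DichStmt A F V V₀ := by
  obtain ⟨V, V₀, hV0, hV₀0, eVinf, eVzero, eVmid, eV₀inf, eV₀zero, eV₀mid, hVord, hV₀ord⟩ :=
    exists_V hq hcop hM F
  have hq0 : q ≠ 0 := hq.ne_zero
  have uD : IsU A (deltaS Kbar) (deltaS (kk A)) := isU_delta A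
  have uDqq := isU_expand A (q * q)
  have uξ : ∀ ξ : MidIdx q, IsU A (scale ξ.1 (deltaS Kbar)) (deltaS (kk A)) :=
    fun ξ => isU_scale A hq hA ξ.1 ξ.2.pow_eq_one
  have m23 : (q : Om) ^ 23 * (expand Kbar (q * q) (deltaS Kbar) / deltaS Kbar) ∈ Ocal A :=
    natCast_pow_mul_mem q 23 (uDqq.div uD).mem
  have m11 : ∀ ξ : MidIdx q,
      (q : Om) ^ 11 * (deltaS Kbar / scale ξ.1 (deltaS Kbar)) ∈ Ocal A :=
    fun ξ => natCast_pow_mul_mem q 11 (uD.div (uξ ξ)).mem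
  have m11' : ∀ ξ : MidIdx q,
      (q : Om) ^ 11 * (scale ξ.1 (deltaS Kbar) / deltaS Kbar) ∈ Ocal A :=
    fun ξ => natCast_pow_mul_mem q 11 ((uξ ξ).div uD).mem
  have qmem : ∀ {u : Om}, u ∈ Ocal A → (q : Om) * u ∈ Ocal A :=
    fun hu => (Ocal A).mul_mem (natCast_mem (Ocal A) q) hu
  have hVmem : ∀ i, F.emb i V ∈ Ocal A := by
    intro i
    cases i with
    | inf => rw [eVinf]; exact (uD.div uDqq).mem
    | zero => rw [eVzero]; exact qmem m23
    | mid ξ => rw [eVmid ξ]; exact qmem (m11 ξ)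
  have hV₀mem : ∀ i, F.emb i V₀ ∈ Ocal A := by
    intro i
    cases i with
    | inf => rw [eV₀inf]; exact qmem m23
    | zero => rw [eV₀zero]; exact (uD.div uDqq).mem
    | mid ξ => rw [eV₀mid ξ]; exact qmem (m11' ξ)
  have fD : K0Red.Fixed A (deltaS Kbar) := fixed_delta A
  have fDqq : K0Red.Fixed A (expand Kbar (q * q) (deltaS Kbar)) := fixed_expand fD _
  have hVfix : K0Red.Fixed A ((V : FN (M * q * q)) : Om) := by
    have e : ((V : FN (M * q * q)) : Om)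
        = deltaS Kbar / expand Kbar (q * q) (deltaS Kbar) := eVinf
    rw [e]
    exact fixed_div fD fDqq
  have hV₀fix : K0Red.Fixed A ((V₀ : FN (M * q * q)) : Om) := by
    have e : ((V₀ : FN (M * q * q)) : Om)
        = (q : Om) * ((q : Om) ^ 23 * (expand Kbar (q * q) (deltaS Kbar) / deltaS Kbar)) :=
      eV₀inf
    rw [e]
    exact (fixed_natCast q).mul ((fixed_pow (fixed_natCast q) 23).mul (fixed_div fDqq fD))
  refine ⟨V, V₀, ⟨hVfix, hV₀fix, hVmem, hV₀mem, hVord, hV₀ord⟩, ⟨?_, ?_, ?_, ?_⟩, ?_, ?_, ?_⟩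
  · intro ξ hm
    rw [red_congr A (eVmid ξ) hm (qmem (m11 ξ))]
    exact red_q_mul A hq hA (m11 ξ) _
  · intro hm
    rw [red_congr A eVzero hm (qmem m23)]
    exact red_q_mul A hq hA m23 _
  · intro ξ hm
    rw [red_congr A (eV₀mid ξ) hm (qmem (m11' ξ))]
    exact red_q_mul A hq hA (m11' ξ) _
  · intro hm
    rw [red_congr A eV₀inf hm (qmem m23)]
    exact red_q_mul A hq hA m23 _
  · -- (a∞)
    intro f hfF hf hf0
    refine ⟨quo V f, mul_eq_q_mul_quo hq0 V f, fixed_quo A hVfix hfF, ?_,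
      fun w hw => ord_quo hq0 w hV0 (hVord w hw) f⟩
    refine quo_mem A F hq0 V f .inf (hVmem .inf) ?_ hf
      (exists_eq_q_mul_inf A F hq hA f hfF (hf .inf) (hf0 _))
    intro i hi
    cases i with
    | inf => exact absurd rfl hi
    | zero => exact ⟨_, m23, eVzero⟩
    | mid ξ => exact ⟨_, m11 ξ, eVmid ξ⟩
  · -- (a0)
    intro f hfF hf hf0
    refine ⟨quo V₀ f, mul_eq_q_mul_quo hq0 V₀ f, fixed_quo A hV₀fix hfF, ?_,
      fun w hw => ord_quo hq0 w hV₀0 (hV₀ord w hw) f⟩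
    refine quo_mem A F hq0 V₀ f .zero (hV₀mem .zero) ?_ hf
      (exists_eq_q_mul_zero A F hq hA f hfF (hf .zero) (hf0 _))
    intro i hi
    cases i with
    | inf => exact ⟨_, m23, eV₀inf⟩
    | zero => exact absurd rfl hi
    | mid ξ => exact ⟨_, m11' ξ, eV₀mid ξ⟩
  · -- (b)
    intro g hgF hg hgord hgmid
    obtain ⟨g₁, g₂, hg₁, hg₂, hU0, hUcoe, hUord⟩ := DeltaUnit.exists_U2 M q hcop hM
    obtain ⟨hUzero, hUmid⟩ := U2_table F g₁ g₂ hg₁ hg₂
    have embc : ∀ i, F.emb i (g ^ (12 * (q - 1)) * (DeltaUnit.U2 M q g₁ g₂)⁻¹)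
        = F.emb i g ^ (12 * (q - 1)) * (F.emb i (DeltaUnit.U2 M q g₁ g₂))⁻¹ := by
      intro i
      rw [map_mul, map_pow, map_inv₀]
    have hinf := dichotomy_cusp A hq hA (hg .inf) (u := F.emb .inf (DeltaUnit.U2 M q g₁ g₂))
      (v := F.emb .inf V) (c := F.emb .inf (g ^ (12 * (q - 1)) * (DeltaUnit.U2 M q g₁ g₂)⁻¹))
      hUcoe eVinf (embc .inf)
    have hzero := dichotomy_cusp A hq hA (hg .zero)
      (u := F.emb .zero (DeltaUnit.U2 M q g₁ g₂)) (v := F.emb .zero V₀)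
      (c := F.emb .zero (g ^ (12 * (q - 1)) * (DeltaUnit.U2 M q g₁ g₂)⁻¹))
      hUzero eV₀zero (embc .zero)
    refine ⟨g ^ (12 * (q - 1)) * (DeltaUnit.U2 M q g₁ g₂)⁻¹, ?_, ?_, ?_,
      fun _ hc hV' => hinf.2 hc hV', fun _ hc hV' => hzero.2 hc hV'⟩
    · show K0Red.Fixed A (((g : FN (M * q * q)) : Om) ^ (12 * (q - 1))
        * ((DeltaUnit.U2 M q g₁ g₂ : FN (M * q * q)) : Om)⁻¹)
      rw [inv_eq_div_of_mul_eq (pow_ne_zero 2 (DeltaUnit.expand_deltaS_ne_zero q)) hUcoe]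
      exact (fixed_pow hgF _).mul
        (fixed_div (fD.mul fDqq) (fixed_pow (fixed_expand fD q) 2))
    · intro i
      cases i with
      | inf => exact hinf.1
      | zero => exact hzero.1
      | mid ξ =>
        rw [embc]
        obtain ⟨x', hx', e⟩ :=
          exists_eq_pi_mul_mid A F hq hA g hgF ξ (hg (.mid ξ)) (hgmid ξ _)
        exact mid_mem A hq hA ξ hx' e (hUmid ξ)
    · intro w hw
      rcases eq_or_ne g 0 with rfl | hg0
      · have h12 : 12 * (q - 1) ≠ 0 := by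
          have := hq.two_le
          omega
        have h0 : w.ord ((0 : FN (M * q * q)) ^ (12 * (q - 1))
            * (DeltaUnit.U2 M q g₁ g₂)⁻¹) = 0 := by
          rw [zero_pow h12, zero_mul, Place.ord_zero]
        exact h0.ge
      · rw [Place.ord_mul w (pow_ne_zero _ hg0) (inv_ne_zero hU0), Fermat.Agent.S24.ord_pow,
          Place.ord_inv, hUord w hw, neg_zero, add_zero]
        exact mul_nonneg (Nat.cast_nonneg _) (hgord w hw)

/-- **Lemma R at the components `C_∞` and `C_0`** (claim #3369).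

`V = Δ(z)/Δ(q²z)` has Gauss values `(∞, mid, 0) = (0, 12, 24)`, `V₀ = q²⁴/V` has `(24, 12, 0)`.
(a∞) `q` is a local equation of `C_∞` wherever `red_∞ V ≠ 0`; (a0) the same at `0` with `V₀`;
(b) where `red_∞ V` (resp. `red_0 V₀`) vanishes, every function vanishing on the middle
component vanishes: the point lies on the middle component and `lemmaR` applies there. -/
theorem lemmaRInf (hq : q.Prime) (hcop : Nat.Coprime M q) (hM : 4 ∣ M ∨ 9 ∣ M)
    (A : ValuationSubring Kbar) (hA : A.LiesOverPrime q) (F : Plan.Frame M q hcop) :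
    ∃ V V₀ : FN (M * q * q),
      K0Red.Fixed A (V : Om) ∧ K0Red.Fixed A (V₀ : Om) ∧
      (∀ i, F.emb i V ∈ Ocal A) ∧ (∀ i, F.emb i V₀ ∈ Ocal A) ∧
      (∀ w : Place Kbar (FN (M * q * q)), 0 ≤ w.ord (jBar (M * q * q)) → w.ord V = 0) ∧
      (∀ w : Place Kbar (FN (M * q * q)), 0 ≤ w.ord (jBar (M * q * q)) → w.ord V₀ = 0) ∧
      (∀ f : FN (M * q * q), K0Red.Fixed A (f : Om) → (∀ i, F.emb i f ∈ Ocal A) →
        (∀ hf : F.emb .inf f ∈ Ocal A, red A ⟨_, hf⟩ = 0) →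
        ∃ y : FN (M * q * q), V * f = algebraMap Kbar (FN (M * q * q)) (q : Kbar) * y ∧
          K0Red.Fixed A (y : Om) ∧ (∀ i, F.emb i y ∈ Ocal A) ∧
          ∀ w : Place Kbar (FN (M * q * q)), 0 ≤ w.ord (jBar (M * q * q)) →
            w.ord y = w.ord f) ∧
      (∀ f : FN (M * q * q), K0Red.Fixed A (f : Om) → (∀ i, F.emb i f ∈ Ocal A) →
        (∀ hf : F.emb .zero f ∈ Ocal A, red A ⟨_, hf⟩ = 0) →
        ∃ y : FN (M * q * q), V₀ * f = algebraMap Kbar (FN (M * q * q)) (q : Kbar) * y ∧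
          K0Red.Fixed A (y : Om) ∧ (∀ i, F.emb i y ∈ Ocal A) ∧
          ∀ w : Place Kbar (FN (M * q * q)), 0 ≤ w.ord (jBar (M * q * q)) →
            w.ord y = w.ord f) ∧
      (∀ g : FN (M * q * q), K0Red.Fixed A (g : Om) → (∀ i, F.emb i g ∈ Ocal A) →
        (∀ w : Place Kbar (FN (M * q * q)), 0 ≤ w.ord (jBar (M * q * q)) → 0 ≤ w.ord g) →
        (∀ (ξ : MidIdx q) (hg : F.emb (.mid ξ) g ∈ Ocal A), red A ⟨_, hg⟩ = 0) →
        ∃ c : FN (M * q * q), K0Red.Fixed A (c : Om) ∧ (∀ i, F.emb i c ∈ Ocal A) ∧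
          (∀ w : Place Kbar (FN (M * q * q)), 0 ≤ w.ord (jBar (M * q * q)) → 0 ≤ w.ord c) ∧
          (∀ (hg : F.emb .inf g ∈ Ocal A) (hc : F.emb .inf c ∈ Ocal A)
              (hV : F.emb .inf V ∈ Ocal A),
            red A ⟨F.emb .inf g, hg⟩ ^ (12 * (q - 1) * (q + 1))
              = red A ⟨F.emb .inf c, hc⟩ ^ (q + 1) * red A ⟨F.emb .inf V, hV⟩ ^ (q - 1)) ∧
          (∀ (hg : F.emb .zero g ∈ Ocal A) (hc : F.emb .zero c ∈ Ocal A)
              (hV : F.emb .zero V₀ ∈ Ocal A),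
            red A ⟨F.emb .zero g, hg⟩ ^ (12 * (q - 1) * (q + 1))
              = red A ⟨F.emb .zero c, hc⟩ ^ (q + 1)
                * red A ⟨F.emb .zero V₀, hV⟩ ^ (q - 1))) := by
  obtain ⟨V, V₀, ⟨h1, h2, h3, h4, h5, h6⟩, -, ha, hb, hc⟩ := lemmaRInf_full A F hq hM hA
  exact ⟨V, V₀, h1, h2, h3, h4, h5, h6, ha, hb, hc⟩

end Main

end Fermat.Agent.S36.LemmaRInf

end
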