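import Mathlib
import Fermat.Agent.S36.K0Plan
import Fermat.Agent.S36.SetupQ2
import Fermat.Agent.S36.BpInt
import Fermat.Agent.S36.CondK0
import Fermat.Agent.S36.K0Red
import Fermat.Agent.S34.InclPull
import Fermat.Agent.S34.GalPull

/-!
# P8 [LEMMA-R-K0]: Lemma R in `K0Plan` vocabulary (helper2)

`RStmt A F` is the conclusion of the frame-level Lemma R (`S36/LemmaR.lemmaR`): elements
`x, r ∈ F_{Mq²}`, fixed by inertia, integral at all `q + 1` coordinates, regular at the finite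
places, `x` with zero middle reductions, `r` with middle reduction a unit of `B_κ`, and
`r · f ∈ x · (…)` for every such `f` with zero middle reductions, with the finite pole bounds of
`f` kept.

`exists_mid_equation` converts it into the data `x₂, r₂ ∈ B'`, `ρ_mid x₂ = 0`, `ρ_mid r₂` a unit
of `B_κ`, and `r₂ · f = x₂ · y` with `y ∈ Λ'(D)` for every `f ∈ Λ'(D)` with `ρ_mid f = 0`
(the hypotheses `x₂ r₂ hx₂ hr₂ hker₂` of the abstract [REG] junction `S36/InvKAbs`).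
-/

set_option autoImplicit false

noncomputable section

namespace Fermat.Agent.S36.LemmaRK0

open ModularCurve AlgebraicCurve Fermat.Agent.S24 Fermat.Agent.S18 Fermat.Agent.S18.Content
  Fermat.Agent.S18.Plan Fermat.Agent.S34 Fermat.Agent.S36.Plan Fermat.Agent.Lib

section Int

variable {n : ℕ} [NeZero n]

/-- An element of `F_n` regular at all finite places (those where `j` is regular) is integral
over `Q̄[j]`. -/
theorem isIntegral_polyJ_of_ord (s : FN n)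
    (hs : ∀ w : Place Kbar (FN n), 0 ≤ w.ord (jBar n) → 0 ≤ w.ord s) :
    IsIntegral (polyJ Kbar) (s : Om) := by
  rw [ConnInst.isIntegral_polyJ_iff]
  have hxt : Transcendental Kbar (jBar n) := FibreCount.transcendental_jBar n
  have hj0 : jBar n ≠ 0 := fun h0 => hxt (h0 ▸ isAlgebraic_zero)
  have := InclPull.finiteDimensional_adjoin n hxt
  have := InclPull.isSeparable_adjoin n hxt
  refine FFPoles.isIntegral_polyRing_of_forall_mem (x := jBar n) (f := s) (fun v hv => ?_)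
  by_cases hs0 : s = 0
  · rw [hs0]
    exact zero_mem _
  · exact (FFPlaces.mem_iff_ord_nonneg v hs0).mpr
      (hs v ((FFPlaces.mem_iff_ord_nonneg v hj0).mp hv))

end Int

variable {M q : ℕ} [NeZero M] [NeZero q] {h : Nat.Coprime M q}

/-- The conclusion of the frame-level Lemma R (`S36/LemmaR.lemmaR`), verbatim. -/
def RStmt (A : ValuationSubring Kbar) (F : Plan.Frame M q h) : Prop :=
  ∃ x r : FN (M * q * q),
    K0Red.Fixed A (x : Om) ∧ K0Red.Fixed A (r : Om) ∧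
    (∀ i, F.emb i x ∈ Ocal A) ∧ (∀ i, F.emb i r ∈ Ocal A) ∧
    (∀ w : Place Kbar (FN (M * q * q)), 0 ≤ w.ord (jBar (M * q * q)) → 0 ≤ w.ord x) ∧
    (∀ w : Place Kbar (FN (M * q * q)), 0 ≤ w.ord (jBar (M * q * q)) → 0 ≤ w.ord r) ∧
    (∀ (ξ : MidIdx q) (hx : F.emb (.mid ξ) x ∈ Ocal A), red A ⟨_, hx⟩ = 0) ∧
    (∃ u ∈ S34.Plan.BK A M, ∃ v ∈ S34.Plan.BK A M, u * v = 1 ∧
      ∀ (ξ : MidIdx q) (hr : F.emb (.mid ξ) r ∈ Ocal A), red A ⟨_, hr⟩ = u) ∧
    ∀ f : FN (M * q * q), K0Red.Fixed A (f : Om) → (∀ i, F.emb i f ∈ Ocal A) →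
      (∀ (ξ : MidIdx q) (hf : F.emb (.mid ξ) f ∈ Ocal A), red A ⟨_, hf⟩ = 0) →
      ∃ y : FN (M * q * q), r * f = x * y ∧ K0Red.Fixed A (y : Om) ∧ (∀ i, F.emb i y ∈ Ocal A) ∧
        ∀ w : Place Kbar (FN (M * q * q)), 0 ≤ w.ord (jBar (M * q * q)) → w.ord f ≤ w.ord y

variable {A : ValuationSubring Kbar} {F : Plan.Frame M q h}
variable {O : Subring Om} {ρ : O →+* Plan.Rq A q}

/-- **[LEMMA-R-K0]** Lemma R in `K0Plan` vocabulary: the local equation `x₂` of the middle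
component, up to the unit `r₂`. -/
theorem exists_mid_equation (hq : q.Prime) (hA : A.LiesOverPrime q) (hS : Plan.IsSetup A F O ρ)
    (N' : ℕ) [NeZero N'] (hq' : q ∣ N') (hdiv : N' * q ∣ M * q * q)
    (E : Divisor Kbar (FN (N' * q)))
    (hE : Plan.IsE3 (N' * q) q (Dvd.intro_left N' rfl) (Nat.mul_dvd_mul_right hq' q) E)
    (ξ₀ : Plan.MidIdx q) (hR : RStmt A F) :
    ∃ x₂ ∈ K0Plan.Bp A N' M q O E, ∃ r₂ ∈ K0Plan.Bp A N' M q O E,
      ρ x₂ (Coord.mid ξ₀) = 0 ∧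
      (∃ u ∈ S34.Plan.BK A M, ∃ v ∈ S34.Plan.BK A M, u * v = 1 ∧ ρ r₂ (Coord.mid ξ₀) = u) ∧
      ∀ (D : Divisor Kbar (FN (N' * q))) (f : O), f ∈ K0Plan.Lam A N' M q O E D →
        ρ f (Coord.mid ξ₀) = 0 → ∃ y ∈ K0Plan.Lam A N' M q O E D, r₂ * f = x₂ * y := by
  obtain ⟨x, r, hxF, hrF, hxO, hrO, hxreg, hrreg, hxmid, ⟨u, hu, v, hv, huv, hrmid⟩, hker⟩ := hR
  have hxmem : (x : Om) ∈ O := (hS.mem_iff x).2 hxO
  have hrmem : (r : Om) ∈ O := (hS.mem_iff r).2 hrO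
  have hMid := CondK0.midEqStmt hq hA hS
  refine ⟨⟨(x : Om), hxmem⟩, ?_, ⟨(r : Om), hrmem⟩, ?_, ?_, ⟨u, hu, v, hv, huv, ?_⟩, ?_⟩
  · exact (BpInt.mem_Bp_iff_of_setup hq' hS hdiv hE _).2 ⟨hxF, isIntegral_polyJ_of_ord x hxreg⟩
  · exact (BpInt.mem_Bp_iff_of_setup hq' hS hdiv hE _).2 ⟨hrF, isIntegral_polyJ_of_ord r hrreg⟩
  · rw [hS.ρ_apply x hxmem (Coord.mid ξ₀) (hxO _)]
    exact hxmid ξ₀ (hxO _)
  · rw [hS.ρ_apply r hrmem (Coord.mid ξ₀) (hrO _)]
    exact hrmid ξ₀ (hrO _)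
  · intro D f hf hf0
    obtain ⟨hfF, kf, hfR⟩ := hf
    by_cases hfz : f = 0
    · refine ⟨0, ⟨fun τ _ => map_zero _, 0, Submodule.zero_mem _⟩, ?_⟩
      rw [hfz, mul_zero, mul_zero]
    · have hxf0 : SetupQ2.IsSetup.toField hS f ≠ 0 := by
        intro h0
        apply hfz
        apply Subtype.ext
        exact congrArg (fun y : FN (M * q * q) => (y : Om)) h0
      have hfmid : ∀ (ξ : MidIdx q)
          (hf' : F.emb (.mid ξ) (SetupQ2.IsSetup.toField hS f) ∈ Ocal A), red A ⟨_, hf'⟩ = 0 := by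
        intro ξ hf'
        have h1 : ρ f (Coord.mid ξ) = 0 := (hMid f hfF ξ ξ₀).trans hf0
        rw [SetupQ2.IsSetup.rho_coe hS f (Coord.mid ξ)] at h1
        exact h1
      obtain ⟨y, hy, hyF, hyO, hyord⟩ := hker (SetupQ2.IsSetup.toField hS f) hfF
        (fun i => SetupQ2.IsSetup.emb_mem hS f i) hfmid
      have hymem : (y : Om) ∈ O := (hS.mem_iff y).2 hyO
      refine ⟨⟨(y : Om), hymem⟩, ⟨hyF, ?_⟩, ?_⟩
      · by_cases hy0 : y = 0
        · refine ⟨0, ?_⟩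
          show ((y : FN (M * q * q)) : Om) ∈ pullRR (N' * q) (M * q * q) (D + 0 • E)
          rw [hy0]
          exact Submodule.zero_mem _
        · have hreg : ∀ w : Place Kbar (FN (M * q * q)), 0 ≤ w.ord (jBar (M * q * q)) →
              0 ≤ w.ord (y * (SetupQ2.IsSetup.toField hS f)⁻¹) := by
            intro w hw
            rw [w.ord_mul hy0 (inv_ne_zero hxf0), w.ord_inv]
            have := hyord w hw
            omega
          have hint := isIntegral_polyJ_of_ord _ hreg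
          obtain ⟨m, hm⟩ := BpInt.exists_mem_pullRR_of_isIntegral (N₂ := M * q * q) hE
            (y * (SetupQ2.IsSetup.toField hS f)⁻¹).2 hint
          refine ⟨kf + m, ?_⟩
          have e : ((y : FN (M * q * q)) : Om) =
              (f : Om) * ((y * (SetupQ2.IsSetup.toField hS f)⁻¹ : FN (M * q * q)) : Om) := by
            have e1 : y = SetupQ2.IsSetup.toField hS f *
                (y * (SetupQ2.IsSetup.toField hS f)⁻¹) := by
              field_simp
            exact congrArg (fun t : FN (M * q * q) => (t : Om)) e1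
          show ((y : FN (M * q * q)) : Om) ∈ pullRR (N' * q) (M * q * q) (D + (kf + m) • E)
          rw [e]
          refine Main.pullRR_mono (fun P => ?_) (GalPull.mul_mem_pullRR_add hfR hm)
          simp only [Finsupp.add_apply, Finsupp.smul_apply, nsmul_eq_mul]
          push_cast
          apply le_of_eq
          ring
      · apply Subtype.ext
        exact congrArg (fun t : FN (M * q * q) => (t : Om)) hy

/-- **[LEMMA-R-K0]**, unit form: the middle reduction of `r₂` is a unit of `B_κ`. -/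
theorem exists_mid_equation_unit (hq : q.Prime) (hA : A.LiesOverPrime q)
    (hS : Plan.IsSetup A F O ρ) (N' : ℕ) [NeZero N'] (hq' : q ∣ N') (hdiv : N' * q ∣ M * q * q)
    (E : Divisor Kbar (FN (N' * q)))
    (hE : Plan.IsE3 (N' * q) q (Dvd.intro_left N' rfl) (Nat.mul_dvd_mul_right hq' q) E)
    (ξ₀ : Plan.MidIdx q) (hR : RStmt A F) :
    ∃ x₂ ∈ K0Plan.Bp A N' M q O E, ∃ r₂ ∈ K0Plan.Bp A N' M q O E,
      ρ x₂ (Coord.mid ξ₀) = 0 ∧
      (∃ u : (↥(K0Plan.BKM A M))ˣ, ρ r₂ (Coord.mid ξ₀) = ((u : ↥(K0Plan.BKM A M)) : Omk A)) ∧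
      ∀ (D : Divisor Kbar (FN (N' * q))) (f : O), f ∈ K0Plan.Lam A N' M q O E D →
        ρ f (Coord.mid ξ₀) = 0 → ∃ y ∈ K0Plan.Lam A N' M q O E D, r₂ * f = x₂ * y := by
  obtain ⟨x₂, hx₂, r₂, hr₂, h0, ⟨u, hu, v, hv, huv, hru⟩, hker⟩ :=
    exists_mid_equation hq hA hS N' hq' hdiv E hE ξ₀ hR
  refine ⟨x₂, hx₂, r₂, hr₂, h0, ⟨⟨⟨u, hu⟩, ⟨v, hv⟩, Subtype.ext huv, Subtype.ext ?_⟩, hru⟩, hker⟩
  show v * u = 1
  rw [mul_comm]
  exact huv

/-- The middle reduction of `r₂` vanishes at no point of `B_κ`. -/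
theorem point_ne_zero_of_unit {R : Type*} [CommRing R] [Nontrivial R]
    (u : (↥(K0Plan.BKM A M))ˣ) (z : ↥(K0Plan.BKM A M) →+* R) :
    z (u : ↥(K0Plan.BKM A M)) ≠ 0 :=
  (u.isUnit.map z).ne_zero

end Fermat.Agent.S36.LemmaRK0

end
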