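import Mathlib
import Fermat.Agent.S36.LiftAllOf3
import Fermat.Agent.S36.DimFinal
import Fermat.Agent.S36.InclFinal
import Fermat.Agent.S36.CuspFamAll

/-!
# S36 / P8 — [LIFT-ALL]: `Plan.LiftAllStmt`, unconditional (helper77)

The second input of `S36/Assemble.b2Stmt_of_all` / `S36/Final.result_of_all`:
for every level datum (`q` prime, `N₀` prime to `q`, `N' = N₀ q`, `M = aux q · N₀`), every place
`A` over `q`, every frame and every setup `(O, ρ)`: ONE section `g₀ ∈ L(D + c E) ∩ O` with nonzero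
reductions and `ρ(w) ρ(g₀)ⁿ = 1` (`div w = n D`, `q ∤ n`) gives `L(π^* D) ≠ 0` at the top level.

`liftAllStmt = LiftAllOf3.liftAllStmt_of3` at
* [DIM]  `DimFinal.dimAllStmt`   (helper5 `DimAbs`, helper49 `DimFam`, helper39 `FamQ2`, helper23);
* [INCL] `InclFinal.intAllStmt`  (helper23);
* [CR]   `CuspFamAll.famAllStmt` (helper60 `CuspZW`/`CuspFam`, helper86 `CuspRegAll`);
with [CONN] `ConnInst.connAllStmt` (helper28), [RED]/[INV] `SetupQ2` (helper17), [PHI] `PhiQ2`
(helper59), [PHI-DIV] `PhiDiv` (helper50), Riemann `RiemannE3` (helper76) and the lifting core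
`LiftGen`/`LiftTw`/`TwistLift`/`LiftOne` inside.
-/

set_option autoImplicit false

noncomputable section

namespace Fermat.Agent.S36.LiftAll

open Fermat.Agent.S36

/-- **[LIFT-ALL]** `Plan.LiftAllStmt`, with no hypothesis. -/
theorem liftAllStmt : Plan.LiftAllStmt :=
  LiftAllOf3.liftAllStmt_of3 DimFinal.dimAllStmt InclFinal.intAllStmt CuspFamAll.famAllStmt

end Fermat.Agent.S36.LiftAll

end
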