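import Mathlib
import Fermat.Agent.S36.Plan
import Fermat.Agent.S36.LiftTw
import Fermat.Agent.S36.TwistLift

/-!
# S36 / P8 — [LIFT-INST]: the lifting step in `Plan` vocabulary (owner: helper91)

* `liftTwStmt_of`        : `Plan.LiftTwStmt` from the frame-level contracts `Plan.RedStmt`,
                           `DimStmt`, `PhiDivStmt`, `PhiStmt`, `InclStmt`, `CuspRegStmt`, `ConnStmt`
                           (one application of helper77's `LiftTw.exists_mem_pullRR_tw`);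
* `twist_graded_of_le`   : the hypothesis of `Plan.LiftTwStmt` ("`M(D)(c) = ξ·B̄(c)` for `c` large")
                           from the UNGRADED inclusion `M(D) ⊆ ξ·B̄`, Riemann's inequality and the
                           power relation `ρ w · ξⁿ = 1` (`TwistGraded.hMD_of_le_of_pow`);
* `exists_mem_pullRR_of_le` : the two combined.
-/

set_option autoImplicit false
set_option linter.unusedSectionVars false

noncomputable section

namespace Fermat.Agent.S36.LiftInst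

open ModularCurve AlgebraicCurve Module Fermat.Agent.S24 Fermat.Agent.S18 Fermat.Agent.S18.Content
  Fermat.Agent.S18.Plan Fermat.Agent.S34 Fermat.Agent.S36.LiftGen Fermat.Agent.S36.Plan

variable {A : ValuationSubring Kbar} {N M q : ℕ} [NeZero N] [NeZero M] [NeZero q]
variable {hq : q ∣ N} {hqq : q * q ∣ N}
variable {O : Subring Om} {ρ : O →+* Rq A q}

/-! ## Translation of the frame contracts into the `LiftGen` shapes -/

/-- The algebra map of `Rq A q` is the diagonal constant. -/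
theorem algebraMap_Rq (κ : kk A) (i : Coord q) :
    (@algebraMap (kk A) (Rq A q) _ _ (algR A q) κ) i = HahnSeries.C κ := rfl

theorem mem_BcG_iff (h : RDG (algR A q) O ρ) (E : Divisor Kbar (FN N)) (c : ℕ) (x : Rq A q) :
    x ∈ BcG (algR A q) h N (M * q * q) E c ↔
      ∃ g : O, (g : Om) ∈ pullRR N (M * q * q) (c • E) ∧ ρ g = x := Iff.rfl

theorem mem_MDG_iff (h : RDG (algR A q) O ρ) (E D : Divisor Kbar (FN N)) (c : ℕ) (x : Rq A q) :
    x ∈ MDG (algR A q) h N (M * q * q) E D c ↔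
      ∃ g : O, (g : Om) ∈ pullRR N (M * q * q) (D + c • E) ∧ ρ g = x := Iff.rfl

/-- `hincl` of `LiftGen` from `Plan.InclStmt`. -/
theorem hincl_of (h : RDG (algR A q) O ρ) (hIncl : InclStmt A N M q hq hqq O ρ)
    (E : Divisor Kbar (FN N)) (hE : IsE3 N q hq hqq E) (c : ℕ) (x : Rq A q)
    (hx : x ∈ BcG (algR A q) h N (M * q * q) E c) (i : Coord q) :
    pr A q i x ∈ WJ (kk A) (Lq A q i) (c * eCoord q i) := by
  obtain ⟨g, hg, rfl⟩ := hx
  exact hIncl E hE c g hg i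

/-- `hCR` of `LiftGen` from `Plan.CuspRegStmt`. -/
theorem hCR_of (h : RDG (algR A q) O ρ) (hCR : CuspRegStmt A N M q hq hqq O ρ)
    (E : Divisor Kbar (FN N)) (hE : IsE3 N q hq hqq E) :
    ∃ c₀ : ℕ, ∀ c : ℕ, c₀ ≤ c → ∀ c' : ℕ, c ≤ c' → ∀ x : Rq A q,
      x ∈ BcG (algR A q) h N (M * q * q) E c' →
        (∀ i, pr A q i x ∈ WJ (kk A) (Lq A q i) (c * eCoord q i)) →
          x ∈ BcG (algR A q) h N (M * q * q) E c := by
  obtain ⟨c₀, hc₀⟩ := hCR E hE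
  refine ⟨c₀, fun c hc c' hcc' x hx hxW => ?_⟩
  obtain ⟨g, hg, rfl⟩ := hx
  obtain ⟨g', hg', hρ⟩ := hc₀ c hc c' hcc' g hg hxW
  exact ⟨g', hg', hρ⟩

/-- `hdiag` of `LiftGen` from `Plan.ConnStmt`. -/
theorem hdiag_of (h : RDG (algR A q) O ρ) (hConn : ConnStmt A N M q hq hqq O ρ)
    (E : Divisor Kbar (FN N)) (hE : IsE3 N q hq hqq E) (c : ℕ) (x : Rq A q)
    (hx : x ∈ BcG (algR A q) h N (M * q * q) E c)
    (hconst : ∀ i, ∃ κ : kk A, pr A q i x = HahnSeries.C κ) :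
    ∃ κ : kk A, x = @algebraMap (kk A) (Rq A q) _ _ (algR A q) κ := by
  obtain ⟨g, hg, rfl⟩ := hx
  obtain ⟨κ, hκ⟩ := hConn E hE c g hg hconst
  exact ⟨κ, funext fun i => (hκ i).trans (algebraMap_Rq κ i).symm⟩

/-- The residue ring `k((T))^(Coord q)` is nontrivial. -/
theorem nontrivial_Rq (A : ValuationSubring Kbar) (q : ℕ) : Nontrivial (Rq A q) :=
  haveI : Nonempty (Coord q) := ⟨Coord.inf⟩
  Function.nontrivial

/-- The coordinates lie in the (trivial) coordinate fields. -/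
theorem hrange_top (y : O) (i : Coord q) : pr A q i (ρ y) ∈ Lq A q i :=
  IntermediateField.mem_top

/-! ## [LIFT-IN] -/

/-- **[LIFT-INST]** `Plan.LiftTwStmt` from the frame-level contracts. -/
theorem liftTwStmt_of [CharP (kk A) q]
    (hle : modularFunctionFieldBar N ≤ modularFunctionFieldBar (M * q * q))
    (hfin : ∀ B : Divisor Kbar (FN N), Module.Finite Kbar (pullRR N (M * q * q) B))
    (hRed : RedStmt A q O ρ) (hDim : DimStmt A M q O ρ) (hPhiDiv : PhiDivStmt N q hq hqq)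
    (hPhi : PhiStmt A N q hq hqq O ρ) (hIncl : InclStmt A N M q hq hqq O ρ)
    (hCR : CuspRegStmt A N M q hq hqq O ρ) (hConn : ConnStmt A N M q hq hqq O ρ) :
    LiftTwStmt A N M q hq hqq O ρ := by
  intro E hE D n hn w hw0 hwD hw ξ hρw hinv hMD
  have : Nontrivial (Rq A q) := nontrivial_Rq A q
  obtain ⟨hE0, hφ0, hφE, hφE'⟩ := hPhiDiv E hE
  obtain ⟨hφO, hφiO, hρφ⟩ := hPhi
  have hnk : ((n : ℕ) : kk A) ≠ 0 := by
    intro h0
    exact hn ((CharP.cast_eq_zero_iff (kk A) q n).1 h0)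
  have hn0 : n ≠ 0 := by
    rintro rfl
    exact hn (dvd_zero q)
  -- `ξ` is cancellable
  have hξcancel : ∀ a b : Rq A q, ξ * a = ξ * b → a = b := by
    intro a b hab
    have hu : ρ ⟨_, hw⟩ * ξ ^ (n - 1) * ξ = 1 := by
      rw [mul_assoc, ← pow_succ, Nat.sub_add_cancel (Nat.pos_of_ne_zero hn0)]
      exact hρw
    calc a = (ρ ⟨_, hw⟩ * ξ ^ (n - 1) * ξ) * a := by rw [hu, one_mul]
      _ = ρ ⟨_, hw⟩ * ξ ^ (n - 1) * (ξ * a) := by ring
      _ = ρ ⟨_, hw⟩ * ξ ^ (n - 1) * (ξ * b) := by rw [hab]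
      _ = (ρ ⟨_, hw⟩ * ξ ^ (n - 1) * ξ) * b := by ring
      _ = b := by rw [hu, one_mul]
  refine LiftTw.exists_mem_pullRR_tw (algR A q) hle hfin hRed hDim E hE0
    (phiQ2 N q hq hqq) hφ0 hφE hφE' hφO hφiO (pr A q) (Lq A q)
    (fun i => IntermediateField.mem_top) (eCoord q) (fun i => hρφ i)
    (fun c x hx i => hincl_of hRed hIncl E hE c x hx i) (hCR_of hRed hCR E hE)
    (fun c x hx hconst => hdiag_of hRed hConn E hE c x hx hconst)
    D n hnk w hw0 hwD hw ξ hρw hinv ?_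
  obtain ⟨c₀, hc₀⟩ := hMD
  refine ⟨c₀, fun c hc x => ⟨fun hx => ?_, fun hx => ?_⟩⟩
  · obtain ⟨g, hg, hρg⟩ := hx
    obtain ⟨g', hg', hρ⟩ := (hc₀ c hc).1 g hg
    refine ⟨g', hg', ?_⟩
    exact hξcancel _ _ (hρ.symm.trans hρg)
  · obtain ⟨g', hg', rfl⟩ := hx
    obtain ⟨g, hg, hρ⟩ := (hc₀ c hc).2 g' hg'
    exact ⟨g, hg, hρ⟩

/-! ## The graded twist statement in `Plan` form -/

/-- **[TWIST-GR], Plan form**: the hypothesis of `Plan.LiftTwStmt` from the ungraded inclusion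
`M(D) ⊆ ξ·B̄`. -/
theorem twist_graded_of_le
    (hle : modularFunctionFieldBar N ≤ modularFunctionFieldBar (M * q * q))
    (hfin : ∀ B : Divisor Kbar (FN N), Module.Finite Kbar (pullRR N (M * q * q) B))
    (hRed : RedStmt A q O ρ) (hDim : DimStmt A M q O ρ) (hPhiDiv : PhiDivStmt N q hq hqq)
    (hIncl : InclStmt A N M q hq hqq O ρ) (hCR : CuspRegStmt A N M q hq hqq O ρ)
    (E : Divisor Kbar (FN N)) (hE : IsE3 N q hq hqq E) (D : Divisor Kbar (FN N))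
    (hRiem : ∃ c₁ : ℕ, ∀ c : ℕ, c₁ ≤ c →
      finrank Kbar (pullRR N (M * q * q) (c • E)) ≤ finrank Kbar (pullRR N (M * q * q) (D + c • E)))
    (n : ℕ) (hn : 0 < n) (w : FN N) (hw0 : w ≠ 0)
    (hwD : ∀ P : Place Kbar (FN N), P.ord w = n * D P) (hw : (w : Om) ∈ O)
    (ξ ξ' : Rq A q) (hξ : ξ * ξ' = 1) (hρw : ρ ⟨_, hw⟩ * ξ ^ n = 1)
    (hleM : ∀ (c : ℕ) (g : O), (g : Om) ∈ pullRR N (M * q * q) (D + c • E) →
      ∃ (c' : ℕ) (g' : O), (g' : Om) ∈ pullRR N (M * q * q) (c' • E) ∧ ρ g = ξ * ρ g') :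
    ∃ c₀ : ℕ, ∀ c : ℕ, c₀ ≤ c →
      (∀ g : O, (g : Om) ∈ pullRR N (M * q * q) (D + c • E) →
        ∃ g' : O, (g' : Om) ∈ pullRR N (M * q * q) (c • E) ∧ ρ g = ξ * ρ g') ∧
      (∀ g' : O, (g' : Om) ∈ pullRR N (M * q * q) (c • E) →
        ∃ g : O, (g : Om) ∈ pullRR N (M * q * q) (D + c • E) ∧ ρ g = ξ * ρ g') := by
  obtain ⟨hE0, -, -, -⟩ := hPhiDiv E hE
  have hξ' : ξ' * ξ = 1 := by rw [mul_comm]; exact hξ
  obtain ⟨c₀, hc₀⟩ := TwistGraded.hMD_of_le_of_pow (algR A q) hle hfin hRed hDim E hE0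
    (pr A q) (Lq A q) (eCoord q) (fun c x hx i => hincl_of hRed hIncl E hE c x hx i)
    (hCR_of hRed hCR E hE) (fun y i => hrange_top y i) D hRiem n hn w hw0 hwD hw ξ ξ' hξ
    (fun i => IntermediateField.mem_top) hρw
    (fun c y hy => by
      obtain ⟨g, hg, rfl⟩ := hy
      obtain ⟨c', g', hg', hρ⟩ := hleM c g hg
      refine ⟨c', g', hg', ?_⟩
      rw [hρ, ← mul_assoc, hξ', one_mul])
  refine ⟨c₀, fun c hc => ⟨fun g hg => ?_, fun g' hg' => ?_⟩⟩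
  · have h1 : ξ * (ξ' * ρ g) ∈ MDG (algR A q) hRed N (M * q * q) E D c := by
      rw [← mul_assoc, hξ, one_mul]
      exact ⟨g, hg, rfl⟩
    obtain ⟨g', hg', hρ⟩ := (hc₀ c hc (ξ' * ρ g)).1 h1
    refine ⟨g', hg', ?_⟩
    rw [hρ, ← mul_assoc, hξ, one_mul]
  · have h1 : ρ g' ∈ BcG (algR A q) hRed N (M * q * q) E c := ⟨g', hg', rfl⟩
    obtain ⟨g, hg, hρ⟩ := (hc₀ c hc (ρ g')).2 h1
    exact ⟨g, hg, hρ⟩

/-- **The lifting step from the ungraded inclusion, Plan form.**  Geometry delivers `w` with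
`div w = nD`, a twist vector `ξ` with `ρ w · ξⁿ = 1` whose lifts are units of `O`, Riemann's
inequality and `M(D) ⊆ ξ·B̄`. -/
theorem exists_mem_pullRR_of_le [CharP (kk A) q]
    (hle : modularFunctionFieldBar N ≤ modularFunctionFieldBar (M * q * q))
    (hfin : ∀ B : Divisor Kbar (FN N), Module.Finite Kbar (pullRR N (M * q * q) B))
    (hRed : RedStmt A q O ρ) (hDim : DimStmt A M q O ρ) (hPhiDiv : PhiDivStmt N q hq hqq)
    (hPhi : PhiStmt A N q hq hqq O ρ) (hIncl : InclStmt A N M q hq hqq O ρ)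
    (hCR : CuspRegStmt A N M q hq hqq O ρ) (hConn : ConnStmt A N M q hq hqq O ρ)
    (E : Divisor Kbar (FN N)) (hE : IsE3 N q hq hqq E) (D : Divisor Kbar (FN N))
    (hRiem : ∃ c₁ : ℕ, ∀ c : ℕ, c₁ ≤ c →
      finrank Kbar (pullRR N (M * q * q) (c • E)) ≤ finrank Kbar (pullRR N (M * q * q) (D + c • E)))
    (n : ℕ) (hn : ¬ q ∣ n) (w : FN N) (hw0 : w ≠ 0)
    (hwD : ∀ P : Place Kbar (FN N), P.ord w = n * D P) (hw : (w : Om) ∈ O)
    (ξ ξ' : Rq A q) (hξ : ξ * ξ' = 1) (hρw : ρ ⟨_, hw⟩ * ξ ^ n = 1)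
    (hinv : ∀ g : O, ρ g = ξ → ((g : Om))⁻¹ ∈ O)
    (hleM : ∀ (c : ℕ) (g : O), (g : Om) ∈ pullRR N (M * q * q) (D + c • E) →
      ∃ (c' : ℕ) (g' : O), (g' : Om) ∈ pullRR N (M * q * q) (c' • E) ∧ ρ g = ξ * ρ g') :
    ∃ g : Om, g ∈ pullRR N (M * q * q) D ∧ g ≠ 0 := by
  have hn0 : 0 < n := by
    rcases Nat.eq_zero_or_pos n with h0 | h0
    · subst h0
      exact absurd (dvd_zero q) hn
    · exact h0
  exact liftTwStmt_of hle hfin hRed hDim hPhiDiv hPhi hIncl hCR hConn E hE D n hn w hw0 hwD hw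
    ξ hρw hinv
    (twist_graded_of_le hle hfin hRed hDim hPhiDiv hIncl hCR E hE D hRiem n hn0 w hw0 hwD hw
      ξ ξ' hξ hρw hleM)

end Fermat.Agent.S36.LiftInst

end
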