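import Mathlib

/-!
# S36 (P8) — local principality at a point where one component is a principal divisor (helper36)

Abstract commutative algebra behind "gap (2)" of the P8 design (rows #2959, #2969, #2977):
if `t` lies in the Jacobson radical of a noetherian ring `R` and `R ⧸ (t)` is a principal ideal
ring, then every prime ideal of `R` not containing `t` is principal; if moreover `R` is a domain
and `R ⧸ (t)` is a domain, then `R` is a unique factorisation domain (Kaplansky's criterion).

In the application `R` is the local ring `O_s` of the model over the inertia field at a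
supersingular point `s`, `t` is a function cutting out the component `C₁` (a modular unit with
Gauss valuations `(1, 0, 0)`), and `R ⧸ (t)` is the local ring of the smooth curve `C₁` at `s`.

Exports (Mathlib only):

* `eq_span_singleton_of_le_sup` : the Nakayama step;
* `isPrincipal_of_not_mem`      : primes not containing `t` are principal;
* `exists_prime_generator`      : the same with a prime generator;
* `ufm_of_quotient_pid`         : `R` is a UFD;
* `submodule_eq_span_singleton` : Nakayama for a finitely generated module `I = R g + t I`;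
* `fg_submodule_isFractionRing_cyclic` : finitely generated submodules of the fraction field of a
  principal ideal domain are cyclic, with a generator inside;
* `cyclic_of_reduction`         : a finitely generated module `I` with a reduction map
  `r : I → Frac (R ⧸ (t))` whose kernel is `t I` is cyclic (the divisorial-module form, row #2982).
-/

set_option autoImplicit false

namespace Fermat.Agent.S36.LocalPrincipal

open Ideal

variable {R : Type*} [CommRing R]

/-- **Nakayama step.** `t` in the Jacobson radical, `Q` a finitely generated ideal which is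
`t`-saturated (`t y ∈ Q → y ∈ Q`), `h ∈ Q` with `Q ≤ (h) + (t)`. Then `Q = (h)`. -/
theorem eq_span_singleton_of_le_sup (t h : R)
    (ht : Ideal.span {t} ≤ (⊥ : Ideal R).jacobson)
    (Q : Ideal R) (hQfg : Q.FG) (hQt : ∀ y, t * y ∈ Q → y ∈ Q) (hh : h ∈ Q)
    (hle : Q ≤ Ideal.span {h} ⊔ Ideal.span {t}) : Q = Ideal.span {h} := by
  apply le_antisymm
  · have h1 : Q ≤ Ideal.span {h} ⊔ Ideal.span {t} • Q := by
      intro x hx
      obtain ⟨a, ha, b, hb, rfl⟩ := Submodule.mem_sup.1 (hle hx)
      obtain ⟨a', rfl⟩ := Ideal.mem_span_singleton'.1 ha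
      obtain ⟨y, rfl⟩ := Ideal.mem_span_singleton'.1 hb
      have hy : y ∈ Q := hQt y (by
        have e : t * y = (a' * h + y * t) - a' * h := by ring
        rw [e]
        exact Q.sub_mem hx (Q.mul_mem_left _ hh))
      refine Submodule.mem_sup.2 ⟨a' * h, ha, y * t, ?_, rfl⟩
      rw [mul_comm, smul_eq_mul]
      exact Ideal.mul_mem_mul (Ideal.mem_span_singleton_self t) hy
    exact Submodule.le_of_le_smul_of_le_jacobson_bot hQfg ht h1
  · rw [Ideal.span_singleton_le_iff_mem]
    exact hh

/-- If `t` is in the Jacobson radical of the noetherian ring `R` and the image of the prime `Q`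
in `R ⧸ (t)` is principal, then `Q` is principal as soon as `t ∉ Q`; the generator may be taken
in `Q`. -/
theorem exists_generator_of_map_isPrincipal [IsNoetherianRing R] (t : R)
    (ht : Ideal.span {t} ≤ (⊥ : Ideal R).jacobson) (Q : Ideal R) [Q.IsPrime] (htQ : t ∉ Q)
    (hprin : (Q.map (Ideal.Quotient.mk (Ideal.span {t}))).IsPrincipal) :
    ∃ h ∈ Q, Q = Ideal.span {h} := by
  obtain ⟨g, hg⟩ := hprin
  have hsurj : Function.Surjective (Ideal.Quotient.mk (Ideal.span {t})) :=
    Ideal.Quotient.mk_surjective
  have hgmem : g ∈ Q.map (Ideal.Quotient.mk (Ideal.span {t})) := by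
    rw [hg]
    exact Submodule.mem_span_singleton_self g
  obtain ⟨h, hhQ, rfl⟩ := (Ideal.mem_map_iff_of_surjective _ hsurj).1 hgmem
  refine ⟨h, hhQ, eq_span_singleton_of_le_sup t h ht Q (IsNoetherian.noetherian Q) ?_ hhQ ?_⟩
  · intro y hy
    exact (‹Q.IsPrime›.mem_or_mem hy).resolve_left htQ
  · intro x hx
    have hx' : Ideal.Quotient.mk (Ideal.span {t}) x ∈
        Q.map (Ideal.Quotient.mk (Ideal.span {t})) := Ideal.mem_map_of_mem _ hx
    rw [hg] at hx'
    obtain ⟨c, hc⟩ := Submodule.mem_span_singleton.1 hx'
    obtain ⟨a, rfl⟩ := hsurj c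
    have hsub : x - a * h ∈ Ideal.span {t} := by
      rw [← Ideal.Quotient.eq]
      rw [← hc, smul_eq_mul, map_mul]
    refine Submodule.mem_sup.2 ⟨a * h, Ideal.mem_span_singleton'.2 ⟨a, rfl⟩, x - a * h, hsub, ?_⟩
    ring

/-- **Primes not containing `t` are principal** when `R ⧸ (t)` is a principal ideal ring. -/
theorem isPrincipal_of_not_mem [IsNoetherianRing R] (t : R)
    (ht : Ideal.span {t} ≤ (⊥ : Ideal R).jacobson)
    [IsPrincipalIdealRing (R ⧸ Ideal.span {t})] (Q : Ideal R) [Q.IsPrime] (htQ : t ∉ Q) :
    ∃ h ∈ Q, Q = Ideal.span {h} :=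
  exists_generator_of_map_isPrincipal t ht Q htQ (IsPrincipalIdealRing.principal _)

/-- The generator of a nonzero principal prime ideal is a prime element. -/
theorem exists_prime_generator [IsNoetherianRing R] [IsDomain R] (t : R)
    (ht : Ideal.span {t} ≤ (⊥ : Ideal R).jacobson)
    [IsPrincipalIdealRing (R ⧸ Ideal.span {t})] (Q : Ideal R) [Q.IsPrime] (hQ0 : Q ≠ ⊥)
    (htQ : t ∉ Q) : ∃ h ∈ Q, Prime h ∧ Q = Ideal.span {h} := by
  obtain ⟨h, hhQ, hQ⟩ := isPrincipal_of_not_mem t ht Q htQ
  refine ⟨h, hhQ, ?_, hQ⟩
  have hh0 : h ≠ 0 := by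
    rintro rfl
    apply hQ0
    rw [hQ]
    simp
  rw [← Ideal.span_singleton_prime hh0, ← hQ]
  infer_instance

/-- **`R` is a UFD**: `R` a noetherian domain, `t ≠ 0` in the Jacobson radical, `R ⧸ (t)` a
principal ideal domain. (Kaplansky: every nonzero prime contains a prime element.) -/
theorem ufm_of_quotient_pid [IsNoetherianRing R] [IsDomain R] (t : R) (ht0 : t ≠ 0)
    (ht : Ideal.span {t} ≤ (⊥ : Ideal R).jacobson)
    [IsPrincipalIdealRing (R ⧸ Ideal.span {t})] [IsDomain (R ⧸ Ideal.span {t})] :
    UniqueFactorizationMonoid R := by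
  rw [UniqueFactorizationMonoid.iff_exists_prime_mem_of_isPrime]
  intro I hI0 hIp
  by_cases htI : t ∈ I
  · refine ⟨t, htI, ?_⟩
    rw [← Ideal.span_singleton_prime ht0]
    exact (Ideal.Quotient.isDomain_iff_prime _).1 inferInstance
  · obtain ⟨h, hhI, hp, -⟩ := exists_prime_generator t ht I hI0 htI
    exact ⟨h, hhI, hp⟩

/-- **Nakayama for a module.** `t` in the Jacobson radical, `I` a finitely generated submodule,
`g ∈ I`, and every `x ∈ I` is `a • g + t • y` with `y ∈ I`. Then `I = R g`. -/
theorem submodule_eq_span_singleton (t : R) (ht : Ideal.span {t} ≤ (⊥ : Ideal R).jacobson)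
    {M : Type*} [AddCommGroup M] [Module R M] (I : Submodule R M) (hfg : I.FG) (g : M)
    (hg : g ∈ I) (h : ∀ x ∈ I, ∃ a : R, ∃ y ∈ I, x = a • g + t • y) :
    I = Submodule.span R {g} := by
  apply le_antisymm
  · have h1 : I ≤ Submodule.span R {g} ⊔ Ideal.span {t} • I := by
      intro x hx
      obtain ⟨a, y, hy, rfl⟩ := h x hx
      exact Submodule.mem_sup.2 ⟨a • g, Submodule.smul_mem _ _ (Submodule.mem_span_singleton_self g),
        t • y, Submodule.smul_mem_smul (Ideal.mem_span_singleton_self t) hy, rfl⟩
    exact Submodule.le_of_le_smul_of_le_jacobson_bot hfg ht h1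
  · rw [Submodule.span_singleton_le_iff_mem]
    exact hg

/-- A finitely generated submodule of the fraction field of a principal ideal domain is cyclic,
with a generator taken inside. -/
theorem fg_submodule_isFractionRing_cyclic {D L : Type*} [CommRing D] [IsDomain D]
    [IsPrincipalIdealRing D] [Field L] [Algebra D L] [IsFractionRing D L]
    (N : Submodule D L) (hN : N.FG) : ∃ g ∈ N, N = Submodule.span D {g} := by
  have hfr : IsFractional (nonZeroDivisors D) N := FractionalIdeal.isFractional_of_fg hN
  have hp : (N : Submodule D L).IsPrincipal :=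
    FractionalIdeal.isPrincipal (K := L) (⟨N, hfr⟩ : FractionalIdeal (nonZeroDivisors D) L)
  obtain ⟨g, hg⟩ := hp
  exact ⟨g, by rw [hg]; exact Submodule.mem_span_singleton_self g, hg⟩

/-- **Divisorial-module form.** `t` in the Jacobson radical of `R`; `D` a principal ideal domain
which is a quotient of `R` (in the application `D = R ⧸ (t)`, the local ring of the smooth
component), `L = Frac D`; `I` a finitely generated `R`-module with an `R`-linear reduction map
`r : I → L` whose kernel is `t I`. Then `I` is cyclic. -/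
theorem cyclic_of_reduction (t : R) (ht : Ideal.span {t} ≤ (⊥ : Ideal R).jacobson)
    {D L : Type*} [CommRing D] [IsDomain D] [IsPrincipalIdealRing D] [Field L] [Algebra D L]
    [IsFractionRing D L] [Algebra R D] [Algebra R L] [IsScalarTower R D L]
    (hsurj : Function.Surjective (algebraMap R D))
    {M : Type*} [AddCommGroup M] [Module R M] (I : Submodule R M) (hfg : I.FG)
    (r : I →ₗ[R] L) (hker : ∀ x : I, r x = 0 → ∃ y : I, x = t • y) :
    ∃ g ∈ I, I = Submodule.span R {g} := by
  -- the image of `r`, as a `D`-submodule of `L`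
  let N : Submodule D L :=
    { carrier := Set.range r
      add_mem' := by
        rintro _ _ ⟨x, rfl⟩ ⟨y, rfl⟩
        exact ⟨x + y, map_add r x y⟩
      zero_mem' := ⟨0, map_zero r⟩
      smul_mem' := by
        rintro c _ ⟨x, rfl⟩
        obtain ⟨a, rfl⟩ := hsurj c
        exact ⟨a • x, by rw [map_smul, algebraMap_smul]⟩ }
  have hNfg : N.FG := by
    classical
    have : Module.Finite R I := Module.Finite.iff_fg.2 hfg
    obtain ⟨s, hs⟩ := (Module.Finite.fg_top : (⊤ : Submodule R I).FG)
    refine ⟨s.image r, ?_⟩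
    apply le_antisymm
    · rw [Submodule.span_le]
      rintro _ hx
      obtain ⟨x, -, rfl⟩ := Finset.mem_image.1 (Finset.mem_coe.1 hx)
      exact ⟨x, rfl⟩
    · rintro _ ⟨x, rfl⟩
      have hx : x ∈ Submodule.span R (s : Set I) := by rw [hs]; trivial
      induction hx using Submodule.span_induction with
      | mem y hy =>
        exact Submodule.subset_span (Finset.mem_coe.2 (Finset.mem_image_of_mem r hy))
      | zero => rw [map_zero]; exact Submodule.zero_mem _
      | add y z _ _ hy hz => rw [map_add]; exact Submodule.add_mem _ hy hz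
      | smul a y _ hy =>
        rw [map_smul, ← algebraMap_smul D a (r y)]
        exact Submodule.smul_mem _ _ hy
  obtain ⟨g, hgN, hN⟩ := fg_submodule_isFractionRing_cyclic N hNfg
  obtain ⟨g0, rfl⟩ : ∃ g0 : I, r g0 = g := hgN
  refine ⟨(g0 : M), g0.2, ?_⟩
  refine submodule_eq_span_singleton t ht I hfg (g0 : M) g0.2 ?_
  intro x hx
  have hxN : r ⟨x, hx⟩ ∈ N := ⟨⟨x, hx⟩, rfl⟩
  rw [hN] at hxN
  obtain ⟨c, hc⟩ := Submodule.mem_span_singleton.1 hxN
  obtain ⟨a, rfl⟩ := hsurj c
  have h0 : r (⟨x, hx⟩ - a • g0) = 0 := by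
    rw [map_sub, map_smul, ← hc, algebraMap_smul, sub_self]
  obtain ⟨y, hy⟩ := hker _ h0
  refine ⟨a, (y : M), y.2, ?_⟩
  have hy' : x - a • (g0 : M) = t • (y : M) := by
    have := congrArg (Subtype.val) hy
    simpa using this
  rw [← hy']
  abel

end Fermat.Agent.S36.LocalPrincipal
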