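/-
P8 / S36 leaf [NORM-RED], frame part (helper16).

The two norms `N_α`, `N_β : F_{N' q} → F_{N'}` (`q ∣ N' ∣ M q`, so both have degree `q`) in the
coordinates of the level-`q²` frame `F : Plan.Frame M q h` of `F_{M q²} ⊇ F_{N' q}`.

* `inc1`, `inc2`         : the inclusions `F_{N'} ⊆ F_{Mq}`, `F_{N' q} ⊆ F_{M q²}`;
* `emb F hN i`           : the `q + 1` expansions restricted to `F_{N' q}`;
* `sig h hN`             : `k ↦ σ k` (`0`-expansion of the level-`q` pair) on `F_{N'}`;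
* `emb_*_alpha/beta`     : the coordinates of `α k`, `β k`;
* `coe_norm_alpha`       : `N_α y = y_∞ · ∏_ξ y_ξ`;
* `sig_norm_beta`        : `σ (N_β y) = y_0 · ∏_ξ (y_{ξ⁻¹})(ξ T)`;
* `qExpand_sig_norm_alpha` : `(σ N_α y)(T^q) = ∏_{b<q} y_0(ζ^b T)`;
* `red_norm_alpha`, `red_sig_norm_beta`, `red_sig_norm_alpha` : the reductions.
-/
import Mathlib
import Fermat.Agent.S36.Plan
import Fermat.Agent.S36.FrameFinal
import Fermat.Agent.S36.EmbFrame
import Fermat.Agent.S36.PullRed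
import Fermat.Agent.S36.NormProd
import Fermat.Agent.S36.NormQ2
import Fermat.Agent.S36.DegNCDeg
import Fermat.Agent.S36.CoordFin
import Fermat.Agent.S18.RR0.Tower

set_option autoImplicit false
set_option linter.style.haveILetI false
set_option synthInstance.maxHeartbeats 400000
set_option maxHeartbeats 1600000

noncomputable section

namespace Fermat.Agent.S36.NormRedFrame

open ModularCurve AlgebraicCurve Fermat.Agent.S24 Fermat.Agent.S18 Fermat.Agent.S18.Content
  Fermat.Agent.S18.Plan Fermat.Agent.S34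
open Fermat.Agent.Lib.KroneckerCong Fermat.Agent.S37.Conj

variable {M q : ℕ} [NeZero M] [NeZero q] {h : Nat.Coprime M q}
variable {N' : ℕ} [NeZero N']

/-! ## The inclusions -/

/-- `F_{N'} ⊆ F_{Mq}`. -/
def inc1 (hN : N' ∣ M * q) : FN N' →ₐ[Kbar] FN (M * q) :=
  IntermediateField.inclusion (Fermat.Agent.S18.RR0.modularFunctionFieldBar_le hN)

/-- `F_{N' q} ⊆ F_{M q²}`. -/
def inc2 (hN : N' ∣ M * q) : FN (N' * q) →ₐ[Kbar] FN (M * q * q) :=
  IntermediateField.inclusion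
    (Fermat.Agent.S18.RR0.modularFunctionFieldBar_le (Nat.mul_dvd_mul_right hN q))

theorem coe_inc1 (hN : N' ∣ M * q) (x : FN N') :
    ((inc1 hN x : FN (M * q)) : Om) = (x : Om) := IntermediateField.coe_inclusion _ x

theorem coe_inc2 (hN : N' ∣ M * q) (x : FN (N' * q)) :
    ((inc2 hN x : FN (M * q * q)) : Om) = (x : Om) := IntermediateField.coe_inclusion _ x

theorem inc2_alpha (hN : N' ∣ M * q) (x : FN N') :
    inc2 hN (heckeAlphaBar Kbar N' q x) = heckeAlphaBar Kbar (M * q) q (inc1 hN x) := by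
  apply Subtype.ext
  rw [coe_inc2, coe_heckeAlphaBar, coe_heckeAlphaBar, coe_inc1]

theorem inc2_beta (hN : N' ∣ M * q) (x : FN N') :
    inc2 hN (heckeBetaBar Kbar N' q x) = heckeBetaBar Kbar (M * q) q (inc1 hN x) := by
  apply Subtype.ext
  rw [coe_inc2, coe_heckeBetaBar, coe_heckeBetaBar, coe_inc1]

/-! ## The coordinates -/

/-- The `q + 1` expansions of the frame, restricted to `F_{N' q}`. -/
def emb (F : Plan.Frame M q h) (hN : N' ∣ M * q) (i : Plan.Coord q) : FN (N' * q) →+* Om :=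
  ((F.emb i : FN (M * q * q) →ₐ[Kbar] Om) : FN (M * q * q) →+* Om).comp
    ((inc2 hN : FN (N' * q) →ₐ[Kbar] FN (M * q * q)) : FN (N' * q) →+* FN (M * q * q))

theorem emb_apply (F : Plan.Frame M q h) (hN : N' ∣ M * q) (i : Plan.Coord q)
    (y : FN (N' * q)) : emb F hN i y = F.emb i (inc2 hN y) := rfl

theorem emb_inf (F : Plan.Frame M q h) (hN : N' ∣ M * q) (y : FN (N' * q)) :
    emb F hN .inf y = (y : Om) := by
  rw [emb_apply]
  exact coe_inc2 hN y

theorem emb_algebraMap (F : Plan.Frame M q h) (hN : N' ∣ M * q) (i : Plan.Coord q) (c : Kbar) :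
    emb F hN i (algebraMap Kbar (FN (N' * q)) c) = HahnSeries.C c := by
  rw [emb_apply, AlgHom.commutes, AlgHom.commutes]
  exact algebraMap_LS_eq_C Kbar c

/-- The `0`-expansion of the level-`q` pair, restricted to `F_{N'}`: `k ↦ σ k`. -/
def sig (h : Nat.Coprime M q) (hN : N' ∣ M * q) : FN N' →+* Om :=
  (algebraMap (FN (M * q)) Om).comp
    (((Sigma.sigma M q h : FN (M * q) ≃ₐ[Kbar] FN (M * q)).toAlgHom.toRingHom).comp
      ((inc1 hN : FN N' →ₐ[Kbar] FN (M * q)) : FN N' →+* FN (M * q)))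

theorem sig_apply (hN : N' ∣ M * q) (k : FN N') :
    sig h hN k = ((Sigma.sigma M q h (inc1 hN k) : FN (M * q)) : Om) := rfl

theorem sig_algebraMap (hN : N' ∣ M * q) (c : Kbar) :
    sig h hN (algebraMap Kbar (FN N') c) = HahnSeries.C c := by
  rw [sig_apply, AlgHom.commutes, AlgEquiv.commutes]
  exact Fermat.Agent.S34.Val.coe_algebraMap_FN (M * q) c

theorem emb_inf_alpha (F : Plan.Frame M q h) (hN : N' ∣ M * q) (k : FN N') :
    emb F hN .inf (heckeAlphaBar Kbar N' q k) = (k : Om) := by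
  rw [emb_inf, coe_heckeAlphaBar]

theorem emb_zero_alpha (F : Plan.Frame M q h) (hN : N' ∣ M * q) (k : FN N') :
    emb F hN .zero (heckeAlphaBar Kbar N' q k) = qExpand Kbar q (sig h hN k) := by
  rw [emb_apply, inc2_alpha, EmbFrame.emb_zero_alpha, sig_apply]

theorem emb_mid_alpha (F : Plan.Frame M q h) (hN : N' ∣ M * q) (ξ : Plan.MidIdx q) (k : FN N') :
    emb F hN (.mid ξ) (heckeAlphaBar Kbar N' q k) = (k : Om) := by
  rw [emb_apply, inc2_alpha, EmbFrame.emb_mid_alpha, coe_inc1]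

theorem emb_inf_beta (F : Plan.Frame M q h) (hN : N' ∣ M * q) (k : FN N') :
    emb F hN .inf (heckeBetaBar Kbar N' q k) = qExpand Kbar q (k : Om) := by
  rw [emb_inf, coe_heckeBetaBar]

theorem emb_zero_beta (F : Plan.Frame M q h) (hN : N' ∣ M * q) (k : FN N') :
    emb F hN .zero (heckeBetaBar Kbar N' q k) = sig h hN k := by
  rw [emb_apply, inc2_beta, EmbFrame.emb_zero_beta, sig_apply]

theorem emb_mid_beta (hq : q.Prime) (F : Plan.Frame M q h) (hN : N' ∣ M * q)
    (ξ : Plan.MidIdx q) (k : FN N') :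
    emb F hN (.mid ξ) (heckeBetaBar Kbar N' q k) =
      Fermat.Agent.S28.scale ξ.1 (sig h hN k) := by
  rw [emb_apply, inc2_beta, EmbFrame.emb_mid_beta hq, sig_apply]

/-- `y ↦ r_ξ (w y)`: the conjugates of the `0`-expansion over `β F_{N'}`. -/
def embW (F : Plan.Frame M q h) (hN : N' ∣ M * q) (ξ : Plan.MidIdx q) : FN (N' * q) →+* Om :=
  ((F.r ξ : FN (M * q * q) →ₐ[Kbar] Om) : FN (M * q * q) →+* Om).comp
    (((F.w : FN (M * q * q) ≃ₐ[Kbar] FN (M * q * q)).toAlgHom.toRingHom).comp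
      ((inc2 hN : FN (N' * q) →ₐ[Kbar] FN (M * q * q)) : FN (N' * q) →+* FN (M * q * q)))

theorem embW_apply (F : Plan.Frame M q h) (hN : N' ∣ M * q) (ξ : Plan.MidIdx q)
    (y : FN (N' * q)) : embW F hN ξ y = F.r ξ (F.w (inc2 hN y)) := rfl

/-- `r_ξ (w y) = (r_{ξ⁻¹} y)(ξ T)`. -/
theorem embW_eq (hq : q.Prime) (F : Plan.Frame M q h) (hN : N' ∣ M * q) (ξ : Plan.MidIdx q)
    (y : FN (N' * q)) :
    embW F hN ξ y =
      Fermat.Agent.S28.scale ξ.1 (emb F hN (.mid (FrameFinal.invMid ξ)) y) := by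
  rw [embW_apply, emb_apply]
  exact FrameFinal.emb_mid_w hq F ξ (inc2 hN y)

theorem embW_beta (F : Plan.Frame M q h) (hN : N' ∣ M * q) (ξ : Plan.MidIdx q) (k : FN N') :
    embW F hN ξ (heckeBetaBar Kbar N' q k) = sig h hN k := by
  rw [embW_apply, inc2_beta, F.w_beta, F.r_alpha, sig_apply]

/-! ## Test elements -/

theorem inc2_jBar (hN : N' ∣ M * q) : inc2 hN (jBar (N' * q)) = jBar (M * q * q) := by
  apply Subtype.ext
  rw [coe_inc2, Emb.coe_jBar', Emb.coe_jBar']

theorem inc2_jQQ (hN : N' ∣ M * q) (hqq : q * q ∣ N' * q) :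
    inc2 hN (jBarLevel (N' * q) (q * q) hqq) = Emb.jQQ M q := by
  apply Subtype.ext
  rw [coe_inc2, Emb.coe_jBarLevel, Emb.coe_jQQ]

theorem emb_inf_jQQ (F : Plan.Frame M q h) (hN : N' ∣ M * q) (hqq : q * q ∣ N' * q) :
    emb F hN .inf (jBarLevel (N' * q) (q * q) hqq) = qExpand Kbar (q * q) (jqModC Kbar) := by
  rw [emb_apply, inc2_jQQ]
  exact EmbFrame.emb_inf_jQQ F

theorem emb_mid_jQQ (F : Plan.Frame M q h) (hN : N' ∣ M * q) (hqq : q * q ∣ N' * q)
    (ξ : Plan.MidIdx q) :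
    emb F hN (.mid ξ) (jBarLevel (N' * q) (q * q) hqq) =
      Fermat.Agent.S28.scale ξ.1 (jqModC Kbar) := by
  rw [emb_apply, inc2_jQQ]
  exact EmbFrame.emb_mid_jQQ F ξ

theorem emb_zero_jQQ (hq : q.Prime) (F : Plan.Frame M q h) (hN : N' ∣ M * q)
    (hqq : q * q ∣ N' * q) :
    emb F hN .zero (jBarLevel (N' * q) (q * q) hqq) = jqModC Kbar := by
  rw [emb_apply, inc2_jQQ]
  exact EmbFrame.emb_zero_jQQ hq F

theorem emb_zero_jBar (hq : q.Prime) (F : Plan.Frame M q h) (hN : N' ∣ M * q) :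
    emb F hN .zero (jBar (N' * q)) = qExpand Kbar (q * q) (jqModC Kbar) := by
  rw [emb_apply, inc2_jBar]
  exact EmbFrame.emb_zero_jBar hq F

theorem embW_jBar (hq : q.Prime) (F : Plan.Frame M q h) (hN : N' ∣ M * q) (ξ : Plan.MidIdx q) :
    embW F hN ξ (jBar (N' * q)) = Fermat.Agent.S28.scale ξ.1 (jqModC Kbar) := by
  rw [embW_apply, inc2_jBar, EmbFrame.w_jBar hq F]
  exact EmbFrame.emb_mid_jQQ F ξ

/-- A family indexed by `Option (MidIdx q)` taking the values `j(T^{q²})`, `j(ξ T)` on one test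
element is injective. -/
theorem option_fam_injective (hq : q.Prime) {R : Type*} [Semiring R]
    (f : Option (Plan.MidIdx q) → (R →+* Om)) (t : R)
    (h0 : f none t = qExpand Kbar (q * q) (jqModC Kbar))
    (h1 : ∀ ξ : Plan.MidIdx q, f (some ξ) t = Fermat.Agent.S28.scale ξ.1 (jqModC Kbar)) :
    Function.Injective f := by
  have hnone : (f none t).coeff (-1) = 0 := by
    rw [h0]
    apply qExpand_coeff_of_not_dvd
    intro hd
    have h' : (q * q : ℕ) ∣ 1 := by
      have := (dvd_neg (α := ℤ)).mp hd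
      exact_mod_cast this
    have h2 := Nat.le_of_dvd one_pos h'
    have h3 := hq.two_le
    nlinarith
  have hsome : ∀ ξ : Plan.MidIdx q,
      (f (some ξ) t).coeff (-1) = (((ξ.1 : Kbarˣ) ^ (-1 : ℤ) : Kbarˣ) : Kbar) := by
    intro ξ
    rw [h1, Fermat.Agent.S28.scale_coeff, coeff_jqModC_neg_one, mul_one]
  intro i i' hii
  have hval : (f i t).coeff (-1) = (f i' t).coeff (-1) := by rw [hii]
  cases i with
  | none =>
      cases i' with
      | none => rfl
      | some ξ =>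
          exfalso
          rw [hnone, hsome] at hval
          exact Units.ne_zero _ hval.symm
  | some ξ =>
      cases i' with
      | none =>
          exfalso
          rw [hnone, hsome] at hval
          exact Units.ne_zero _ hval
      | some ξ' =>
          rw [hsome, hsome] at hval
          have h2 : (ξ.1 : Kbarˣ) ^ (-1 : ℤ) = (ξ'.1 : Kbarˣ) ^ (-1 : ℤ) := Units.ext hval
          rw [zpow_neg_one, zpow_neg_one] at h2
          exact congrArg some (Subtype.ext (inv_injective h2))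

/-! ## The three families of conjugates -/

/-- The conjugates of the `∞`-expansion over `α F_{N'}`. -/
def famA (F : Plan.Frame M q h) (hN : N' ∣ M * q) :
    Option (Plan.MidIdx q) → (FN (N' * q) →+* Om)
  | none => emb F hN .inf
  | some ξ => emb F hN (.mid ξ)

/-- The conjugates of the `0`-expansion over `β F_{N'}`. -/
def famB (F : Plan.Frame M q h) (hN : N' ∣ M * q) :
    Option (Plan.MidIdx q) → (FN (N' * q) →+* Om)
  | none => emb F hN .zero
  | some ξ => embW F hN ξ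

/-- The conjugates of the `0`-expansion over `α F_{N'}`. -/
def famZ (F : Plan.Frame M q h) (hN : N' ∣ M * q) (ζ : Kbarˣ) : Fin q → (FN (N' * q) →+* Om) :=
  fun b => (Fermat.Agent.S28.scale (ζ ^ (b : ℕ))).comp (emb F hN .zero)

theorem famA_injective (hq : q.Prime) (F : Plan.Frame M q h) (hN : N' ∣ M * q) (hq' : q ∣ N') :
    Function.Injective (famA F hN) :=
  option_fam_injective hq _ (jBarLevel (N' * q) (q * q) (Nat.mul_dvd_mul_right hq' q))
    (emb_inf_jQQ F hN _) (fun ξ => emb_mid_jQQ F hN _ ξ)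

theorem famB_injective (hq : q.Prime) (F : Plan.Frame M q h) (hN : N' ∣ M * q) :
    Function.Injective (famB F hN) :=
  option_fam_injective hq _ (jBar (N' * q)) (emb_zero_jBar hq F hN)
    (fun ξ => embW_jBar hq F hN ξ)

theorem famZ_injective (hq : q.Prime) (F : Plan.Frame M q h) (hN : N' ∣ M * q) (hq' : q ∣ N')
    (ζ : Kbarˣ) (hζ : IsPrimitiveRoot ζ q) : Function.Injective (famZ F hN ζ) := by
  intro b b' hbb
  have hval := RingHom.congr_fun hbb
    (jBarLevel (N' * q) (q * q) (Nat.mul_dvd_mul_right hq' q))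
  change Fermat.Agent.S28.scale (ζ ^ (b : ℕ)) (emb F hN .zero _) =
    Fermat.Agent.S28.scale (ζ ^ (b' : ℕ)) (emb F hN .zero _) at hval
  rw [emb_zero_jQQ hq F hN] at hval
  have hb := Fermat.Agent.S28.Prime.scale_pow_jq_injOn hζ
    (Finset.mem_coe.mpr (Finset.mem_range.mpr b.2))
    (Finset.mem_coe.mpr (Finset.mem_range.mpr b'.2)) hval
  exact Fin.ext hb

theorem card_option_mid (hq : q.Prime) [Fintype (Plan.MidIdx q)] :
    Fintype.card (Option (Plan.MidIdx q)) = q := by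
  rw [Fintype.card_option, CoordFin.fintype_card_midIdx hq]
  have := hq.two_le
  omega

/-! ## The product formulas -/

/-- **`N_α y = y_∞ · ∏_ξ y_ξ`.** -/
theorem coe_norm_alpha [Fintype (Plan.MidIdx q)] (hq : q.Prime) (F : Plan.Frame M q h)
    (hN : N' ∣ M * q) (hq' : q ∣ N') (y : FN (N' * q)) :
    ((@Algebra.norm (FN N') (FN (N' * q)) _ _
        (algebraAlong (heckeAlphaBar Kbar N' q)) y : FN N') : Om) =
      emb F hN .inf y * ∏ ξ : Plan.MidIdx q, emb F hN (.mid ξ) y := by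
  have hfr := DegNCDeg.finrankAlong_alpha_of_dvd N' q hq hq'
  have key := NormQ2.coe_norm_alpha (N := N') (q := q) hfr (famA F hN)
    (fun i x => by
      cases i with
      | none => exact emb_inf_alpha F hN x
      | some ξ => exact emb_mid_alpha F hN ξ x)
    (famA_injective hq F hN hq') (card_option_mid hq) y
  rw [key, Fintype.prod_option]
  rfl

/-- **`σ (N_β y) = y_0 · ∏_ξ r_ξ (w y)`.** -/
theorem sig_norm_beta [Fintype (Plan.MidIdx q)] (hq : q.Prime) (F : Plan.Frame M q h)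
    (hN : N' ∣ M * q) (hq' : q ∣ N') (y : FN (N' * q)) :
    sig h hN (@Algebra.norm (FN N') (FN (N' * q)) _ _
        (algebraAlong (heckeBetaBar Kbar N' q)) y) =
      emb F hN .zero y * ∏ ξ : Plan.MidIdx q, embW F hN ξ y := by
  have hfr := DegNCDeg.finrankAlong_beta_of_dvd q hq N' hq'
  letI : Algebra (FN N') (FN (N' * q)) := algebraAlong (heckeBetaBar Kbar N' q)
  have h1 : Module.finrank (FN N') (FN (N' * q)) = q := hfr
  have : Module.Finite (FN N') (FN (N' * q)) :=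
    Module.finite_of_finrank_pos (by rw [h1]; exact hq.pos)
  have hcard : Fintype.card (Option (Plan.MidIdx q)) =
      Module.finrank (FN N') (FN (N' * q)) := by rw [card_option_mid hq, h1]
  have key := map_norm_eq_prod_of_card (K := FN N') (L := FN (N' * q)) (Ω := Om)
    (sig h hN) (famB F hN)
    (fun i x => by
      cases i with
      | none => exact emb_zero_beta F hN x
      | some ξ => exact embW_beta F hN ξ x)
    (famB_injective hq F hN) hcard y
  rw [key, Fintype.prod_option]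
  rfl

/-- **`(σ (N_α y))(T^q) = ∏_{b<q} y_0(ζ^b T)`.** -/
theorem qExpand_sig_norm_alpha (hq : q.Prime) (F : Plan.Frame M q h)
    (hN : N' ∣ M * q) (hq' : q ∣ N') (ζ : Kbarˣ) (hζ : IsPrimitiveRoot ζ q)
    (y : FN (N' * q)) :
    qExpand Kbar q (sig h hN (@Algebra.norm (FN N') (FN (N' * q)) _ _
        (algebraAlong (heckeAlphaBar Kbar N' q)) y)) =
      ∏ b ∈ Finset.range q, Fermat.Agent.S28.scale (ζ ^ b) (emb F hN .zero y) := by
  have hfr := DegNCDeg.finrankAlong_alpha_of_dvd N' q hq hq'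
  letI : Algebra (FN N') (FN (N' * q)) := algebraAlong (heckeAlphaBar Kbar N' q)
  have h1 : Module.finrank (FN N') (FN (N' * q)) = q := hfr
  have : Module.Finite (FN N') (FN (N' * q)) :=
    Module.finite_of_finrank_pos (by rw [h1]; exact hq.pos)
  have hcard : Fintype.card (Fin q) = Module.finrank (FN N') (FN (N' * q)) := by
    rw [Fintype.card_fin, h1]
  have key := map_norm_eq_prod_of_card (K := FN N') (L := FN (N' * q)) (Ω := Om)
    ((qExpand Kbar q).comp (sig h hN)) (famZ F hN ζ)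
    (fun b x => by
      show Fermat.Agent.S28.scale (ζ ^ (b : ℕ))
          (emb F hN .zero (heckeAlphaBar Kbar N' q x)) = qExpand Kbar q (sig h hN x)
      rw [emb_zero_alpha]
      refine Fermat.Agent.S28.scale_eq_self_of_mem_range_expand (ζ ^ (b : ℕ)) (NeZero.ne q) ?_ ?_
      · rw [← pow_mul, mul_comm, pow_mul, hζ.pow_eq_one, one_pow]
      · rw [Fermat.Agent.S28.expand_eq_qExpand]
        exact ⟨_, rfl⟩)
    (famZ_injective hq F hN hq' ζ hζ) hcard y
  have key' : qExpand Kbar q (sig h hN (Algebra.norm (FN N') y)) =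
      ∏ b : Fin q, famZ F hN ζ b y := key
  rw [key']
  exact Fin.prod_univ_eq_prod_range
    (fun b : ℕ => Fermat.Agent.S28.scale (ζ ^ b) (emb F hN .zero y)) q

/-! ## Reductions -/

section Reduction

variable (A : ValuationSubring Kbar)

/-- **Frobenius congruence**: if `g(T^q) = ∏_{b<q} x(ζ^b T)` with `x ∈ Ocal` (`A` over `q`), then
`g ∈ Ocal` and `red g = (red x)^{(q)}` (coefficientwise Frobenius). -/
theorem red_of_qExpand_eq_prod_scale (hq : q.Prime) (hA : A.LiesOverPrime q)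
    (τ : kk A →+* kk A) (hτ : ∀ x, τ x = x ^ q) (ζ : Kbarˣ) (hζ : IsPrimitiveRoot ζ q)
    (x g : Om) (hx : x ∈ Ocal A)
    (hg : qExpand Kbar q g = ∏ b ∈ Finset.range q, Fermat.Agent.S28.scale (ζ ^ b) x) :
    ∃ hn : g ∈ Ocal A, red A ⟨g, hn⟩ = coeffMap τ (red A ⟨x, hx⟩) := by
  have : Fact q.Prime := ⟨hq⟩
  have : CharP (kk A) q := charP_residueField_of_liesOverPrime A q hA
  have hτF : τ = frobenius (kk A) q := RingHom.ext fun x => by rw [frobenius_def]; exact hτ x
  obtain ⟨ζA, hζA⟩ := exists_unit_of_pow_eq_one A (NeZero.ne q) hζ.pow_eq_one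
  have hζAq : ζA ^ q = 1 := by
    apply Units.map_injective (f := ((A.subtype : A →+* Kbar) : A →* Kbar)) Subtype.val_injective
    show unitK A (ζA ^ q) = unitK A 1
    rw [map_pow, hζA, hζ.pow_eq_one, map_one]
  set Y : Ocal A := ⟨x, hx⟩ with hY
  have hsc : ∀ b : ℕ, Fermat.Agent.S28.scale (ζ ^ b) x =
      ((twistO A (ζA ^ b) Y : Ocal A) : Om) := by
    intro b
    rw [coe_twistO, map_pow, hζA, Fermat.Agent.S37.KronMain.twist_eq_scale]
  have hredsc : ∀ b : ℕ, red A (twistO A (ζA ^ b) Y) = red A Y := by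
    intro b
    rw [red_twistO, unitk_eq_one_of_pow_eq_one A (ζA ^ b)
      (by rw [← pow_mul, mul_comm, pow_mul, hζAq, one_pow]), twist_one]
  set P : Ocal A := ∏ b ∈ Finset.range q, twistO A (ζA ^ b) Y with hP
  have hPcoe : qExpand Kbar q g = (P : Om) := by
    rw [hg, hP, SubmonoidClass.coe_finsetProd]
    exact Finset.prod_congr rfl fun b _ => hsc b
  have hn : g ∈ Ocal A := mem_Ocal_of_qExpand_mem A q (hPcoe ▸ P.2)
  refine ⟨hn, ?_⟩
  apply qExpand_injective (R := kk A) (N := q)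
  rw [← red_qExpand A q ⟨_, hn⟩, red_congr A hPcoe (qExpand_mem_Ocal A q hn) P.2]
  show red A P = _
  rw [hP, map_prod, Finset.prod_congr rfl (fun b _ => hredsc b),
    Finset.prod_const, Finset.card_range, pow_char_eq, hτF]

/-- **`red (N_α y) = ȳ_∞ · ∏_ξ ȳ_ξ`.** -/
theorem red_norm_alpha [Fintype (Plan.MidIdx q)] (hq : q.Prime) (F : Plan.Frame M q h)
    (hN : N' ∣ M * q) (hq' : q ∣ N') (y : FN (N' * q)) (hy : ∀ i, emb F hN i y ∈ Ocal A) :
    ∃ hn : ((@Algebra.norm (FN N') (FN (N' * q)) _ _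
        (algebraAlong (heckeAlphaBar Kbar N' q)) y : FN N') : Om) ∈ Ocal A,
      red A ⟨_, hn⟩ = red A ⟨_, hy .inf⟩ * ∏ ξ : Plan.MidIdx q, red A ⟨_, hy (.mid ξ)⟩ := by
  have key := coe_norm_alpha hq F hN hq' y
  set P : Ocal A := ⟨_, hy .inf⟩ * ∏ ξ : Plan.MidIdx q, (⟨_, hy (.mid ξ)⟩ : Ocal A) with hP
  have hPcoe : ((@Algebra.norm (FN N') (FN (N' * q)) _ _
        (algebraAlong (heckeAlphaBar Kbar N' q)) y : FN N') : Om) = (P : Om) := by
    rw [key, hP, Subring.coe_mul, SubmonoidClass.coe_finsetProd]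
  have hn : ((@Algebra.norm (FN N') (FN (N' * q)) _ _
        (algebraAlong (heckeAlphaBar Kbar N' q)) y : FN N') : Om) ∈ Ocal A := hPcoe ▸ P.2
  refine ⟨hn, ?_⟩
  rw [red_congr A hPcoe hn P.2, hP, map_mul, map_prod]

/-- `ξ ↦ ξ⁻¹` on the middle indices, as a permutation. -/
def invPerm (q : ℕ) : Equiv.Perm (Plan.MidIdx q) :=
  Function.Involutive.toPerm FrameFinal.invMid (fun _ => Subtype.ext (inv_inv _))

/-- **`red (σ (N_β y)) = ȳ_0 · ∏_ξ ȳ_ξ`.** -/
theorem red_sig_norm_beta [Fintype (Plan.MidIdx q)] (hq : q.Prime) (hA : A.LiesOverPrime q)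
    (F : Plan.Frame M q h) (hN : N' ∣ M * q) (hq' : q ∣ N') (y : FN (N' * q))
    (hy : ∀ i, emb F hN i y ∈ Ocal A) :
    ∃ hn : sig h hN (@Algebra.norm (FN N') (FN (N' * q)) _ _
        (algebraAlong (heckeBetaBar Kbar N' q)) y) ∈ Ocal A,
      red A ⟨_, hn⟩ = red A ⟨_, hy .zero⟩ * ∏ ξ : Plan.MidIdx q, red A ⟨_, hy (.mid ξ)⟩ := by
  have key := sig_norm_beta hq F hN hq' y
  have hξ : ∀ ξ : Plan.MidIdx q, ((ξ.1 : Kbarˣ) : Kbar) - 1 ∈ A.nonunits := by
    intro ξ
    rw [ValuationSubring.mem_nonunits_iff]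
    exact InertiaFieldZeta.val_zeta_sub_one_lt_one A q hq hA _
      (IsPrimitiveRoot.coe_units_iff.2 ξ.2)
  have hW : ∀ ξ : Plan.MidIdx q, ∃ hw : embW F hN ξ y ∈ Ocal A,
      red A ⟨_, hw⟩ = red A ⟨_, hy (.mid (FrameFinal.invMid ξ))⟩ := by
    intro ξ
    have e := embW_eq hq F hN ξ y
    have hm := PullRed.scale_mem_Ocal A ξ.1 (hξ ξ) (hy (.mid (FrameFinal.invMid ξ)))
    have hw : embW F hN ξ y ∈ Ocal A := e ▸ hm
    refine ⟨hw, ?_⟩
    rw [red_congr A e hw hm]
    exact PullRed.red_scale A ξ.1 (hξ ξ) (hy (.mid (FrameFinal.invMid ξ)))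
  choose hw hwred using hW
  set P : Ocal A := ⟨_, hy .zero⟩ * ∏ ξ : Plan.MidIdx q, (⟨_, hw ξ⟩ : Ocal A) with hP
  have hPcoe : sig h hN (@Algebra.norm (FN N') (FN (N' * q)) _ _
        (algebraAlong (heckeBetaBar Kbar N' q)) y) = (P : Om) := by
    rw [key, hP, Subring.coe_mul, SubmonoidClass.coe_finsetProd]
  have hn : sig h hN (@Algebra.norm (FN N') (FN (N' * q)) _ _
        (algebraAlong (heckeBetaBar Kbar N' q)) y) ∈ Ocal A := hPcoe ▸ P.2
  refine ⟨hn, ?_⟩
  rw [red_congr A hPcoe hn P.2, hP, map_mul, map_prod]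
  congr 1
  rw [Finset.prod_congr rfl (fun ξ _ => hwred ξ)]
  exact Equiv.prod_comp (invPerm q) (fun ξ => red A ⟨_, hy (.mid ξ)⟩)

/-- **`red (σ (N_α y)) = (ȳ_0)^{(q)}`** (coefficientwise Frobenius). -/
theorem red_sig_norm_alpha (hq : q.Prime) (hA : A.LiesOverPrime q)
    (τ : kk A →+* kk A) (hτ : ∀ x, τ x = x ^ q)
    (F : Plan.Frame M q h) (hN : N' ∣ M * q) (hq' : q ∣ N') (y : FN (N' * q))
    (hy0 : emb F hN .zero y ∈ Ocal A) :
    ∃ hn : sig h hN (@Algebra.norm (FN N') (FN (N' * q)) _ _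
        (algebraAlong (heckeAlphaBar Kbar N' q)) y) ∈ Ocal A,
      red A ⟨_, hn⟩ = coeffMap τ (red A ⟨_, hy0⟩) := by
  obtain ⟨ζ, hζ⟩ := Fermat.Agent.S37.KronMain.exists_primitiveRoot_unit q
  exact red_of_qExpand_eq_prod_scale A hq hA τ hτ ζ hζ _ _ hy0
    (qExpand_sig_norm_alpha hq F hN hq' ζ hζ y)

/-- **`red (N_β y) = (ȳ_∞)^{(q)}`** (`NormProd.red_norm_beta_of_degree` at the level `N'`). -/
theorem red_norm_beta (hq : q.Prime) (hA : A.LiesOverPrime q)
    (τ : kk A →+* kk A) (hτ : ∀ x, τ x = x ^ q) (hq' : q ∣ N') (y : FN (N' * q))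
    (hy : (y : Om) ∈ Ocal A) :
    ∃ hn : ((@Algebra.norm (FN N') (FN (N' * q)) _ _
        (algebraAlong (heckeBetaBar Kbar N' q)) y : FN N') : Om) ∈ Ocal A,
      red A ⟨_, hn⟩ = coeffMap τ (red A ⟨(y : Om), hy⟩) :=
  NormProd.red_norm_beta_of_degree N' q A hq hA
    (DegNCDeg.finrankAlong_beta_of_dvd q hq N' hq') τ hτ y hy

end Reduction

end Fermat.Agent.S36.NormRedFrame

end
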