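/-
P8 / S36 leaf [NORM-RED] (helper16): normalising the reduction of an inertia-fixed Kummer unit.

Input: an inertia-stable degree-`0` divisor `D` on `F_{N' q}` (`q ∣ N' ∣ M q`) with `α_* D`,
`β_* D` principal and an inertia-fixed Kummer function `u` (`div u = n • D`) which is a unit at
every coordinate of the level-`q²` frame.  Output: `D' ~ q²(q-1) • D`, again inertia-stable, with
an inertia-fixed Kummer function `u'` whose reduction is a nonzero CONSTANT at every coordinate.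

Everything happens at the level `N' q`, with the two norms `N_α`, `N_β : F_{N' q} → F_{N'}`
(`S36/NormRedFrame`), no Frobenius element and no `n`-th roots in characteristic `q`:

* `u₁ := u^q / β (N_β u)` has `ρ_∞ (u₁) = 1`;
* `N_α u₁ = e · a^n` with `a` inertia-fixed and `q`-scaled (`S36/K0Red`), whence
  `ē · ā_∞^n = ρ_mid(u₁)^{q-1}` and `ē · ā_0(T^q)^n = ρ_0(u₁)^q`;
* `h'` interpolates `(1, ā_0(T^q)^{q-1}, ā_∞^q)` (one-component elements, hypothesis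
  `OneCompStmt`), and `u' := u₁^{q(q-1)} / h'^n` has `ρ (u') = (1, ē^{q-1}, ē^q)`.
-/
import Mathlib
import Fermat.Agent.S36.NormRedFrame
import Fermat.Agent.S36.B2Plan
import Fermat.Agent.S36.MidEq
import Fermat.Agent.S36.K0Red
import Fermat.Agent.S36.SetupQ2
import Fermat.Agent.S35.FrobGal
import Fermat.Agent.S35.NormPush

set_option autoImplicit false
set_option linter.style.haveILetI false
set_option linter.unusedSectionVars false
set_option synthInstance.maxHeartbeats 400000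
set_option maxHeartbeats 1600000

noncomputable section

namespace Fermat.Agent.S36.NormRed

open ModularCurve AlgebraicCurve Fermat.Agent.S24 Fermat.Agent.S18 Fermat.Agent.S18.Content
  Fermat.Agent.S18.Plan Fermat.Agent.S34
open Fermat.Agent.Lib.KroneckerCong Fermat.Agent.S37.Conj Fermat.Agent.S37.HeckeInputs
open Fermat.Agent.S36.NormRedFrame

/-! ## A total reduction map and the units of `Ocal` -/

section Units

variable (A : ValuationSubring Kbar)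

open Classical in
/-- The reduction, extended by `0` outside `Ocal A`. -/
def rd (x : Om) : Omk A := if hx : x ∈ Ocal A then red A ⟨x, hx⟩ else 0

/-- Units of `Ocal A`: integral with nonzero reduction. -/
def IsU (x : Om) : Prop := x ∈ Ocal A ∧ rd A x ≠ 0

variable {A}

theorem rd_eq {x : Om} (hx : x ∈ Ocal A) : rd A x = red A ⟨x, hx⟩ := by
  unfold rd
  exact dif_pos hx

theorem rd_mul {x y : Om} (hx : x ∈ Ocal A) (hy : y ∈ Ocal A) :
    rd A (x * y) = rd A x * rd A y := by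
  rw [rd_eq hx, rd_eq hy, rd_eq ((Ocal A).mul_mem hx hy), ← map_mul]
  rfl

theorem rd_add {x y : Om} (hx : x ∈ Ocal A) (hy : y ∈ Ocal A) :
    rd A (x + y) = rd A x + rd A y := by
  rw [rd_eq hx, rd_eq hy, rd_eq ((Ocal A).add_mem hx hy), ← map_add]
  rfl

theorem rd_one : rd A (1 : Om) = 1 := by
  rw [rd_eq (Ocal A).one_mem]
  exact map_one (red A)

theorem rd_pow {x : Om} (hx : x ∈ Ocal A) (n : ℕ) : rd A (x ^ n) = rd A x ^ n := by
  rw [rd_eq hx, rd_eq ((Ocal A).pow_mem hx n), ← map_pow]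
  rfl

theorem isU_one : IsU A (1 : Om) := ⟨(Ocal A).one_mem, by rw [rd_one]; exact one_ne_zero⟩

theorem IsU.mul {x y : Om} (hx : IsU A x) (hy : IsU A y) : IsU A (x * y) :=
  ⟨(Ocal A).mul_mem hx.1 hy.1, by rw [rd_mul hx.1 hy.1]; exact mul_ne_zero hx.2 hy.2⟩

theorem IsU.pow {x : Om} (hx : IsU A x) (n : ℕ) : IsU A (x ^ n) :=
  ⟨(Ocal A).pow_mem hx.1 n, by rw [rd_pow hx.1]; exact pow_ne_zero n hx.2⟩

theorem IsU.red_ne {x : Om} (hx : IsU A x) : red A ⟨x, hx.1⟩ ≠ 0 := by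
  have h := hx.2
  rwa [rd_eq hx.1] at h

theorem IsU.ne_zero {x : Om} (hx : IsU A x) : x ≠ 0 :=
  ne_zero_of_red_ne_zero A ⟨x, hx.1⟩ hx.red_ne

theorem IsU.inv_mem {x : Om} (hx : IsU A x) : x⁻¹ ∈ Ocal A :=
  inv_mem_Ocal A ⟨x, hx.1⟩ hx.red_ne

theorem IsU.rd_inv {x : Om} (hx : IsU A x) : rd A x⁻¹ = (rd A x)⁻¹ := by
  rw [rd_eq hx.inv_mem, rd_eq hx.1]
  exact red_inv A ⟨x, hx.1⟩ hx.red_ne

theorem IsU.inv {x : Om} (hx : IsU A x) : IsU A x⁻¹ :=
  ⟨hx.inv_mem, by rw [hx.rd_inv]; exact inv_ne_zero hx.2⟩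

/-- `x y` and `y` units ⟹ `x` unit. -/
theorem IsU.of_mul_right {x y : Om} (hxy : IsU A (x * y)) (hy : IsU A y) : IsU A x := by
  have h := hxy.mul hy.inv
  rwa [mul_assoc, mul_inv_cancel₀ hy.ne_zero, mul_one] at h

theorem rd_C {c : Kbar} (hc : c ∈ A) :
    rd A (HahnSeries.C c : Om) = HahnSeries.C (IsLocalRing.residue A ⟨c, hc⟩) := by
  rw [rd_eq (C_mem_Ocal A hc)]
  exact red_C A hc

/-- A constant which is a unit of `Ocal` is a unit of `A`. -/
theorem IsU.of_C {c : Kbar} (hc : IsU A (HahnSeries.C c : Om)) :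
    ∃ hcA : c ∈ A, IsLocalRing.residue A ⟨c, hcA⟩ ≠ 0 := by
  have hcA : c ∈ A := (C_mem_Ocal_iff A c).1 hc.1
  refine ⟨hcA, fun h0 => hc.2 ?_⟩
  rw [rd_C hcA, h0, map_zero]

theorem rd_qExpand (q : ℕ) [NeZero q] {x : Om} (hx : x ∈ Ocal A) :
    rd A (qExpand Kbar q x) = qExpand (kk A) q (rd A x) := by
  rw [rd_eq (qExpand_mem_Ocal A q hx), rd_eq hx]
  exact red_qExpand A q ⟨x, hx⟩

theorem IsU.qExpand (q : ℕ) [NeZero q] {x : Om} (hx : IsU A x) : IsU A (qExpand Kbar q x) := by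
  refine ⟨qExpand_mem_Ocal A q hx.1, ?_⟩
  rw [rd_qExpand q hx.1]
  intro h0
  apply hx.2
  apply qExpand_injective (R := kk A) (N := q)
  rw [h0, map_zero]

theorem rd_scale (ζ : Kbarˣ) (hζ : (ζ : Kbar) - 1 ∈ A.nonunits) {x : Om} (hx : x ∈ Ocal A) :
    Fermat.Agent.S28.scale ζ x ∈ Ocal A ∧ rd A (Fermat.Agent.S28.scale ζ x) = rd A x := by
  have hm := PullRed.scale_mem_Ocal A ζ hζ hx
  refine ⟨hm, ?_⟩
  rw [rd_eq hm, rd_eq hx]
  exact PullRed.red_scale A ζ hζ hx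

theorem IsU.scale (ζ : Kbarˣ) (hζ : (ζ : Kbar) - 1 ∈ A.nonunits) {x : Om} (hx : IsU A x) :
    IsU A (Fermat.Agent.S28.scale ζ x) := by
  obtain ⟨hm, hr⟩ := rd_scale ζ hζ hx.1
  exact ⟨hm, by rw [hr]; exact hx.2⟩

/-- `q ^ k` is a unit of `A` (over `q`) only for `k = 0`. -/
theorem zpow_eq_zero_of_isU {q : ℕ} (hA : A.LiesOverPrime q) {k : ℤ}
    (hk : IsU A (HahnSeries.C ((q : Kbar) ^ k) : Om)) : k = 0 := by
  obtain ⟨hkA, hres⟩ := hk.of_C
  have hunit : IsUnit (⟨(q : Kbar) ^ k, hkA⟩ : A) := by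
    by_contra hnu
    exact hres ((IsLocalRing.residue_eq_zero_iff _).2 hnu)
  have hv1 : A.valuation ((q : Kbar) ^ k) = 1 := (A.valuation_eq_one_iff ⟨_, hkA⟩).1 hunit
  have hvq : A.valuation (q : Kbar) < 1 := by
    have hA' : ((q : ℕ) : Kbar) ∈ A.nonunits := hA
    rwa [ValuationSubring.mem_nonunits_iff] at hA'
  rw [map_zpow₀] at hv1
  exact (zpow_eq_one_iff_right₀ zero_le hvq.ne).1 hv1

/-- A Frobenius endomorphism of the residue field with `x^q = x^{(q)}(T^q)`. -/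
theorem exists_frob {q : ℕ} [NeZero q] (hq : q.Prime) (hA : A.LiesOverPrime q) :
    ∃ τ : kk A →+* kk A, (∀ x, τ x = x ^ q) ∧
      ∀ x : Omk A, qExpand (kk A) q (coeffMap τ x) = x ^ q := by
  haveI : Fact q.Prime := ⟨hq⟩
  haveI : CharP (kk A) q := charP_residueField_of_liesOverPrime A q hA
  exact ⟨frobenius (kk A) q, fun x => by rw [frobenius_def], fun x => (pow_char_eq q x).symm⟩

end Units

/-! ## The interface `(O, ρ)` on `F_{N' q}` -/

section Setup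

variable {A : ValuationSubring Kbar} {M q : ℕ} [NeZero M] [NeZero q] {h : Nat.Coprime M q}
  {F : Plan.Frame M q h} {O : Subring Om} {ρ : O →+* Plan.Rq A q} {N' : ℕ} [NeZero N']

theorem mem_O_iff (hS : Plan.IsSetup A F O ρ) (hN : N' ∣ M * q) (y : FN (N' * q)) :
    (y : Om) ∈ O ↔ ∀ i, emb F hN i y ∈ Ocal A := by
  rw [← coe_inc2 hN y]
  exact hS.mem_iff (inc2 hN y)

theorem rho_eq_rd (hS : Plan.IsSetup A F O ρ) (hN : N' ∣ M * q) (y : FN (N' * q))
    (hy : (y : Om) ∈ O) (i : Plan.Coord q) : ρ ⟨(y : Om), hy⟩ i = rd A (emb F hN i y) := by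
  have hi := (mem_O_iff hS hN y).1 hy i
  have hy' : ((inc2 hN y : FN (M * q * q)) : Om) ∈ O := by rw [coe_inc2]; exact hy
  have e : (⟨(y : Om), hy⟩ : O) = ⟨((inc2 hN y : FN (M * q * q)) : Om), hy'⟩ :=
    Subtype.ext (coe_inc2 hN y).symm
  rw [rd_eq hi, e]
  exact hS.ρ_apply (inc2 hN y) hy' i hi

end Setup

/-! ## Inertia-fixed functions -/

section Fix

variable (A : ValuationSubring Kbar)

/-- `g ∈ F_N` is fixed by the inertia group of `A`. -/
def IFix (N : ℕ) [NeZero N] (g : FN N) : Prop :=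
  ∀ τ : Kbar ≃ₐ[ℚ] Kbar, τ ∈ A.inertiaSubgroupIn ℚ → S34.Plan.gal N τ • g = g

variable {A}

theorem ifix_iff_fixed {N : ℕ} [NeZero N] (g : FN N) : IFix A N g ↔ K0Red.Fixed A (g : Om) :=
  ⟨fun hg τ hτ => congrArg Subtype.val (hg τ hτ), fun hg τ hτ => Subtype.ext (hg τ hτ)⟩

theorem IFix.mul {N : ℕ} [NeZero N] {x y : FN N} (hx : IFix A N x) (hy : IFix A N y) :
    IFix A N (x * y) := fun τ hτ => by rw [smul_mul', hx τ hτ, hy τ hτ]

theorem IFix.add {N : ℕ} [NeZero N] {x y : FN N} (hx : IFix A N x) (hy : IFix A N y) :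
    IFix A N (x + y) := fun τ hτ => by rw [smul_add, hx τ hτ, hy τ hτ]

theorem IFix.inv {N : ℕ} [NeZero N] {x : FN N} (hx : IFix A N x) : IFix A N x⁻¹ :=
  fun τ hτ => by rw [smul_inv'', hx τ hτ]

theorem IFix.pow {N : ℕ} [NeZero N] {x : FN N} (hx : IFix A N x) (n : ℕ) : IFix A N (x ^ n) :=
  fun τ hτ => by rw [smul_pow', hx τ hτ]

theorem ifix_const {N : ℕ} [NeZero N] {c : Kbar}
    (hc : ∀ τ ∈ A.inertiaSubgroupIn ℚ, τ c = c) : IFix A N (algebraMap Kbar (FN N) c) := by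
  rw [ifix_iff_fixed, Fermat.Agent.S34.Val.coe_algebraMap_FN]
  exact K0Red.fixed_C hc

variable {N' q : ℕ} [NeZero N'] [NeZero q]

theorem IFix.alpha {k : FN N'} (hk : IFix A N' k) :
    IFix A (N' * q) (heckeAlphaBar Kbar N' q k) := fun τ hτ => by
  have h1 : S34.Plan.gal (N' * q) τ • heckeAlphaBar Kbar N' q k =
      heckeAlphaBar Kbar N' q (S34.Plan.gal N' τ • k) :=
    Fermat.Agent.P5.GalHecke.intertwines_alpha N' q τ k
  rw [h1, hk τ hτ]

theorem IFix.beta {k : FN N'} (hk : IFix A N' k) :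
    IFix A (N' * q) (heckeBetaBar Kbar N' q k) := fun τ hτ => by
  have h1 : S34.Plan.gal (N' * q) τ • heckeBetaBar Kbar N' q k =
      heckeBetaBar Kbar N' q (S34.Plan.gal N' τ • k) :=
    Fermat.Agent.P5.GalHecke.intertwines_beta N' q τ k
  rw [h1, hk τ hτ]

/-- `N_α : F_{N' q} → F_{N'}`. -/
def normA (N' q : ℕ) [NeZero N'] [NeZero q] (y : FN (N' * q)) : FN N' :=
  @Algebra.norm (FN N') (FN (N' * q)) _ _ (algebraAlong (heckeAlphaBar Kbar N' q)) y

/-- `N_β : F_{N' q} → F_{N'}`. -/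
def normB (N' q : ℕ) [NeZero N'] [NeZero q] (y : FN (N' * q)) : FN N' :=
  @Algebra.norm (FN N') (FN (N' * q)) _ _ (algebraAlong (heckeBetaBar Kbar N' q)) y

theorem IFix.normA {y : FN (N' * q)} (hy : IFix A (N' * q) y) : IFix A N' (normA N' q y) :=
  fun τ hτ => by
    have h1 := @Algebra.norm_eq_of_equiv_equiv (FN N') (FN (N' * q)) (FN N') (FN (N' * q)) _ _ _ _
      (algebraAlong (heckeAlphaBar Kbar N' q)) (algebraAlong (heckeAlphaBar Kbar N' q))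
      (SemilinearAut.toRingAut (S34.Plan.gal N' τ))
      (SemilinearAut.toRingAut (S34.Plan.gal (N' * q) τ))
      (RingHom.ext fun x => (Fermat.Agent.P5.GalHecke.intertwines_alpha N' q τ x).symm) y
    have h2 : SemilinearAut.toRingAut (S34.Plan.gal (N' * q) τ) y = y := hy τ hτ
    rw [h2] at h1
    have h3 := congrArg (SemilinearAut.toRingAut (S34.Plan.gal N' τ)) h1
    rw [RingEquiv.apply_symm_apply] at h3
    exact h3

theorem IFix.normB {y : FN (N' * q)} (hy : IFix A (N' * q) y) : IFix A N' (normB N' q y) :=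
  fun τ hτ => by
    have h1 := @Algebra.norm_eq_of_equiv_equiv (FN N') (FN (N' * q)) (FN N') (FN (N' * q)) _ _ _ _
      (algebraAlong (heckeBetaBar Kbar N' q)) (algebraAlong (heckeBetaBar Kbar N' q))
      (SemilinearAut.toRingAut (S34.Plan.gal N' τ))
      (SemilinearAut.toRingAut (S34.Plan.gal (N' * q) τ))
      (RingHom.ext fun x => (Fermat.Agent.P5.GalHecke.intertwines_beta N' q τ x).symm) y
    have h2 : SemilinearAut.toRingAut (S34.Plan.gal (N' * q) τ) y = y := hy τ hτ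
    rw [h2] at h1
    have h3 := congrArg (SemilinearAut.toRingAut (S34.Plan.gal N' τ)) h1
    rw [RingEquiv.apply_symm_apply] at h3
    exact h3

variable {M : ℕ} [NeZero M]

/-- `σ k` is fixed if `k` is. -/
theorem fixed_sig (hq : q.Prime) (h : Nat.Coprime M q) (hN : N' ∣ M * q) {k : FN N'}
    (hk : IFix A N' k) : K0Red.Fixed A (sig h hN k) := by
  intro τ hτ
  have h1 : S34.Plan.gal (M * q) τ • inc1 hN k = inc1 hN k := by
    apply Subtype.ext
    show coeffMap (τ : Kbar →+* Kbar) ((inc1 hN k : FN (M * q)) : Om) = _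
    rw [coe_inc1]
    exact (ifix_iff_fixed k).1 hk τ hτ
  have h2 := Sigma.galois_smul_sigma h hq τ (inc1 hN k)
  rw [h1] at h2
  exact congrArg Subtype.val h2

/-- `y ∈ F_{N' q}` inertia-fixed is inertia-fixed in `F_{M q²}`. -/
theorem ringAut_inc2 (hN : N' ∣ M * q) {y : FN (N' * q)} (hy : IFix A (N' * q) y)
    (τ : Kbar ≃ₐ[ℚ] Kbar) (hτ : τ ∈ A.inertiaSubgroupIn ℚ) :
    arithmeticRingAut (modularFunctionFieldFull (M * q * q)) τ (inc2 hN y) = inc2 hN y := by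
  apply Subtype.ext
  show coeffMap (τ : Kbar →+* Kbar) ((inc2 hN y : FN (M * q * q)) : Om) = _
  rw [coe_inc2]
  exact (ifix_iff_fixed y).1 hy τ hτ

/-- An inertia-fixed function has the same reduction at all middle coordinates. -/
theorem rd_mid_eq (hq : q.Prime) (hA : A.LiesOverPrime q) {h : Nat.Coprime M q}
    (F : Plan.Frame M q h) (hN : N' ∣ M * q) {y : FN (N' * q)} (hy : IFix A (N' * q) y)
    (ξ ξ' : Plan.MidIdx q) (hξ : emb F hN (.mid ξ) y ∈ Ocal A) :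
    rd A (emb F hN (.mid ξ') y) = rd A (emb F hN (.mid ξ) y) := by
  obtain ⟨h', hred⟩ := MidEq.red_mid_eq A hq hA ξ.2 ξ'.2 (FrameInst.isMid F ξ)
    (FrameInst.isMid F ξ') (inc2 hN y) (fun τ hτ => ringAut_inc2 hN hy τ hτ) hξ
  have h'' : emb F hN (.mid ξ') y ∈ Ocal A := h'
  rw [rd_eq h'', rd_eq hξ]
  exact hred

end Fix

/-! ## Divisors of functions -/

section Div

variable {N : ℕ} [NeZero N]

theorem exists_div (f : FN N) (hf : f ≠ 0) :
    ∃ Df : Divisor Kbar (FN N), (∀ v : Place Kbar (FN N), Df v = v.ord f) ∧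
      Divisor.degree Df = 0 := by
  have := hasPrincipalDivisors_FN N
  exact HasPrincipalDivisors.exists_divisor (K := Kbar) (F := FN N) f hf

theorem smul_div_eq (g : SemilinearAut Kbar (FN N)) {f : FN N} {Df : Divisor Kbar (FN N)}
    (hDf : ∀ v : Place Kbar (FN N), Df v = v.ord f) (hg : g • f = f) : g • Df = Df := by
  refine Finsupp.ext fun P => ?_
  have h1 := Fermat.Agent.S35.FrobGal.ord_smul_eq g 1 Df
    (fun P => by rw [Nat.cast_one, one_mul, hDf P]) P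
  rw [hg, Nat.cast_one, one_mul] at h1
  rw [← h1, hDf P]

end Div

/-! ## Norms of Kummer functions, with a prescribed generator -/

section NormGen

/-- If `div f = n • D₀` and `φ_* D₀ = div g`, then `N_φ f = c · g ^ n` with `c ≠ 0`. -/
theorem norm_eq_const_mul_pow_gen {K F F' : Type*} [Field K] [Field F] [Field F'] [Algebra K F]
    [Algebra K F'] [IsAlgClosed K] [CharZero K] [IsFF1 K F]
    (φ : F →ₐ[K] F') (hφ : φ.toRingHom.IsIntegral) (hfin : FiniteAlong K φ)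
    (hN : NormFormulaAlong K φ hfin)
    (D₀ : Divisor K F') (n : ℕ) (f : F') (hf : f ≠ 0)
    (hfD : ∀ P : Place K F', P.ord f = n * D₀ P)
    (g : F) (hg0 : g ≠ 0)
    (hg : ∀ v : Place K F, v.ord g = Divisor.pushforwardAlong φ hφ D₀ v) :
    ∃ c : K, c ≠ 0 ∧
      (@Algebra.norm F F' _ _ (algebraAlong φ) f : F) = algebraMap K F c * g ^ n := by
  letI := algebraAlong φ
  haveI := isScalarTower_along φ
  haveI := isIntegral_along φ hφ
  haveI : Module.Finite F F' := hfin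
  have hNf0 : Algebra.norm F f ≠ 0 := Algebra.norm_ne_zero_iff.mpr hf
  have hpow0 : g ^ n ≠ 0 := pow_ne_zero n hg0
  have h1 : ∀ v : Place K F, Divisor.pushforward F (n • D₀) v = v.ord (Algebra.norm F f) :=
    hN f hf (n • D₀) (fun w => by
      rw [hfD w, Finsupp.smul_apply, nsmul_eq_mul])
  have h2 : ∀ v : Place K F, v.ord (Algebra.norm F f * (g ^ n)⁻¹) = 0 := by
    intro v
    have e1 : Divisor.pushforward F (n • D₀) v = n * v.ord g := by
      rw [map_nsmul, Finsupp.smul_apply, nsmul_eq_mul]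
      congr 1
      exact (hg v).symm
    rw [Place.ord_mul v hNf0 (inv_ne_zero hpow0), Place.ord_inv,
      Fermat.Agent.S35.NormPush.ord_pow', ← h1 v, e1]
    ring
  obtain ⟨c, hc⟩ := Fermat.Agent.P5.Kappa.exists_const_of_ord_eq_zero h2
  refine ⟨c, ?_, ?_⟩
  · rintro rfl
    rw [map_zero] at hc
    exact mul_ne_zero hNf0 (inv_ne_zero hpow0) hc
  · rw [← hc, mul_assoc, inv_mul_cancel₀ hpow0, mul_one]

variable (N' q : ℕ) [NeZero N'] [NeZero q]

theorem normA_gen (D₀ : Divisor Kbar (FN (N' * q))) (n : ℕ) (f : FN (N' * q)) (hf : f ≠ 0)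
    (hfD : ∀ P : Place Kbar (FN (N' * q)), P.ord f = n * D₀ P) (g : FN N') (hg0 : g ≠ 0)
    (hg : ∀ v : Place Kbar (FN N'), v.ord g =
      Divisor.pushforwardAlong (heckeAlphaBar Kbar N' q) (heckeAlphaBarIntegral N' q) D₀ v) :
    ∃ c : Kbar, c ≠ 0 ∧ normA N' q f = algebraMap Kbar (FN N') c * g ^ n := by
  haveI : IsFF1 Kbar (FN N') := isFF1_FN N'
  exact norm_eq_const_mul_pow_gen (heckeAlphaBar Kbar N' q) (heckeAlphaBarIntegral N' q)
    (finiteAlong_alpha N' q) (normFormulaAlong_alpha N' q) D₀ n f hf hfD g hg0 hg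

theorem normB_gen (D₀ : Divisor Kbar (FN (N' * q))) (n : ℕ) (f : FN (N' * q)) (hf : f ≠ 0)
    (hfD : ∀ P : Place Kbar (FN (N' * q)), P.ord f = n * D₀ P) (g : FN N') (hg0 : g ≠ 0)
    (hg : ∀ v : Place Kbar (FN N'), v.ord g =
      Divisor.pushforwardAlong (heckeBetaBar Kbar N' q) (heckeBetaBarIntegral N' q) D₀ v) :
    ∃ c : Kbar, c ≠ 0 ∧ normB N' q f = algebraMap Kbar (FN N') c * g ^ n := by
  haveI : IsFF1 Kbar (FN N') := isFF1_FN N'
  exact norm_eq_const_mul_pow_gen (heckeBetaBar Kbar N' q) (heckeBetaBarIntegral N' q)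
    (finiteAlong_beta N' q) (normFormulaAlong_beta N' q) D₀ n f hf hfD g hg0 hg

end NormGen

/-! ## The four norm reductions, in `rd` form -/

section Stages

variable {A : ValuationSubring Kbar} {M q : ℕ} [NeZero M] [NeZero q] {h : Nat.Coprime M q}
  {N' : ℕ} [NeZero N']

theorem mid_sub_one_mem (hq : q.Prime) (hA : A.LiesOverPrime q) (ξ : Plan.MidIdx q) :
    ((ξ.1 : Kbarˣ) : Kbar) - 1 ∈ A.nonunits := by
  rw [ValuationSubring.mem_nonunits_iff]
  exact InertiaFieldZeta.val_zeta_sub_one_lt_one A q hq hA _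
    (IsPrimitiveRoot.coe_units_iff.2 ξ.2)

/-- `N_β y` at `∞`: `(N_β y)‾(T^q) = ȳ_∞^q`. -/
theorem normB_inf (hq : q.Prime) (hA : A.LiesOverPrime q) (hq' : q ∣ N') (y : FN (N' * q))
    (hy : (y : Om) ∈ Ocal A) :
    ((normB N' q y : FN N') : Om) ∈ Ocal A ∧
      qExpand (kk A) q (rd A ((normB N' q y : FN N') : Om)) = rd A (y : Om) ^ q := by
  obtain ⟨τ, hτ, hτq⟩ := exists_frob hq hA
  obtain ⟨hn, hred⟩ := red_norm_beta A hq hA τ hτ hq' y hy
  have hn' : ((normB N' q y : FN N') : Om) ∈ Ocal A := hn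
  refine ⟨hn', ?_⟩
  rw [rd_eq hn', rd_eq hy, ← hτq]
  exact congrArg _ hred

/-- `N_β y` at `0`: `(σ N_β y)‾ = ȳ_0 · ∏_ξ ȳ_ξ`. -/
theorem normB_zero [Fintype (Plan.MidIdx q)] (hq : q.Prime) (hA : A.LiesOverPrime q)
    (F : Plan.Frame M q h) (hN : N' ∣ M * q) (hq' : q ∣ N') (y : FN (N' * q))
    (hy : ∀ i, emb F hN i y ∈ Ocal A) :
    sig h hN (normB N' q y) ∈ Ocal A ∧
      rd A (sig h hN (normB N' q y)) =
        rd A (emb F hN .zero y) * ∏ ξ : Plan.MidIdx q, rd A (emb F hN (.mid ξ) y) := by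
  obtain ⟨hn, hred⟩ := red_sig_norm_beta A hq hA F hN hq' y hy
  have hn' : sig h hN (normB N' q y) ∈ Ocal A := hn
  refine ⟨hn', ?_⟩
  rw [rd_eq hn', rd_eq (hy .zero), Finset.prod_congr rfl (fun ξ _ => rd_eq (hy (.mid ξ)))]
  exact hred

/-- `N_α y` at `∞`: `(N_α y)‾ = ȳ_∞ · ∏_ξ ȳ_ξ`. -/
theorem normA_inf [Fintype (Plan.MidIdx q)] (hq : q.Prime)
    (F : Plan.Frame M q h) (hN : N' ∣ M * q) (hq' : q ∣ N') (y : FN (N' * q))
    (hy : ∀ i, emb F hN i y ∈ Ocal A) :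
    ((normA N' q y : FN N') : Om) ∈ Ocal A ∧
      rd A ((normA N' q y : FN N') : Om) =
        rd A (emb F hN .inf y) * ∏ ξ : Plan.MidIdx q, rd A (emb F hN (.mid ξ) y) := by
  obtain ⟨hn, hred⟩ := red_norm_alpha A hq F hN hq' y hy
  have hn' : ((normA N' q y : FN N') : Om) ∈ Ocal A := hn
  refine ⟨hn', ?_⟩
  rw [rd_eq hn', rd_eq (hy .inf), Finset.prod_congr rfl (fun ξ _ => rd_eq (hy (.mid ξ)))]
  exact hred

/-- `N_α y` at `0`: `(σ N_α y)‾(T^q) = ȳ_0^q`. -/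
theorem normA_zero (hq : q.Prime) (hA : A.LiesOverPrime q)
    (F : Plan.Frame M q h) (hN : N' ∣ M * q) (hq' : q ∣ N') (y : FN (N' * q))
    (hy0 : emb F hN .zero y ∈ Ocal A) :
    sig h hN (normA N' q y) ∈ Ocal A ∧
      qExpand (kk A) q (rd A (sig h hN (normA N' q y))) = rd A (emb F hN .zero y) ^ q := by
  obtain ⟨τ, hτ, hτq⟩ := exists_frob hq hA
  obtain ⟨hn, hred⟩ := red_sig_norm_alpha A hq hA τ hτ F hN hq' y hy0
  have hn' : sig h hN (normA N' q y) ∈ Ocal A := hn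
  refine ⟨hn', ?_⟩
  rw [rd_eq hn', rd_eq hy0, ← hτq]
  exact congrArg _ hred

/-- A nonzero `q`-th power of the form `g(T^q)`: `g ≠ 0`. -/
theorem ne_zero_of_qExpand_eq_pow {g x : Omk A} (hx : x ≠ 0)
    (hg : qExpand (kk A) q g = x ^ q) : g ≠ 0 := by
  rintro rfl
  rw [map_zero] at hg
  exact pow_ne_zero q hx hg.symm

/-- The coordinates of `β k` for a unit pair `(k, σ k)`. -/
theorem isU_emb_beta (hq : q.Prime) (hA : A.LiesOverPrime q) (F : Plan.Frame M q h)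
    (hN : N' ∣ M * q) {k : FN N'} (h1 : IsU A (k : Om)) (h2 : IsU A (sig h hN k))
    (i : Plan.Coord q) : IsU A (emb F hN i (heckeBetaBar Kbar N' q k)) := by
  cases i with
  | inf => rw [emb_inf_beta]; exact h1.qExpand q
  | zero => rw [emb_zero_beta]; exact h2
  | mid ξ => rw [emb_mid_beta hq]; exact h2.scale ξ.1 (mid_sub_one_mem hq hA ξ)

/-- The coordinates of `α k` for a unit pair `(k, σ k)`. -/
theorem isU_emb_alpha (F : Plan.Frame M q h) (hN : N' ∣ M * q) {k : FN N'}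
    (h1 : IsU A (k : Om)) (h2 : IsU A (sig h hN k)) (i : Plan.Coord q) :
    IsU A (emb F hN i (heckeAlphaBar Kbar N' q k)) := by
  cases i with
  | inf => rw [emb_inf_alpha]; exact h1
  | zero => rw [emb_zero_alpha]; exact h2.qExpand q
  | mid ξ => rw [emb_mid_alpha]; exact h1

/-- **Stage 1.** `u₁ := u^q / β (N_β u)` is a unit at every coordinate, with `ρ_∞ (u₁) = 1`. -/
theorem stage1 [Fintype (Plan.MidIdx q)] (hq : q.Prime) (hA : A.LiesOverPrime q)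
    (F : Plan.Frame M q h) (hN : N' ∣ M * q) (hq' : q ∣ N') (u : FN (N' * q))
    (hU : ∀ i, IsU A (emb F hN i u)) :
    (∀ i, IsU A (emb F hN i (u ^ q * (heckeBetaBar Kbar N' q (normB N' q u))⁻¹))) ∧
      rd A (emb F hN .inf (u ^ q * (heckeBetaBar Kbar N' q (normB N' q u))⁻¹)) = 1 := by
  have hUinf : IsU A (u : Om) := by rw [← emb_inf F hN u]; exact hU .inf
  obtain ⟨hn1, hred1⟩ := normB_inf hq hA hq' u hUinf.1
  obtain ⟨hn2, hred2⟩ := normB_zero hq hA F hN hq' u (fun i => (hU i).1)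
  have hU1 : IsU A ((normB N' q u : FN N') : Om) :=
    ⟨hn1, ne_zero_of_qExpand_eq_pow hUinf.2 hred1⟩
  have hU2 : IsU A (sig h hN (normB N' q u)) := by
    refine ⟨hn2, ?_⟩
    rw [hred2]
    exact mul_ne_zero (hU .zero).2 (Finset.prod_ne_zero_iff.2 fun ξ _ => (hU (.mid ξ)).2)
  have hUβ : ∀ i, IsU A (emb F hN i (heckeBetaBar Kbar N' q (normB N' q u))) :=
    isU_emb_beta hq hA F hN hU1 hU2
  have hcoord : ∀ i, emb F hN i (u ^ q * (heckeBetaBar Kbar N' q (normB N' q u))⁻¹) =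
      emb F hN i u ^ q * (emb F hN i (heckeBetaBar Kbar N' q (normB N' q u)))⁻¹ := by
    intro i
    rw [map_mul, map_pow, map_inv₀]
  refine ⟨fun i => ?_, ?_⟩
  · rw [hcoord]
    exact ((hU i).pow q).mul (hUβ i).inv
  · rw [hcoord, rd_mul ((hU .inf).pow q).1 (hUβ .inf).inv.1, (hUβ .inf).rd_inv,
      rd_pow (hU .inf).1]
    have e1 : rd A (emb F hN .inf (heckeBetaBar Kbar N' q (normB N' q u))) =
        rd A (emb F hN .inf u) ^ q := by
      rw [emb_inf_beta, rd_qExpand q hn1, hred1, emb_inf]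
    rw [e1]
    exact mul_inv_cancel₀ (pow_ne_zero q (hU .inf).2)

/-- **Stage 2.** If `N_α u₁ = e · a^n` with `a` an inertia-fixed unit at `∞`, then `e` is a unit of
`A`, `σ a` is a unit, and the two norm congruences hold. -/
theorem stage2 [Fintype (Plan.MidIdx q)] (hq : q.Prime) (hA : A.LiesOverPrime q)
    (F : Plan.Frame M q h) (hN : N' ∣ M * q) (hq' : q ∣ N') (u₁ : FN (N' * q))
    (hU : ∀ i, IsU A (emb F hN i u₁))
    (a : FN N') (ha : IFix A N' a) (haU : IsU A (a : Om)) (e : Kbar) (n : ℕ) (hn : 0 < n)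
    (hnorm : normA N' q u₁ = algebraMap Kbar (FN N') e * a ^ n) :
    ∃ heA : e ∈ A, IsLocalRing.residue A ⟨e, heA⟩ ≠ 0 ∧ IsU A (sig h hN a) ∧
      HahnSeries.C (IsLocalRing.residue A ⟨e, heA⟩) * rd A (a : Om) ^ n =
        rd A (emb F hN .inf u₁) * ∏ ξ : Plan.MidIdx q, rd A (emb F hN (.mid ξ) u₁) ∧
      HahnSeries.C (IsLocalRing.residue A ⟨e, heA⟩) * (qExpand (kk A) q (rd A (sig h hN a))) ^ n =
        rd A (emb F hN .zero u₁) ^ q := by
  obtain ⟨hn3, hred3⟩ := normA_inf hq F hN hq' u₁ (fun i => (hU i).1)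
  obtain ⟨hn4, hred4⟩ := normA_zero hq hA F hN hq' u₁ (hU .zero).1
  -- the `∞`-side
  have hc3 : ((normA N' q u₁ : FN N') : Om) = HahnSeries.C e * (a : Om) ^ n := by
    rw [hnorm]
    show ((algebraMap Kbar (FN N') e : FN N') : Om) * ((a : FN N') : Om) ^ n = _
    rw [Fermat.Agent.S34.Val.coe_algebraMap_FN]
  have hUN : IsU A (HahnSeries.C e * (a : Om) ^ n) := by
    rw [← hc3]
    refine ⟨hn3, ?_⟩
    rw [hred3]
    exact mul_ne_zero (hU .inf).2 (Finset.prod_ne_zero_iff.2 fun ξ _ => (hU (.mid ξ)).2)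
  have hUC : IsU A (HahnSeries.C e : Om) := hUN.of_mul_right (haU.pow n)
  obtain ⟨heA, hres⟩ := hUC.of_C
  have rel1 : HahnSeries.C (IsLocalRing.residue A ⟨e, heA⟩) * rd A (a : Om) ^ n =
      rd A (emb F hN .inf u₁) * ∏ ξ : Plan.MidIdx q, rd A (emb F hN (.mid ξ) u₁) := by
    rw [← rd_C heA, ← rd_pow haU.1, ← rd_mul hUC.1 (haU.pow n).1, ← hc3, hred3]
  -- the `0`-side
  have hc4 : sig h hN (normA N' q u₁) = HahnSeries.C e * sig h hN a ^ n := by
    rw [hnorm, map_mul, map_pow, sig_algebraMap]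
  have hU4 : IsU A (HahnSeries.C e * sig h hN a ^ n) := by
    rw [← hc4]
    exact ⟨hn4, ne_zero_of_qExpand_eq_pow (hU .zero).2 hred4⟩
  have hUpow : IsU A (sig h hN a ^ n) := by
    have h5 : IsU A (sig h hN a ^ n * HahnSeries.C e) := by rwa [mul_comm]
    exact h5.of_mul_right hUC
  have hUs : IsU A (sig h hN a) := by
    have hg0 : sig h hN a ≠ 0 := fun h0 => hUpow.ne_zero (by rw [h0, zero_pow hn.ne'])
    obtain ⟨m, hm, hmred⟩ := K0Red.qScale_of_fixed hq hA (M * q) (sig h hN a)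
      (Sigma.sigma M q h (inc1 hN a)).2 hg0 (fixed_sig hq h hN ha)
    have hUm : IsU A (HahnSeries.C ((q : Kbar) ^ m) * sig h hN a) :=
      ⟨hm, by rw [rd_eq hm]; exact hmred⟩
    have h7 : IsU A (HahnSeries.C (((q : Kbar) ^ m) ^ n) * sig h hN a ^ n) := by
      have h6 := hUm.pow n
      rwa [mul_pow, ← map_pow] at h6
    have h8 : IsU A (HahnSeries.C (((q : Kbar) ^ m) ^ n) : Om) := h7.of_mul_right hUpow
    rw [← zpow_natCast, ← zpow_mul] at h8
    have h9 := zpow_eq_zero_of_isU hA h8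
    have hm0 : m = 0 := by
      rcases mul_eq_zero.1 h9 with h' | h'
      · exact h'
      · exact absurd (by exact_mod_cast h') hn.ne'
    rw [hm0, zpow_zero, map_one, one_mul] at hUm
    exact hUm
  refine ⟨heA, hres, hUs, rel1, ?_⟩
  have rel2 : HahnSeries.C (IsLocalRing.residue A ⟨e, heA⟩) * rd A (sig h hN a) ^ n =
      rd A (sig h hN (normA N' q u₁)) := by
    rw [← rd_C heA, ← rd_pow hUs.1, ← rd_mul hUC.1 (hUs.pow n).1, ← hc4]
  have h10 := congrArg (qExpand (kk A) q) rel2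
  rw [map_mul, map_pow, qExpand_C, hred4] at h10
  exact h10

/-- **Interpolation.** The ratio `(z₁ + z₂ X^a + z₃ X^b) / (z₁ + z₂ + z₃)` at one coordinate. -/
theorem interp_ratio (ε : FN (N' * q) →+* Om) {z1 z2 z3 X : FN (N' * q)} (a b : ℕ)
    (h1 : ε z1 ∈ Ocal A) (h2 : ε z2 ∈ Ocal A) (h3 : ε z3 ∈ Ocal A) (hX : ε X ∈ Ocal A)
    (v : Omk A)
    (hnum : rd A (ε z1) + rd A (ε z2) * rd A (ε X) ^ a + rd A (ε z3) * rd A (ε X) ^ b =
      (rd A (ε z1) + rd A (ε z2) + rd A (ε z3)) * v)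
    (hden : rd A (ε z1) + rd A (ε z2) + rd A (ε z3) ≠ 0) (hv : v ≠ 0) :
    IsU A (ε ((z1 + z2 * X ^ a + z3 * X ^ b) * (z1 + z2 + z3)⁻¹)) ∧
      rd A (ε ((z1 + z2 * X ^ a + z3 * X ^ b) * (z1 + z2 + z3)⁻¹)) = v := by
  have hXa : ε X ^ a ∈ Ocal A := (Ocal A).pow_mem hX a
  have hXb : ε X ^ b ∈ Ocal A := (Ocal A).pow_mem hX b
  have hnumO : ε z1 + ε z2 * ε X ^ a + ε z3 * ε X ^ b ∈ Ocal A :=
    (Ocal A).add_mem ((Ocal A).add_mem h1 ((Ocal A).mul_mem h2 hXa)) ((Ocal A).mul_mem h3 hXb)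
  have hnumrd : rd A (ε z1 + ε z2 * ε X ^ a + ε z3 * ε X ^ b) =
      (rd A (ε z1) + rd A (ε z2) + rd A (ε z3)) * v := by
    rw [rd_add ((Ocal A).add_mem h1 ((Ocal A).mul_mem h2 hXa)) ((Ocal A).mul_mem h3 hXb),
      rd_add h1 ((Ocal A).mul_mem h2 hXa), rd_mul h2 hXa, rd_mul h3 hXb, rd_pow hX, rd_pow hX,
      hnum]
  have hdenU : IsU A (ε z1 + ε z2 + ε z3) := by
    refine ⟨(Ocal A).add_mem ((Ocal A).add_mem h1 h2) h3, ?_⟩
    rw [rd_add ((Ocal A).add_mem h1 h2) h3, rd_add h1 h2]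
    exact hden
  have hdenrd : rd A (ε z1 + ε z2 + ε z3) = rd A (ε z1) + rd A (ε z2) + rd A (ε z3) := by
    rw [rd_add ((Ocal A).add_mem h1 h2) h3, rd_add h1 h2]
  have hcoord : ε ((z1 + z2 * X ^ a + z3 * X ^ b) * (z1 + z2 + z3)⁻¹) =
      (ε z1 + ε z2 * ε X ^ a + ε z3 * ε X ^ b) * (ε z1 + ε z2 + ε z3)⁻¹ := by
    simp only [map_mul, map_add, map_pow, map_inv₀]
  have hval : rd A (ε ((z1 + z2 * X ^ a + z3 * X ^ b) * (z1 + z2 + z3)⁻¹)) = v := by
    rw [hcoord, rd_mul hnumO hdenU.inv.1, hdenU.rd_inv, hnumrd, hdenrd, mul_comm, ← mul_assoc,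
      inv_mul_cancel₀ hden, one_mul]
  refine ⟨⟨?_, ?_⟩, hval⟩
  · rw [hcoord]
    exact (Ocal A).mul_mem hnumO hdenU.inv.1
  · rw [hval]
    exact hv

end Stages

/-! ## The contracts and the main theorem -/

section Main

variable (A : ValuationSubring Kbar) (N' q : ℕ) [NeZero N'] [NeZero q]

/-- **[ONE-COMP]** (input; provider `S36/OneComp.exists_oneComp`, helper17): three Galois-fixed
elements of `F_{N' q} ∩ O` whose reductions are supported on exactly one of the three groups of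
coordinates `∞`, `0`, `mid`. -/
def OneCompStmt (O : Subring Om) (ρ : O →+* Plan.Rq A q) : Prop :=
  ∃ z_inf z_zero z_mid : FN (N' * q),
    (∀ τ : Kbar ≃ₐ[ℚ] Kbar, S34.Plan.gal (N' * q) τ • z_inf = z_inf) ∧
    (∀ τ : Kbar ≃ₐ[ℚ] Kbar, S34.Plan.gal (N' * q) τ • z_zero = z_zero) ∧
    (∀ τ : Kbar ≃ₐ[ℚ] Kbar, S34.Plan.gal (N' * q) τ • z_mid = z_mid) ∧
    ∃ (h1 : (z_inf : Om) ∈ O) (h2 : (z_zero : Om) ∈ O) (h3 : (z_mid : Om) ∈ O),
      (ρ ⟨_, h1⟩ .inf ≠ 0 ∧ ρ ⟨_, h1⟩ .zero = 0 ∧ ∀ ξ, ρ ⟨_, h1⟩ (.mid ξ) = 0) ∧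
      (ρ ⟨_, h2⟩ .inf = 0 ∧ ρ ⟨_, h2⟩ .zero ≠ 0 ∧ ∀ ξ, ρ ⟨_, h2⟩ (.mid ξ) = 0) ∧
      (ρ ⟨_, h3⟩ .inf = 0 ∧ ρ ⟨_, h3⟩ .zero = 0 ∧ ∀ ξ, ρ ⟨_, h3⟩ (.mid ξ) ≠ 0)

/-- **[NORM-RED]** with constant `c₂`: an inertia-stable degree-`0` divisor `D` with `α_* D`,
`β_* D` principal and an inertia-fixed Kummer function `u` (`div u = n • D`) that is a unit at
every coordinate can be replaced by `D' ~ c₂ • D`, inertia-stable, with an inertia-fixed Kummer
function `u'` whose reduction is a nonzero constant at every coordinate. -/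
def NormRedStmt (O : Subring Om) (ρ : O →+* Plan.Rq A q) (c₂ : ℕ) : Prop :=
  ∀ (D : Divisor Kbar (FN (N' * q))) (n : ℕ) (u : FN (N' * q)),
    Divisor.degree D = 0 → 0 < n → ¬ q ∣ n → u ≠ 0 →
    (∀ P : Place Kbar (FN (N' * q)), P.ord u = n * D P) →
    Divisor.pushforwardAlong (heckeAlphaBar Kbar N' q) (heckeAlphaBarIntegral N' q) D ∈
      Divisor.principal (K := Kbar) (F := FN N') →
    Divisor.pushforwardAlong (heckeBetaBar Kbar N' q) (heckeBetaBarIntegral N' q) D ∈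
      Divisor.principal (K := Kbar) (F := FN N') →
    (∀ τ : Kbar ≃ₐ[ℚ] Kbar, τ ∈ A.inertiaSubgroupIn ℚ → S34.Plan.gal (N' * q) τ • D = D) →
    IFix A (N' * q) u →
    ∀ hu : (u : Om) ∈ O, (∀ i, ρ ⟨_, hu⟩ i ≠ 0) →
    ∃ (D' : Divisor Kbar (FN (N' * q))) (u' : FN (N' * q)),
      D' - c₂ • D ∈ Divisor.principal (K := Kbar) (F := FN (N' * q)) ∧
      Divisor.degree D' = 0 ∧
      (∀ τ : Kbar ≃ₐ[ℚ] Kbar, τ ∈ A.inertiaSubgroupIn ℚ → S34.Plan.gal (N' * q) τ • D' = D') ∧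
      u' ≠ 0 ∧ IFix A (N' * q) u' ∧
      (∀ P : Place Kbar (FN (N' * q)), P.ord u' = n * D' P) ∧
      ∃ hu' : (u' : Om) ∈ O, ∀ i, ∃ κ : kk A, κ ≠ 0 ∧ ρ ⟨_, hu'⟩ i = HahnSeries.C κ

variable {A N' q}

/-- **[NORM-RED]** holds with `c₂ = q² (q - 1)`, for every setup `(O, ρ)` of the level-`q²` frame,
given the one-component elements. -/
theorem normRedStmt_of {M : ℕ} [NeZero M] {h : Nat.Coprime M q} (hq : q.Prime)
    (hA : A.LiesOverPrime q) (F : Plan.Frame M q h) {O : Subring Om} {ρ : O →+* Plan.Rq A q}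
    (hS : Plan.IsSetup A F O ρ) (hq' : q ∣ N') (hN : N' ∣ M * q)
    (hZ : OneCompStmt A N' q O ρ) : NormRedStmt A N' q O ρ (q * q * (q - 1)) := by
  classical
  letI : Fintype (Plan.MidIdx q) := CoordFin.fintypeMidIdx q
  intro D n u hdeg hn _hqn hu0 hudiv hαD hβD hDst hufix hu hρu
  have hUu : ∀ i, IsU A (emb F hN i u) := fun i =>
    ⟨(mem_O_iff hS hN u).1 hu i, by rw [← rho_eq_rd hS hN u hu i]; exact hρu i⟩
  -- Stage 1: `b` inertia-fixed with `div b = β_* D`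
  have hstβ : ∀ τ : Kbar ≃ₐ[ℚ] Kbar, τ ∈ A.inertiaSubgroupIn ℚ → S34.Plan.gal N' τ •
      Divisor.pushforwardAlong (heckeBetaBar Kbar N' q) (heckeBetaBarIntegral N' q) D =
      Divisor.pushforwardAlong (heckeBetaBar Kbar N' q) (heckeBetaBarIntegral N' q) D := by
    intro τ hτ
    have h1 := Fermat.Agent.Lib.CorrSemilinear.smul_pushforwardAlong (heckeBetaBar Kbar N' q)
      (heckeBetaBarIntegral N' q) (Fermat.Agent.P5.GalHecke.intertwines_beta N' q τ) D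
    exact h1.trans (congrArg (Divisor.pushforwardAlong (heckeBetaBar Kbar N' q)
      (heckeBetaBarIntegral N' q)) (hDst τ hτ))
  obtain ⟨b, hb0, hbdiv, hbfix⟩ := B2Plan.exists_fixed_generator N' A _ hβD hstβ
  have hbfix' : IFix A N' b := hbfix
  obtain ⟨c', hc'0, hnormβ⟩ := normB_gen N' q D n u hu0 hudiv b hb0 hbdiv
  have hβb0 : heckeBetaBar Kbar N' q b ≠ 0 := (map_ne_zero _).2 hb0
  have hβnb : heckeBetaBar Kbar N' q (normB N' q u) =
      algebraMap Kbar (FN (N' * q)) c' * heckeBetaBar Kbar N' q b ^ n := by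
    rw [hnormβ, map_mul, map_pow, AlgHom.commutes]
  have hc'' : algebraMap Kbar (FN (N' * q)) c' ≠ 0 := (map_ne_zero _).2 hc'0
  have hβnb0 : heckeBetaBar Kbar N' q (normB N' q u) ≠ 0 := by
    rw [hβnb]
    exact mul_ne_zero hc'' (pow_ne_zero n hβb0)
  obtain ⟨hU1, hU1inf⟩ := stage1 hq hA F hN hq' u hUu
  obtain ⟨u₁, hu₁⟩ : ∃ u₁ : FN (N' * q),
      u₁ = u ^ q * (heckeBetaBar Kbar N' q (normB N' q u))⁻¹ := ⟨_, rfl⟩
  rw [← hu₁] at hU1 hU1inf
  have hu₁0 : u₁ ≠ 0 := by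
    rw [hu₁]
    exact mul_ne_zero (pow_ne_zero q hu0) (inv_ne_zero hβnb0)
  have hu₁fix : IFix A (N' * q) u₁ := by
    rw [hu₁]
    exact (IFix.pow hufix q).mul (IFix.beta (IFix.normB hufix)).inv
  obtain ⟨Dβ, hDβ, hDβdeg⟩ := exists_div (heckeBetaBar Kbar N' q b) hβb0
  obtain ⟨D₁, hD₁⟩ : ∃ D₁ : Divisor Kbar (FN (N' * q)), D₁ = q • D - Dβ := ⟨_, rfl⟩
  have hu₁div : ∀ P : Place Kbar (FN (N' * q)), P.ord u₁ = n * D₁ P := by
    intro P
    rw [hu₁, Place.ord_mul P (pow_ne_zero q hu0) (inv_ne_zero hβnb0), Place.ord_inv,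
      Fermat.Agent.S35.NormPush.ord_pow', hudiv P, hβnb,
      Place.ord_mul P hc'' (pow_ne_zero n hβb0), Fermat.Agent.Lib.FFPlaces.ord_algebraMap,
      zero_add, Fermat.Agent.S35.NormPush.ord_pow', ← hDβ P, hD₁, Finsupp.sub_apply,
      Finsupp.smul_apply, nsmul_eq_mul]
    ring
  have hDβst : ∀ τ : Kbar ≃ₐ[ℚ] Kbar, τ ∈ A.inertiaSubgroupIn ℚ →
      S34.Plan.gal (N' * q) τ • Dβ = Dβ :=
    fun τ hτ => smul_div_eq _ hDβ (IFix.beta hbfix' τ hτ)
  have hD₁st : ∀ τ : Kbar ≃ₐ[ℚ] Kbar, τ ∈ A.inertiaSubgroupIn ℚ →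
      S34.Plan.gal (N' * q) τ • D₁ = D₁ := by
    intro τ hτ
    rw [hD₁, smul_sub, smul_comm, hDst τ hτ, hDβst τ hτ]
  -- Stage 2: `a'` inertia-fixed, `q`-scaled, with `N_α u₁ = e · a'^n`
  have hDβprin : Dβ ∈ Divisor.principal (K := Kbar) (F := FN (N' * q)) := ⟨_, hβb0, hDβ⟩
  have hαD₁ : Divisor.pushforwardAlong (heckeAlphaBar Kbar N' q) (heckeAlphaBarIntegral N' q) D₁ ∈
      Divisor.principal (K := Kbar) (F := FN N') := by
    rw [hD₁, map_sub, map_nsmul]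
    exact sub_mem (nsmul_mem hαD q)
      (Fermat.Agent.S35.NormPush.push_alpha_principal N' q Dβ hDβprin)
  have hstα : ∀ τ : Kbar ≃ₐ[ℚ] Kbar, τ ∈ A.inertiaSubgroupIn ℚ → S34.Plan.gal N' τ •
      Divisor.pushforwardAlong (heckeAlphaBar Kbar N' q) (heckeAlphaBarIntegral N' q) D₁ =
      Divisor.pushforwardAlong (heckeAlphaBar Kbar N' q) (heckeAlphaBarIntegral N' q) D₁ := by
    intro τ hτ
    have h1 := Fermat.Agent.Lib.CorrSemilinear.smul_pushforwardAlong (heckeAlphaBar Kbar N' q)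
      (heckeAlphaBarIntegral N' q) (Fermat.Agent.P5.GalHecke.intertwines_alpha N' q τ) D₁
    exact h1.trans (congrArg (Divisor.pushforwardAlong (heckeAlphaBar Kbar N' q)
      (heckeAlphaBarIntegral N' q)) (hD₁st τ hτ))
  obtain ⟨a₁, ha₁0, ha₁div, ha₁fix⟩ := B2Plan.exists_fixed_generator N' A _ hαD₁ hstα
  have ha₁fix' : IFix A N' a₁ := ha₁fix
  obtain ⟨c₁, hc₁0, hnormα⟩ := normA_gen N' q D₁ n u₁ hu₁0 hu₁div a₁ ha₁0 ha₁div
  have ha₁coe0 : ((a₁ : FN N') : Om) ≠ 0 := fun h0 => ha₁0 (Subtype.ext h0)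
  obtain ⟨m, hm, hmred⟩ := K0Red.qScale_of_fixed hq hA N' ((a₁ : FN N') : Om) a₁.2 ha₁coe0
    ((ifix_iff_fixed a₁).1 ha₁fix')
  have hq0 : (q : Kbar) ≠ 0 := Nat.cast_ne_zero.mpr hq.ne_zero
  have hd0 : (q : Kbar) ^ m ≠ 0 := zpow_ne_zero _ hq0
  obtain ⟨a', ha'⟩ : ∃ a' : FN N', a' = algebraMap Kbar (FN N') ((q : Kbar) ^ m) * a₁ :=
    ⟨_, rfl⟩
  have ha'coe : ((a' : FN N') : Om) = HahnSeries.C ((q : Kbar) ^ m) * ((a₁ : FN N') : Om) := by
    rw [ha']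
    show ((algebraMap Kbar (FN N') ((q : Kbar) ^ m) : FN N') : Om) * ((a₁ : FN N') : Om) = _
    rw [Fermat.Agent.S34.Val.coe_algebraMap_FN]
  have ha'U : IsU A ((a' : FN N') : Om) := by
    rw [ha'coe]
    exact ⟨hm, by rw [rd_eq hm]; exact hmred⟩
  have ha'fix : IFix A N' a' := by
    rw [ha']
    exact (ifix_const (fun τ _ => by rw [map_zpow₀, map_natCast])).mul ha₁fix'
  have hnormα' : normA N' q u₁ =
      algebraMap Kbar (FN N') (c₁ * (((q : Kbar) ^ m) ^ n)⁻¹) * a' ^ n := by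
    rw [hnormα, ha', mul_pow, ← map_pow, ← mul_assoc, ← map_mul, mul_assoc,
      inv_mul_cancel₀ (pow_ne_zero n hd0), mul_one]
  obtain ⟨heA, hres, hUs, rel1, rel2⟩ :=
    stage2 hq hA F hN hq' u₁ hU1 a' ha'fix ha'U _ n hn hnormα'
  obtain ⟨ē, hē⟩ : ∃ ē : kk A, ē = IsLocalRing.residue A ⟨_, heA⟩ := ⟨_, rfl⟩
  rw [← hē] at hres rel1 rel2
  -- the middle coordinates of `u₁` agree
  obtain ⟨ξ₀⟩ := CoordFin.midIdx_nonempty hq
  have hmid : ∀ ξ : Plan.MidIdx q,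
      rd A (emb F hN (.mid ξ) u₁) = rd A (emb F hN (.mid ξ₀) u₁) :=
    fun ξ => rd_mid_eq hq hA F hN hu₁fix ξ₀ ξ (hU1 (.mid ξ₀)).1
  have rel1' : HahnSeries.C ē * rd A ((a' : FN N') : Om) ^ n =
      rd A (emb F hN (.mid ξ₀) u₁) ^ (q - 1) := by
    rw [rel1, hU1inf, one_mul, Finset.prod_congr rfl (fun ξ _ => hmid ξ), Finset.prod_const,
      Finset.card_univ, CoordFin.fintype_card_midIdx hq]
  -- Stage 3: interpolation
  obtain ⟨z1, z2, z3, hz1fix, hz2fix, hz3fix, hz1, hz2, hz3, ⟨h11, h12, h13⟩, ⟨h21, h22, h23⟩,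
    ⟨h31, h32, h33⟩⟩ := hZ
  obtain ⟨X, hX⟩ : ∃ X : FN (N' * q), X = heckeAlphaBar Kbar N' q a' := ⟨_, rfl⟩
  have hXU : ∀ i, IsU A (emb F hN i X) := by
    rw [hX]
    exact isU_emb_alpha F hN ha'U hUs
  have hXfix : IFix A (N' * q) X := by
    rw [hX]
    exact IFix.alpha ha'fix
  have hXzero : rd A (emb F hN .zero X) = qExpand (kk A) q (rd A (sig h hN a')) := by
    rw [hX, emb_zero_alpha, rd_qExpand q hUs.1]
  have hXmid : ∀ ξ, rd A (emb F hN (.mid ξ) X) = rd A ((a' : FN N') : Om) := fun ξ => by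
    rw [hX, emb_mid_alpha]
  have hz1O := (mem_O_iff hS hN z1).1 hz1
  have hz2O := (mem_O_iff hS hN z2).1 hz2
  have hz3O := (mem_O_iff hS hN z3).1 hz3
  rw [rho_eq_rd hS hN z1 hz1] at h11 h12
  rw [rho_eq_rd hS hN z2 hz2] at h21 h22
  rw [rho_eq_rd hS hN z3 hz3] at h31 h32
  have h13' : ∀ ξ, rd A (emb F hN (.mid ξ) z1) = 0 := fun ξ => by
    rw [← rho_eq_rd hS hN z1 hz1]; exact h13 ξ
  have h23' : ∀ ξ, rd A (emb F hN (.mid ξ) z2) = 0 := fun ξ => by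
    rw [← rho_eq_rd hS hN z2 hz2]; exact h23 ξ
  have h33' : ∀ ξ, rd A (emb F hN (.mid ξ) z3) ≠ 0 := fun ξ => by
    rw [← rho_eq_rd hS hN z3 hz3]; exact h33 ξ
  obtain ⟨h', hh'⟩ : ∃ h' : FN (N' * q),
      h' = (z1 + z2 * X ^ (q - 1) + z3 * X ^ q) * (z1 + z2 + z3)⁻¹ := ⟨_, rfl⟩
  have hHinf : IsU A (emb F hN .inf h') ∧ rd A (emb F hN .inf h') = 1 := by
    rw [hh']
    refine interp_ratio (emb F hN .inf) (q - 1) q (hz1O _) (hz2O _) (hz3O _) (hXU _).1 1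
      ?_ ?_ one_ne_zero
    · rw [h21, h31]; ring
    · rw [h21, h31, add_zero, add_zero]; exact h11
  have hHzero : IsU A (emb F hN .zero h') ∧
      rd A (emb F hN .zero h') = rd A (emb F hN .zero X) ^ (q - 1) := by
    rw [hh']
    refine interp_ratio (emb F hN .zero) (q - 1) q (hz1O _) (hz2O _) (hz3O _) (hXU _).1 _
      ?_ ?_ (pow_ne_zero _ (hXU .zero).2)
    · rw [h12, h32]; ring
    · rw [h12, h32, zero_add, add_zero]; exact h22
  have hHmid : ∀ ξ, IsU A (emb F hN (.mid ξ) h') ∧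
      rd A (emb F hN (.mid ξ) h') = rd A (emb F hN (.mid ξ) X) ^ q := by
    intro ξ
    rw [hh']
    refine interp_ratio (emb F hN (.mid ξ)) (q - 1) q (hz1O _) (hz2O _) (hz3O _) (hXU _).1 _
      ?_ ?_ (pow_ne_zero _ (hXU (.mid ξ)).2)
    · rw [h13' ξ, h23' ξ]; ring
    · rw [h13' ξ, h23' ξ, zero_add, zero_add]; exact h33' ξ
  have hHU : ∀ i, IsU A (emb F hN i h') := by
    intro i
    cases i with
    | inf => exact hHinf.1
    | zero => exact hHzero.1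
    | mid ξ => exact (hHmid ξ).1
  have hh'0 : h' ≠ 0 := fun h0 => (hHU .inf).ne_zero (by rw [h0, map_zero])
  have hh'fix : IFix A (N' * q) h' := by
    have f1 : IFix A (N' * q) z1 := fun τ _ => hz1fix τ
    have f2 : IFix A (N' * q) z2 := fun τ _ => hz2fix τ
    have f3 : IFix A (N' * q) z3 := fun τ _ => hz3fix τ
    rw [hh']
    exact ((f1.add (f2.mul (hXfix.pow _))).add (f3.mul (hXfix.pow _))).mul
      ((f1.add f2).add f3).inv
  -- the output
  obtain ⟨u', hu'⟩ : ∃ u' : FN (N' * q), u' = u₁ ^ (q * (q - 1)) * (h' ^ n)⁻¹ := ⟨_, rfl⟩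
  have hcoord' : ∀ i, emb F hN i u' =
      emb F hN i u₁ ^ (q * (q - 1)) * (emb F hN i h' ^ n)⁻¹ := by
    intro i
    rw [hu', map_mul, map_pow, map_inv₀, map_pow]
  have hU' : ∀ i, IsU A (emb F hN i u') := fun i => by
    rw [hcoord']
    exact ((hU1 i).pow _).mul ((hHU i).pow n).inv
  have hrd' : ∀ i, rd A (emb F hN i u') =
      rd A (emb F hN i u₁) ^ (q * (q - 1)) * (rd A (emb F hN i h') ^ n)⁻¹ := by
    intro i
    rw [hcoord', rd_mul ((hU1 i).pow _).1 ((hHU i).pow n).inv.1, rd_pow (hU1 i).1,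
      ((hHU i).pow n).rd_inv, rd_pow (hHU i).1]
  obtain ⟨Dh, hDh, hDhdeg⟩ := exists_div h' hh'0
  have hDhprin : Dh ∈ Divisor.principal (K := Kbar) (F := FN (N' * q)) := ⟨_, hh'0, hDh⟩
  have hDhst : ∀ τ : Kbar ≃ₐ[ℚ] Kbar, τ ∈ A.inertiaSubgroupIn ℚ →
      S34.Plan.gal (N' * q) τ • Dh = Dh :=
    fun τ hτ => smul_div_eq _ hDh (hh'fix τ hτ)
  have hu'0 : u' ≠ 0 := by
    rw [hu']
    exact mul_ne_zero (pow_ne_zero _ hu₁0) (inv_ne_zero (pow_ne_zero n hh'0))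
  refine ⟨(q * (q - 1)) • D₁ - Dh, u', ?_, ?_, ?_, hu'0, ?_, ?_, ?_⟩
  · have e1 : (q * (q - 1)) • D₁ - Dh - (q * q * (q - 1)) • D = -((q * (q - 1)) • Dβ + Dh) := by
      rw [hD₁, smul_sub, smul_smul, show q * (q - 1) * q = q * q * (q - 1) by ring]
      abel
    rw [e1]
    exact neg_mem (add_mem (nsmul_mem hDβprin _) hDhprin)
  · rw [map_sub, map_nsmul, hD₁, map_sub, map_nsmul, hdeg, hDβdeg, hDhdeg]
    simp
  · intro τ hτ
    rw [smul_sub, smul_comm, hD₁st τ hτ, hDhst τ hτ]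
  · rw [hu']
    exact (hu₁fix.pow _).mul (hh'fix.pow n).inv
  · intro P
    rw [hu', Place.ord_mul P (pow_ne_zero _ hu₁0) (inv_ne_zero (pow_ne_zero n hh'0)),
      Place.ord_inv, Fermat.Agent.S35.NormPush.ord_pow', Fermat.Agent.S35.NormPush.ord_pow',
      hu₁div P, ← hDh P, Finsupp.sub_apply, Finsupp.smul_apply, nsmul_eq_mul]
    push_cast
    ring
  · have hu'O : (u' : Om) ∈ O := (mem_O_iff hS hN u').2 (fun i => (hU' i).1)
    refine ⟨hu'O, fun i => ?_⟩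
    rw [rho_eq_rd hS hN u' hu'O i, hrd' i]
    cases i with
    | inf =>
      refine ⟨1, one_ne_zero, ?_⟩
      rw [hU1inf, hHinf.2, one_pow, one_pow, inv_one, mul_one, map_one]
    | zero =>
      refine ⟨ē ^ (q - 1), pow_ne_zero _ hres, ?_⟩
      have hB : qExpand (kk A) q (rd A (sig h hN a')) ≠ 0 := by
        rw [← hXzero]
        exact (hXU .zero).2
      rw [hHzero.2, hXzero, map_pow, pow_mul, ← rel2, mul_pow, ← pow_mul, ← pow_mul,
        mul_comm n (q - 1), mul_assoc, mul_inv_cancel₀ (pow_ne_zero _ hB), mul_one]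
    | mid ξ =>
      refine ⟨ē ^ q, pow_ne_zero _ hres, ?_⟩
      have hAa : rd A ((a' : FN N') : Om) ≠ 0 := ha'U.2
      rw [(hHmid ξ).2, hXmid ξ, map_pow, hmid ξ, mul_comm q (q - 1), pow_mul, ← rel1', mul_pow,
        ← pow_mul, ← pow_mul, mul_comm n q, mul_assoc, mul_inv_cancel₀ (pow_ne_zero _ hAa),
        mul_one]

end Main

end Fermat.Agent.S36.NormRed

end
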