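import Mathlib
import Fermat.Agent.S36.K0Plan
import Fermat.Agent.S36.NormPull
import Fermat.Agent.S36.NormE3
import Fermat.Agent.S36.NormBC
import Fermat.Agent.S36.K0ScaleFrame
import Fermat.Agent.S36.PullRed
import Fermat.Agent.S36.B2Plan
import Fermat.Agent.S36.SetupQ2
import Fermat.Agent.S35.NewK0
import Fermat.Agent.S18.ConstWPlan

/-!
# S36 / P8 — [NORM-TW], the `β`-half (helper53)

The second element of `TwistK0.NormTwStmt`: for a stable datum `(D, n)` with a normalised Kummer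
function `w` (`ρ₃(w) ξⁿ = 1`), there are constants `η₁', η₂' ≠ 0` of the residue field with
`η₁'ⁿ = η₂'ⁿ` such that for every `f ∈ Λ'(D)` with `ρ₃ f = y ξ`, `y ∈ B_κ³`:
`(η₁' y₁^q, η₂' y₂^(q-1) y₃, η₂' y₂^(q-1) y₃) ∈ A₃`.

Proof: `β_* D = div b₀` with `b₀` inertia-fixed (level `N'`); `N_β w = c b₀ⁿ` (norm formula), and
the same identity at the top level (`NormBC`).  A power of `q` makes `b := d b₀` a unit at the
`∞`-expansion (`K0ScaleFrame`); the identity `c₁ (β^* b)ⁿ = β^*(N_β w)` and the unit `β^*(N_β w)`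
of `O` (`NormPull`) force `c₁` to be a unit of `A` and `β^* b` to be a unit at the `0`-expansion,
hence `β^* b ∈ O` with `ρ(mid) = ρ(0)`.  The element is `β^*(N_β f · b) = β^*(N_β f) · β^* b`,
which lies in `B'` by `NormE3.beta_norm_beta_mul_mem_E3`; its three reductions are
`ρ₃(β^* N_β f) · ρ₃(β^* b)` and `ξ^{(q, q-1+1)} ρ₃(β^* b)` is an `n`-th root of the constant
`1 / c̄₁`, hence constant.

* `IsU`, `isU_of_pow_eq`, `isU_C_of_eq` : units of `Ocal A` and the root–unit lemma;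
* `exists_C_of_pow_eq`                 : an `n`-th root of a constant of `κ((T))` is a constant;
* `exists_top_beta_norm`               : `N_β w = c b'ⁿ` at the top level, `b'` inertia-fixed;
* `exists_scaled`                      : the normalised `β^* b ∈ O`;
* `normTw_beta`                        : the `β`-half of [NORM-TW].
-/

set_option autoImplicit false
set_option linter.unusedSectionVars false
set_option linter.style.haveILetI false

noncomputable section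

namespace Fermat.Agent.S36.NormTwBeta

open ModularCurve AlgebraicCurve Fermat.Agent.S24 Fermat.Agent.S18 Fermat.Agent.S18.Content
  Fermat.Agent.S18.Plan Fermat.Agent.S34 Fermat.Agent.S28
open Fermat.Agent.S37.HeckeInputs

/-! ## Units of `Ocal A` -/

section Units

variable {K : Type*} [Field K] (A : ValuationSubring K)

/-- `x` is a unit of `Ocal A`: integral with nonzero reduction. -/
def IsU (x : LaurentSeries K) : Prop := ∃ h : x ∈ Ocal A, red A ⟨x, h⟩ ≠ 0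

variable {A}

theorem IsU.mem {x : LaurentSeries K} (hx : IsU A x) : x ∈ Ocal A := hx.1

theorem IsU.ne_zero {x : LaurentSeries K} (hx : IsU A x) : x ≠ 0 := by
  obtain ⟨h, hne⟩ := hx
  exact ne_zero_of_red_ne_zero A ⟨x, h⟩ hne

theorem IsU.mul {x y : LaurentSeries K} (hx : IsU A x) (hy : IsU A y) : IsU A (x * y) := by
  obtain ⟨h1, hn1⟩ := hx
  obtain ⟨h2, hn2⟩ := hy
  refine ⟨(Ocal A).mul_mem h1 h2, ?_⟩
  have e : (⟨x * y, (Ocal A).mul_mem h1 h2⟩ : Ocal A) = ⟨x, h1⟩ * ⟨y, h2⟩ := rfl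
  rw [e, map_mul]
  exact mul_ne_zero hn1 hn2

theorem IsU.inv {x : LaurentSeries K} (hx : IsU A x) : IsU A x⁻¹ := by
  obtain ⟨h1, hn1⟩ := hx
  refine ⟨inv_mem_Ocal A ⟨x, h1⟩ hn1, ?_⟩
  rw [red_inv A ⟨x, h1⟩ hn1]
  exact inv_ne_zero hn1

theorem IsU.pow {x : LaurentSeries K} (hx : IsU A x) (n : ℕ) : IsU A (x ^ n) := by
  induction n with
  | zero =>
    rw [pow_zero]
    refine ⟨(Ocal A).one_mem, ?_⟩
    have e : (⟨1, (Ocal A).one_mem⟩ : Ocal A) = 1 := rfl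
    rw [e, map_one]
    exact one_ne_zero
  | succ n ih => rw [pow_succ]; exact ih.mul hx

/-- `IsU` is insensitive to the spelling of the element. -/
theorem IsU.congr {x y : LaurentSeries K} (hx : IsU A x) (h : x = y) : IsU A y := h ▸ hx

/-- From `IsU (x * y)` and `IsU x`: `IsU y`. -/
theorem IsU.of_mul_left {x y : LaurentSeries K} (hxy : IsU A (x * y)) (hx : IsU A x) :
    IsU A y := by
  have h := hx.inv.mul hxy
  rwa [← mul_assoc, inv_mul_cancel₀ hx.ne_zero, one_mul] at h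

/-- From `IsU (x * y)` and `IsU y`: `IsU x`. -/
theorem IsU.of_mul_right {x y : LaurentSeries K} (hxy : IsU A (x * y)) (hy : IsU A y) :
    IsU A x := by
  rw [mul_comm] at hxy
  exact hxy.of_mul_left hy

/-- A constant is a unit of `Ocal A` iff it is a unit of `A`. -/
theorem isU_C_iff (c : K) :
    IsU A (HahnSeries.C c : LaurentSeries K) ↔ c ≠ 0 ∧ c ∈ A ∧ c⁻¹ ∈ A := by
  constructor
  · intro h
    refine ⟨fun h0 => h.ne_zero (by rw [h0, map_zero]), (C_mem_Ocal_iff A c).1 h.mem, ?_⟩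
    have h2 := h.inv.mem
    rw [← map_inv₀] at h2
    exact (C_mem_Ocal_iff A c⁻¹).1 h2
  · rintro ⟨hc, h1, h2⟩
    refine ⟨C_mem_Ocal A h1, ?_⟩
    rw [red_C A h1]
    intro h0
    have h3 : IsLocalRing.residue A ⟨c, h1⟩ = 0 := HahnSeries.C_injective (by rw [h0, map_zero])
    have hu : IsUnit (⟨c, h1⟩ : A) := by
      refine IsUnit.of_mul_eq_one ⟨c⁻¹, h2⟩ (Subtype.ext ?_)
      show c * c⁻¹ = 1
      exact mul_inv_cancel₀ hc
    exact (IsLocalRing.residue_ne_zero_iff_isUnit _).2 hu h3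

/-- An `n`-th root of a unit constant is a unit constant. -/
theorem isU_C_of_pow {s : K} {n : ℕ} (hn : 0 < n)
    (h : IsU A (HahnSeries.C (s ^ n) : LaurentSeries K)) :
    IsU A (HahnSeries.C s : LaurentSeries K) := by
  obtain ⟨h0, h1, h2⟩ := (isU_C_iff (A := A) _).1 h
  refine (isU_C_iff (A := A) s).2 ⟨fun hs => h0 (by rw [hs, zero_pow hn.ne']), ?_, ?_⟩
  · rw [← A.valuation_le_one_iff] at h1 ⊢
    rw [map_pow] at h1
    exact (pow_le_one_iff hn.ne').1 h1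
  · rw [← A.valuation_le_one_iff] at h2 ⊢
    rw [← inv_pow, map_pow] at h2
    exact (pow_le_one_iff hn.ne').1 h2

/-- **Root–unit lemma.** If `c₁ xⁿ = U` with `U` a unit of `Ocal A`, `c₁` a unit constant and
some constant multiple of `x` is a unit, then `x` is a unit. -/
theorem isU_of_pow_eq {x U : LaurentSeries K} {s c₁ : K} {n : ℕ} (hn : 0 < n)
    (hs : IsU A (HahnSeries.C s * x)) (hU : IsU A U)
    (hc : IsU A (HahnSeries.C c₁ : LaurentSeries K))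
    (e : HahnSeries.C c₁ * x ^ n = U) : IsU A x := by
  have hxn : IsU A (x ^ n) := (hU.congr e.symm).of_mul_left hc
  have h1 : IsU A (HahnSeries.C (s ^ n) * x ^ n) := by
    have := hs.pow n
    rwa [mul_pow, ← map_pow] at this
  have h2 : IsU A (HahnSeries.C s : LaurentSeries K) := isU_C_of_pow hn (h1.of_mul_right hxn)
  exact hs.of_mul_left h2

/-- The constant of `c₁ xⁿ = U` is a unit as soon as `x` and `U` are. -/
theorem isU_C_of_eq {x U : LaurentSeries K} {c₁ : K} {n : ℕ}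
    (hx : IsU A x) (hU : IsU A U) (e : HahnSeries.C c₁ * x ^ n = U) :
    IsU A (HahnSeries.C c₁ : LaurentSeries K) :=
  (hU.congr e.symm).of_mul_right (hx.pow n)

end Units

section Const

variable {κ : Type*} [Field κ]

/-- An `n`-th root of a constant in `κ((T))` is a constant. -/
theorem exists_C_of_pow_eq {n : ℕ} (hn : 0 < n) {θ : LaurentSeries κ} {c : κ}
    (h : θ ^ n = HahnSeries.C c) : ∃ η : κ, θ = HahnSeries.C η := by
  apply Fermat.Agent.S18.ConstWPlan.eq_C_of_isIntegral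
  refine IsIntegral.of_pow hn ?_
  rw [h, ← algebraMap_LS_eq_C]
  exact isIntegral_algebraMap

/-- From `c̄ θⁿ = 1`: `θ` is a nonzero constant `η` with `c̄ ηⁿ = 1`. -/
theorem exists_C_of_mul_pow_eq_one {n : ℕ} (hn : 0 < n) {θ : LaurentSeries κ} {c : κ}
    (h : HahnSeries.C c * θ ^ n = 1) :
    ∃ η : κ, η ≠ 0 ∧ θ = HahnSeries.C η ∧ c * η ^ n = 1 := by
  have hc : c ≠ 0 := by
    intro h0
    rw [h0, map_zero, zero_mul] at h
    exact zero_ne_one h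
  have h' : θ ^ n = HahnSeries.C c⁻¹ := by
    rw [map_inv₀]
    exact eq_inv_of_mul_eq_one_right h
  obtain ⟨η, hη⟩ := exists_C_of_pow_eq hn h'
  have e : c * η ^ n = 1 := by
    apply HahnSeries.C_injective (Γ := ℤ) (R := κ)
    rw [map_mul, map_pow, ← hη, h, map_one]
  refine ⟨η, ?_, hη, e⟩
  intro h0
  rw [h0, zero_pow hn.ne', mul_zero] at e
  exact zero_ne_one e

end Const

/-! ## The norm identity at the top level -/

section Norm

/-- `N_β w' = c b'ⁿ` at the top level, with `b'` nonzero and inertia-fixed: `β_* D = div b₀`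
(`b₀` fixed, level `N₀ q`), the norm formula at the levels `(N₀ q, N₀ q²)` and its transport to
`(M q, M q²)`. -/
theorem exists_top_beta_norm {N₀ M q : ℕ} [NeZero N₀] [NeZero M] [NeZero q] [NeZero (N₀ * q)]
    (hq : q.Prime) (hdiv : N₀ ∣ M) (A : ValuationSubring Kbar)
    {D : Divisor Kbar (FN (N₀ * q * q))} {n : ℕ} (hst : Plan.StableData A (N₀ * q) q D n)
    (w : FN (N₀ * q * q)) (hw0 : w ≠ 0)
    (hord : ∀ P : Place Kbar (FN (N₀ * q * q)), P.ord w = n * D P)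
    (w' : FN (M * q * q)) (hw' : (w' : Om) = (w : Om)) :
    ∃ (b' : FN (M * q)) (c : Kbar), b' ≠ 0 ∧ c ≠ 0 ∧ K0Plan.Fixed A (b' : Om) ∧
      @Algebra.norm (FN (M * q)) (FN (M * q * q)) _ _
        (algebraAlong (heckeBetaBar Kbar (M * q) q)) w' =
          algebraMap Kbar (FN (M * q)) c * b' ^ n := by
  have hdivY : N₀ * q ∣ M * q := Nat.mul_dvd_mul_right hdiv q
  have hstβ : ∀ τ : Kbar ≃ₐ[ℚ] Kbar, τ ∈ A.inertiaSubgroupIn ℚ → S34.Plan.gal (N₀ * q) τ •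
      Divisor.pushforwardAlong (heckeBetaBar Kbar (N₀ * q) q)
        (heckeBetaBarIntegral (N₀ * q) q) D =
      Divisor.pushforwardAlong (heckeBetaBar Kbar (N₀ * q) q)
        (heckeBetaBarIntegral (N₀ * q) q) D := by
    intro τ hτ
    have e := Fermat.Agent.Lib.CorrSemilinear.smul_pushforwardAlong _
      (heckeBetaBarIntegral (N₀ * q) q)
      (Fermat.Agent.P5.GalHecke.intertwines_beta (N₀ * q) q τ) D
    rw [hst.stable τ hτ] at e
    exact e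
  obtain ⟨b₀, hb₀, hb₀div, hb₀fix⟩ :=
    B2Plan.exists_fixed_generator (N₀ * q) A _ hst.pushB hstβ
  obtain ⟨c, hc, hnorm⟩ := Fermat.Agent.S35.NewK0.norm_smul_eq_const_mul_pow
    (heckeBetaBar Kbar (N₀ * q) q) (heckeBetaBarIntegral (N₀ * q) q)
    (finiteAlong_beta (N₀ * q) q) (normFormulaAlong_beta (N₀ * q) q) D n w hw0
    (fun v => by rw [Finsupp.smul_apply, nsmul_eq_mul, hord v]) b₀ hb₀
    (fun v => (hb₀div v).symm) 1 one_ne_zero
  rw [map_one, one_mul] at hnorm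
  have hb'mem : (b₀ : Om) ∈ modularFunctionFieldBar (M * q) :=
    (Fermat.Agent.S18.RR0.modularFunctionFieldBar_le hdivY) b₀.2
  refine ⟨⟨(b₀ : Om), hb'mem⟩, c, ?_, hc, ?_, ?_⟩
  · intro h0
    have h1 : ((⟨(b₀ : Om), hb'mem⟩ : FN (M * q)) : Om) = ((0 : FN (M * q)) : Om) :=
      congrArg Subtype.val h0
    rw [ZeroMemClass.coe_zero] at h1
    exact hb₀ (Subtype.ext (h1.trans (ZeroMemClass.coe_zero _).symm))
  · intro τ hτ
    exact congrArg (fun y : FN (N₀ * q) => (y : Om)) (hb₀fix τ hτ)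
  · exact NormBC.norm_beta_top_eq_of N₀ M q hq w b₀ c n hnorm w' hw' _ rfl

end Norm

/-! ## The normalised `β^* b` -/

section Scale

variable {M q : ℕ} [NeZero M] [NeZero q] {h : Nat.Coprime M q}
variable {A : ValuationSubring Kbar} {O : Subring Om} {ρ : O →+* Plan.Rq A q}

/-- **The normalised generator.** Let `g_w ∈ O` have nonzero reductions at `∞` and `0`, and
`g_w = c (β^* b')ⁿ` with `b' ∈ F_{Mq}` nonzero and inertia-fixed.  Then for a suitable constant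
`d ≠ 0`: `y := β^*(d b') ∈ O` is inertia-fixed, its middle and `0`-reductions coincide, and
`c₁ yⁿ = g_w` in `O` with a constant `c₁ = c / dⁿ` of `O` whose reductions are one constant. -/
theorem exists_scaled (hq : q.Prime) (hA : A.LiesOverPrime q) (F : Plan.Frame M q h)
    (hS : Plan.IsSetup A F O ρ) (ξ₀ : Plan.MidIdx q) {n : ℕ} (hn : 0 < n)
    (gw : O) (hgi : ρ gw .inf ≠ 0) (hgz : ρ gw .zero ≠ 0)
    (b' : FN (M * q)) (hb' : b' ≠ 0) (hb'fix : K0Plan.Fixed A (b' : Om)) (c : Kbar)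
    (hnorm : (gw : Om) = HahnSeries.C c * (qExpand Kbar q (b' : Om)) ^ n) :
    ∃ (d c₁ : Kbar) (yO cO : O) (κ : kk A), d ≠ 0 ∧ c = c₁ * d ^ n ∧
      (yO : Om) = qExpand Kbar q ((algebraMap Kbar (FN (M * q)) d * b' : FN (M * q)) : Om) ∧
      K0Plan.Fixed A (yO : Om) ∧ ρ yO (.mid ξ₀) = ρ yO .zero ∧
      (∀ i, ρ cO i = HahnSeries.C κ) ∧ cO * yO ^ n = gw := by
  -- `y₀ = β^* b'`
  obtain ⟨y₀, hy₀⟩ : ∃ y₀ : FN (M * q * q), y₀ = heckeBetaBar Kbar (M * q) q b' := ⟨_, rfl⟩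
  have hy₀c : (y₀ : Om) = qExpand Kbar q (b' : Om) := by rw [hy₀, coe_heckeBetaBar]
  have hy₀0 : y₀ ≠ 0 := by rw [hy₀]; exact (map_ne_zero _).mpr hb'
  have hy₀fix : ∀ τ : Kbar ≃ₐ[ℚ] Kbar, τ ∈ A.inertiaSubgroupIn ℚ →
      S34.Plan.gal (M * q * q) τ • y₀ = y₀ := by
    intro τ hτ
    apply Subtype.ext
    show coeffMap (τ : Kbar →+* Kbar) (y₀ : Om) = (y₀ : Om)
    rw [hy₀c, coeffMap_qExpand, hb'fix τ hτ]
  obtain ⟨m, hm, hmne⟩ := K0ScaleFrame.exists_scale_inf A hq hA F y₀ hy₀0 hy₀fix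
  have key : IsU A (HahnSeries.C ((q : Kbar) ^ m) * F.emb .inf y₀) := ⟨hm, hmne⟩
  obtain ⟨d, hd⟩ : ∃ d : Kbar, d = (q : Kbar) ^ m := ⟨_, rfl⟩
  rw [← hd] at key
  have hd0 : d ≠ 0 := by rw [hd]; exact zpow_ne_zero m (Nat.cast_ne_zero.mpr hq.ne_zero)
  have hdfix : ∀ τ : Kbar ≃ₐ[ℚ] Kbar, τ d = d := by
    intro τ
    rw [hd, map_zpow₀, map_natCast]
  -- `b = d b'`, `y = β^* b = d y₀`
  obtain ⟨b, hb⟩ : ∃ b : FN (M * q), b = algebraMap Kbar (FN (M * q)) d * b' := ⟨_, rfl⟩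
  obtain ⟨y, hy⟩ : ∃ y : FN (M * q * q), y = heckeBetaBar Kbar (M * q) q b := ⟨_, rfl⟩
  have hyy₀ : y = algebraMap Kbar (FN (M * q * q)) d * y₀ := by
    rw [hy, hb, hy₀, map_mul, AlgHom.commutes]
  have hy0 : y ≠ 0 := by
    rw [hyy₀]
    exact mul_ne_zero ((map_ne_zero _).mpr hd0) hy₀0
  have hyc : (y : Om) = HahnSeries.C d * qExpand Kbar q (b' : Om) := by
    rw [← Plan.Frame.emb_inf F y, hyy₀, map_mul, SetupQ2.emb_algebraMap, Plan.Frame.emb_inf,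
      hy₀c]
  have hyfix : K0Plan.Fixed A (y : Om) := by
    intro τ hτ
    rw [hyc, map_mul, K0ScaleFrame.coeffMap_C, hdfix τ, coeffMap_qExpand, hb'fix τ hτ]
  have hyfix' : ∀ τ : Kbar ≃ₐ[ℚ] Kbar, τ ∈ A.inertiaSubgroupIn ℚ →
      S34.Plan.gal (M * q * q) τ • y = y :=
    fun τ hτ => Subtype.ext (hyfix τ hτ)
  -- the constant
  obtain ⟨c₁, hc₁⟩ : ∃ c₁ : Kbar, c₁ = c * (d ^ n)⁻¹ := ⟨_, rfl⟩
  have hcc : c = c₁ * d ^ n := by
    rw [hc₁, inv_mul_cancel_right₀ (pow_ne_zero n hd0)]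
  have hFN : SetupQ2.IsSetup.toField hS gw = algebraMap Kbar (FN (M * q * q)) c₁ * y ^ n := by
    apply Subtype.ext
    show (gw : Om) = F.emb .inf (algebraMap Kbar (FN (M * q * q)) c₁ * y ^ n)
    rw [map_mul, map_pow, SetupQ2.emb_algebraMap, Plan.Frame.emb_inf, hyc, hnorm, hcc, mul_pow,
      map_mul, map_pow, mul_assoc]
  have hE : ∀ i : Plan.Coord q,
      HahnSeries.C c₁ * (F.emb i y) ^ n = F.emb i (SetupQ2.IsSetup.toField hS gw) := by
    intro i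
    rw [hFN, map_mul, map_pow, SetupQ2.emb_algebraMap]
  have hU : ∀ i : Plan.Coord q, ρ gw i ≠ 0 →
      IsU A (F.emb i (SetupQ2.IsSetup.toField hS gw)) := by
    intro i hi
    refine ⟨SetupQ2.IsSetup.emb_mem hS gw i, ?_⟩
    rw [← SetupQ2.IsSetup.rho_coe hS gw i]
    exact hi
  have hxinf : IsU A (F.emb .inf y) := by
    rw [hyy₀, map_mul, SetupQ2.emb_algebraMap]
    exact key
  have hc₁U : IsU A (HahnSeries.C c₁ : Om) := isU_C_of_eq hxinf (hU _ hgi) (hE _)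
  obtain ⟨m', hm', hm'ne⟩ := K0ScaleFrame.exists_scale_zero A hq hA F y hy0 hyfix'
  have hxzero : IsU A (F.emb .zero y) :=
    isU_of_pow_eq hn ⟨hm', hm'ne⟩ (hU _ hgz) hc₁U (hE _)
  have e0 : F.emb .zero y = ((Sigma.sigma M q h b : FN (M * q)) : Om) := by
    rw [hy, PullRed.emb_zero_beta]
  have hσ : IsU A ((Sigma.sigma M q h b : FN (M * q)) : Om) := hxzero.congr e0
  have hξ : ∀ ξ : Plan.MidIdx q, ((ξ.1 : Kbarˣ) : Kbar) - 1 ∈ A.nonunits := by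
    intro ξ
    rw [ValuationSubring.mem_nonunits_iff]
    exact InertiaFieldZeta.val_zeta_sub_one_lt_one A q hq hA _
      (IsPrimitiveRoot.coe_units_iff.2 ξ.2)
  have emid : ∀ ξ : Plan.MidIdx q,
      F.emb (.mid ξ) y = scale ξ.1 ((Sigma.sigma M q h b : FN (M * q)) : Om) := by
    intro ξ
    rw [hy, PullRed.emb_mid_beta hq]
  have hall : ∀ i : Plan.Coord q, F.emb i y ∈ Ocal A := by
    intro i
    cases i with
    | inf => exact hxinf.mem
    | zero => exact hxzero.mem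
    | mid ξ =>
      rw [emid ξ]
      exact PullRed.scale_mem_Ocal A ξ.1 (hξ ξ) hσ.mem
  have hyO : (y : Om) ∈ O := (hS.mem_iff y).2 hall
  -- the constant in `O`
  obtain ⟨-, hc₁A, -⟩ := (isU_C_iff (A := A) c₁).1 hc₁U
  have hcO : (HahnSeries.C c₁ : Om) ∈ O := (SetupQ2.IsSetup.C_mem_iff hS c₁).2 hc₁A
  refine ⟨d, c₁, ⟨(y : Om), hyO⟩, ⟨_, hcO⟩, IsLocalRing.residue A ⟨c₁, hc₁A⟩, hd0, hcc, ?_,
    hyfix, ?_, ?_, ?_⟩
  · show (y : Om) = _
    rw [hy, coe_heckeBetaBar, hb]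
  · rw [hS.ρ_apply y hyO (.mid ξ₀) (hall _), hS.ρ_apply y hyO .zero (hall _),
      red_congr A (emid ξ₀) (hall _) (PullRed.scale_mem_Ocal A ξ₀.1 (hξ ξ₀) hσ.mem),
      PullRed.red_scale A ξ₀.1 (hξ ξ₀) hσ.mem]
    exact red_congr A e0.symm _ _
  · intro i
    exact SetupQ2.IsSetup.rho_C hS ⟨c₁, hc₁A⟩ hcO i
  · apply Subtype.ext
    show HahnSeries.C c₁ * (y : Om) ^ n = (gw : Om)
    have e := hE .inf
    rw [Plan.Frame.emb_inf, Plan.Frame.emb_inf] at e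
    exact e

end Scale

/-! ## The `β`-half of [NORM-TW] -/

section Main

/-- **[NORM-TW], `β`-half.** -/
theorem normTw_beta {N₀ N' M q : ℕ} [NeZero N'] [NeZero M] [NeZero q] (hq' : q ∣ N')
    {h : Nat.Coprime M q} (hq : q.Prime) (hN' : N' = N₀ * q) (hdiv : N₀ ∣ M)
    {A : ValuationSubring Kbar} (hA : A.LiesOverPrime q)
    (F : Plan.Frame M q h) {O : Subring Om} {ρ : O →+* Plan.Rq A q} (hS : Plan.IsSetup A F O ρ)
    (ξ₀ : Plan.MidIdx q) :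
    ∀ (D : Divisor Kbar (FN (N' * q))) (n : ℕ), Plan.StableData A N' q D n →
    ∀ E : Divisor Kbar (FN (N' * q)),
      Plan.IsE3 (N' * q) q (Dvd.intro_left N' rfl) (Nat.mul_dvd_mul_right hq' q) E →
    ∀ (w : FN (N' * q)) (hw : (w : Om) ∈ O) (ξ : K0Plan.R3 A),
      w ≠ 0 → (∀ P : Place Kbar (FN (N' * q)), P.ord w = n * D P) →
      K0Plan.Fixed A (w : Om) → ((w : Om))⁻¹ ∈ O →
      (ξ.1 ∈ Fk A M ∧ ξ.2.1 ∈ Fk A M ∧ ξ.2.2 ∈ Fk A M) →
      K0Plan.rho3 A q O ρ ξ₀ ⟨_, hw⟩ * ξ ^ n = 1 →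
      ∃ η₁' η₂' : kk A, η₁' ≠ 0 ∧ η₂' ≠ 0 ∧ η₁' ^ n = η₂' ^ n ∧
        ∀ f ∈ K0Plan.Lam A N' M q O E D, ∀ y : K0Plan.BK3 A M,
          K0Plan.rho3 A q O ρ ξ₀ f = K0Plan.iota3 A M y * ξ →
          ((η₁' • y.1 ^ q, η₂' • (y.2.1 ^ (q - 1) * y.2.2),
            η₂' • (y.2.1 ^ (q - 1) * y.2.2)) : K0Plan.BK3 A M) ∈
              K0Plan.A3 A N' M q O ρ E ξ₀ := by
  subst hN'
  intro D n hst E hE w hw ξ hw0 hord hwfix _ _ hρ
  haveI : NeZero N₀ := ⟨fun h0 => NeZero.ne (N₀ * q) (by rw [h0, zero_mul])⟩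
  have hn : 0 < n := hst.pos
  have hdivY : N₀ * q ∣ M * q := Nat.mul_dvd_mul_right hdiv q
  -- the norm identity at the top level
  obtain ⟨b', c, hb'0, hc0, hb'fix, hnorm⟩ := exists_top_beta_norm hq hdiv A hst w hw0 hord
    (⟨((⟨(w : Om), hw⟩ : O) : Om), hS.mem_field ⟨(w : Om), hw⟩⟩ : FN (M * q * q)) rfl
  -- the norm element of `w`
  obtain ⟨gw, hgw, hgwfix, hgwρ⟩ :=
    NormPull.exists_beta_norm hq hA F hS ξ₀ ⟨(w : Om), hw⟩ hwfix
  -- the three reductions of `w`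
  obtain ⟨a₁, ha₁⟩ : ∃ a, a = (K0Plan.rho3 A q O ρ ξ₀ ⟨(w : Om), hw⟩).1 := ⟨_, rfl⟩
  obtain ⟨a₂, ha₂⟩ : ∃ a, a = (K0Plan.rho3 A q O ρ ξ₀ ⟨(w : Om), hw⟩).2.1 := ⟨_, rfl⟩
  obtain ⟨a₃, ha₃⟩ : ∃ a, a = (K0Plan.rho3 A q O ρ ξ₀ ⟨(w : Om), hw⟩).2.2 := ⟨_, rfl⟩
  have h1 : a₁ * ξ.1 ^ n = 1 := by rw [ha₁]; exact congrArg Prod.fst hρ
  have h2 : a₂ * ξ.2.1 ^ n = 1 := by rw [ha₂]; exact congrArg (fun t => t.2.1) hρ
  have h3 : a₃ * ξ.2.2 ^ n = 1 := by rw [ha₃]; exact congrArg (fun t => t.2.2) hρ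
  have ha₁0 : a₁ ≠ 0 := left_ne_zero_of_mul_eq_one h1
  have ha₂0 : a₂ ≠ 0 := left_ne_zero_of_mul_eq_one h2
  have ha₃0 : a₃ ≠ 0 := left_ne_zero_of_mul_eq_one h3
  have hg1 : ρ gw .inf = a₁ ^ q := by rw [ha₁]; exact congrArg Prod.fst hgwρ
  have hg2 : ρ gw (.mid ξ₀) = a₂ ^ (q - 1) * a₃ := by
    rw [ha₂, ha₃]; exact congrArg (fun t => t.2.1) hgwρ
  have hg3 : ρ gw .zero = a₂ ^ (q - 1) * a₃ := by
    rw [ha₂, ha₃]; exact congrArg (fun t => t.2.2) hgwρ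
  have hgi : ρ gw .inf ≠ 0 := by rw [hg1]; exact pow_ne_zero q ha₁0
  have hgz : ρ gw .zero ≠ 0 := by rw [hg3]; exact mul_ne_zero (pow_ne_zero _ ha₂0) ha₃0
  -- the norm identity in `Q̄((T))`
  have hnormOm : (gw : Om) = HahnSeries.C c * (qExpand Kbar q (b' : Om)) ^ n := by
    have e1 : (gw : Om) = qExpand Kbar q ((@Algebra.norm (FN (M * q)) (FN (M * q * q)) _ _
        (algebraAlong (heckeBetaBar Kbar (M * q) q))
        (⟨((⟨(w : Om), hw⟩ : O) : Om), hS.mem_field ⟨(w : Om), hw⟩⟩ : FN (M * q * q)) :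
          FN (M * q)) : Om) := hgw
    rw [e1, hnorm, ← coe_heckeBetaBar, map_mul, map_pow, AlgHom.commutes,
      ← Plan.Frame.emb_inf F, map_mul, map_pow, SetupQ2.emb_algebraMap, Plan.Frame.emb_inf,
      coe_heckeBetaBar]
  -- the normalised generator
  obtain ⟨d, c₁, yO, cO, κ, hd0, hcc, hyOc, hyOfix, hyOmid, hcOρ, hO⟩ :=
    exists_scaled hq hA F hS ξ₀ hn gw hgi hgz b' hb'0 hb'fix c hnormOm
  obtain ⟨b, hb⟩ : ∃ b : FN (M * q), b = algebraMap Kbar (FN (M * q)) d * b' := ⟨_, rfl⟩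
  rw [← hb] at hyOc
  have hc₁0 : c₁ ≠ 0 := by
    intro h0
    rw [h0, zero_mul] at hcc
    exact hc0 hcc
  have hnorm₁ : @Algebra.norm (FN (M * q)) (FN (M * q * q)) _ _
      (algebraAlong (heckeBetaBar Kbar (M * q) q))
      (⟨((⟨(w : Om), hw⟩ : O) : Om), hS.mem_field ⟨(w : Om), hw⟩⟩ : FN (M * q * q)) =
        algebraMap Kbar (FN (M * q)) c₁ * b ^ n := by
    rw [hnorm, hcc, hb, map_mul, map_pow, mul_pow, mul_assoc]
  -- the reductions of the identity `c₁ yⁿ = g_w`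
  have hR : ∀ i : Plan.Coord q, HahnSeries.C κ * (ρ yO i) ^ n = ρ gw i := by
    intro i
    rw [← hcOρ i, ← hO, map_mul, map_pow]
    rfl
  -- the two constants
  have hΘ₁ : HahnSeries.C κ * (ξ.1 ^ q * ρ yO .inf) ^ n = 1 := by
    calc HahnSeries.C κ * (ξ.1 ^ q * ρ yO .inf) ^ n
        = (ξ.1 ^ n) ^ q * (HahnSeries.C κ * (ρ yO .inf) ^ n) := by ring
      _ = (a₁ * ξ.1 ^ n) ^ q := by rw [hR, hg1]; ring
      _ = 1 := by rw [h1, one_pow]
  have hΘ₂ : HahnSeries.C κ * (ξ.2.1 ^ (q - 1) * ξ.2.2 * ρ yO .zero) ^ n = 1 := by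
    calc HahnSeries.C κ * (ξ.2.1 ^ (q - 1) * ξ.2.2 * ρ yO .zero) ^ n
        = (ξ.2.1 ^ n) ^ (q - 1) * ξ.2.2 ^ n * (HahnSeries.C κ * (ρ yO .zero) ^ n) := by ring
      _ = (a₂ * ξ.2.1 ^ n) ^ (q - 1) * (a₃ * ξ.2.2 ^ n) := by rw [hR, hg3]; ring
      _ = 1 := by rw [h2, h3, one_pow, one_mul]
  obtain ⟨η₁, hη₁0, hη₁, e₁⟩ := exists_C_of_mul_pow_eq_one hn hΘ₁
  obtain ⟨η₂, hη₂0, hη₂, e₂⟩ := exists_C_of_mul_pow_eq_one hn hΘ₂
  have hκ : κ ≠ 0 := left_ne_zero_of_mul_eq_one e₁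
  refine ⟨η₁, η₂, hη₁0, hη₂0, mul_left_cancel₀ hκ (e₁.trans e₂.symm), ?_⟩
  intro f hf y hfy
  obtain ⟨hffix, cf, hfpull⟩ := hf
  obtain ⟨gf, hgf, hgffix, hgfρ⟩ := NormPull.exists_beta_norm hq hA F hS ξ₀ f hffix
  refine ⟨gf * yO, ⟨?_, n * cf * (2 * q + 1) * finrankAlong Kbar (heckeBetaBar Kbar (M * q) q),
    ?_⟩, ?_⟩
  · intro τ hτ
    rw [Subring.coe_mul, map_mul, hgffix τ hτ, hyOfix τ hτ]
  · rw [zero_add]
    have key := NormE3.beta_norm_beta_mul_mem_E3 (N₀ * q) M q (Dvd.intro_left (N₀ * q) rfl)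
      (Nat.mul_dvd_mul_right hq' q) hq hdivY hE D hn w hw0 hord
      (⟨((⟨(w : Om), hw⟩ : O) : Om), hS.mem_field ⟨(w : Om), hw⟩⟩ : FN (M * q * q)) rfl cf
      (⟨(f : Om), hS.mem_field f⟩ : FN (M * q * q)) hfpull b c₁ hc₁0 hnorm₁
    have e : ((gf * yO : O) : Om) = qExpand Kbar q ((@Algebra.norm (FN (M * q))
        (FN (M * q * q)) _ _ (algebraAlong (heckeBetaBar Kbar (M * q) q))
        (⟨(f : Om), hS.mem_field f⟩ : FN (M * q * q)) * b : FN (M * q)) : Om) := by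
      rw [Subring.coe_mul, hgf, hyOc, ← map_mul]
      rfl
    rw [e]
    exact key
  · rw [map_mul, hgfρ, hfy]
    have hi : ∀ t : K0Plan.BK3 A M,
        K0Plan.iota3 A M t = ((t.1 : Omk A), (t.2.1 : Omk A), (t.2.2 : Omk A)) := fun t => rfl
    rw [NormPull.rho3_apply, hi, hi]
    refine Prod.ext ?_ (Prod.ext ?_ ?_)
    · show ((y.1 : Omk A) * ξ.1) ^ q * ρ yO .inf =
        ((η₁ • y.1 ^ q : ↥(K0Plan.BKM A M)) : Omk A)
      rw [Subalgebra.coe_smul, SubmonoidClass.coe_pow, Algebra.smul_def, algebraMap_LS_eq_C,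
        ← hη₁]
      ring
    · show ((y.2.1 : Omk A) * ξ.2.1) ^ (q - 1) * ((y.2.2 : Omk A) * ξ.2.2) * ρ yO (.mid ξ₀) =
        ((η₂ • (y.2.1 ^ (q - 1) * y.2.2) : ↥(K0Plan.BKM A M)) : Omk A)
      rw [hyOmid, Subalgebra.coe_smul, MulMemClass.coe_mul, SubmonoidClass.coe_pow,
        Algebra.smul_def, algebraMap_LS_eq_C, ← hη₂]
      ring
    · show ((y.2.1 : Omk A) * ξ.2.1) ^ (q - 1) * ((y.2.2 : Omk A) * ξ.2.2) * ρ yO .zero =
        ((η₂ • (y.2.1 ^ (q - 1) * y.2.2) : ↥(K0Plan.BKM A M)) : Omk A)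
      rw [Subalgebra.coe_smul, MulMemClass.coe_mul, SubmonoidClass.coe_pow,
        Algebra.smul_def, algebraMap_LS_eq_C, ← hη₂]
      ring

end Main

end Fermat.Agent.S36.NormTwBeta
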