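import Mathlib

set_option autoImplicit false

namespace Fermat.Agent.S36.NthRoot

variable {k B : Type*} [Field k] [CommRing B] [Algebra k B]

/-- a geometric sum of elements congruent to `1` modulo `r` is congruent to `n`. -/
theorem exists_geom_eq (r y b : B) (hy : ∃ c, y = 1 + r * c) (hb : ∃ c, b = 1 + r * c) (n : ℕ) :
    ∃ Z : B, ∑ i ∈ Finset.range n, y ^ i * b ^ (n - 1 - i) = (n : B) + r * Z := by
  have hmem : ∀ z : B, (∃ c, z = 1 + r * c) → Ideal.Quotient.mk (Ideal.span {r}) z = 1 := by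
    rintro z ⟨c, rfl⟩
    rw [map_add, map_one, map_mul]
    have : Ideal.Quotient.mk (Ideal.span {r}) r = 0 :=
      Ideal.Quotient.eq_zero_iff_mem.2 (Ideal.subset_span rfl)
    rw [this, zero_mul, add_zero]
  have h1 : Ideal.Quotient.mk (Ideal.span {r})
      (∑ i ∈ Finset.range n, y ^ i * b ^ (n - 1 - i) - (n : B)) = 0 := by
    rw [map_sub, map_sum, map_natCast]
    have : ∀ i ∈ Finset.range n,
        Ideal.Quotient.mk (Ideal.span {r}) (y ^ i * b ^ (n - 1 - i)) = 1 := by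
      intro i _
      rw [map_mul, map_pow, map_pow, hmem y hy, hmem b hb, one_pow, one_pow, one_mul]
    rw [Finset.sum_congr rfl this]
    simp
  rw [Ideal.Quotient.eq_zero_iff_mem, Ideal.mem_span_singleton'] at h1
  obtain ⟨Z, hZ⟩ := h1
  exact ⟨Z, by linear_combination -hZ⟩

/-- one Hensel step: if `y = b + r^m e` with `b ∈ S`, `r = y - 1`, `m ≥ 1`, and `y^n ∈ S`,
then `y = b' + r^(m+1) e'` with `b' ∈ S`. -/
theorem step (S : Subalgebra k B) (n : ℕ) (hn : (n : k) ≠ 0) (y : B) (hy : y ^ n ∈ S)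
    (m : ℕ) (hm : 1 ≤ m) (b e : B) (hb : b ∈ S) (hyb : y = b + (y - 1) ^ m * e) :
    ∃ b' e' : B, b' ∈ S ∧ y = b' + (y - 1) ^ (m + 1) * e' := by
  obtain ⟨m', rfl⟩ : ∃ m', m = m' + 1 := ⟨m - 1, by omega⟩
  have hy1 : ∃ c, y = 1 + (y - 1) * c := ⟨1, by ring⟩
  have hb1 : ∃ c, b = 1 + (y - 1) * c := ⟨1 - (y - 1) ^ m' * e, by linear_combination (-1 : B) * hyb⟩
  obtain ⟨Z, hZ⟩ := exists_geom_eq (y - 1) y b hy1 hb1 n
  have hgeom := (Commute.all y b).geom_sum₂_mul n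
  -- `y^n - b^n = (n + r Z) * (r^m e)`
  have hdiff : y ^ n - b ^ n = ((n : B) + (y - 1) * Z) * ((y - 1) ^ (m' + 1) * e) := by
    rw [← hgeom, hZ]
    congr 1
    linear_combination hyb
  set c : B := algebraMap k B (n : k)⁻¹ with hc
  have hcn : c * (n : B) = 1 := by
    rw [hc, ← map_natCast (algebraMap k B), ← map_mul, inv_mul_cancel₀ hn, map_one]
  refine ⟨b + c * (y ^ n - b ^ n), -(c * e * Z), ?_, ?_⟩
  · refine S.add_mem hb (S.mul_mem (S.algebraMap_mem _) (S.sub_mem hy (S.pow_mem hb n)))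
  · rw [hdiff]
    have e1 : (y - 1) ^ (m' + 1 + 1) = (y - 1) ^ (m' + 1) * (y - 1) := pow_succ _ _
    rw [e1]
    linear_combination hyb - (y - 1) ^ (m' + 1) * e * hcn

/-- **Unipotent `n`-th roots.** `S ⊆ B` a `k`-subalgebra, `n` invertible in `k`, `y ∈ B` with
`(y - 1)^N * B ⊆ S` and `y^n ∈ S`.  Then `y ∈ S`. -/
theorem mem_of_pow_mem (S : Subalgebra k B) (n : ℕ) (hn : (n : k) ≠ 0) (y : B) (N : ℕ)
    (hN : ∀ e : B, (y - 1) ^ N * e ∈ S) (hy : y ^ n ∈ S) : y ∈ S := by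
  have key : ∀ m : ℕ, 1 ≤ m → ∃ b e : B, b ∈ S ∧ y = b + (y - 1) ^ m * e := by
    intro m hm
    induction m, hm using Nat.le_induction with
    | base => exact ⟨1, 1, S.one_mem, by ring⟩
    | succ m hm ih =>
      obtain ⟨b, e, hb, hyb⟩ := ih
      exact step S n hn y hy m hm b e hb hyb
  obtain ⟨b, e, hb, hyb⟩ := key (N + 1) (Nat.le_add_left 1 N)
  rw [hyb]
  refine S.add_mem hb ?_
  have := hN ((y - 1) * e)
  have h2 : (y - 1) ^ (N + 1) * e = (y - 1) ^ N * ((y - 1) * e) := by ring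
  rw [h2]
  exact this

end Fermat.Agent.S36.NthRoot
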