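import Mathlib
import Fermat.Agent.S36.OneComp
import Fermat.Agent.S36.SetupQ2
import Fermat.Agent.S36.K0ScaleFrame

/-!
# S36 / P8 — [VNORM-H]: a function with prescribed Gauss exponents (helper17)

`A` a valuation subring of `Q̄` over the prime `q`, `F : Plan.Frame M q h` the level-`q²` frame.
For all integers `k₁ k₂` there is a function `H` of level `N` (`q² ∣ N`), fixed by the whole
Galois group, such that `q^(-k₁) · ε_∞ H`, `q^(-k₂) · ε_ξ H` (every middle cusp `ξ`) and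
`ε_0 H` are units of `Ocal A`:

  `H = q^k₁ · zInf^e + q^k₂ · zMid^e + zZero^e`,  `e = (q - 1) (|k₁| + |k₂| + 1)`,

with the one-component elements of `S36/OneComp`.  Only "reduction `≠ 0` on one coordinate,
`= 0` on the others" and the discreteness of the Gauss values of `K₀`-rational functions
(`S36/K0ScaleFrame`) are used; no exact value of a polynomial in `j`, `j_{q²}` is needed, so
the construction is valid for every prime `q` (including `q = 2, 3`).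

* `div_q_pow`      : a fixed `x`, integral with zero reduction at a coordinate `i`, has
                     `q⁻¹ · (ε_i x)^(q-1)` integral there;
* `core`           : the sum lemma in `Ocal A`;
* `exists_H`       : the statement above (`hH` of `VNorm.exists_normalised`, frame vocabulary);
* `exists_H_level` : the same at the divisor level `N' * q`, with `Plan`-style inertia-fixedness.
-/

set_option autoImplicit false
set_option linter.unusedSectionVars false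

noncomputable section

namespace Fermat.Agent.S36.OneCompH

open ModularCurve AlgebraicCurve Fermat.Agent.S24 Fermat.Agent.S18 Fermat.Agent.S18.Content
  Fermat.Agent.S18.Plan Fermat.Agent.S34 Fermat.Agent.S36.OneComp

/-! ## Constants -/

section Const

variable (A : ValuationSubring Kbar) {q : ℕ}

/-- `q^s ∈ A` for `s ≥ 0`. -/
theorem zpow_mem (hA : A.LiesOverPrime q) {s : ℤ} (hs : 0 ≤ s) : (q : Kbar) ^ s ∈ A := by
  have hqA : (q : Kbar) ∈ A := A.nonunits_subset hA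
  obtain ⟨n, rfl⟩ := Int.eq_ofNat_of_zero_le hs
  rw [zpow_natCast]
  exact A.pow_mem hqA n

/-- `q^s` is in the maximal ideal of `A` for `s ≥ 1`. -/
theorem zpow_mem_maximalIdeal (hA : A.LiesOverPrime q) {s : ℤ} (hs : 1 ≤ s) :
    (⟨(q : Kbar) ^ s, zpow_mem A hA (by omega)⟩ : A) ∈ IsLocalRing.maximalIdeal A := by
  rw [ValuationSubring.valuation_lt_one_iff]
  have h1 : A.valuation (q : Kbar) < 1 := (ValuationSubring.mem_nonunits_iff A).mp hA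
  obtain ⟨n, rfl⟩ := Int.eq_ofNat_of_zero_le (show (0 : ℤ) ≤ s by omega)
  have hn : n ≠ 0 := by omega
  show A.valuation ((q : Kbar) ^ (n : ℤ)) < 1
  rw [zpow_natCast, map_pow]
  exact pow_lt_one₀ zero_le h1 hn

/-- A multiple of an integral series by `q^s`, `s ≥ 1`, is integral with zero reduction. -/
theorem small (hA : A.LiesOverPrime q) {s : ℤ} (hs : 1 ≤ s) {y : Om} (hy : y ∈ Ocal A) :
    ∃ h : HahnSeries.C ((q : Kbar) ^ s) * y ∈ Ocal A, red A ⟨_, h⟩ = 0 := by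
  have hc : (q : Kbar) ^ s ∈ A := zpow_mem A hA (by omega)
  have hmem : HahnSeries.C ((q : Kbar) ^ s) * ((⟨y, hy⟩ : Ocal A) : Om) ∈ Ocal A :=
    (Ocal A).mul_mem (C_mem_Ocal A hc) hy
  refine ⟨hmem, ?_⟩
  rw [red_C_mul A hc ⟨y, hy⟩ hmem,
    (IsLocalRing.residue_eq_zero_iff _).mpr (zpow_mem_maximalIdeal A hA hs), map_zero, zero_mul]

/-- **The sum lemma**: `a` a unit of `Ocal`, `b^(q-1)` and `c^(q-1)` divisible by `q` in `Ocal`;
then `a^((q-1)t) + q^s₁ b^((q-1)t) + q^s₂ c^((q-1)t)` is a unit of `Ocal` as soon as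
`s₁ + t ≥ 1` and `s₂ + t ≥ 1`. -/
theorem core (hq0 : q ≠ 0) (hA : A.LiesOverPrime q) {a b c : Om} (ha : a ∈ Ocal A)
    (hane : red A ⟨a, ha⟩ ≠ 0)
    (hb : HahnSeries.C ((q : Kbar)⁻¹) * b ^ (q - 1) ∈ Ocal A)
    (hc : HahnSeries.C ((q : Kbar)⁻¹) * c ^ (q - 1) ∈ Ocal A)
    (t : ℕ) (s₁ s₂ : ℤ) (h₁ : 1 ≤ s₁ + t) (h₂ : 1 ≤ s₂ + t) :
    ∃ h : a ^ ((q - 1) * t) + HahnSeries.C ((q : Kbar) ^ s₁) * b ^ ((q - 1) * t)
        + HahnSeries.C ((q : Kbar) ^ s₂) * c ^ ((q - 1) * t) ∈ Ocal A, red A ⟨_, h⟩ ≠ 0 := by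
  have hqK : (q : Kbar) ≠ 0 := Nat.cast_ne_zero.mpr hq0
  -- the two small terms
  have key : ∀ (b : Om) (s : ℤ), HahnSeries.C ((q : Kbar)⁻¹) * b ^ (q - 1) ∈ Ocal A →
      1 ≤ s + t → ∃ h : HahnSeries.C ((q : Kbar) ^ s) * b ^ ((q - 1) * t) ∈ Ocal A,
        red A ⟨_, h⟩ = 0 := by
    intro b s hb hs
    have e : HahnSeries.C ((q : Kbar) ^ s) * b ^ ((q - 1) * t) =
        HahnSeries.C ((q : Kbar) ^ (s + t)) *
          (HahnSeries.C ((q : Kbar)⁻¹) * b ^ (q - 1)) ^ t := by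
      have e1 : (HahnSeries.C ((q : Kbar)⁻¹) : Om) ^ t = HahnSeries.C (((q : Kbar)⁻¹) ^ t) :=
        (map_pow _ _ _).symm
      rw [mul_pow, ← pow_mul, e1, ← mul_assoc, ← map_mul]
      congr 2
      rw [zpow_add₀ hqK, zpow_natCast, mul_assoc, ← mul_pow, mul_inv_cancel₀ hqK, one_pow,
        mul_one]
    obtain ⟨h', h0⟩ := small A hA hs ((Ocal A).pow_mem hb t)
    have hmem : HahnSeries.C ((q : Kbar) ^ s) * b ^ ((q - 1) * t) ∈ Ocal A := by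
      rw [e]; exact h'
    exact ⟨hmem, (red_congr A e hmem h').trans h0⟩
  obtain ⟨hb', hb0⟩ := key b s₁ hb h₁
  obtain ⟨hc', hc0⟩ := key c s₂ hc h₂
  have hmem : a ^ ((q - 1) * t) + HahnSeries.C ((q : Kbar) ^ s₁) * b ^ ((q - 1) * t)
      + HahnSeries.C ((q : Kbar) ^ s₂) * c ^ ((q - 1) * t) ∈ Ocal A :=
    (Ocal A).add_mem ((Ocal A).add_mem ((Ocal A).pow_mem ha _) hb') hc'
  refine ⟨hmem, ?_⟩
  have e : (⟨_, hmem⟩ : Ocal A) = (⟨a, ha⟩ : Ocal A) ^ ((q - 1) * t) + ⟨_, hb'⟩ + ⟨_, hc'⟩ :=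
    Subtype.ext rfl
  rw [e, map_add, map_add, map_pow, hb0, hc0, add_zero, add_zero]
  exact pow_ne_zero _ hane

end Const

/-! ## Divisibility by `q` -/

section Div

variable {M q : ℕ} [NeZero M] [NeZero q] {h : Nat.Coprime M q}
variable {A : ValuationSubring Kbar}

/-- At `∞` and at `0` (any expansion `y` which becomes a unit after scaling by a power of `q`):
integral with zero reduction ⟹ divisible by `q`. -/
theorem div_q_of_scale (hA : A.LiesOverPrime q) {y : Om} (hy : y ∈ Ocal A)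
    (h0 : red A ⟨y, hy⟩ = 0)
    (hsc : ∃ (m : ℤ) (h' : HahnSeries.C ((q : Kbar) ^ m) * y ∈ Ocal A), red A ⟨_, h'⟩ ≠ 0) :
    HahnSeries.C ((q : Kbar)⁻¹) * y ∈ Ocal A := by
  have hq0 : (q : Kbar) ≠ 0 := Nat.cast_ne_zero.mpr (NeZero.ne q)
  obtain ⟨m, h', hne⟩ := hsc
  have hm : m ≤ -1 := by
    by_contra hcon
    have hm0 : 0 ≤ m := by omega
    have hc : (q : Kbar) ^ m ∈ A := zpow_mem A hA hm0
    exact hne (by rw [red_C_mul A hc ⟨y, hy⟩ h', h0, mul_zero])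
  have e : HahnSeries.C ((q : Kbar)⁻¹) * y =
      HahnSeries.C ((q : Kbar) ^ (-1 - m)) * (HahnSeries.C ((q : Kbar) ^ m) * y) := by
    rw [← mul_assoc, ← map_mul, ← zpow_add₀ hq0]
    congr 2
    rw [show -1 - m + m = -1 by ring, zpow_neg_one]
  rw [e]
  exact (Ocal A).mul_mem (C_mem_Ocal A (zpow_mem A hA (by omega))) h'

/-- **Divisibility at a coordinate**: an inertia-fixed `x ∈ F_{Mq²}`, integral with zero
reduction at the coordinate `i`, has `q⁻¹ · (ε_i x)^(q-1)` integral. -/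
theorem div_q_pow (hq : q.Prime) (hA : A.LiesOverPrime q) (F : Plan.Frame M q h)
    (x : FN (M * q * q))
    (hfix : ∀ τ : Kbar ≃ₐ[ℚ] Kbar, τ ∈ A.inertiaSubgroupIn ℚ →
      S34.Plan.gal (M * q * q) τ • x = x) (i : Plan.Coord q)
    (h' : F.emb i x ∈ Ocal A) (h0 : red A ⟨_, h'⟩ = 0) :
    HahnSeries.C ((q : Kbar)⁻¹) * F.emb i x ^ (q - 1) ∈ Ocal A := by
  have hq0 : (q : Kbar) ≠ 0 := Nat.cast_ne_zero.mpr hq.ne_zero
  have hq2 : q - 1 = (q - 2) + 1 := by have := hq.two_le; omega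
  by_cases hx0 : x = 0
  · rw [hx0, map_zero, zero_pow (by have := hq.two_le; omega), mul_zero]
    exact (Ocal A).zero_mem
  -- `∞`, `0`: divisible by `q`
  have hlin : HahnSeries.C ((q : Kbar)⁻¹) * F.emb i x ∈ Ocal A →
      HahnSeries.C ((q : Kbar)⁻¹) * F.emb i x ^ (q - 1) ∈ Ocal A := by
    intro hd
    rw [hq2, pow_succ', ← mul_assoc]
    exact (Ocal A).mul_mem hd ((Ocal A).pow_mem h' _)
  cases i with
  | inf => exact hlin (div_q_of_scale hA h' h0 (K0ScaleFrame.exists_scale_inf A hq hA F x hx0 hfix))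
  | zero =>
    exact hlin (div_q_of_scale hA h' h0 (K0ScaleFrame.exists_scale_zero A hq hA F x hx0 hfix))
  | mid ξ =>
    have hd := K0ScaleFrame.div_mid_mem_Ocal A hq hA F x hfix ξ h' h0
    have hξ' : IsPrimitiveRoot (ξ.1 : Kbar) q := IsPrimitiveRoot.coe_units_iff.mpr ξ.2
    have hπ0 : (ξ.1 : Kbar) - 1 ≠ 0 := InertiaFieldZeta.zeta_sub_one_ne_zero q hq _ hξ'
    have hval : A.valuation (((ξ.1 : Kbar) - 1) ^ (q - 1) / (q : Kbar)) = 1 := by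
      rw [map_div₀, map_pow, InertiaFieldZeta.val_zeta_sub_one_pow A q hq _ hξ']
      exact div_self ((Valuation.ne_zero_iff _).mpr hq0)
    have hcA : ((ξ.1 : Kbar) - 1) ^ (q - 1) / (q : Kbar) ∈ A :=
      (A.valuation_le_one_iff _).mp hval.le
    have e : HahnSeries.C ((q : Kbar)⁻¹) * F.emb (.mid ξ) x ^ (q - 1) =
        HahnSeries.C (((ξ.1 : Kbar) - 1) ^ (q - 1) / (q : Kbar)) *
          (HahnSeries.C (((ξ.1 : Kbar) - 1)⁻¹) * F.emb (.mid ξ) x) ^ (q - 1) := by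
      have e1 : (HahnSeries.C (((ξ.1 : Kbar) - 1)⁻¹) : Om) ^ (q - 1) =
          HahnSeries.C ((((ξ.1 : Kbar) - 1)⁻¹) ^ (q - 1)) := (map_pow _ _ _).symm
      rw [mul_pow, e1, ← mul_assoc, ← map_mul]
      congr 2
      rw [inv_pow, div_mul_eq_mul_div, mul_inv_cancel₀ (pow_ne_zero _ hπ0), one_div]
    rw [e]
    exact (Ocal A).mul_mem (C_mem_Ocal A hcA) ((Ocal A).pow_mem hd _)

end Div

/-! ## The function `H` -/

section Main

variable {M q : ℕ} [NeZero M] [NeZero q] {h : Nat.Coprime M q}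
variable {A : ValuationSubring Kbar}

/-- An element of `F_{Mq²}` with the expansion of a Galois-fixed element of `F_N` is
Galois-fixed. -/
theorem gal_smul_of_coe {N : ℕ} [NeZero N] {z : FN N}
    (hz : ∀ τ : Kbar ≃ₐ[ℚ] Kbar, S34.Plan.gal N τ • z = z) {x : FN (M * q * q)}
    (hx : (x : Om) = (z : Om)) (τ : Kbar ≃ₐ[ℚ] Kbar) :
    S34.Plan.gal (M * q * q) τ • x = x := by
  apply Subtype.ext
  have h1 : ((S34.Plan.gal (M * q * q) τ • x : FN (M * q * q)) : Om) =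
      coeffMap (τ : Kbar →+* Kbar) (x : Om) := rfl
  have h2 : ((S34.Plan.gal N τ • z : FN N) : Om) = coeffMap (τ : Kbar →+* Kbar) (z : Om) := rfl
  rw [h1, hx, ← h2, hz τ]

/-- The Galois group fixes the constant `q^k`. -/
theorem gal_smul_const (N : ℕ) [NeZero N] (k : ℤ) (τ : Kbar ≃ₐ[ℚ] Kbar) :
    S34.Plan.gal N τ • algebraMap Kbar (FN N) ((q : Kbar) ^ k) =
      algebraMap Kbar (FN N) ((q : Kbar) ^ k) := by
  rw [SemilinearAut.smul_algebraMap, baseAut_arithmeticGalois]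
  congr 1
  show τ ((q : Kbar) ^ k) = (q : Kbar) ^ k
  rw [map_zpow₀, map_natCast]

/-- The element `H = q^k₁ · zInf^e + q^k₂ · zMid^e + zZero^e`. -/
def Hfun (N q : ℕ) [NeZero N] [NeZero q] (hqq : q * q ∣ N) (k₁ k₂ : ℤ) (e : ℕ) : FN N :=
  algebraMap Kbar (FN N) ((q : Kbar) ^ k₁) * zInf N q hqq ^ e +
    algebraMap Kbar (FN N) ((q : Kbar) ^ k₂) * zMid N q hqq ^ e + zZero N q hqq ^ e

theorem coe_Hfun (N : ℕ) [NeZero N] (hqq : q * q ∣ N) (k₁ k₂ : ℤ) (e : ℕ) :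
    ((Hfun N q hqq k₁ k₂ e : FN N) : Om) =
      HahnSeries.C ((q : Kbar) ^ k₁) * ((zInf N q hqq : FN N) : Om) ^ e +
        HahnSeries.C ((q : Kbar) ^ k₂) * ((zMid N q hqq : FN N) : Om) ^ e +
        ((zZero N q hqq : FN N) : Om) ^ e := by
  have e1 : ((Hfun N q hqq k₁ k₂ e : FN N) : Om) =
      ((algebraMap Kbar (FN N) ((q : Kbar) ^ k₁) : FN N) : Om) *
          ((zInf N q hqq : FN N) : Om) ^ e +
        ((algebraMap Kbar (FN N) ((q : Kbar) ^ k₂) : FN N) : Om) *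
          ((zMid N q hqq : FN N) : Om) ^ e +
        ((zZero N q hqq : FN N) : Om) ^ e := rfl
  rw [e1, SetupQ2.coe_algebraMap_FN, SetupQ2.coe_algebraMap_FN]

theorem gal_smul_Hfun (N : ℕ) [NeZero N] (hqq : q * q ∣ N) (k₁ k₂ : ℤ) (e : ℕ)
    (τ : Kbar ≃ₐ[ℚ] Kbar) :
    S34.Plan.gal N τ • Hfun N q hqq k₁ k₂ e = Hfun N q hqq k₁ k₂ e := by
  rw [Hfun, smul_add, smul_add, smul_mul', smul_mul', smul_pow', smul_pow', smul_pow',
    gal_smul_zInf, gal_smul_zMid, gal_smul_zZero, gal_smul_const, gal_smul_const]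

/-- The candidate at the top level. -/
def cand (M q : ℕ) [NeZero M] [NeZero q] (k₁ k₂ : ℤ) (e : ℕ) (xI xM xZ : FN (M * q * q)) :
    FN (M * q * q) :=
  algebraMap Kbar (FN (M * q * q)) ((q : Kbar) ^ k₁) * xI ^ e +
    algebraMap Kbar (FN (M * q * q)) ((q : Kbar) ^ k₂) * xM ^ e + xZ ^ e

theorem coe_cand (k₁ k₂ : ℤ) (e : ℕ) (xI xM xZ : FN (M * q * q)) :
    ((cand M q k₁ k₂ e xI xM xZ : FN (M * q * q)) : Om) =
      HahnSeries.C ((q : Kbar) ^ k₁) * (xI : Om) ^ e +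
        HahnSeries.C ((q : Kbar) ^ k₂) * (xM : Om) ^ e + (xZ : Om) ^ e := by
  have e1 : ((cand M q k₁ k₂ e xI xM xZ : FN (M * q * q)) : Om) =
      ((algebraMap Kbar (FN (M * q * q)) ((q : Kbar) ^ k₁) : FN (M * q * q)) : Om) *
          (xI : Om) ^ e +
        ((algebraMap Kbar (FN (M * q * q)) ((q : Kbar) ^ k₂) : FN (M * q * q)) : Om) *
          (xM : Om) ^ e + (xZ : Om) ^ e := rfl
  rw [e1, SetupQ2.coe_algebraMap_FN, SetupQ2.coe_algebraMap_FN]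

/-- **The frame-level sum lemma**: three inertia-fixed elements of `F_{Mq²}`, each a unit on one
kind of coordinate and with zero reduction on the others; then
`x = q^k₁ · xI^e + q^k₂ · xM^e + xZ^e`, `e = (q - 1) t`, `t > |k₁| + |k₂|`, has Gauss exponents
`(k₁, k₂, 0)`. -/
theorem spec_of_three (hq : q.Prime) (hA : A.LiesOverPrime q) (F : Plan.Frame M q h)
    (xI xM xZ : FN (M * q * q))
    (fixI : ∀ τ : Kbar ≃ₐ[ℚ] Kbar, τ ∈ A.inertiaSubgroupIn ℚ →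
      S34.Plan.gal (M * q * q) τ • xI = xI)
    (fixM : ∀ τ : Kbar ≃ₐ[ℚ] Kbar, τ ∈ A.inertiaSubgroupIn ℚ →
      S34.Plan.gal (M * q * q) τ • xM = xM)
    (fixZ : ∀ τ : Kbar ≃ₐ[ℚ] Kbar, τ ∈ A.inertiaSubgroupIn ℚ →
      S34.Plan.gal (M * q * q) τ • xZ = xZ)
    (memI : ∀ i, F.emb i xI ∈ Ocal A) (memM : ∀ i, F.emb i xM ∈ Ocal A)
    (memZ : ∀ i, F.emb i xZ ∈ Ocal A)
    (hI1 : red A ⟨_, memI .inf⟩ ≠ 0) (hI2 : red A ⟨_, memI .zero⟩ = 0)
    (hI3 : ∀ ξ, red A ⟨_, memI (.mid ξ)⟩ = 0)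
    (hM1 : red A ⟨_, memM .inf⟩ = 0) (hM2 : red A ⟨_, memM .zero⟩ = 0)
    (hM3 : ∀ ξ, red A ⟨_, memM (.mid ξ)⟩ ≠ 0)
    (hZ1 : red A ⟨_, memZ .inf⟩ = 0) (hZ2 : red A ⟨_, memZ .zero⟩ ≠ 0)
    (hZ3 : ∀ ξ, red A ⟨_, memZ (.mid ξ)⟩ = 0)
    (k₁ k₂ : ℤ) (t : ℕ) (ht : k₁.natAbs + k₂.natAbs + 1 ≤ t) (x : FN (M * q * q))
    (hx : x = cand M q k₁ k₂ ((q - 1) * t) xI xM xZ) :
    (∃ h₁ : HahnSeries.C ((q : Kbar) ^ (-k₁)) * F.emb .inf x ∈ Ocal A, red A ⟨_, h₁⟩ ≠ 0) ∧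
    (∀ ξ : Plan.MidIdx q,
      ∃ h₂ : HahnSeries.C ((q : Kbar) ^ (-k₂)) * F.emb (.mid ξ) x ∈ Ocal A,
        red A ⟨_, h₂⟩ ≠ 0) ∧
    (∃ h₃ : F.emb .zero x ∈ Ocal A, red A ⟨_, h₃⟩ ≠ 0) := by
  have hqK : (q : Kbar) ≠ 0 := Nat.cast_ne_zero.mpr hq.ne_zero
  have hemb : ∀ i, F.emb i x =
      HahnSeries.C ((q : Kbar) ^ k₁) * F.emb i xI ^ ((q - 1) * t) +
        HahnSeries.C ((q : Kbar) ^ k₂) * F.emb i xM ^ ((q - 1) * t) +
        F.emb i xZ ^ ((q - 1) * t) := by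
    intro i
    have e0 : F.emb i x = (F.emb i).toRingHom x := rfl
    have ec : ∀ c : Kbar, (F.emb i).toRingHom (algebraMap Kbar (FN (M * q * q)) c) =
        HahnSeries.C c := fun c => SetupQ2.emb_algebraMap F i c
    rw [e0, hx, cand, map_add, map_add, map_mul, map_mul, map_pow, map_pow, map_pow, ec, ec]
    rfl
  refine ⟨?_, fun ξ => ?_, ?_⟩
  · -- `∞`
    obtain ⟨hmem, hne⟩ := core A hq.ne_zero hA (memI .inf) hI1
      (div_q_pow hq hA F xM fixM .inf (memM .inf) hM1)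
      (div_q_pow hq hA F xZ fixZ .inf (memZ .inf) hZ1)
      t (-k₁ + k₂) (-k₁) (by omega) (by omega)
    have hc1 : (HahnSeries.C ((q : Kbar) ^ (-k₁)) : Om) * HahnSeries.C ((q : Kbar) ^ k₁) = 1 := by
      rw [← map_mul, ← zpow_add₀ hqK, neg_add_cancel, zpow_zero, map_one]
    have hc2 : (HahnSeries.C ((q : Kbar) ^ (-k₁)) : Om) * HahnSeries.C ((q : Kbar) ^ k₂) =
        HahnSeries.C ((q : Kbar) ^ (-k₁ + k₂)) := by
      rw [← map_mul, ← zpow_add₀ hqK]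
    have e : HahnSeries.C ((q : Kbar) ^ (-k₁)) * F.emb .inf x =
        F.emb .inf xI ^ ((q - 1) * t) +
          HahnSeries.C ((q : Kbar) ^ (-k₁ + k₂)) * F.emb .inf xM ^ ((q - 1) * t) +
          HahnSeries.C ((q : Kbar) ^ (-k₁)) * F.emb .inf xZ ^ ((q - 1) * t) := by
      rw [hemb .inf]
      linear_combination (F.emb .inf xI ^ ((q - 1) * t)) * hc1 +
        (F.emb .inf xM ^ ((q - 1) * t)) * hc2
    have hmem' : HahnSeries.C ((q : Kbar) ^ (-k₁)) * F.emb .inf x ∈ Ocal A := by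
      rw [e]; exact hmem
    exact ⟨hmem', by rw [red_congr A e hmem' hmem]; exact hne⟩
  · -- the middle coordinates
    obtain ⟨hmem, hne⟩ := core A hq.ne_zero hA (memM (.mid ξ)) (hM3 ξ)
      (div_q_pow hq hA F xI fixI (.mid ξ) (memI (.mid ξ)) (hI3 ξ))
      (div_q_pow hq hA F xZ fixZ (.mid ξ) (memZ (.mid ξ)) (hZ3 ξ))
      t (-k₂ + k₁) (-k₂) (by omega) (by omega)
    have hc1 : (HahnSeries.C ((q : Kbar) ^ (-k₂)) : Om) * HahnSeries.C ((q : Kbar) ^ k₂) = 1 := by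
      rw [← map_mul, ← zpow_add₀ hqK, neg_add_cancel, zpow_zero, map_one]
    have hc2 : (HahnSeries.C ((q : Kbar) ^ (-k₂)) : Om) * HahnSeries.C ((q : Kbar) ^ k₁) =
        HahnSeries.C ((q : Kbar) ^ (-k₂ + k₁)) := by
      rw [← map_mul, ← zpow_add₀ hqK]
    have e : HahnSeries.C ((q : Kbar) ^ (-k₂)) * F.emb (.mid ξ) x =
        F.emb (.mid ξ) xM ^ ((q - 1) * t) +
          HahnSeries.C ((q : Kbar) ^ (-k₂ + k₁)) * F.emb (.mid ξ) xI ^ ((q - 1) * t) +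
          HahnSeries.C ((q : Kbar) ^ (-k₂)) * F.emb (.mid ξ) xZ ^ ((q - 1) * t) := by
      rw [hemb (.mid ξ)]
      linear_combination (F.emb (.mid ξ) xM ^ ((q - 1) * t)) * hc1 +
        (F.emb (.mid ξ) xI ^ ((q - 1) * t)) * hc2
    have hmem' : HahnSeries.C ((q : Kbar) ^ (-k₂)) * F.emb (.mid ξ) x ∈ Ocal A := by
      rw [e]; exact hmem
    exact ⟨hmem', by rw [red_congr A e hmem' hmem]; exact hne⟩
  · -- `0`
    obtain ⟨hmem, hne⟩ := core A hq.ne_zero hA (memZ .zero) hZ2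
      (div_q_pow hq hA F xI fixI .zero (memI .zero) hI2)
      (div_q_pow hq hA F xM fixM .zero (memM .zero) hM2)
      t k₁ k₂ (by omega) (by omega)
    have e : F.emb .zero x =
        F.emb .zero xZ ^ ((q - 1) * t) +
          HahnSeries.C ((q : Kbar) ^ k₁) * F.emb .zero xI ^ ((q - 1) * t) +
          HahnSeries.C ((q : Kbar) ^ k₂) * F.emb .zero xM ^ ((q - 1) * t) := by
      rw [hemb .zero]; ring
    have hmem' : F.emb .zero x ∈ Ocal A := by rw [e]; exact hmem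
    exact ⟨hmem', by rw [red_congr A e hmem' hmem]; exact hne⟩

/-- The lift of `zInf` to `F_{Mq²}` with its integrality and reductions. -/
theorem exists_lift_zInf (hq : q.Prime) (hA : A.LiesOverPrime q) (F : Plan.Frame M q h) (N : ℕ)
    [NeZero N] (hqq : q * q ∣ N) :
    ∃ x : FN (M * q * q), (x : Om) = ((zInf N q hqq : FN N) : Om) ∧
      ∃ mem : ∀ i, F.emb i x ∈ Ocal A,
        red A ⟨_, mem .inf⟩ ≠ 0 ∧ red A ⟨_, mem .zero⟩ = 0 ∧
          ∀ ξ, red A ⟨_, mem (.mid ξ)⟩ = 0 := by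
  have hS := SetupQ2.isSetup A F
  have h1 := rho_zInf_inf_ne N hqq hq hA hS
  have h2 := rho_zInf_zero N hqq hq hA hS
  have h3 := rho_zInf_mid N hqq hq hA hS
  refine ⟨SetupQ2.IsSetup.toField hS ⟨_, zInf_mem N hqq hq hA hS⟩, rfl,
    fun i => SetupQ2.IsSetup.emb_mem hS _ i, ?_, ?_, fun ξ => ?_⟩
  · rwa [SetupQ2.IsSetup.rho_coe hS] at h1
  · rwa [SetupQ2.IsSetup.rho_coe hS] at h2
  · have h3' := h3 ξ
    rwa [SetupQ2.IsSetup.rho_coe hS] at h3'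

/-- The lift of `zMid` to `F_{Mq²}` with its integrality and reductions. -/
theorem exists_lift_zMid (hq : q.Prime) (hA : A.LiesOverPrime q) (F : Plan.Frame M q h) (N : ℕ)
    [NeZero N] (hqq : q * q ∣ N) :
    ∃ x : FN (M * q * q), (x : Om) = ((zMid N q hqq : FN N) : Om) ∧
      ∃ mem : ∀ i, F.emb i x ∈ Ocal A,
        red A ⟨_, mem .inf⟩ = 0 ∧ red A ⟨_, mem .zero⟩ = 0 ∧
          ∀ ξ, red A ⟨_, mem (.mid ξ)⟩ ≠ 0 := by
  have hS := SetupQ2.isSetup A F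
  have h1 := rho_zMid_inf N hqq hq hA hS
  have h2 := rho_zMid_zero N hqq hq hA hS
  have h3 := rho_zMid_mid_ne N hqq hq hA hS
  refine ⟨SetupQ2.IsSetup.toField hS ⟨_, zMid_mem N hqq hq hA hS⟩, rfl,
    fun i => SetupQ2.IsSetup.emb_mem hS _ i, ?_, ?_, fun ξ => ?_⟩
  · rwa [SetupQ2.IsSetup.rho_coe hS] at h1
  · rwa [SetupQ2.IsSetup.rho_coe hS] at h2
  · have h3' := h3 ξ
    rwa [SetupQ2.IsSetup.rho_coe hS] at h3'

/-- The lift of `zZero` to `F_{Mq²}` with its integrality and reductions. -/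
theorem exists_lift_zZero (hq : q.Prime) (hA : A.LiesOverPrime q) (F : Plan.Frame M q h) (N : ℕ)
    [NeZero N] (hqq : q * q ∣ N) :
    ∃ x : FN (M * q * q), (x : Om) = ((zZero N q hqq : FN N) : Om) ∧
      ∃ mem : ∀ i, F.emb i x ∈ Ocal A,
        red A ⟨_, mem .inf⟩ = 0 ∧ red A ⟨_, mem .zero⟩ ≠ 0 ∧
          ∀ ξ, red A ⟨_, mem (.mid ξ)⟩ = 0 := by
  have hS := SetupQ2.isSetup A F
  have h1 := rho_zZero_inf N hqq hq hA hS
  have h2 := rho_zZero_zero_ne N hqq hq hA hS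
  have h3 := rho_zZero_mid N hqq hq hA hS
  refine ⟨SetupQ2.IsSetup.toField hS ⟨_, zZero_mem N hqq hq hA hS⟩, rfl,
    fun i => SetupQ2.IsSetup.emb_mem hS _ i, ?_, ?_, fun ξ => ?_⟩
  · rwa [SetupQ2.IsSetup.rho_coe hS] at h1
  · rwa [SetupQ2.IsSetup.rho_coe hS] at h2
  · have h3' := h3 ξ
    rwa [SetupQ2.IsSetup.rho_coe hS] at h3'

/-- The three scaled-unit statements for every top-level `x` with the expansion of `Hfun`. -/
theorem Hfun_spec (hq : q.Prime) (hA : A.LiesOverPrime q) (F : Plan.Frame M q h) (N : ℕ)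
    [NeZero N] (hqq : q * q ∣ N) (k₁ k₂ : ℤ) (x : FN (M * q * q))
    (hx : (x : Om) =
      ((Hfun N q hqq k₁ k₂ ((q - 1) * (k₁.natAbs + k₂.natAbs + 1)) : FN N) : Om)) :
    (∃ h₁ : HahnSeries.C ((q : Kbar) ^ (-k₁)) * F.emb .inf x ∈ Ocal A, red A ⟨_, h₁⟩ ≠ 0) ∧
    (∀ ξ : Plan.MidIdx q,
      ∃ h₂ : HahnSeries.C ((q : Kbar) ^ (-k₂)) * F.emb (.mid ξ) x ∈ Ocal A,
        red A ⟨_, h₂⟩ ≠ 0) ∧
    (∃ h₃ : F.emb .zero x ∈ Ocal A, red A ⟨_, h₃⟩ ≠ 0) := by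
  obtain ⟨xI, hcI, memI, hI1, hI2, hI3⟩ := exists_lift_zInf (A := A) hq hA F N hqq
  obtain ⟨xM, hcM, memM, hM1, hM2, hM3⟩ := exists_lift_zMid (A := A) hq hA F N hqq
  obtain ⟨xZ, hcZ, memZ, hZ1, hZ2, hZ3⟩ := exists_lift_zZero (A := A) hq hA F N hqq
  have fixI : ∀ τ : Kbar ≃ₐ[ℚ] Kbar, τ ∈ A.inertiaSubgroupIn ℚ →
      S34.Plan.gal (M * q * q) τ • xI = xI :=
    fun τ _ => gal_smul_of_coe (gal_smul_zInf N q hqq) hcI τ
  have fixM : ∀ τ : Kbar ≃ₐ[ℚ] Kbar, τ ∈ A.inertiaSubgroupIn ℚ →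
      S34.Plan.gal (M * q * q) τ • xM = xM :=
    fun τ _ => gal_smul_of_coe (gal_smul_zMid N q hqq) hcM τ
  have fixZ : ∀ τ : Kbar ≃ₐ[ℚ] Kbar, τ ∈ A.inertiaSubgroupIn ℚ →
      S34.Plan.gal (M * q * q) τ • xZ = xZ :=
    fun τ _ => gal_smul_of_coe (gal_smul_zZero N q hqq) hcZ τ
  have hxc : x = cand M q k₁ k₂ ((q - 1) * (k₁.natAbs + k₂.natAbs + 1)) xI xM xZ := by
    apply Subtype.ext
    rw [hx, coe_cand, coe_Hfun, hcI, hcM, hcZ]
  exact spec_of_three hq hA F xI xM xZ fixI fixM fixZ memI memM memZ hI1 hI2 hI3 hM1 hM2 hM3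
    hZ1 hZ2 hZ3 k₁ k₂ (k₁.natAbs + k₂.natAbs + 1) le_rfl x hxc

theorem coe_zero_eq (N : ℕ) [NeZero N] :
    (((0 : FN (M * q * q)) : FN (M * q * q)) : Om) = (((0 : FN N) : FN N) : Om) := by
  rw [ZeroMemClass.coe_zero, ZeroMemClass.coe_zero]

theorem red_emb_zero_eq (F : Plan.Frame M q h) (i : Plan.Coord q)
    (h₃ : F.emb i (0 : FN (M * q * q)) ∈ Ocal A) : red A ⟨_, h₃⟩ = 0 := by
  have e : F.emb i (0 : FN (M * q * q)) = 0 := (F.emb i).toRingHom.map_zero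
  rw [red_congr A e h₃ (Ocal A).zero_mem]
  exact map_zero (red A)

/-- **[VNORM-H]** (`hH` of `VNorm.exists_normalised`, frame vocabulary): for all integers
`k₁ k₂` there is a function `H` of level `N` (`q² ∣ N`), fixed by `Gal(Q̄/ℚ)`, with Gauss
exponents `(k₁, k₂, 0)` at the coordinates `(∞, middle, 0)`, in units of `v(q)`. -/
theorem exists_H (hq : q.Prime) (hA : A.LiesOverPrime q) (F : Plan.Frame M q h) (N : ℕ)
    [NeZero N] (hqq : q * q ∣ N) (k₁ k₂ : ℤ) :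
    ∃ H : FN N, H ≠ 0 ∧ (∀ τ : Kbar ≃ₐ[ℚ] Kbar, S34.Plan.gal N τ • H = H) ∧
      ∀ x : FN (M * q * q), (x : Om) = (H : Om) →
        (∃ h₁ : HahnSeries.C ((q : Kbar) ^ (-k₁)) * F.emb .inf x ∈ Ocal A,
          red A ⟨_, h₁⟩ ≠ 0) ∧
        (∀ ξ : Plan.MidIdx q,
          ∃ h₂ : HahnSeries.C ((q : Kbar) ^ (-k₂)) * F.emb (.mid ξ) x ∈ Ocal A,
            red A ⟨_, h₂⟩ ≠ 0) ∧
        (∃ h₃ : F.emb .zero x ∈ Ocal A, red A ⟨_, h₃⟩ ≠ 0) := by
  refine ⟨Hfun N q hqq k₁ k₂ ((q - 1) * (k₁.natAbs + k₂.natAbs + 1)), ?_,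
    gal_smul_Hfun N hqq k₁ k₂ _, fun x hx => Hfun_spec hq hA F N hqq k₁ k₂ x hx⟩
  -- `H ≠ 0`
  intro hH0
  have hx0 : (((0 : FN (M * q * q)) : FN (M * q * q)) : Om) =
      ((Hfun N q hqq k₁ k₂ ((q - 1) * (k₁.natAbs + k₂.natAbs + 1)) : FN N) : Om) := by
    rw [hH0]
    exact coe_zero_eq N
  obtain ⟨h₃, hne⟩ := (Hfun_spec (A := A) hq hA F N hqq k₁ k₂ 0 hx0).2.2
  exact hne (red_emb_zero_eq F .zero h₃)

/-- **[VNORM-H]** with the level inclusion spelled out. -/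
theorem exists_H_incl (hq : q.Prime) (hA : A.LiesOverPrime q) (F : Plan.Frame M q h) (N : ℕ)
    [NeZero N] (hqq : q * q ∣ N)
    (hle : modularFunctionFieldBar N ≤ modularFunctionFieldBar (M * q * q)) (k₁ k₂ : ℤ) :
    ∃ H : FN N, H ≠ 0 ∧ (∀ τ : Kbar ≃ₐ[ℚ] Kbar, S34.Plan.gal N τ • H = H) ∧
      (∃ h₁ : HahnSeries.C ((q : Kbar) ^ (-k₁)) *
          F.emb .inf (⟨(H : Om), hle H.2⟩ : FN (M * q * q)) ∈ Ocal A, red A ⟨_, h₁⟩ ≠ 0) ∧
      (∀ ξ : Plan.MidIdx q,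
        ∃ h₂ : HahnSeries.C ((q : Kbar) ^ (-k₂)) *
            F.emb (.mid ξ) (⟨(H : Om), hle H.2⟩ : FN (M * q * q)) ∈ Ocal A,
          red A ⟨_, h₂⟩ ≠ 0) ∧
      (∃ h₃ : F.emb .zero (⟨(H : Om), hle H.2⟩ : FN (M * q * q)) ∈ Ocal A,
        red A ⟨_, h₃⟩ ≠ 0) := by
  obtain ⟨H, hH0, hfix, hspec⟩ := exists_H (A := A) hq hA F N hqq k₁ k₂
  exact ⟨H, hH0, hfix, hspec ⟨(H : Om), hle H.2⟩ rfl⟩

/-- **[VNORM-H]** at the divisor level `N' * q` (`q ∣ N'`), inertia-fixed form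
(`Plan.IFix A (N' * q) H` of `S36/OnePlan`, unfolded). -/
theorem exists_H_level (hq : q.Prime) (hA : A.LiesOverPrime q) (F : Plan.Frame M q h)
    {N' : ℕ} [NeZero N'] (hq' : q ∣ N') (k₁ k₂ : ℤ) :
    ∃ H : FN (N' * q), H ≠ 0 ∧
      (∀ τ : Kbar ≃ₐ[ℚ] Kbar, τ ∈ A.inertiaSubgroupIn ℚ → S34.Plan.gal (N' * q) τ • H = H) ∧
      ∀ x : FN (M * q * q), (x : Om) = (H : Om) →
        (∃ h₁ : HahnSeries.C ((q : Kbar) ^ (-k₁)) * F.emb .inf x ∈ Ocal A,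
          red A ⟨_, h₁⟩ ≠ 0) ∧
        (∀ ξ : Plan.MidIdx q,
          ∃ h₂ : HahnSeries.C ((q : Kbar) ^ (-k₂)) * F.emb (.mid ξ) x ∈ Ocal A,
            red A ⟨_, h₂⟩ ≠ 0) ∧
        (∃ h₃ : F.emb .zero x ∈ Ocal A, red A ⟨_, h₃⟩ ≠ 0) := by
  obtain ⟨H, hH0, hfix, hspec⟩ :=
    exists_H (A := A) hq hA F (N' * q) (Nat.mul_dvd_mul_right hq' q) k₁ k₂
  exact ⟨H, hH0, fun τ _ => hfix τ, hspec⟩

end Main

end Fermat.Agent.S36.OneCompH

end
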