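import Mathlib
import Fermat.Agent.S34.NodeAlg

/-!
# S36 / P8 — [TWIST-ASM]: local branch-unit generators with trivial twist (owner: helper91)

Abstract setting: `k` an infinite field of characteristic `q`, `Bt` a commutative `k`-algebra (a
normalisation `B̃`, nilpotents allowed), `Bb` a `k`-subalgebra (`B̄`), `c` an ideal of `Bt`
contained in `Bb` (a conductor ideal), `N` a `k`-subspace of `Bt` with `yⁿ ∈ Bb` for all
`y ∈ N`, `n` invertible in `k`.  No localisation, no hypothesis on the shape of the singularities.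

* `coeff_mem_of_forall_eval`, `lambda_trick` : the Vandermonde / `λ`-trick
  (`n • (y · Y^(n-1) · u) ∈ W` from `yⁿ u ∈ W` on a subspace);
* `mem_of_mul_pow_mem`      : the `q`-power trick (the unipotent part of `B̃^×/B̄^×` is a `q`-group):
                              `Y ≡ 1` modulo the radical of `c`, `Yⁿ ∈ Bb`, `y · Y^(n-1) ∈ Bb` ⟹ `y ∈ Bb`;
* `le_of_exists_one_mod`    : point-free core: ONE `Y ∈ N` unipotent modulo `c` ⟹ `N ⊆ Bb`;
* `le_of_local_units`       : `S` = finitely many points of `Bt` cutting out the radical of `c`; if at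
                              every `P ∈ S` some element of `N` takes the value `1` at all points of
                              `S` glued to `P` in `Bb`, then `N ⊆ Bb` (partition of unity in `Bb`);
* `le_of_local_units_amb`   : the same inside an ambient algebra `R` (`Bb ≤ Bt ≤ R`, `N ≤ R`);
* `mem_of_mul_inv_le`, `le_of_inv` : invertibility `1 = ∑ fᵢ gᵢ` (`fᵢ ∈ M`, `gᵢ ∈ M'`):
                              `x·M' ⊆ Bb ⟹ x ∈ M`, and the transfer `M ⊆ T` as soon as the `fᵢ ∈ T`;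
* `mem_of_inv_of_local_units` : the combined statement "the vector of constants `x` lies in `M`".
-/

set_option autoImplicit false

namespace Fermat.Agent.S36.TwistAsm

open Module Polynomial

/-! ## The `λ`-trick -/

section Vandermonde

variable {k V : Type*} [Field k] [Infinite k] [AddCommGroup V] [Module k V]

/-- If `∑_{i ≤ n} λ^i • v i ∈ W` for all `λ ∈ k` (`k` infinite), then every `v i ∈ W`. -/
theorem coeff_mem_of_forall_eval (W : Submodule k V) (n : ℕ) (v : ℕ → V)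
    (h : ∀ t : k, ∑ i ∈ Finset.range (n + 1), t ^ i • v i ∈ W) (i : ℕ) (hi : i ≤ n) :
    v i ∈ W := by
  by_contra hvi
  have hne : W.mkQ (v i) ≠ 0 := by
    rwa [Ne, Submodule.mkQ_apply, Submodule.Quotient.mk_eq_zero]
  obtain ⟨φ, hφ⟩ : ∃ φ : Module.Dual k (V ⧸ W), φ (W.mkQ (v i)) ≠ 0 := by
    by_contra hcon
    push Not at hcon
    exact hne ((Module.forall_dual_apply_eq_zero_iff k _).1 hcon)
  set p : k[X] := ∑ j ∈ Finset.range (n + 1), C (φ (W.mkQ (v j))) * X ^ j with hp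
  have hroot : ∀ t : k, p.eval t = 0 := by
    intro t
    have h1 : W.mkQ (∑ j ∈ Finset.range (n + 1), t ^ j • v j) = 0 := by
      rw [Submodule.mkQ_apply, Submodule.Quotient.mk_eq_zero]
      exact h t
    have h2 := congrArg φ h1
    rw [map_zero, map_sum, map_sum] at h2
    rw [hp, Polynomial.eval_finsetSum]
    rw [← h2]
    refine Finset.sum_congr rfl fun j _ => ?_
    rw [eval_mul, eval_C, eval_pow, eval_X, map_smul, map_smul, smul_eq_mul, mul_comm]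
  have hp0 : p = 0 := Polynomial.funext (fun t => by rw [hroot t, eval_zero])
  have hcoeff : p.coeff i = φ (W.mkQ (v i)) := by
    rw [hp, Polynomial.finsetSum_coeff]
    rw [Finset.sum_eq_single i]
    · rw [coeff_C_mul, coeff_X_pow, if_pos rfl, mul_one]
    · intro j _ hji
      rw [coeff_C_mul, coeff_X_pow, if_neg (Ne.symm hji), mul_zero]
    · intro hi'
      exact absurd (Finset.mem_range.2 (Nat.lt_succ_of_le hi)) hi'
  rw [hp0, coeff_zero] at hcoeff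
  exact hφ hcoeff.symm

end Vandermonde

section Lambda

variable {k Bt : Type*} [Field k] [Infinite k] [CommRing Bt] [Algebra k Bt]

/-- **`λ`-trick**: if `yⁿ·u ∈ W` for all `y` in a `k`-subspace `N`, then
`n • (y · Y^(n-1) · u) ∈ W` for all `y, Y ∈ N`. -/
theorem lambda_trick (W N : Submodule k Bt) (u : Bt) (n : ℕ) (hn : 0 < n)
    (hpow : ∀ y ∈ N, y ^ n * u ∈ W) {y Y : Bt} (hy : y ∈ N) (hY : Y ∈ N) :
    (n : k) • (y * Y ^ (n - 1) * u) ∈ W := by
  have h := coeff_mem_of_forall_eval W n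
    (fun i => ((n.choose i : ℕ) : k) • (y ^ i * Y ^ (n - i) * u)) (fun t => by
      have h1 := hpow (t • y + Y) (N.add_mem (N.smul_mem t hy) hY)
      rw [add_pow, Finset.sum_mul] at h1
      convert h1 using 1
      refine Finset.sum_congr rfl fun i _ => ?_
      simp only [Algebra.smul_def, map_pow, map_natCast, mul_pow]
      ring) 1 hn
  simp only [Nat.choose_one_right, pow_one] at h
  exact h

end Lambda

/-! ## The `q`-power trick -/

section Unip

variable {k Bt : Type*} [Field k] [CommRing Bt] [Algebra k Bt]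

/-- **The unipotent part is a `q`-group.**  `Bb ⊆ Bt` a subring, `c` an ideal of `Bt` contained
in `Bb`, `Bt` of prime characteristic `q`, `n` prime to `q`.  If `Y ≡ 1` modulo the radical of
`c`, `Yⁿ ∈ Bb`, and `y · Y^(n-1) ∈ Bb`, then `y ∈ Bb`. -/
theorem mem_of_mul_pow_mem (q : ℕ) [hq : Fact q.Prime] [CharP Bt q]
    (Bb : Subring Bt) (c : Ideal Bt) (hc : ∀ x ∈ c, x ∈ Bb)
    (n : ℕ) (hnq : n.Coprime q) (Y : Bt) (hYn : Y ^ n ∈ Bb) (m : ℕ) (hYc : (Y - 1) ^ m ∈ c)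
    (y : Bt) (hy : y * Y ^ (n - 1) ∈ Bb) : y ∈ Bb := by
  -- `W₀ := Y^(q^m) = 1 + (Y - 1)^(q^m) ∈ Bb`
  have hqm : m ≤ q ^ m := (Nat.lt_pow_self hq.out.one_lt).le
  have hW0 : Y ^ (q ^ m) ∈ Bb := by
    have h1 : (Y - 1) ^ (q ^ m) ∈ c := by
      obtain ⟨d, hd⟩ := Nat.exists_eq_add_of_le hqm
      rw [hd, pow_add]
      exact c.mul_mem_right _ hYc
    have h2 : (Y - 1) ^ (q ^ m) = Y ^ (q ^ m) - 1 := by
      rw [sub_pow_char_pow, one_pow]
    have h3 : Y ^ (q ^ m) = (Y - 1) ^ (q ^ m) + 1 := by rw [h2]; ring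
    rw [h3]
    exact Bb.add_mem (hc _ h1) Bb.one_mem
  -- Bezout: `a * n = b * q^m + 1`
  have hcop : Nat.Coprime n (q ^ m) := Nat.Coprime.pow_right m hnq
  obtain ⟨a, b, hab⟩ : ∃ a b : ℕ, a * n = b * q ^ m + 1 := by
    by_cases hm : q ^ m = 1
    · exact ⟨1, n - 1 + 0, by
        rw [hm]
        have : 0 < n := by
          rcases Nat.eq_zero_or_pos n with h0 | h0
          · subst h0
            rw [Nat.coprime_zero_left] at hnq
            exact absurd hnq hq.out.one_lt.ne'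
          · exact h0
        omega⟩
    · have h1 : 1 < q ^ m := by
        have : 0 < q ^ m := pow_pos hq.out.pos m
        omega
      obtain ⟨a, -, ha⟩ := Nat.exists_mul_mod_eq_one_of_coprime hcop h1
      refine ⟨a, n * a / q ^ m, ?_⟩
      have := Nat.div_add_mod (n * a) (q ^ m)
      rw [ha] at this
      rw [mul_comm a n, mul_comm (n * a / q ^ m) (q ^ m)]
      exact this.symm
  -- `b₁ := (Yⁿ)^(a(n-1)) ∈ Bb`, `y b₁ ∈ Bb`, `b₁ ≡ 1 mod rad c`
  have hn0 : 0 < n := by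
    rcases Nat.eq_zero_or_pos n with h0 | h0
    · subst h0
      rw [Nat.coprime_zero_left] at hnq
      exact absurd hnq hq.out.one_lt.ne'
    · exact h0
  set b₁ : Bt := (Y ^ n) ^ (a * (n - 1)) with hb₁
  have hb₁mem : b₁ ∈ Bb := Bb.pow_mem hYn _
  have hyb₁ : y * b₁ ∈ Bb := by
    have e : y * b₁ = (y * Y ^ (n - 1)) * (Y ^ (q ^ m)) ^ (b * (n - 1)) := by
      rw [hb₁, ← pow_mul, ← pow_mul, mul_assoc, ← pow_add]
      congr 2
      have : n * (a * (n - 1)) = (a * n) * (n - 1) := by ring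
      rw [this, hab]
      ring
    rw [e]
    exact Bb.mul_mem hy (Bb.pow_mem hW0 _)
  have hb₁c : (1 - b₁) ^ m ∈ c := by
    have hdvd : (Y - 1) ∣ (1 - b₁) := by
      rw [hb₁, ← pow_mul]
      have := _root_.sub_one_dvd_pow_sub_one Y (n * (a * (n - 1)))
      rw [show (1 : Bt) - Y ^ (n * (a * (n - 1))) = -(Y ^ (n * (a * (n - 1))) - 1) by ring]
      exact (dvd_neg).2 this
    obtain ⟨d, hd⟩ := hdvd
    rw [hd, mul_pow]
    exact c.mul_mem_right _ hYc
  -- `y = y b₁ (1 + (1 - b₁) + … + (1 - b₁)^(m-1)) + y (1 - b₁)^m`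
  have hgeom : (1 : Bt) - (1 - b₁) ^ m = b₁ * ∑ i ∈ Finset.range m, (1 - b₁) ^ i := by
    have h2 := mul_geom_sum (1 - b₁) m
    have h3 : (1 - b₁ - 1) * ∑ i ∈ Finset.range m, (1 - b₁) ^ i = (1 - b₁) ^ m - 1 := h2
    have h4 : b₁ * ∑ i ∈ Finset.range m, (1 - b₁) ^ i
        = -((1 - b₁ - 1) * ∑ i ∈ Finset.range m, (1 - b₁) ^ i) := by ring
    rw [h4, h3]
    ring
  have hsum : ∑ i ∈ Finset.range m, (1 - b₁) ^ i ∈ Bb :=
    Bb.sum_mem fun i _ => Bb.pow_mem (Bb.sub_mem Bb.one_mem hb₁mem) _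
  have e : y = (y * b₁) * ∑ i ∈ Finset.range m, (1 - b₁) ^ i + y * (1 - b₁) ^ m := by
    rw [mul_assoc, ← hgeom]
    ring
  rw [e]
  exact Bb.add_mem (Bb.mul_mem hyb₁ hsum) (hc _ (c.mul_mem_left _ hb₁c))

end Unip

/-! ## Assembly: local unit generators with trivial twist -/

section Assembly

variable {k Bt : Type*} [Field k] [Infinite k] [CommRing Bt] [Algebra k Bt]

/-- **Point-free core.**  `Bb ⊆ Bt` a `k`-subalgebra, `c` an ideal of `Bt` inside `Bb`, `N` a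
`k`-subspace of `Bt` with `yⁿ ∈ Bb` for all `y ∈ N` (`n` invertible in `k`, `char k = q`).  If
`N` contains ONE element `Y` with `(Y - 1)^m ∈ c`, then `N ⊆ Bb`. -/
theorem le_of_exists_one_mod (q : ℕ) [hq : Fact q.Prime] [CharP k q]
    (Bb : Subalgebra k Bt) (c : Ideal Bt) (hc : ∀ x ∈ c, x ∈ Bb)
    (N : Submodule k Bt) (n : ℕ) (hn : (n : k) ≠ 0) (hpow : ∀ y ∈ N, y ^ n ∈ Bb)
    (Y : Bt) (hYN : Y ∈ N) (m : ℕ) (hm : (Y - 1) ^ m ∈ c)
    (y : Bt) (hy : y ∈ N) : y ∈ Bb := by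
  rcases subsingleton_or_nontrivial Bt with hsub | hnt
  · rw [Subsingleton.elim y 0]
    exact Bb.zero_mem
  have hchar : CharP Bt q := charP_of_injective_algebraMap (algebraMap k Bt).injective q
  have hn0 : 0 < n := by
    rcases Nat.eq_zero_or_pos n with h0 | h0
    · subst h0
      exact absurd Nat.cast_zero hn
    · exact h0
  have hnq : n.Coprime q := by
    rw [Nat.coprime_comm, (Nat.Prime.coprime_iff_not_dvd hq.out)]
    intro hdvd
    exact hn ((CharP.cast_eq_zero_iff k q n).2 hdvd)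
  have hlam : (n : k) • (y * Y ^ (n - 1) * 1) ∈ Subalgebra.toSubmodule Bb :=
    lambda_trick (Subalgebra.toSubmodule Bb) N 1 n hn0
      (fun z hz => by rw [mul_one]; exact hpow z hz) hy hYN
  have hyY : y * Y ^ (n - 1) ∈ Bb := by
    have h2 := (Subalgebra.toSubmodule Bb).smul_mem (n : k)⁻¹ hlam
    rw [smul_smul, inv_mul_cancel₀ hn, one_smul, mul_one] at h2
    exact h2
  exact mem_of_mul_pow_mem q Bb.toSubring c hc n hnq Y (hpow Y hYN) m hm y hyY

/-- **Trivial twist ⟹ `N ⊆ B̄`.**  `Bb ⊆ Bt` a `k`-subalgebra, `c` an ideal of `Bt` inside `Bb`,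
`S` a finite set of points of `Bt` such that every function vanishing on `S` is nilpotent
modulo `c`; `N` a `Bb`-stable `k`-subspace of `Bt` with `yⁿ ∈ Bb` for all `y ∈ N`
(`n` invertible in `k`, `char k = q`).  If for every point `P ∈ S` some element of `N` takes the
value `1` at all points of `S` lying over the same point of `Bb` as `P`, then `N ⊆ Bb`. -/
theorem le_of_local_units (q : ℕ) [hq : Fact q.Prime] [CharP k q]
    (Bb : Subalgebra k Bt) (c : Ideal Bt) (hc : ∀ x ∈ c, x ∈ Bb)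
    (S : Finset (Bt →ₐ[k] k))
    (hS : ∀ x : Bt, (∀ P ∈ S, P x = 0) → ∃ m : ℕ, x ^ m ∈ c)
    (N : Submodule k Bt) (hmul : ∀ b ∈ Bb, ∀ y ∈ N, b * y ∈ N)
    (n : ℕ) (hn : (n : k) ≠ 0) (hpow : ∀ y ∈ N, y ^ n ∈ Bb)
    (hloc : ∀ P ∈ S, ∃ y ∈ N, ∀ P' ∈ S, (∀ b ∈ Bb, P' b = P b) → P' y = 1)
    (y : Bt) (hy : y ∈ N) : y ∈ Bb := by
  classical
  -- if `S` is empty then `1 ∈ c`
  rcases S.eq_empty_or_nonempty with hSe | ⟨P₀, hP₀⟩
  · obtain ⟨m, hm⟩ := hS 1 (fun P hP => by rw [hSe] at hP; exact absurd hP (Finset.notMem_empty P))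
    rw [one_pow] at hm
    have := c.mul_mem_left y hm
    rw [mul_one] at this
    exact hc _ this
  -- restriction of points to `Bb`
  let r : (Bt →ₐ[k] k) → (Bb →ₐ[k] k) := fun P => P.comp Bb.val
  have hr : ∀ P P' : Bt →ₐ[k] k, r P' = r P → ∀ b ∈ Bb, P' b = P b := by
    intro P P' h b hb
    exact DFunLike.congr_fun h (⟨b, hb⟩ : Bb)
  choose! yy hyyN hyy using hloc
  -- a representative of each class
  have hrep : ∀ s : Bb →ₐ[k] k, ∃ P : Bt →ₐ[k] k, s ∈ S.image r → (P ∈ S ∧ r P = s) := by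
    intro s
    by_cases hs : s ∈ S.image r
    · obtain ⟨P, hP, hPs⟩ := Finset.mem_image.1 hs
      exact ⟨P, fun _ => ⟨hP, hPs⟩⟩
    · exact ⟨P₀, fun h => absurd h hs⟩
  choose rep hrep using hrep
  choose e he using fun s : Bb →ₐ[k] k => Fermat.Agent.S34.NodeAlg.exists_delta (S.image r) s
  set Y : Bt := ∑ s ∈ S.image r, (e s : Bt) * yy (rep s) with hYdef
  have hYN : Y ∈ N := N.sum_mem fun s hs => hmul _ (e s).2 _ (hyyN _ (hrep s hs).1)
  have hYval : ∀ P ∈ S, P Y = 1 := by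
    intro P hP
    have hPs : r P ∈ S.image r := Finset.mem_image_of_mem r hP
    rw [hYdef, map_sum, Finset.sum_eq_single (r P)]
    · rw [map_mul]
      have h1 : P (e (r P) : Bt) = 1 := (he (r P)).1
      have h2 : P (yy (rep (r P))) = 1 :=
        hyy _ (hrep _ hPs).1 P hP (hr _ _ (hrep _ hPs).2.symm)
      rw [h1, h2, mul_one]
    · intro s hs hne
      rw [map_mul]
      have h1 : P (e s : Bt) = 0 := (he s).2 (r P) hPs (Ne.symm hne)
      rw [h1, zero_mul]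
    · intro h
      exact absurd hPs h
  obtain ⟨m, hm⟩ := hS (Y - 1) (fun P hP => by rw [map_sub, hYval P hP, map_one, sub_self])
  exact le_of_exists_one_mod q Bb c hc N n hn hpow Y hYN m hm y hy

/-- `le_of_local_units` inside an ambient `k`-algebra `R`: `Bb ≤ Bt` subalgebras of `R`, `N` a
`k`-subspace of `R` contained in `Bt`. -/
theorem le_of_local_units_amb {R : Type*} [CommRing R] [Algebra k R] (q : ℕ) [hq : Fact q.Prime]
    [CharP k q] (Bt Bb : Subalgebra k R) (hle : Bb ≤ Bt) (c : Ideal Bt)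
    (hc : ∀ x ∈ c, (x : R) ∈ Bb)
    (S : Finset (Bt →ₐ[k] k))
    (hS : ∀ x : Bt, (∀ P ∈ S, P x = 0) → ∃ m : ℕ, x ^ m ∈ c)
    (N : Submodule k R) (hNt : ∀ y ∈ N, y ∈ Bt) (hmul : ∀ b ∈ Bb, ∀ y ∈ N, b * y ∈ N)
    (n : ℕ) (hn : (n : k) ≠ 0) (hpow : ∀ y ∈ N, y ^ n ∈ Bb)
    (hloc : ∀ P ∈ S, ∃ y, ∃ hy : y ∈ N, ∀ P' ∈ S,
      (∀ b, ∀ hb : b ∈ Bb, P' ⟨b, hle hb⟩ = P ⟨b, hle hb⟩) → P' ⟨y, hNt y hy⟩ = 1)
    (y : R) (hy : y ∈ N) : y ∈ Bb := by
  have key := le_of_local_units q (Bb.comap Bt.val) c (fun x hx => hc x hx) S hS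
    (N.comap Bt.val.toLinearMap)
    (fun b hb z hz => by
      have hb' : (b : R) ∈ Bb := hb
      have hz' : (z : R) ∈ N := hz
      show ((b * z : Bt) : R) ∈ N
      rw [Subalgebra.coe_mul]
      exact hmul _ hb' _ hz')
    n hn
    (fun z hz => by
      have hz' : (z : R) ∈ N := hz
      show ((z ^ n : Bt) : R) ∈ Bb
      rw [Subalgebra.coe_pow]
      exact hpow _ hz')
    (fun P hP => by
      obtain ⟨z, hz, hzP⟩ := hloc P hP
      refine ⟨⟨z, hNt z hz⟩, hz, fun P' hP' hglue => hzP P' hP' fun b hb => ?_⟩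
      exact hglue ⟨b, hle hb⟩ hb)
    ⟨y, hNt y hy⟩ hy
  exact key

end Assembly

/-! ## Invertible modules: `1 ∈ M·M'` -/

section Inv

variable {k Bt : Type*} [Field k] [CommRing Bt] [Algebra k Bt]

/-- If `M·M' ⊆ B̄`, `1 = ∑ fᵢ gᵢ` with `fᵢ ∈ M`, `gᵢ ∈ M'` and `M` is `B̄`-stable, then
`x ∈ M` as soon as `x·M' ⊆ B̄`. -/
theorem mem_of_mul_inv_le (Bb : Subalgebra k Bt) (M M' : Submodule k Bt)
    (hmul : ∀ b ∈ Bb, ∀ y ∈ M, b * y ∈ M)
    {ι : Type*} (s : Finset ι) (f g : ι → Bt) (hf : ∀ i ∈ s, f i ∈ M)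
    (hg : ∀ i ∈ s, g i ∈ M') (hfg : ∑ i ∈ s, f i * g i = 1)
    (x : Bt) (hx : ∀ y ∈ M', x * y ∈ Bb) : x ∈ M := by
  have e : x = ∑ i ∈ s, (x * g i) * f i := by
    calc x = x * ∑ i ∈ s, f i * g i := by rw [hfg, mul_one]
      _ = ∑ i ∈ s, (x * g i) * f i := by
        rw [Finset.mul_sum]
        exact Finset.sum_congr rfl fun i _ => by ring
  rw [e]
  exact M.sum_mem fun i hi => hmul _ (hx _ (hg i hi)) _ (hf i hi)

/-- **[INV]-transfer.**  If `M·M' ⊆ B̄`, `1 = ∑ fᵢ gᵢ` with `gᵢ ∈ M'` and the `fᵢ` in a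
`B̄`-stable subspace `T`, then `M ⊆ T`. -/
theorem le_of_inv (Bb : Subalgebra k Bt) (M M' T : Submodule k Bt)
    (hMM' : ∀ y ∈ M, ∀ z ∈ M', y * z ∈ Bb) (hT : ∀ b ∈ Bb, ∀ t ∈ T, b * t ∈ T)
    {ι : Type*} (s : Finset ι) (f g : ι → Bt) (hf : ∀ i ∈ s, f i ∈ T)
    (hg : ∀ i ∈ s, g i ∈ M') (hfg : ∑ i ∈ s, f i * g i = 1) : M ≤ T := by
  intro y hy
  have e : y = ∑ i ∈ s, (y * g i) * f i := by
    calc y = y * ∑ i ∈ s, f i * g i := by rw [hfg, mul_one]
      _ = ∑ i ∈ s, (y * g i) * f i := by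
        rw [Finset.mul_sum]
        exact Finset.sum_congr rfl fun i _ => by ring
  rw [e]
  exact T.sum_mem fun i hi => hT _ (hMM' y hy _ (hg i hi)) _ (hf i hi)

end Inv

section Main

variable {k Bt : Type*} [Field k] [Infinite k] [CommRing Bt] [Algebra k Bt]

/-- **[TWIST → CONST]**: `M, M'` `B̄`-stable subspaces of `B̃` with `1 = ∑ fᵢ gᵢ`
(`fᵢ ∈ M`, `gᵢ ∈ M'`); `x ∈ B̃` (the vector of constants) such that `(x·y)ⁿ ∈ B̄` for all
`y ∈ M'`, and at every conductor point `P` some `y ∈ M'` has `x·y = 1` at all conductor points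
glued to `P`.  Then `x ∈ M`. -/
theorem mem_of_inv_of_local_units (q : ℕ) [hq : Fact q.Prime] [CharP k q]
    (Bb : Subalgebra k Bt) (c : Ideal Bt) (hc : ∀ x ∈ c, x ∈ Bb)
    (S : Finset (Bt →ₐ[k] k))
    (hS : ∀ x : Bt, (∀ P ∈ S, P x = 0) → ∃ m : ℕ, x ^ m ∈ c)
    (M M' : Submodule k Bt)
    (hmul : ∀ b ∈ Bb, ∀ y ∈ M, b * y ∈ M) (hmul' : ∀ b ∈ Bb, ∀ y ∈ M', b * y ∈ M')
    {ι : Type*} (s : Finset ι) (f g : ι → Bt) (hf : ∀ i ∈ s, f i ∈ M)
    (hg : ∀ i ∈ s, g i ∈ M') (hfg : ∑ i ∈ s, f i * g i = 1)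
    (n : ℕ) (hn : (n : k) ≠ 0) (x : Bt)
    (hpow : ∀ y ∈ M', (x * y) ^ n ∈ Bb)
    (hloc : ∀ P ∈ S, ∃ y ∈ M', ∀ P' ∈ S, (∀ b ∈ Bb, P' b = P b) → P' (x * y) = 1) :
    x ∈ M := by
  refine mem_of_mul_inv_le Bb M M' hmul s f g hf hg hfg x fun y hy => ?_
  refine le_of_local_units q Bb c hc S hS (M'.map (LinearMap.mulLeft k x)) ?_ n hn ?_ ?_
    (x * y) ⟨y, hy, rfl⟩
  · rintro b hb _ ⟨z, hz, rfl⟩
    refine ⟨b * z, hmul' b hb z hz, ?_⟩
    simp only [LinearMap.mulLeft_apply]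
    ring
  · rintro _ ⟨z, hz, rfl⟩
    exact hpow z hz
  · intro P hP
    obtain ⟨z, hz, hzP⟩ := hloc P hP
    exact ⟨x * z, ⟨z, hz, rfl⟩, hzP⟩

end Main

end Fermat.Agent.S36.TwistAsm
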