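import Mathlib
import Fermat.Agent.S36.TwistAsm
import Fermat.Agent.S36.LiftGen
import Fermat.Agent.S34.CuspRegInst

/-!
# S36 / P8 — [ONE-CONST-ASM]: ONE section from invertibility + local units (owner: helper91)

A junction ending in the conclusion of `Plan.OneConstStmt` (for one divisor), in hypothesis form,
stated entirely in the `Q̄`-frame `(O, ρ)`; the `K'`-rationality of the local data enters only
through which elements the providers exhibit.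

* `bbar`                     : `B̄ = ⋃_c ρ(U c ∩ O)` as a `k`-subalgebra of `R`;
* `exists_red_eq_of_inv_abs` : abstract form (`LiftCore2.RedData`; families `U c`, `V c`, `V' c`
  of `K`-subspaces with `U·U ⊆ U`, `U·V ⊆ V`, `U·V' ⊆ V'`): from
  - `[INV]`  `1 = ∑ ρ(fᵢ) ρ(gᵢ)`, `fᵢ ∈ V`, `gᵢ ∈ V'`;
  - a subalgebra `Bt ⊆ R` with an ideal `cI ⊆ B̄` and finitely many points `S` over it
    (`[COND]`), `lam · ρ(gᵢ) ∈ Bt`;
  - the power relation `(lam · ρ y)ⁿ ∈ B̄` for `y ∈ V'`;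
  - `[LOC]` at every `P ∈ S` some `y ∈ V'` with `lam · ρ y ∈ Bt` equal to `1` at all points of `S`
    glued to `P` in `B̄ ∩ Bt`;
  the vector `lam` is the reduction of an element of some `V c`;
* `exists_section_of_inv`    : the same in the `LiftGen` vocabulary (`V c = L(D + cE)`,
  `V' c = L(-D + cE)`, `U c = L(cE)`), the power relation coming from a Kummer function `w`
  (`div w = nD`, `w` a unit of `O`, `ρ w · lamⁿ = 1`).
-/

set_option autoImplicit false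

noncomputable section

namespace Fermat.Agent.S36.OneConstAsm

open Module

/-! ## The abstract form -/

section Abs

open Fermat.Agent.S34.LiftCore2

variable {K Ω k R : Type*} [Field K] [Field Ω] [Algebra K Ω] [Field k] [CommRing R] [Algebra k R]
variable {A : ValuationSubring K} {π : A →+* k} {O : Subring Ω} {ρ : O →+* R}

/-- `B̄ = ⋃_c ρ(U c ∩ O)` as a `k`-subalgebra of `R`. -/
def bbar (h : RedData A π O ρ) (U : ℕ → Submodule K Ω) (hU1 : (1 : Ω) ∈ U 0)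
    (hUmono : Monotone U)
    (hUU : ∀ (c c' : ℕ) (x y : Ω), x ∈ U c → y ∈ U c' → x * y ∈ U (c + c')) :
    Subalgebra k R where
  carrier := {x | ∃ c : ℕ, x ∈ h.redSp (U c)}
  mul_mem' := by
    rintro x x' ⟨c, y, hy, rfl⟩ ⟨c', y', hy', rfl⟩
    exact ⟨c + c', y * y', hUU c c' _ _ hy hy', map_mul ρ y y'⟩
  add_mem' := by
    rintro x x' ⟨c, hx⟩ ⟨c', hx'⟩
    exact ⟨max c c', (h.redSp (U (max c c'))).add_mem
      (h.redSp_mono (hUmono (le_max_left c c')) hx)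
      (h.redSp_mono (hUmono (le_max_right c c')) hx')⟩
  algebraMap_mem' := by
    intro r
    obtain ⟨a, rfl⟩ := h.π_surj r
    refine ⟨0, h.const a, ?_, h.ρ_const a⟩
    rw [RedData.coe_const, Algebra.algebraMap_eq_smul_one]
    exact (U 0).smul_mem _ hU1

theorem mem_bbar (h : RedData A π O ρ) (U : ℕ → Submodule K Ω) (hU1 : (1 : Ω) ∈ U 0)
    (hUmono : Monotone U)
    (hUU : ∀ (c c' : ℕ) (x y : Ω), x ∈ U c → y ∈ U c' → x * y ∈ U (c + c')) (x : R) :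
    x ∈ bbar h U hU1 hUmono hUU ↔ ∃ c : ℕ, x ∈ h.redSp (U c) := Iff.rfl

/-- **[ONE-CONST-ASM], abstract form.** -/
theorem exists_red_eq_of_inv_abs [Infinite k] (q : ℕ) [hq : Fact q.Prime] [CharP k q]
    (h : RedData A π O ρ) (U V V' : ℕ → Submodule K Ω)
    (hU1 : (1 : Ω) ∈ U 0) (hUmono : Monotone U) (hVmono : Monotone V) (hV'mono : Monotone V')
    (hUU : ∀ (c c' : ℕ) (x y : Ω), x ∈ U c → y ∈ U c' → x * y ∈ U (c + c'))
    (hUV : ∀ (c c' : ℕ) (x y : Ω), x ∈ U c → y ∈ V c' → x * y ∈ V (c + c'))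
    (hUV' : ∀ (c c' : ℕ) (x y : Ω), x ∈ U c → y ∈ V' c' → x * y ∈ V' (c + c'))
    (n : ℕ) (hn : (n : k) ≠ 0) (lam : R)
    (hpow : ∀ (c : ℕ) (y : O), (y : Ω) ∈ V' c → ∃ c' : ℕ, (lam * ρ y) ^ n ∈ h.redSp (U c'))
    {ι : Type*} (s : Finset ι) (f g : ι → O) (cf cg : ℕ)
    (hf : ∀ i ∈ s, (f i : Ω) ∈ V cf) (hg : ∀ i ∈ s, (g i : Ω) ∈ V' cg)
    (hfg : ∑ i ∈ s, ρ (f i) * ρ (g i) = 1)
    (Bt : Subalgebra k R) (cI : Ideal Bt)
    (hcI : ∀ x ∈ cI, ∃ c : ℕ, (x : R) ∈ h.redSp (U c))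
    (S : Finset (Bt →ₐ[k] k)) (hS : ∀ x : Bt, (∀ P ∈ S, P x = 0) → ∃ m : ℕ, x ^ m ∈ cI)
    (hgBt : ∀ i ∈ s, lam * ρ (g i) ∈ Bt)
    (hloc : ∀ P ∈ S, ∃ (c : ℕ) (y : O), (y : Ω) ∈ V' c ∧ ∃ hy : lam * ρ y ∈ Bt,
      ∀ P' ∈ S, (∀ b : Bt, (∃ c : ℕ, (b : R) ∈ h.redSp (U c)) → P' b = P b) →
        P' ⟨_, hy⟩ = 1) :
    ∃ (c : ℕ) (g₀ : O), (g₀ : Ω) ∈ V c ∧ ρ g₀ = lam := by
  classical
  set Bbar : Subalgebra k R := bbar h U hU1 hUmono hUU with hBbar
  set Bb : Subalgebra k R := Bbar ⊓ Bt with hBb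
  have hle : Bb ≤ Bt := inf_le_right
  -- the subspace `N = (lam · M(V')) ∩ Bt`
  let N : Submodule k R :=
    { carrier := {x | x ∈ Bt ∧ ∃ (c : ℕ) (y : O), (y : Ω) ∈ V' c ∧ x = lam * ρ y}
      add_mem' := by
        rintro x x' ⟨hx, c, y, hy, rfl⟩ ⟨hx', c', y', hy', rfl⟩
        refine ⟨Bt.add_mem hx hx', max c c', y + y', ?_, ?_⟩
        · exact (V' (max c c')).add_mem (hV'mono (le_max_left c c') hy)
            (hV'mono (le_max_right c c') hy')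
        · rw [map_add, mul_add]
      zero_mem' := ⟨Bt.zero_mem, 0, 0, (V' 0).zero_mem, by rw [map_zero, mul_zero]⟩
      smul_mem' := by
        rintro κ x ⟨hx, c, y, hy, rfl⟩
        obtain ⟨a, rfl⟩ := h.π_surj κ
        refine ⟨Bt.smul_mem hx _, c, ⟨_, h.smul_mem a y⟩, (V' c).smul_mem _ hy, ?_⟩
        rw [h.ρ_smul a y, mul_smul_comm] }
  have hN_iff : ∀ x : R, x ∈ N ↔ x ∈ Bt ∧ ∃ (c : ℕ) (y : O), (y : Ω) ∈ V' c ∧ x = lam * ρ y :=
    fun _ => Iff.rfl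
  have hNt : ∀ y ∈ N, y ∈ Bt := fun y hy => hy.1
  have hNsub : ∀ x ∈ N, x ∈ Bb := by
    intro x hx
    refine Fermat.Agent.S36.TwistAsm.le_of_local_units_amb q Bt Bb hle cI ?_ S hS N hNt ?_ n hn
      ?_ ?_ x hx
    · intro z hz
      exact ⟨hcI z hz, z.2⟩
    · rintro b ⟨⟨c₀, b₀, hb₀, rfl⟩, hbt⟩ z ⟨hz, c, y, hy, rfl⟩
      refine ⟨Bt.mul_mem hbt hz, c₀ + c, b₀ * y, hUV' c₀ c _ _ hb₀ hy, ?_⟩
      rw [map_mul]
      ring
    · rintro z ⟨hz, c, y, hy, rfl⟩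
      exact ⟨hpow c y hy, Bt.pow_mem hz n⟩
    · intro P hP
      obtain ⟨c, y, hy, hyBt, hglue⟩ := hloc P hP
      refine ⟨lam * ρ y, ⟨hyBt, c, y, hy, rfl⟩, fun P' hP' hPP' => ?_⟩
      refine hglue P' hP' fun b hb => ?_
      exact hPP' (b : R) ⟨hb, b.2⟩
  -- `lam ρ(gᵢ) ∈ B̄`
  have key : ∀ i ∈ s, ∃ c : ℕ, lam * ρ (g i) ∈ h.redSp (U c) := fun i hi =>
    (hNsub _ ⟨hgBt i hi, cg, g i, hg i hi, rfl⟩).1
  -- `lam = ∑ (lam ρ gᵢ) ρ fᵢ`
  have hsum : lam = ∑ i ∈ s, (lam * ρ (g i)) * ρ (f i) := by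
    calc lam = lam * ∑ i ∈ s, ρ (f i) * ρ (g i) := by rw [hfg, mul_one]
      _ = ∑ i ∈ s, (lam * ρ (g i)) * ρ (f i) := by
        rw [Finset.mul_sum]
        exact Finset.sum_congr rfl fun i _ => by ring
  -- partial sums lie in some `redSp (V c)`
  have hpart : ∀ t : Finset ι, t ⊆ s →
      ∃ c : ℕ, ∑ i ∈ t, (lam * ρ (g i)) * ρ (f i) ∈ h.redSp (V c) := by
    intro t
    induction t using Finset.induction_on with
    | empty =>
      intro _
      exact ⟨0, by rw [Finset.sum_empty]; exact (h.redSp (V 0)).zero_mem⟩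
    | insert a t hat ih =>
      intro hts
      obtain ⟨c, hc⟩ := ih ((Finset.subset_insert a t).trans hts)
      have has : a ∈ s := hts (Finset.mem_insert_self a t)
      obtain ⟨ca, b, hb, hbρ⟩ := key a has
      have hterm : (lam * ρ (g a)) * ρ (f a) ∈ h.redSp (V (ca + cf)) := by
        refine ⟨b * f a, hUV ca cf _ _ hb (hf a has), ?_⟩
        rw [map_mul, hbρ]
      refine ⟨max (ca + cf) c, ?_⟩
      rw [Finset.sum_insert hat]
      exact (h.redSp (V (max (ca + cf) c))).add_mem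
        (h.redSp_mono (hVmono (le_max_left _ _)) hterm)
        (h.redSp_mono (hVmono (le_max_right _ _)) hc)
  obtain ⟨c, hc⟩ := hpart s (Finset.Subset.refl s)
  rw [← hsum] at hc
  obtain ⟨g₀, hg₀, hρ⟩ := hc
  exact ⟨c, g₀, hg₀, hρ⟩

end Abs

/-! ## The `LiftGen` vocabulary -/

section Gen

open ModularCurve AlgebraicCurve Fermat.Agent.S24 Fermat.Agent.S18 Fermat.Agent.S18.Content
  Fermat.Agent.S18.Plan Fermat.Agent.S34 Fermat.Agent.S34.Lift Fermat.Agent.S36.LiftGen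

variable {A : ValuationSubring Kbar} {N Mt : ℕ} [NeZero N]
variable {R : Type} [CommRing R] [algR : Algebra (kk A) R]
variable {O : Subring Om} {ρ : O →+* R}

/-- **[ONE-CONST-ASM]** ONE section `g₀ ∈ L(D + cE) ∩ O` with `ρ g₀ = lam`, from the
invertibility identity `1 = ∑ ρ(fᵢ) ρ(gᵢ)` (`fᵢ ∈ L(D + cE)`, `gᵢ ∈ L(-D + cE)`), a Kummer
function `w` of `D` which is a unit of `O` with `ρ w · lamⁿ = 1`, a subalgebra `Bt ⊆ R` with a
conductor ideal `cI ⊆ B̄` and finitely many points `S` over it, and local sections of `-D` whose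
`lam`-multiples are `1` at all points of `S` glued to a given one. -/
theorem exists_section_of_inv [Infinite (kk A)] (q : ℕ) [Fact q.Prime] [CharP (kk A) q]
    (hle : modularFunctionFieldBar N ≤ modularFunctionFieldBar Mt)
    (h : RDG algR O ρ)
    (E : Divisor Kbar (FN N)) (hE0 : ∀ P : Place Kbar (FN N), 0 ≤ E P)
    (D : Divisor Kbar (FN N)) (n : ℕ) (hn : ((n : ℕ) : kk A) ≠ 0)
    (w : FN N) (hw0 : w ≠ 0) (hwD : ∀ P : Place Kbar (FN N), P.ord w = n * D P)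
    (hw : (w : Om) ∈ O) (hwi : ((w : Om))⁻¹ ∈ O)
    (lam : R) (hρw : ρ ⟨_, hw⟩ * lam ^ n = 1)
    {ι : Type} (s : Finset ι) (f g : ι → O) (cf cg : ℕ)
    (hf : ∀ i ∈ s, (f i : Om) ∈ pullRR N Mt (D + cf • E))
    (hg : ∀ i ∈ s, (g i : Om) ∈ pullRR N Mt (-D + cg • E))
    (hfg : ∑ i ∈ s, ρ (f i) * ρ (g i) = 1)
    (Bt : Subalgebra (kk A) R) (cI : Ideal Bt)
    (hcI : ∀ x ∈ cI, ∃ c : ℕ, (x : R) ∈ BcG algR h N Mt E c)
    (S : Finset (Bt →ₐ[kk A] kk A))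
    (hS : ∀ x : Bt, (∀ P ∈ S, P x = 0) → ∃ m : ℕ, x ^ m ∈ cI)
    (hgBt : ∀ i ∈ s, lam * ρ (g i) ∈ Bt)
    (hloc : ∀ P ∈ S, ∃ (c : ℕ) (y : O), (y : Om) ∈ pullRR N Mt (-D + c • E) ∧
      ∃ hy : lam * ρ y ∈ Bt,
        ∀ P' ∈ S, (∀ b : Bt, (∃ c : ℕ, (b : R) ∈ BcG algR h N Mt E c) → P' b = P b) →
          P' ⟨_, hy⟩ = 1) :
    ∃ (c : ℕ) (g₀ : O), (g₀ : Om) ∈ pullRR N Mt (D + c • E) ∧ ρ g₀ = lam := by
  -- monotonicity and products of the three families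
  have hUmono : Monotone fun c : ℕ => pullRR N Mt (c • E) := by
    intro a b hab
    refine Main.pullRR_mono (fun P => ?_)
    rw [smul_E_apply, smul_E_apply]
    exact mul_le_mul_of_nonneg_right (by exact_mod_cast hab) (hE0 P)
  have hVmono : ∀ D₀ : Divisor Kbar (FN N), Monotone fun c : ℕ => pullRR N Mt (D₀ + c • E) := by
    intro D₀ a b hab
    refine Main.pullRR_mono (fun P => ?_)
    rw [add_smul_E_apply, add_smul_E_apply]
    have : (a : ℤ) * E P ≤ (b : ℤ) * E P :=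
      mul_le_mul_of_nonneg_right (by exact_mod_cast hab) (hE0 P)
    linarith
  have hU1 : (1 : Om) ∈ pullRR N Mt ((0 : ℕ) • E) :=
    Main.one_mem_pullRR (fun P => by rw [smul_E_apply]; simp)
  have hUU : ∀ (c c' : ℕ) (x y : Om), x ∈ pullRR N Mt (c • E) → y ∈ pullRR N Mt (c' • E) →
      x * y ∈ pullRR N Mt ((c + c') • E) := by
    intro c c' x y hx hy
    refine Fermat.Agent.S34.CuspReg.mul_mem_pullRR_add (fun P => ?_) hx hy
    rw [smul_E_apply, smul_E_apply, smul_E_apply]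
    push_cast
    linarith
  have hUV : ∀ D₀ : Divisor Kbar (FN N), ∀ (c c' : ℕ) (x y : Om), x ∈ pullRR N Mt (c • E) →
      y ∈ pullRR N Mt (D₀ + c' • E) → x * y ∈ pullRR N Mt (D₀ + (c + c') • E) := by
    intro D₀ c c' x y hx hy
    refine Fermat.Agent.S34.CuspReg.mul_mem_pullRR_add (fun P => ?_) hx hy
    rw [smul_E_apply, add_smul_E_apply, add_smul_E_apply]
    push_cast
    linarith
  -- the inverse of `w`
  have hw0' : (w : Om) ≠ 0 := by
    intro h0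
    exact hw0 (Subtype.ext h0)
  set wO : O := ⟨(w : Om), hw⟩ with hwO
  set wiO : O := ⟨((w : Om))⁻¹, hwi⟩ with hwiO
  have hwwi : wO * wiO = 1 := Subtype.ext (mul_inv_cancel₀ hw0')
  have hρwi : ρ wiO = lam ^ n := by
    calc ρ wiO = ρ wiO * (ρ wO * lam ^ n) := by rw [hρw, mul_one]
      _ = (ρ wO * ρ wiO) * lam ^ n := by ring
      _ = lam ^ n := by rw [← map_mul, hwwi, map_one, one_mul]
  have hwinv0 : w⁻¹ ≠ 0 := inv_ne_zero hw0
  have hcoe_inv : ((w⁻¹ : FN N) : Om) = ((w : Om))⁻¹ := rfl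
  -- the power relation
  have hpow : ∀ (c : ℕ) (y : O), (y : Om) ∈ pullRR N Mt (-D + c • E) →
      ∃ c' : ℕ, (lam * ρ y) ^ n ∈ BcG algR h N Mt E c' := by
    intro c y hy
    have h1 : (y : Om) ^ n ∈ pullRR N Mt (n • (-D + c • E)) :=
      Main.pow_mem_pullRR n (fun P => smul_E_apply _ n P) hy
    have h2 : ((w⁻¹ : FN N) : Om) * (y : Om) ^ n ∈ pullRR N Mt ((n * c) • E) :=
      mul_mem_pullRR_of_le hle (h := w⁻¹) hwinv0 (B := n • (-D + c • E))
        (B' := (n * c) • E) (fun P => by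
          rw [smul_E_apply, add_smul_E_apply, smul_E_apply, Place.ord_inv, hwD P,
            Finsupp.neg_apply]
          push_cast
          linarith) h1
    refine ⟨n * c, wiO * y ^ n, ?_, ?_⟩
    · have e : ((wiO * y ^ n : O) : Om) = ((w⁻¹ : FN N) : Om) * (y : Om) ^ n := rfl
      rw [e]
      exact h2
    · rw [map_mul, map_pow, hρwi, mul_pow]
  exact @exists_red_eq_of_inv_abs Kbar Om (kk A) R _ _ HahnSeries.instAlgebra _ _ algR
    A (IsLocalRing.residue A) O ρ _ q _ _ h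
    (fun c => pullRR N Mt (c • E)) (fun c => pullRR N Mt (D + c • E))
    (fun c => pullRR N Mt (-D + c • E))
    hU1 hUmono (hVmono D) (hVmono (-D)) hUU (hUV D) (hUV (-D)) n hn lam hpow
    ι s f g cf cg hf hg hfg Bt cI hcI S hS hgBt hloc

end Gen

end Fermat.Agent.S36.OneConstAsm

end
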