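import Mathlib
import Fermat.Agent.S36.OnePlan
import Fermat.Agent.S36.LiftOne
import Fermat.Agent.S18.MainSteps
import Fermat.Agent.S18.Main

/-!
# S36 / P8 — [ONE-CONST] from ONE section with constant reductions (helper77)

The top piece of the [ONE-CONST] junction, in the vocabulary of the `Q̄`-frame `(O, ρ)`:

* `exists_normalised` : a Kummer function `w` (`div w = n D`) and ONE section
  `g₀ ∈ L(D + c E) ∩ O`, both with nonzero CONSTANT coordinates, give a constant multiple `w'` of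
  `w` with `ρ(w') ρ(g₀)ⁿ = 1`  (`w g₀ⁿ ∈ L(n c E) ∩ O` has constant coordinates, so its reduction
  is a nonzero scalar by [CONN]; the scalar is lifted by [RED]);
* `SectStmt`          : **[SECT]** for every pair `(D, u)` with constant reductions there is a
  section `g₀ ∈ L(D + c' E) ∩ O` with nonzero constant reductions;
* `SectStmt' c`       : the same where the provider may move the pair to `(D', w)`, `D' ~ c • D`;
* `oneConstStmt_of_sect`, `oneConstStmt_of_sect'` : `[SECT] + [CONN] + [RED] ⟹ Plan.OneConstStmt`.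

No relation between the constants of `g₀` and those of `u` is required: [CONN] provides it.
-/

set_option autoImplicit false

noncomputable section

namespace Fermat.Agent.S36.OneConstOf

open ModularCurve AlgebraicCurve Fermat.Agent.S24 Fermat.Agent.S18 Fermat.Agent.S18.Content
  Fermat.Agent.S18.Plan Fermat.Agent.S34 Fermat.Agent.S34.Lift Fermat.Agent.S36.Plan
  Fermat.Agent.S36.LiftGen

section Core

variable {A : ValuationSubring Kbar} {N M q : ℕ} [NeZero N] [NeZero M] [NeZero q]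
variable {hq : q ∣ N} {hqq : q * q ∣ N} {O : Subring Om} {ρ : O →+* Rq A q}

/-- A nonzero constant series is nonzero. -/
theorem C_ne_zero' {κ : kk A} (hκ : κ ≠ 0) : (HahnSeries.C κ : Omk A) ≠ 0 := by
  intro h0
  exact hκ (HahnSeries.C_injective (by rw [h0, map_zero]))

/-- **Scalar normalisation.**  A Kummer function `w` of `D` and ONE section
`g₀ ∈ L(D + c E) ∩ O`, both with nonzero constant coordinates: a constant multiple `w'` of `w`
has `ρ(w') ρ(g₀)ⁿ = 1`. -/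
theorem exists_normalised (hNM : N ∣ M * q * q) (hRed : RedStmt A q O ρ)
    (hConn : ConnStmt A N M q hq hqq O ρ)
    (E : Divisor Kbar (FN N)) (hE : IsE3 N q hq hqq E)
    (D : Divisor Kbar (FN N)) (n : ℕ)
    (w : FN N) (hw0 : w ≠ 0) (hwD : ∀ P : Place Kbar (FN N), P.ord w = n * D P)
    (hw : (w : Om) ∈ O)
    (hwc : ∀ i : Coord q, ∃ κ : kk A, κ ≠ 0 ∧ ρ ⟨_, hw⟩ i = HahnSeries.C κ)
    (g₀ : O) (c : ℕ) (hg₀ : (g₀ : Om) ∈ pullRR N (M * q * q) (D + c • E))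
    (hgc : ∀ i : Coord q, ∃ κ : kk A, κ ≠ 0 ∧ ρ g₀ i = HahnSeries.C κ) :
    ∃ (w' : FN N) (hw' : (w' : Om) ∈ O), w' ≠ 0 ∧
      (∀ P : Place Kbar (FN N), P.ord w' = n * D P) ∧ ρ ⟨_, hw'⟩ * ρ g₀ ^ n = 1 := by
  classical
  have hpos : 0 < M * q * q :=
    Nat.mul_pos (Nat.mul_pos (Nat.pos_of_ne_zero (NeZero.ne M)) (Nat.pos_of_ne_zero (NeZero.ne q)))
      (Nat.pos_of_ne_zero (NeZero.ne q))
  have : NeZero (M * q * q) := ⟨hpos.ne'⟩
  have hle : modularFunctionFieldBar N ≤ modularFunctionFieldBar (M * q * q) :=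
    Main.fieldBar_le hNM
  -- `x := w g₀ⁿ ∈ L(n c E) ∩ O`
  have h1 : ((g₀ : O) : Om) ^ n ∈ pullRR N (M * q * q) (n • (D + c • E)) :=
    Main.pow_mem_pullRR n (fun P => smul_E_apply _ n P) hg₀
  have h2 := mul_mem_pullRR_of_le hle (h := w) hw0 (B := n • (D + c • E))
    (B' := (n * c) • E) (fun P => by
      rw [smul_E_apply, add_smul_E_apply, smul_E_apply, hwD P]
      push_cast
      linarith) h1
  set x : O := ⟨_, hw⟩ * g₀ ^ n with hx
  have hxm : (x : Om) ∈ pullRR N (M * q * q) ((n * c) • E) := by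
    rw [hx, Subring.coe_mul, Subring.coe_pow]
    exact h2
  have hxi : ∀ i : Coord q, ρ x i = ρ ⟨_, hw⟩ i * ρ g₀ i ^ n := fun i => by
    rw [hx, map_mul, map_pow, Pi.mul_apply, Pi.pow_apply]
  have hxc : ∀ i : Coord q, ∃ κ : kk A, ρ x i = HahnSeries.C κ := by
    intro i
    obtain ⟨κw, -, hκw⟩ := hwc i
    obtain ⟨κg, -, hκg⟩ := hgc i
    exact ⟨κw * κg ^ n, by rw [hxi, hκw, hκg, map_mul, map_pow]⟩
  obtain ⟨κ₀, hκ₀⟩ := hConn E hE (n * c) x hxm hxc
  have hκ0 : κ₀ ≠ 0 := by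
    obtain ⟨κw, hκw0, hκw⟩ := hwc Coord.inf
    obtain ⟨κg, hκg0, hκg⟩ := hgc Coord.inf
    have h3 := hκ₀ Coord.inf
    rw [hxi, hκw, hκg, ← map_pow, ← map_mul] at h3
    rw [← HahnSeries.C_injective h3]
    exact mul_ne_zero hκw0 (pow_ne_zero n hκg0)
  -- lift `κ₀⁻¹` to a unit of `A`
  have hmem : ∀ c : Kbar, (HahnSeries.C c : Om) ∈ O ↔ c ∈ A :=
    @LiftCore2.RedData.mem_iff Kbar Om (kk A) (Rq A q) _ _ HahnSeries.instAlgebra _ _ (algR A q) A
      (IsLocalRing.residue A) O ρ hRed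
  have hρalg : ∀ (a : A) (h' : (HahnSeries.C (a : Kbar) : Om) ∈ O),
      ρ ⟨_, h'⟩ = @algebraMap (kk A) (Rq A q) _ _ (algR A q) (IsLocalRing.residue A a) :=
    @LiftCore2.RedData.ρ_alg Kbar Om (kk A) (Rq A q) _ _ HahnSeries.instAlgebra _ _ (algR A q) A
      (IsLocalRing.residue A) O ρ hRed
  obtain ⟨a, ha⟩ := IsLocalRing.residue_surjective (R := A) κ₀
  have hau : IsUnit a := by
    by_contra hc
    refine hκ0 ?_
    rw [← ha]
    exact (IsLocalRing.residue_eq_zero_iff a).2 hc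
  obtain ⟨v, rfl⟩ := hau
  set b : A := ((v⁻¹ : Aˣ) : A) with hb
  have hbv : b * (v : A) = 1 := by rw [hb, ← Units.val_mul, inv_mul_cancel, Units.val_one]
  have hb0 : (b : Kbar) ≠ 0 := by
    intro h0
    have h1 : b = 0 := Subtype.ext h0
    rw [h1, zero_mul] at hbv
    exact zero_ne_one hbv
  set w' : FN N := Main.cmul (b : Kbar) w with hw'def
  have hw'0 : w' ≠ 0 := Main.cmul_ne_zero hb0 hw0
  have hw'D : ∀ P : Place Kbar (FN N), P.ord w' = n * D P := fun P => by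
    rw [hw'def, Main.ord_cmul P hb0 hw0, hwD P]
  have hbO : (HahnSeries.C (b : Kbar) : Om) ∈ O := (hmem _).2 b.2
  have hw' : (w' : Om) ∈ O := O.mul_mem hbO hw
  refine ⟨w', hw', hw'0, hw'D, ?_⟩
  have e1 : (⟨_, hw'⟩ : O) = ⟨_, hbO⟩ * ⟨_, hw⟩ := Subtype.ext rfl
  have e2 : ρ ⟨_, hw'⟩ * ρ g₀ ^ n = ρ ⟨_, hbO⟩ * ρ x := by
    rw [e1, hx, map_mul, map_mul, map_pow, mul_assoc]
  rw [e2, hρalg b hbO]
  funext i
  rw [Pi.mul_apply, hκ₀ i]
  change HahnSeries.C (IsLocalRing.residue A b) * HahnSeries.C κ₀ = 1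
  rw [← map_mul, ← ha, ← map_mul, hbv, map_one, map_one]

end Core

section Stmt

variable (A : ValuationSubring Kbar) (N' M q : ℕ) [NeZero N'] [NeZero M] [NeZero q]
variable (hq' : q ∣ N') (O : Subring Om) (ρ : O →+* Rq A q)

/-- **[SECT]** for every pair `(D, u)` with constant reductions: ONE section of
`L(D + c' E) ∩ O` with nonzero constant reductions. -/
def SectStmt : Prop :=
  ∀ (D : Divisor Kbar (FN (N' * q))) (n : ℕ) (u : FN (N' * q)), PairData A N' q D n u →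
    ∀ hu : (u : Om) ∈ O,
      (∀ i : Coord q, ∃ κ : kk A, κ ≠ 0 ∧ ρ ⟨_, hu⟩ i = HahnSeries.C κ) →
    ∀ E : Divisor Kbar (FN (N' * q)),
      IsE3 (N' * q) q (Dvd.intro_left N' rfl) (Nat.mul_dvd_mul_right hq' q) E →
    ∃ (g₀ : O) (c' : ℕ), (g₀ : Om) ∈ pullRR (N' * q) (M * q * q) (D + c' • E) ∧
      ∀ i : Coord q, ∃ κ : kk A, κ ≠ 0 ∧ ρ g₀ i = HahnSeries.C κ

/-- **[SECT]**, general form: the provider may move the pair to `(D', w)` with `D' ~ c • D`,
`w` a Kummer function of `D'` in `O` with nonzero constant reductions. -/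
def SectStmt' (c : ℕ) : Prop :=
  ∀ (D : Divisor Kbar (FN (N' * q))) (n : ℕ) (u : FN (N' * q)), PairData A N' q D n u →
    ∀ hu : (u : Om) ∈ O,
      (∀ i : Coord q, ∃ κ : kk A, κ ≠ 0 ∧ ρ ⟨_, hu⟩ i = HahnSeries.C κ) →
    ∀ E : Divisor Kbar (FN (N' * q)),
      IsE3 (N' * q) q (Dvd.intro_left N' rfl) (Nat.mul_dvd_mul_right hq' q) E →
    ∃ (D' : Divisor Kbar (FN (N' * q))) (w : FN (N' * q)) (hw : (w : Om) ∈ O) (g₀ : O) (c' : ℕ),
      D' - c • D ∈ Divisor.principal (K := Kbar) (F := FN (N' * q)) ∧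
      Divisor.degree D' = 0 ∧
      w ≠ 0 ∧ (∀ P : Place Kbar (FN (N' * q)), P.ord w = n * D' P) ∧
      (∀ i : Coord q, ∃ κ : kk A, κ ≠ 0 ∧ ρ ⟨_, hw⟩ i = HahnSeries.C κ) ∧
      (g₀ : Om) ∈ pullRR (N' * q) (M * q * q) (D' + c' • E) ∧
      ∀ i : Coord q, ∃ κ : kk A, κ ≠ 0 ∧ ρ g₀ i = HahnSeries.C κ

variable {A N' M q hq' O ρ}

omit [NeZero M] in
/-- `SectStmt` is the case `D' = D`, `w = u` of `SectStmt' 1`. -/
theorem sectStmt'_of_sect (h : SectStmt A N' M q hq' O ρ) : SectStmt' A N' M q hq' O ρ 1 := by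
  intro D n u hP hu hconst E hE
  obtain ⟨g₀, c', hg₀, hgc⟩ := h D n u hP hu hconst E hE
  refine ⟨D, u, hu, g₀, c', ?_, hP.stable.deg, hP.ne, hP.ord, hconst, hg₀, hgc⟩
  rw [one_smul, sub_self]
  exact zero_mem _

/-- **[ONE-CONST] ⟸ [SECT] (general form) + [CONN] + [RED].** -/
theorem oneConstStmt_of_sect' (hNM : N' * q ∣ M * q * q) (hRed : RedStmt A q O ρ)
    (hConn : ConnStmt A (N' * q) M q (Dvd.intro_left N' rfl) (Nat.mul_dvd_mul_right hq' q) O ρ)
    {c : ℕ} (h : SectStmt' A N' M q hq' O ρ c) : OneConstStmt A N' M q hq' O ρ c := by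
  intro D n u hP hu hconst E hE
  obtain ⟨D', w, hw, g₀, c', hcls, hdeg, hw0, hord, hwc, hg₀, hgc⟩ := h D n u hP hu hconst E hE
  obtain ⟨w', hw', hw'0, hw'D, hρ⟩ :=
    exists_normalised hNM hRed hConn E hE D' n w hw0 hord hw hwc g₀ c' hg₀ hgc
  refine ⟨D', w', hw', g₀, c', hcls, hdeg, hw'0, hw'D, hg₀, fun i => ?_, hρ⟩
  obtain ⟨κ, hκ, hκi⟩ := hgc i
  rw [hκi]
  exact C_ne_zero' hκ

/-- **[ONE-CONST] ⟸ [SECT] + [CONN] + [RED]** (with `c = 1`, `D' = D`). -/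
theorem oneConstStmt_of_sect (hNM : N' * q ∣ M * q * q) (hRed : RedStmt A q O ρ)
    (hConn : ConnStmt A (N' * q) M q (Dvd.intro_left N' rfl) (Nat.mul_dvd_mul_right hq' q) O ρ)
    (h : SectStmt A N' M q hq' O ρ) : OneConstStmt A N' M q hq' O ρ 1 :=
  oneConstStmt_of_sect' hNM hRed hConn (sectStmt'_of_sect h)

end Stmt

end Fermat.Agent.S36.OneConstOf

end
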