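import Mathlib
import Fermat.Agent.S36.OneConstOf

/-!
# S36 / P8 — [SECT] for a multiple `c • D` (helper96)

`OneConstOf.SectStmt` asks for a section of `L(D + c' E) ∩ O` with nonzero constant reductions for
the divisor `D` ITSELF.  The `K'`-chain only delivers such a section for `(q² - 1) • D` (the twist
constants at the triple points are independent of the point only after raising to the power
`q² - 1`).  This file names the corresponding target and connects it to
`OneConstOf.SectStmt'` / `Plan.OneConstStmt`: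

* `pairData_nsmul_pow` : `PairData D n u → PairData (c • D) n (u ^ c)`;
* `SectStmtC c`        : for every pair `(D, u)` with constant reductions, ONE section of
                         `L(c • D + c' E) ∩ O` with nonzero constant reductions;
* `sectStmtC_of_pair`  : it suffices to treat the pairs `(c • D, u ^ c)`;
* `sectStmt'_of_sectC` : `SectStmtC c → OneConstOf.SectStmt' c`  (`D' := c • D`, `w := u ^ c`);
* `oneConstStmt_of_sectC` : `SectStmtC c + [CONN] + [RED] ⟹ Plan.OneConstStmt c`.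
-/

set_option autoImplicit false

noncomputable section

namespace Fermat.Agent.S36.SectC

open ModularCurve AlgebraicCurve Fermat.Agent.S24 Fermat.Agent.S18 Fermat.Agent.S18.Content
  Fermat.Agent.S18.Plan Fermat.Agent.S34 Fermat.Agent.S36.Plan

section Pair

variable {A : ValuationSubring Kbar} {N' q : ℕ} [NeZero N'] [NeZero q]

/-- The pair `(c • D, u ^ c)` of a pair `(D, u)`. -/
theorem pairData_nsmul_pow {D : Divisor Kbar (FN (N' * q))} {n : ℕ} {u : FN (N' * q)}
    (h : PairData A N' q D n u) (c : ℕ) : PairData A N' q (c • D) n (u ^ c) := by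
  have hst : ∀ τ : Kbar ≃ₐ[ℚ] Kbar, τ ∈ A.inertiaSubgroupIn ℚ →
      S34.Plan.gal (N' * q) τ • (c • D) = c • D := fun τ hτ => by
    rw [smul_comm, h.stable.stable τ hτ]
  have hcls : c • D - c • D ∈ Divisor.principal (K := Kbar) (F := FN (N' * q)) := by
    rw [sub_self]
    exact zero_mem _
  refine PairData.of_principal h hcls hst (pow_ne_zero c h.ne) (fun P => ?_) (fun τ hτ => ?_)
  · rw [Main.ord_pow, h.ord P, Finsupp.smul_apply, nsmul_eq_mul]
    ring
  · rw [smul_pow', h.fix τ hτ]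

end Pair

section Stmt

variable (A : ValuationSubring Kbar) (N' M q : ℕ) [NeZero N'] [NeZero M] [NeZero q]
variable (hq' : q ∣ N') (O : Subring Om) (ρ : O →+* Rq A q)

/-- **[SECT] for `c • D`**: for every pair `(D, u)` with constant reductions there is ONE section
of `L(c • D + c' E) ∩ O` with nonzero constant reductions.  (`c = q² - 1` in the application.) -/
def SectStmtC (c : ℕ) : Prop :=
  ∀ (D : Divisor Kbar (FN (N' * q))) (n : ℕ) (u : FN (N' * q)), PairData A N' q D n u →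
    ∀ hu : (u : Om) ∈ O,
      (∀ i : Coord q, ∃ κ : kk A, κ ≠ 0 ∧ ρ ⟨_, hu⟩ i = HahnSeries.C κ) →
    ∀ E : Divisor Kbar (FN (N' * q)),
      IsE3 (N' * q) q (Dvd.intro_left N' rfl) (Nat.mul_dvd_mul_right hq' q) E →
    ∃ (g₀ : O) (c' : ℕ), (g₀ : Om) ∈ pullRR (N' * q) (M * q * q) (c • D + c' • E) ∧
      ∀ i : Coord q, ∃ κ : kk A, κ ≠ 0 ∧ ρ g₀ i = HahnSeries.C κ

variable {A N' M q hq' O ρ}

omit [NeZero M] [NeZero q] in
/-- The power `u ^ c` of an element of `O` with nonzero constant reductions is in `O` and has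
nonzero constant reductions. -/
theorem pow_const {u : Om} (hu : u ∈ O)
    (hconst : ∀ i : Coord q, ∃ κ : kk A, κ ≠ 0 ∧ ρ ⟨u, hu⟩ i = HahnSeries.C κ) (c : ℕ) :
    ∃ huc : u ^ c ∈ O, ∀ i : Coord q, ∃ κ : kk A, κ ≠ 0 ∧ ρ ⟨u ^ c, huc⟩ i = HahnSeries.C κ := by
  refine ⟨O.pow_mem hu c, fun i => ?_⟩
  obtain ⟨κ, hκ, hκi⟩ := hconst i
  refine ⟨κ ^ c, pow_ne_zero c hκ, ?_⟩
  have e : (⟨u ^ c, O.pow_mem hu c⟩ : O) = ⟨u, hu⟩ ^ c := Subtype.ext rfl
  rw [e, map_pow, Pi.pow_apply, hκi, map_pow]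

omit [NeZero M] in
/-- To prove `SectStmtC c` it suffices to produce, for every pair `(D₁, u₁)` with constant
reductions WHICH IS OF THE FORM `(c • D, u ^ c)`, a section of `L(D₁ + c' E) ∩ O` with nonzero
constant reductions. -/
theorem sectStmtC_of_pair {c : ℕ}
    (h : ∀ (D : Divisor Kbar (FN (N' * q))) (n : ℕ) (u : FN (N' * q)), PairData A N' q D n u →
      ∀ hu : (u : Om) ∈ O,
        (∀ i : Coord q, ∃ κ : kk A, κ ≠ 0 ∧ ρ ⟨_, hu⟩ i = HahnSeries.C κ) →
      PairData A N' q (c • D) n (u ^ c) →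
      ∀ huc : ((u ^ c : FN (N' * q)) : Om) ∈ O,
        (∀ i : Coord q, ∃ κ : kk A, κ ≠ 0 ∧ ρ ⟨_, huc⟩ i = HahnSeries.C κ) →
      ∀ E : Divisor Kbar (FN (N' * q)),
        IsE3 (N' * q) q (Dvd.intro_left N' rfl) (Nat.mul_dvd_mul_right hq' q) E →
      ∃ (g₀ : O) (c' : ℕ), (g₀ : Om) ∈ pullRR (N' * q) (M * q * q) (c • D + c' • E) ∧
        ∀ i : Coord q, ∃ κ : kk A, κ ≠ 0 ∧ ρ g₀ i = HahnSeries.C κ) :
    SectStmtC A N' M q hq' O ρ c := by
  intro D n u hP hu hconst E hE
  obtain ⟨huc, hucc⟩ := pow_const (ρ := ρ) hu hconst c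
  exact h D n u hP hu hconst (pairData_nsmul_pow hP c) huc hucc E hE

omit [NeZero M] in
/-- `SectStmtC c` is the case `D' = c • D`, `w = u ^ c` of `OneConstOf.SectStmt' c`. -/
theorem sectStmt'_of_sectC {c : ℕ} (h : SectStmtC A N' M q hq' O ρ c) :
    OneConstOf.SectStmt' A N' M q hq' O ρ c := by
  intro D n u hP hu hconst E hE
  obtain ⟨g₀, c', hg₀, hgc⟩ := h D n u hP hu hconst E hE
  have hPc := pairData_nsmul_pow hP c
  obtain ⟨huc, hucc⟩ := pow_const (ρ := ρ) hu hconst c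
  refine ⟨c • D, u ^ c, huc, g₀, c', ?_, hPc.stable.deg, hPc.ne, hPc.ord, hucc, hg₀, hgc⟩
  rw [sub_self]
  exact zero_mem _

/-- **[ONE-CONST] ⟸ [SECT] for `c • D` + [CONN] + [RED].** -/
theorem oneConstStmt_of_sectC (hNM : N' * q ∣ M * q * q) (hRed : RedStmt A q O ρ)
    (hConn : ConnStmt A (N' * q) M q (Dvd.intro_left N' rfl) (Nat.mul_dvd_mul_right hq' q) O ρ)
    {c : ℕ} (h : SectStmtC A N' M q hq' O ρ c) : OneConstStmt A N' M q hq' O ρ c :=
  OneConstOf.oneConstStmt_of_sect' hNM hRed hConn (sectStmt'_of_sectC h)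

end Stmt

end Fermat.Agent.S36.SectC

end
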