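import Mathlib
import Fermat.Agent.S36.UnipInv

/-!
# S36 / P8 — `TopEnd`: the end of the top, packaged (helper38)

Pure algebra over Mathlib, on top of `S36/UnipInv` (board #2986, steps 2 (kernel), 4, 5 and the
conclusion):

* `exists_eq_smul_of_lTensor_eq_zero` : flat base change of a kernel bound: if `ker f ⊆ m K`,
  then `ker (1 ⊗ f) ⊆ m (O ⊗ K)` for `O` flat over `ℤ`;
* `eq_zero_of_forall_exists_smul` : `O` a noetherian local domain of characteristic zero, `lam`
  in its maximal ideal, `K` finite free over `ℤ`, `c ≠ 0`: a vector `v : O ⊗ K` with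
  `c v ∈ lam ^ k (O ⊗ K)` for all `k` is zero (Krull's intersection theorem, coordinatewise);
* `eq_zero_of_forall_level` : the two combined with `UnipInv.smul_eq_zero_of_add_inv_baseChange`:
  a compatible system of finite levels `f k : K → P k` (`ker (f k) ⊆ lam ^ k K`, `P k` killed by
  `lam ^ k`, `lam` odd), a group `H` acting on each `P k` with invariants killed by `c ≠ 0`, and a
  vector `v : O ⊗ K` whose images `w k = (1 ⊗ f k) v` satisfy `(h + h⁻¹ - 2) w k = 0` for all
  `h : H`: then `v = 0`.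
-/

set_option autoImplicit false

namespace Fermat.Agent.S36.TopEnd

open TensorProduct

/-- **Flat base change of a kernel bound.**  If every element of the kernel of `f : K → P` is
divisible by `m` in `K`, then every element of the kernel of `1 ⊗ f` on `O ⊗[ℤ] K` is divisible
by `m`, for `O` flat over `ℤ`. -/
theorem exists_eq_smul_of_lTensor_eq_zero {K P : Type*} [AddCommGroup K] [AddCommGroup P]
    (f : K →+ P) (m : ℕ) (hker : ∀ x : K, f x = 0 → ∃ y : K, x = m • y)
    (O : Type*) [CommRing O] [Module.Flat ℤ O] (w : O ⊗[ℤ] K)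
    (hw : LinearMap.lTensor O f.toIntLinearMap w = 0) : ∃ y : O ⊗[ℤ] K, w = m • y := by
  have key : ∀ y : O ⊗[ℤ] (LinearMap.ker f.toIntLinearMap),
      ∃ z : O ⊗[ℤ] K, LinearMap.lTensor O (LinearMap.ker f.toIntLinearMap).subtype y = m • z := by
    intro y
    induction y using TensorProduct.induction_on with
    | zero => exact ⟨0, by rw [map_zero, smul_zero]⟩
    | tmul a x =>
      obtain ⟨x', hx'⟩ := hker (x : K) (LinearMap.mem_ker.1 x.2)
      refine ⟨a ⊗ₜ[ℤ] x', ?_⟩
      rw [LinearMap.lTensor_tmul, Submodule.subtype_apply, hx', TensorProduct.tmul_smul]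
    | add y₁ y₂ h₁ h₂ =>
      obtain ⟨z₁, hz₁⟩ := h₁
      obtain ⟨z₂, hz₂⟩ := h₂
      exact ⟨z₁ + z₂, by rw [map_add, hz₁, hz₂, smul_add]⟩
  have hmem : w ∈ LinearMap.ker (TensorProduct.AlgebraTensorModule.lTensor ℤ O f.toIntLinearMap) :=
    hw
  rw [Module.Flat.ker_lTensor_eq] at hmem
  obtain ⟨y, rfl⟩ := hmem
  exact key y

/-- **Separatedness.**  `O` a noetherian local domain of characteristic zero, `lam` in its maximal
ideal, `K` a finite free `ℤ`-module, `c ≠ 0`.  If `c • v` is divisible by `lam ^ k` in `O ⊗[ℤ] K`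
for every `k`, then `v = 0`. -/
theorem eq_zero_of_forall_exists_smul {O : Type*} [CommRing O] [IsDomain O] [IsLocalRing O]
    [IsNoetherianRing O] [CharZero O] {K : Type*} [AddCommGroup K] [Module.Free ℤ K]
    [Module.Finite ℤ K] (lam : ℕ) (hlam : (lam : O) ∈ IsLocalRing.maximalIdeal O)
    (c : ℕ) (hc : c ≠ 0) (v : O ⊗[ℤ] K)
    (h : ∀ k : ℕ, ∃ y : O ⊗[ℤ] K, c • v = lam ^ k • y) : v = 0 := by
  classical
  let b := Module.Free.chooseBasis ℤ K
  let B : Module.Basis (Module.Free.ChooseBasisIndex ℤ K) O (O ⊗[ℤ] K) := b.baseChange O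
  have hcO : (c : O) ≠ 0 := Nat.cast_ne_zero.2 hc
  have hcoord : ∀ i, B.repr v i = 0 := by
    intro i
    have hmem : (c : O) * B.repr v i ∈ (⨅ k : ℕ, IsLocalRing.maximalIdeal O ^ k : Ideal O) := by
      rw [Ideal.mem_iInf]
      intro k
      obtain ⟨y, hy⟩ := h k
      have h1 : (c : O) * B.repr v i = (lam : O) ^ k * B.repr y i := by
        have h2 := congrArg (fun z => B.repr z i) hy
        simp only [map_nsmul, Finsupp.smul_apply, nsmul_eq_mul, Nat.cast_pow] at h2
        exact h2
      rw [h1]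
      exact Ideal.mul_mem_right _ _ (Ideal.pow_mem_pow hlam k)
    rw [Ideal.iInf_pow_eq_bot_of_isLocalRing _ Ideal.IsPrime.ne_top', Ideal.mem_bot] at hmem
    exact (mul_eq_zero.1 hmem).resolve_left hcO
  have hrepr : B.repr v = 0 := Finsupp.ext hcoord
  exact (LinearEquiv.map_eq_zero_iff B.repr).1 hrepr

/-- `lTensor` commutes with multiplication by a natural number. -/
theorem lTensor_nsmul {O : Type*} [CommRing O] {K P : Type*} [AddCommGroup K] [AddCommGroup P]
    (g : K →ₗ[ℤ] P) (n : ℕ) (v : O ⊗[ℤ] K) :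
    LinearMap.lTensor O g (n • v) = n • LinearMap.lTensor O g v :=
  map_nsmul _ _ _

/-- **The end of the top.**  `O` a noetherian local domain of characteristic zero (flat over `ℤ`)
with `lam` odd in its maximal ideal; `K` a finite free `ℤ`-module; for every level `k` a finite
abelian group `P k` killed by `lam ^ k`, a homomorphism `f k : K → P k` whose kernel is contained
in `lam ^ k K`, and an action `r k` of a group `H` on `P k` whose invariants are killed by
`c ≠ 0`.  If `v : O ⊗[ℤ] K` is such that every `w k = (1 ⊗ f k) v` satisfies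
`(h + h⁻¹ - 2) w k = 0` for all `h : H`, then `v = 0`. -/
theorem eq_zero_of_forall_level {O : Type*} [CommRing O] [IsDomain O] [IsLocalRing O]
    [IsNoetherianRing O] [CharZero O] [Module.Flat ℤ O]
    {K : Type*} [AddCommGroup K] [Module.Free ℤ K] [Module.Finite ℤ K]
    {H : Type*} [Group H]
    (lam : ℕ) (hlam : (lam : O) ∈ IsLocalRing.maximalIdeal O) (hodd : Odd lam)
    (c : ℕ) (hc : c ≠ 0)
    (P : ℕ → Type*) [∀ k, AddCommGroup (P k)] [∀ k, Finite (P k)]
    (f : ∀ k, K →+ P k) (hker : ∀ (k : ℕ) (x : K), f k x = 0 → ∃ y : K, x = lam ^ k • y)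
    (hkill : ∀ (k : ℕ) (x : P k), lam ^ k • x = 0)
    (r : ∀ k, H →* AddMonoid.End (P k))
    (hinv : ∀ (k : ℕ) (x : P k), (∀ h, r k h x = x) → c • x = 0)
    (v : O ⊗[ℤ] K)
    (hv : ∀ (k : ℕ) (h : H),
      LinearMap.lTensor O (r k h).toIntLinearMap (LinearMap.lTensor O (f k).toIntLinearMap v)
        + LinearMap.lTensor O (r k h⁻¹).toIntLinearMap
            (LinearMap.lTensor O (f k).toIntLinearMap v)
        = 2 • LinearMap.lTensor O (f k).toIntLinearMap v) :
    v = 0 := by
  refine eq_zero_of_forall_exists_smul lam hlam (c ^ 3) (pow_ne_zero 3 hc) v fun k => ?_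
  have h1 : c ^ 3 • LinearMap.lTensor O (f k).toIntLinearMap v = 0 :=
    UnipInv.smul_eq_zero_of_add_inv_baseChange (r k) c (lam ^ k) (hodd.pow) (hkill k) (hinv k) O _
      (hv k)
  refine exists_eq_smul_of_lTensor_eq_zero (f k) (lam ^ k) (hker k) O (c ^ 3 • v) ?_
  rw [lTensor_nsmul, h1]

end Fermat.Agent.S36.TopEnd
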