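/-
P8 / S36 — [K0-TRACE], instances (owner: helper33): the hypothesis-free forms of helper9's
contract `TwistK0.TraceStmt` (per setup, and at all levels with the binders of
`OneAllOf.SurjAllStmt`).  [MID-EQ] is helper70's `CondK0.midEqStmt`.
-/
import Mathlib
import Fermat.Agent.S36.TraceK0
import Fermat.Agent.S36.TwistK0
import Fermat.Agent.S36.CondK0

set_option autoImplicit false

noncomputable section

namespace Fermat.Agent.S36.TraceK0Inst

open ModularCurve AlgebraicCurve Fermat.Agent.S24 Fermat.Agent.S18 Fermat.Agent.S18.Content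
  Fermat.Agent.S18.Plan Fermat.Agent.S34 Fermat.Agent.S36.Plan

/-- **[K0-TRACE]** per setup: `TwistK0.TraceStmt` for every cusp divisor `E`. -/
theorem traceStmt_inst (A : ValuationSubring Kbar) {N' M q : ℕ} [NeZero N'] [NeZero M] [NeZero q]
    {O : Subring Om} {ρ : O →+* Rq A q} (hqp : q.Prime) (hA : A.LiesOverPrime q)
    {h : Nat.Coprime M q} (F : Frame M q h) (hS : IsSetup A F O ρ) (hq' : q ∣ N')
    (hdiv : N' * q ∣ M * q * q) (ξ₀ : MidIdx q) :
    ∀ E : Divisor Kbar (FN (N' * q)),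
      IsE3 (N' * q) q (Dvd.intro_left N' rfl) (Nat.mul_dvd_mul_right hq' q) E →
      TwistK0.TraceStmt A N' M q O ρ ξ₀ E :=
  fun E hE => TraceK0.traceStmt A hqp hA F hS hq' hdiv E hE ξ₀ (CondK0.midEqStmt hqp hA hS)

/-- **[K0-TRACE] at all levels** (the binders of `OneAllOf.SurjAllStmt`). -/
theorem traceAll :
    ∀ (N₀ N' M q : ℕ) [NeZero N'] [NeZero M] [NeZero q] (hq' : q ∣ N') (h : Nat.Coprime M q),
      q.Prime → Nat.Coprime N₀ q → N' = N₀ * q → M = S34.Plan.aux q * N₀ →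
      ∀ A : ValuationSubring Kbar, A.LiesOverPrime q →
      ∀ (F : Frame M q h) (O : Subring Om) (ρ : O →+* Rq A q), IsSetup A F O ρ →
      ∀ (ξ₀ : MidIdx q) (E : Divisor Kbar (FN (N' * q))),
        IsE3 (N' * q) q (Dvd.intro_left N' rfl) (Nat.mul_dvd_mul_right hq' q) E →
        TwistK0.TraceStmt A N' M q O ρ ξ₀ E := by
  intro N₀ N' M q _ _ _ hq' h hqp _ hN' hM A hA F O ρ hS ξ₀ E hE
  have hdiv : N' * q ∣ M * q * q := ⟨S34.Plan.aux q, by rw [hN', hM]; ring⟩
  exact traceStmt_inst A hqp hA F hS hq' hdiv ξ₀ E hE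

end Fermat.Agent.S36.TraceK0Inst

end
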