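import Mathlib

/-!
# S36 / P8 — [TWIST], Mathlib-only core (helper93)

At a supersingular point `s` of the level-`q²` model the local generator `g_s` of `M(D)` has
three branch values `l1 s, l2 s, l3 s` (components `∞`, middle, `0`).  The norms to level `q`
along the two degeneracy maps give, with constants independent of `s`,

* `l1 s * l2 s ^ (q - 1) = A * l3 s ^ q`        (norm along `α`),
* `l1 s ^ q * B = l2 s ^ (q - 1) * l3 s`        (norm along `β`).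

Consequence: the `(q² - 1)`-th powers of the ratios `l1 / l3`, `l2 / l3` do not depend on `s`.

* `ratio_pow_of_norm_relations`  : the ratio form, in any commutative group;
* `const_of_norm_relations`      : the same as `∃ μ₁ μ₂`, in any commutative group;
* `const_of_norm_relations₀`     : the same for nonzero elements of a field;
* `exists_scalar_of_norm_relations₀` : the form consumed by `[LOC-λ]`: one triple `λ` of nonzero
  constants such that the `(q² - 1)`-th power of every local triple is a scalar multiple of `λ`.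
-/

set_option autoImplicit false

namespace Fermat.Agent.S36.TwistConst

section Group

variable {G : Type*} [CommGroup G] {S : Type*}

/-- From the two norm relations at one point: `(l1 / l3) ^ (q + 1) = A / B` and
`(l2 / l3) ^ ((q - 1) * (q + 1)) = A ^ q * B`. -/
theorem ratio_pow_of_norm_relations {q : ℕ} (hq : 1 ≤ q) {a b c A B : G}
    (hα : a * b ^ (q - 1) = A * c ^ q) (hβ : a ^ q * B = b ^ (q - 1) * c) :
    (a / c) ^ (q + 1) = A / B ∧ (b / c) ^ ((q - 1) * (q + 1)) = A ^ q * B := by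
  obtain ⟨m, rfl⟩ : ∃ m, q = m + 1 := ⟨q - 1, by omega⟩
  simp only [Nat.add_sub_cancel] at hα hβ ⊢
  -- `x := a / c`, `y := b / c`
  have hx : (a / c) * (b / c) ^ m = A := by
    have h1 : (a / c) * (b / c) ^ m = a * b ^ m / c ^ (m + 1) := by
      rw [div_pow, pow_succ]
      rw [div_mul_div_comm, mul_comm c (c ^ m)]
    rw [h1, hα, mul_div_assoc, div_self', mul_one]
  have hy : (a / c) ^ (m + 1) * B = (b / c) ^ m := by
    have h1 : (a / c) ^ (m + 1) * B = a ^ (m + 1) * B / c ^ (m + 1) := by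
      rw [div_pow, div_mul_eq_mul_div]
    rw [h1, hβ, div_pow, pow_succ c m, mul_div_mul_right_eq_div]
  have hxq : (a / c) ^ (m + 1 + 1) = A / B := by
    rw [eq_div_iff_mul_eq', ← hx, ← hy, pow_succ (a / c) (m + 1)]
    rw [mul_comm ((a / c) ^ (m + 1)) (a / c), mul_assoc]
  refine ⟨hxq, ?_⟩
  rw [pow_mul, ← hy, mul_pow, ← pow_mul, mul_comm (m + 1) (m + 1 + 1), pow_mul, hxq, div_pow,
    pow_succ B (m + 1), ← mul_assoc, div_mul_cancel]

/-- **[TWIST] core**: the `(q² - 1)`-th powers of the ratios are independent of the point. -/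
theorem const_of_norm_relations {q : ℕ} (hq : 1 ≤ q) (l1 l2 l3 : S → G) (A B : G)
    (hα : ∀ s, l1 s * l2 s ^ (q - 1) = A * l3 s ^ q)
    (hβ : ∀ s, l1 s ^ q * B = l2 s ^ (q - 1) * l3 s) :
    ∃ μ₁ μ₂ : G, ∀ s, l1 s ^ (q ^ 2 - 1) = μ₁ * l3 s ^ (q ^ 2 - 1) ∧
      l2 s ^ (q ^ 2 - 1) = μ₂ * l3 s ^ (q ^ 2 - 1) := by
  have hqq : q ^ 2 - 1 = (q - 1) * (q + 1) := by
    obtain ⟨m, rfl⟩ : ∃ m, q = m + 1 := ⟨q - 1, by omega⟩
    simp only [Nat.add_sub_cancel]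
    have : (m + 1) ^ 2 = m * (m + 1 + 1) + 1 := by ring
    omega
  refine ⟨(A / B) ^ (q - 1), A ^ q * B, fun s => ?_⟩
  obtain ⟨h1, h2⟩ := ratio_pow_of_norm_relations hq (hα s) (hβ s)
  constructor
  · have : (l1 s / l3 s) ^ (q ^ 2 - 1) = (A / B) ^ (q - 1) := by
      rw [hqq, mul_comm, pow_mul, h1]
    rw [← this, div_pow, div_mul_cancel]
  · have : (l2 s / l3 s) ^ (q ^ 2 - 1) = A ^ q * B := by rw [hqq, h2]
    rw [← this, div_pow, div_mul_cancel]

end Group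

section Field

variable {k : Type*} [Field k] {S : Type*}

/-- **[TWIST] core**, field form: nonzero branch values. -/
theorem const_of_norm_relations₀ {q : ℕ} (hq : 1 ≤ q) (l1 l2 l3 : S → k)
    (h1 : ∀ s, l1 s ≠ 0) (h2 : ∀ s, l2 s ≠ 0) (h3 : ∀ s, l3 s ≠ 0) (A B : k) (hA : A ≠ 0)
    (hB : B ≠ 0)
    (hα : ∀ s, l1 s * l2 s ^ (q - 1) = A * l3 s ^ q)
    (hβ : ∀ s, l1 s ^ q * B = l2 s ^ (q - 1) * l3 s) :
    ∃ μ₁ μ₂ : k, μ₁ ≠ 0 ∧ μ₂ ≠ 0 ∧ ∀ s, l1 s ^ (q ^ 2 - 1) = μ₁ * l3 s ^ (q ^ 2 - 1) ∧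
      l2 s ^ (q ^ 2 - 1) = μ₂ * l3 s ^ (q ^ 2 - 1) := by
  obtain ⟨μ₁, μ₂, h⟩ := const_of_norm_relations (G := kˣ) hq
    (fun s => Units.mk0 _ (h1 s)) (fun s => Units.mk0 _ (h2 s)) (fun s => Units.mk0 _ (h3 s))
    (Units.mk0 A hA) (Units.mk0 B hB)
    (fun s => Units.ext (by simpa using hα s)) (fun s => Units.ext (by simpa using hβ s))
  refine ⟨μ₁, μ₂, μ₁.ne_zero, μ₂.ne_zero, fun s => ⟨?_, ?_⟩⟩
  · simpa using congrArg Units.val (h s).1
  · simpa using congrArg Units.val (h s).2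

/-- **[TWIST]**, the form consumed by `[LOC-λ]`: there is ONE triple of nonzero constants
`(λ₁, λ₂, λ₃)` such that at every point the `(q² - 1)`-th powers of the three branch values are
a common nonzero scalar multiple of it. -/
theorem exists_scalar_of_norm_relations₀ {q : ℕ} (hq : 1 ≤ q) (l1 l2 l3 : S → k)
    (h1 : ∀ s, l1 s ≠ 0) (h2 : ∀ s, l2 s ≠ 0) (h3 : ∀ s, l3 s ≠ 0) (A B : k) (hA : A ≠ 0)
    (hB : B ≠ 0)
    (hα : ∀ s, l1 s * l2 s ^ (q - 1) = A * l3 s ^ q)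
    (hβ : ∀ s, l1 s ^ q * B = l2 s ^ (q - 1) * l3 s) :
    ∃ lam₁ lam₂ lam₃ : k, lam₁ ≠ 0 ∧ lam₂ ≠ 0 ∧ lam₃ ≠ 0 ∧ ∀ s, ∃ c : k, c ≠ 0 ∧
      l1 s ^ (q ^ 2 - 1) = c * lam₁ ∧ l2 s ^ (q ^ 2 - 1) = c * lam₂ ∧
      l3 s ^ (q ^ 2 - 1) = c * lam₃ := by
  obtain ⟨μ₁, μ₂, hμ₁, hμ₂, h⟩ := const_of_norm_relations₀ hq l1 l2 l3 h1 h2 h3 A B hA hB hα hβ
  refine ⟨μ₁, μ₂, 1, hμ₁, hμ₂, one_ne_zero, fun s => ⟨l3 s ^ (q ^ 2 - 1), pow_ne_zero _ (h3 s), ?_, ?_, ?_⟩⟩
  · rw [(h s).1, mul_comm]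
  · rw [(h s).2, mul_comm]
  · rw [mul_one]

end Field

end Fermat.Agent.S36.TwistConst
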