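import Mathlib
import Fermat.Agent.S36.K0Plan
import Fermat.Agent.S36.K0ScaleFrame
import Fermat.Agent.S34.ValFinal
import Fermat.Agent.S18.ConstWPlan

/-!
# S36 / P8 — [NORM-TW], generic half: the reduction of a scaled `n`-th root of a norm (helper93)

Frame-free algebra used by `S36/TwistInst.lean` (the instance of `TwistK0.NormTwStmt`).

* `exists_C_of_pow_eq_C` : an `n`-th root of a constant in `k((T))` is a constant;
* `exists_red_const`     : the reduction of the scaled `n`-th root `d · a` of a norm;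
* `gal_norm_along`, `fixed_norm_along`, `fixed_mul`, `fixed_C`, `fixed_qExpand` : norms, products,
  constants and `T ↦ T^q` commute with the Galois action;
* `exists_norm_elem`     : the level-`q` element `N f · (d a)` and its two reductions (generic in
                           the norm map).
-/

set_option autoImplicit false

noncomputable section

namespace Fermat.Agent.S36.TwistRed

open ModularCurve AlgebraicCurve Fermat.Agent.S24 Fermat.Agent.S18 Fermat.Agent.S18.Content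
  Fermat.Agent.S18.Plan Fermat.Agent.S34

/-! ## Roots of constants -/

/-- An `n`-th root of a constant of `k((T))` is a constant. -/
theorem exists_C_of_pow_eq_C {κ : Type*} [Field κ] (n : ℕ) (hn : 0 < n) (x : LaurentSeries κ)
    (c : κ) (h : x ^ n = HahnSeries.C c) : ∃ η : κ, x = HahnSeries.C η ∧ η ^ n = c := by
  have hint : IsIntegral κ x := by
    refine ⟨Polynomial.X ^ n - Polynomial.C c, Polynomial.monic_X_pow_sub_C c hn.ne', ?_⟩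
    rw [Polynomial.eval₂_sub, Polynomial.eval₂_pow, Polynomial.eval₂_X, Polynomial.eval₂_C, h,
      algebraMap_LS_eq_C, sub_self]
  obtain ⟨η, rfl⟩ := Fermat.Agent.S18.ConstWPlan.eq_C_of_isIntegral hint
  refine ⟨η, rfl, ?_⟩
  rw [← map_pow] at h
  exact HahnSeries.C_injective h

/-! ## The scaled `n`-th root at level `q` -/

section LevelQ

variable (A : ValuationSubring Kbar) {M q : ℕ} [NeZero M] [NeZero q]
variable (σ : FN (M * q) ≃ₐ[Kbar] FN (M * q))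
variable {NY : ℕ} [NeZero NY] {hqNY : q ∣ NY}

/-- **The `n`-th root of a norm, scaled to a unit.**  If `x = c₀ · a ^ n` in `F_{Mq}`,
`Red x = (x₁, x₂)` with `x₁ Ξ₁ⁿ = 1`, `x₂ Ξ₂ⁿ = 1`, and `d · a` is a unit for the content valuation
at `∞`, then `d · a ∈ O₂` and `Red (d · a) = (η₁ Ξ₁⁻¹, η₂ Ξ₂⁻¹)` with nonzero constants `η₁`, `η₂`,
`η₁ⁿ = η₂ⁿ`. -/
theorem exists_red_const
    (hSY : S34.Plan.Setup2 A NY q M hqNY (Val.O2 A M q σ) (Val.Red A M q σ))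
    (n : ℕ) (hn : 0 < n) (a x : FN (M * q)) (c₀ : Kbar) (hc₀ : c₀ ≠ 0)
    (hnorm : x = algebraMap Kbar (FN (M * q)) c₀ * a ^ n)
    (hx : (x : Om) ∈ Val.O2 A M q σ) (Ξ₁ Ξ₂ : Omk A)
    (h1 : (Val.Red A M q σ ⟨(x : Om), hx⟩).1 * Ξ₁ ^ n = 1)
    (h2 : (Val.Red A M q σ ⟨(x : Om), hx⟩).2 * Ξ₂ ^ n = 1)
    (d : Kbar) (hdO : HahnSeries.C d * (a : Om) ∈ Ocal A) (hdred : red A ⟨_, hdO⟩ ≠ 0) :
    ∃ (η₁ η₂ : kk A), η₁ ≠ 0 ∧ η₂ ≠ 0 ∧ η₁ ^ n = η₂ ^ n ∧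
      ∃ ha : HahnSeries.C d * (a : Om) ∈ Val.O2 A M q σ,
        (Val.Red A M q σ ⟨_, ha⟩).1 * Ξ₁ = HahnSeries.C η₁ ∧
        (Val.Red A M q σ ⟨_, ha⟩).2 * Ξ₂ = HahnSeries.C η₂ := by
  have hC0 : ∀ c : kk A, (HahnSeries.C c : Omk A) = 0 → c = 0 := fun c hc =>
    HahnSeries.C_injective (by rw [hc, map_zero])
  set X := Val.Red A M q σ ⟨(x : Om), hx⟩ with hX
  have hX1 : X.1 ≠ 0 := fun h0 => by rw [h0, zero_mul] at h1; exact zero_ne_one h1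
  have hx0 : (x : Om) ≠ 0 := by
    intro h0
    have e0 : (⟨(x : Om), hx⟩ : Val.O2 A M q σ) = 0 := Subtype.ext h0
    apply hX1
    rw [hX, e0, map_zero]
    rfl
  have ha0 : (a : Om) ≠ 0 := by
    intro h0
    apply hx0
    rw [hnorm]
    push_cast
    rw [h0, zero_pow hn.ne', mul_zero]
  -- a first scaling, from the two-component frame
  obtain ⟨d', hd', ha', hne'⟩ := hSY.scale (a : Om) a.2 ha0
  set e : Kbar := c₀ * (d'⁻¹) ^ n with he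
  have he0 : e ≠ 0 := mul_ne_zero hc₀ (pow_ne_zero _ (inv_ne_zero hd'))
  have hxe : (x : Om) = HahnSeries.C e * (HahnSeries.C d' * (a : Om)) ^ n := by
    rw [hnorm]
    push_cast
    rw [algebraMap_LS_eq_C, he, mul_pow, ← map_pow, ← mul_assoc, ← map_mul]
    congr 2
    rw [mul_assoc, ← mul_pow, inv_mul_cancel₀ hd', one_pow, mul_one]
  set r := Val.Red A M q σ ⟨_, ha'⟩ with hr
  -- `e` is a unit of `A`
  have heA : e ∈ A := by
    by_contra heA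
    have heinv : e⁻¹ ∈ A := (A.mem_or_inv_mem e).resolve_left heA
    have hres : IsLocalRing.residue A ⟨e⁻¹, heinv⟩ = 0 := by
      rw [IsLocalRing.residue_eq_zero_iff, ValuationSubring.valuation_lt_one_iff]
      show A.valuation e⁻¹ < 1
      rw [map_inv₀]
      have h1e : 1 < A.valuation e := by
        rw [← not_le, A.valuation_le_one_iff]
        exact heA
      exact inv_lt_one_of_one_lt₀ h1e
    have hCe : (HahnSeries.C e⁻¹ : Om) ∈ Val.O2 A M q σ := (hSY.C_mem_iff _).2 heinv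
    have hρe := hSY.ρ_C ⟨e⁻¹, heinv⟩ hCe
    have hprod : (⟨_, ha'⟩ : Val.O2 A M q σ) ^ n = ⟨_, hCe⟩ * ⟨(x : Om), hx⟩ :=
      Subtype.ext (by
        show (HahnSeries.C d' * (a : Om)) ^ n = HahnSeries.C e⁻¹ * (x : Om)
        rw [hxe, ← mul_assoc, ← map_mul, inv_mul_cancel₀ he0, map_one, one_mul])
    have h3 := congrArg (Val.Red A M q σ) hprod
    rw [map_pow, map_mul, hρe, hres, map_zero] at h3
    have h4 : r = 0 := by
      refine Prod.ext ?_ ?_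
      · have h5 : r.1 ^ n = 0 * X.1 := congrArg Prod.fst h3
        rw [zero_mul] at h5
        exact (pow_eq_zero_iff hn.ne').1 h5
      · have h5 : r.2 ^ n = 0 * X.2 := congrArg Prod.snd h3
        rw [zero_mul] at h5
        exact (pow_eq_zero_iff hn.ne').1 h5
    exact hne' h4
  have hCe : (HahnSeries.C e : Om) ∈ Val.O2 A M q σ := (hSY.C_mem_iff e).2 heA
  have hρe := hSY.ρ_C ⟨e, heA⟩ hCe
  have hprod : (⟨(x : Om), hx⟩ : Val.O2 A M q σ) = ⟨_, hCe⟩ * ⟨_, ha'⟩ ^ n := Subtype.ext hxe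
  have hXr : X = (HahnSeries.C (IsLocalRing.residue A ⟨e, heA⟩),
      HahnSeries.C (IsLocalRing.residue A ⟨e, heA⟩)) * r ^ n := by
    rw [hX, hprod, map_mul, map_pow, hρe]
  set ē := IsLocalRing.residue A ⟨e, heA⟩ with hē
  have hX1' : X.1 = HahnSeries.C ē * r.1 ^ n := congrArg Prod.fst hXr
  have hX2' : X.2 = HahnSeries.C ē * r.2 ^ n := congrArg Prod.snd hXr
  have hē0 : ē ≠ 0 := by
    intro h0
    apply hX1
    rw [hX1', h0, map_zero, zero_mul]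
  have hr1 : r.1 ≠ 0 := by
    intro h0
    apply hX1
    rw [hX1', h0, zero_pow hn.ne', mul_zero]
  -- compare the two scalings at the `∞`-coordinate
  have ha'O : HahnSeries.C d' * (a : Om) ∈ Ocal A := hSY.mem_Ocal ⟨_, ha'⟩
  have hr1' : red A ⟨_, ha'O⟩ ≠ 0 := by
    rw [← hSY.fst_eq ⟨_, ha'⟩ ha'O]
    exact hr1
  set u : Kbar := d / d' with hu
  have hmul : HahnSeries.C d * (a : Om) = HahnSeries.C u * (HahnSeries.C d' * (a : Om)) := by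
    rw [← mul_assoc, ← map_mul, hu, div_mul_cancel₀ d hd']
  have huA : u ∈ A := by
    rw [← C_mul_mem_Ocal_iff A u ⟨_, ha'O⟩ hr1']
    show HahnSeries.C u * (HahnSeries.C d' * (a : Om)) ∈ Ocal A
    rw [← hmul]
    exact hdO
  have hred_mul : red A ⟨_, hdO⟩ =
      HahnSeries.C (IsLocalRing.residue A ⟨u, huA⟩) * red A ⟨_, ha'O⟩ := by
    have h' : HahnSeries.C u * ((⟨_, ha'O⟩ : Ocal A) : Om) ∈ Ocal A := by
      rw [← hmul]; exact hdO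
    rw [← red_C_mul A huA ⟨_, ha'O⟩ h']
    exact red_congr A hmul _ _
  set ū := IsLocalRing.residue A ⟨u, huA⟩ with hū
  have hū0 : ū ≠ 0 := by
    intro h0
    apply hdred
    rw [hred_mul, h0, map_zero, zero_mul]
  have hCu : (HahnSeries.C u : Om) ∈ Val.O2 A M q σ := (hSY.C_mem_iff u).2 huA
  have hρu := hSY.ρ_C ⟨u, huA⟩ hCu
  have ha : HahnSeries.C d * (a : Om) ∈ Val.O2 A M q σ := by
    rw [hmul]
    exact (Val.O2 A M q σ).mul_mem hCu ha'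
  have hRed : Val.Red A M q σ ⟨_, ha⟩ = (HahnSeries.C ū, HahnSeries.C ū) * r := by
    have e1 : (⟨_, ha⟩ : Val.O2 A M q σ) = ⟨_, hCu⟩ * ⟨_, ha'⟩ := Subtype.ext hmul
    rw [e1, map_mul, hρu]
  have hR1 : (Val.Red A M q σ ⟨_, ha⟩).1 = HahnSeries.C ū * r.1 := congrArg Prod.fst hRed
  have hR2 : (Val.Red A M q σ ⟨_, ha⟩).2 = HahnSeries.C ū * r.2 := congrArg Prod.snd hRed
  -- the two `n`-th powers are the same constant
  have hCē : (HahnSeries.C ē : Omk A) * HahnSeries.C ē⁻¹ = 1 := by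
    rw [← map_mul, mul_inv_cancel₀ hē0, map_one]
  have e1 : ((Val.Red A M q σ ⟨_, ha⟩).1 * Ξ₁) ^ n = HahnSeries.C (ū ^ n * ē⁻¹) := by
    rw [hR1, map_mul, map_pow]
    calc (HahnSeries.C ū * r.1 * Ξ₁) ^ n
        = HahnSeries.C ū ^ n * (HahnSeries.C ē * HahnSeries.C ē⁻¹) * (r.1 ^ n * Ξ₁ ^ n) := by
          rw [hCē]; ring
      _ = HahnSeries.C ū ^ n * HahnSeries.C ē⁻¹ * (X.1 * Ξ₁ ^ n) := by rw [hX1']; ring
      _ = HahnSeries.C ū ^ n * HahnSeries.C ē⁻¹ := by rw [h1, mul_one]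
  have e2 : ((Val.Red A M q σ ⟨_, ha⟩).2 * Ξ₂) ^ n = HahnSeries.C (ū ^ n * ē⁻¹) := by
    rw [hR2, map_mul, map_pow]
    calc (HahnSeries.C ū * r.2 * Ξ₂) ^ n
        = HahnSeries.C ū ^ n * (HahnSeries.C ē * HahnSeries.C ē⁻¹) * (r.2 ^ n * Ξ₂ ^ n) := by
          rw [hCē]; ring
      _ = HahnSeries.C ū ^ n * HahnSeries.C ē⁻¹ * (X.2 * Ξ₂ ^ n) := by rw [hX2']; ring
      _ = HahnSeries.C ū ^ n * HahnSeries.C ē⁻¹ := by rw [h2, mul_one]
  obtain ⟨η₁, hη₁, hη₁n⟩ := exists_C_of_pow_eq_C n hn _ _ e1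
  obtain ⟨η₂, hη₂, hη₂n⟩ := exists_C_of_pow_eq_C n hn _ _ e2
  have hκ : ū ^ n * ē⁻¹ ≠ 0 := mul_ne_zero (pow_ne_zero _ hū0) (inv_ne_zero hē0)
  refine ⟨η₁, η₂, ?_, ?_, by rw [hη₁n, hη₂n], ha, hη₁, hη₂⟩
  · rintro rfl
    rw [zero_pow hn.ne'] at hη₁n
    exact hκ hη₁n.symm
  · rintro rfl
    rw [zero_pow hn.ne'] at hη₂n
    exact hκ hη₂n.symm

end LevelQ


/-! ## Norms and the Galois action -/

section Gal

variable {N₁ N₂ : ℕ} [NeZero N₁] [NeZero N₂]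

omit [NeZero N₁] [NeZero N₂] in
/-- The norm along `φ` commutes with a pair of intertwined semilinear automorphisms. -/
theorem gal_norm_along (φ : FN N₁ →ₐ[Kbar] FN N₂)
    (g : SemilinearAut Kbar (FN N₁)) (g' : SemilinearAut Kbar (FN N₂))
    (h : SemilinearAut.IntertwinesAlong (φ : FN N₁ →+* FN N₂) g g') (y : FN N₂) :
    @Algebra.norm (FN N₁) (FN N₂) _ _ (algebraAlong φ) (g' • y) =
      g • @Algebra.norm (FN N₁) (FN N₂) _ _ (algebraAlong φ) y := by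
  have h1 := @Algebra.norm_eq_of_equiv_equiv (FN N₁) (FN N₂) (FN N₁) (FN N₂) _ _ _ _
    (algebraAlong φ) (algebraAlong φ) (SemilinearAut.toRingAut g) (SemilinearAut.toRingAut g')
    (RingHom.ext fun x => (h x).symm) y
  rw [SemilinearAut.smul_def, SemilinearAut.smul_def, h1, RingEquiv.apply_symm_apply]

/-- The norm of a `K₀`-rational function is `K₀`-rational. -/
theorem fixed_norm_along (A : ValuationSubring Kbar) (φ : FN N₁ →ₐ[Kbar] FN N₂)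
    (h : ∀ τ : Kbar ≃ₐ[ℚ] Kbar, SemilinearAut.IntertwinesAlong (φ : FN N₁ →+* FN N₂)
      (S34.Plan.gal N₁ τ) (S34.Plan.gal N₂ τ))
    (y : FN N₂) (hy : K0Plan.Fixed A (y : Om)) :
    K0Plan.Fixed A ((@Algebra.norm (FN N₁) (FN N₂) _ _ (algebraAlong φ) y : FN N₁) : Om) := by
  intro τ hτ
  have hy' : S34.Plan.gal N₂ τ • y = y := Subtype.ext (hy τ hτ)
  have h1 := gal_norm_along φ _ _ (h τ) y
  rw [hy'] at h1
  exact congrArg (fun z : FN N₁ => (z : Om)) h1.symm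

omit [NeZero N₁] [NeZero N₂] in
theorem fixed_mul {A : ValuationSubring Kbar} {x y : Om} (hx : K0Plan.Fixed A x)
    (hy : K0Plan.Fixed A y) : K0Plan.Fixed A (x * y) := fun τ hτ => by
  rw [map_mul, hx τ hτ, hy τ hτ]

omit [NeZero N₁] [NeZero N₂] in
theorem fixed_C {A : ValuationSubring Kbar} {d : Kbar}
    (hd : ∀ τ : Kbar ≃ₐ[ℚ] Kbar, τ ∈ A.inertiaSubgroupIn ℚ → τ d = d) :
    K0Plan.Fixed A (HahnSeries.C d : Om) := fun τ hτ => by
  rw [K0ScaleFrame.coeffMap_C, hd τ hτ]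

omit [NeZero N₁] [NeZero N₂] in
theorem fixed_qExpand {A : ValuationSubring Kbar} (q : ℕ) [NeZero q] {x : Om}
    (hx : K0Plan.Fixed A x) : K0Plan.Fixed A (qExpand Kbar q x) := fun τ hτ => by
  rw [ModularCurve.coeffMap_qExpand, hx τ hτ]

end Gal

/-! ## The level-`q` element `N f · (d a)` -/

section Elem

variable (A : ValuationSubring Kbar) {M q : ℕ} [NeZero M] [NeZero q]
variable (σ : FN (M * q) ≃ₐ[Kbar] FN (M * q))
variable {NY : ℕ} [NeZero NY] {hqNY : q ∣ NY}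

/-- **The norm element at level `q`, generic form.**  `Nm : F_{Mq²} → F_{Mq}` a map (the norm
along `α` or `β`) whose two reductions are `X₁ ∘ ρ`, `X₂ ∘ ρ` on `O`; `w ∈ O` with
`Nm w = c₀ · a ^ n` and `X₁ (ρ w) Ξ₁ⁿ = 1`, `X₂ (ρ w) Ξ₂ⁿ = 1`; `d · a` a unit at `∞`.  Then there
are nonzero constants `η₁`, `η₂` with `η₁ⁿ = η₂ⁿ` such that for EVERY `g ∈ O` the element
`G = Nm g · (d a)` lies in `O₂` and `Red G · (Ξ₁, Ξ₂) = (η₁ X₁ (ρ g), η₂ X₂ (ρ g))`. -/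
theorem exists_norm_elem
    (hSY : S34.Plan.Setup2 A NY q M hqNY (Val.O2 A M q σ) (Val.Red A M q σ))
    {O : Subring Om} (ρ : O →+* Plan.Rq A q)
    (Nm : FN (M * q * q) → FN (M * q)) (X₁ X₂ : Plan.Rq A q → Omk A)
    (hred : ∀ (y : FN (M * q * q)) (hy : (y : Om) ∈ O),
      ∃ (h1 : ((Nm y : FN (M * q)) : Om) ∈ Ocal A)
        (h2 : ((σ (Nm y) : FN (M * q)) : Om) ∈ Ocal A),
        red A ⟨_, h1⟩ = X₁ (ρ ⟨_, hy⟩) ∧ red A ⟨_, h2⟩ = X₂ (ρ ⟨_, hy⟩))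
    (w : FN (M * q * q)) (hwO : (w : Om) ∈ O) (Ξ₁ Ξ₂ : Omk A) (n : ℕ) (hn : 0 < n)
    (hw₁ : X₁ (ρ ⟨_, hwO⟩) * Ξ₁ ^ n = 1) (hw₂ : X₂ (ρ ⟨_, hwO⟩) * Ξ₂ ^ n = 1)
    (a : FN (M * q)) (c₀ : Kbar) (hc₀ : c₀ ≠ 0)
    (hnorm : Nm w = algebraMap Kbar (FN (M * q)) c₀ * a ^ n)
    (d : Kbar) (hdO : HahnSeries.C d * (a : Om) ∈ Ocal A) (hdred : red A ⟨_, hdO⟩ ≠ 0) :
    ∃ η₁ η₂ : kk A, η₁ ≠ 0 ∧ η₂ ≠ 0 ∧ η₁ ^ n = η₂ ^ n ∧
      ∀ (g : FN (M * q * q)) (hg : (g : Om) ∈ O),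
        ∃ hG : ((Nm g * (algebraMap Kbar (FN (M * q)) d * a) : FN (M * q)) : Om) ∈
            Val.O2 A M q σ,
          (Val.Red A M q σ ⟨_, hG⟩).1 * Ξ₁ = HahnSeries.C η₁ * X₁ (ρ ⟨_, hg⟩) ∧
          (Val.Red A M q σ ⟨_, hG⟩).2 * Ξ₂ = HahnSeries.C η₂ * X₂ (ρ ⟨_, hg⟩) := by
  obtain ⟨hw1, hw2, hrw1, hrw2⟩ := hred w hwO
  obtain ⟨hxO, hρx⟩ := Val.Red_of_mem A M q σ (Nm w).2 hw1 hw2
  have h1 : (Val.Red A M q σ ⟨((Nm w : FN (M * q)) : Om), hxO⟩).1 * Ξ₁ ^ n = 1 := by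
    rw [hρx]
    show red A ⟨_, hw1⟩ * Ξ₁ ^ n = 1
    rw [hrw1]
    exact hw₁
  have h2 : (Val.Red A M q σ ⟨((Nm w : FN (M * q)) : Om), hxO⟩).2 * Ξ₂ ^ n = 1 := by
    rw [hρx]
    show red A ⟨_, hw2⟩ * Ξ₂ ^ n = 1
    rw [hrw2]
    exact hw₂
  obtain ⟨η₁, η₂, hη₁, hη₂, hηn, ha, hR1, hR2⟩ :=
    exists_red_const A σ hSY n hn a (Nm w) c₀ hc₀ hnorm hxO Ξ₁ Ξ₂ h1 h2 d hdO hdred
  refine ⟨η₁, η₂, hη₁, hη₂, hηn, fun g hg => ?_⟩
  obtain ⟨hg1, hg2, hrg1, hrg2⟩ := hred g hg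
  obtain ⟨hgO, hρg⟩ := Val.Red_of_mem A M q σ (Nm g).2 hg1 hg2
  have hg1' : (Val.Red A M q σ ⟨((Nm g : FN (M * q)) : Om), hgO⟩).1 = X₁ (ρ ⟨_, hg⟩) := by
    rw [hρg]
    exact hrg1
  have hg2' : (Val.Red A M q σ ⟨((Nm g : FN (M * q)) : Om), hgO⟩).2 = X₂ (ρ ⟨_, hg⟩) := by
    rw [hρg]
    exact hrg2
  have e : ((Nm g * (algebraMap Kbar (FN (M * q)) d * a) : FN (M * q)) : Om) =
      ((Nm g : FN (M * q)) : Om) * (HahnSeries.C d * (a : Om)) := by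
    push_cast
    rw [algebraMap_LS_eq_C]
  have hG : ((Nm g * (algebraMap Kbar (FN (M * q)) d * a) : FN (M * q)) : Om) ∈
      Val.O2 A M q σ := by
    rw [e]
    exact (Val.O2 A M q σ).mul_mem hgO ha
  have hRed : Val.Red A M q σ ⟨_, hG⟩ =
      Val.Red A M q σ ⟨_, hgO⟩ * Val.Red A M q σ ⟨_, ha⟩ := by
    rw [← map_mul]
    exact congrArg (Val.Red A M q σ) (Subtype.ext e)
  refine ⟨hG, ?_, ?_⟩
  · rw [hRed, Prod.fst_mul, mul_assoc, hR1, hg1', mul_comm]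
  · rw [hRed, Prod.snd_mul, mul_assoc, hR2, hg2', mul_comm]

end Elem

end Fermat.Agent.S36.TwistRed
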