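import Mathlib
import Fermat.Agent.S36.K0Plan
import Fermat.Agent.S36.MidNorm
import Fermat.Agent.S36.NormBC
import Fermat.Agent.S36.PullRed
import Fermat.Agent.S36.K0ScaleFrame
import Fermat.Agent.S36.B2Plan
import Fermat.Agent.S34.ValFinal
import Fermat.Agent.S35.NewK0
import Fermat.Agent.S18.ConstWPlan
import Fermat.Agent.S36.TwistRed
import Fermat.Agent.S36.NormE3

/-!
# S36 / P8 — [NORM-TW] = [TWIST-INST]: the two norm elements of the twist (helper93)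

Frame half of the block [TWIST] of the `K'`-chain (`K0Plan.TwistStmt`, contract (8) of
`S36/K0Plan`); the junction is helper9's `S36/TwistK0.lean`, whose hypothesis `NormTwStmt` is
`normTw_of` below.

For a stable datum `(D, n)` with a `K₀`-rational Kummer function `w` (a unit of `O`) and
`ρ₃(w) ξⁿ = 1`: there are nonzero constants `η₁, η₂, η₁', η₂'` with `η₁ⁿ = η₂ⁿ`, `η₁'ⁿ = η₂'ⁿ` such
that for EVERY `f ∈ Λ'(D)`, `ρ₃(f) = y ξ` with `y ∈ B_κ³`: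
`(η₁ y₁ y₂^(q-1), η₁ y₁ y₂^(q-1), η₂ y₃^q) ∈ A₃` and `(η₁' y₁^q, η₂' y₂^(q-1) y₃, η₂' y₂^(q-1) y₃) ∈ A₃`.
The two elements are `α^*(N_α f · a)` and `β^*(N_β f · b)`, `a`, `b` the `K₀`-rational generators of
`α_* D`, `β_* D`, scaled by a `K₀`-constant.

The generic algebra (reduction of the scaled `n`-th root of a norm) is `S36/TwistRed.lean`.

* `alpha_part`, `beta_part` : the two halves (pole transport = helper53's `S36/NormE3`);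
* `normTw_of`            : the block, in the shape of `TwistK0.NormTwStmt`.
-/

set_option autoImplicit false

noncomputable section

namespace Fermat.Agent.S36.TwistInst

open ModularCurve AlgebraicCurve Fermat.Agent.S24 Fermat.Agent.S18 Fermat.Agent.S18.Content
  Fermat.Agent.S18.Plan Fermat.Agent.S34 Fermat.Agent.S36.TwistRed

/-! ## The block -/

section Main

/-- The norm along `α` at the top level. -/
abbrev normA (M q : ℕ) [NeZero M] [NeZero q] (y : FN (M * q * q)) : FN (M * q) :=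
  @Algebra.norm (FN (M * q)) (FN (M * q * q)) _ _
    (algebraAlong (heckeAlphaBar Kbar (M * q) q)) y

/-- The norm along `β` at the top level. -/
abbrev normB (M q : ℕ) [NeZero M] [NeZero q] (y : FN (M * q * q)) : FN (M * q) :=
  @Algebra.norm (FN (M * q)) (FN (M * q * q)) _ _
    (algebraAlong (heckeBetaBar Kbar (M * q) q)) y

variable {N' M q : ℕ} [NeZero N'] [NeZero M] [NeZero q]

omit [NeZero q] in
theorem rho3_apply (A : ValuationSubring Kbar) {O : Subring Om} (ρ : O →+* Plan.Rq A q)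
    (ξ₀ : Plan.MidIdx q) (b : O) :
    K0Plan.rho3 A q O ρ ξ₀ b = (ρ b .inf, ρ b (.mid ξ₀), ρ b .zero) := rfl

omit [NeZero M] in
theorem iota3_apply (A : ValuationSubring Kbar) (t : K0Plan.BK3 A M) :
    K0Plan.iota3 A M t = ((t.1 : Omk A), (t.2.1 : Omk A), (t.2.2 : Omk A)) := rfl

omit [NeZero M] in
theorem coe_smul_BKM (A : ValuationSubring Kbar) (η : kk A) (x : ↥(K0Plan.BKM A M)) :
    ((η • x : ↥(K0Plan.BKM A M)) : Omk A) = HahnSeries.C η * (x : Omk A) := by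
  rw [Subalgebra.coe_smul, Algebra.smul_def, algebraMap_LS_eq_C]

omit [NeZero N'] [NeZero M] [NeZero q] in
/-- `K₀`-rational as an element of `F_N` ⟹ `K₀`-rational as a series. -/
theorem fixed_of_gal {N : ℕ} [NeZero N] {A : ValuationSubring Kbar} (g : FN N)
    (hg : ∀ τ : Kbar ≃ₐ[ℚ] Kbar, τ ∈ A.inertiaSubgroupIn ℚ → S34.Plan.gal N τ • g = g) :
    K0Plan.Fixed A (g : Om) := fun τ hτ =>
  congrArg (fun z : FN N => (z : Om)) (hg τ hτ)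

omit [NeZero N'] [NeZero M] [NeZero q] in
/-- `K₀`-rational as a series ⟹ `K₀`-rational as an element of `F_N`. -/
theorem gal_of_fixed {N : ℕ} [NeZero N] {A : ValuationSubring Kbar} (g : FN N)
    (hg : K0Plan.Fixed A (g : Om)) :
    ∀ τ : Kbar ≃ₐ[ℚ] Kbar, τ ∈ A.inertiaSubgroupIn ℚ → S34.Plan.gal N τ • g = g :=
  fun τ hτ => Subtype.ext (hg τ hτ)

omit [NeZero N'] [NeZero M] [NeZero q] in
theorem coe_ne_zero_FN {N : ℕ} [NeZero N] {g : FN N} (hg : g ≠ 0) : (g : Om) ≠ 0 :=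
  fun h0 => hg (Subtype.ext (by rw [h0]; rfl))

omit [NeZero N'] [NeZero M] [NeZero q] in
theorem ne_zero_of_coe_FN {N : ℕ} [NeZero N] {g : FN N} (hg : (g : Om) ≠ 0) : g ≠ 0 :=
  fun h0 => hg (by rw [h0]; rfl)

/-- Base change of the `α`-norm relation, levels `N' = N₀ q ∣ M q`. -/
theorem normA_top_eq {N₀ : ℕ} [NeZero N₀] (hN : N' = N₀ * q) (hqp : q.Prime) (hqM : ¬ q ∣ M)
    (hdiv : N₀ ∣ M) (u₀ : FN (N' * q)) (a₀ : FN N') (c₀ : Kbar) (n : ℕ)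
    (h₀ : @Algebra.norm (FN N') (FN (N' * q)) _ _ (algebraAlong (heckeAlphaBar Kbar N' q)) u₀ =
      algebraMap Kbar (FN N') c₀ * a₀ ^ n)
    (u : FN (M * q * q)) (hu : (u : Om) = (u₀ : Om)) (a : FN (M * q))
    (ha : (a : Om) = (a₀ : Om)) :
    normA M q u = algebraMap Kbar (FN (M * q)) c₀ * a ^ n := by
  subst hN
  exact NormBC.norm_alpha_top_eq_of N₀ M q hqp hqM hdiv u₀ a₀ c₀ n h₀ u hu a ha

/-- Base change of the `β`-norm relation. -/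
theorem normB_top_eq {N₀ : ℕ} [NeZero N₀] (hN : N' = N₀ * q) (hqp : q.Prime)
    (u₀ : FN (N' * q)) (a₀ : FN N') (c₀ : Kbar) (n : ℕ)
    (h₀ : @Algebra.norm (FN N') (FN (N' * q)) _ _ (algebraAlong (heckeBetaBar Kbar N' q)) u₀ =
      algebraMap Kbar (FN N') c₀ * a₀ ^ n)
    (u : FN (M * q * q)) (hu : (u : Om) = (u₀ : Om)) (a : FN (M * q))
    (ha : (a : Om) = (a₀ : Om)) :
    normB M q u = algebraMap Kbar (FN (M * q)) c₀ * a ^ n := by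
  subst hN
  exact NormBC.norm_beta_top_eq_of N₀ M q hqp u₀ a₀ c₀ n h₀ u hu a ha

/-- The `K₀`-rational generator of `α_* D`, at the top level, with the norm relation. -/
theorem exists_gen_alpha {N₀ : ℕ} (hqp : q.Prime) (hqM : ¬ q ∣ M)
    (hL : S34.Plan.Levels q N₀ N' M) (A : ValuationSubring Kbar)
    (D : Divisor Kbar (FN (N' * q))) (n : ℕ) (hD : Plan.StableData A N' q D n)
    (w : FN (N' * q)) (hw0 : w ≠ 0)
    (hord : ∀ P : Place Kbar (FN (N' * q)), P.ord w = n * D P)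
    (w' : FN (M * q * q)) (hw' : (w' : Om) = (w : Om)) :
    ∃ (a' : FN (M * q)) (c₀ : Kbar), c₀ ≠ 0 ∧ a' ≠ 0 ∧ K0Plan.Fixed A (a' : Om) ∧
      normA M q w' = algebraMap Kbar (FN (M * q)) c₀ * a' ^ n := by
  haveI : NeZero N₀ := ⟨hL.N'_pos.ne'⟩
  have hN₀M : N₀ ∣ M := ⟨S34.Plan.aux q, by rw [hL.M_eq, mul_comm]⟩
  have hdivY : N' ∣ M * q := by
    rw [hL.N_eq]
    exact Nat.mul_dvd_mul_right hN₀M q
  have hleY : modularFunctionFieldBar N' ≤ modularFunctionFieldBar (M * q) :=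
    PullStep.bar_le hdivY
  have hstα : ∀ τ : Kbar ≃ₐ[ℚ] Kbar, τ ∈ A.inertiaSubgroupIn ℚ → S34.Plan.gal N' τ •
      Divisor.pushforwardAlong (heckeAlphaBar Kbar N' q)
        (Fermat.Agent.S37.HeckeInputs.heckeAlphaBarIntegral N' q) D =
      Divisor.pushforwardAlong (heckeAlphaBar Kbar N' q)
        (Fermat.Agent.S37.HeckeInputs.heckeAlphaBarIntegral N' q) D := by
    intro τ hτ
    have h1 := Fermat.Agent.Lib.CorrSemilinear.smul_pushforwardAlong (heckeAlphaBar Kbar N' q)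
      (Fermat.Agent.S37.HeckeInputs.heckeAlphaBarIntegral N' q)
      (Fermat.Agent.P5.GalHecke.intertwines_alpha N' q τ) D
    have h2 := hD.stable τ hτ
    rw [h2] at h1
    exact h1
  obtain ⟨a₀, ha₀, hadiv, hafix⟩ := B2Plan.exists_fixed_generator N' A _ hD.pushA hstα
  obtain ⟨c₀, hc₀, hnorm₀⟩ := Fermat.Agent.S35.NewK0.norm_smul_eq_const_mul_pow
    (heckeAlphaBar Kbar N' q)
    (Fermat.Agent.S37.HeckeInputs.heckeAlphaBarIntegral N' q)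
    (Fermat.Agent.S37.HeckeInputs.finiteAlong_alpha N' q)
    (Fermat.Agent.S37.HeckeInputs.normFormulaAlong_alpha N' q) D n w hw0
    (fun v => by rw [Finsupp.smul_apply, nsmul_eq_mul, hord v]) a₀ ha₀
    (fun v => (hadiv v).symm) 1 one_ne_zero
  rw [map_one, one_mul] at hnorm₀
  have hfixa : K0Plan.Fixed A (a₀ : Om) := fixed_of_gal a₀ hafix
  have ha₀' : (a₀ : Om) ≠ 0 := coe_ne_zero_FN ha₀
  refine ⟨⟨(a₀ : Om), hleY a₀.2⟩, c₀, hc₀, ne_zero_of_coe_FN ha₀', hfixa, ?_⟩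
  exact normA_top_eq hL.N_eq hqp hqM hN₀M w a₀ c₀ n hnorm₀ w' hw' _ rfl

/-- The `K₀`-rational generator of `β_* D`, at the top level, with the norm relation. -/
theorem exists_gen_beta {N₀ : ℕ} (hqp : q.Prime)
    (hL : S34.Plan.Levels q N₀ N' M) (A : ValuationSubring Kbar)
    (D : Divisor Kbar (FN (N' * q))) (n : ℕ) (hD : Plan.StableData A N' q D n)
    (w : FN (N' * q)) (hw0 : w ≠ 0)
    (hord : ∀ P : Place Kbar (FN (N' * q)), P.ord w = n * D P)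
    (w' : FN (M * q * q)) (hw' : (w' : Om) = (w : Om)) :
    ∃ (b' : FN (M * q)) (c₀ : Kbar), c₀ ≠ 0 ∧ b' ≠ 0 ∧ K0Plan.Fixed A (b' : Om) ∧
      normB M q w' = algebraMap Kbar (FN (M * q)) c₀ * b' ^ n := by
  haveI : NeZero N₀ := ⟨hL.N'_pos.ne'⟩
  have hN₀M : N₀ ∣ M := ⟨S34.Plan.aux q, by rw [hL.M_eq, mul_comm]⟩
  have hdivY : N' ∣ M * q := by
    rw [hL.N_eq]
    exact Nat.mul_dvd_mul_right hN₀M q
  have hleY : modularFunctionFieldBar N' ≤ modularFunctionFieldBar (M * q) :=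
    PullStep.bar_le hdivY
  have hstβ : ∀ τ : Kbar ≃ₐ[ℚ] Kbar, τ ∈ A.inertiaSubgroupIn ℚ → S34.Plan.gal N' τ •
      Divisor.pushforwardAlong (heckeBetaBar Kbar N' q)
        (Fermat.Agent.S37.HeckeInputs.heckeBetaBarIntegral N' q) D =
      Divisor.pushforwardAlong (heckeBetaBar Kbar N' q)
        (Fermat.Agent.S37.HeckeInputs.heckeBetaBarIntegral N' q) D := by
    intro τ hτ
    have h1 := Fermat.Agent.Lib.CorrSemilinear.smul_pushforwardAlong (heckeBetaBar Kbar N' q)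
      (Fermat.Agent.S37.HeckeInputs.heckeBetaBarIntegral N' q)
      (Fermat.Agent.P5.GalHecke.intertwines_beta N' q τ) D
    have h2 := hD.stable τ hτ
    rw [h2] at h1
    exact h1
  obtain ⟨b₀, hb₀, hbdiv, hbfix⟩ := B2Plan.exists_fixed_generator N' A _ hD.pushB hstβ
  obtain ⟨c₀, hc₀, hnorm₀⟩ := Fermat.Agent.S35.NewK0.norm_smul_eq_const_mul_pow
    (heckeBetaBar Kbar N' q)
    (Fermat.Agent.S37.HeckeInputs.heckeBetaBarIntegral N' q)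
    (Fermat.Agent.S37.HeckeInputs.finiteAlong_beta N' q)
    (Fermat.Agent.S37.HeckeInputs.normFormulaAlong_beta N' q) D n w hw0
    (fun v => by rw [Finsupp.smul_apply, nsmul_eq_mul, hord v]) b₀ hb₀
    (fun v => (hbdiv v).symm) 1 one_ne_zero
  rw [map_one, one_mul] at hnorm₀
  have hfixb : K0Plan.Fixed A (b₀ : Om) := fixed_of_gal b₀ hbfix
  have hb₀' : (b₀ : Om) ≠ 0 := coe_ne_zero_FN hb₀
  refine ⟨⟨(b₀ : Om), hleY b₀.2⟩, c₀, hc₀, ne_zero_of_coe_FN hb₀', hfixb, ?_⟩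
  exact normB_top_eq hL.N_eq hqp w b₀ c₀ n hnorm₀ w' hw' _ rfl

/-- **[NORM-TW], `α`-half.** -/
theorem alpha_part {N₀ : ℕ} (hq' : q ∣ N') {h : Nat.Coprime M q} (hqp : q.Prime)
    (hL : S34.Plan.Levels q N₀ N' M) (A : ValuationSubring Kbar) (hA : A.LiesOverPrime q)
    (F : Plan.Frame M q h) {O : Subring Om} {ρ : O →+* Plan.Rq A q} (hS : Plan.IsSetup A F O ρ)
    (ξ₀ : Plan.MidIdx q) (hMid : K0Plan.MidEqStmt A q O ρ)
    (D : Divisor Kbar (FN (N' * q))) (n : ℕ) (hD : Plan.StableData A N' q D n)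
    (E : Divisor Kbar (FN (N' * q)))
    (hE : Plan.IsE3 (N' * q) q (Dvd.intro_left N' rfl) (Nat.mul_dvd_mul_right hq' q) E)
    (w : FN (N' * q)) (hw : (w : Om) ∈ O) (ξ : K0Plan.R3 A) (hw0 : w ≠ 0)
    (hord : ∀ P : Place Kbar (FN (N' * q)), P.ord w = n * D P)
    (hfix : K0Plan.Fixed A (w : Om))
    (hρ : K0Plan.rho3 A q O ρ ξ₀ ⟨_, hw⟩ * ξ ^ n = 1) :
    ∃ η₁ η₂ : kk A, η₁ ≠ 0 ∧ η₂ ≠ 0 ∧ η₁ ^ n = η₂ ^ n ∧
      ∀ f ∈ K0Plan.Lam A N' M q O E D, ∀ y : K0Plan.BK3 A M,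
        K0Plan.rho3 A q O ρ ξ₀ f = K0Plan.iota3 A M y * ξ →
        (η₁ • (y.1 * y.2.1 ^ (q - 1)), η₁ • (y.1 * y.2.1 ^ (q - 1)), η₂ • y.2.2 ^ q) ∈
          K0Plan.A3 A N' M q O ρ E ξ₀ := by
  classical
  letI : Fintype (Plan.MidIdx q) := CoordFin.fintypeMidIdx q
  haveI : Fact q.Prime := ⟨hqp⟩
  haveI : CharP (kk A) q := charP_residueField_of_liesOverPrime A q hA
  have hqM : ¬ q ∣ M := FrameInst.not_dvd_of_coprime hqp h
  have hn : 0 < n := hD.pos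
  have hN₀M : N₀ ∣ M := ⟨S34.Plan.aux q, by rw [hL.M_eq, mul_comm]⟩
  have hdivY : N' ∣ M * q := by
    rw [hL.N_eq]
    exact Nat.mul_dvd_mul_right hN₀M q
  have hSY : S34.Plan.Setup2 A N' q M hq' (Val.O2 A M q (Sigma.sigma M q h))
      (Val.Red A M q (Sigma.sigma M q h)) := ValFinal.setup2 A hq' hL hA h
  -- the top level
  obtain ⟨a', c₀, hc₀, ha'0, ha'fixed, hnorm⟩ := exists_gen_alpha hqp hqM hL A D n hD w hw0 hord
    ⟨(w : Om), hS.mem_field ⟨_, hw⟩⟩ rfl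
  set w' : FN (M * q * q) := ⟨(w : Om), hS.mem_field ⟨_, hw⟩⟩ with hw'
  obtain ⟨d, hd, hdfix, hdO, hdred⟩ :=
    K0ScaleFrame.exists_fixed_const_scale A q hqp hA (M * q) a' ha'0 (gal_of_fixed a' ha'fixed)
  -- the reductions of `N_α`
  set τ : kk A →+* kk A := frobenius (kk A) q with hτdef
  have hτ : ∀ x, τ x = x ^ q := fun x => frobenius_def q x
  set σ := Sigma.sigma M q h with hσ
  have hred : ∀ (y : FN (M * q * q)) (hy : (y : Om) ∈ O),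
      ∃ (h1 : ((normA M q y : FN (M * q)) : Om) ∈ Ocal A)
        (h2 : ((σ (normA M q y) : FN (M * q)) : Om) ∈ Ocal A),
        red A ⟨_, h1⟩ = (fun r : Plan.Rq A q =>
            r .inf * ∏ ξ' : Plan.MidIdx q, r (.mid ξ')) (ρ ⟨_, hy⟩) ∧
          red A ⟨_, h2⟩ = (fun r : Plan.Rq A q => coeffMap τ (r .zero)) (ρ ⟨_, hy⟩) := by
    intro y hy
    obtain ⟨h1, e1⟩ := MidNorm.red_norm_alpha hqp F hS y hy
    obtain ⟨h2, e2⟩ := MidNorm.red_sigma_norm_alpha hqp hA F hS τ hτ y hy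
    exact ⟨h1, h2, e1, e2⟩
  have hρ1 : ρ ⟨_, hw⟩ .inf * ξ.1 ^ n = 1 := congrArg Prod.fst hρ
  have hρ2 : ρ ⟨_, hw⟩ (.mid ξ₀) * ξ.2.1 ^ n = 1 :=
    congrArg (fun t : K0Plan.R3 A => t.2.1) hρ
  have hρ3 : ρ ⟨_, hw⟩ .zero * ξ.2.2 ^ n = 1 :=
    congrArg (fun t : K0Plan.R3 A => t.2.2) hρ
  have hcard : Fintype.card (Plan.MidIdx q) = q - 1 := CoordFin.fintype_card_midIdx hqp
  have hprodw : ∏ ξ' : Plan.MidIdx q, ρ ⟨_, hw⟩ (.mid ξ') = ρ ⟨_, hw⟩ (.mid ξ₀) ^ (q - 1) := by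
    rw [Finset.prod_congr rfl (fun ξ' _ => hMid ⟨_, hw⟩ hfix ξ' ξ₀), Finset.prod_const,
      Finset.card_univ, hcard]
  set Ξ₁ : Omk A := ξ.1 * ξ.2.1 ^ (q - 1) with hΞ₁
  set Ξ₂ : Omk A := coeffMap τ ξ.2.2 with hΞ₂
  have hw₁ : (fun r : Plan.Rq A q => r .inf * ∏ ξ' : Plan.MidIdx q, r (.mid ξ'))
      (ρ ⟨(w' : Om), hw⟩) * Ξ₁ ^ n = 1 := by
    show ρ ⟨_, hw⟩ .inf * (∏ ξ' : Plan.MidIdx q, ρ ⟨_, hw⟩ (.mid ξ')) * Ξ₁ ^ n = 1
    rw [hprodw, hΞ₁]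
    calc ρ ⟨_, hw⟩ .inf * ρ ⟨_, hw⟩ (.mid ξ₀) ^ (q - 1) * (ξ.1 * ξ.2.1 ^ (q - 1)) ^ n
        = (ρ ⟨_, hw⟩ .inf * ξ.1 ^ n) * (ρ ⟨_, hw⟩ (.mid ξ₀) * ξ.2.1 ^ n) ^ (q - 1) := by ring
      _ = 1 := by rw [hρ1, hρ2, one_pow, mul_one]
  have hw₂ : (fun r : Plan.Rq A q => coeffMap τ (r .zero)) (ρ ⟨(w' : Om), hw⟩) * Ξ₂ ^ n = 1 := by
    show coeffMap τ (ρ ⟨_, hw⟩ .zero) * (coeffMap τ ξ.2.2) ^ n = 1
    rw [← map_pow, ← map_mul, hρ3, map_one]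
  obtain ⟨η₁, η₂, hη₁, hη₂, hηn, hel⟩ := exists_norm_elem A σ hSY ρ (normA M q)
    (fun r : Plan.Rq A q => r .inf * ∏ ξ' : Plan.MidIdx q, r (.mid ξ'))
    (fun r : Plan.Rq A q => coeffMap τ (r .zero)) hred w' hw Ξ₁ Ξ₂ n hn hw₁ hw₂ a' c₀ hc₀ hnorm
    d hdO hdred
  have hΞ₁0 : Ξ₁ ≠ 0 := by
    intro h0
    rw [h0, zero_pow hn.ne', mul_zero] at hw₁
    exact zero_ne_one hw₁
  have hΞ₂0 : Ξ₂ ≠ 0 := by
    intro h0
    rw [h0, zero_pow hn.ne', mul_zero] at hw₂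
    exact zero_ne_one hw₂
  refine ⟨η₁, η₂, hη₁, hη₂, hηn, ?_⟩
  rintro f ⟨hffix, c, hfc⟩ y hy
  -- the top-level element
  set f' : FN (M * q * q) := ⟨(f : Om), hS.mem_field f⟩ with hf'
  obtain ⟨hG, hR1, hR2⟩ := hel f' f.2
  set G : FN (M * q) := normA M q f' * (algebraMap Kbar (FN (M * q)) d * a') with hGdef
  obtain ⟨hO, hρG⟩ := PullRed.alpha_mem hS (⟨(G : Om), hG⟩ : Val.O2 A M q σ)
  -- the components of `ρ₃ f = y ξ`
  have hy1 : ρ f .inf = (y.1 : Omk A) * ξ.1 := congrArg Prod.fst hy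
  have hy2 : ρ f (.mid ξ₀) = (y.2.1 : Omk A) * ξ.2.1 :=
    congrArg (fun t : K0Plan.R3 A => t.2.1) hy
  have hy3 : ρ f .zero = (y.2.2 : Omk A) * ξ.2.2 :=
    congrArg (fun t : K0Plan.R3 A => t.2.2) hy
  have hmidf : ∏ ξ' : Plan.MidIdx q, ρ f (.mid ξ') = ρ f (.mid ξ₀) ^ (q - 1) := by
    rw [Finset.prod_congr rfl (fun ξ' _ => hMid f hffix ξ' ξ₀), Finset.prod_const,
      Finset.card_univ, hcard]
  -- the reductions of `G`
  have hGr1 : (Val.Red A M q σ ⟨(G : Om), hG⟩).1 =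
      HahnSeries.C η₁ * ((y.1 : Omk A) * (y.2.1 : Omk A) ^ (q - 1)) := by
    apply mul_right_cancel₀ hΞ₁0
    rw [hR1]
    show HahnSeries.C η₁ * (ρ f .inf * ∏ ξ' : Plan.MidIdx q, ρ f (.mid ξ')) = _
    rw [hmidf, hy1, hy2, hΞ₁]
    ring
  have hGr2 : (Val.Red A M q σ ⟨(G : Om), hG⟩).2 =
      HahnSeries.C η₂ * coeffMap τ (y.2.2 : Omk A) := by
    apply mul_right_cancel₀ hΞ₂0
    rw [hR2]
    show HahnSeries.C η₂ * coeffMap τ (ρ f .zero) = _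
    rw [hy3, map_mul, hΞ₂, mul_assoc]
  have hnorm' : normA M q w' = algebraMap Kbar (FN (M * q)) (c₀ * (d⁻¹) ^ n) *
      (algebraMap Kbar (FN (M * q)) d * a') ^ n := by
    rw [hnorm, mul_pow, ← map_pow, ← mul_assoc, ← map_mul]
    congr 2
    rw [mul_assoc, ← mul_pow, inv_mul_cancel₀ hd, one_pow, mul_one]
  refine ⟨⟨(G : Om), hO⟩, ⟨?_, ?_⟩, ?_⟩
  · -- `K₀`-rational
    have e : (G : Om) = ((normA M q f' : FN (M * q)) : Om) *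
        (HahnSeries.C d * (a' : Om)) := by
      rw [hGdef]
      push_cast
      rw [algebraMap_LS_eq_C]
    show K0Plan.Fixed A (G : Om)
    rw [e]
    exact fixed_mul (fixed_norm_along A _
      (fun τ' => Fermat.Agent.P5.GalHecke.intertwines_alpha (M * q) q τ') f' hffix)
      (fixed_mul (fixed_C hdfix) ha'fixed)
  · -- the pole bound
    refine ⟨n * c * (1 + q + q * q) * finrankAlong Kbar (heckeAlphaBar Kbar (M * q) q), ?_⟩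
    rw [zero_add]
    exact NormE3.alpha_norm_alpha_mul_mem_E3 N' M q (Dvd.intro_left N' rfl)
      (Nat.mul_dvd_mul_right hq' q) hdivY hE D hn w hw0
      hord w' rfl c f' hfc (algebraMap Kbar (FN (M * q)) d * a') (c₀ * (d⁻¹) ^ n)
      (mul_ne_zero hc₀ (pow_ne_zero _ (inv_ne_zero hd))) hnorm'
  · -- the reduction
    rw [rho3_apply, iota3_apply, hρG]
    refine Prod.ext ?_ (Prod.ext ?_ ?_)
    · show (Val.Red A M q σ ⟨(G : Om), hG⟩).1 =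
        ((η₁ • (y.1 * y.2.1 ^ (q - 1)) : ↥(K0Plan.BKM A M)) : Omk A)
      rw [hGr1, coe_smul_BKM]
      rfl
    · show (Val.Red A M q σ ⟨(G : Om), hG⟩).1 =
        ((η₁ • (y.1 * y.2.1 ^ (q - 1)) : ↥(K0Plan.BKM A M)) : Omk A)
      rw [hGr1, coe_smul_BKM]
      rfl
    · show qExpand (kk A) q (Val.Red A M q σ ⟨(G : Om), hG⟩).2 =
        ((η₂ • y.2.2 ^ q : ↥(K0Plan.BKM A M)) : Omk A)
      rw [hGr2, map_mul, qExpand_C, hτdef, ← Fermat.Agent.Lib.KroneckerCong.pow_char_eq,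
        coe_smul_BKM]
      rfl

/-- **[NORM-TW], `β`-half.** -/
theorem beta_part {N₀ : ℕ} (hq' : q ∣ N') {h : Nat.Coprime M q} (hqp : q.Prime)
    (hL : S34.Plan.Levels q N₀ N' M) (A : ValuationSubring Kbar) (hA : A.LiesOverPrime q)
    (F : Plan.Frame M q h) {O : Subring Om} {ρ : O →+* Plan.Rq A q} (hS : Plan.IsSetup A F O ρ)
    (ξ₀ : Plan.MidIdx q) (hMid : K0Plan.MidEqStmt A q O ρ)
    (D : Divisor Kbar (FN (N' * q))) (n : ℕ) (hD : Plan.StableData A N' q D n)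
    (E : Divisor Kbar (FN (N' * q)))
    (hE : Plan.IsE3 (N' * q) q (Dvd.intro_left N' rfl) (Nat.mul_dvd_mul_right hq' q) E)
    (w : FN (N' * q)) (hw : (w : Om) ∈ O) (ξ : K0Plan.R3 A) (hw0 : w ≠ 0)
    (hord : ∀ P : Place Kbar (FN (N' * q)), P.ord w = n * D P)
    (hfix : K0Plan.Fixed A (w : Om))
    (hρ : K0Plan.rho3 A q O ρ ξ₀ ⟨_, hw⟩ * ξ ^ n = 1) :
    ∃ η₁ η₂ : kk A, η₁ ≠ 0 ∧ η₂ ≠ 0 ∧ η₁ ^ n = η₂ ^ n ∧
      ∀ f ∈ K0Plan.Lam A N' M q O E D, ∀ y : K0Plan.BK3 A M,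
        K0Plan.rho3 A q O ρ ξ₀ f = K0Plan.iota3 A M y * ξ →
        (η₁ • y.1 ^ q, η₂ • (y.2.1 ^ (q - 1) * y.2.2), η₂ • (y.2.1 ^ (q - 1) * y.2.2)) ∈
          K0Plan.A3 A N' M q O ρ E ξ₀ := by
  classical
  letI : Fintype (Plan.MidIdx q) := CoordFin.fintypeMidIdx q
  haveI : Fact q.Prime := ⟨hqp⟩
  haveI : CharP (kk A) q := charP_residueField_of_liesOverPrime A q hA
  have hn : 0 < n := hD.pos
  have hN₀M : N₀ ∣ M := ⟨S34.Plan.aux q, by rw [hL.M_eq, mul_comm]⟩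
  have hdivY : N' ∣ M * q := by
    rw [hL.N_eq]
    exact Nat.mul_dvd_mul_right hN₀M q
  have hSY : S34.Plan.Setup2 A N' q M hq' (Val.O2 A M q (Sigma.sigma M q h))
      (Val.Red A M q (Sigma.sigma M q h)) := ValFinal.setup2 A hq' hL hA h
  -- the top level
  obtain ⟨b', c₀, hc₀, hb'0, hb'fixed, hnorm⟩ := exists_gen_beta hqp hL A D n hD w hw0 hord
    ⟨(w : Om), hS.mem_field ⟨_, hw⟩⟩ rfl
  set w' : FN (M * q * q) := ⟨(w : Om), hS.mem_field ⟨_, hw⟩⟩ with hw'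
  obtain ⟨d, hd, hdfix, hdO, hdred⟩ :=
    K0ScaleFrame.exists_fixed_const_scale A q hqp hA (M * q) b' hb'0 (gal_of_fixed b' hb'fixed)
  -- the reductions of `N_β`
  set τ : kk A →+* kk A := frobenius (kk A) q with hτdef
  have hτ : ∀ x, τ x = x ^ q := fun x => frobenius_def q x
  set σ := Sigma.sigma M q h with hσ
  have hred : ∀ (y : FN (M * q * q)) (hy : (y : Om) ∈ O),
      ∃ (h1 : ((normB M q y : FN (M * q)) : Om) ∈ Ocal A)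
        (h2 : ((σ (normB M q y) : FN (M * q)) : Om) ∈ Ocal A),
        red A ⟨_, h1⟩ = (fun r : Plan.Rq A q => coeffMap τ (r .inf)) (ρ ⟨_, hy⟩) ∧
          red A ⟨_, h2⟩ = (fun r : Plan.Rq A q =>
            r .zero * ∏ ξ' : Plan.MidIdx q, r (.mid ξ')) (ρ ⟨_, hy⟩) := by
    intro y hy
    obtain ⟨h1, e1⟩ := MidNorm.red_norm_beta hqp hA F hS τ hτ y hy
    obtain ⟨h2, e2⟩ := MidNorm.red_sigma_norm_beta hqp hA F hS y hy
    exact ⟨h1, h2, e1, e2⟩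
  have hρ1 : ρ ⟨_, hw⟩ .inf * ξ.1 ^ n = 1 := congrArg Prod.fst hρ
  have hρ2 : ρ ⟨_, hw⟩ (.mid ξ₀) * ξ.2.1 ^ n = 1 :=
    congrArg (fun t : K0Plan.R3 A => t.2.1) hρ
  have hρ3 : ρ ⟨_, hw⟩ .zero * ξ.2.2 ^ n = 1 :=
    congrArg (fun t : K0Plan.R3 A => t.2.2) hρ
  have hcard : Fintype.card (Plan.MidIdx q) = q - 1 := CoordFin.fintype_card_midIdx hqp
  have hprodw : ∏ ξ' : Plan.MidIdx q, ρ ⟨_, hw⟩ (.mid ξ') = ρ ⟨_, hw⟩ (.mid ξ₀) ^ (q - 1) := by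
    rw [Finset.prod_congr rfl (fun ξ' _ => hMid ⟨_, hw⟩ hfix ξ' ξ₀), Finset.prod_const,
      Finset.card_univ, hcard]
  set Ξ₁ : Omk A := coeffMap τ ξ.1 with hΞ₁
  set Ξ₂ : Omk A := ξ.2.1 ^ (q - 1) * ξ.2.2 with hΞ₂
  have hw₁ : (fun r : Plan.Rq A q => coeffMap τ (r .inf)) (ρ ⟨(w' : Om), hw⟩) * Ξ₁ ^ n = 1 := by
    show coeffMap τ (ρ ⟨_, hw⟩ .inf) * (coeffMap τ ξ.1) ^ n = 1
    rw [← map_pow, ← map_mul, hρ1, map_one]
  have hw₂ : (fun r : Plan.Rq A q => r .zero * ∏ ξ' : Plan.MidIdx q, r (.mid ξ'))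
      (ρ ⟨(w' : Om), hw⟩) * Ξ₂ ^ n = 1 := by
    show ρ ⟨_, hw⟩ .zero * (∏ ξ' : Plan.MidIdx q, ρ ⟨_, hw⟩ (.mid ξ')) * Ξ₂ ^ n = 1
    rw [hprodw, hΞ₂]
    calc ρ ⟨_, hw⟩ .zero * ρ ⟨_, hw⟩ (.mid ξ₀) ^ (q - 1) * (ξ.2.1 ^ (q - 1) * ξ.2.2) ^ n
        = (ρ ⟨_, hw⟩ .zero * ξ.2.2 ^ n) * (ρ ⟨_, hw⟩ (.mid ξ₀) * ξ.2.1 ^ n) ^ (q - 1) := by ring
      _ = 1 := by rw [hρ3, hρ2, one_pow, mul_one]
  obtain ⟨η₁, η₂, hη₁, hη₂, hηn, hel⟩ := exists_norm_elem A σ hSY ρ (normB M q)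
    (fun r : Plan.Rq A q => coeffMap τ (r .inf))
    (fun r : Plan.Rq A q => r .zero * ∏ ξ' : Plan.MidIdx q, r (.mid ξ')) hred w' hw Ξ₁ Ξ₂ n hn
    hw₁ hw₂ b' c₀ hc₀ hnorm d hdO hdred
  have hΞ₁0 : Ξ₁ ≠ 0 := by
    intro h0
    rw [h0, zero_pow hn.ne', mul_zero] at hw₁
    exact zero_ne_one hw₁
  have hΞ₂0 : Ξ₂ ≠ 0 := by
    intro h0
    rw [h0, zero_pow hn.ne', mul_zero] at hw₂
    exact zero_ne_one hw₂
  refine ⟨η₁, η₂, hη₁, hη₂, hηn, ?_⟩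
  rintro f ⟨hffix, c, hfc⟩ y hy
  -- the top-level element
  set f' : FN (M * q * q) := ⟨(f : Om), hS.mem_field f⟩ with hf'
  obtain ⟨hG, hR1, hR2⟩ := hel f' f.2
  set G : FN (M * q) := normB M q f' * (algebraMap Kbar (FN (M * q)) d * b') with hGdef
  obtain ⟨hO, hρG⟩ := PullRed.beta_mem hqp hA hS (⟨(G : Om), hG⟩ : Val.O2 A M q σ)
  -- the components of `ρ₃ f = y ξ`
  have hy1 : ρ f .inf = (y.1 : Omk A) * ξ.1 := congrArg Prod.fst hy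
  have hy2 : ρ f (.mid ξ₀) = (y.2.1 : Omk A) * ξ.2.1 :=
    congrArg (fun t : K0Plan.R3 A => t.2.1) hy
  have hy3 : ρ f .zero = (y.2.2 : Omk A) * ξ.2.2 :=
    congrArg (fun t : K0Plan.R3 A => t.2.2) hy
  have hmidf : ∏ ξ' : Plan.MidIdx q, ρ f (.mid ξ') = ρ f (.mid ξ₀) ^ (q - 1) := by
    rw [Finset.prod_congr rfl (fun ξ' _ => hMid f hffix ξ' ξ₀), Finset.prod_const,
      Finset.card_univ, hcard]
  -- the reductions of `G`
  have hGr1 : (Val.Red A M q σ ⟨(G : Om), hG⟩).1 =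
      HahnSeries.C η₁ * coeffMap τ (y.1 : Omk A) := by
    apply mul_right_cancel₀ hΞ₁0
    rw [hR1]
    show HahnSeries.C η₁ * coeffMap τ (ρ f .inf) = _
    rw [hy1, map_mul, hΞ₁, mul_assoc]
  have hGr2 : (Val.Red A M q σ ⟨(G : Om), hG⟩).2 =
      HahnSeries.C η₂ * ((y.2.1 : Omk A) ^ (q - 1) * (y.2.2 : Omk A)) := by
    apply mul_right_cancel₀ hΞ₂0
    rw [hR2]
    show HahnSeries.C η₂ * (ρ f .zero * ∏ ξ' : Plan.MidIdx q, ρ f (.mid ξ')) = _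
    rw [hmidf, hy3, hy2, hΞ₂]
    ring
  have hnorm' : normB M q w' = algebraMap Kbar (FN (M * q)) (c₀ * (d⁻¹) ^ n) *
      (algebraMap Kbar (FN (M * q)) d * b') ^ n := by
    rw [hnorm, mul_pow, ← map_pow, ← mul_assoc, ← map_mul]
    congr 2
    rw [mul_assoc, ← mul_pow, inv_mul_cancel₀ hd, one_pow, mul_one]
  refine ⟨⟨qExpand Kbar q (G : Om), hO⟩, ⟨?_, ?_⟩, ?_⟩
  · -- `K₀`-rational
    have e : (G : Om) = ((normB M q f' : FN (M * q)) : Om) *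
        (HahnSeries.C d * (b' : Om)) := by
      rw [hGdef]
      push_cast
      rw [algebraMap_LS_eq_C]
    show K0Plan.Fixed A (qExpand Kbar q (G : Om))
    refine fixed_qExpand q ?_
    rw [e]
    exact fixed_mul (fixed_norm_along A _
      (fun τ' => Fermat.Agent.P5.GalHecke.intertwines_beta (M * q) q τ') f' hffix)
      (fixed_mul (fixed_C hdfix) hb'fixed)
  · -- the pole bound
    refine ⟨n * c * (2 * q + 1) * finrankAlong Kbar (heckeBetaBar Kbar (M * q) q), ?_⟩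
    rw [zero_add]
    exact NormE3.beta_norm_beta_mul_mem_E3 N' M q (Dvd.intro_left N' rfl)
      (Nat.mul_dvd_mul_right hq' q) hqp hdivY hE D hn w hw0
      hord w' rfl c f' hfc (algebraMap Kbar (FN (M * q)) d * b') (c₀ * (d⁻¹) ^ n)
      (mul_ne_zero hc₀ (pow_ne_zero _ (inv_ne_zero hd))) hnorm'
  · -- the reduction
    rw [rho3_apply, iota3_apply, hρG]
    refine Prod.ext ?_ (Prod.ext ?_ ?_)
    · show qExpand (kk A) q (Val.Red A M q σ ⟨(G : Om), hG⟩).1 =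
        ((η₁ • y.1 ^ q : ↥(K0Plan.BKM A M)) : Omk A)
      rw [hGr1, map_mul, qExpand_C, hτdef, ← Fermat.Agent.Lib.KroneckerCong.pow_char_eq,
        coe_smul_BKM]
      rfl
    · show (Val.Red A M q σ ⟨(G : Om), hG⟩).2 =
        ((η₂ • (y.2.1 ^ (q - 1) * y.2.2) : ↥(K0Plan.BKM A M)) : Omk A)
      rw [hGr2, coe_smul_BKM]
      rfl
    · show (Val.Red A M q σ ⟨(G : Om), hG⟩).2 =
        ((η₂ • (y.2.1 ^ (q - 1) * y.2.2) : ↥(K0Plan.BKM A M)) : Omk A)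
      rw [hGr2, coe_smul_BKM]
      rfl

/-- **[NORM-TW]** (= `TwistK0.NormTwStmt`, unfolded): the two norm elements of the twist. -/
theorem normTw_of {N₀ : ℕ} (hq' : q ∣ N') {h : Nat.Coprime M q} (hqp : q.Prime)
    (hL : S34.Plan.Levels q N₀ N' M) (A : ValuationSubring Kbar) (hA : A.LiesOverPrime q)
    (F : Plan.Frame M q h) {O : Subring Om} {ρ : O →+* Plan.Rq A q} (hS : Plan.IsSetup A F O ρ)
    (ξ₀ : Plan.MidIdx q) (hMid : K0Plan.MidEqStmt A q O ρ) :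
    ∀ (D : Divisor Kbar (FN (N' * q))) (n : ℕ), Plan.StableData A N' q D n →
    ∀ E : Divisor Kbar (FN (N' * q)),
      Plan.IsE3 (N' * q) q (Dvd.intro_left N' rfl) (Nat.mul_dvd_mul_right hq' q) E →
    ∀ (w : FN (N' * q)) (hw : (w : Om) ∈ O) (ξ : K0Plan.R3 A),
      w ≠ 0 → (∀ P : Place Kbar (FN (N' * q)), P.ord w = n * D P) →
      K0Plan.Fixed A (w : Om) → ((w : Om))⁻¹ ∈ O →
      (ξ.1 ∈ Fk A M ∧ ξ.2.1 ∈ Fk A M ∧ ξ.2.2 ∈ Fk A M) →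
      K0Plan.rho3 A q O ρ ξ₀ ⟨_, hw⟩ * ξ ^ n = 1 →
      ∃ η₁ η₂ η₁' η₂' : kk A, η₁ ≠ 0 ∧ η₂ ≠ 0 ∧ η₁' ≠ 0 ∧ η₂' ≠ 0 ∧ η₁ ^ n = η₂ ^ n ∧
        η₁' ^ n = η₂' ^ n ∧
        ∀ f ∈ K0Plan.Lam A N' M q O E D, ∀ y : K0Plan.BK3 A M,
          K0Plan.rho3 A q O ρ ξ₀ f = K0Plan.iota3 A M y * ξ →
          (η₁ • (y.1 * y.2.1 ^ (q - 1)), η₁ • (y.1 * y.2.1 ^ (q - 1)), η₂ • y.2.2 ^ q) ∈
            K0Plan.A3 A N' M q O ρ E ξ₀ ∧
          (η₁' • y.1 ^ q, η₂' • (y.2.1 ^ (q - 1) * y.2.2), η₂' • (y.2.1 ^ (q - 1) * y.2.2)) ∈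
            K0Plan.A3 A N' M q O ρ E ξ₀ := by
  intro D n hD E hE w hw ξ hw0 hord hfix _ _ hρ
  obtain ⟨η₁, η₂, hη₁, hη₂, hηn, hα⟩ :=
    alpha_part hq' hqp hL A hA F hS ξ₀ hMid D n hD E hE w hw ξ hw0 hord hfix hρ
  obtain ⟨η₁', η₂', hη₁', hη₂', hηn', hβ⟩ :=
    beta_part hq' hqp hL A hA F hS ξ₀ hMid D n hD E hE w hw ξ hw0 hord hfix hρ
  exact ⟨η₁, η₂, η₁', η₂', hη₁, hη₂, hη₁', hη₂', hηn, hηn', fun f hf y hy =>
    ⟨hα f hf y hy, hβ f hf y hy⟩⟩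

end Main

end Fermat.Agent.S36.TwistInst
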