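import Mathlib
import Fermat.Agent.S36.TwistK0
import Fermat.Agent.S36.OneGen

/-!
# S36 / P8 — [TWIST] without traces (helper9)

A second junction for the contract `K0Plan.TwistStmt … (q² - 1)`: the gluing classification
("two glued points are equal, or they lie over one `z` and the whole triple over `z` is glued")
is derived from the NORM closure of `A₃` instead of the traces.  The norm closure is
`TwistK0.NormTwStmt` at the trivial datum `(D, n, w, ξ) = (0, 1, 1, 1)`; `A₃` is a `k`-subalgebra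
of `B_κ³` (`OneGen.A3alg`, from `K0Plan.ConstStmt`).

* `GlueStmt E`          : the gluing classification, as a `Prop`;
* `glueStmt_of_trace`   : from `TwistK0.DiagStmt` + `TwistK0.TraceStmt` (= `TwistK0.glued_cases`);
* `glueStmt_of_norm`    : from `TwistK0.DiagStmt` + `TwistK0.NormTwStmt` + `K0Plan.ConstStmt`;
* `twistStmt_of_glue`   : `InclStmt + RangeStmt + InvKStmt + GlueStmt + NormTwStmt ⟹ TwistStmt`;
* `twistStmt_of_norm`   : `InclStmt + RangeStmt + ConstStmt + InvKStmt + DiagStmt + NormTwStmt ⟹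
                          K0Plan.TwistStmt (q² - 1)` (no trace contract).
-/

set_option autoImplicit false
set_option maxHeartbeats 400000
set_option synthInstance.maxHeartbeats 400000
set_option linter.unusedSectionVars false

noncomputable section

namespace Fermat.Agent.S36.TwistK0N

open ModularCurve AlgebraicCurve Fermat.Agent.S24 Fermat.Agent.S18 Fermat.Agent.S18.Content
  Fermat.Agent.S18.Plan Fermat.Agent.S36.Plan Fermat.Agent.S36.K0Plan Fermat.Agent.S36.TwistK0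

/-! ## The gluing classification -/

section Defs

variable (A : ValuationSubring Kbar) (N' M q : ℕ) [NeZero N'] [NeZero M] [NeZero q]
variable (O : Subring Om) (ρ : O →+* Rq A q) (ξ₀ : MidIdx q)

/-- **Gluing is all or nothing**: two glued points are equal, or they lie over one `z` and the
whole triple over `z` is glued. -/
def GlueStmt (E : Divisor Kbar (FN (N' * q))) : Prop :=
  ∀ P Q : BK3 A M →+* kk A, IsPt A M P → IsPt A M Q → Glued A N' M q O ρ E ξ₀ P Q →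
    Q = P ∨ ∃ z : ↥(BKM A M) →ₐ[kk A] kk A,
      FullGlue A N' M q O ρ ξ₀ E z ∧ Over z P ∧ Over z Q

/-- The norm closure of `A₃`, up to constants `η`, `η'`. -/
def NormBp (E : Divisor Kbar (FN (N' * q))) (η η' : kk A) : Prop :=
  ∀ t ∈ A3 A N' M q O ρ E ξ₀,
    ((η • (t.1 * t.2.1 ^ (q - 1)), η • (t.1 * t.2.1 ^ (q - 1)), η • t.2.2 ^ q) : BK3 A M)
      ∈ A3 A N' M q O ρ E ξ₀ ∧
    ((η' • t.1 ^ q, η' • (t.2.1 ^ (q - 1) * t.2.2), η' • (t.2.1 ^ (q - 1) * t.2.2)) : BK3 A M)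
      ∈ A3 A N' M q O ρ E ξ₀

end Defs

section Glue

variable {A : ValuationSubring Kbar} {N' M q : ℕ} [NeZero N'] [NeZero M] [NeZero q]
variable {hq' : q ∣ N'} {O : Subring Om} {ρ : O →+* Rq A q} {ξ₀ : MidIdx q}
variable {E : Divisor Kbar (FN (N' * q))}

theorem glueStmt_of_trace (hDiag : DiagStmt A N' M q O ρ ξ₀ E)
    (hTrace : TraceStmt A N' M q O ρ ξ₀ E) : GlueStmt A N' M q O ρ ξ₀ E :=
  fun _ _ hP hQ h => glued_cases hDiag hTrace hP hQ h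

/-- The norm closure of `A₃` from `NormTwStmt` at the trivial datum `(0, 1, 1, 1)`. -/
theorem exists_normBp (hq : q.Prime)
    (hE : IsE3 (N' * q) q (Dvd.intro_left N' rfl) (Nat.mul_dvd_mul_right hq' q) E)
    (hNT : NormTwStmt A N' M q hq' O ρ ξ₀) :
    ∃ η η' : kk A, η ≠ 0 ∧ η' ≠ 0 ∧ NormBp A N' M q O ρ ξ₀ E η η' := by
  have hSD : StableData A N' q (0 : Divisor Kbar (FN (N' * q))) 1 :=
    { deg := map_zero _
      pos := Nat.one_pos
      not_dvd := hq.not_dvd_one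
      tors := by rw [smul_zero]; exact zero_mem _
      pushA := by rw [map_zero]; exact zero_mem _
      pushB := by rw [map_zero]; exact zero_mem _
      stable := fun τ _ => smul_zero _ }
  have hw : (((1 : FN (N' * q)) : Om)) ∈ O := O.one_mem
  have hone : (⟨((1 : FN (N' * q)) : Om), hw⟩ : O) = 1 := rfl
  obtain ⟨η₁, η₂, η₁', η₂', h1, -, h1', -, e, e', hf⟩ :=
    hNT 0 1 hSD E hE 1 hw 1 one_ne_zero
      (fun P => by rw [Place.ord_one]; simp)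
      fixed_one
      (by
        show ((1 : Om))⁻¹ ∈ O
        rw [inv_one]
        exact O.one_mem)
      ⟨(Fk A M).one_mem, (Fk A M).one_mem, (Fk A M).one_mem⟩
      (by rw [hone, map_one, one_pow, one_mul])
  rw [pow_one, pow_one] at e e'
  subst e
  subst e'
  refine ⟨η₁, η₁', h1, h1', ?_⟩
  rintro t ⟨b, hb, hbt⟩
  exact hf b hb t (by rw [hbt, mul_one])

/-- Subtraction of a constant inside `A₃`. -/
theorem sub_const_mem (hE0 : ∀ P : Place Kbar (FN (N' * q)), 0 ≤ E P)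
    (hConst : ConstStmt A q O ρ) {t : BK3 A M} (ht : t ∈ A3 A N' M q O ρ E ξ₀) (c : kk A) :
    t - algebraMap (kk A) (BK3 A M) c ∈ A3 A N' M q O ρ E ξ₀ := by
  have h1 : t ∈ Fermat.Agent.S36.OneGen.A3alg M E ξ₀ hE0 hConst := ht
  exact (Fermat.Agent.S36.OneGen.A3alg M E ξ₀ hE0 hConst).sub_mem h1
    ((Fermat.Agent.S36.OneGen.A3alg M E ξ₀ hE0 hConst).algebraMap_mem c)

end Glue

/-! ## Gluing from the norm closure -/

section NormGlue

variable {A : ValuationSubring Kbar} {N' M q : ℕ} [NeZero N'] [NeZero M] [NeZero q]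
variable {hq' : q ∣ N'} {O : Subring Om} {ρ : O →+* Rq A q} {ξ₀ : MidIdx q}
variable {E : Divisor Kbar (FN (N' * q))} {η η' : kk A}

/-- Shifting an element of `A₃` by a constant. -/
theorem exists_shift
    (hsub : ∀ t ∈ A3 A N' M q O ρ E ξ₀, ∀ c : kk A,
      t - algebraMap (kk A) (BK3 A M) c ∈ A3 A N' M q O ρ E ξ₀)
    {t : BK3 A M} (ht : t ∈ A3 A N' M q O ρ E ξ₀) (c : kk A) :
    ∃ s ∈ A3 A N' M q O ρ E ξ₀, ∀ z : ↥(BKM A M) →ₐ[kk A] kk A,
      z s.1 = z t.1 - c ∧ z s.2.1 = z t.2.1 - c ∧ z s.2.2 = z t.2.2 - c := by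
  refine ⟨_, hsub t ht c, fun z => ⟨?_, ?_, ?_⟩⟩
  · show z (t.1 - algebraMap (kk A) ↥(BKM A M) c) = z t.1 - c
    rw [map_sub, apply_algebraMap]
  · show z (t.2.1 - algebraMap (kk A) ↥(BKM A M) c) = z t.2.1 - c
    rw [map_sub, apply_algebraMap]
  · show z (t.2.2 - algebraMap (kk A) ↥(BKM A M) c) = z t.2.2 - c
    rw [map_sub, apply_algebraMap]

theorem full_of_glued12_norm (hq2 : 2 ≤ q) (hη' : η' ≠ 0)
    (hN : NormBp A N' M q O ρ ξ₀ E η η')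
    (hsub : ∀ t ∈ A3 A N' M q O ρ E ξ₀, ∀ c : kk A,
      t - algebraMap (kk A) (BK3 A M) c ∈ A3 A N' M q O ρ E ξ₀)
    (hDiag : DiagStmt A N' M q O ρ ξ₀ E)
    {z z' : ↥(BKM A M) →ₐ[kk A] kk A} (h : Glued A N' M q O ρ E ξ₀ (pt1 z) (pt2 z')) :
    z' = z ∧ FullGlue A N' M q O ρ ξ₀ E z := by
  have hzz : z' = z := by
    refine AlgHom.ext fun d => ?_
    obtain ⟨⟨t, ht, h1, h2⟩, -⟩ := hDiag d
    have := h t ht
    rw [pt2_apply, pt1_apply, h1, h2] at this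
    exact this
  obtain rfl : z = z' := hzz.symm
  have h12 : ∀ t ∈ A3 A N' M q O ρ E ξ₀, z t.1 = z t.2.1 := by
    intro t ht
    have := h t ht
    rw [pt2_apply, pt1_apply] at this
    exact this.symm
  refine ⟨rfl, fun t ht => ⟨h12 t ht, ?_⟩⟩
  obtain ⟨s, hs, hsz⟩ := exists_shift hsub ht (z t.2.2)
  have e : z (η' • (s.2.1 ^ (q - 1) * s.2.2)) = z (η' • s.1 ^ q) := h _ (hN s hs).2
  simp only [map_smul, smul_eq_mul, map_mul, map_pow] at e
  rw [(hsz z).1, (hsz z).2.2, sub_self, mul_zero, mul_zero] at e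
  have h0 : z t.1 - z t.2.2 = 0 :=
    (pow_eq_zero_iff (by omega : q ≠ 0)).1 ((mul_eq_zero.1 e.symm).resolve_left hη')
  rw [← h12 t ht]
  exact (sub_eq_zero.1 h0).symm

theorem full_of_glued23_norm (hq2 : 2 ≤ q) (hη : η ≠ 0)
    (hN : NormBp A N' M q O ρ ξ₀ E η η')
    (hsub : ∀ t ∈ A3 A N' M q O ρ E ξ₀, ∀ c : kk A,
      t - algebraMap (kk A) (BK3 A M) c ∈ A3 A N' M q O ρ E ξ₀)
    (hDiag : DiagStmt A N' M q O ρ ξ₀ E)
    {z z' : ↥(BKM A M) →ₐ[kk A] kk A} (h : Glued A N' M q O ρ E ξ₀ (pt2 z) (pt3 z')) :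
    z' = z ∧ FullGlue A N' M q O ρ ξ₀ E z := by
  have hzz : z' = z := by
    refine AlgHom.ext fun d => ?_
    obtain ⟨-, ⟨t, ht, h2, h3⟩⟩ := hDiag d
    have := h t ht
    rw [pt3_apply, pt2_apply, h2, h3] at this
    exact this
  obtain rfl : z = z' := hzz.symm
  have h32 : ∀ t ∈ A3 A N' M q O ρ E ξ₀, z t.2.2 = z t.2.1 := by
    intro t ht
    have := h t ht
    rw [pt3_apply, pt2_apply] at this
    exact this
  refine ⟨rfl, fun t ht => ⟨?_, h32 t ht⟩⟩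
  obtain ⟨s, hs, hsz⟩ := exists_shift hsub ht (z t.1)
  have e : z (η • s.2.2 ^ q) = z (η • (s.1 * s.2.1 ^ (q - 1))) := h _ (hN s hs).1
  simp only [map_smul, smul_eq_mul, map_mul, map_pow] at e
  rw [(hsz z).1, (hsz z).2.2, sub_self, zero_mul, mul_zero] at e
  have h0 : z t.2.2 - z t.1 = 0 :=
    (pow_eq_zero_iff (by omega : q ≠ 0)).1 ((mul_eq_zero.1 e).resolve_left hη)
  rw [← h32 t ht]
  exact (sub_eq_zero.1 h0).symm

theorem full_of_glued13_norm (hq2 : 2 ≤ q) (hη : η ≠ 0)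
    (hN : NormBp A N' M q O ρ ξ₀ E η η')
    (hsub : ∀ t ∈ A3 A N' M q O ρ E ξ₀, ∀ c : kk A,
      t - algebraMap (kk A) (BK3 A M) c ∈ A3 A N' M q O ρ E ξ₀)
    (hDiag : DiagStmt A N' M q O ρ ξ₀ E)
    {z z' : ↥(BKM A M) →ₐ[kk A] kk A} (h : Glued A N' M q O ρ E ξ₀ (pt1 z) (pt3 z')) :
    z' = z ∧ FullGlue A N' M q O ρ ξ₀ E z := by
  have h13 : ∀ t ∈ A3 A N' M q O ρ E ξ₀, z' t.2.2 = z t.1 := fun t ht => h t ht
  have h12 : ∀ t ∈ A3 A N' M q O ρ E ξ₀, z t.1 = z t.2.1 := by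
    intro t ht
    obtain ⟨s, hs, hsz⟩ := exists_shift hsub ht (z t.2.1)
    have e : z' (η • s.2.2 ^ q) = z (η • (s.1 * s.2.1 ^ (q - 1))) := h _ (hN s hs).1
    simp only [map_smul, smul_eq_mul, map_mul, map_pow] at e
    rw [(hsz z).2.1, (hsz z').2.2, sub_self, zero_pow (by omega : q - 1 ≠ 0), mul_zero,
      mul_zero] at e
    have h0 : z' t.2.2 - z t.2.1 = 0 :=
      (pow_eq_zero_iff (by omega : q ≠ 0)).1 ((mul_eq_zero.1 e).resolve_left hη)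
    rw [← h13 t ht]
    exact sub_eq_zero.1 h0
  have hzz : z' = z := by
    refine AlgHom.ext fun d => ?_
    obtain ⟨-, ⟨t, ht, h2, h3⟩⟩ := hDiag d
    have := h13 t ht
    rw [h12 t ht, h2, h3] at this
    exact this
  subst hzz
  refine ⟨rfl, fun t ht => ⟨h12 t ht, ?_⟩⟩
  rw [h13 t ht, h12 t ht]

/-- **Gluing is all or nothing, from the norms**: `DiagStmt + NormTwStmt + ConstStmt ⟹ GlueStmt`
(no trace contract). -/
theorem glueStmt_of_norm (hq : q.Prime)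
    (hE : IsE3 (N' * q) q (Dvd.intro_left N' rfl) (Nat.mul_dvd_mul_right hq' q) E)
    (hConst : ConstStmt A q O ρ)
    (hDiag : DiagStmt A N' M q O ρ ξ₀ E)
    (hNT : NormTwStmt A N' M q hq' O ρ ξ₀) :
    GlueStmt A N' M q O ρ ξ₀ E := by
  obtain ⟨η, η', hη, hη', hN⟩ := exists_normBp hq hE hNT
  have hsub : ∀ t ∈ A3 A N' M q O ρ E ξ₀, ∀ c : kk A,
      t - algebraMap (kk A) (BK3 A M) c ∈ A3 A N' M q O ρ E ξ₀ :=
    fun t ht c => sub_const_mem (Fermat.Agent.S36.OneGen.isE3_nonneg hE) hConst ht c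
  have hq2 := hq.two_le
  intro P Q hP hQ hPQ
  obtain ⟨z, hz⟩ := hP
  obtain ⟨z', hz'⟩ := hQ
  rcases hz with rfl | rfl | rfl <;> rcases hz' with rfl | rfl | rfl
  · exact Or.inl (by rw [eq_of_glued11 hDiag hPQ])
  · obtain ⟨rfl, hf⟩ := full_of_glued12_norm hq2 hη' hN hsub hDiag hPQ
    exact Or.inr ⟨_, hf, Or.inl rfl, Or.inr (Or.inl rfl)⟩
  · obtain ⟨rfl, hf⟩ := full_of_glued13_norm hq2 hη hN hsub hDiag hPQ
    exact Or.inr ⟨_, hf, Or.inl rfl, Or.inr (Or.inr rfl)⟩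
  · obtain ⟨rfl, hf⟩ := full_of_glued12_norm hq2 hη' hN hsub hDiag (glued_symm hPQ)
    exact Or.inr ⟨_, hf, Or.inr (Or.inl rfl), Or.inl rfl⟩
  · exact Or.inl (by rw [eq_of_glued22 hDiag hPQ])
  · obtain ⟨rfl, hf⟩ := full_of_glued23_norm hq2 hη hN hsub hDiag hPQ
    exact Or.inr ⟨_, hf, Or.inr (Or.inl rfl), Or.inr (Or.inr rfl)⟩
  · obtain ⟨rfl, hf⟩ := full_of_glued13_norm hq2 hη hN hsub hDiag (glued_symm hPQ)
    exact Or.inr ⟨_, hf, Or.inr (Or.inr rfl), Or.inl rfl⟩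
  · obtain ⟨rfl, hf⟩ := full_of_glued23_norm hq2 hη hN hsub hDiag (glued_symm hPQ)
    exact Or.inr ⟨_, hf, Or.inr (Or.inr rfl), Or.inr (Or.inl rfl)⟩
  · exact Or.inl (by rw [eq_of_glued33 hDiag hPQ])

end NormGlue


/-! ## The junction -/

section Main

variable {A : ValuationSubring Kbar} {N' M q : ℕ} [NeZero N'] [NeZero M] [NeZero q]
variable {hq' : q ∣ N'} {O : Subring Om} {ρ : O →+* Rq A q} {ξ₀ : MidIdx q}

/-- **[TWIST]** from the gluing classification: `K0Plan.TwistStmt` with `c_b = q² - 1`, from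
`[INCL]`, `[K0-RANGE]`, `[REG]` (`InvKStmt`), `GlueStmt` and `[NORM-TW]`. -/
theorem twistStmt_of_glue (hq : q.Prime)
    (hle : modularFunctionFieldBar (N' * q) ≤ modularFunctionFieldBar (M * q * q))
    (hIncl : Plan.InclStmt A (N' * q) M q (Dvd.intro_left N' rfl)
      (Nat.mul_dvd_mul_right hq' q) O ρ)
    (hRange : RangeStmt A M q O ρ ξ₀)
    (hInv : ∀ E : Divisor Kbar (FN (N' * q)),
      IsE3 (N' * q) q (Dvd.intro_left N' rfl) (Nat.mul_dvd_mul_right hq' q) E →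
        InvKStmt A N' M q O ρ ξ₀ E)
    (hGl : ∀ E : Divisor Kbar (FN (N' * q)),
      IsE3 (N' * q) q (Dvd.intro_left N' rfl) (Nat.mul_dvd_mul_right hq' q) E →
        GlueStmt A N' M q O ρ ξ₀ E)
    (hNT : NormTwStmt A N' M q hq' O ρ ξ₀) :
    TwistStmt A N' M q hq' O ρ ξ₀ (q ^ 2 - 1) := by
  intro D n hD E hE w hw ξ hw0 hord hfix hwinv hξ hρ
  obtain ⟨η₁, η₂, η₁', η₂', h1, h2, h1', h2', hηn, hηn', hNT'⟩ :=
    hNT D n hD E hE w hw ξ hw0 hord hfix hwinv hξ hρ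
  have hn : 0 < n := hD.pos
  obtain ⟨m, hm1⟩ : ∃ m, m + 1 = q := ⟨q - 1, by have := hq.two_le; omega⟩
  have hm : m ≠ 0 := by have := hq.two_le; omega
  have hq1 : q - 1 = m := by omega
  have hcb : q ^ 2 - 1 = (m + 2) * m := by rw [← hm1]; exact TwistNorm.sq_sub_one m
  have e1 : (η₂ / η₁) ^ n = 1 := by rw [div_pow, hηn, div_self (pow_ne_zero _ h2)]
  have e2 : (η₁' / η₂') ^ n = 1 := by rw [div_pow, hηn', div_self (pow_ne_zero _ h2')]
  have e3 : (η₂' / η₁') ^ n = 1 := by rw [div_pow, hηn', div_self (pow_ne_zero _ h2')]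
  refine ⟨(((η₂ * η₂') / (η₁ * η₁')) ^ m, (η₂ / η₁) ^ (m + 1) * (η₁' / η₂'), 1), ?_, ?_,
    one_pow n, ?_⟩
  · show (((η₂ * η₂') / (η₁ * η₁')) ^ m) ^ n = 1
    rw [← pow_mul, mul_comm m n, pow_mul, mul_div_mul_comm, mul_pow, e1, e3, one_mul, one_pow]
  · show ((η₂ / η₁) ^ (m + 1) * (η₁' / η₂')) ^ n = 1
    rw [mul_pow, ← pow_mul, mul_comm (m + 1) n, pow_mul, e1, one_pow, e2, one_mul]
  rw [hcb]
  generalize hζ₁ : ((η₂ * η₂') / (η₁ * η₁')) ^ m = ζ₁ at *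
  generalize hζ₂ : (η₂ / η₁) ^ (m + 1) * (η₁' / η₂') = ζ₂ at *
  generalize hcbdef : (m + 2) * m = cb at *
  show TwistCompat A N' M q O ρ ξ₀ E (cb • D)
    ((HahnSeries.C ζ₁, HahnSeries.C ζ₂, HahnSeries.C 1) * ξ ^ cb)
  have hζ₁0 : ζ₁ ≠ 0 := by
    rw [← hζ₁]
    exact pow_ne_zero _ (div_ne_zero (mul_ne_zero h2 h2') (mul_ne_zero h1 h1'))
  have hζ₂0 : ζ₂ ≠ 0 := by
    rw [← hζ₂]
    exact mul_ne_zero (pow_ne_zero _ (div_ne_zero h2 h1)) (div_ne_zero h1' h2')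
  intro P hP f hf g hg t y hfg hPt hfy Q hQ hPQ
  rcases hGl E hE P Q hP hQ hPQ with rfl | ⟨z, hz, hPz, hQz⟩
  · rfl
  -- a generator of `Λ'(D)` at `P`
  obtain ⟨f₀, hf₀, g₀, hg₀, t₀, hfg₀, hPt₀⟩ := hInv E hE D hD.stable P hP
  obtain ⟨y₀, hy₀, hy₀n⟩ :=
    kummer_int (hq' := hq') hle hIncl hRange hE hn hw hw0 hord hfix hξ hρ hf₀
  have hξu : IsUnit ξ := isUnit_of_mul_pow_eq_one hn hρ
  -- `e₂ = w⁻¹ g₀ⁿ ∈ B'`
  have hwinv' : ((w⁻¹ : FN (N' * q)) : Om) ∈ O := hwinv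
  have hfixinv : Fixed A ((w⁻¹ : FN (N' * q)) : Om) := fixed_inv hfix
  have he₂ : (⟨((w⁻¹ : FN (N' * q)) : Om), hwinv'⟩ : O) * g₀ ^ n ∈ Bp A N' M q O E := by
    have h1 := lam_fn_mul (A := A) (M := M) (O := O) hle (inv_ne_zero hw0) (Dh := n • -D)
      (fun P => by
        rw [Place.ord_inv, hord P, Finsupp.smul_apply, Finsupp.neg_apply, nsmul_eq_mul, mul_neg])
      hwinv' hfixinv (lam_pow hle hg₀ n)
    rwa [sub_self] at h1
  obtain ⟨s₂, hs₂⟩ := bp_range (hq' := hq') hIncl hRange hE he₂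
  have hww : (⟨(w : Om), hw⟩ : O) * ⟨((w⁻¹ : FN (N' * q)) : Om), hwinv'⟩ = 1 := by
    apply Subtype.ext
    show (w : Om) * (w : Om)⁻¹ = 1
    exact mul_inv_cancel₀ (fun h0 => hw0 (Subtype.ext h0))
  have hξn : rho3 A q O ρ ξ₀ ⟨((w⁻¹ : FN (N' * q)) : Om), hwinv'⟩ = ξ ^ n := by
    have h1 : rho3 A q O ρ ξ₀ ⟨(w : Om), hw⟩ *
        rho3 A q O ρ ξ₀ ⟨((w⁻¹ : FN (N' * q)) : Om), hwinv'⟩ = 1 := by
      rw [← map_mul, hww, map_one]
    calc rho3 A q O ρ ξ₀ ⟨((w⁻¹ : FN (N' * q)) : Om), hwinv'⟩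
        = rho3 A q O ρ ξ₀ ⟨((w⁻¹ : FN (N' * q)) : Om), hwinv'⟩ *
            (rho3 A q O ρ ξ₀ ⟨(w : Om), hw⟩ * ξ ^ n) := by rw [hρ, mul_one]
      _ = (rho3 A q O ρ ξ₀ ⟨(w : Om), hw⟩ *
            rho3 A q O ρ ξ₀ ⟨((w⁻¹ : FN (N' * q)) : Om), hwinv'⟩) * ξ ^ n := by ring
      _ = ξ ^ n := by rw [h1, one_mul]
  have hkey : t₀ ^ n = y₀ ^ n * s₂ := by
    apply iota3_injective
    have hL : iota3 A M (t₀ ^ n) = (rho3 A q O ρ ξ₀ f₀ * rho3 A q O ρ ξ₀ g₀) ^ n := by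
      rw [map_pow, ← hfg₀, map_mul]
    have hR : iota3 A M (y₀ ^ n * s₂) =
        (iota3 A M y₀) ^ n * (ξ ^ n * rho3 A q O ρ ξ₀ g₀ ^ n) := by
      rw [map_mul, map_pow, ← hs₂, map_mul, map_pow, hξn]
    rw [hL, hR, hy₀]
    ring
  have hPy₀ : P y₀ ≠ 0 := by
    intro h0
    have := congrArg P hkey
    rw [map_pow, map_mul, map_pow, h0, zero_pow hn.ne', zero_mul] at this
    exact hPt₀ ((pow_eq_zero_iff hn.ne').1 this)
  -- the three values of `y₀` over `z`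
  have hyn := hz _ hy₀n
  have hab : z y₀.1 ^ n = z y₀.2.1 ^ n := by
    have := hyn.1
    rw [show (y₀ ^ n).1 = y₀.1 ^ n from rfl, show (y₀ ^ n).2.1 = y₀.2.1 ^ n from rfl, map_pow,
      map_pow] at this
    exact this
  have hb0 : z y₀.2.1 ≠ 0 := by
    have h1 := hz.apply_eq hPz hy₀n
    rw [map_pow, show (y₀ ^ n).2.1 = y₀.2.1 ^ n from rfl, map_pow] at h1
    intro h0
    rw [h0, zero_pow hn.ne'] at h1
    exact hPy₀ ((pow_eq_zero_iff hn.ne').1 h1)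
  have ha0 : z y₀.1 ≠ 0 := by
    intro h0
    rw [h0, zero_pow hn.ne'] at hab
    exact hb0 ((pow_eq_zero_iff hn.ne').1 hab.symm)
  -- the two norm relations
  obtain ⟨hTα, hTβ⟩ := hNT' f₀ hf₀ y₀ hy₀
  have hα : η₁ * (z y₀.1 * z y₀.2.1 ^ m) = η₂ * z y₀.2.2 ^ (m + 1) := by
    have := (hz _ hTα).2
    simp only [map_smul, smul_eq_mul, map_mul, map_pow] at this
    rw [hq1, ← hm1] at this
    exact this.symm
  have hβ : η₁' * z y₀.1 ^ (m + 1) = η₂' * (z y₀.2.1 ^ m * z y₀.2.2) := by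
    have := (hz _ hTβ).1
    simp only [map_smul, smul_eq_mul, map_mul, map_pow] at this
    rw [hq1, ← hm1] at this
    exact this
  obtain ⟨-, -, hc0, hrel1, hrel2⟩ :=
    TwistNorm.pow_rel_aux hm h1 h2 h1' h2' hα hβ (Or.inl ha0)
  rw [hζ₁, hcbdef] at hrel1
  rw [hζ₂, hcbdef] at hrel2
  -- comparison of `f` with `f₀ ^ cb`
  have hf₁ : f₀ ^ cb ∈ Lam A N' M q O E (cb • D) := lam_pow hle hf₀ cb
  have hg₁ : g₀ ^ cb ∈ Lam A N' M q O E (cb • -D) := lam_pow hle hg₀ cb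
  have hzero : cb • D + cb • -D = 0 := by rw [smul_neg, add_neg_cancel]
  have hb₁ : f * g₀ ^ cb ∈ Bp A N' M q O E := by
    have := lam_mul hf hg₁
    rwa [hzero] at this
  have hb₂ : f₀ ^ cb * g₀ ^ cb ∈ Bp A N' M q O E := by
    have := lam_mul hf₁ hg₁
    rwa [hzero] at this
  obtain ⟨t₁, ht₁⟩ := bp_range (hq' := hq') hIncl hRange hE hb₁
  obtain ⟨t₂, ht₂⟩ := bp_range (hq' := hq') hIncl hRange hE hb₂
  have hA1 : t₁ ∈ A3 A N' M q O ρ E ξ₀ := ⟨_, hb₁, ht₁⟩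
  have hA2 : t₂ ∈ A3 A N' M q O ρ E ξ₀ := ⟨_, hb₂, ht₂⟩
  have ht₂' : t₂ = t₀ ^ cb := by
    apply iota3_injective
    rw [← ht₂, map_pow, ← hfg₀, ← mul_pow, map_pow]
  have hζB : iota3 A M (algebraMap (kk A) ↥(BKM A M) ζ₁, algebraMap (kk A) ↥(BKM A M) ζ₂, 1) =
      (HahnSeries.C ζ₁, HahnSeries.C ζ₂, HahnSeries.C 1) := by
    rw [iota3_apply]
    refine Prod.ext ?_ (Prod.ext ?_ ?_)
    · exact coe_algebraMap_BKM (M := M) ζ₁
    · exact coe_algebraMap_BKM (M := M) ζ₂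
    · exact (map_one (HahnSeries.C : kk A →+* Omk A)).symm
  have hmain : y * (algebraMap (kk A) ↥(BKM A M) ζ₁, algebraMap (kk A) ↥(BKM A M) ζ₂, 1) * t₂ =
      y₀ ^ cb * t₁ := by
    apply iota3_injective
    apply (hξu.pow cb).mul_left_cancel
    have hL : rho3 A q O ρ ξ₀ (f * (f₀ ^ cb * g₀ ^ cb)) =
        iota3 A M y * ((HahnSeries.C ζ₁, HahnSeries.C ζ₂, HahnSeries.C 1) * ξ ^ cb) *
          iota3 A M t₂ := by
      rw [map_mul (rho3 A q O ρ ξ₀) f, ht₂, hfy]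
    have hR : rho3 A q O ρ ξ₀ (f₀ ^ cb * (f * g₀ ^ cb)) =
        (iota3 A M y₀ * ξ) ^ cb * iota3 A M t₁ := by
      rw [map_mul (rho3 A q O ρ ξ₀) (f₀ ^ cb), ht₁, map_pow, hy₀]
    have h1 : f * (f₀ ^ cb * g₀ ^ cb) = f₀ ^ cb * (f * g₀ ^ cb) := by ring
    rw [h1, hR] at hL
    rw [map_mul, map_mul, map_mul, map_pow, hζB]
    linear_combination hL.symm
  have key : ∀ R : BK3 A M →+* kk A, Over z R →
      R y * z t₂.2.1 = z y₀.2.2 ^ cb * z t₁.2.1 := by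
    intro R hR
    have e := congrArg R hmain
    rw [map_mul, map_mul, map_mul, map_pow, hz.apply_eq hR hA1, hz.apply_eq hR hA2] at e
    rcases hR with rfl | rfl | rfl
    · simp only [pt1_apply] at e ⊢
      rw [apply_algebraMap, hrel1] at e
      apply mul_left_cancel₀ hζ₁0
      linear_combination e
    · simp only [pt2_apply] at e ⊢
      rw [apply_algebraMap, hrel2] at e
      apply mul_left_cancel₀ hζ₂0
      linear_combination e
    · simp only [pt3_apply] at e ⊢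
      rw [map_one, mul_one] at e
      exact e
  have hτ₂ : z t₂.2.1 ≠ 0 := by
    rw [← hz.apply_eq hPz hA2, ht₂', map_pow]
    exact pow_ne_zero _ hPt₀
  exact mul_right_cancel₀ hτ₂ ((key Q hQz).trans (key P hPz).symm)


/-- **[TWIST] without traces**: `K0Plan.TwistStmt` with `c_b = q² - 1`, from `[INCL]`,
`[K0-RANGE]`, `[K0-CONST]`, `[REG]` (`InvKStmt`), `[K0-DIAG]` and `[NORM-TW]`. -/
theorem twistStmt_of_norm (hq : q.Prime)
    (hle : modularFunctionFieldBar (N' * q) ≤ modularFunctionFieldBar (M * q * q))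
    (hIncl : Plan.InclStmt A (N' * q) M q (Dvd.intro_left N' rfl)
      (Nat.mul_dvd_mul_right hq' q) O ρ)
    (hRange : RangeStmt A M q O ρ ξ₀)
    (hConst : ConstStmt A q O ρ)
    (hInv : ∀ E : Divisor Kbar (FN (N' * q)),
      IsE3 (N' * q) q (Dvd.intro_left N' rfl) (Nat.mul_dvd_mul_right hq' q) E →
        InvKStmt A N' M q O ρ ξ₀ E)
    (hDiag : ∀ E : Divisor Kbar (FN (N' * q)),
      IsE3 (N' * q) q (Dvd.intro_left N' rfl) (Nat.mul_dvd_mul_right hq' q) E →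
        DiagStmt A N' M q O ρ ξ₀ E)
    (hNT : NormTwStmt A N' M q hq' O ρ ξ₀) :
    TwistStmt A N' M q hq' O ρ ξ₀ (q ^ 2 - 1) :=
  twistStmt_of_glue hq hle hIncl hRange hInv
    (fun E hE => glueStmt_of_norm hq hE hConst (hDiag E hE) hNT) hNT

end Main

end Fermat.Agent.S36.TwistK0N
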