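/-
P8 (S36) block [UNIT-S2] (helper64): the unit half of the local-generator statement, in
denominator form (no localisation, no Krull/UFD facts).

`F` a field, `v i` a family of "valuations" (only multiplicativity on nonzero elements is used),
`B = {x : v i x ≥ 0 ∀ i}`, `M = {x : v i x ≥ -D i ∀ i}` with one approximating element per `i`.
If `g ∈ M` generates `M` up to the denominator `d` (`d M ⊆ B g`) and `v i u = n • D i`, then
`g ^ n * u ∈ B` and `b * (g ^ n * u) = d ^ n` for some `b ∈ B`; hence `g ^ n * u ∉ 𝔪` for every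
prime `𝔪 ∌ d`.
-/
import Mathlib

set_option autoImplicit false

namespace Fermat.Agent.S36.UnitDenom

variable {F ι Γ : Type*} [Field F] [AddCommGroup Γ] [LinearOrder Γ] [IsOrderedAddMonoid Γ]

/-- **[UNIT-S2]** (set form). -/
theorem pow_mul_mem_and_exists
    (v : ι → F → Γ) (hv : ∀ i x y, x ≠ 0 → y ≠ 0 → v i (x * y) = v i x + v i y)
    (B : Subring F) (hB : ∀ x : F, x ≠ 0 → (x ∈ B ↔ ∀ i, 0 ≤ v i x))
    (D : ι → Γ) (M : Set F) (hM : ∀ x : F, x ≠ 0 → (x ∈ M ↔ ∀ i, -D i ≤ v i x))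
    (happ : ∀ i, ∃ f ∈ M, f ≠ 0 ∧ v i f = -D i)
    (g : F) (hg : g ∈ M) (hg0 : g ≠ 0) (d : F) (hd0 : d ≠ 0)
    (hgen : ∀ f ∈ M, ∃ a ∈ B, d * f = a * g)
    (n : ℕ) (u : F) (hu0 : u ≠ 0) (hu : ∀ i, v i u = n • D i) :
    g ^ n * u ∈ B ∧ ∃ b ∈ B, b * (g ^ n * u) = d ^ n := by
  have hvpow : ∀ i (x : F), x ≠ 0 → ∀ m : ℕ, m ≠ 0 → v i (x ^ m) = m • v i x := by
    intro i x hx m hm
    induction m with
    | zero => exact absurd rfl hm
    | succ m ih =>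
      by_cases hm0 : m = 0
      · subst hm0
        simp
      · rw [pow_succ, hv i _ _ (pow_ne_zero _ hx) hx, ih hm0, succ_nsmul]
  by_cases hn : n = 0
  · subst hn
    have hu1 : ∀ i, v i u = 0 := fun i => by rw [hu i, zero_smul]
    have huB : u ∈ B := (hB u hu0).2 fun i => (hu1 i).ge
    have hui : u⁻¹ ∈ B := by
      refine (hB _ (inv_ne_zero hu0)).2 fun i => ?_
      have h1 : v i (u * u⁻¹) = v i u + v i u⁻¹ := hv i _ _ hu0 (inv_ne_zero hu0)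
      have h2 : v i ((1 : F) * 1) = v i 1 + v i 1 := hv i _ _ one_ne_zero one_ne_zero
      rw [mul_one] at h2
      have h3 : v i (1 : F) = 0 := by
        have := h2
        exact (add_eq_left (a := v i (1 : F))).mp this.symm
      rw [mul_inv_cancel₀ hu0, h3, hu1 i, zero_add] at h1
      exact h1.le
    refine ⟨by simpa using huB, u⁻¹, hui, ?_⟩
    simp [hu0]
  have hgM := (hM g hg0).1 hg
  -- `v i (g ^ n * u) ≥ 0`
  have hgu0 : g ^ n * u ≠ 0 := mul_ne_zero (pow_ne_zero _ hg0) hu0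
  have h1 : g ^ n * u ∈ B := by
    refine (hB _ hgu0).2 fun i => ?_
    rw [hv i _ _ (pow_ne_zero _ hg0) hu0, hvpow i g hg0 n hn, hu i, ← nsmul_add]
    refine nsmul_nonneg ?_ n
    have := hgM i
    exact neg_le_iff_add_nonneg.mp this
  refine ⟨h1, d ^ n / (g ^ n * u), ?_, by field_simp⟩
  -- `v i (d / g) ≥ D i`
  have hdg : ∀ i, D i ≤ v i (d / g) := by
    intro i
    obtain ⟨f, hfM, hf0, hfi⟩ := happ i
    obtain ⟨a, haB, hdf⟩ := hgen f hfM
    have ha0 : a ≠ 0 := by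
      rintro rfl
      rw [zero_mul] at hdf
      exact mul_ne_zero hd0 hf0 hdf
    have hva : 0 ≤ v i a := (hB a ha0).1 haB i
    have hdg0 : d / g ≠ 0 := div_ne_zero hd0 hg0
    have e : d / g * f = a := by
      rw [div_mul_eq_mul_div, hdf, mul_div_assoc, div_self hg0, mul_one]
    have h2 := hv i (d / g) f hdg0 hf0
    rw [e, hfi] at h2
    have : v i (d / g) = v i a + D i := by
      rw [h2]
      abel
    rw [this]
    exact le_add_of_nonneg_left hva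
  have hq0 : d ^ n / (g ^ n * u) ≠ 0 := div_ne_zero (pow_ne_zero _ hd0) hgu0
  refine (hB _ hq0).2 fun i => ?_
  have e : d ^ n / (g ^ n * u) * u = (d / g) ^ n := by
    rw [div_pow]
    field_simp
  have h2 := hv i _ u hq0 hu0
  rw [e, hvpow i _ (div_ne_zero hd0 hg0) n hn, hu i] at h2
  have h3 : v i (d ^ n / (g ^ n * u)) = n • v i (d / g) - n • D i := by
    rw [h2]
    abel
  rw [h3, sub_nonneg]
  exact nsmul_le_nsmul_right (hdg i) n

/-- **[UNIT-S2]**: `U = g ^ n * u` is not in any prime `𝔪` of `B` missing the denominator `d`. -/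
theorem pow_mul_not_mem
    (v : ι → F → Γ) (hv : ∀ i x y, x ≠ 0 → y ≠ 0 → v i (x * y) = v i x + v i y)
    (B : Subring F) (hB : ∀ x : F, x ≠ 0 → (x ∈ B ↔ ∀ i, 0 ≤ v i x))
    (D : ι → Γ) (M : Set F) (hM : ∀ x : F, x ≠ 0 → (x ∈ M ↔ ∀ i, -D i ≤ v i x))
    (happ : ∀ i, ∃ f ∈ M, f ≠ 0 ∧ v i f = -D i)
    (g : F) (hg : g ∈ M) (hg0 : g ≠ 0) (d : B) (hd0 : (d : F) ≠ 0)
    (hgen : ∀ f ∈ M, ∃ a ∈ B, (d : F) * f = a * g)
    (n : ℕ) (u : F) (hu0 : u ≠ 0) (hu : ∀ i, v i u = n • D i)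
    (𝔪 : Ideal B) [𝔪.IsPrime] (hdm : d ∉ 𝔪) :
    ∃ h : g ^ n * u ∈ B, (⟨g ^ n * u, h⟩ : B) ∉ 𝔪 := by
  obtain ⟨h1, b, hb, hbe⟩ :=
    pow_mul_mem_and_exists v hv B hB D M hM happ g hg hg0 (d : F) hd0 hgen n u hu0 hu
  refine ⟨h1, fun hmem => ?_⟩
  have h2 : (⟨b, hb⟩ : B) * ⟨g ^ n * u, h1⟩ = d ^ n := Subtype.ext hbe
  have h3 : d ^ n ∈ 𝔪 := h2 ▸ 𝔪.mul_mem_left _ hmem
  exact hdm (Ideal.IsPrime.mem_of_pow_mem inferInstance n h3)

end Fermat.Agent.S36.UnitDenom
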