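import Mathlib
import Fermat.Agent.S36.OneComp
import Fermat.Agent.S36.K0Red
import Fermat.Agent.S36.K0Gauss
import Fermat.Agent.S36.MidRed
import Fermat.Agent.S36.MidEq
import Fermat.Agent.S36.InertiaFieldZeta
import Fermat.Agent.S36.K0Plan
import Fermat.Agent.S36.OneCompBp
import Fermat.Agent.S36.CoordFin

/-!
# S36 / P8 — [UNIT-SEC]: normalising a `K₀`-rational function at a prescribed coordinate (helper90)

`F` a level-`q²` frame, `(O, ρ)` its setup, `A` over the prime `q`, `I` the inertia group of `A`.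
For a nonzero `I`-fixed element `g` of `F_{Mq²}` and a coordinate `i` there is a multiplier

    mult q i a b c = q^a · (j − j_{q²})^b · z_i^c        (`a : ℤ`, `b c : ℕ`)

(`z_i` the one-component element of `S36/OneComp` attached to `i`) such that `mult · g ∈ O` and
`ρ (mult · g) i ≠ 0`.  The multiplier is fixed by `Gal(Q̄/ℚ)`, lies in `F_N` for every `N` with
`q² ∣ N`, and is a polynomial in `j`, `j_{q²}` (so it is regular off the cusps).

* `IsU`                  : units for the content valuation (`∈ Ocal A` with nonzero reduction);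
* `mem_Ocal_of_scale`, `isU_of_scale` : the valuation bookkeeping;
* `exists_scale`         : `K₀`-discreteness at the `q + 1` coordinates, uniformly in the middle
                           ones (`K0Red.qScale_of_fixed`, `K0Gauss.scale_mid_of_fixed`);
* `mult`, `multEl`       : the multiplier as a series and as an element of `F_N`;
  `mult_mem_field`, `coeffMap_mult`, `fixed_mult`, `mult_mem_pullRR`;
* `exists_multEl_unit_at`, `exists_mult_unit_at`, `exists_mul_unit_at` : the statement;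
* `exists_lam_unit_at`   : `K0Plan` form — from one nonzero `K₀`-rational section of
                           `L(D + c₀ E)`, an element `f ∈ Λ'(D)` with `ρ f i ≠ 0`.

Why it works: a `K₀`-rational `g` has Gauss values `(m_∞ v(q), m_0 v(q), m_mid v(ξ - 1))`;
`j − j_{q²}` has values `(0, 0, v(ξ - 1))` exactly, `v(q) = (q - 1) v(ξ - 1)`, and `z_i` is a unit
at the coordinates of type `i` and divisible by the uniformiser at the others.
-/

set_option autoImplicit false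
set_option linter.unusedSectionVars false

noncomputable section

namespace Fermat.Agent.S36.UnitSec

open ModularCurve AlgebraicCurve Fermat.Agent.S24 Fermat.Agent.S18 Fermat.Agent.S18.Content
  Fermat.Agent.S18.Plan Fermat.Agent.S34 Fermat.Agent.S28 Fermat.Agent.Lib

/-! ## Units for the content valuation -/

section Units

variable (A : ValuationSubring Kbar)

/-- A unit for the content valuation: an element of `Ocal A` with nonzero reduction. -/
def IsU (y : Om) : Prop := ∃ h : y ∈ Ocal A, red A ⟨y, h⟩ ≠ 0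

variable {A}

theorem IsU.mem {y : Om} (h : IsU A y) : y ∈ Ocal A := h.1

theorem IsU.mul {y y' : Om} (h : IsU A y) (h' : IsU A y') : IsU A (y * y') := by
  obtain ⟨h1, h2⟩ := h
  obtain ⟨h1', h2'⟩ := h'
  refine ⟨(Ocal A).mul_mem h1 h1', ?_⟩
  have e : (⟨y * y', (Ocal A).mul_mem h1 h1'⟩ : Ocal A) = ⟨y, h1⟩ * ⟨y', h1'⟩ := rfl
  rw [e, map_mul]
  exact mul_ne_zero h2 h2'

theorem isU_one : IsU A 1 := by
  refine ⟨(Ocal A).one_mem, ?_⟩
  have e : (⟨1, (Ocal A).one_mem⟩ : Ocal A) = 1 := rfl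
  rw [e, map_one]
  exact one_ne_zero

theorem IsU.pow {y : Om} (h : IsU A y) (n : ℕ) : IsU A (y ^ n) := by
  induction n with
  | zero => rw [pow_zero]; exact isU_one
  | succ n ih => rw [pow_succ]; exact ih.mul h

theorem IsU.neg {y : Om} (h : IsU A y) : IsU A (-y) := by
  obtain ⟨h1, h2⟩ := h
  refine ⟨(Ocal A).neg_mem h1, ?_⟩
  have e : (⟨-y, (Ocal A).neg_mem h1⟩ : Ocal A) = -⟨y, h1⟩ := rfl
  rw [e, map_neg]
  exact neg_ne_zero.mpr h2

theorem IsU.congr {y y' : Om} (h : IsU A y) (e : y = y') : IsU A y' := e ▸ h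

/-- A constant of valuation one is a unit. -/
theorem isU_C {c : Kbar} (hc : A.valuation c = 1) : IsU A (HahnSeries.C c) := by
  have hcA : c ∈ A := (A.valuation_le_one_iff c).mp hc.le
  refine ⟨C_mem_Ocal A hcA, ?_⟩
  rw [red_C A hcA]
  intro h0
  have h1 : IsLocalRing.residue A ⟨c, hcA⟩ = 0 := HahnSeries.C_injective (by rw [h0, map_zero])
  rw [IsLocalRing.residue_eq_zero_iff, IsLocalRing.mem_maximalIdeal, mem_nonunits_iff] at h1
  exact h1 ((A.valuation_eq_one_iff ⟨c, hcA⟩).mpr hc)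

/-- The inertia group preserves units. -/
theorem IsU.coeffMap {y : Om} (h : IsU A y) {τ : Kbar ≃ₐ[ℚ] Kbar}
    (hτ : τ ∈ A.inertiaSubgroupIn ℚ) : IsU A (coeffMap (τ : Kbar →+* Kbar) y) := by
  obtain ⟨h1, h2⟩ := h
  obtain ⟨s, rfl, hs⟩ := Fermat.Agent.S34.ValInertia.exists_decomp A hτ
  refine ⟨Fermat.Agent.S37.Gal.coeffMap_mem_Ocal A s h1, ?_⟩
  have h3 := Fermat.Agent.S37.Gal.red_coeffMap A s y h1
  rw [hs, coeffMap_id] at h3
  rw [h3]
  exact h2

/-! ### Valuation bookkeeping -/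

/-- `v(qq^a · π^c · π^(-m)) = v(π)^(e a + c - m)` when `v(qq) = v(π)^e`. -/
theorem val_const (π qq : Kbar) (hπ0 : π ≠ 0) (e : ℕ)
    (hqe : A.valuation qq = A.valuation π ^ e) (a : ℤ) (c : ℕ) (m : ℤ) :
    A.valuation (qq ^ a * π ^ c * π ^ (-m)) = A.valuation π ^ ((e : ℤ) * a + c - m) := by
  have hv0 : A.valuation π ≠ 0 := (Valuation.ne_zero_iff _).mpr hπ0
  rw [map_mul, map_mul, map_zpow₀, map_pow, map_zpow₀, hqe, ← zpow_natCast (A.valuation π) e,
    ← zpow_mul, ← zpow_natCast (A.valuation π) c, ← zpow_add₀ hv0, ← zpow_add₀ hv0]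
  congr 1

/-- **Integrality.** If `π^m · y_g` is a unit, `y_X` is integral, `y_z` is divisible by `π`,
`v(qq) = v(π)^e` and `0 ≤ e a + c - m`, then `qq^a · y_X^b · y_z^c · y_g` is integral. -/
theorem mem_Ocal_of_scale (π qq : Kbar) (hπ0 : π ≠ 0) (hπ : A.valuation π ≤ 1) (e : ℕ)
    (hqe : A.valuation qq = A.valuation π ^ e) {yg yX yz : Om} (a : ℤ) (b c : ℕ) (m : ℤ)
    (hg : IsU A (HahnSeries.C (π ^ m) * yg)) (hX : yX ∈ Ocal A)
    (hz : HahnSeries.C (π⁻¹) * yz ∈ Ocal A) (hineq : 0 ≤ (e : ℤ) * a + c - m) :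
    HahnSeries.C (qq ^ a) * yX ^ b * yz ^ c * yg ∈ Ocal A := by
  have e1 : HahnSeries.C (qq ^ a) * yX ^ b * yz ^ c * yg =
      HahnSeries.C (qq ^ a * π ^ c * π ^ (-m)) * yX ^ b * (HahnSeries.C (π⁻¹) * yz) ^ c *
        (HahnSeries.C (π ^ m) * yg) := by
    have h1 : (HahnSeries.C (π ^ c) : Om) * HahnSeries.C (π⁻¹) ^ c = 1 := by
      rw [← map_pow, ← map_mul, ← mul_pow, mul_inv_cancel₀ hπ0, one_pow, map_one]
    have h2 : (HahnSeries.C (π ^ (-m)) : Om) * HahnSeries.C (π ^ m) = 1 := by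
      rw [← map_mul, ← zpow_add₀ hπ0, neg_add_cancel, zpow_zero, map_one]
    rw [map_mul, map_mul, mul_pow]
    calc HahnSeries.C (qq ^ a) * yX ^ b * yz ^ c * yg
        = HahnSeries.C (qq ^ a) * yX ^ b * yz ^ c * yg *
            ((HahnSeries.C (π ^ c) : Om) * HahnSeries.C (π⁻¹) ^ c) *
            ((HahnSeries.C (π ^ (-m)) : Om) * HahnSeries.C (π ^ m)) := by
          rw [h1, h2, mul_one, mul_one]
      _ = _ := by ring
  rw [e1]
  have hc : qq ^ a * π ^ c * π ^ (-m) ∈ A := by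
    rw [← A.valuation_le_one_iff, val_const π qq hπ0 e hqe a c m]
    obtain ⟨k, hk⟩ : ∃ k : ℕ, (e : ℤ) * a + c - m = (k : ℤ) :=
      ⟨((e : ℤ) * a + c - m).toNat, (Int.toNat_of_nonneg hineq).symm⟩
    rw [hk, zpow_natCast]
    exact pow_le_one₀ zero_le hπ
  exact (Ocal A).mul_mem ((Ocal A).mul_mem ((Ocal A).mul_mem (C_mem_Ocal A hc)
    ((Ocal A).pow_mem hX b)) ((Ocal A).pow_mem hz c)) hg.mem

/-- **Units.** If `π^m · y_g` and `π^(-d) · y_X` and `y_z` are units, `v(qq) = v(π)^e` and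
`e a + d b - m = 0`, then `qq^a · y_X^b · y_z^c · y_g` is a unit. -/
theorem isU_of_scale (π qq : Kbar) (hπ0 : π ≠ 0) (e : ℕ)
    (hqe : A.valuation qq = A.valuation π ^ e) {yg yX yz : Om} (a : ℤ) (b c : ℕ) (m : ℤ) (d : ℕ)
    (hg : IsU A (HahnSeries.C (π ^ m) * yg)) (hX : IsU A (HahnSeries.C ((π ^ d)⁻¹) * yX))
    (hz : IsU A yz) (heq : (e : ℤ) * a + ((d * b : ℕ) : ℤ) - m = 0) :
    IsU A (HahnSeries.C (qq ^ a) * yX ^ b * yz ^ c * yg) := by
  have e1 : HahnSeries.C (qq ^ a) * yX ^ b * yz ^ c * yg =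
      HahnSeries.C (qq ^ a * π ^ (d * b) * π ^ (-m)) * (HahnSeries.C ((π ^ d)⁻¹) * yX) ^ b *
        yz ^ c * (HahnSeries.C (π ^ m) * yg) := by
    have h1 : (HahnSeries.C (π ^ (d * b)) : Om) * HahnSeries.C ((π ^ d)⁻¹) ^ b = 1 := by
      rw [← map_pow, ← map_mul, pow_mul, ← mul_pow, mul_inv_cancel₀ (pow_ne_zero d hπ0), one_pow,
        map_one]
    have h2 : (HahnSeries.C (π ^ (-m)) : Om) * HahnSeries.C (π ^ m) = 1 := by
      rw [← map_mul, ← zpow_add₀ hπ0, neg_add_cancel, zpow_zero, map_one]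
    rw [map_mul, map_mul, mul_pow]
    calc HahnSeries.C (qq ^ a) * yX ^ b * yz ^ c * yg
        = HahnSeries.C (qq ^ a) * yX ^ b * yz ^ c * yg *
            ((HahnSeries.C (π ^ (d * b)) : Om) * HahnSeries.C ((π ^ d)⁻¹) ^ b) *
            ((HahnSeries.C (π ^ (-m)) : Om) * HahnSeries.C (π ^ m)) := by
          rw [h1, h2, mul_one, mul_one]
      _ = _ := by ring
  rw [e1]
  have hc : A.valuation (qq ^ a * π ^ (d * b) * π ^ (-m)) = 1 := by
    rw [val_const π qq hπ0 e hqe a (d * b) m, heq, zpow_zero]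
  exact (((isU_C hc).mul (hX.pow b)).mul (hz.pow c)).mul hg

end Units

/-! ## The frame: discreteness at the `q + 1` coordinates -/

section Frame

variable {M q : ℕ} [NeZero M] [NeZero q] {h : Nat.Coprime M q}
variable {A : ValuationSubring Kbar} {F : Plan.Frame M q h} {O : Subring Om}
  {ρ : O →+* Plan.Rq A q}

/-- The uniformiser `ξ - 1` at the middle coordinate `ξ`. -/
def piMid (ξ : Plan.MidIdx q) : Kbar := ((ξ.1 : Kbarˣ) : Kbar) - 1

theorem piMid_ne_zero (hq : q.Prime) (ξ : Plan.MidIdx q) : piMid ξ ≠ 0 :=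
  InertiaFieldZeta.zeta_sub_one_ne_zero q hq _ (IsPrimitiveRoot.coe_units_iff.2 ξ.2)

theorem val_piMid_lt (hq : q.Prime) (hA : A.LiesOverPrime q) (ξ : Plan.MidIdx q) :
    A.valuation (piMid ξ) < 1 :=
  InertiaFieldZeta.val_zeta_sub_one_lt_one A q hq hA _ (IsPrimitiveRoot.coe_units_iff.2 ξ.2)

theorem val_q_eq_mid (hq : q.Prime) (ξ : Plan.MidIdx q) :
    A.valuation (q : Kbar) = A.valuation (piMid ξ) ^ (q - 1) :=
  (InertiaFieldZeta.val_zeta_sub_one_pow A q hq _ (IsPrimitiveRoot.coe_units_iff.2 ξ.2)).symm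

theorem q_ne_zero' (hq : q.Prime) : (q : Kbar) ≠ 0 := Nat.cast_ne_zero.mpr hq.ne_zero

theorem val_q_lt (hA : A.LiesOverPrime q) : A.valuation (q : Kbar) < 1 := by
  have hA' : ((q : ℕ) : Kbar) ∈ A.nonunits := hA
  rwa [ValuationSubring.mem_nonunits_iff] at hA'

theorem val_q_eq_self : A.valuation (q : Kbar) = A.valuation (q : Kbar) ^ 1 := (pow_one _).symm

/-- Fixedness in the `arithmeticRingAut` spelling. -/
theorem ringAut_of_fixed {x : FN (M * q * q)} (hfix : K0Plan.Fixed A (x : Om))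
    (τ : Kbar ≃ₐ[ℚ] Kbar) (hτ : τ ∈ A.inertiaSubgroupIn ℚ) :
    arithmeticRingAut (modularFunctionFieldFull (M * q * q)) τ x = x :=
  Subtype.ext (hfix τ hτ)

/-- A fixed integral series with zero reduction in a modular function field is divisible
by `q`. -/
theorem C_inv_q_mul_mem (hq : q.Prime) (hA : A.LiesOverPrime q) (N : ℕ) [NeZero N] {y : Om}
    (hy : y ∈ modularFunctionFieldBar N) (hfix : K0Plan.Fixed A y) (hO : y ∈ Ocal A)
    (h0 : red A ⟨y, hO⟩ = 0) : HahnSeries.C ((q : Kbar)⁻¹) * y ∈ Ocal A := by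
  by_cases hy0 : y = 0
  · rw [hy0, mul_zero]; exact (Ocal A).zero_mem
  obtain ⟨m, hm, hred⟩ := K0Red.qScale_of_fixed hq hA N y hy hy0 (fun τ hτ => hfix τ hτ)
  have hq0 : (q : Kbar) ≠ 0 := q_ne_zero' hq
  -- `q^(-m) ∈ A` since `y = q^(-m) · unit` is integral
  have e1 : y = HahnSeries.C ((q : Kbar) ^ (-m)) * (HahnSeries.C ((q : Kbar) ^ m) * y) := by
    rw [← mul_assoc, ← map_mul, ← zpow_add₀ hq0, neg_add_cancel, zpow_zero, map_one, one_mul]
  have hmem : (q : Kbar) ^ (-m) ∈ A := by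
    have h2 : HahnSeries.C ((q : Kbar) ^ (-m)) * ((⟨_, hm⟩ : Ocal A) : Om) ∈ Ocal A := by
      rw [← e1]; exact hO
    exact (C_mul_mem_Ocal_iff A _ ⟨_, hm⟩ hred).mp h2
  have hvq : A.valuation (q : Kbar) < 1 := val_q_lt hA
  have hv0 : A.valuation (q : Kbar) ≠ 0 := (Valuation.ne_zero_iff _).mpr hq0
  -- `m < 0`
  have hm0 : m < 0 := by
    by_contra hcon
    rw [not_lt] at hcon
    rcases hcon.eq_or_lt with hz | hpos
    · -- `m = 0`: `y` itself has nonzero reduction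
      apply hred
      rw [← h0]
      refine red_congr A ?_ _ _
      rw [← hz, zpow_zero, map_one, one_mul]
    · obtain ⟨j, hj⟩ : ∃ j : ℕ, m = (j : ℤ) + 1 := ⟨(m - 1).toNat, by omega⟩
      have h3 : A.valuation ((q : Kbar) ^ (-m)) ≤ 1 := (A.valuation_le_one_iff _).mpr hmem
      rw [hj, zpow_neg, ← Nat.cast_succ, zpow_natCast, map_inv₀, map_pow] at h3
      have h4 : A.valuation (q : Kbar) ^ (j + 1) < 1 := pow_lt_one₀ zero_le hvq (Nat.succ_ne_zero j)
      have h5 : A.valuation (q : Kbar) ^ (j + 1) ≠ 0 := pow_ne_zero _ hv0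
      have h6 : (1 : A.ValueGroup) < (A.valuation (q : Kbar) ^ (j + 1))⁻¹ :=
        (one_lt_inv₀ (lt_of_le_of_ne zero_le h5.symm)).mpr h4
      exact absurd h3 (not_le.mpr h6)
  obtain ⟨k, hk⟩ : ∃ k : ℕ, -m = (k : ℤ) + 1 := ⟨(-m - 1).toNat, by omega⟩
  have e2 : HahnSeries.C ((q : Kbar)⁻¹) * y =
      HahnSeries.C ((q : Kbar) ^ k) * (HahnSeries.C ((q : Kbar) ^ m) * y) := by
    rw [← mul_assoc, ← map_mul]
    congr 2
    have h7 : (q : Kbar) ^ (-m) = (q : Kbar) ^ k * (q : Kbar) := by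
      rw [hk, zpow_add₀ hq0, zpow_natCast, zpow_one]
    have h8 : (q : Kbar) ^ m = ((q : Kbar) ^ k * (q : Kbar))⁻¹ := by
      rw [← h7, zpow_neg, inv_inv]
    rw [h8]
    field_simp
  rw [e2]
  have hqA : (q : Kbar) ∈ A := (A.valuation_le_one_iff _).mp hvq.le
  exact (Ocal A).mul_mem (C_mem_Ocal A (A.pow_mem hqA k)) hm

/-- A fixed element stays fixed under the Atkin–Lehner involution of the frame. -/
theorem fixed_w (hq : q.Prime) (F : Plan.Frame M q h) {x : FN (M * q * q)}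
    (hfix : K0Plan.Fixed A (x : Om)) : K0Plan.Fixed A ((F.w x : FN (M * q * q)) : Om) := by
  intro τ hτ
  have h1 := EmbFrame.coeffMap_emb hq F τ Plan.Coord.zero x
  rw [EmbFrame.galCoord_zero] at h1
  have h2 : arithmeticGalois (modularFunctionFieldFull (M * q * q)) τ • x = x :=
    Subtype.ext (hfix τ hτ)
  rw [h2] at h1
  exact h1

/-- Inertia transports units between the middle coordinates. -/
theorem isU_mid_transport (hq : q.Prime) (hA : A.LiesOverPrime q) (F : Plan.Frame M q h)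
    (x : FN (M * q * q)) (hfix : K0Plan.Fixed A (x : Om)) (ξ ξ' : Plan.MidIdx q) (m : ℤ)
    (hU : IsU A (HahnSeries.C (piMid ξ ^ m) * F.r ξ x)) :
    IsU A (HahnSeries.C (piMid ξ' ^ m) * F.r ξ' x) := by
  obtain ⟨τ, hτ, hτξ⟩ := MidEq.exists_inertia_map_primitiveRoot A q hq hA
    ((ξ.1 : Kbarˣ) : Kbar) ((ξ'.1 : Kbarˣ) : Kbar)
    (IsPrimitiveRoot.coe_units_iff.2 ξ.2) (IsPrimitiveRoot.coe_units_iff.2 ξ'.2)
  have h1 := hU.coeffMap hτ
  have hgal : FrameInst.galMid τ ξ = ξ' := Subtype.ext (Units.ext hτξ)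
  have h2 : coeffMap (τ : Kbar →+* Kbar) (F.r ξ x) = F.r ξ' x := by
    rw [FrameInst.r_galois hq F τ ξ x, hgal, ringAut_of_fixed hfix τ hτ]
  have h3 : coeffMap (τ : Kbar →+* Kbar) (HahnSeries.C (piMid ξ ^ m)) =
      HahnSeries.C (piMid ξ' ^ m) := by
    have h4 : τ (piMid ξ) = piMid ξ' := by
      unfold piMid
      rw [map_sub, map_one, hτξ]
    rw [HahnSeries.C_apply, coeffMap_single, HahnSeries.C_apply]
    show HahnSeries.single 0 (τ (piMid ξ ^ m)) = _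
    rw [map_zpow₀, h4]
  rw [map_mul, h2, h3] at h1
  exact h1

/-- **`K₀`-discreteness at the `q + 1` coordinates**, uniformly in the middle ones. -/
theorem exists_scale (hq : q.Prime) (hA : A.LiesOverPrime q) (F : Plan.Frame M q h)
    (x : FN (M * q * q)) (hx0 : x ≠ 0) (hfix : K0Plan.Fixed A (x : Om)) :
    ∃ mI m0 mM : ℤ, IsU A (HahnSeries.C ((q : Kbar) ^ mI) * F.emb .inf x) ∧
      IsU A (HahnSeries.C ((q : Kbar) ^ m0) * F.emb .zero x) ∧
      ∀ ξ : Plan.MidIdx q, IsU A (HahnSeries.C (piMid ξ ^ mM) * F.emb (.mid ξ) x) := by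
  have hx0' : (x : Om) ≠ 0 := fun h0 => hx0 (Subtype.ext h0)
  obtain ⟨mI, hI⟩ := K0Red.qScale_of_fixed hq hA (M * q * q) (x : Om) x.2 hx0'
    (fun τ hτ => hfix τ hτ)
  have hw0 : ((F.w x : FN (M * q * q)) : Om) ≠ 0 := fun h0 =>
    hx0 ((EmbeddingLike.map_eq_zero_iff (f := F.w)).mp (Subtype.ext h0))
  obtain ⟨m0, h0⟩ := K0Red.qScale_of_fixed hq hA (M * q * q) _ (F.w x).2 hw0
    (fun τ hτ => fixed_w hq F hfix τ hτ)
  obtain ⟨ξ₀⟩ := CoordFin.midIdx_nonempty (q := q) hq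
  obtain ⟨mM, hM⟩ := K0Gauss.scale_mid_of_fixed A hq hA ξ₀.1 ξ₀.2 (F.r ξ₀).toRingHom
    (FrameInst.isMid F ξ₀) x hx0 (ringAut_of_fixed hfix)
  exact ⟨mI, m0, mM, hI, h0, fun ξ => isU_mid_transport hq hA F x hfix ξ₀ ξ mM hM⟩

/-! ### From `ρ` to the expansions -/

theorem isU_emb_of_rho_ne (hS : Plan.IsSetup A F O ρ) (x : FN (M * q * q)) (hx : (x : Om) ∈ O)
    (j : Plan.Coord q) (hne : ρ ⟨_, hx⟩ j ≠ 0) : IsU A (F.emb j x) := by
  have hj : F.emb j x ∈ Ocal A := (hS.mem_iff x).1 hx j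
  refine ⟨hj, ?_⟩
  rw [← hS.ρ_apply x hx j hj]
  exact hne

theorem red_emb_of_rho_eq (hS : Plan.IsSetup A F O ρ) (x : FN (M * q * q)) (hx : (x : Om) ∈ O)
    (j : Plan.Coord q) (h0 : ρ ⟨_, hx⟩ j = 0) :
    ∃ hj : F.emb j x ∈ Ocal A, red A ⟨_, hj⟩ = 0 := by
  have hj : F.emb j x ∈ Ocal A := (hS.mem_iff x).1 hx j
  exact ⟨hj, by rw [← hS.ρ_apply x hx j hj]; exact h0⟩

/-- Zero reduction at `∞` ⟹ divisible by `q` there. -/
theorem div_inf (hq : q.Prime) (hA : A.LiesOverPrime q) (hS : Plan.IsSetup A F O ρ)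
    (x : FN (M * q * q)) (hfix : K0Plan.Fixed A (x : Om)) (hx : (x : Om) ∈ O)
    (h0 : ρ ⟨_, hx⟩ .inf = 0) : HahnSeries.C ((q : Kbar)⁻¹) * F.emb .inf x ∈ Ocal A := by
  obtain ⟨hj, hr⟩ := red_emb_of_rho_eq hS x hx .inf h0
  exact C_inv_q_mul_mem hq hA (M * q * q) x.2 hfix hj hr

/-- Zero reduction at `0` ⟹ divisible by `q` there. -/
theorem div_zero (hq : q.Prime) (hA : A.LiesOverPrime q) (hS : Plan.IsSetup A F O ρ)
    (x : FN (M * q * q)) (hfix : K0Plan.Fixed A (x : Om)) (hx : (x : Om) ∈ O)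
    (h0 : ρ ⟨_, hx⟩ .zero = 0) : HahnSeries.C ((q : Kbar)⁻¹) * F.emb .zero x ∈ Ocal A := by
  obtain ⟨hj, hr⟩ := red_emb_of_rho_eq hS x hx .zero h0
  exact C_inv_q_mul_mem hq hA (M * q * q) (F.w x).2 (fixed_w hq F hfix) hj hr

/-- Zero reduction at a middle coordinate ⟹ divisible by `ξ - 1` there. -/
theorem div_mid (hq : q.Prime) (hA : A.LiesOverPrime q) (hS : Plan.IsSetup A F O ρ)
    (x : FN (M * q * q)) (hfix : K0Plan.Fixed A (x : Om)) (hx : (x : Om) ∈ O)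
    (ξ : Plan.MidIdx q) (h0 : ρ ⟨_, hx⟩ (.mid ξ) = 0) :
    HahnSeries.C ((piMid ξ)⁻¹) * F.emb (.mid ξ) x ∈ Ocal A := by
  obtain ⟨hj, hr⟩ := red_emb_of_rho_eq hS x hx (.mid ξ) h0
  exact K0Gauss.div_mid_mem_Ocal A hq hA ξ.1 ξ.2 (F.r ξ).toRingHom (FrameInst.isMid F ξ) x
    (ringAut_of_fixed hfix) hj hr

/-! ### The element `X = j − j_{q²}` -/

/-- `X = j − j_{q²}`: Gauss values `(0, 0, v(ξ - 1))`. -/
def xX (M q : ℕ) [NeZero M] [NeZero q] : FN (M * q * q) := jBar (M * q * q) - Emb.jQQ M q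

theorem emb_xX_mem (hq : q.Prime) (hA : A.LiesOverPrime q) (F : Plan.Frame M q h)
    (j : Plan.Coord q) : F.emb j (xX M q) ∈ Ocal A := by
  unfold xX
  rw [map_sub]
  exact (Ocal A).sub_mem (OneComp.emb_J0_mem hq A F j) (OneComp.emb_J2_mem hq hA F j)

/-- At a middle coordinate, `X / (ξ - 1)` is a unit (its reduction is `-θ j̄`). -/
theorem isU_mid_xX (hq : q.Prime) (hA : A.LiesOverPrime q) (F : Plan.Frame M q h)
    (ξ : Plan.MidIdx q) :
    IsU A (HahnSeries.C ((piMid ξ ^ 1)⁻¹) * F.emb (.mid ξ) (xX M q)) := by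
  have : Fact q.Prime := ⟨hq⟩
  have hκ : CharP (kk A) q := charP_residueField_of_liesOverPrime A q hA
  obtain ⟨w, hw, hred⟩ := MidRed.exists_scale_sub_xi A q hκ ξ.1 ξ.2.pow_eq_one
    ⟨jK, Main.jK_mem_Ocal A⟩
  have e : HahnSeries.C ((piMid ξ ^ 1)⁻¹) * F.emb (.mid ξ) (xX M q) = -(w : Om) := by
    unfold xX
    rw [map_sub, EmbFrame.emb_mid_jBar, EmbFrame.emb_mid_jQQ, pow_one]
    have h1 : jK - scale ξ.1 jK = -(HahnSeries.C (piMid ξ) * (w : Om)) := by
      have h2 : HahnSeries.C (piMid ξ) * (w : Om) = scale ξ.1 jK - jK := hw.symm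
      rw [h2]; ring
    rw [h1, mul_neg, ← mul_assoc, ← map_mul, inv_mul_cancel₀ (piMid_ne_zero hq ξ), map_one,
      one_mul]
  refine IsU.congr (IsU.neg ⟨w.2, ?_⟩) e.symm
  rw [Subtype.coe_eta, hred, Main.red_jK]
  exact theta_jqModC_ne_zero (kk A)

end Frame

/-! ## The multiplier -/

section Mult

/-- The one-component element attached to a coordinate, at a level `N` with `q² ∣ N`. -/
def zEl (N q : ℕ) [NeZero N] [NeZero q] (hqq : q * q ∣ N) : Plan.Coord q → FN N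
  | .inf => OneComp.zInf N q hqq
  | .zero => OneComp.zZero N q hqq
  | .mid _ => OneComp.zMid N q hqq

/-- The series of `zEl`: `(j − J^(q²))(j − J)`, `(J − j^(q²))(j − J)`, `(J − j^(q²))(j − J^(q²))`
with `J = j(T^(q²))`. -/
def zSer (q : ℕ) [NeZero q] : Plan.Coord q → Om
  | .inf => (jK - qExpand Kbar (q * q) jK ^ (q * q)) * (jK - qExpand Kbar (q * q) jK)
  | .zero => (qExpand Kbar (q * q) jK - jK ^ (q * q)) * (jK - qExpand Kbar (q * q) jK)
  | .mid _ =>
    (qExpand Kbar (q * q) jK - jK ^ (q * q)) * (jK - qExpand Kbar (q * q) jK ^ (q * q))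

/-- **The multiplier** `q^a · (j − j_{q²})^b · z_i^c`, as a series. -/
def mult (q : ℕ) [NeZero q] (i : Plan.Coord q) (a : ℤ) (b c : ℕ) : Om :=
  HahnSeries.C ((q : Kbar) ^ a) * (jK - qExpand Kbar (q * q) jK) ^ b * zSer q i ^ c

/-- The multiplier as an element of `F_N` (`q² ∣ N`). -/
def multEl (N q : ℕ) [NeZero N] [NeZero q] (hqq : q * q ∣ N) (i : Plan.Coord q) (a : ℤ)
    (b c : ℕ) : FN N :=
  algebraMap Kbar (FN N) ((q : Kbar) ^ a) * (jBar N - jBarLevel N (q * q) hqq) ^ b *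
    zEl N q hqq i ^ c

variable (N q : ℕ) [NeZero N] [NeZero q] (hqq : q * q ∣ N)

theorem coe_zEl (i : Plan.Coord q) : ((zEl N q hqq i : FN N) : Om) = zSer q i := by
  cases i with
  | inf => exact OneComp.coe_zInf N q hqq
  | zero => exact OneComp.coe_zZero N q hqq
  | mid ξ => exact OneComp.coe_zMid N q hqq

theorem coe_multEl (i : Plan.Coord q) (a : ℤ) (b c : ℕ) :
    ((multEl N q hqq i a b c : FN N) : Om) = mult q i a b c := by
  have e : ((multEl N q hqq i a b c : FN N) : Om) =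
      ((algebraMap Kbar (FN N) ((q : Kbar) ^ a) : FN N) : Om) *
        (((jBar N : FN N) : Om) - ((jBarLevel N (q * q) hqq : FN N) : Om)) ^ b *
        ((zEl N q hqq i : FN N) : Om) ^ c := rfl
  rw [e, SetupQ2.coe_algebraMap_FN, OneComp.coe_jBar', OneComp.coe_jBarLevel_qq, coe_zEl]
  rfl

include hqq in
/-- The multiplier lies in `F_N` for every `N` with `q² ∣ N`. -/
theorem mult_mem_field (i : Plan.Coord q) (a : ℤ) (b c : ℕ) :
    mult q i a b c ∈ modularFunctionFieldBar N := by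
  rw [← coe_multEl N q hqq i a b c]
  exact (multEl N q hqq i a b c).2

theorem gal_smul_zEl (τ : Kbar ≃ₐ[ℚ] Kbar) (i : Plan.Coord q) :
    S34.Plan.gal N τ • zEl N q hqq i = zEl N q hqq i := by
  cases i with
  | inf => exact OneComp.gal_smul_zInf N q hqq τ
  | zero => exact OneComp.gal_smul_zZero N q hqq τ
  | mid ξ => exact OneComp.gal_smul_zMid N q hqq τ

/-- The multiplier is fixed by `Gal(Q̄/ℚ)`. -/
theorem coeffMap_mult (q : ℕ) [NeZero q] (τ : Kbar ≃ₐ[ℚ] Kbar) (i : Plan.Coord q) (a : ℤ)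
    (b c : ℕ) : coeffMap (τ : Kbar →+* Kbar) (mult q i a b c) = mult q i a b c := by
  have hN : NeZero (q * q) := ⟨Nat.mul_ne_zero (NeZero.ne q) (NeZero.ne q)⟩
  have hqq : q * q ∣ q * q := dvd_rfl
  have hj : coeffMap (τ : Kbar →+* Kbar) jK = jK := by
    have h1 : coeffMap (τ : Kbar →+* Kbar) ((jBar (q * q) : FN (q * q)) : Om) =
        ((jBar (q * q) : FN (q * q)) : Om) :=
      congrArg Subtype.val (Sigma.galois_smul_jBar (q * q) τ)
    rwa [OneComp.coe_jBar'] at h1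
  have hJ : coeffMap (τ : Kbar →+* Kbar) (qExpand Kbar (q * q) jK) = qExpand Kbar (q * q) jK := by
    have h1 : coeffMap (τ : Kbar →+* Kbar) ((jBarLevel (q * q) (q * q) hqq : FN (q * q)) : Om) =
        ((jBarLevel (q * q) (q * q) hqq : FN (q * q)) : Om) :=
      congrArg Subtype.val (OneComp.gal_smul_jBarLevel (q * q) q hqq τ)
    rwa [OneComp.coe_jBarLevel_qq] at h1
  have hz : coeffMap (τ : Kbar →+* Kbar) (zSer q i) = zSer q i := by
    have h1 : coeffMap (τ : Kbar →+* Kbar) ((zEl (q * q) q hqq i : FN (q * q)) : Om) =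
        ((zEl (q * q) q hqq i : FN (q * q)) : Om) :=
      congrArg Subtype.val (gal_smul_zEl (q * q) q hqq τ i)
    rwa [coe_zEl] at h1
  have hC : coeffMap (τ : Kbar →+* Kbar) (HahnSeries.C ((q : Kbar) ^ a)) =
      HahnSeries.C ((q : Kbar) ^ a) := by
    rw [HahnSeries.C_apply, coeffMap_single]
    show HahnSeries.single 0 (τ ((q : Kbar) ^ a)) = _
    rw [map_zpow₀, map_natCast]
  unfold mult
  rw [map_mul, map_mul, map_pow, map_pow, map_sub, hC, hj, hJ, hz]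

/-- The multiplier is `K₀`-rational. -/
theorem fixed_mult (A : ValuationSubring Kbar) (q : ℕ) [NeZero q] (i : Plan.Coord q) (a : ℤ)
    (b c : ℕ) : K0Plan.Fixed A (mult q i a b c) := fun τ _ => coeffMap_mult q τ i a b c

end Mult

/-! ## The statement -/

section Main

variable {M q : ℕ} [NeZero M] [NeZero q] {h : Nat.Coprime M q}
variable {A : ValuationSubring Kbar} {F : Plan.Frame M q h} {O : Subring Om}
  {ρ : O →+* Plan.Rq A q}

theorem emb_multEl_mul (F : Plan.Frame M q h) (j i : Plan.Coord q) (a : ℤ) (b c : ℕ)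
    (x : FN (M * q * q)) :
    F.emb j (multEl (M * q * q) q (Emb.qq_dvd_level M q) i a b c * x) =
      HahnSeries.C ((q : Kbar) ^ a) * F.emb j (xX M q) ^ b *
        F.emb j (zEl (M * q * q) q (Emb.qq_dvd_level M q) i) ^ c * F.emb j x := by
  unfold multEl
  rw [map_mul, map_mul, map_mul, map_pow, map_pow, SetupQ2.emb_algebraMap]
  rfl

theorem zEl_mem (hq : q.Prime) (hA : A.LiesOverPrime q) (hS : Plan.IsSetup A F O ρ)
    (i : Plan.Coord q) :
    ((zEl (M * q * q) q (Emb.qq_dvd_level M q) i : FN (M * q * q)) : Om) ∈ O := by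
  cases i with
  | inf => exact OneComp.zInf_mem (M * q * q) (Emb.qq_dvd_level M q) hq hA hS
  | zero => exact OneComp.zZero_mem (M * q * q) (Emb.qq_dvd_level M q) hq hA hS
  | mid ξ => exact OneComp.zMid_mem (M * q * q) (Emb.qq_dvd_level M q) hq hA hS

theorem fixed_zEl (A : ValuationSubring Kbar) (N q : ℕ) [NeZero N] [NeZero q] (hqq : q * q ∣ N)
    (i : Plan.Coord q) : K0Plan.Fixed A ((zEl N q hqq i : FN N) : Om) :=
  fun τ _ => congrArg Subtype.val (gal_smul_zEl N q hqq τ i)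

/-- The unit lemma with `b = 0`. -/
theorem isU_of_scale_zero (π qq : Kbar) (hπ0 : π ≠ 0) (e : ℕ)
    (hqe : A.valuation qq = A.valuation π ^ e) {yg yX yz : Om} (a : ℤ) (c : ℕ) (m : ℤ)
    (hg : IsU A (HahnSeries.C (π ^ m) * yg)) (hz : IsU A yz) (heq : (e : ℤ) * a - m = 0) :
    IsU A (HahnSeries.C (qq ^ a) * yX ^ 0 * yz ^ c * yg) := by
  have h1 := isU_of_scale π qq hπ0 e hqe (yX := 1) a 0 c m 0 hg
    (by rw [pow_zero, inv_one, map_one, one_mul]; exact isU_one) hz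
    (by rw [Nat.mul_zero, Nat.cast_zero, add_zero]; exact heq)
  rw [pow_zero] at h1 ⊢
  exact h1

/-- **[UNIT-SEC]**, field form: for a nonzero `K₀`-rational `x ∈ F_{Mq²}` and a coordinate `i`
some multiplier `V = q^a (j − j_{q²})^b z_i^c` makes `V x` integral at all `q + 1` coordinates
and a unit at `i`. -/
theorem exists_multEl_unit_at (hq : q.Prime) (hA : A.LiesOverPrime q)
    (hS : Plan.IsSetup A F O ρ) (x : FN (M * q * q)) (hx0 : x ≠ 0)
    (hfix : K0Plan.Fixed A (x : Om)) (i : Plan.Coord q) :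
    ∃ (a : ℤ) (b c : ℕ),
      (∀ j : Plan.Coord q,
        F.emb j (multEl (M * q * q) q (Emb.qq_dvd_level M q) i a b c * x) ∈ Ocal A) ∧
      IsU A (F.emb i (multEl (M * q * q) q (Emb.qq_dvd_level M q) i a b c * x)) := by
  obtain ⟨mI, m0, mM, hI, h0, hMd⟩ := exists_scale hq hA F x hx0 hfix
  have hq0 : (q : Kbar) ≠ 0 := q_ne_zero' hq
  have hvq : A.valuation (q : Kbar) ≤ 1 := (val_q_lt hA).le
  have hX : ∀ j, F.emb j (xX M q) ∈ Ocal A := emb_xX_mem hq hA F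
  have hzO : ∀ i' : Plan.Coord q,
      ((zEl (M * q * q) q (Emb.qq_dvd_level M q) i' : FN (M * q * q)) : Om) ∈ O :=
    zEl_mem hq hA hS
  have hzfix := fixed_zEl A (M * q * q) q (Emb.qq_dvd_level M q)
  cases i with
  | inf =>
    have hu : IsU A (HahnSeries.C ((q : Kbar) ^ mI) * F.emb .inf (xX M q) ^ 0 *
        F.emb .inf (zEl (M * q * q) q (Emb.qq_dvd_level M q) .inf) ^
          ((m0 - mI).toNat + (mM - ((q - 1 : ℕ) : ℤ) * mI).toNat) * F.emb .inf x) :=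
      isU_of_scale_zero (q : Kbar) (q : Kbar) hq0 1 val_q_eq_self mI _ mI hI
        (isU_emb_of_rho_ne hS _ (hzO .inf) .inf
          (OneComp.rho_zInf_inf_ne _ _ hq hA hS)) (by push_cast; ring)
    have b1 : m0 - mI ≤ ((m0 - mI).toNat : ℤ) := Int.self_le_toNat _
    have b2 : mM - ((q - 1 : ℕ) : ℤ) * mI ≤ ((mM - ((q - 1 : ℕ) : ℤ) * mI).toNat : ℤ) :=
      Int.self_le_toNat _
    have n1 : (0 : ℤ) ≤ ((m0 - mI).toNat : ℤ) := Int.natCast_nonneg _
    have n2 : (0 : ℤ) ≤ ((mM - ((q - 1 : ℕ) : ℤ) * mI).toNat : ℤ) := Int.natCast_nonneg _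
    refine ⟨mI, 0, (m0 - mI).toNat + (mM - ((q - 1 : ℕ) : ℤ) * mI).toNat, fun j => ?_, ?_⟩
    · rw [emb_multEl_mul]
      cases j with
      | inf => exact hu.mem
      | zero =>
        exact mem_Ocal_of_scale (q : Kbar) (q : Kbar) hq0 hvq 1 val_q_eq_self mI 0 _ m0 h0
          (hX .zero) (div_zero hq hA hS _ (hzfix .inf) (hzO .inf)
            (OneComp.rho_zInf_zero _ _ hq hA hS)) (by push_cast; linarith)
      | mid ξ =>
        exact mem_Ocal_of_scale (piMid ξ) (q : Kbar) (piMid_ne_zero hq ξ)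
          (val_piMid_lt hq hA ξ).le (q - 1) (val_q_eq_mid hq ξ) mI 0 _ mM (hMd ξ) (hX (.mid ξ))
          (div_mid hq hA hS _ (hzfix .inf) (hzO .inf) ξ
            (OneComp.rho_zInf_mid _ _ hq hA hS ξ)) (by rw [Nat.cast_add]; linarith)
    · rw [emb_multEl_mul]
      exact hu
  | zero =>
    have hu : IsU A (HahnSeries.C ((q : Kbar) ^ m0) * F.emb .zero (xX M q) ^ 0 *
        F.emb .zero (zEl (M * q * q) q (Emb.qq_dvd_level M q) .zero) ^
          ((mI - m0).toNat + (mM - ((q - 1 : ℕ) : ℤ) * m0).toNat) * F.emb .zero x) :=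
      isU_of_scale_zero (q : Kbar) (q : Kbar) hq0 1 val_q_eq_self m0 _ m0 h0
        (isU_emb_of_rho_ne hS _ (hzO .zero) .zero
          (OneComp.rho_zZero_zero_ne _ _ hq hA hS)) (by push_cast; ring)
    have b1 : mI - m0 ≤ ((mI - m0).toNat : ℤ) := Int.self_le_toNat _
    have b2 : mM - ((q - 1 : ℕ) : ℤ) * m0 ≤ ((mM - ((q - 1 : ℕ) : ℤ) * m0).toNat : ℤ) :=
      Int.self_le_toNat _
    have n1 : (0 : ℤ) ≤ ((mI - m0).toNat : ℤ) := Int.natCast_nonneg _
    have n2 : (0 : ℤ) ≤ ((mM - ((q - 1 : ℕ) : ℤ) * m0).toNat : ℤ) := Int.natCast_nonneg _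
    refine ⟨m0, 0, (mI - m0).toNat + (mM - ((q - 1 : ℕ) : ℤ) * m0).toNat, fun j => ?_, ?_⟩
    · rw [emb_multEl_mul]
      cases j with
      | inf =>
        exact mem_Ocal_of_scale (q : Kbar) (q : Kbar) hq0 hvq 1 val_q_eq_self m0 0 _ mI hI
          (hX .inf) (div_inf hq hA hS _ (hzfix .zero) (hzO .zero)
            (OneComp.rho_zZero_inf _ _ hq hA hS)) (by push_cast; linarith)
      | zero => exact hu.mem
      | mid ξ =>
        exact mem_Ocal_of_scale (piMid ξ) (q : Kbar) (piMid_ne_zero hq ξ)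
          (val_piMid_lt hq hA ξ).le (q - 1) (val_q_eq_mid hq ξ) m0 0 _ mM (hMd ξ) (hX (.mid ξ))
          (div_mid hq hA hS _ (hzfix .zero) (hzO .zero) ξ
            (OneComp.rho_zZero_mid _ _ hq hA hS ξ)) (by rw [Nat.cast_add]; linarith)
    · rw [emb_multEl_mul]
      exact hu
  | mid ξ₁ =>
    have hdpos : (0 : ℤ) < ((q - 1 : ℕ) : ℤ) := by
      have h2 := hq.two_le
      exact_mod_cast (by omega : 0 < q - 1)
    have hb : ((mM % ((q - 1 : ℕ) : ℤ)).toNat : ℤ) = mM % ((q - 1 : ℕ) : ℤ) :=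
      Int.toNat_of_nonneg (Int.emod_nonneg _ hdpos.ne')
    have hdiv : ((q - 1 : ℕ) : ℤ) * (mM / ((q - 1 : ℕ) : ℤ)) + mM % ((q - 1 : ℕ) : ℤ) = mM :=
      Int.mul_ediv_add_emod mM _
    have b1 : mI - mM / ((q - 1 : ℕ) : ℤ) ≤ ((mI - mM / ((q - 1 : ℕ) : ℤ)).toNat : ℤ) :=
      Int.self_le_toNat _
    have b2 : m0 - mM / ((q - 1 : ℕ) : ℤ) ≤ ((m0 - mM / ((q - 1 : ℕ) : ℤ)).toNat : ℤ) :=
      Int.self_le_toNat _
    have n1 : (0 : ℤ) ≤ ((mI - mM / ((q - 1 : ℕ) : ℤ)).toNat : ℤ) := Int.natCast_nonneg _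
    have n2 : (0 : ℤ) ≤ ((m0 - mM / ((q - 1 : ℕ) : ℤ)).toNat : ℤ) := Int.natCast_nonneg _
    have hu : ∀ ξ : Plan.MidIdx q,
        IsU A (HahnSeries.C ((q : Kbar) ^ (mM / ((q - 1 : ℕ) : ℤ))) *
          F.emb (.mid ξ) (xX M q) ^ (mM % ((q - 1 : ℕ) : ℤ)).toNat *
          F.emb (.mid ξ) (zEl (M * q * q) q (Emb.qq_dvd_level M q) (.mid ξ₁)) ^
            ((mI - mM / ((q - 1 : ℕ) : ℤ)).toNat + (m0 - mM / ((q - 1 : ℕ) : ℤ)).toNat) *
          F.emb (.mid ξ) x) := fun ξ =>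
      isU_of_scale (piMid ξ) (q : Kbar) (piMid_ne_zero hq ξ) (q - 1) (val_q_eq_mid hq ξ)
        _ _ _ mM 1 (hMd ξ) (isU_mid_xX hq hA F ξ)
        (isU_emb_of_rho_ne hS _ (hzO (.mid ξ₁)) (.mid ξ)
          (OneComp.rho_zMid_mid_ne _ _ hq hA hS ξ))
        (by rw [Nat.one_mul, hb]; linarith)
    refine ⟨mM / ((q - 1 : ℕ) : ℤ), (mM % ((q - 1 : ℕ) : ℤ)).toNat,
      (mI - mM / ((q - 1 : ℕ) : ℤ)).toNat + (m0 - mM / ((q - 1 : ℕ) : ℤ)).toNat,
      fun j => ?_, ?_⟩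
    · rw [emb_multEl_mul]
      cases j with
      | inf =>
        exact mem_Ocal_of_scale (q : Kbar) (q : Kbar) hq0 hvq 1 val_q_eq_self _ _ _ mI hI
          (hX .inf) (div_inf hq hA hS _ (hzfix (.mid ξ₁)) (hzO (.mid ξ₁))
            (OneComp.rho_zMid_inf _ _ hq hA hS)) (by push_cast; linarith)
      | zero =>
        exact mem_Ocal_of_scale (q : Kbar) (q : Kbar) hq0 hvq 1 val_q_eq_self _ _ _ m0 h0
          (hX .zero) (div_zero hq hA hS _ (hzfix (.mid ξ₁)) (hzO (.mid ξ₁))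
            (OneComp.rho_zMid_zero _ _ hq hA hS)) (by push_cast; linarith)
      | mid ξ => exact (hu ξ).mem
    · rw [emb_multEl_mul]
      exact hu ξ₁

/-- **[UNIT-SEC]**: for a nonzero `K₀`-rational `g ∈ F_{Mq²}` and a coordinate `i` there is a
multiplier `mult q i a b c = q^a (j − j_{q²})^b z_i^c` with `mult · g ∈ O` and
`ρ (mult · g) i ≠ 0`. -/
theorem exists_mult_unit_at (hq : q.Prime) (hA : A.LiesOverPrime q) (F : Plan.Frame M q h)
    (hS : Plan.IsSetup A F O ρ) (g : Om) (hg : g ∈ modularFunctionFieldBar (M * q * q))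
    (hg0 : g ≠ 0) (hfix : K0Plan.Fixed A g) (i : Plan.Coord q) :
    ∃ (a : ℤ) (b c : ℕ) (hm : mult q i a b c * g ∈ O), ρ ⟨_, hm⟩ i ≠ 0 := by
  obtain ⟨a, b, c, hall, hunit⟩ := exists_multEl_unit_at hq hA hS (⟨g, hg⟩ : FN (M * q * q))
    (fun h0 => hg0 (congrArg Subtype.val h0)) hfix i
  have e : ((multEl (M * q * q) q (Emb.qq_dvd_level M q) i a b c * (⟨g, hg⟩ : FN (M * q * q)) :
      FN (M * q * q)) : Om) = mult q i a b c * g := by
    rw [← coe_multEl (M * q * q) q (Emb.qq_dvd_level M q) i a b c]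
    rfl
  have hm' : ((multEl (M * q * q) q (Emb.qq_dvd_level M q) i a b c *
      (⟨g, hg⟩ : FN (M * q * q)) : FN (M * q * q)) : Om) ∈ O := (hS.mem_iff _).2 hall
  have hm : mult q i a b c * g ∈ O := e ▸ hm'
  refine ⟨a, b, c, hm, ?_⟩
  have e2 : (⟨mult q i a b c * g, hm⟩ : O) = ⟨_, hm'⟩ := Subtype.ext e.symm
  rw [e2, hS.ρ_apply _ hm' i (hall i)]
  obtain ⟨_, h2⟩ := hunit
  exact h2

/-- **[UNIT-SEC]**, ring form: if a subring `R` of `Q̄((T))` contains the powers of `q`, `j` and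
`j_{q²}`, then for a nonzero `K₀`-rational `g ∈ F_{Mq²}` and a coordinate `i` some `V ∈ R` has
`V g ∈ O` and `ρ (V g) i ≠ 0`. -/
theorem exists_mul_unit_at (hq : q.Prime) (hA : A.LiesOverPrime q) (F : Plan.Frame M q h)
    (hS : Plan.IsSetup A F O ρ) (g : Om) (hg : g ∈ modularFunctionFieldBar (M * q * q))
    (hg0 : g ≠ 0) (hfix : K0Plan.Fixed A g) (i : Plan.Coord q) (R : Subring Om)
    (hRq : ∀ a : ℤ, HahnSeries.C ((q : Kbar) ^ a) ∈ R) (hRj : jK ∈ R)
    (hRJ : qExpand Kbar (q * q) jK ∈ R) :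
    ∃ V ∈ R, V ≠ 0 ∧ ∃ hm : V * g ∈ O, ρ ⟨_, hm⟩ i ≠ 0 := by
  obtain ⟨a, b, c, hm, hne⟩ := exists_mult_unit_at hq hA F hS g hg hg0 hfix i
  have hz : zSer q i ∈ R := by
    cases i with
    | inf => exact R.mul_mem (R.sub_mem hRj (R.pow_mem hRJ _)) (R.sub_mem hRj hRJ)
    | zero => exact R.mul_mem (R.sub_mem hRJ (R.pow_mem hRj _)) (R.sub_mem hRj hRJ)
    | mid ξ =>
      exact R.mul_mem (R.sub_mem hRJ (R.pow_mem hRj _)) (R.sub_mem hRj (R.pow_mem hRJ _))
  refine ⟨mult q i a b c, R.mul_mem (R.mul_mem (hRq a) (R.pow_mem (R.sub_mem hRj hRJ) b))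
    (R.pow_mem hz c), ?_, hm, hne⟩
  intro hV
  apply hne
  have e : (⟨mult q i a b c * g, hm⟩ : O) = 0 :=
    Subtype.ext (show mult q i a b c * g = 0 by rw [hV, zero_mul])
  rw [e, map_zero]
  rfl

end Main

/-! ## `K0Plan` vocabulary: sections of `Λ'(D)` with unit reduction at a coordinate -/

section Lam

/-- **The multiplier is regular off the cusps**: `mult q i a b c ∈ L((b + 2 q² c) E)`. -/
theorem mult_mem_pullRR {N N₂ q : ℕ} [NeZero N] [NeZero q]
    (hle : modularFunctionFieldBar N ≤ modularFunctionFieldBar N₂) (hq : q ∣ N)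
    (hqq : q * q ∣ N) {E : Divisor Kbar (FN N)} (hE : Plan.IsE3 N q hq hqq E)
    (i : Plan.Coord q) (a : ℤ) (b c : ℕ) :
    mult q i a b c ∈ pullRR N N₂ ((b + c * (2 * (q * q))) • E) := by
  have hE0 := OneCompBp.E3_nonneg hq hqq hE
  have hX : jK - qExpand Kbar (q * q) jK ∈ pullRR N N₂ E := by
    have h1 := OneCompBp.j_mem_pullRR hle hq hqq hE
    have h2 := OneCompBp.J_mem_pullRR hle hq hqq hE
    rw [OneComp.coe_jBar'] at h1
    rw [OneComp.coe_jBarLevel_qq] at h2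
    exact Submodule.sub_mem _ h1 h2
  have hXb : (jK - qExpand Kbar (q * q) jK) ^ b ∈ pullRR N N₂ (b • E) :=
    Main.pow_mem_pullRR b (fun P => Lift.smul_E_apply _ b P) hX
  have hz : zSer q i ∈ pullRR N N₂ ((2 * (q * q)) • E) := by
    have hmono : pullRR N N₂ ((q * q + 1) • E) ≤ pullRR N N₂ ((2 * (q * q)) • E) :=
      Main.pullRR_mono (fun P => by
        rw [Lift.smul_E_apply, Lift.smul_E_apply]
        have h0 := hE0 P
        have h1 : ((q * q + 1 : ℕ) : ℤ) ≤ ((2 * (q * q) : ℕ) : ℤ) := by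
          have h2 := OneCompBp.one_le_qq (q := q)
          exact_mod_cast (by omega : q * q + 1 ≤ 2 * (q * q))
        exact mul_le_mul_of_nonneg_right h1 h0)
    rw [← coe_zEl N q hqq i]
    cases i with
    | inf => exact hmono (OneCompBp.zInf_mem_pullRR hle hq hqq hE)
    | zero => exact hmono (OneCompBp.zZero_mem_pullRR hle hq hqq hE)
    | mid ξ => exact OneCompBp.zMid_mem_pullRR hle hq hqq hE
  have hzc : zSer q i ^ c ∈ pullRR N N₂ ((c * (2 * (q * q))) • E) :=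
    Main.pow_mem_pullRR c (fun P => by
      rw [Lift.smul_E_apply, Lift.smul_E_apply]; push_cast; ring) hz
  have hprod : (jK - qExpand Kbar (q * q) jK) ^ b * zSer q i ^ c ∈
      pullRR N N₂ ((b + c * (2 * (q * q))) • E) :=
    CuspReg.mul_mem_pullRR_add (fun P => le_of_eq (by
      rw [Lift.smul_E_apply, Lift.smul_E_apply, Lift.smul_E_apply]; push_cast; ring)) hXb hzc
  unfold mult
  rw [mul_assoc, HahnSeries.C_mul_eq_smul]
  exact Submodule.smul_mem _ _ hprod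

variable {M q : ℕ} [NeZero M] [NeZero q] {h : Nat.Coprime M q}
variable {A : ValuationSubring Kbar} {O : Subring Om} {ρ : O →+* Plan.Rq A q}
variable {N' : ℕ} [NeZero N']

/-- **[UNIT-SEC] in `K0Plan` vocabulary**: from ONE nonzero `K₀`-rational section
`g ∈ L(D + c₀ E)` one gets, for every coordinate `i`, an element `f ∈ Λ'(D)` with `ρ f i ≠ 0`
(`f = mult q i a b c · g`). -/
theorem exists_lam_unit_at (hq : q.Prime) (hA : A.LiesOverPrime q) (F : Plan.Frame M q h)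
    (hS : Plan.IsSetup A F O ρ) (hq' : q ∣ N')
    (hle : modularFunctionFieldBar (N' * q) ≤ modularFunctionFieldBar (M * q * q))
    {E : Divisor Kbar (FN (N' * q))}
    (hE : Plan.IsE3 (N' * q) q (Dvd.intro_left N' rfl) (Nat.mul_dvd_mul_right hq' q) E)
    (D : Divisor Kbar (FN (N' * q))) (g : Om) (hg0 : g ≠ 0) (hfix : K0Plan.Fixed A g) (c₀ : ℕ)
    (hg : g ∈ pullRR (N' * q) (M * q * q) (D + c₀ • E)) (i : Plan.Coord q) :
    ∃ f ∈ K0Plan.Lam A N' M q O E D, ρ f i ≠ 0 := by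
  obtain ⟨a, b, c, hm, hne⟩ := exists_mult_unit_at hq hA F hS g hg.1 hg0 hfix i
  refine ⟨⟨_, hm⟩, ⟨?_, c₀ + (b + c * (2 * (q * q))), ?_⟩, hne⟩
  · intro τ hτ
    show coeffMap (τ : Kbar →+* Kbar) (mult q i a b c * g) = mult q i a b c * g
    rw [map_mul, coeffMap_mult, hfix τ hτ]
  · show mult q i a b c * g ∈
      pullRR (N' * q) (M * q * q) (D + (c₀ + (b + c * (2 * (q * q)))) • E)
    have hV := mult_mem_pullRR hle (Dvd.intro_left N' rfl) (Nat.mul_dvd_mul_right hq' q) hE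
      i a b c
    refine CuspReg.mul_mem_pullRR_add (fun P => le_of_eq ?_) hV hg
    rw [Lift.smul_E_apply, Lift.add_smul_E_apply, Lift.add_smul_E_apply]
    push_cast
    ring

end Lam

end Fermat.Agent.S36.UnitSec

end
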