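import Mathlib
import Fermat.Agent.S36.VNorm
import Fermat.Agent.S36.FrameFinal
import Fermat.Agent.S36.NormQ2
import Fermat.Agent.S36.DegNCDeg
import Fermat.Agent.S36.MidEq
import Fermat.Agent.S36.MidRed
import Fermat.Agent.S36.SetupQ2
import Fermat.Agent.S34.ValInertia
import Fermat.Agent.P5.GalHecke

/-!
# S36 / P8 — [VNORM] frame instance, base layer (helper67)

Vocabulary and transport lemmas for the frame instance of `S36/VNorm.exists_normalised`:

* `IsU A x`      : `x` is a unit of the content ring `Ocal A` (`x ≠ 0`, `x`, `x⁻¹` integral);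
                   `isU_of_red_ne_zero`, `IsU.red_ne_zero` (the bridge to "nonzero reduction");
* `HasV A q x m` : `x` has content `q ^ m`, i.e. `x / q ^ m` is a unit of `Ocal A`
                   (`mul`, `inv`, `pow`, `hasV_prod`, `unique`, `scale`, `hasV_qExpand_iff`, `coeffMap`);
* `Fix A x`      : `x` is fixed by the inertia group of `A` (coefficientwise);
* `norm_alpha_arith`, `norm_beta_arith` : the two norms commute with the Galois action;
* `coe_norm_alpha_frame` : `N_α y = y · ∏_{i < q - 1} r_{ξ₀^(i+1)} y` in a frame;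
* `isU_mid_of_mid` : for an inertia-fixed `y`, a scaling constant at one middle coordinate works at
                   every middle coordinate;
* `isU_prod_mid`, `isU_mid_w`, `hasV_norm_beta` : the contents of the norms.
-/

set_option autoImplicit false
set_option linter.unusedSectionVars false

noncomputable section

namespace Fermat.Agent.S36.VNormBase

open ModularCurve AlgebraicCurve Fermat.Agent.S24 Fermat.Agent.S18 Fermat.Agent.S18.Content
  Fermat.Agent.S18.Plan Fermat.Agent.S34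

set_option synthInstance.maxHeartbeats 400000
set_option maxHeartbeats 1600000

/-! ## Units of the content ring -/

section Units

variable (A : ValuationSubring Kbar)

/-- `x` is a unit of the content ring `Ocal A` (a nonzero series, integral with integral
inverse). -/
def IsU (x : Om) : Prop := x ≠ 0 ∧ x ∈ Ocal A ∧ x⁻¹ ∈ Ocal A

variable {A}

theorem isU_one : IsU A 1 := ⟨one_ne_zero, (Ocal A).one_mem, by rw [inv_one]; exact (Ocal A).one_mem⟩

theorem IsU.mul {x y : Om} (hx : IsU A x) (hy : IsU A y) : IsU A (x * y) :=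
  ⟨mul_ne_zero hx.1 hy.1, (Ocal A).mul_mem hx.2.1 hy.2.1, by
    rw [mul_inv]; exact (Ocal A).mul_mem hx.2.2 hy.2.2⟩

theorem IsU.inv {x : Om} (hx : IsU A x) : IsU A x⁻¹ :=
  ⟨inv_ne_zero hx.1, hx.2.2, by rw [inv_inv]; exact hx.2.1⟩

theorem IsU.pow {x : Om} (hx : IsU A x) (n : ℕ) : IsU A (x ^ n) := by
  induction n with
  | zero => rw [pow_zero]; exact isU_one
  | succ n ih => rw [pow_succ]; exact ih.mul hx

theorem IsU.div {x y : Om} (hx : IsU A x) (hy : IsU A y) : IsU A (x / y) := by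
  rw [div_eq_mul_inv]; exact hx.mul hy.inv

theorem isU_prod {ι : Type*} (s : Finset ι) (f : ι → Om) (h : ∀ i ∈ s, IsU A (f i)) :
    IsU A (∏ i ∈ s, f i) := by
  classical
  induction s using Finset.induction_on with
  | empty => rw [Finset.prod_empty]; exact isU_one
  | insert a s ha ih =>
      rw [Finset.prod_insert ha]
      exact (h a (Finset.mem_insert_self a s)).mul
        (ih fun i hi => h i (Finset.mem_insert_of_mem hi))

/-- Cancellation: `x y` and `x` units ⟹ `y` unit. -/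
theorem IsU.of_mul_left {x y : Om} (hxy : IsU A (x * y)) (hx : IsU A x) : IsU A y := by
  have h := hx.inv.mul hxy
  rwa [← mul_assoc, inv_mul_cancel₀ hx.1, one_mul] at h

theorem IsU.of_mul_right {x y : Om} (hxy : IsU A (x * y)) (hy : IsU A y) : IsU A x := by
  rw [mul_comm] at hxy
  exact hxy.of_mul_left hy

/-- An integral series with nonzero reduction is a unit. -/
theorem isU_of_red_ne_zero {x : Om} (hx : x ∈ Ocal A) (h : red A ⟨x, hx⟩ ≠ 0) : IsU A x :=
  ⟨ne_zero_of_red_ne_zero A ⟨x, hx⟩ h, hx, inv_mem_Ocal A ⟨x, hx⟩ h⟩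

/-- A unit has nonzero reduction. -/
theorem IsU.red_ne_zero {x : Om} (hx : IsU A x) : red A ⟨x, hx.2.1⟩ ≠ 0 := by
  intro h0
  have h1 : (⟨x, hx.2.1⟩ : Ocal A) * ⟨x⁻¹, hx.2.2⟩ = 1 :=
    Subtype.ext (mul_inv_cancel₀ hx.1)
  have h2 := congrArg (red A) h1
  rw [map_mul, map_one, h0, zero_mul] at h2
  exact zero_ne_one h2

/-- Constants: `C c` is a unit iff `c` is a unit of `A`. -/
theorem isU_C_iff (c : Kbar) : IsU A (HahnSeries.C c : Om) ↔ c ≠ 0 ∧ c ∈ A ∧ c⁻¹ ∈ A := by
  have hinv : (HahnSeries.C c : Om)⁻¹ = HahnSeries.C c⁻¹ := by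
    rw [← map_inv₀]
  constructor
  · rintro ⟨h0, h1, h2⟩
    refine ⟨fun hc => h0 (by rw [hc, map_zero]), (C_mem_Ocal_iff A c).mp h1, ?_⟩
    rw [hinv] at h2
    exact (C_mem_Ocal_iff A c⁻¹).mp h2
  · rintro ⟨h0, h1, h2⟩
    refine ⟨fun hc => h0 ?_, C_mem_Ocal A h1, ?_⟩
    · exact HahnSeries.C_injective (hc.trans (map_zero _).symm)
    · rw [hinv]; exact C_mem_Ocal A h2

end Units


/-! ## Transport of units -/

section Transport

variable {A : ValuationSubring Kbar}

/-- The scaling `T ↦ ζ T` by a root of unity preserves units. -/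
theorem IsU.scale {x : Om} (hx : IsU A x) (ζ : Kbarˣ) {k : ℕ} (hk : k ≠ 0) (hζ : ζ ^ k = 1) :
    IsU A (Fermat.Agent.S28.scale ζ x) := by
  obtain ⟨ζA, hζA⟩ := Fermat.Agent.Lib.KroneckerCong.exists_unit_of_pow_eq_one A hk hζ
  have h1 := MidRed.scale_mem_Ocal A ζA hx.2.1
  have h2 := MidRed.scale_mem_Ocal A ζA hx.2.2
  have e : MidRed.uK A ζA = ζ := hζA
  rw [e] at h1 h2
  refine ⟨?_, h1, ?_⟩
  · intro h0
    exact hx.1 (Fermat.Agent.S28.scale_injective ζ (h0.trans (map_zero _).symm))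
  · rw [← map_inv₀]; exact h2

/-- `T ↦ T^ℓ` preserves and reflects units. -/
theorem isU_qExpand_iff (ℓ : ℕ) [NeZero ℓ] (x : Om) :
    IsU A (qExpand Kbar ℓ x) ↔ IsU A x := by
  have hinj := qExpand_injective (R := Kbar) (N := ℓ)
  have h0 : qExpand Kbar ℓ x = 0 ↔ x = 0 :=
    ⟨fun h => hinj (h.trans (map_zero _).symm), fun h => by rw [h, map_zero]⟩
  unfold IsU
  rw [Ne, h0, ← map_inv₀, Fermat.Agent.Lib.KroneckerCong.qExpand_mem_Ocal_iff,
    Fermat.Agent.Lib.KroneckerCong.qExpand_mem_Ocal_iff]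

/-- The decomposition group preserves units. -/
theorem IsU.coeffMap {x : Om} (hx : IsU A x) (s : A.decompositionSubgroup ℚ) :
    IsU A (coeffMap ((s : Kbar ≃ₐ[ℚ] Kbar) : Kbar →+* Kbar) x) := by
  refine ⟨?_, Fermat.Agent.S37.Gal.coeffMap_mem_Ocal A s hx.2.1, ?_⟩
  · intro h0
    exact hx.1 (Fermat.Agent.S37.Gal.coeffMap_injective_of_injective _
      (s : Kbar ≃ₐ[ℚ] Kbar).injective (h0.trans (map_zero _).symm))
  · rw [← map_inv₀]
    exact Fermat.Agent.S37.Gal.coeffMap_mem_Ocal A s hx.2.2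

theorem coeffMap_C (f : Kbar →+* Kbar) (c : Kbar) :
    coeffMap f (HahnSeries.C c : Om) = HahnSeries.C (f c) := by
  rw [HahnSeries.C_apply, HahnSeries.C_apply, coeffMap_single]

end Transport

/-! ## Contents -/

section Content

variable (A : ValuationSubring Kbar) (q : ℕ)

/-- `x` has content `q ^ m`: `x = q ^ m · (a unit of Ocal)`. -/
def HasV (x : Om) (m : ℤ) : Prop := IsU A (x * (HahnSeries.C (q : Kbar) ^ m)⁻¹)

variable {A q}

theorem C_q_ne_zero [NeZero q] : (HahnSeries.C (q : Kbar) : Om) ≠ 0 := by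
  intro h
  have h1 : (q : Kbar) = 0 := HahnSeries.C_injective (h.trans (map_zero _).symm)
  exact NeZero.ne q (by exact_mod_cast h1)

theorem hasV_zero_iff (x : Om) : HasV A q x 0 ↔ IsU A x := by
  unfold HasV
  rw [zpow_zero, inv_one, mul_one]

theorem HasV.ne_zero {x : Om} {m : ℤ} (h : HasV A q x m) : x ≠ 0 := by
  intro h0
  exact h.1 (by rw [h0, zero_mul])

theorem HasV.mul [NeZero q] {x y : Om} {m m' : ℤ} (hx : HasV A q x m) (hy : HasV A q y m') :
    HasV A q (x * y) (m + m') := by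
  have h := IsU.mul hx hy
  have e : x * (HahnSeries.C (q : Kbar) ^ m)⁻¹ * (y * (HahnSeries.C (q : Kbar) ^ m')⁻¹) =
      x * y * ((HahnSeries.C (q : Kbar) : Om) ^ (m + m'))⁻¹ := by
    rw [zpow_add₀ C_q_ne_zero, mul_inv]; ring
  unfold HasV
  rw [← e]; exact h

theorem HasV.inv [NeZero q] {x : Om} {m : ℤ} (hx : HasV A q x m) : HasV A q x⁻¹ (-m) := by
  have h := IsU.inv hx
  have e : (x * (HahnSeries.C (q : Kbar) ^ m)⁻¹)⁻¹ =
      x⁻¹ * ((HahnSeries.C (q : Kbar) : Om) ^ (-m))⁻¹ := by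
    rw [zpow_neg, mul_inv]
  unfold HasV
  rw [← e]; exact h

theorem HasV.div [NeZero q] {x y : Om} {m m' : ℤ} (hx : HasV A q x m) (hy : HasV A q y m') :
    HasV A q (x / y) (m - m') := by
  rw [div_eq_mul_inv, sub_eq_add_neg]; exact hx.mul hy.inv

theorem HasV.pow [NeZero q] {x : Om} {m : ℤ} (hx : HasV A q x m) (n : ℕ) :
    HasV A q (x ^ n) (n * m) := by
  induction n with
  | zero =>
      rw [pow_zero, Nat.cast_zero, zero_mul, hasV_zero_iff]; exact isU_one
  | succ n ih =>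
      have h := ih.mul hx
      rw [pow_succ]
      have e : ((n + 1 : ℕ) : ℤ) * m = n * m + m := by push_cast; ring
      rw [e]; exact h

theorem hasV_prod [NeZero q] {ι : Type*} (s : Finset ι) (f : ι → Om) (m : ℤ)
    (h : ∀ i ∈ s, HasV A q (f i) m) : HasV A q (∏ i ∈ s, f i) (s.card * m) := by
  classical
  induction s using Finset.induction_on with
  | empty =>
      rw [Finset.prod_empty, Finset.card_empty, Nat.cast_zero, zero_mul, hasV_zero_iff]
      exact isU_one
  | insert a s ha ih =>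
      rw [Finset.prod_insert ha, Finset.card_insert_of_notMem ha]
      have h1 := (h a (Finset.mem_insert_self a s)).mul
        (ih fun i hi => h i (Finset.mem_insert_of_mem hi))
      have e : ((s.card + 1 : ℕ) : ℤ) * m = m + s.card * m := by push_cast; ring
      rw [e]; exact h1

/-- A unit times an element of content `q^m` has content `q^m`. -/
theorem HasV.unit_mul [NeZero q] {x y : Om} {m : ℤ} (hx : IsU A x) (hy : HasV A q y m) :
    HasV A q (x * y) m := by
  have h := ((hasV_zero_iff (q := q) x).mpr hx).mul hy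
  rwa [zero_add] at h

/-- Constants: `C c` has content `q^m` iff `c / q^m` is a unit of `A`. -/
theorem hasV_C_iff (c : Kbar) (m : ℤ) :
    HasV A q (HahnSeries.C c : Om) m ↔ IsU A (HahnSeries.C (c * ((q : Kbar) ^ m)⁻¹) : Om) := by
  unfold HasV
  rw [map_mul, map_inv₀, map_zpow₀]

/-- The content exponent is unique. -/
theorem HasV.unique [NeZero q] (hAq : A.LiesOverPrime q) {x : Om} {m m' : ℤ}
    (h : HasV A q x m) (h' : HasV A q x m') : m = m' := by
  have h1 := h.div h'
  rw [div_self h.ne_zero] at h1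
  -- `C q ^ (m' - m)` is a unit
  have hq0 : (q : Kbar) ≠ 0 := by exact_mod_cast NeZero.ne q
  have h2 : IsU A (HahnSeries.C ((q : Kbar) ^ (m' - m)) : Om) := by
    have h3 := h1.inv
    unfold HasV at h3
    rw [inv_one, one_mul, neg_sub, ← map_zpow₀] at h3
    have h4 := h3.inv
    rwa [inv_inv] at h4
  obtain ⟨_, h3, h4⟩ := (isU_C_iff _).mp h2
  have hv : A.valuation ((q : Kbar) ^ (m' - m)) = 1 := by
    apply le_antisymm ((A.valuation_le_one_iff _).mpr h3)
    have h5 := (A.valuation_le_one_iff _).mpr h4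
    rw [map_inv₀] at h5
    by_contra hlt
    rw [not_le] at hlt
    have h6 : A.valuation ((q : Kbar) ^ (m' - m)) ≠ 0 :=
      (Valuation.ne_zero_iff _).mpr (zpow_ne_zero _ hq0)
    have h7 : (1 : _) < (A.valuation ((q : Kbar) ^ (m' - m)))⁻¹ := (one_lt_inv₀ (zero_lt_iff.mpr h6)).mpr hlt
    exact absurd h5 (not_le.mpr h7)
  have hvq : A.valuation (q : Kbar) < 1 := (ValuationSubring.mem_nonunits_iff A).1 hAq
  have hvq0 : A.valuation (q : Kbar) ≠ 0 := (Valuation.ne_zero_iff _).mpr hq0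
  rw [map_zpow₀] at hv
  by_contra hne
  have hne' : m' - m ≠ 0 := fun h0 => hne (by omega)
  rcases lt_or_gt_of_ne hne' with hlt | hgt
  · have : (1 : _) < A.valuation (q : Kbar) ^ (m' - m) :=
      one_lt_zpow_of_neg₀ (zero_lt_iff.mpr hvq0) hvq hlt
    exact absurd hv (ne_of_gt this)
  · have : A.valuation (q : Kbar) ^ (m' - m) < 1 :=
      zpow_lt_one₀ (zero_lt_iff.mpr hvq0) hvq hgt
    exact absurd hv (ne_of_lt this)

theorem HasV.scale [NeZero q] {x : Om} {m : ℤ} (hx : HasV A q x m) (ζ : Kbarˣ) {k : ℕ}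
    (hk : k ≠ 0) (hζ : ζ ^ k = 1) : HasV A q (Fermat.Agent.S28.scale ζ x) m := by
  have h := IsU.scale hx ζ hk hζ
  rw [map_mul, map_inv₀, map_zpow₀, Fermat.Agent.S28.scale_C] at h
  exact h

theorem hasV_qExpand_iff [NeZero q] (ℓ : ℕ) [NeZero ℓ] (x : Om) (m : ℤ) :
    HasV A q (qExpand Kbar ℓ x) m ↔ HasV A q x m := by
  unfold HasV
  rw [← isU_qExpand_iff ℓ (x * (HahnSeries.C (q : Kbar) ^ m)⁻¹), map_mul, map_inv₀, map_zpow₀,
    qExpand_C]

theorem HasV.coeffMap [NeZero q] {x : Om} {m : ℤ} (hx : HasV A q x m)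
    (s : A.decompositionSubgroup ℚ) :
    HasV A q (coeffMap ((s : Kbar ≃ₐ[ℚ] Kbar) : Kbar →+* Kbar) x) m := by
  have h := IsU.coeffMap hx s
  rw [map_mul, map_inv₀, map_zpow₀, coeffMap_C] at h
  have e : ((s : Kbar ≃ₐ[ℚ] Kbar) : Kbar →+* Kbar) (q : Kbar) = q := map_natCast _ q
  rw [e] at h
  exact h

end Content


/-! ## Inertia-fixed functions -/

section Fixed

variable (A : ValuationSubring Kbar)

/-- Fixed by the inertia group of `A` (coefficientwise). -/
def Fix (x : Om) : Prop :=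
  ∀ τ : Kbar ≃ₐ[ℚ] Kbar, τ ∈ A.inertiaSubgroupIn ℚ → coeffMap (τ : Kbar →+* Kbar) x = x

variable {A}

theorem Fix.mul {x y : Om} (hx : Fix A x) (hy : Fix A y) : Fix A (x * y) := fun τ hτ => by
  rw [map_mul, hx τ hτ, hy τ hτ]

theorem Fix.inv {x : Om} (hx : Fix A x) : Fix A x⁻¹ := fun τ hτ => by
  rw [map_inv₀, hx τ hτ]

theorem Fix.pow {x : Om} (hx : Fix A x) (n : ℕ) : Fix A (x ^ n) := fun τ hτ => by
  rw [map_pow, hx τ hτ]

theorem Fix.zpow {x : Om} (hx : Fix A x) (n : ℤ) : Fix A (x ^ n) := fun τ hτ => by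
  rw [map_zpow₀, hx τ hτ]

theorem fix_C_natCast (n : ℕ) : Fix A (HahnSeries.C (n : Kbar) : Om) := fun τ _ => by
  rw [coeffMap_C, map_natCast]

/-- A constant is fixed iff it is fixed as an element of `Q̄`. -/
theorem fix_C_iff (c : Kbar) :
    Fix A (HahnSeries.C c : Om) ↔ ∀ τ ∈ A.inertiaSubgroupIn ℚ, τ c = c := by
  constructor
  · intro h τ hτ
    have h1 := h τ hτ
    rw [coeffMap_C] at h1
    exact HahnSeries.C_injective h1
  · intro h τ hτ
    rw [coeffMap_C]
    exact congrArg _ (h τ hτ)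

theorem Fix.arith {N : ℕ} [NeZero N] {x : FN N} (hx : Fix A (x : Om)) {τ : Kbar ≃ₐ[ℚ] Kbar}
    (hτ : τ ∈ A.inertiaSubgroupIn ℚ) :
    arithmeticRingAut (modularFunctionFieldFull N) τ x = x :=
  Subtype.ext (hx τ hτ)

end Fixed

/-! ## Norms and the Galois action -/

section NormGal

variable (N q : ℕ) [NeZero N] [NeZero q]

theorem arith_alpha (τ : Kbar ≃ₐ[ℚ] Kbar) (x : FN N) :
    arithmeticRingAut (modularFunctionFieldFull (N * q)) τ (heckeAlphaBar Kbar N q x) =
      heckeAlphaBar Kbar N q (arithmeticRingAut (modularFunctionFieldFull N) τ x) :=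
  Fermat.Agent.P5.GalHecke.intertwines_alpha N q τ x

theorem arith_beta (τ : Kbar ≃ₐ[ℚ] Kbar) (x : FN N) :
    arithmeticRingAut (modularFunctionFieldFull (N * q)) τ (heckeBetaBar Kbar N q x) =
      heckeBetaBar Kbar N q (arithmeticRingAut (modularFunctionFieldFull N) τ x) :=
  Fermat.Agent.P5.GalHecke.intertwines_beta N q τ x

/-- The norm along `α` commutes with the coefficientwise Galois action. -/
theorem norm_alpha_arith (τ : Kbar ≃ₐ[ℚ] Kbar) (z : FN (N * q)) :
    @Algebra.norm (FN N) (FN (N * q)) _ _ (algebraAlong (heckeAlphaBar Kbar N q))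
        (arithmeticRingAut (modularFunctionFieldFull (N * q)) τ z) =
      arithmeticRingAut (modularFunctionFieldFull N) τ
        (@Algebra.norm (FN N) (FN (N * q)) _ _ (algebraAlong (heckeAlphaBar Kbar N q)) z) := by
  have h1 := @Algebra.norm_eq_of_equiv_equiv (FN N) (FN (N * q)) (FN N) (FN (N * q)) _ _ _ _
    (algebraAlong (heckeAlphaBar Kbar N q)) (algebraAlong (heckeAlphaBar Kbar N q))
    (arithmeticRingAut (modularFunctionFieldFull N) τ)
    (arithmeticRingAut (modularFunctionFieldFull (N * q)) τ)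
    (RingHom.ext fun x => (arith_alpha N q τ x).symm) z
  rw [h1, RingEquiv.apply_symm_apply]

/-- The norm along `β` commutes with the coefficientwise Galois action. -/
theorem norm_beta_arith (τ : Kbar ≃ₐ[ℚ] Kbar) (z : FN (N * q)) :
    @Algebra.norm (FN N) (FN (N * q)) _ _ (algebraAlong (heckeBetaBar Kbar N q))
        (arithmeticRingAut (modularFunctionFieldFull (N * q)) τ z) =
      arithmeticRingAut (modularFunctionFieldFull N) τ
        (@Algebra.norm (FN N) (FN (N * q)) _ _ (algebraAlong (heckeBetaBar Kbar N q)) z) := by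
  have h1 := @Algebra.norm_eq_of_equiv_equiv (FN N) (FN (N * q)) (FN N) (FN (N * q)) _ _ _ _
    (algebraAlong (heckeBetaBar Kbar N q)) (algebraAlong (heckeBetaBar Kbar N q))
    (arithmeticRingAut (modularFunctionFieldFull N) τ)
    (arithmeticRingAut (modularFunctionFieldFull (N * q)) τ)
    (RingHom.ext fun x => (arith_beta N q τ x).symm) z
  rw [h1, RingEquiv.apply_symm_apply]

variable {N q} {A : ValuationSubring Kbar}

theorem fix_norm_alpha {z : FN (N * q)} (hz : Fix A (z : Om)) :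
    Fix A ((@Algebra.norm (FN N) (FN (N * q)) _ _
      (algebraAlong (heckeAlphaBar Kbar N q)) z : FN N) : Om) := fun τ hτ => by
  have h := norm_alpha_arith N q τ z
  rw [hz.arith hτ] at h
  exact (congrArg (fun y : FN N => (y : Om)) h).symm

theorem fix_norm_beta {z : FN (N * q)} (hz : Fix A (z : Om)) :
    Fix A ((@Algebra.norm (FN N) (FN (N * q)) _ _
      (algebraAlong (heckeBetaBar Kbar N q)) z : FN N) : Om) := fun τ hτ => by
  have h := norm_beta_arith N q τ z
  rw [hz.arith hτ] at h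
  exact (congrArg (fun y : FN N => (y : Om)) h).symm

end NormGal


/-! ## The frame: product formula, middle coordinates -/

section FrameFacts

variable {M q : ℕ} [NeZero M] [NeZero q] {h : Nat.Coprime M q} {A : ValuationSubring Kbar}

/-- The middle index `ξ₀ ^ (i + 1)`, `i < q - 1`. -/
def midPow (hq : q.Prime) (ξ₀ : Plan.MidIdx q) (i : Fin (q - 1)) : Plan.MidIdx q :=
  ⟨ξ₀.1 ^ ((i : ℕ) + 1), MidFam.isPrimitiveRoot_pow_succ hq ξ₀.2 i⟩

/-- **Product formula** for the norm along `α` in a frame: `N_α y = y · ∏_ξ r_ξ y`. -/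
theorem coe_norm_alpha_frame (hq : q.Prime) (F : Plan.Frame M q h) (ξ₀ : Plan.MidIdx q)
    (y : FN (M * q * q)) :
    ((@Algebra.norm (FN (M * q)) (FN (M * q * q)) _ _
        (algebraAlong (heckeAlphaBar Kbar (M * q) q)) y : FN (M * q)) : Om) =
      (y : Om) * ∏ i : Fin (q - 1), F.r (midPow hq ξ₀ i) y := by
  have hqM := FrameInst.not_dvd_of_coprime hq h
  have hfr : finrankAlong Kbar (heckeAlphaBar Kbar (M * q) q) = q :=
    DegNCDeg.finrankAlong_alpha_of_dvd (M * q) q hq (dvd_mul_left q M)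
  have key := NormQ2.coe_norm_alpha (M * q) q hfr
    (fun i : Option (Fin (q - 1)) =>
      ((MidFam.fam M q hq hqM ξ₀.1 ξ₀.2 i : FN (M * q * q) →ₐ[Kbar] Om) :
        FN (M * q * q) →+* Om))
    (fun i x => MidFam.fam_alpha hq hqM ξ₀.1 ξ₀.2 i x)
    (MidFam.fam_injective hq hqM ξ₀.1 ξ₀.2) (MidFam.card_index hq) y
  rw [key, Fintype.prod_option]
  congr 1
  refine Finset.prod_congr rfl fun i _ => ?_
  have h1 := MidEmb.IsMid.ext hq (MidFam.fam_some_isMid hq hqM ξ₀.1 ξ₀.2 i)
    (FrameInst.isMid F (midPow hq ξ₀ i))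
  exact RingHom.congr_fun h1 y

theorem fix_w (hq : q.Prime) (F : Plan.Frame M q h) {x : FN (M * q * q)}
    (hx : Fix A (x : Om)) : Fix A ((F.w x : FN (M * q * q)) : Om) := fun τ hτ => by
  have h1 := FrameFinal.w_galois hq F τ x
  rw [hx.arith hτ] at h1
  exact congrArg (fun y : FN (M * q * q) => (y : Om)) h1

theorem fix_sigma (hq : q.Prime) {x : FN (M * q)} (hx : Fix A (x : Om)) :
    Fix A ((Sigma.sigma M q h x : FN (M * q)) : Om) := fun τ hτ => by
  have h1 := Sigma.galois_smul_sigma h hq τ x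
  have h2 : arithmeticGalois (modularFunctionFieldFull (M * q)) τ • x = x :=
    Subtype.ext (hx τ hτ)
  rw [h2] at h1
  exact congrArg (fun y : FN (M * q) => (y : Om)) h1

/-- **Uniformity of the middle coordinates**: for an inertia-fixed `y`, a scaling constant at one
middle coordinate works at every middle coordinate. -/
theorem isU_mid_of_mid (hq : q.Prime) (hAq : A.LiesOverPrime q) (F : Plan.Frame M q h)
    (ξ₀ ξ : Plan.MidIdx q) {y : FN (M * q * q)} (hy : Fix A (y : Om)) {c : Kbar} (hc : c ≠ 0)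
    (hU : IsU A (HahnSeries.C c * F.r ξ₀ y)) : IsU A (HahnSeries.C c * F.r ξ y) := by
  obtain ⟨τ, hτ, hτξ⟩ := MidEq.exists_inertia_map_primitiveRoot A q hq hAq
    (ξ₀.1 : Kbar) (ξ.1 : Kbar) (IsPrimitiveRoot.coe_units_iff.mpr ξ₀.2)
    (IsPrimitiveRoot.coe_units_iff.mpr ξ.2)
  obtain ⟨s, rfl, -⟩ := ValInertia.exists_decomp A hτ
  have h1 := hU.coeffMap s
  rw [map_mul, coeffMap_C, FrameInst.r_galois hq F (s : Kbar ≃ₐ[ℚ] Kbar) ξ₀ y, hy.arith hτ] at h1
  have h2 : FrameInst.galMid (s : Kbar ≃ₐ[ℚ] Kbar) ξ₀ = ξ := Subtype.ext (Units.ext hτξ)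
  rw [h2] at h1
  obtain ⟨hr, hres⟩ := ValInertia.const_ratio A s c hc
  set τ : Kbar ≃ₐ[ℚ] Kbar := (s : Kbar ≃ₐ[ℚ] Kbar) with hτdef
  have h3 : IsU A (HahnSeries.C (c / τ c) : Om) := by
    refine isU_of_red_ne_zero (C_mem_Ocal A hr) ?_
    rw [red_C A hr]
    intro h0
    exact hres (HahnSeries.C_injective (h0.trans (map_zero _).symm))
  have hτc : τ c ≠ 0 := by rw [Ne, map_eq_zero]; exact hc
  have h4 := h3.mul h1
  have e : (HahnSeries.C (c / τ c) : Om) * (HahnSeries.C ((τ : Kbar →+* Kbar) c) * F.r ξ y) =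
      HahnSeries.C c * F.r ξ y := by
    show (HahnSeries.C (c / τ c) : Om) * (HahnSeries.C (τ c) * F.r ξ y) = _
    rw [← mul_assoc, ← map_mul, div_mul_cancel₀ c hτc]
  rwa [e] at h4

/-- The product of the middle coordinates, scaled. -/
theorem isU_prod_mid (hq : q.Prime) (F : Plan.Frame M q h) (ξ₀ : Plan.MidIdx q)
    (y : FN (M * q * q)) (c : Kbar) (hall : ∀ ξ : Plan.MidIdx q, IsU A (HahnSeries.C c * F.r ξ y)) :
    IsU A (HahnSeries.C (c ^ (q - 1)) * ∏ i : Fin (q - 1), F.r (midPow hq ξ₀ i) y) := by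
  have h1 := isU_prod (A := A) Finset.univ
    (fun i : Fin (q - 1) => HahnSeries.C c * F.r (midPow hq ξ₀ i) y) (fun i _ => hall _)
  rw [Finset.prod_mul_distrib, Finset.prod_const, Finset.card_univ, Fintype.card_fin,
    ← map_pow] at h1
  exact h1

/-- The middle coordinates of `w y`. -/
theorem isU_mid_w (hq : q.Prime) (F : Plan.Frame M q h) (ξ : Plan.MidIdx q)
    (y : FN (M * q * q)) (c : Kbar) (hall : ∀ ξ : Plan.MidIdx q, IsU A (HahnSeries.C c * F.r ξ y)) :
    IsU A (HahnSeries.C c * F.r ξ (F.w y)) := by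
  have h1 := FrameFinal.emb_mid_w hq F ξ y
  rw [Plan.Frame.emb_mid, Plan.Frame.emb_mid] at h1
  rw [h1]
  have h2 := (hall (FrameFinal.invMid ξ)).scale ξ.1 hq.ne_zero ξ.2.pow_eq_one
  rwa [map_mul, Fermat.Agent.S28.scale_C] at h2

/-- **Content of the norm along `β`**: `N_β y` has content `q^(q m)` if `y` has content `q^m`. -/
theorem hasV_norm_beta (hq : q.Prime) (ξ₀ : Plan.MidIdx q) {y : FN (M * q * q)} {m : ℤ}
    (hy : HasV A q (y : Om) m) :
    HasV A q ((@Algebra.norm (FN (M * q)) (FN (M * q * q)) _ _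
        (algebraAlong (heckeBetaBar Kbar (M * q) q)) y : FN (M * q)) : Om) ((q : ℤ) * m) := by
  have hfr : finrankAlong Kbar (heckeBetaBar Kbar (M * q) q) = q :=
    DegNCDeg.finrankAlong_beta_of_dvd q hq (M * q) (dvd_mul_left q M)
  have key := NormQ2.qExpand_norm_beta (M * q) q hfr ξ₀.1 ξ₀.2 y
  rw [← hasV_qExpand_iff q, key]
  have h1 := hasV_prod (A := A) (q := q) (Finset.range q)
    (fun b => Fermat.Agent.S28.scale (ξ₀.1 ^ b) (y : Om)) m
    (fun b _ => hy.scale (ξ₀.1 ^ b) hq.ne_zero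
      (by rw [← pow_mul, mul_comm, pow_mul, ξ₀.2.pow_eq_one, one_pow]))
  rwa [Finset.card_range] at h1

end FrameFacts

end Fermat.Agent.S36.VNormBase
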