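import Mathlib
import Fermat.Agent.S36.VNormBase

/-!
# S36 / P8 — [VNORM]: the frame instance of the normalisation (helper67)

`exists_vnorm` : let `F` be a frame of level `M` (top level `M q²`), `u ∈ F_{Mq²}` an
inertia-fixed function with `N_α u = c aⁿ`, `N_β u = c' bⁿ` (`a`, `b ∈ F_{Mq}` inertia-fixed).
Given
* `hinf` : inertia-fixed functions have a `q`-power content at `∞` (`K0Red` / `K0ScaleFrame`),
* `hmid` : inertia-fixed functions can be scaled to a unit at ONE middle coordinate (`K0Gauss`),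
* `hH`   : inertia-fixed functions `H` with contents `(q^k₁, q^k₂, 1)` at `(∞, mid ξ₀, 0)`,
there are an inertia-fixed `H` (one of those of `hH`) and `k ∈ ℤ` such that
`u^(q² - 1) / (q^k Hⁿ)` is a unit of `Ocal A` at all `q + 1` coordinates of the frame.

The proof instantiates `S36/VNorm.exists_normalised` with `G` = the inertia-fixed units (in a
subgroup `T` chosen by the caller), the subgroups of units at `∞`, `0` and the radical of the units
at `mid ξ₀`; the four norm contents come from `S36/VNormBase`.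
-/

set_option autoImplicit false
set_option linter.unusedSectionVars false

noncomputable section

namespace Fermat.Agent.S36.VNormInst

open ModularCurve AlgebraicCurve Fermat.Agent.S24 Fermat.Agent.S18 Fermat.Agent.S18.Content
  Fermat.Agent.S18.Plan Fermat.Agent.S34 Fermat.Agent.S36.VNormBase

set_option synthInstance.maxHeartbeats 400000
set_option maxHeartbeats 1600000

/-! ## Subgroups -/

section Subgroups

variable (A : ValuationSubring Kbar)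

/-- The units of `Ocal A` as a subgroup of `Omˣ`. -/
def unitsO : Subgroup Omˣ where
  carrier := {x | IsU A (x : Om)}
  mul_mem' := by
    intro x y hx hy
    show IsU A ((x * y : Omˣ) : Om)
    rw [Units.val_mul]
    exact IsU.mul hx hy
  one_mem' := by
    show IsU A ((1 : Omˣ) : Om)
    rw [Units.val_one]
    exact isU_one
  inv_mem' := by
    intro x hx
    show IsU A ((x⁻¹ : Omˣ) : Om)
    rw [Units.val_inv_eq_inv_val]
    exact IsU.inv hx

/-- The elements a positive power of which is a unit of `Ocal A`. -/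
def radO : Subgroup Omˣ where
  carrier := {x | ∃ s : ℕ, 0 < s ∧ IsU A ((x : Om) ^ s)}
  mul_mem' := by
    rintro x y ⟨s, hs, hx⟩ ⟨t, ht, hy⟩
    refine ⟨s * t, Nat.mul_pos hs ht, ?_⟩
    rw [Units.val_mul, mul_pow, pow_mul, pow_mul']
    exact (hx.pow t).mul (hy.pow s)
  one_mem' := ⟨1, one_pos, by rw [Units.val_one, one_pow]; exact isU_one⟩
  inv_mem' := by
    rintro x ⟨s, hs, hx⟩
    refine ⟨s, hs, ?_⟩
    rw [Units.val_inv_eq_inv_val, inv_pow]
    exact hx.inv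

/-- The inertia-fixed nonzero functions of level `N`. -/
def fixSub (N : ℕ) [NeZero N] : Subgroup (FN N)ˣ where
  carrier := {y | Fix A (algebraMap (FN N) Om (y : FN N))}
  mul_mem' := by
    intro x y hx hy
    show Fix A (algebraMap (FN N) Om ((x * y : (FN N)ˣ) : FN N))
    rw [Units.val_mul, map_mul]
    exact Fix.mul hx hy
  one_mem' := by
    show Fix A (algebraMap (FN N) Om ((1 : (FN N)ˣ) : FN N))
    rw [Units.val_one, map_one]
    intro τ _
    rw [map_one]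
  inv_mem' := by
    intro x hx
    show Fix A (algebraMap (FN N) Om ((x⁻¹ : (FN N)ˣ) : FN N))
    rw [Units.val_inv_eq_inv_val, map_inv₀]
    exact Fix.inv hx

/-- The group homomorphism `Fˣ → Omˣ` induced by a ring homomorphism. -/
abbrev uHom {F : Type*} [Field F] (φ : F →+* Om) : Fˣ →* Omˣ := Units.map (φ : F →* Om)

theorem coe_uHom {F : Type*} [Field F] (φ : F →+* Om) (y : Fˣ) :
    ((uHom φ y : Omˣ) : Om) = φ (y : F) := rfl

variable {A} {q : ℕ}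

theorem mem_comap_unitsO_iff {G : Type*} [CommGroup G] (f : G →* Omˣ) (y p : G)
    (hp : ((f p : Omˣ) : Om) = HahnSeries.C (q : Kbar)) (m : ℤ) :
    y * (p ^ m)⁻¹ ∈ (unitsO A).comap f ↔ HasV A q ((f y : Omˣ) : Om) m := by
  rw [Subgroup.mem_comap, map_mul, map_inv, map_zpow]
  show IsU A ((f y * (f p ^ m)⁻¹ : Omˣ) : Om) ↔ _
  rw [Units.val_mul, Units.val_inv_eq_inv_val, Units.val_zpow_eq_zpow_val, hp]
  rfl

theorem mem_comap_radO_iff {G : Type*} [CommGroup G] (f : G →* Omˣ) (y p : G)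
    (hp : ((f p : Omˣ) : Om) = HahnSeries.C (q : Kbar)) (m : ℤ) :
    y * (p ^ m)⁻¹ ∈ (radO A).comap f ↔
      ∃ s : ℕ, 0 < s ∧ IsU A ((((f y : Omˣ) : Om) * (HahnSeries.C (q : Kbar) ^ m)⁻¹) ^ s) := by
  rw [Subgroup.mem_comap, map_mul, map_inv, map_zpow]
  show (∃ s : ℕ, 0 < s ∧ IsU A (((f y * (f p ^ m)⁻¹ : Omˣ) : Om) ^ s)) ↔ _
  rw [Units.val_mul, Units.val_inv_eq_inv_val, Units.val_zpow_eq_zpow_val, hp]

/-- `q` is not a unit: a power `q^m` which is a unit of `Ocal` has `m = 0`. -/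
theorem eq_zero_of_isU_zpow [NeZero q] (hAq : A.LiesOverPrime q) (m : ℤ)
    (h : IsU A ((HahnSeries.C (q : Kbar) : Om) ^ m)) : m = 0 := by
  have h1 : HasV A q (1 : Om) (-m) := by
    unfold HasV
    rw [one_mul, zpow_neg, inv_inv]
    exact h
  have h2 : HasV A q (1 : Om) 0 := (hasV_zero_iff 1).mpr isU_one
  have := h1.unique hAq h2
  omega

theorem mem_unitsO {x : Omˣ} : x ∈ unitsO A ↔ IsU A (x : Om) := Iff.rfl

theorem mem_radO {x : Omˣ} : x ∈ radO A ↔ ∃ s : ℕ, 0 < s ∧ IsU A ((x : Om) ^ s) := Iff.rfl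

/-- Membership of a field element in a subgroup of the unit group. -/
def InT {F : Type*} [Monoid F] (T : Subgroup Fˣ) (x : F) : Prop := ∀ y : Fˣ, (y : F) = x → y ∈ T

theorem inT_top {F : Type*} [Monoid F] (x : F) : InT (⊤ : Subgroup Fˣ) x :=
  fun _ _ => Subgroup.mem_top _

theorem valuation_eq_one_of_mem {x : Kbar} (hx0 : x ≠ 0) (hx : x ∈ A) (hx' : x⁻¹ ∈ A) :
    A.valuation x = 1 := by
  apply le_antisymm ((A.valuation_le_one_iff _).mpr hx)
  have h5 := (A.valuation_le_one_iff _).mpr hx'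
  rw [map_inv₀] at h5
  have h6 : A.valuation x ≠ 0 := (Valuation.ne_zero_iff _).mpr hx0
  exact (inv_le_one₀ (zero_lt_iff.mpr h6)).mp h5

end Subgroups


/-! ## The normalisation -/

section Main

variable {M q : ℕ} [NeZero M] [NeZero q] {h : Nat.Coprime M q} (A : ValuationSubring Kbar)

/-- Discreteness at `∞`, transported to level `M q` along `α`. -/
theorem hinf_low
    (hinf : ∀ x : FN (M * q * q), x ≠ 0 → Fix A (x : Om) → ∃ m : ℤ, HasV A q (x : Om) m)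
    (x : FN (M * q)) (hx0 : x ≠ 0) (hx : Fix A (x : Om)) : ∃ m : ℤ, HasV A q (x : Om) m := by
  have h0 : heckeAlphaBar Kbar (M * q) q x ≠ 0 := by
    rw [Ne, map_eq_zero]; exact hx0
  have hfix : Fix A ((heckeAlphaBar Kbar (M * q) q x : FN (M * q * q)) : Om) := by
    rw [coe_heckeAlphaBar]; exact hx
  obtain ⟨m, hm⟩ := hinf _ h0 hfix
  rw [coe_heckeAlphaBar] at hm
  exact ⟨m, hm⟩

/-- **[VNORM], frame instance.**  Let `u` be an inertia-fixed function of level `M q²` whose two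
norms to level `M q` are `n`-th powers up to constants, `N_α u = c aⁿ`, `N_β u = c' bⁿ`, with
`a`, `b` inertia-fixed.  Assume discreteness of the content at `∞` for inertia-fixed functions
(`hinf`), scaling at one middle coordinate (`hmid`) and a supply of inertia-fixed vertical
functions (`hH`).  Then `u^(q² - 1) / (q^k Hⁿ)` is a unit at all `q + 1` coordinates for a
suitable inertia-fixed `H` and `k ∈ ℤ`.  (`T` is any subgroup of the unit group containing `q`,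
`u` and the vertical functions — e.g. `⊤`, or the functions of a lower level; the returned `H`
lies in `T`.) -/
theorem exists_vnorm (hq : q.Prime) (hAq : A.LiesOverPrime q) (F : Plan.Frame M q h)
    (ξ₀ : Plan.MidIdx q) (T : Subgroup (FN (M * q * q))ˣ)
    (hqT : InT T (algebraMap Kbar (FN (M * q * q)) (q : Kbar)))
    (hinf : ∀ x : FN (M * q * q), x ≠ 0 → Fix A (x : Om) → ∃ m : ℤ, HasV A q (x : Om) m)
    (hmid : ∀ x : FN (M * q * q), x ≠ 0 → Fix A (x : Om) →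
      ∃ c : Kbar, c ≠ 0 ∧ IsU A (HahnSeries.C c * F.r ξ₀ x))
    (hH : ∀ k1 k2 : ℤ, ∃ H : FN (M * q * q), H ≠ 0 ∧ InT T H ∧ Fix A (H : Om) ∧
      HasV A q (H : Om) k1 ∧ HasV A q (F.r ξ₀ H) k2 ∧ IsU A ((F.w H : FN (M * q * q)) : Om))
    (n : ℕ) (u : FN (M * q * q)) (hu0 : u ≠ 0) (huT : InT T u) (hufix : Fix A (u : Om))
    (a b : FN (M * q)) (ha0 : a ≠ 0) (hb0 : b ≠ 0) (hafix : Fix A (a : Om))
    (hbfix : Fix A (b : Om)) (c c' : Kbar) (hc0 : c ≠ 0) (hc0' : c' ≠ 0)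
    (hα : @Algebra.norm (FN (M * q)) (FN (M * q * q)) _ _
        (algebraAlong (heckeAlphaBar Kbar (M * q) q)) u = algebraMap Kbar (FN (M * q)) c * a ^ n)
    (hβ : @Algebra.norm (FN (M * q)) (FN (M * q * q)) _ _
        (algebraAlong (heckeBetaBar Kbar (M * q) q)) u = algebraMap Kbar (FN (M * q)) c' * b ^ n) :
    ∃ (H : FN (M * q * q)) (k : ℤ), H ≠ 0 ∧ InT T H ∧ Fix A (H : Om) ∧
      Fix A ((u ^ (q ^ 2 - 1) * ((algebraMap Kbar (FN (M * q * q)) (q : Kbar)) ^ k)⁻¹ *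
        (H ^ n)⁻¹ : FN (M * q * q)) : Om) ∧
      ∀ i : Plan.Coord q, IsU A (F.emb i (u ^ (q ^ 2 - 1) *
        ((algebraMap Kbar (FN (M * q * q)) (q : Kbar)) ^ k)⁻¹ * (H ^ n)⁻¹)) := by
  classical
  have hq0K : (q : Kbar) ≠ 0 := by exact_mod_cast hq.ne_zero
  have hπ0 : algebraMap Kbar (FN (M * q * q)) (q : Kbar) ≠ 0 := by
    rw [Ne, map_eq_zero]; exact hq0K
  have hπ0' : algebraMap Kbar (FN (M * q)) (q : Kbar) ≠ 0 := by
    rw [Ne, map_eq_zero]; exact hq0K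
  -- the group of inertia-fixed units in `T`
  let S : Subgroup (FN (M * q * q))ˣ := fixSub A (M * q * q) ⊓ T
  -- the five coordinate maps
  let φ1 : FN (M * q * q) →+* Om := algebraMap (FN (M * q * q)) Om
  let φ2 : FN (M * q * q) →+* Om :=
    ((F.r ξ₀ : FN (M * q * q) →ₐ[Kbar] Om) : FN (M * q * q) →+* Om)
  let φ3 : FN (M * q * q) →+* Om := (algebraMap (FN (M * q * q)) Om).comp
    ((F.w : FN (M * q * q) ≃+* FN (M * q * q)) : FN (M * q * q) →+* FN (M * q * q))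
  let ψ1 : FN (M * q) →+* Om := algebraMap (FN (M * q)) Om
  let ψ2 : FN (M * q) →+* Om := (algebraMap (FN (M * q)) Om).comp
    ((Sigma.sigma M q h : FN (M * q) ≃+* FN (M * q)) : FN (M * q) →+* FN (M * q))
  let f1 : ↥S →* Omˣ := (uHom φ1).comp S.subtype
  let f2 : ↥S →* Omˣ := (uHom φ2).comp S.subtype
  let f3 : ↥S →* Omˣ := (uHom φ3).comp S.subtype
  let g1 : (FN (M * q))ˣ →* Omˣ := uHom ψ1
  let g2 : (FN (M * q))ˣ →* Omˣ := uHom ψ2
  -- the uniformiser `q`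
  have hπfix : Fix A ((algebraMap Kbar (FN (M * q * q)) (q : Kbar) : FN (M * q * q)) : Om) := by
    rw [SetupQ2.coe_algebraMap_FN]; exact fix_C_natCast q
  let πu : (FN (M * q * q))ˣ := Units.mk0 _ hπ0
  have hπS : πu ∈ S := ⟨hπfix, hqT πu rfl⟩
  let π : ↥S := ⟨πu, hπS⟩
  let π' : (FN (M * q))ˣ := Units.mk0 _ hπ0'
  have hπ1 : ((f1 π : Omˣ) : Om) = HahnSeries.C (q : Kbar) :=
    SetupQ2.coe_algebraMap_FN (M * q * q) (q : Kbar)
  have hπ2 : ((f2 π : Omˣ) : Om) = HahnSeries.C (q : Kbar) :=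
    SetupQ2.emb_algebraMap F (.mid ξ₀) (q : Kbar)
  have hπ3 : ((f3 π : Omˣ) : Om) = HahnSeries.C (q : Kbar) :=
    SetupQ2.emb_algebraMap F .zero (q : Kbar)
  have hπ1' : ((g1 π' : Omˣ) : Om) = HahnSeries.C (q : Kbar) :=
    SetupQ2.coe_algebraMap_FN (M * q) (q : Kbar)
  have hπ2' : ((g2 π' : Omˣ) : Om) = HahnSeries.C (q : Kbar) := by
    show ((Sigma.sigma M q h (algebraMap Kbar (FN (M * q)) (q : Kbar)) : FN (M * q)) : Om) = _
    rw [AlgEquiv.commutes]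
    exact SetupQ2.coe_algebraMap_FN (M * q) (q : Kbar)
  -- the five subgroups
  let U1 : Subgroup ↥S := (unitsO A).comap f1
  let U2 : Subgroup ↥S := (radO A).comap f2
  let U3 : Subgroup ↥S := (unitsO A).comap f3
  let W1 : Subgroup (FN (M * q))ˣ := (unitsO A).comap g1
  let W2 : Subgroup (FN (M * q))ˣ := (unitsO A).comap g2
  have hq1 : 0 < q - 1 := by have := hq.two_le; omega
  have hsat : ∀ x : ↥S, x ^ (q - 1) ∈ U2 → x ∈ U2 := by
    intro x hx
    rw [Subgroup.mem_comap, map_pow, mem_radO] at hx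
    obtain ⟨s, hs, hU⟩ := hx
    rw [Units.val_pow_eq_pow_val, ← pow_mul] at hU
    exact Subgroup.mem_comap.mpr (mem_radO.mpr ⟨(q - 1) * s, Nat.mul_pos hq1 hs, hU⟩)
  have hW1 : ∀ m : ℤ, π' ^ m ∈ W1 → m = 0 := by
    intro m hm
    rw [Subgroup.mem_comap, map_zpow, mem_unitsO, Units.val_zpow_eq_zpow_val, hπ1'] at hm
    exact eq_zero_of_isU_zpow hAq m hm
  have hW2 : ∀ m : ℤ, π' ^ m ∈ W2 → m = 0 := by
    intro m hm
    rw [Subgroup.mem_comap, map_zpow, mem_unitsO, Units.val_zpow_eq_zpow_val, hπ2'] at hm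
    exact eq_zero_of_isU_zpow hAq m hm
  have hHs : ∀ k1 k2 : ℤ, ∃ H : ↥S, H * (π ^ k1)⁻¹ ∈ U1 ∧ H * (π ^ k2)⁻¹ ∈ U2 ∧ H ∈ U3 := by
    intro k1 k2
    obtain ⟨H0, hH0, hHT, hHfix, hV1, hV2, hU3⟩ := hH k1 k2
    have hHS : Units.mk0 H0 hH0 ∈ S := ⟨hHfix, hHT _ rfl⟩
    refine ⟨⟨Units.mk0 H0 hH0, hHS⟩, (mem_comap_unitsO_iff f1 _ π hπ1 k1).mpr hV1,
      (mem_comap_radO_iff f2 _ π hπ2 k2).mpr ⟨1, one_pos, ?_⟩, ?_⟩
    · rw [pow_one]; exact hV2
    · exact Subgroup.mem_comap.mpr (mem_unitsO.mpr hU3)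
  -- the element `u`
  have huS : Units.mk0 u hu0 ∈ S := ⟨hufix, huT _ rfl⟩
  let us : ↥S := ⟨Units.mk0 u hu0, huS⟩
  obtain ⟨m1, hm1⟩ := hinf u hu0 hufix
  have hwu0 : F.w u ≠ 0 := (map_ne_zero_iff F.w F.w.injective).mpr hu0
  obtain ⟨m3, hm3⟩ := hinf (F.w u) hwu0 (fix_w hq F hufix)
  -- the two norms
  have hNa0 : @Algebra.norm (FN (M * q)) (FN (M * q * q)) _ _
      (algebraAlong (heckeAlphaBar Kbar (M * q) q)) u ≠ 0 := by
    rw [hα]
    exact mul_ne_zero (by rw [Ne, map_eq_zero]; exact hc0) (pow_ne_zero n ha0)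
  have hNb0 : @Algebra.norm (FN (M * q)) (FN (M * q * q)) _ _
      (algebraAlong (heckeBetaBar Kbar (M * q) q)) u ≠ 0 := by
    rw [hβ]
    exact mul_ne_zero (by rw [Ne, map_eq_zero]; exact hc0') (pow_ne_zero n hb0)
  have hNafix : Fix A ((@Algebra.norm (FN (M * q)) (FN (M * q * q)) _ _
      (algebraAlong (heckeAlphaBar Kbar (M * q) q)) u : FN (M * q)) : Om) := fix_norm_alpha hufix
  have hNbfix : Fix A ((@Algebra.norm (FN (M * q)) (FN (M * q * q)) _ _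
      (algebraAlong (heckeBetaBar Kbar (M * q) q)) u : FN (M * q)) : Om) := fix_norm_beta hufix
  obtain ⟨mN, hmN⟩ := hinf_low A hinf _ hNa0 hNafix
  -- the middle coordinates of `u`
  obtain ⟨c₀, hc₀, hU₀⟩ := hmid u hu0 hufix
  have hall : ∀ ξ : Plan.MidIdx q, IsU A (HahnSeries.C c₀ * F.r ξ u) :=
    fun ξ => isU_mid_of_mid hq hAq F ξ₀ ξ hufix hc₀ hU₀
  have hprod := coe_norm_alpha_frame hq F ξ₀ u
  have huOm0 : (u : Om) ≠ 0 := fun h0 => hu0 (Subtype.ext h0)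
  have hPV : HasV A q (∏ i : Fin (q - 1), F.r (midPow hq ξ₀ i) u) (mN - m1) := by
    have h1 := hmN.div hm1
    rwa [hprod, mul_div_cancel_left₀ _ huOm0] at h1
  have hP0 := hPV.ne_zero
  have hdP : IsU A (HahnSeries.C (c₀ ^ (q - 1)) * ∏ i : Fin (q - 1), F.r (midPow hq ξ₀ i) u) :=
    isU_prod_mid hq F ξ₀ u c₀ hall
  have hCd0 : (HahnSeries.C (c₀ ^ (q - 1)) : Om) ≠ 0 := by
    intro h0
    exact pow_ne_zero (q - 1) hc₀ (HahnSeries.C_injective (h0.trans (map_zero _).symm))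
  have hdV : HasV A q ((HahnSeries.C (c₀ ^ (q - 1)) : Om)⁻¹) (mN - m1) := by
    have h1 := hPV.mul ((hasV_zero_iff (q := q) _).mpr hdP.inv)
    have e : (∏ i : Fin (q - 1), F.r (midPow hq ξ₀ i) u) *
        (HahnSeries.C (c₀ ^ (q - 1)) * ∏ i : Fin (q - 1), F.r (midPow hq ξ₀ i) u)⁻¹ =
        (HahnSeries.C (c₀ ^ (q - 1)) : Om)⁻¹ := by
      rw [mul_inv, mul_comm (HahnSeries.C (c₀ ^ (q - 1)) : Om)⁻¹, ← mul_assoc,
        mul_inv_cancel₀ hP0, one_mul]
    rwa [e, add_zero] at h1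
  have hu1 : us * (π ^ m1)⁻¹ ∈ U1 := (mem_comap_unitsO_iff f1 us π hπ1 m1).mpr hm1
  have hu3 : us * (π ^ m3)⁻¹ ∈ U3 := (mem_comap_unitsO_iff f3 us π hπ3 m3).mpr hm3
  have hu2 : us ^ (q - 1) * (π ^ (mN - m1))⁻¹ ∈ U2 := by
    refine (mem_comap_radO_iff f2 (us ^ (q - 1)) π hπ2 (mN - m1)).mpr ⟨1, one_pos, ?_⟩
    rw [pow_one, map_pow, Units.val_pow_eq_pow_val]
    have h1 := HasV.unit_mul ((hall ξ₀).pow (q - 1)) hdV
    have e : (HahnSeries.C c₀ * F.r ξ₀ u) ^ (q - 1) * (HahnSeries.C (c₀ ^ (q - 1)) : Om)⁻¹ =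
        (F.r ξ₀ u) ^ (q - 1) := by
      rw [mul_pow, ← map_pow, mul_comm (HahnSeries.C (c₀ ^ (q - 1)) : Om), mul_assoc,
        mul_inv_cancel₀ hCd0, mul_one]
    rw [e] at h1
    exact h1
  -- the norms as units of level `M q`
  let Nαu : (FN (M * q))ˣ := Units.mk0 _ hNa0
  let Nβu : (FN (M * q))ˣ := Units.mk0 _ hNb0
  have hα1 : Nαu * (π' ^ (m1 + (mN - m1)))⁻¹ ∈ W1 := by
    refine (mem_comap_unitsO_iff g1 Nαu π' hπ1' _).mpr ?_
    have e : m1 + (mN - m1) = mN := by ring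
    rw [e]
    exact hmN
  have hα2 : Nαu * (π' ^ ((q : ℤ) * m3))⁻¹ ∈ W2 := by
    refine (mem_comap_unitsO_iff g2 Nαu π' hπ2' _).mpr ?_
    have e := NormQ2.norm_beta_swap (M * q) q
      (Sigma.sigma M q h : FN (M * q) ≃+* FN (M * q))
      (F.w : FN (M * q * q) ≃+* FN (M * q * q)) (fun x => F.w_alpha x) u
    have h1 := hasV_norm_beta (A := A) hq ξ₀ hm3
    have e' : ((g2 Nαu : Omˣ) : Om) = ((@Algebra.norm (FN (M * q)) (FN (M * q * q)) _ _
        (algebraAlong (heckeBetaBar Kbar (M * q) q)) (F.w u) : FN (M * q)) : Om) :=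
      (congrArg (fun y : FN (M * q) => (y : Om)) e).symm
    rw [e']
    exact h1
  have hβ1 : Nβu * (π' ^ ((q : ℤ) * m1))⁻¹ ∈ W1 :=
    (mem_comap_unitsO_iff g1 Nβu π' hπ1' _).mpr (hasV_norm_beta (A := A) hq ξ₀ hm1)
  have hβ2 : Nβu * (π' ^ ((mN - m1) + m3))⁻¹ ∈ W2 := by
    refine (mem_comap_unitsO_iff g2 Nβu π' hπ2' _).mpr ?_
    have e := NormQ2.norm_alpha_swap (M * q) q
      (Sigma.sigma M q h : FN (M * q) ≃+* FN (M * q))
      (F.w : FN (M * q * q) ≃+* FN (M * q * q)) (fun x => F.w_beta x) u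
    have hprod' := coe_norm_alpha_frame hq F ξ₀ (F.w u)
    have hdP' : IsU A (HahnSeries.C (c₀ ^ (q - 1)) *
        ∏ i : Fin (q - 1), F.r (midPow hq ξ₀ i) (F.w u)) :=
      isU_prod_mid hq F ξ₀ (F.w u) c₀ (fun ξ => isU_mid_w hq F ξ u c₀ hall)
    have hP'V : HasV A q (∏ i : Fin (q - 1), F.r (midPow hq ξ₀ i) (F.w u)) (mN - m1) := by
      have h1 := hdV.mul ((hasV_zero_iff (q := q) _).mpr hdP')
      rwa [← mul_assoc, inv_mul_cancel₀ hCd0, one_mul, add_zero] at h1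
    have h2 := hm3.mul hP'V
    rw [← hprod'] at h2
    have e' : ((g2 Nβu : Omˣ) : Om) = ((@Algebra.norm (FN (M * q)) (FN (M * q * q)) _ _
        (algebraAlong (heckeAlphaBar Kbar (M * q) q)) (F.w u) : FN (M * q)) : Om) :=
      (congrArg (fun y : FN (M * q) => (y : Om)) e).symm
    rw [e', add_comm]
    exact h2
  -- the constants `c`, `c'` are inertia-fixed
  have hcC : ∀ (Nx : FN (M * q)) (x : FN (M * q)) (d : Kbar), x ≠ 0 → Fix A (Nx : Om) →
      Fix A (x : Om) → Nx = algebraMap Kbar (FN (M * q)) d * x ^ n →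
      Fix A ((algebraMap Kbar (FN (M * q)) d : FN (M * q)) : Om) := by
    intro Nx x d hx0 hNx hx hrel
    have hxn0 : x ^ n ≠ 0 := pow_ne_zero n hx0
    have e1 : algebraMap Kbar (FN (M * q)) d = Nx * (x ^ n)⁻¹ := by
      rw [hrel, mul_assoc, mul_inv_cancel₀ hxn0, mul_one]
    have e2 : ((algebraMap Kbar (FN (M * q)) d : FN (M * q)) : Om) =
        (Nx : Om) * ((x : Om) ^ n)⁻¹ := by
      have := congrArg (algebraMap (FN (M * q)) Om) e1
      rw [map_mul, map_inv₀, map_pow] at this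
      exact this
    rw [e2]
    exact hNx.mul (hx.pow n).inv
  have hcfix := hcC _ a c ha0 hNafix hafix hα
  have hcfix' := hcC _ b c' hb0 hNbfix hbfix hβ
  have hcK0 : algebraMap Kbar (FN (M * q)) c ≠ 0 := by rw [Ne, map_eq_zero]; exact hc0
  have hcK0' : algebraMap Kbar (FN (M * q)) c' ≠ 0 := by rw [Ne, map_eq_zero]; exact hc0'
  obtain ⟨e, he⟩ := hinf_low A hinf _ hcK0 hcfix
  obtain ⟨e', he'⟩ := hinf_low A hinf _ hcK0' hcfix'
  obtain ⟨d1, hd1⟩ := hinf_low A hinf a ha0 hafix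
  obtain ⟨d1', hd1'⟩ := hinf_low A hinf b hb0 hbfix
  have hσa0 : Sigma.sigma M q h a ≠ 0 :=
    (map_ne_zero_iff (Sigma.sigma M q h) (Sigma.sigma M q h).injective).mpr ha0
  have hσb0 : Sigma.sigma M q h b ≠ 0 :=
    (map_ne_zero_iff (Sigma.sigma M q h) (Sigma.sigma M q h).injective).mpr hb0
  obtain ⟨d2, hd2⟩ := hinf_low A hinf _ hσa0 (fix_sigma hq hafix)
  obtain ⟨d2', hd2'⟩ := hinf_low A hinf _ hσb0 (fix_sigma hq hbfix)
  let cu : (FN (M * q))ˣ := Units.mk0 _ hcK0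
  let cu' : (FN (M * q))ˣ := Units.mk0 _ hcK0'
  let au : (FN (M * q))ˣ := Units.mk0 a ha0
  let bu : (FN (M * q))ˣ := Units.mk0 b hb0
  have hσc : ∀ d : Kbar, ((Sigma.sigma M q h (algebraMap Kbar (FN (M * q)) d) : FN (M * q)) : Om)
      = ((algebraMap Kbar (FN (M * q)) d : FN (M * q)) : Om) := by
    intro d
    rw [AlgEquiv.commutes]
  have hc1 : cu * (π' ^ e)⁻¹ ∈ W1 := (mem_comap_unitsO_iff g1 cu π' hπ1' e).mpr he
  have hc2 : cu * (π' ^ e)⁻¹ ∈ W2 := by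
    refine (mem_comap_unitsO_iff g2 cu π' hπ2' e).mpr ?_
    have e1 : ((g2 cu : Omˣ) : Om) = ((algebraMap Kbar (FN (M * q)) c : FN (M * q)) : Om) :=
      hσc c
    rw [e1]
    exact he
  have hc1' : cu' * (π' ^ e')⁻¹ ∈ W1 := (mem_comap_unitsO_iff g1 cu' π' hπ1' e').mpr he'
  have hc2' : cu' * (π' ^ e')⁻¹ ∈ W2 := by
    refine (mem_comap_unitsO_iff g2 cu' π' hπ2' e').mpr ?_
    have e1 : ((g2 cu' : Omˣ) : Om) = ((algebraMap Kbar (FN (M * q)) c' : FN (M * q)) : Om) :=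
      hσc c'
    rw [e1]
    exact he'
  have hh1 : au * (π' ^ d1)⁻¹ ∈ W1 := (mem_comap_unitsO_iff g1 au π' hπ1' d1).mpr hd1
  have hh2 : au * (π' ^ d2)⁻¹ ∈ W2 := (mem_comap_unitsO_iff g2 au π' hπ2' d2).mpr hd2
  have hh1' : bu * (π' ^ d1')⁻¹ ∈ W1 := (mem_comap_unitsO_iff g1 bu π' hπ1' d1').mpr hd1'
  have hh2' : bu * (π' ^ d2')⁻¹ ∈ W2 := (mem_comap_unitsO_iff g2 bu π' hπ2' d2').mpr hd2'
  have hNα : Nαu = cu * au ^ n := Units.ext (by
    rw [Units.val_mul, Units.val_pow_eq_pow_val]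
    exact hα)
  have hNβ : Nβu = cu' * bu ^ n := Units.ext (by
    rw [Units.val_mul, Units.val_pow_eq_pow_val]
    exact hβ)
  -- the abstract normalisation
  obtain ⟨H, k, h1, h2, h3⟩ := VNorm.exists_normalised U1 U2 U3 W1 W2 q hq.one_lt hsat π π'
    hW1 hW2 hHs n us m1 (mN - m1) m3 hu1 hu2 hu3 Nαu Nβu cu au cu' bu hα1 hα2 hβ1 hβ2
    e e' hc1 hc2 hc1' hc2' d1 d2 d1' d2' hh1 hh2 hh1' hh2' hNα hNβ
  -- back to field elements
  have hWcoe : (((us ^ (q ^ 2 - 1) * (π ^ k)⁻¹ * (H ^ n)⁻¹ : ↥S) : (FN (M * q * q))ˣ) :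
      FN (M * q * q)) = u ^ (q ^ 2 - 1) *
        ((algebraMap Kbar (FN (M * q * q)) (q : Kbar)) ^ k)⁻¹ *
        (((H : (FN (M * q * q))ˣ) : FN (M * q * q)) ^ n)⁻¹ := by
    rw [Subgroup.coe_mul, Subgroup.coe_mul, Subgroup.coe_inv, Subgroup.coe_inv,
      Subgroup.coe_pow, Subgroup.coe_pow, Subgroup.coe_zpow, Units.val_mul, Units.val_mul,
      Units.val_inv_eq_inv_val, Units.val_inv_eq_inv_val, Units.val_pow_eq_pow_val,
      Units.val_pow_eq_pow_val, Units.val_zpow_eq_zpow_val]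
    rfl
  have hWfix : Fix A ((u ^ (q ^ 2 - 1) *
      ((algebraMap Kbar (FN (M * q * q)) (q : Kbar)) ^ k)⁻¹ *
      (((H : (FN (M * q * q))ˣ) : FN (M * q * q)) ^ n)⁻¹ : FN (M * q * q)) : Om) := by
    rw [← hWcoe]
    exact (us ^ (q ^ 2 - 1) * (π ^ k)⁻¹ * (H ^ n)⁻¹ : ↥S).2.1
  have hw00 : u ^ (q ^ 2 - 1) * ((algebraMap Kbar (FN (M * q * q)) (q : Kbar)) ^ k)⁻¹ *
      (((H : (FN (M * q * q))ˣ) : FN (M * q * q)) ^ n)⁻¹ ≠ 0 := by
    rw [← hWcoe]
    exact Units.ne_zero _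
  have hI1 : IsU A ((u ^ (q ^ 2 - 1) *
      ((algebraMap Kbar (FN (M * q * q)) (q : Kbar)) ^ k)⁻¹ *
      (((H : (FN (M * q * q))ˣ) : FN (M * q * q)) ^ n)⁻¹ : FN (M * q * q)) : Om) := by
    rw [← hWcoe]
    exact mem_unitsO.mp (Subgroup.mem_comap.mp h1)
  have hI3 : IsU A ((F.w (u ^ (q ^ 2 - 1) *
      ((algebraMap Kbar (FN (M * q * q)) (q : Kbar)) ^ k)⁻¹ *
      (((H : (FN (M * q * q))ˣ) : FN (M * q * q)) ^ n)⁻¹) : FN (M * q * q)) : Om) := by
    rw [← hWcoe]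
    exact mem_unitsO.mp (Subgroup.mem_comap.mp h3)
  have hI2 : ∃ s : ℕ, 0 < s ∧ IsU A ((F.r ξ₀ (u ^ (q ^ 2 - 1) *
      ((algebraMap Kbar (FN (M * q * q)) (q : Kbar)) ^ k)⁻¹ *
      (((H : (FN (M * q * q))ˣ) : FN (M * q * q)) ^ n)⁻¹)) ^ s) := by
    rw [← hWcoe]
    exact mem_radO.mp (Subgroup.mem_comap.mp h2)
  -- the middle coordinates: from the radical to units
  obtain ⟨s, hs, hUs⟩ := hI2
  obtain ⟨cw, hcw, hUw⟩ := hmid _ hw00 hWfix
  have hUcs : IsU A (HahnSeries.C (cw ^ s) : Om) := by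
    have h4 := hUw.pow s
    rw [mul_pow, ← map_pow] at h4
    exact h4.of_mul_right hUs
  have hUc : IsU A (HahnSeries.C cw : Om) := by
    obtain ⟨h50, h5, h6⟩ := (isU_C_iff _).mp hUcs
    have hv : A.valuation (cw ^ s) = 1 := valuation_eq_one_of_mem h50 h5 h6
    rw [map_pow] at hv
    have hv1 : A.valuation cw = 1 := (pow_eq_one_iff_of_nonneg zero_le hs.ne').mp hv
    refine (isU_C_iff _).mpr ⟨hcw, (A.valuation_le_one_iff _).mp hv1.le,
      (A.valuation_le_one_iff _).mp ?_⟩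
    rw [map_inv₀, hv1, inv_one]
  have hmid0 := hUw.of_mul_left hUc
  have hmidall : ∀ ξ : Plan.MidIdx q, IsU A (F.r ξ (u ^ (q ^ 2 - 1) *
      ((algebraMap Kbar (FN (M * q * q)) (q : Kbar)) ^ k)⁻¹ *
      (((H : (FN (M * q * q))ˣ) : FN (M * q * q)) ^ n)⁻¹)) := by
    intro ξ
    have h7 : IsU A (HahnSeries.C (1 : Kbar) * F.r ξ₀ (u ^ (q ^ 2 - 1) *
        ((algebraMap Kbar (FN (M * q * q)) (q : Kbar)) ^ k)⁻¹ *
        (((H : (FN (M * q * q))ˣ) : FN (M * q * q)) ^ n)⁻¹)) := by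
      rw [map_one, one_mul]; exact hmid0
    have h8 := isU_mid_of_mid hq hAq F ξ₀ ξ hWfix one_ne_zero h7
    rwa [map_one, one_mul] at h8
  refine ⟨((H : (FN (M * q * q))ˣ) : FN (M * q * q)), k, Units.ne_zero _, ?_, H.2.1, hWfix,
    fun i => ?_⟩
  · intro y hy
    have : y = (H : (FN (M * q * q))ˣ) := Units.ext hy
    rw [this]
    exact H.2.2
  · cases i with
    | inf => exact hI1
    | zero => exact hI3
    | mid ξ => exact hmidall ξ

end Main

end Fermat.Agent.S36.VNormInst
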