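import Mathlib
import Fermat.Agent.S36.OnePlan
import Fermat.Agent.S37.HeckeInputs
import Fermat.Agent.Lib.CorrSemilinear

/-!
# S36 / P8 — [VNORM], packaging step (iv) (helper41)

The last step of the block [VNORM] (`Plan.VNormStmt`): from a pair `(D, u)` (`Plan.PairData`), an
inertia-fixed function `H` of the divisor level and an integer `k`, the pair

  `D' := c • D + div H`,  `u' := u ^ c * q ^ k * H ^ n`

is again a `Plan.PairData`, `D' - c • D` is principal, and `u'` is a unit at every coordinate as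
soon as its `q + 1` expansions are Gauss units.

* `iFix_one`, `iFix_mul`, `iFix_pow`, `iFix_inv`, `iFix_zpow`, `iFix_algebraMap` : closure
  properties of `Plan.IFix`;
* `gal_smul_divisor_eq`  : the divisor of an inertia-fixed function is inertia-stable;
* `exists_divisor_of_iFix` : an inertia-fixed `H ≠ 0` has a divisor, principal and inertia-stable;
* `pairData_mul`         : the `PairData` of `(c • D + div H, u ^ c * κ * H ^ n)` (`κ` an
                           inertia-fixed constant);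
* `pack`                 : the statement consumed by the [VNORM] junction (`u' = u^c q^k H^n`);
* `pack_inv`             : the same with `H⁻¹` (`D' = c • D - div H`, `u' = u^c q^k (H⁻¹)^n`).
-/

set_option autoImplicit false

noncomputable section

namespace Fermat.Agent.S36.VNormPack

open ModularCurve AlgebraicCurve Fermat.Agent.S24 Fermat.Agent.S18 Fermat.Agent.S18.Content
  Fermat.Agent.S18.Plan Fermat.Agent.S34 Fermat.Agent.S36

/-! ## Closure properties of `Plan.IFix` -/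

section IFix

variable {A : ValuationSubring Kbar} {N : ℕ} [NeZero N]

theorem iFix_one : Plan.IFix A N (1 : FN N) := fun _ _ => smul_one _

theorem iFix_mul {f g : FN N} (hf : Plan.IFix A N f) (hg : Plan.IFix A N g) :
    Plan.IFix A N (f * g) := fun τ hτ => by
  rw [smul_mul', hf τ hτ, hg τ hτ]

theorem iFix_pow {f : FN N} (hf : Plan.IFix A N f) (n : ℕ) : Plan.IFix A N (f ^ n) :=
  fun τ hτ => by rw [smul_pow', hf τ hτ]

theorem iFix_inv {f : FN N} (hf : Plan.IFix A N f) : Plan.IFix A N f⁻¹ := fun τ hτ => by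
  rw [smul_inv'', hf τ hτ]

theorem iFix_zpow {f : FN N} (hf : Plan.IFix A N f) (n : ℤ) : Plan.IFix A N (f ^ n) := by
  cases n with
  | ofNat m => simpa using iFix_pow hf m
  | negSucc m => simpa [zpow_negSucc] using iFix_inv (iFix_pow hf (m + 1))

/-- A constant fixed by the inertia group is an inertia-fixed function. -/
theorem iFix_algebraMap {c : Kbar}
    (hc : ∀ τ : Kbar ≃ₐ[ℚ] Kbar, τ ∈ A.inertiaSubgroupIn ℚ → τ c = c) :
    Plan.IFix A N (algebraMap Kbar (FN N) c) := fun τ hτ => by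
  show arithmeticGalois (modularFunctionFieldFull N) τ • algebraMap Kbar (FN N) c = _
  rw [SemilinearAut.smul_algebraMap, baseAut_arithmeticGalois]
  exact congrArg _ (hc τ hτ)

/-- A rational constant is an inertia-fixed function. -/
theorem iFix_algebraMap_rat (r : ℚ) :
    Plan.IFix A N (algebraMap Kbar (FN N) (algebraMap ℚ Kbar r)) :=
  iFix_algebraMap fun τ _ => τ.commutes r

/-- `q ^ k` (`k : ℤ`) is an inertia-fixed constant. -/
theorem iFix_algebraMap_natCast_zpow (q : ℕ) (k : ℤ) :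
    Plan.IFix A N (algebraMap Kbar (FN N) ((q : Kbar) ^ k)) :=
  iFix_algebraMap fun τ _ => by rw [map_zpow₀, map_natCast]

end IFix

/-! ## Divisors of inertia-fixed functions -/

section Ord

variable {N : ℕ}

/-- The order of a natural power. -/
theorem ord_npow (P : Place Kbar (FN N)) (f : FN N) (m : ℕ) : P.ord (f ^ m) = m * P.ord f := by
  rw [← zpow_natCast, Place.ord_zpow]

end Ord

section Div

variable {A : ValuationSubring Kbar} {N : ℕ} [NeZero N]

/-- The divisor of an inertia-fixed function is inertia-stable. -/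
theorem gal_smul_divisor_eq {H : FN N} (hH : Plan.IFix A N H) {DH : Divisor Kbar (FN N)}
    (hDH : ∀ P : Place Kbar (FN N), DH P = P.ord H) (τ : Kbar ≃ₐ[ℚ] Kbar)
    (hτ : τ ∈ A.inertiaSubgroupIn ℚ) : S34.Plan.gal N τ • DH = DH := by
  ext P
  rw [SemilinearAut.divisor_smul_apply, hDH, hDH]
  have h := SemilinearAut.ord_smul (S34.Plan.gal N τ) ((S34.Plan.gal N τ)⁻¹ • P) H
  rw [smul_inv_smul, hH τ hτ] at h
  exact h.symm

/-- An inertia-fixed function `H ≠ 0` has a divisor; it is principal and inertia-stable. -/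
theorem exists_divisor_of_iFix {H : FN N} (hH0 : H ≠ 0) (hH : Plan.IFix A N H) :
    ∃ DH : Divisor Kbar (FN N), (∀ P : Place Kbar (FN N), DH P = P.ord H) ∧
      DH ∈ Divisor.principal (K := Kbar) (F := FN N) ∧
      ∀ τ : Kbar ≃ₐ[ℚ] Kbar, τ ∈ A.inertiaSubgroupIn ℚ → S34.Plan.gal N τ • DH = DH := by
  have := Fermat.Agent.S37.HeckeInputs.hasPrincipalDivisors_FN N
  obtain ⟨DH, hDH, -⟩ := HasPrincipalDivisors.exists_divisor (K := Kbar) H hH0
  exact ⟨DH, hDH, ⟨H, hH0, hDH⟩, fun τ hτ => gal_smul_divisor_eq hH hDH τ hτ⟩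

end Div

/-! ## The packaging -/

section Pack

variable {N' M q : ℕ} [NeZero N'] [NeZero M] [NeZero q]
variable {A : ValuationSubring Kbar}

/-- The `PairData` of `(c • D + div H, u ^ c * κ * H ^ n)` for an inertia-fixed function `H ≠ 0`
and an inertia-fixed constant `κ ≠ 0`. -/
theorem pairData_mul {D : Divisor Kbar (FN (N' * q))} {n : ℕ} {u : FN (N' * q)}
    (hP : Plan.PairData A N' q D n u) (c : ℕ) (κ : Kbar) (hκ0 : κ ≠ 0)
    (hκ : ∀ τ : Kbar ≃ₐ[ℚ] Kbar, τ ∈ A.inertiaSubgroupIn ℚ → τ κ = κ)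
    (H : FN (N' * q)) (hH0 : H ≠ 0) (hHfix : Plan.IFix A (N' * q) H) :
    ∃ D' : Divisor Kbar (FN (N' * q)),
      D' - c • D ∈ Divisor.principal (K := Kbar) (F := FN (N' * q)) ∧
      Plan.PairData A N' q D' n (u ^ c * algebraMap Kbar (FN (N' * q)) κ * H ^ n) := by
  obtain ⟨DH, hDH, hDHp, hDHst⟩ := exists_divisor_of_iFix hH0 hHfix
  have hκ' : algebraMap Kbar (FN (N' * q)) κ ≠ 0 := (map_ne_zero _).mpr hκ0
  have huc : u ^ c ≠ 0 := pow_ne_zero _ hP.ne
  have hHn : H ^ n ≠ 0 := pow_ne_zero _ hH0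
  have hcls : (c • D + DH) - c • D ∈ Divisor.principal (K := Kbar) (F := FN (N' * q)) := by
    rw [add_sub_cancel_left]
    exact hDHp
  refine ⟨c • D + DH, hcls, Plan.PairData.of_principal hP hcls (fun τ hτ => ?_)
    (mul_ne_zero (mul_ne_zero huc hκ') hHn) (fun P => ?_)
    (iFix_mul (iFix_mul (iFix_pow hP.fix c) (iFix_algebraMap hκ)) (iFix_pow hHfix n))⟩
  · rw [smul_add, smul_comm, hP.stable.stable τ hτ, hDHst τ hτ]
  · rw [Place.ord_mul P (mul_ne_zero huc hκ') hHn, Place.ord_mul P huc hκ',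
      Fermat.Agent.Lib.FFPlaces.ord_algebraMap, ord_npow, ord_npow, hP.ord P,
      Finsupp.add_apply, Finsupp.smul_apply, hDH P]
    simp only [nsmul_eq_mul]
    ring

/-- **[VNORM], step (iv).**  `D' := c • D + div H`, `u' := u ^ c * q ^ k * H ^ n`: if the `q + 1`
expansions of (the top-level copy `w` of) `u'` are Gauss units, then `(D', u')` is a pair with
`D' ~ c • D` and `u'` is a unit of `O` at every coordinate. -/
theorem pack {h : Nat.Coprime M q} {F : Plan.Frame M q h}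
    {O : Subring Om} {ρ : O →+* Plan.Rq A q} (hS : Plan.IsSetup A F O ρ)
    {D : Divisor Kbar (FN (N' * q))} {n : ℕ} {u : FN (N' * q)} (hP : Plan.PairData A N' q D n u)
    (c : ℕ) (k : ℤ) (H : FN (N' * q)) (hH0 : H ≠ 0) (hHfix : Plan.IFix A (N' * q) H)
    (w : FN (M * q * q))
    (hw : (w : Om) = ((u ^ c * algebraMap Kbar (FN (N' * q)) ((q : Kbar) ^ k) * H ^ n :
      FN (N' * q)) : Om))
    (hU : ∀ i : Plan.Coord q, ∃ h' : F.emb i w ∈ Ocal A, red A ⟨_, h'⟩ ≠ 0) :
    ∃ (D' : Divisor Kbar (FN (N' * q))) (u' : FN (N' * q)),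
      D' - c • D ∈ Divisor.principal (K := Kbar) (F := FN (N' * q)) ∧
      Plan.PairData A N' q D' n u' ∧
      ∃ hu' : (u' : Om) ∈ O, ∀ i : Plan.Coord q, ρ ⟨_, hu'⟩ i ≠ 0 := by
  have hq0 : ((q : Kbar) ^ k) ≠ 0 := zpow_ne_zero _ (Nat.cast_ne_zero.mpr (NeZero.ne q))
  obtain ⟨D', hcls, hPD⟩ := pairData_mul hP c ((q : Kbar) ^ k) hq0
    (fun τ _ => by rw [map_zpow₀, map_natCast]) H hH0 hHfix
  have hwO : (w : Om) ∈ O := (hS.mem_iff w).2 fun i => (hU i).1
  refine ⟨D', _, hcls, hPD, hw ▸ hwO, fun i => ?_⟩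
  obtain ⟨hi, hne⟩ := hU i
  have h1 : ρ ⟨(w : Om), hwO⟩ i ≠ 0 := by
    rw [hS.ρ_apply w hwO i hi]
    exact hne
  have h2 : (⟨((u ^ c * algebraMap Kbar (FN (N' * q)) ((q : Kbar) ^ k) * H ^ n :
      FN (N' * q)) : Om), hw ▸ hwO⟩ : O) = ⟨(w : Om), hwO⟩ := Subtype.ext hw.symm
  rw [h2]
  exact h1

/-- **[VNORM], step (iv), inverse form.**  `D' := c • D - div H`,
`u' := u ^ c * q ^ k * (H⁻¹) ^ n`. -/
theorem pack_inv {h : Nat.Coprime M q} {F : Plan.Frame M q h}
    {O : Subring Om} {ρ : O →+* Plan.Rq A q} (hS : Plan.IsSetup A F O ρ)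
    {D : Divisor Kbar (FN (N' * q))} {n : ℕ} {u : FN (N' * q)} (hP : Plan.PairData A N' q D n u)
    (c : ℕ) (k : ℤ) (H : FN (N' * q)) (hH0 : H ≠ 0) (hHfix : Plan.IFix A (N' * q) H)
    (w : FN (M * q * q))
    (hw : (w : Om) = ((u ^ c * algebraMap Kbar (FN (N' * q)) ((q : Kbar) ^ k) * H⁻¹ ^ n :
      FN (N' * q)) : Om))
    (hU : ∀ i : Plan.Coord q, ∃ h' : F.emb i w ∈ Ocal A, red A ⟨_, h'⟩ ≠ 0) :
    ∃ (D' : Divisor Kbar (FN (N' * q))) (u' : FN (N' * q)),
      D' - c • D ∈ Divisor.principal (K := Kbar) (F := FN (N' * q)) ∧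
      Plan.PairData A N' q D' n u' ∧
      ∃ hu' : (u' : Om) ∈ O, ∀ i : Plan.Coord q, ρ ⟨_, hu'⟩ i ≠ 0 :=
  pack hS hP c k H⁻¹ (inv_ne_zero hH0) (iFix_inv hHfix) w hw hU

end Pack

end Fermat.Agent.S36.VNormPack

end
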