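import Mathlib
import Fermat.Agent.S34.ValArch

/-!
# S36 / P8 — [VAL-ARCH-FAM]: one-valuation scaling from joint scaling, for a finite family of
embeddings (owner: helper48)

Generic setting: `K` a field, `A : ValuationSubring K`, `Ocal A ⊂ K((T))` the content ring with its
reduction `red A` (`S18/ContentBase`), `F` a field over `K` and a family of `K`-embeddings
`ε i : F →ₐ[K] K((T))` (instance of P8: `K = Q̄`, `F = F_{q²M}`, `ε` = the expansions at the cusps
`∞`, `0` and the middle cusps, so that `v_i = Gauss ∘ ε i`).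

Hypotheses:
* `JointScale A ε` (V1): every `y ≠ 0` of `F` has a constant multiple `c y` with all
  `ε i (c y) ∈ Ocal` and one of them a unit;
* for the coordinate `i` a *one-component element* `e`: `ε i e` is a unit of `Ocal` and every other
  `ε k e` is a non-unit constant times an element (a unit) of `Ocal`;
* `ValArch.RankOne A`: the value group of `A` is archimedean.

Conclusions:
* `scale₁` (V1'): every `y ≠ 0` of `F` has `ε i y` = a constant times a unit of `Ocal`;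
* `exists_pow_mul_mem`: for `y` with `ε i y ∈ Ocal` some `y e^s` has all `ε k (y e^s) ∈ Ocal`;
* `redInto` (HB): a property of the `i`-th reductions of the jointly integral elements holds for
  the reductions of all `y` with `ε i y ∈ Ocal`.

This is the family version of `S34/ValArch.lean` (two coordinates `id`, `σ`).
-/

set_option autoImplicit false

noncomputable section

namespace Fermat.Agent.S36.ValArchFam

open Fermat.Agent.S18.Content Fermat.Agent.S34

variable {K : Type*} [Field K] (A : ValuationSubring K)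
variable {F : Type*} [Field F] [Algebra K F] {ι : Type*}
variable (ε : ι → F →ₐ[K] LaurentSeries K)

/-! ### Contracts -/

/-- **(V1)** joint scaling for the family `(Gauss ∘ ε i)_i`. -/
def JointScale : Prop :=
  ∀ y : F, y ≠ 0 → ∃ c : K, c ≠ 0 ∧
    ∃ h : ∀ i, HahnSeries.C c * ε i y ∈ Ocal A, ∃ i, red A ⟨_, h i⟩ ≠ 0

/-- **(V1')** one-valuation scaling for the coordinate `i`. -/
def Scale₁ (i : ι) : Prop :=
  ∀ y : F, y ≠ 0 → ∃ c : K, c ≠ 0 ∧
    ∃ h : HahnSeries.C c * ε i y ∈ Ocal A, red A ⟨_, h⟩ ≠ 0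

/-- `x` is a non-unit constant of `A` times an element of `Ocal`. -/
def IsSmall (x : LaurentSeries K) : Prop :=
  ∃ d : K, d ≠ 0 ∧ d⁻¹ ∉ A ∧ ∃ u : LaurentSeries K, u ∈ Ocal A ∧ x = HahnSeries.C d * u

/-- A one-component element for the coordinate `i`: a unit of `Ocal` in the coordinate `i`, a
non-unit constant times an integral series in every other coordinate. -/
structure OneComp (i : ι) (e : F) : Prop where
  mem : ε i e ∈ Ocal A
  red_ne : red A ⟨_, mem⟩ ≠ 0
  small : ∀ k, k ≠ i → IsSmall A (ε k e)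

variable {A ε}

/-! ### Small facts -/

lemma eps_const_mul (k : ι) (c : K) (y : F) :
    ε k (algebraMap K F c * y) = HahnSeries.C c * ε k y := by
  rw [map_mul, AlgHom.commutes, algebraMap_LS_eq_C]

lemma eps_ne_zero (k : ι) {y : F} (hy : y ≠ 0) : ε k y ≠ 0 :=
  fun h0 => hy ((map_eq_zero_iff (ε k) (ε k).toRingHom.injective).1 h0)

/-- If `C c * w` is a unit of `Ocal` and `w ∈ Ocal`, then `c⁻¹ ∈ A`. -/
lemma inv_mem_of_C_mul_mem (c : K) (w : LaurentSeries K) (hw : w ∈ Ocal A)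
    (h : HahnSeries.C c * w ∈ Ocal A) (hr : red A ⟨_, h⟩ ≠ 0) : c⁻¹ ∈ A := by
  have h0 : HahnSeries.C c * w ≠ 0 := ne_zero_of_red_ne_zero A ⟨_, h⟩ hr
  have hc : c ≠ 0 := by
    intro hc
    apply h0
    rw [hc, map_zero, zero_mul]
  have hinv : (HahnSeries.C c * w)⁻¹ ∈ Ocal A := inv_mem_Ocal A ⟨_, h⟩ hr
  have hCC : (HahnSeries.C c⁻¹ : LaurentSeries K) * HahnSeries.C c = 1 := by
    rw [← map_mul, inv_mul_cancel₀ hc, map_one]
  have hE : (HahnSeries.C c⁻¹ : LaurentSeries K) = w * (HahnSeries.C c * w)⁻¹ := by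
    have h1 : (HahnSeries.C c * w) * (HahnSeries.C c * w)⁻¹ = 1 := mul_inv_cancel₀ h0
    calc (HahnSeries.C c⁻¹ : LaurentSeries K)
        = HahnSeries.C c⁻¹ * ((HahnSeries.C c * w) * (HahnSeries.C c * w)⁻¹) := by
          rw [h1, mul_one]
      _ = (HahnSeries.C c⁻¹ * HahnSeries.C c) * (w * (HahnSeries.C c * w)⁻¹) := by ring
      _ = w * (HahnSeries.C c * w)⁻¹ := by rw [hCC, one_mul]
  have hm : (HahnSeries.C c⁻¹ : LaurentSeries K) ∈ Ocal A := by
    rw [hE]; exact (Ocal A).mul_mem hw hinv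
  exact (C_mem_Ocal_iff A c⁻¹).1 hm

/-! ### The descent -/

/-- The descent step: induction on the archimedean bound. -/
theorem descend (hJ : JointScale A ε) (i : ι) (e : F) (he : ε i e ∈ Ocal A)
    (her : red A ⟨_, he⟩ ≠ 0) (d₀ : K) (hd₀ : d₀ ≠ 0)
    (hsmall : ∀ k, k ≠ i → ∃ d : K, d ≠ 0 ∧ d * d₀⁻¹ ∈ A ∧
      ∃ u : LaurentSeries K, u ∈ Ocal A ∧ ε k e = HahnSeries.C d * u) :
    ∀ (n : ℕ) (g : F), (∀ k, ε k g ∈ Ocal A) → ∀ (a : K) (g' : LaurentSeries K), g' ∈ Ocal A →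
      ε i g * g' = HahnSeries.C a → a ≠ 0 → d₀ ^ n * a⁻¹ ∈ A →
      ∃ c : K, c ≠ 0 ∧ ∃ h : HahnSeries.C c * ε i g ∈ Ocal A, red A ⟨_, h⟩ ≠ 0 := by
  have he0 : ε i e ≠ 0 := ne_zero_of_red_ne_zero A ⟨_, he⟩ her
  have heF : e ≠ 0 := fun h0 => he0 (by rw [h0, map_zero])
  intro n
  induction n with
  | zero =>
    intro g hg a g' hg' hgg' ha0 han
    rw [pow_zero, one_mul] at han
    have hr := ValArch.red_ne_zero_of_mul_eq_C A (hg i) hg' hgg' ha0 han
    have hE : HahnSeries.C (1 : K) * ε i g = ε i g := by rw [map_one, one_mul]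
    have hm : HahnSeries.C (1 : K) * ε i g ∈ Ocal A := by rw [hE]; exact hg i
    exact ⟨1, one_ne_zero, hm, fun h0 => hr ((red_congr A hE hm (hg i)).symm.trans h0)⟩
  | succ n ih =>
    intro g hg a g' hg' hgg' ha0 han
    have hg0 : ε i g ≠ 0 := by
      intro h0
      rw [h0, zero_mul] at hgg'
      exact ha0 (HahnSeries.C_injective (by rw [← hgg', map_zero]))
    have hgF : g ≠ 0 := fun h0 => hg0 (by rw [h0, map_zero])
    obtain ⟨c₁, hc₁, h, k₁, hk₁⟩ := hJ (g * e) (mul_ne_zero hgF heF)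
    by_cases hk : k₁ = i
    · -- the coordinate `i` is already a unit
      subst hk
      have hE : HahnSeries.C c₁ * ε k₁ (g * e) = HahnSeries.C c₁ * ε k₁ g * ε k₁ e := by
        rw [map_mul, mul_assoc]
      have h' : HahnSeries.C c₁ * ε k₁ g * ε k₁ e ∈ Ocal A := by rw [← hE]; exact h k₁
      have hr' : red A ⟨_, h'⟩ ≠ 0 := fun h0 => hk₁ ((red_congr A hE (h k₁) h').trans h0)
      obtain ⟨h'', hr''⟩ := ValArch.unit_of_mul_unit A _ _ he her h' hr'
      exact ⟨c₁, hc₁, h'', hr''⟩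
    · obtain ⟨d, hd, hdd₀, u, hu, hfac⟩ := hsmall k₁ hk
      -- `c₁ d` has its inverse in `A`
      have hw : ε k₁ g * u ∈ Ocal A := (Ocal A).mul_mem (hg k₁) hu
      have hEq : HahnSeries.C c₁ * ε k₁ (g * e) = HahnSeries.C (c₁ * d) * (ε k₁ g * u) := by
        rw [map_mul, hfac, map_mul]; ring
      have h₂ : HahnSeries.C (c₁ * d) * (ε k₁ g * u) ∈ Ocal A := by rw [← hEq]; exact h k₁
      have h₂r : red A ⟨_, h₂⟩ ≠ 0 := fun h0 => hk₁ ((red_congr A hEq (h k₁) h₂).trans h0)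
      have hcdinv : (c₁ * d)⁻¹ ∈ A := inv_mem_of_C_mul_mem (c₁ * d) _ hw h₂ h₂r
      -- apply the induction hypothesis to `g₁ = c₁ • (g * e)`
      have hg₁ : ∀ k, ε k (algebraMap K F c₁ * (g * e)) ∈ Ocal A := fun k => by
        rw [eps_const_mul]; exact h k
      have hinv : (ε i e)⁻¹ ∈ Ocal A := inv_mem_Ocal A ⟨_, he⟩ her
      have hprod : ε i (algebraMap K F c₁ * (g * e)) * (g' * (ε i e)⁻¹) =
          HahnSeries.C (c₁ * a) := by
        rw [eps_const_mul, map_mul, map_mul, ← hgg']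
        have h1 : ε i e * (ε i e)⁻¹ = 1 := mul_inv_cancel₀ he0
        calc HahnSeries.C c₁ * (ε i g * ε i e) * (g' * (ε i e)⁻¹)
            = HahnSeries.C c₁ * (ε i g * g') * (ε i e * (ε i e)⁻¹) := by ring
          _ = HahnSeries.C c₁ * (ε i g * g') := by rw [h1, mul_one]
      have hbound : d₀ ^ n * (c₁ * a)⁻¹ ∈ A := by
        have : d₀ ^ n * (c₁ * a)⁻¹ = d₀ ^ (n + 1) * a⁻¹ * ((c₁ * d)⁻¹ * (d * d₀⁻¹)) := by
          rw [pow_succ]
          field_simp
        rw [this]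
        exact A.mul_mem _ _ han (A.mul_mem _ _ hcdinv hdd₀)
      obtain ⟨c₂, hc₂, h₃, hr₃⟩ := ih (algebraMap K F c₁ * (g * e)) hg₁ (c₁ * a)
        (g' * (ε i e)⁻¹) ((Ocal A).mul_mem hg' hinv) hprod (mul_ne_zero hc₁ ha0) hbound
      have hE : HahnSeries.C c₂ * ε i (algebraMap K F c₁ * (g * e)) =
          HahnSeries.C (c₂ * c₁) * ε i g * ε i e := by
        rw [eps_const_mul, map_mul, map_mul]; ring
      have h' : HahnSeries.C (c₂ * c₁) * ε i g * ε i e ∈ Ocal A := by rw [← hE]; exact h₃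
      have hr' : red A ⟨_, h'⟩ ≠ 0 := fun h0 => hr₃ ((red_congr A hE h₃ h').trans h0)
      obtain ⟨h'', hr''⟩ := ValArch.unit_of_mul_unit A _ _ he her h' hr'
      exact ⟨c₂ * c₁, mul_ne_zero hc₂ hc₁, h'', hr''⟩

/-- A common bound for the small constants of a one-component element. -/
theorem exists_bound [Finite ι] (i : ι) (e : F) (he : OneComp A ε i e) (hne : ∃ k, k ≠ i) :
    ∃ d₀ : K, d₀ ≠ 0 ∧ d₀⁻¹ ∉ A ∧ ∀ k, k ≠ i → ∃ d : K, d ≠ 0 ∧ d * d₀⁻¹ ∈ A ∧
      ∃ u : LaurentSeries K, u ∈ Ocal A ∧ ε k e = HahnSeries.C d * u := by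
  classical
  cases nonempty_fintype ι
  choose d hd hdinv u hu hfac using he.small
  let f : ι → A.ValueGroup := fun k => if h : k ≠ i then A.valuation (d k h) else 0
  have hS : (Finset.univ.filter (fun k : ι => k ≠ i)).Nonempty := by
    obtain ⟨k, hk⟩ := hne
    exact ⟨k, Finset.mem_filter.mpr ⟨Finset.mem_univ _, hk⟩⟩
  obtain ⟨k₀, hk₀, hmax⟩ := Finset.exists_max_image _ f hS
  have hk₀i : k₀ ≠ i := (Finset.mem_filter.mp hk₀).2
  refine ⟨d k₀ hk₀i, hd k₀ hk₀i, hdinv k₀ hk₀i, fun k hk => ⟨d k hk, hd k hk, ?_, u k hk, hu k hk,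
    hfac k hk⟩⟩
  have h1 : f k ≤ f k₀ := hmax k (Finset.mem_filter.mpr ⟨Finset.mem_univ _, hk⟩)
  have h2 : A.valuation (d k hk) ≤ A.valuation (d k₀ hk₀i) := by
    simpa [f, hk, hk₀i] using h1
  rw [← ValuationSubring.valuation_le_one_iff, map_mul, map_inv₀]
  exact mul_inv_le_one_of_le₀ h2 zero_le

/-- **(V1')**: for every `y ≠ 0` of `F`, `ε i y` is a constant times a unit of `Ocal`. -/
theorem scale₁ [Finite ι] (hJ : JointScale A ε) (hR : ValArch.RankOne A) (i : ι) (e : F)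
    (he : OneComp A ε i e) : Scale₁ A ε i := by
  intro y hy
  obtain ⟨c₀, hc₀, h, k₁, hk₁⟩ := hJ y hy
  by_cases hne : ∃ k, k ≠ i
  swap
  · push Not at hne
    rw [hne k₁] at hk₁
    exact ⟨c₀, hc₀, h i, hk₁⟩
  obtain ⟨d₀, hd₀, hd₀inv, hsmall⟩ := exists_bound i e he hne
  have hc₀F : (algebraMap K F c₀ : F) ≠ 0 := fun h0 =>
    hc₀ ((map_eq_zero_iff _ (algebraMap K F).injective).1 h0)
  have hgF : algebraMap K F c₀ * y ≠ 0 := mul_ne_zero hc₀F hy
  have hg : ∀ k, ε k (algebraMap K F c₀ * y) ∈ Ocal A := fun k => by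
    rw [eps_const_mul]; exact h k
  have hg0 : ε i (algebraMap K F c₀ * y) ≠ 0 := eps_ne_zero i hgF
  obtain ⟨a, ha, k, -⟩ := hJ (algebraMap K F c₀ * y)⁻¹ (inv_ne_zero hgF)
  have hprod : ε i (algebraMap K F c₀ * y) *
      (HahnSeries.C a * ε i (algebraMap K F c₀ * y)⁻¹) = HahnSeries.C a := by
    rw [map_inv₀, mul_left_comm, mul_inv_cancel₀ hg0, mul_one]
  obtain ⟨n, hn⟩ := hR a d₀ ha hd₀ hd₀inv
  obtain ⟨c, hc, h', hr⟩ := descend hJ i e he.mem he.red_ne d₀ hd₀ hsmall n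
    (algebraMap K F c₀ * y) hg a _ (k i) hprod ha hn
  have hE : HahnSeries.C c * ε i (algebraMap K F c₀ * y) = HahnSeries.C (c * c₀) * ε i y := by
    rw [eps_const_mul, map_mul, mul_assoc]
  have h'' : HahnSeries.C (c * c₀) * ε i y ∈ Ocal A := by rw [← hE]; exact h'
  exact ⟨c * c₀, mul_ne_zero hc hc₀, h'', fun h0 => hr ((red_congr A hE h' h'').trans h0)⟩

/-- (V1') in the spelling of `S34.CharBad.ScaleProp`, for the image field `ε i (F)`. -/
theorem scaleProp_of_scale₁ {i : ι} (h : Scale₁ A ε i) :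
    ∀ y : LaurentSeries K, y ∈ (ε i).range → y ≠ 0 →
      ∃ c : K, c ≠ 0 ∧ ∃ h : HahnSeries.C c * y ∈ Ocal A, red A ⟨_, h⟩ ≠ 0 := by
  rintro y ⟨x, rfl⟩ hy0
  exact h x (fun h0 => hy0 (by rw [h0, map_zero]))

/-! ### Making an element jointly integral -/

/-- For `y` with `ε i y ∈ Ocal` some `y * e ^ s` (`e` the one-component element of the coordinate
`i`) is integral in every coordinate. -/
theorem exists_pow_mul_mem [Finite ι] (hJ : JointScale A ε) (hR : ValArch.RankOne A)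
    (e : ι → F) (he : ∀ i, OneComp A ε i (e i)) (i : ι) (y : F) (hy : ε i y ∈ Ocal A) :
    ∃ s : ℕ, ∀ k, ε k (y * e i ^ s) ∈ Ocal A := by
  classical
  cases nonempty_fintype ι
  by_cases hy0 : y = 0
  · refine ⟨0, fun k => ?_⟩
    rw [hy0, zero_mul, map_zero]; exact (Ocal A).zero_mem
  -- for every other coordinate an exponent
  have hex : ∀ k, ∃ s : ℕ, ∀ t : ℕ, s ≤ t → ε k (y * e i ^ t) ∈ Ocal A := by
    intro k
    by_cases hk : k = i
    · subst hk
      refine ⟨0, fun t _ => ?_⟩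
      rw [map_mul, map_pow]
      exact (Ocal A).mul_mem hy ((Ocal A).pow_mem (he k).mem t)
    · obtain ⟨d, hd, hdinv, u, hu, hfac⟩ := (he i).small k hk
      obtain ⟨c, hc, hv, -⟩ := scale₁ hJ hR k (e k) (he k) y hy0
      obtain ⟨s, hs⟩ := hR c d hc hd hdinv
      have hdA : d ∈ A := (A.mem_or_inv_mem d).resolve_right hdinv
      refine ⟨s, fun t hst => ?_⟩
      have hdt : d ^ t * c⁻¹ ∈ A := by
        obtain ⟨r, rfl⟩ := Nat.exists_eq_add_of_le hst
        have : d ^ (s + r) * c⁻¹ = d ^ r * (d ^ s * c⁻¹) := by rw [pow_add]; ring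
        rw [this]
        exact A.mul_mem _ _ (A.pow_mem hdA r) hs
      have hCC : (HahnSeries.C c⁻¹ : LaurentSeries K) * HahnSeries.C c = 1 := by
        rw [← map_mul, inv_mul_cancel₀ hc, map_one]
      have hE : ε k (y * e i ^ t) =
          HahnSeries.C (d ^ t * c⁻¹) * ((HahnSeries.C c * ε k y) * u ^ t) := by
        rw [map_mul, map_pow, hfac, mul_pow, map_mul, map_pow]
        calc ε k y * ((HahnSeries.C d : LaurentSeries K) ^ t * u ^ t)
            = (HahnSeries.C c⁻¹ * HahnSeries.C c) *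
                (ε k y * ((HahnSeries.C d : LaurentSeries K) ^ t * u ^ t)) := by
              rw [hCC, one_mul]
          _ = _ := by ring
      rw [hE]
      exact (Ocal A).mul_mem (C_mem_Ocal A hdt) ((Ocal A).mul_mem hv ((Ocal A).pow_mem hu t))
  choose s hs using hex
  exact ⟨Finset.univ.sup s, fun k => hs k _ (Finset.le_sup (Finset.mem_univ k))⟩

/-- The reduction of `y * e ^ s` in the coordinate `i`. -/
theorem red_mul_pow (i : ι) (e y : F) (he : ε i e ∈ Ocal A) (hy : ε i y ∈ Ocal A) (s : ℕ)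
    (h : ε i (y * e ^ s) ∈ Ocal A) :
    red A ⟨_, h⟩ = red A ⟨_, hy⟩ * red A ⟨_, he⟩ ^ s := by
  have h1 : (⟨_, h⟩ : Ocal A) = (⟨_, hy⟩ : Ocal A) * (⟨_, he⟩ : Ocal A) ^ s :=
    Subtype.ext (by
      show ε i (y * e ^ s) = ε i y * ε i e ^ s
      rw [map_mul, map_pow])
  rw [h1, map_mul, map_pow]

/-- **(HB)**: a property of the `i`-th reductions of the jointly integral elements of `F` holds
for the reductions of all `y` with `ε i y ∈ Ocal` (one-component element with reduction `1`). -/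
theorem redInto [Finite ι] (hJ : JointScale A ε) (hR : ValArch.RankOne A)
    (e : ι → F) (he : ∀ i, OneComp A ε i (e i)) (i : ι)
    (he1 : red A ⟨_, (he i).mem⟩ = 1)
    (P : LaurentSeries (IsLocalRing.ResidueField A) → Prop)
    (hP : ∀ (g : F) (h : ∀ k, ε k g ∈ Ocal A), P (red A ⟨_, h i⟩)) :
    ∀ (y : F) (hy : ε i y ∈ Ocal A), P (red A ⟨_, hy⟩) := by
  intro y hy
  obtain ⟨s, hs⟩ := exists_pow_mul_mem hJ hR e he i y hy
  have := hP _ hs
  rw [red_mul_pow i (e i) y (he i).mem hy s (hs i), he1, one_pow, mul_one] at this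
  exact this

end Fermat.Agent.S36.ValArchFam

end
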