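import Mathlib
import Fermat.Agent.S34.CharBad
import Fermat.Agent.S36.ValArchFam

/-!
# S36 / P8 — [VAL-ARCH-ONE]: (V1') and (HB) for ONE coordinate of a family of expansions
(owner: helper48)

Complements `S36/ValArchFam.lean`.  There `exists_pow_mul_mem` / `redInto` ask a one-component
element for EVERY coordinate; at level `q²` the middle coordinates have none (coordinates in the
same square class induce the same valuation).  Here only the coordinate `i` in question needs a
one-component element `e`: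

* `exists_pow_mul_mem_one`: for `y` with `ε i y ∈ Ocal` some `y * e ^ s` is integral in every
  coordinate;
* `redInto_one` (HB): a property of the `i`-th reductions of the jointly integral elements holds
  for the reductions of all `y` with `ε i y ∈ Ocal`;
* `scaleProp_redInto_of_family`: the `S34.CharBad` spelling — for a family of expansions of
  `F_N` whose coordinate `i₀` is the inclusion: `CharBad.ScaleProp A N ∧ CharBad.RedInto A N n`
  from joint scaling, the range of the `i₀`-th reduction on jointly integral elements, and a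
  one-component element for `i₀`;
* helpers to build `OneComp`: `isSmall_C_mul`, `isSmall_mul_right`, `isSmall_mul_left`,
  `isSmall_mem_red`, `oneComp_div_unit`.
-/

set_option autoImplicit false

noncomputable section

namespace Fermat.Agent.S36.ValArchOne

open Fermat.Agent.S18.Content Fermat.Agent.S34 Fermat.Agent.S36.ValArchFam

variable {K : Type*} [Field K] {A : ValuationSubring K}
variable {F : Type*} [Field F] [Algebra K F] {ι : Type*}
variable {ε : ι → F →ₐ[K] LaurentSeries K}

/-! ### Building small elements and one-component elements -/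

/-- A non-unit constant times an integral series is small. -/
theorem isSmall_C_mul {d : K} (hd : d ≠ 0) (hdinv : d⁻¹ ∉ A) {u : LaurentSeries K}
    (hu : u ∈ Ocal A) : IsSmall A (HahnSeries.C d * u) :=
  ⟨d, hd, hdinv, u, hu, rfl⟩

/-- A small series times an integral series is small. -/
theorem isSmall_mul_right {x w : LaurentSeries K} (hx : IsSmall A x) (hw : w ∈ Ocal A) :
    IsSmall A (x * w) := by
  obtain ⟨d, hd, hdinv, u, hu, rfl⟩ := hx
  exact ⟨d, hd, hdinv, u * w, (Ocal A).mul_mem hu hw, by rw [mul_assoc]⟩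

/-- An integral series times a small series is small. -/
theorem isSmall_mul_left {x w : LaurentSeries K} (hx : IsSmall A x) (hw : w ∈ Ocal A) :
    IsSmall A (w * x) := by
  rw [mul_comm]; exact isSmall_mul_right hx hw

/-- A small series lies in `Ocal` and has reduction `0`. -/
theorem isSmall_mem_red {x : LaurentSeries K} (hx : IsSmall A x) :
    ∃ h : x ∈ Ocal A, red A ⟨x, h⟩ = 0 := by
  obtain ⟨d, hd, hdinv, u, hu, rfl⟩ := hx
  have hdA : d ∈ A := (A.mem_or_inv_mem d).resolve_right hdinv
  have hm : HahnSeries.C d * u ∈ Ocal A := (Ocal A).mul_mem (C_mem_Ocal A hdA) hu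
  refine ⟨hm, ?_⟩
  have h1 : (⟨HahnSeries.C d * u, hm⟩ : Ocal A) = ⟨HahnSeries.C d, C_mem_Ocal A hdA⟩ * ⟨u, hu⟩ :=
    rfl
  have hres : IsLocalRing.residue A ⟨d, hdA⟩ = 0 := by
    rw [IsLocalRing.residue_eq_zero_iff]
    rw [IsLocalRing.mem_maximalIdeal]
    intro hunit
    apply hdinv
    obtain ⟨v, hv⟩ := hunit
    have h2 : ((v⁻¹ : Aˣ) : A) * (⟨d, hdA⟩ : A) = 1 := by rw [← hv]; exact Units.inv_mul v
    have h3 : (((v⁻¹ : Aˣ) : A) : K) * d = 1 := by
      have := congrArg Subtype.val h2
      simpa using this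
    have h4 : d⁻¹ = (((v⁻¹ : Aˣ) : A) : K) := by
      field_simp
      rw [mul_comm]; exact h3.symm
    rw [h4]; exact ((v⁻¹ : Aˣ) : A).2
  rw [h1, map_mul, red_C A hdA, hres, map_zero, zero_mul]

/-- Dividing a one-component-like element `z` by a joint unit `s` with the same `i`-th reduction
gives a one-component element with `i`-th reduction `1`. -/
theorem oneComp_div_unit (i : ι) (z s : F) (hz : ε i z ∈ Ocal A)
    (hzs : ∀ k, k ≠ i → IsSmall A (ε k z))
    (hs : ∀ k, ε k s ∈ Ocal A) (hsr : ∀ k, red A ⟨_, hs k⟩ ≠ 0)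
    (hzr : red A ⟨_, hz⟩ = red A ⟨_, hs i⟩) :
    ∃ he : OneComp A ε i (z / s), red A ⟨_, he.mem⟩ = 1 := by
  have hinv : ∀ k, (ε k s)⁻¹ ∈ Ocal A := fun k => inv_mem_Ocal A ⟨_, hs k⟩ (hsr k)
  have hE : ∀ k, ε k (z / s) = ε k z * (ε k s)⁻¹ := fun k => by rw [map_div₀, div_eq_mul_inv]
  have hmem : ε i (z / s) ∈ Ocal A := by rw [hE]; exact (Ocal A).mul_mem hz (hinv i)
  have hred : red A ⟨_, hmem⟩ = 1 := by
    have h1 : (⟨_, hmem⟩ : Ocal A) = ⟨_, hz⟩ * ⟨_, hinv i⟩ := Subtype.ext (hE i)
    rw [h1, map_mul, red_inv A ⟨_, hs i⟩ (hsr i), hzr, mul_inv_cancel₀ (hsr i)]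
  refine ⟨⟨hmem, ?_, fun k hk => ?_⟩, hred⟩
  · rw [hred]; exact one_ne_zero
  · rw [hE]; exact isSmall_mul_right (hzs k hk) (hinv k)

/-! ### One coordinate -/

/-- For `y` with `ε i y ∈ Ocal` some `y * e ^ s` (`e` a one-component element of the coordinate
`i`) is integral in every coordinate.  Only the coordinate `i` needs a one-component element. -/
theorem exists_pow_mul_mem_one [Finite ι] (hJ : JointScale A ε) (hR : ValArch.RankOne A)
    (i : ι) (e : F) (he : OneComp A ε i e) (y : F) (hy : ε i y ∈ Ocal A) :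
    ∃ s : ℕ, ∀ k, ε k (y * e ^ s) ∈ Ocal A := by
  classical
  cases nonempty_fintype ι
  by_cases hy0 : y = 0
  · refine ⟨0, fun k => ?_⟩
    rw [hy0, zero_mul, map_zero]; exact (Ocal A).zero_mem
  obtain ⟨c, hc, hv, -⟩ := hJ y hy0
  have hex : ∀ k, ∃ s : ℕ, ∀ t : ℕ, s ≤ t → ε k (y * e ^ t) ∈ Ocal A := by
    intro k
    by_cases hk : k = i
    · subst hk
      refine ⟨0, fun t _ => ?_⟩
      rw [map_mul, map_pow]
      exact (Ocal A).mul_mem hy ((Ocal A).pow_mem he.mem t)
    · obtain ⟨d, hd, hdinv, u, hu, hfac⟩ := he.small k hk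
      obtain ⟨s, hs⟩ := hR c d hc hd hdinv
      have hdA : d ∈ A := (A.mem_or_inv_mem d).resolve_right hdinv
      refine ⟨s, fun t hst => ?_⟩
      have hdt : d ^ t * c⁻¹ ∈ A := by
        obtain ⟨r, rfl⟩ := Nat.exists_eq_add_of_le hst
        have : d ^ (s + r) * c⁻¹ = d ^ r * (d ^ s * c⁻¹) := by rw [pow_add]; ring
        rw [this]
        exact A.mul_mem _ _ (A.pow_mem hdA r) hs
      have hCC : (HahnSeries.C c⁻¹ : LaurentSeries K) * HahnSeries.C c = 1 := by
        rw [← map_mul, inv_mul_cancel₀ hc, map_one]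
      have hE : ε k (y * e ^ t) =
          HahnSeries.C (d ^ t * c⁻¹) * ((HahnSeries.C c * ε k y) * u ^ t) := by
        rw [map_mul, map_pow, hfac, mul_pow, map_mul, map_pow]
        calc ε k y * ((HahnSeries.C d : LaurentSeries K) ^ t * u ^ t)
            = (HahnSeries.C c⁻¹ * HahnSeries.C c) *
                (ε k y * ((HahnSeries.C d : LaurentSeries K) ^ t * u ^ t)) := by
              rw [hCC, one_mul]
          _ = _ := by ring
      rw [hE]
      exact (Ocal A).mul_mem (C_mem_Ocal A hdt)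
        ((Ocal A).mul_mem (hv k) ((Ocal A).pow_mem hu t))
  choose s hs using hex
  exact ⟨Finset.univ.sup s, fun k => hs k _ (Finset.le_sup (Finset.mem_univ k))⟩

/-- **(HB)**, one coordinate: a property of the `i`-th reductions of the jointly integral elements
of `F` holds for the reductions of all `y` with `ε i y ∈ Ocal`. -/
theorem redInto_one [Finite ι] (hJ : JointScale A ε) (hR : ValArch.RankOne A)
    (i : ι) (e : F) (he : OneComp A ε i e) (he1 : red A ⟨_, he.mem⟩ = 1)
    (P : LaurentSeries (IsLocalRing.ResidueField A) → Prop)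
    (hP : ∀ (g : F) (h : ∀ k, ε k g ∈ Ocal A), P (red A ⟨_, h i⟩)) :
    ∀ (y : F) (hy : ε i y ∈ Ocal A), P (red A ⟨_, hy⟩) := by
  intro y hy
  obtain ⟨s, hs⟩ := exists_pow_mul_mem_one hJ hR i e he y hy
  have := hP _ hs
  rw [red_mul_pow i e y he.mem hy s (hs i), he1, one_pow, mul_one] at this
  exact this

end Fermat.Agent.S36.ValArchOne

namespace Fermat.Agent.S36.ValArchOne

open ModularCurve Fermat.Agent.S24 Fermat.Agent.S18.Content Fermat.Agent.S18.Plan
open Fermat.Agent.S34 Fermat.Agent.S36.ValArchFam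

/-- **(V1') and (HB) in the `S34.CharBad` spelling**, for a finite family of expansions of `F_N`
whose coordinate `i₀` is the inclusion `F_N ⊂ Q̄((T))`: from joint scaling, the range of the
`i₀`-th reduction on jointly integral elements, and a one-component element for `i₀`. -/
theorem scaleProp_redInto_of_family (A : ValuationSubring Kbar) (q : ℕ) [Fact q.Prime]
    (hA : A.LiesOverPrime q) {N n : ℕ} {ι : Type*} [Finite ι]
    (ε : ι → FN N →ₐ[Kbar] Om) (i₀ : ι) (hi₀ : ∀ y : FN N, ε i₀ y = (y : Om))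
    (hJ : JointScale A ε) (e : FN N) (he : OneComp A ε i₀ e)
    (he1 : red A ⟨_, he.mem⟩ = 1)
    (hrange : ∀ (g : FN N) (h : ∀ k, ε k g ∈ Ocal A), red A ⟨_, h i₀⟩ ∈ Fk A n) :
    CharBad.ScaleProp A N ∧ CharBad.RedInto A N n := by
  have hR : ValArch.RankOne A := ValArch.rankOne_algClosure A q hA
  refine ⟨?_, ?_⟩
  · intro y hy hy0
    have hyF : (⟨y, hy⟩ : FN N) ≠ 0 := fun h0 => hy0 (congrArg Subtype.val h0)
    obtain ⟨c, hc, h, hr⟩ := scale₁ hJ hR i₀ e he ⟨y, hy⟩ hyF
    have hE : HahnSeries.C c * ε i₀ (⟨y, hy⟩ : FN N) = HahnSeries.C c * y := by rw [hi₀]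
    have h' : HahnSeries.C c * y ∈ Ocal A := by rw [← hE]; exact h
    exact ⟨c, hc, h', fun h0 => hr ((red_congr A hE h h').trans h0)⟩
  · intro y hy
    have hE : ε i₀ (⟨(y : Om), hy⟩ : FN N) = (y : Om) := hi₀ _
    have hm : ε i₀ (⟨(y : Om), hy⟩ : FN N) ∈ Ocal A := by rw [hE]; exact y.2
    have := redInto_one hJ hR i₀ e he he1 (fun x => x ∈ Fk A n) hrange ⟨(y : Om), hy⟩ hm
    rwa [red_congr A hE hm y.2] at this

end Fermat.Agent.S36.ValArchOne

end
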